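import Fermat.Agent.Red.KR.MEAlpha
import Fermat.Agent.Red.KR.NormFin
import Fermat.Agent.Red.Kron.FrickeGal

/-!
# W3-LGC / G1b: the Fricke involution preserves the finite chart of level `Nℓ`

For a prime `ℓ ∤ N` and a valuation subring `A` of `ℚ̄` over `ℓ`, the Fricke involution
`w = kFricke N ℓ` maps `modelFin (N * ℓ) A` (the integral closure of `A[j]` in `F_{Nℓ}`) onto
itself: `h44g_kFricke_mem_modelFin`, `h44g_kFricke_mem_modelFin_iff`.

(The chart at infinity is *not* `w`-stable: `w (modelInf) = ` integral closure of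
`A[1 / j(q^ℓ)]`, see `h44g_kFricke_mem_modelInf`.)
-/

set_option autoImplicit false
set_option linter.unusedSectionVars false

open ModularCurve AlgebraicCurve

noncomputable section

namespace Fermat.Agent.LGC

open Fermat.Agent.S37 Fermat.Agent.Red.Kron Fermat.Agent.Red.KR

variable (N ℓ : ℕ) [NeZero N] [NeZero ℓ]

theorem h44g_kFricke_jB (hℓ : ℓ.Prime) (hN : ¬ ℓ ∣ N) :
    kFricke N ℓ hℓ hN (jB (N * ℓ)) = heckeBetaBar Kbar N ℓ (jB N) := by
  have e3 : jB (N * ℓ) = heckeAlphaBar Kbar N ℓ (jB N) :=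
    (Fermat.Agent.Red.HKMod.heckeAlphaBar_jBar N ℓ).symm
  rw [e3, kFricke_alpha]

/-- `w` maps the chart `A[t]`-integral closure to the `A[w t]`-integral closure. -/
theorem h44g_kFricke_mem_modelAt (hℓ : ℓ.Prime) (hN : ¬ ℓ ∣ N) (A : ValuationSubring Kbar)
    {t x : FF (N * ℓ)} (hx : x ∈ modelAt (N * ℓ) A t) :
    kFricke N ℓ hℓ hN x ∈ modelAt (N * ℓ) A (kFricke N ℓ hℓ hN t) :=
  map_mem_modelAt ((kFricke N ℓ hℓ hN : FF (N * ℓ) ≃ₐ[Kbar] FF (N * ℓ)) :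
    FF (N * ℓ) →ₐ[Kbar] FF (N * ℓ)) A hx

/-- **G1b.**  The Fricke involution preserves the finite chart. -/
theorem h44g_kFricke_mem_modelFin (hℓ : ℓ.Prime) (hN : ¬ ℓ ∣ N) (A : ValuationSubring Kbar)
    (hA : A.LiesOverPrime ℓ) {x : FF (N * ℓ)} (hx : x ∈ modelFin (N * ℓ) A) :
    kFricke N ℓ hℓ hN x ∈ modelFin (N * ℓ) A := by
  have h1 := h44g_kFricke_mem_modelAt N ℓ hℓ hN A hx
  rw [h44g_kFricke_jB] at h1
  have h2 : heckeBetaBar Kbar N ℓ (jB N) ∈ modelAt (N * ℓ) A (jB (N * ℓ)) :=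
    meAlpha N ℓ hℓ hN A hA
  exact h66_modelAt_le_of_mem (N * ℓ) A h2 h1

theorem h44g_kFricke_mem_modelFin_iff (hℓ : ℓ.Prime) (hN : ¬ ℓ ∣ N)
    (A : ValuationSubring Kbar) (hA : A.LiesOverPrime ℓ) (x : FF (N * ℓ)) :
    kFricke N ℓ hℓ hN x ∈ modelFin (N * ℓ) A ↔ x ∈ modelFin (N * ℓ) A := by
  constructor
  · intro h
    have h1 := h44g_kFricke_mem_modelFin N ℓ hℓ hN A hA h
    rwa [kFricke_kFricke] at h1
  · exact h44g_kFricke_mem_modelFin N ℓ hℓ hN A hA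

/-- the image of the chart at infinity: `w (modelInf)` is the integral closure of
`A[1 / j(q^ℓ)]`. -/
theorem h44g_kFricke_mem_modelInf (hℓ : ℓ.Prime) (hN : ¬ ℓ ∣ N) (A : ValuationSubring Kbar)
    {x : FF (N * ℓ)} (hx : x ∈ modelInf (N * ℓ) A) :
    kFricke N ℓ hℓ hN x ∈ modelAt (N * ℓ) A (heckeBetaBar Kbar N ℓ (jB N))⁻¹ := by
  have h1 := h44g_kFricke_mem_modelAt N ℓ hℓ hN A hx
  rwa [map_inv₀, h44g_kFricke_jB] at h1

end Fermat.Agent.LGC
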