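import Fermat.Agent.LGC.Res44
import Fermat.Agent.LGC.FrickeChart
import Fermat.Agent.S37.Smooth37

/-!
# W3-LGC / I7 (helper44): the two components of the special fibre are copies of level `M`

`ℓ ∤ M` prime, `auxLevel ℓ ∣ M`, `A` a valuation subring of `ℚ̄` over `ℓ`, `N = Mℓ`,
`B = modelFin N A`, `Λ = modelFin M A`, `α, β : F_M → F_N`, `w` the Fricke involution,
`red_∞ = softR`, `red_0 = softR ∘ w`.

* `h44c_hsurj_inf` : `B = α(Λ) + P_∞`: for every `b ∈ B` there is `x ∈ Λ` with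
  `red_∞ (b - α x) = 0`.
* `h44c_hsurj_zero` : `B = β(Λ) + P_0`: for every `b ∈ B` there is `x ∈ Λ` with
  `red_0 (b - β x) = 0`.

Proof: by the trace lemma (K3) `red_∞ b · red (j - j^{ℓ²}) = red x₁` with
`x₁ = Tr_α (b (αj - (βj)^ℓ)) ∈ Λ`; `red_∞ b` is integral over `red Λ ≅ Λ / 𝔪_A Λ`, which is a
Dedekind domain (`IfaceSmooth`), hence integrally closed.
-/

set_option autoImplicit false
set_option linter.style.haveILetI false
set_option linter.unusedSectionVars false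
set_option synthInstance.maxHeartbeats 400000

open AlgebraicCurve ModularCurve IsLocalRing Polynomial

noncomputable section

namespace Fermat.Agent.LGC

open Fermat.Agent.S37 Fermat.Agent.Red Fermat.Agent.Red.GV Fermat.Agent.Red.GV.Soft
  Fermat.Agent.Red.TRK Fermat.Agent.Red.Kron

/-- an element of a field which is a fraction of elements of an integrally closed domain `R`
and is integral over `R` lies in `R`. -/
theorem h44c_exists_of_integral {R L : Type*} [CommRing R] [IsDomain R] [IsIntegrallyClosed R]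
    [Field L] (φ : R →+* L) (hφ : Function.Injective φ) (z : L) (d x₁ : R) (hd : φ d ≠ 0)
    (hz : z * φ d = φ x₁) (hint : φ.IsIntegralElem z) : ∃ x : R, φ x = z := by
  classical
  let ψ : FractionRing R →+* L := IsFractionRing.lift hφ
  have hψ : ∀ r, ψ (algebraMap R (FractionRing R) r) = φ r := fun r =>
    IsFractionRing.lift_algebraMap hφ r
  have hψc : ψ.comp (algebraMap R (FractionRing R)) = φ := RingHom.ext hψ
  obtain ⟨z', hz'⟩ : ∃ z' : FractionRing R, ψ z' = z := by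
    refine ⟨algebraMap R (FractionRing R) x₁ / algebraMap R (FractionRing R) d, ?_⟩
    rw [map_div₀, hψ, hψ, ← hz, mul_div_assoc, div_self hd, mul_one]
  obtain ⟨P, hP, hPz⟩ := hint
  have hint' : IsIntegral R z' := by
    refine ⟨P, hP, ψ.injective ?_⟩
    rw [Polynomial.hom_eval₂, map_zero, hψc, hz']
    exact hPz
  obtain ⟨x, hx⟩ := IsIntegrallyClosed.isIntegral_iff.mp hint'
  exact ⟨x, by rw [← hψ, hx, hz']⟩

variable (A : ValuationSubring Kbar) (M ℓ : ℕ) [NeZero M] [NeZero ℓ]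

/-- the reduction map on the finite chart of level `M`. -/
def h44c_phi0 (hℓ : ℓ.Prime) (hM : ¬ ℓ ∣ M) (hA : A.LiesOverPrime ℓ) :
    ↥(modelFin M A) →+* LaurentSeries (IsLocalRing.ResidueField A) :=
  (gaussR A M).comp (Subring.inclusion (modelFin_le_gaussV A M hℓ hM hA))

theorem h44c_phi0_apply (hℓ : ℓ.Prime) (hM : ¬ ℓ ∣ M) (hA : A.LiesOverPrime ℓ)
    (x : modelFin M A) :
    h44c_phi0 A M ℓ hℓ hM hA x =
      gaussR A M ⟨(x : FF M), modelFin_le_gaussV A M hℓ hM hA x.2⟩ := rfl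

/-- the kernel of the reduction on the finite chart of level `M` is `𝔪_A Λ`. -/
theorem h44c_phi0_eq_zero_iff (hℓ : ℓ.Prime) (hM : ¬ ℓ ∣ M) (hA : A.LiesOverPrime ℓ)
    (x : modelFin M A) :
    h44c_phi0 A M ℓ hℓ hM hA x = 0 ↔ x ∈ maxExt A (modelFin M A) := by
  constructor
  · intro h
    obtain ⟨c, x', -, hc, hx', hxx'⟩ := exists_eq_cst_mul_of_gaussR_eq_zero_fin A M hℓ hM hA
      ⟨(x : FF M), modelFin_le_gaussV A M hℓ hM hA x.2⟩ x.2 h
    have hcm : cst M c ∈ modelFin M A :=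
      Fermat.Agent.Red.Match.cst_mem_modelAt M A (jB M) (A.nonunits_subset hc)
    have e : x = (⟨cst M c, hcm⟩ : modelFin M A) * ⟨x', hx'⟩ := Subtype.ext hxx'
    rw [e]
    exact Ideal.mul_mem_right _ _ (Ideal.subset_span ⟨c, hc, rfl⟩)
  · intro h
    have hle : maxExt A (modelFin M A) ≤ RingHom.ker (h44c_phi0 A M ℓ hℓ hM hA) := by
      refine Ideal.span_le.2 ?_
      rintro y ⟨a, ha, hy⟩
      rw [SetLike.mem_coe, RingHom.mem_ker, h44c_phi0_apply]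
      have hcst : cst M a ∈ gaussV A M := (cst_mem_gaussV_iff A M hA a).2 (A.nonunits_subset ha)
      have e : (⟨(y : FF M), modelFin_le_gaussV A M hℓ hM hA y.2⟩ : gaussV A M) =
          ⟨cst M a, hcst⟩ := Subtype.ext hy
      rw [e]
      exact gaussR_cst_of_nonunit A M hA a ha hcst
    exact hle h

/-- the reduction map on `Λ / 𝔪_A Λ`. -/
def h44c_phi (hℓ : ℓ.Prime) (hM : ¬ ℓ ∣ M) (hA : A.LiesOverPrime ℓ) :
    (↥(modelFin M A) ⧸ maxExt A (modelFin M A)) →+*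
      LaurentSeries (IsLocalRing.ResidueField A) :=
  Ideal.Quotient.lift _ (h44c_phi0 A M ℓ hℓ hM hA)
    (fun x hx => (h44c_phi0_eq_zero_iff A M ℓ hℓ hM hA x).2 hx)

theorem h44c_phi_mk (hℓ : ℓ.Prime) (hM : ¬ ℓ ∣ M) (hA : A.LiesOverPrime ℓ)
    (x : modelFin M A) :
    h44c_phi A M ℓ hℓ hM hA (Ideal.Quotient.mk _ x) = h44c_phi0 A M ℓ hℓ hM hA x := rfl

theorem h44c_phi_injective (hℓ : ℓ.Prime) (hM : ¬ ℓ ∣ M) (hA : A.LiesOverPrime ℓ) :
    Function.Injective (h44c_phi A M ℓ hℓ hM hA) :=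
  RingHom.lift_injective_of_ker_le_ideal _ _
    (fun x hx => (h44c_phi0_eq_zero_iff A M ℓ hℓ hM hA x).1 hx)

/-- **integrally closed image**: an element `z` of `k((q))` which is integral over `red Λ` and
satisfies `z · red d = red x₁` with `red d ≠ 0` lies in `red Λ`. -/
theorem h44c_exists_red_eq (hℓ : ℓ.Prime) (hM : ¬ ℓ ∣ M) (haux : auxLevel ℓ ∣ M)
    (hA : A.LiesOverPrime ℓ) (z : LaurentSeries (IsLocalRing.ResidueField A))
    (d x₁ : modelFin M A) (hd : h44c_phi0 A M ℓ hℓ hM hA d ≠ 0)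
    (hz : z * h44c_phi0 A M ℓ hℓ hM hA d = h44c_phi0 A M ℓ hℓ hM hA x₁)
    (hint : (h44c_phi0 A M ℓ hℓ hM hA).IsIntegralElem z) :
    ∃ x : modelFin M A, h44c_phi0 A M ℓ hℓ hM hA x = z := by
  haveI hded : IsDedekindDomain (↥(modelFin M A) ⧸ maxExt A (modelFin M A)) :=
    (h37_ifaceSmooth ℓ hℓ M hM haux A hA).1
  obtain ⟨P, hP, hPz⟩ := hint
  have hint' : (h44c_phi A M ℓ hℓ hM hA).IsIntegralElem z := by
    refine ⟨P.map (Ideal.Quotient.mk _), hP.map _, ?_⟩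
    rw [Polynomial.eval₂_map]
    exact hPz
  obtain ⟨x, hx⟩ := h44c_exists_of_integral (h44c_phi A M ℓ hℓ hM hA)
    (h44c_phi_injective A M ℓ hℓ hM hA) z (Ideal.Quotient.mk _ d) (Ideal.Quotient.mk _ x₁)
    hd hz hint'
  obtain ⟨x', rfl⟩ := Ideal.Quotient.mk_surjective x
  exact ⟨x', hx⟩

/-- the reduction at `∞` of a chart function of level `Mℓ` is integral over `red Λ`. -/
theorem h44c_isIntegralElem_softR (hℓ : ℓ.Prime) (hM : ¬ ℓ ∣ M) (hA : A.LiesOverPrime ℓ)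
    (b : FF (M * ℓ)) (hb : b ∈ modelAt (M * ℓ) A (heckeAlphaBar Kbar M ℓ (jB M)))
    (hbs : b ∈ softV A (M * ℓ)) :
    (h44c_phi0 A M ℓ hℓ hM hA).IsIntegralElem (softR A (M * ℓ) ⟨b, hbs⟩) := by
  rw [Fermat.Agent.Red.KR.mem_modelAt_iff_evalF] at hb
  obtain ⟨p, hp, hpb⟩ := hb
  let g : Polynomial A →+* ↥(modelFin M A) :=
    (evalF M A (jB M)).codRestrict (modelFin M A) (fun Q =>
      Fermat.Agent.Red.Match.ringAdj_le_modelAt M A (jB M) (evalF_mem_ringAdj M A (jB M) Q))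
  have hgV : ∀ Q : Polynomial A, heckeAlphaBar Kbar M ℓ ((g Q : modelFin M A) : FF M) ∈
      softV A (M * ℓ) := fun Q =>
    (alpha_mem_softV_iff A ℓ _).mpr
      (gaussV_le_softV A M (modelFin_le_gaussV A M hℓ hM hA (g Q).2))
  let G : Polynomial A →+* ↥(softV A (M * ℓ)) :=
    ((heckeAlphaBar Kbar M ℓ).toRingHom.comp ((modelFin M A).subtype.comp g)).codRestrict
      (softV A (M * ℓ)) hgV
  have hG : (softV A (M * ℓ)).subtype.comp G =
      evalF (M * ℓ) A (heckeAlphaBar Kbar M ℓ (jB M)) := by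
    rw [← Fermat.Agent.Red.KR.comp_evalF (heckeAlphaBar Kbar M ℓ) A (jB M)]
    rfl
  have h1 : Polynomial.eval₂ G (⟨b, hbs⟩ : softV A (M * ℓ)) p = 0 := by
    apply Subtype.val_injective
    have h2 := Polynomial.hom_eval₂ p G (softV A (M * ℓ)).subtype ⟨b, hbs⟩
    rw [hG] at h2
    exact h2.trans hpb
  have h3 := congrArg (softR A (M * ℓ)) h1
  rw [Polynomial.hom_eval₂, map_zero] at h3
  have hcomp : (softR A (M * ℓ)).comp G = (h44c_phi0 A M ℓ hℓ hM hA).comp g := by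
    refine RingHom.ext fun Q => ?_
    show softR A (M * ℓ) ⟨heckeAlphaBar Kbar M ℓ ((g Q : modelFin M A) : FF M), hgV Q⟩ =
      gaussR A M ⟨((g Q : modelFin M A) : FF M), modelFin_le_gaussV A M hℓ hM hA (g Q).2⟩
    rw [softR_alpha A ℓ ⟨_, gaussV_le_softV A M (modelFin_le_gaussV A M hℓ hM hA (g Q).2)⟩
      (hgV Q)]
    exact softR_eq_gaussR A M _ _ _
  refine ⟨p.map g, hp.map _, ?_⟩
  rw [Polynomial.eval₂_map, ← hcomp]
  exact h3

/-- **I7, component at `∞`: `B = α(Λ) + P_∞`.**  For every function `b` of the finite chart of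
level `Mℓ` there is a function `x` of the finite chart of level `M` with
`red_∞ (b - α x) = 0`. -/
theorem h44c_hsurj_inf (hℓ : ℓ.Prime) (hM : ¬ ℓ ∣ M) (haux : auxLevel ℓ ∣ M)
    (hA : A.LiesOverPrime ℓ) (b : FF (M * ℓ)) (hb : b ∈ modelFin (M * ℓ) A) :
    ∃ x ∈ modelFin M A, ∃ h : b - heckeAlphaBar Kbar M ℓ x ∈ softV A (M * ℓ),
      softR A (M * ℓ) ⟨_, h⟩ = 0 := by
  haveI : Fact ℓ.Prime := ⟨hℓ⟩
  haveI : CharP (IsLocalRing.ResidueField A) ℓ :=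
    Base.h80_charP A (IsLocalRing.residue A) ℓ (isResidueMap_residue A ℓ hA)
  haveI : ExpChar (IsLocalRing.ResidueField A) ℓ := ExpChar.prime hℓ
  obtain ⟨r, hr⟩ : ∃ r, r = jqModC (IsLocalRing.ResidueField A) := ⟨_, rfl⟩
  have hj : jB M ∈ softV A M := gaussV_le_softV A M (jB_mem_gaussV A M)
  have hrj : softR A M ⟨jB M, hj⟩ = r := by rw [hr]; exact h44r_softR_jB A M hj
  have hpow : r ^ ℓ = qExpand _ ℓ r := by rw [hr]; exact h44r_jqModC_pow _ ℓ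
  have hrD0 : r - r ^ (ℓ ^ 2) ≠ 0 := by
    rw [hr]
    exact h44r_jqModC_sub_ne_zero _ (ℓ ^ 2) (by nlinarith [hℓ.two_le])
  have haj : heckeAlphaBar Kbar M ℓ (jB M) ∈ softV A (M * ℓ) :=
    (alpha_mem_softV_iff A ℓ _).mpr hj
  have hbj : heckeBetaBar Kbar M ℓ (jB M) ∈ softV A (M * ℓ) := beta_mem_softV A ℓ _ hj
  have hraj : softR A (M * ℓ) ⟨_, haj⟩ = r := (softR_alpha A ℓ ⟨_, hj⟩ haj).trans hrj
  have hrbj : softR A (M * ℓ) ⟨_, hbj⟩ = qExpand _ ℓ r := by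
    rw [softR_beta A ℓ ⟨_, hj⟩ hbj, hrj]
  -- `b ∈ ssV`
  have hjeq : heckeAlphaBar Kbar M ℓ (jB M) = jB (M * ℓ) :=
    Fermat.Agent.Red.HKMod.heckeAlphaBar_jBar M ℓ
  have hb' : b ∈ modelAt (M * ℓ) A (heckeAlphaBar Kbar M ℓ (jB M)) := by
    rw [hjeq]
    exact hb
  have hbss : b ∈ ssV A M ℓ :=
    h44v_modelAt_le_ssV A M ℓ hA (jB M) (h44v_jB_mem_gaussV A M ℓ hℓ hM hA) hb'
  obtain ⟨hbs, hwbs⟩ := (h44r_mem_ssV_iff A M ℓ hℓ hM hA b).1 hbss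
  -- the numerator of the separating element
  obtain ⟨num, hnum⟩ : ∃ num : FF (M * ℓ),
      num = heckeAlphaBar Kbar M ℓ (jB M) - heckeBetaBar Kbar M ℓ (jB M) ^ ℓ := ⟨_, rfl⟩
  have hnumV : num ∈ softV A (M * ℓ) := by
    rw [hnum]
    exact sub_mem haj (pow_mem hbj ℓ)
  have hnumB : num ∈ modelAt (M * ℓ) A (heckeAlphaBar Kbar M ℓ (jB M)) := by
    rw [hnum, hjeq]
    refine sub_mem (Fermat.Agent.Red.Match.ringAdj_le_modelAt _ A _
      (self_mem_ringAdj _ A _)) (pow_mem ?_ ℓ)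
    exact Fermat.Agent.Red.KR.meAlpha M ℓ hℓ hM A hA
  have hwnum : kFricke M ℓ hℓ hM num =
      heckeBetaBar Kbar M ℓ (jB M) - heckeAlphaBar Kbar M ℓ (jB M) ^ ℓ := by
    rw [hnum, map_sub, map_pow, kFricke_alpha, kFricke_beta]
  have hwnumV : kFricke M ℓ hℓ hM num ∈ softV A (M * ℓ) := by
    rw [hwnum]
    exact sub_mem hbj (pow_mem haj ℓ)
  have hrnum : softR A (M * ℓ) ⟨num, hnumV⟩ = r - r ^ (ℓ ^ 2) := by
    have e : (⟨num, hnumV⟩ : softV A (M * ℓ)) = ⟨_, haj⟩ - ⟨_, hbj⟩ ^ ℓ := Subtype.ext hnum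
    rw [e, map_sub (softR A (M * ℓ)), map_pow (softR A (M * ℓ)), hraj, hrbj, ← hpow,
      ← pow_mul, ← sq]
  have hrwnum : softR A (M * ℓ) ⟨_, hwnumV⟩ = 0 := by
    have e : (⟨_, hwnumV⟩ : softV A (M * ℓ)) = ⟨_, hbj⟩ - ⟨_, haj⟩ ^ ℓ := Subtype.ext hwnum
    rw [e, map_sub (softR A (M * ℓ)), map_pow (softR A (M * ℓ)), hraj, hrbj, ← hpow, sub_self]
  -- the trace of `b * num`
  have hx' : b * num ∈ softV A (M * ℓ) := mul_mem hbs hnumV
  have hwx' : kFricke M ℓ hℓ hM (b * num) ∈ softV A (M * ℓ) := by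
    rw [map_mul]
    exact mul_mem hwbs hwnumV
  have h0 : softR A (M * ℓ) ⟨_, hwx'⟩ = 0 := by
    have e1 : (⟨_, hwx'⟩ : softV A (M * ℓ)) = ⟨_, hwbs⟩ * ⟨_, hwnumV⟩ :=
      Subtype.ext (map_mul _ _ _)
    rw [e1, map_mul, hrwnum, mul_zero]
  obtain ⟨hy, hry⟩ := h44r_trace A M ℓ hℓ hM hA (b * num) hx' hwx' h0
  have hx₁ : h44r_tr M ℓ (b * num) ∈ modelFin M A := by
    rw [h44r_tr]
    apply neg_mem
    rw [Polynomial.nextCoeff]
    split_ifs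
    · exact zero_mem _
    · exact h87_coeff_mem_modelAt (heckeAlphaBar Kbar M ℓ) _ A (jB M) (mul_mem hb' hnumB) _
  have hDm : jB M - jB M ^ (ℓ ^ 2) ∈ modelFin M A := by
    have hjm : jB M ∈ modelFin M A :=
      Fermat.Agent.Red.Match.ringAdj_le_modelAt _ A _ (self_mem_ringAdj _ A _)
    exact sub_mem hjm (pow_mem hjm _)
  have hφD : h44c_phi0 A M ℓ hℓ hM hA ⟨_, hDm⟩ = r - r ^ (ℓ ^ 2) := by
    rw [h44c_phi0_apply]
    have hD : jB M - jB M ^ (ℓ ^ 2) ∈ softV A M := sub_mem hj (pow_mem hj _)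
    rw [← softR_eq_gaussR A M _ hD _]
    have e : (⟨_, hD⟩ : softV A M) = ⟨jB M, hj⟩ - ⟨jB M, hj⟩ ^ (ℓ ^ 2) := rfl
    rw [e, map_sub (softR A M), map_pow (softR A M), hrj]
  have hφx₁ : h44c_phi0 A M ℓ hℓ hM hA ⟨_, hx₁⟩ =
      softR A (M * ℓ) ⟨b, hbs⟩ * (r - r ^ (ℓ ^ 2)) := by
    rw [h44c_phi0_apply, ← softR_eq_gaussR A M _ hy _, hry]
    have e2 : (⟨_, hx'⟩ : softV A (M * ℓ)) = ⟨b, hbs⟩ * ⟨num, hnumV⟩ := rfl
    rw [e2, map_mul, hrnum]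
  obtain ⟨x, hx⟩ := h44c_exists_red_eq A M ℓ hℓ hM haux hA (softR A (M * ℓ) ⟨b, hbs⟩)
    ⟨_, hDm⟩ ⟨_, hx₁⟩ (by rw [hφD]; exact hrD0) (by rw [hφD, hφx₁])
    (h44c_isIntegralElem_softR A M ℓ hℓ hM hA b hb' hbs)
  have hxV : (x : FF M) ∈ softV A M :=
    gaussV_le_softV A M (modelFin_le_gaussV A M hℓ hM hA x.2)
  have hαx : heckeAlphaBar Kbar M ℓ (x : FF M) ∈ softV A (M * ℓ) :=
    (alpha_mem_softV_iff A ℓ _).mpr hxV
  refine ⟨x, x.2, sub_mem hbs hαx, ?_⟩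
  have e : (⟨_, sub_mem hbs hαx⟩ : softV A (M * ℓ)) = ⟨b, hbs⟩ - ⟨_, hαx⟩ := rfl
  rw [e, map_sub (softR A (M * ℓ)), softR_alpha A ℓ ⟨_, hxV⟩ hαx,
    softR_eq_gaussR A M _ hxV (modelFin_le_gaussV A M hℓ hM hA x.2), ← hx, h44c_phi0_apply,
    sub_self]

/-- **I7, component at `0`: `B = β(Λ) + P_0`.** -/
theorem h44c_hsurj_zero (hℓ : ℓ.Prime) (hM : ¬ ℓ ∣ M) (haux : auxLevel ℓ ∣ M)
    (hA : A.LiesOverPrime ℓ) (b : FF (M * ℓ)) (hb : b ∈ modelFin (M * ℓ) A) :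
    ∃ x ∈ modelFin M A,
      ∃ h : kFricke M ℓ hℓ hM (b - heckeBetaBar Kbar M ℓ x) ∈ softV A (M * ℓ),
        softR A (M * ℓ) ⟨_, h⟩ = 0 := by
  obtain ⟨x, hx, h, h0⟩ := h44c_hsurj_inf A M ℓ hℓ hM haux hA _
    (h44g_kFricke_mem_modelFin M ℓ hℓ hM A hA hb)
  have e : kFricke M ℓ hℓ hM (b - heckeBetaBar Kbar M ℓ x) =
      kFricke M ℓ hℓ hM b - heckeAlphaBar Kbar M ℓ x := by
    rw [map_sub, kFricke_beta]
  have h' : kFricke M ℓ hℓ hM (b - heckeBetaBar Kbar M ℓ x) ∈ softV A (M * ℓ) := by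
    rw [e]
    exact h
  refine ⟨x, hx, h', ?_⟩
  have e2 : (⟨_, h'⟩ : softV A (M * ℓ)) = ⟨_, h⟩ := Subtype.ext e
  rw [e2, h0]

end Fermat.Agent.LGC
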