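import Fermat.Agent.LGC.Comp44
import Fermat.Agent.Red.SM.HAlg
import Fermat.Agent.Red.GGChart

/-!
# W3-LGC / I7-INF (helper44): the two components, chart at infinity

`ℓ ∤ M` prime, `auxLevel ℓ ∣ M`, `A` a valuation subring of `ℚ̄` over `ℓ`, `N = Mℓ`,
`B' = modelInf N A`, `Λ' = modelInf M A`, `w` the Fricke involution.

* `h44i_hsurj_inf`  : for every `b ∈ B'` there is `x ∈ Λ'` with `red_∞ (b - α x) = 0`.
* `h44i_hsurj_zero` : for every `b ∈ B'` there is `x ∈ Λ'` with `red_∞ (w b - α x) = 0`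
  (note: `β x` need not lie in `B'`).
* `h44i_exists_red_eq` : a Gauss-integral `y` of level `M` whose reduction is integral over
  `red Λ'` is congruent to an element of `Λ'`.
-/

set_option autoImplicit false
set_option linter.style.haveILetI false
set_option linter.unusedSectionVars false
set_option synthInstance.maxHeartbeats 400000

open AlgebraicCurve ModularCurve IsLocalRing Polynomial

noncomputable section

namespace Fermat.Agent.LGC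

open Fermat.Agent.S37 Fermat.Agent.Red Fermat.Agent.Red.GV Fermat.Agent.Red.GV.Soft
  Fermat.Agent.Red.TRK Fermat.Agent.Red.Kron

variable (A : ValuationSubring Kbar) (M ℓ : ℕ) [NeZero M] [NeZero ℓ]

theorem h44i_modelInf_le_softV (hℓ : ℓ.Prime) (hM : ¬ ℓ ∣ M) (hA : A.LiesOverPrime ℓ) :
    modelInf M A ≤ softV A M :=
  fun _ hx => gaussV_le_softV A M (modelInf_le_gaussV A M hℓ hM hA hx)

/-- the reduction map on the chart at infinity of level `M`. -/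
def h44i_phi0 (hℓ : ℓ.Prime) (hM : ¬ ℓ ∣ M) (hA : A.LiesOverPrime ℓ) :
    ↥(modelInf M A) →+* LaurentSeries (IsLocalRing.ResidueField A) :=
  (softR A M).comp (Subring.inclusion (h44i_modelInf_le_softV A M ℓ hℓ hM hA))

theorem h44i_phi0_apply (hℓ : ℓ.Prime) (hM : ¬ ℓ ∣ M) (hA : A.LiesOverPrime ℓ)
    (x : modelInf M A) :
    h44i_phi0 A M ℓ hℓ hM hA x =
      softR A M ⟨(x : FF M), h44i_modelInf_le_softV A M ℓ hℓ hM hA x.2⟩ := rfl

/-- the kernel of the reduction on the chart at infinity of level `M` is `𝔪_A Λ'`. -/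
theorem h44i_phi0_eq_zero_iff (hℓ : ℓ.Prime) (hM : ¬ ℓ ∣ M) (hA : A.LiesOverPrime ℓ)
    (x : modelInf M A) :
    h44i_phi0 A M ℓ hℓ hM hA x = 0 ↔ x ∈ maxExt A (modelInf M A) := by
  constructor
  · intro h
    rw [h44i_phi0_apply, softR_eq_gaussR A M _ _ (modelInf_le_gaussV A M hℓ hM hA x.2)] at h
    obtain ⟨c, x', -, hc, hx', hxx'⟩ := exists_eq_cst_mul_of_gaussR_eq_zero_inf A M hℓ hM hA
      ⟨(x : FF M), modelInf_le_gaussV A M hℓ hM hA x.2⟩ x.2 h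
    have hcm : cst M c ∈ modelInf M A :=
      Fermat.Agent.Red.Match.cst_mem_modelAt M A (jB M)⁻¹ (A.nonunits_subset hc)
    have e : x = (⟨cst M c, hcm⟩ : modelInf M A) * ⟨x', hx'⟩ := Subtype.ext hxx'
    rw [e]
    exact Ideal.mul_mem_right _ _ (Ideal.subset_span ⟨c, hc, rfl⟩)
  · intro h
    have hle : maxExt A (modelInf M A) ≤ RingHom.ker (h44i_phi0 A M ℓ hℓ hM hA) := by
      refine Ideal.span_le.2 ?_
      rintro y ⟨a, ha, hy⟩
      rw [SetLike.mem_coe, RingHom.mem_ker, h44i_phi0_apply]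
      have hcst : cst M a ∈ softV A M := (cst_mem_softV_iff A M a).2 (A.nonunits_subset ha)
      have e : (⟨(y : FF M), h44i_modelInf_le_softV A M ℓ hℓ hM hA y.2⟩ : softV A M) =
          ⟨cst M a, hcst⟩ := Subtype.ext hy
      rw [e]
      exact softR_cst_of_nonunit A M a ha hcst
    exact hle h

/-- the reduction map on `Λ' / 𝔪_A Λ'`. -/
def h44i_phi (hℓ : ℓ.Prime) (hM : ¬ ℓ ∣ M) (hA : A.LiesOverPrime ℓ) :
    (↥(modelInf M A) ⧸ maxExt A (modelInf M A)) →+*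
      LaurentSeries (IsLocalRing.ResidueField A) :=
  Ideal.Quotient.lift _ (h44i_phi0 A M ℓ hℓ hM hA)
    (fun x hx => (h44i_phi0_eq_zero_iff A M ℓ hℓ hM hA x).2 hx)

theorem h44i_phi_injective (hℓ : ℓ.Prime) (hM : ¬ ℓ ∣ M) (hA : A.LiesOverPrime ℓ) :
    Function.Injective (h44i_phi A M ℓ hℓ hM hA) :=
  RingHom.lift_injective_of_ker_le_ideal _ _
    (fun x hx => (h44i_phi0_eq_zero_iff A M ℓ hℓ hM hA x).1 hx)

/-- A Gauss-integral function which is integral over `ℚ̄[1/j]` lies in the chart at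
infinity. -/
theorem h44i_mem_modelInf_of_integral (hℓ : ℓ.Prime) (hM : ¬ ℓ ∣ M) (hA : A.LiesOverPrime ℓ)
    {x : FF M} (hx : x ∈ gaussV A M) (hint : IsIntegral (Algebra.adjoin Kbar {(jB M)⁻¹}) x) :
    x ∈ modelInf M A := by
  obtain ⟨a, ha, hax⟩ := Fermat.Agent.Red.GG.GGC97_clear A (jB M)⁻¹ x hint
  exact mem_modelInf_of_cst_mul A M hℓ hM hA x hx (a : Kbar) a.2 ha hax

/-- Every Gauss-integral function of level `M` is a fraction `a / c` of elements of the chart at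
infinity with `c` a Gauss unit. -/
theorem h44i_exists_frac (hℓ : ℓ.Prime) (hM : ¬ ℓ ∣ M) (hA : A.LiesOverPrime ℓ)
    {y : FF M} (hy : y ∈ gaussV A M) :
    ∃ a c : FF M, a ∈ modelInf M A ∧ c ∈ modelInf M A ∧ c ≠ 0 ∧ c ∈ gaussV A M ∧
      c⁻¹ ∈ gaussV A M ∧ y * c = a := by
  have halg := Fermat.Agent.Red.SM.HAlg.h81a_halg_jB_inv M y
  obtain ⟨d₀, hd₀, hint⟩ := halg.exists_integral_multiple
  have hd₀' : ((d₀ : Algebra.adjoin Kbar {(jB M)⁻¹}) : FF M) ≠ 0 :=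
    fun h => hd₀ (Subtype.ext h)
  obtain ⟨c, hc0, hcV, hcVinv⟩ := exists_cst_mul_unit A M hℓ hM hA (d₀ : FF M) hd₀'
  have hcst0 : cst M c ≠ 0 := by
    intro h
    apply hc0
    have := (algebraMap Kbar (FF M)).injective (h.trans (map_zero _).symm)
    exact this
  have hd0 : cst M c * (d₀ : FF M) ≠ 0 := mul_ne_zero hcst0 hd₀'
  have hcint : IsIntegral (Algebra.adjoin Kbar {(jB M)⁻¹}) (cst M c) := by
    have : cst M c = algebraMap (Algebra.adjoin Kbar {(jB M)⁻¹}) (FF M)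
        (algebraMap Kbar (Algebra.adjoin Kbar {(jB M)⁻¹}) c) := rfl
    rw [this]
    exact isIntegral_algebraMap
  have hdint : IsIntegral (Algebra.adjoin Kbar {(jB M)⁻¹}) (cst M c * (d₀ : FF M)) := by
    refine hcint.mul ?_
    have : ((d₀ : Algebra.adjoin Kbar {(jB M)⁻¹}) : FF M) =
        algebraMap (Algebra.adjoin Kbar {(jB M)⁻¹}) (FF M) d₀ := rfl
    rw [this]
    exact isIntegral_algebraMap
  have hdΛ : cst M c * (d₀ : FF M) ∈ modelInf M A :=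
    h44i_mem_modelInf_of_integral A M ℓ hℓ hM hA hcV hdint
  refine ⟨y * (cst M c * (d₀ : FF M)), cst M c * (d₀ : FF M), ?_, hdΛ, hd0, hcV, hcVinv, rfl⟩
  apply h44i_mem_modelInf_of_integral A M ℓ hℓ hM hA ((gaussV A M).mul_mem hy hcV)
  have h1 : y * (cst M c * (d₀ : FF M)) = cst M c * (d₀ • y) := by
    rw [Algebra.smul_def]
    show y * (cst M c * (d₀ : FF M)) = cst M c * ((d₀ : FF M) * y)
    ring
  rw [h1]
  exact hcint.mul hint

/-- **integrally closed image, chart at infinity**: a Gauss-integral `y` of level `M` whose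
reduction is integral over `red Λ'` is congruent modulo `𝔪` to an element of `Λ'`. -/
theorem h44i_exists_red_eq (hℓ : ℓ.Prime) (hM : ¬ ℓ ∣ M) (haux : auxLevel ℓ ∣ M)
    (hA : A.LiesOverPrime ℓ) (y : FF M) (hy : y ∈ softV A M)
    (hint : (h44i_phi0 A M ℓ hℓ hM hA).IsIntegralElem (softR A M ⟨y, hy⟩)) :
    ∃ x : modelInf M A, h44i_phi0 A M ℓ hℓ hM hA x = softR A M ⟨y, hy⟩ := by
  haveI hded : IsDedekindDomain (↥(modelInf M A) ⧸ maxExt A (modelInf M A)) :=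
    (h37_ifaceSmooth ℓ hℓ M hM haux A hA).2
  obtain ⟨a, c, ha, hc, hc0, hcV, hcVinv, hyc⟩ :=
    h44i_exists_frac A M ℓ hℓ hM hA (softV_le_gaussV A M hℓ hM hA hy)
  have hcS : c ∈ softV A M := gaussV_le_softV A M hcV
  have hciS : c⁻¹ ∈ softV A M := gaussV_le_softV A M hcVinv
  have hφc : h44i_phi0 A M ℓ hℓ hM hA ⟨c, hc⟩ ≠ 0 := by
    rw [h44i_phi0_apply]
    exact (softR_ne_zero_iff A M ⟨c, hcS⟩).2 ⟨hc0, hciS⟩
  have hz : softR A M ⟨y, hy⟩ * h44i_phi0 A M ℓ hℓ hM hA ⟨c, hc⟩ =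
      h44i_phi0 A M ℓ hℓ hM hA ⟨a, ha⟩ := by
    rw [h44i_phi0_apply, h44i_phi0_apply, ← map_mul]
    congr 1
    exact Subtype.ext hyc
  obtain ⟨P, hP, hPz⟩ := hint
  have hint' : (h44i_phi A M ℓ hℓ hM hA).IsIntegralElem (softR A M ⟨y, hy⟩) := by
    refine ⟨P.map (Ideal.Quotient.mk _), hP.map _, ?_⟩
    rw [Polynomial.eval₂_map]
    exact hPz
  obtain ⟨x, hx⟩ := h44c_exists_of_integral (h44i_phi A M ℓ hℓ hM hA)
    (h44i_phi_injective A M ℓ hℓ hM hA) (softR A M ⟨y, hy⟩) (Ideal.Quotient.mk _ ⟨c, hc⟩)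
    (Ideal.Quotient.mk _ ⟨a, ha⟩) hφc hz hint'
  obtain ⟨x', rfl⟩ := Ideal.Quotient.mk_surjective x
  exact ⟨x', hx⟩

/-- the reduction at `∞` of a function of the chart at infinity of level `Mℓ` is integral over
`red Λ'`. -/
theorem h44i_isIntegralElem_softR (hℓ : ℓ.Prime) (hM : ¬ ℓ ∣ M) (hA : A.LiesOverPrime ℓ)
    (b : FF (M * ℓ)) (hb : b ∈ modelAt (M * ℓ) A (heckeAlphaBar Kbar M ℓ (jB M)⁻¹))
    (hbs : b ∈ softV A (M * ℓ)) :
    (h44i_phi0 A M ℓ hℓ hM hA).IsIntegralElem (softR A (M * ℓ) ⟨b, hbs⟩) := by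
  rw [Fermat.Agent.Red.KR.mem_modelAt_iff_evalF] at hb
  obtain ⟨p, hp, hpb⟩ := hb
  let g : Polynomial A →+* ↥(modelInf M A) :=
    (evalF M A (jB M)⁻¹).codRestrict (modelInf M A) (fun Q =>
      Fermat.Agent.Red.Match.ringAdj_le_modelAt M A (jB M)⁻¹
        (evalF_mem_ringAdj M A (jB M)⁻¹ Q))
  have hgV : ∀ Q : Polynomial A, heckeAlphaBar Kbar M ℓ ((g Q : modelInf M A) : FF M) ∈
      softV A (M * ℓ) := fun Q =>
    (alpha_mem_softV_iff A ℓ _).mpr (h44i_modelInf_le_softV A M ℓ hℓ hM hA (g Q).2)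
  let G : Polynomial A →+* ↥(softV A (M * ℓ)) :=
    ((heckeAlphaBar Kbar M ℓ).toRingHom.comp ((modelInf M A).subtype.comp g)).codRestrict
      (softV A (M * ℓ)) hgV
  have hG : (softV A (M * ℓ)).subtype.comp G =
      evalF (M * ℓ) A (heckeAlphaBar Kbar M ℓ (jB M)⁻¹) := by
    rw [← Fermat.Agent.Red.KR.comp_evalF (heckeAlphaBar Kbar M ℓ) A (jB M)⁻¹]
    rfl
  have h1 : Polynomial.eval₂ G (⟨b, hbs⟩ : softV A (M * ℓ)) p = 0 := by
    apply Subtype.val_injective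
    have h2 := Polynomial.hom_eval₂ p G (softV A (M * ℓ)).subtype ⟨b, hbs⟩
    rw [hG] at h2
    exact h2.trans hpb
  have h3 := congrArg (softR A (M * ℓ)) h1
  rw [Polynomial.hom_eval₂, map_zero] at h3
  have hcomp : (softR A (M * ℓ)).comp G = (h44i_phi0 A M ℓ hℓ hM hA).comp g := by
    refine RingHom.ext fun Q => ?_
    show softR A (M * ℓ) ⟨heckeAlphaBar Kbar M ℓ ((g Q : modelInf M A) : FF M), hgV Q⟩ =
      softR A M ⟨((g Q : modelInf M A) : FF M), h44i_modelInf_le_softV A M ℓ hℓ hM hA (g Q).2⟩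
    exact softR_alpha A ℓ ⟨_, h44i_modelInf_le_softV A M ℓ hℓ hM hA (g Q).2⟩ (hgV Q)
  refine ⟨p.map g, hp.map _, ?_⟩
  rw [Polynomial.eval₂_map, ← hcomp]
  exact h3

/-- **I7-INF, component at `∞`.**  For every function `b` of the chart at infinity of level
`Mℓ` there is a function `x` of the chart at infinity of level `M` with
`red_∞ (b - α x) = 0`. -/
theorem h44i_hsurj_inf (hℓ : ℓ.Prime) (hM : ¬ ℓ ∣ M) (haux : auxLevel ℓ ∣ M)
    (hA : A.LiesOverPrime ℓ) (b : FF (M * ℓ)) (hb : b ∈ modelInf (M * ℓ) A) :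
    ∃ x ∈ modelInf M A, ∃ h : b - heckeAlphaBar Kbar M ℓ x ∈ softV A (M * ℓ),
      softR A (M * ℓ) ⟨_, h⟩ = 0 := by
  have hjeq : heckeAlphaBar Kbar M ℓ (jB M)⁻¹ = (jB (M * ℓ))⁻¹ := by
    rw [map_inv₀, Fermat.Agent.Red.HKMod.heckeAlphaBar_jBar M ℓ]
  have hb' : b ∈ modelAt (M * ℓ) A (heckeAlphaBar Kbar M ℓ (jB M)⁻¹) := by
    rw [hjeq]
    exact hb
  have hbss : b ∈ ssV A M ℓ :=
    h44v_modelAt_le_ssV A M ℓ hA (jB M)⁻¹ (h44v_jB_inv_mem_gaussV A M ℓ hℓ hM hA) hb'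
  obtain ⟨hbs, -⟩ := (h44r_mem_ssV_iff A M ℓ hℓ hM hA b).1 hbss
  obtain ⟨y, hy, hyb⟩ := h44r_residue_degree_one A M ℓ hℓ hM hA b hbs
  obtain ⟨x, hx⟩ := h44i_exists_red_eq A M ℓ hℓ hM haux hA y hy (by
    rw [hyb]
    exact h44i_isIntegralElem_softR A M ℓ hℓ hM hA b hb' hbs)
  have hxV : (x : FF M) ∈ softV A M := h44i_modelInf_le_softV A M ℓ hℓ hM hA x.2
  have hαx : heckeAlphaBar Kbar M ℓ (x : FF M) ∈ softV A (M * ℓ) :=
    (alpha_mem_softV_iff A ℓ _).mpr hxV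
  refine ⟨x, x.2, sub_mem hbs hαx, ?_⟩
  have e : (⟨_, sub_mem hbs hαx⟩ : softV A (M * ℓ)) = ⟨b, hbs⟩ - ⟨_, hαx⟩ := rfl
  rw [e, map_sub (softR A (M * ℓ)), softR_alpha A ℓ ⟨_, hxV⟩ hαx, ← hyb, ← hx,
    h44i_phi0_apply, sub_self]

/-- the reduction at `0` of a function of the chart at infinity of level `Mℓ` is integral over
`red Λ'` (Frobenius: `red (β (1/j)) = (red (1/j))^ℓ`). -/
theorem h44i_isIntegralElem_softR_beta (hℓ : ℓ.Prime) (hM : ¬ ℓ ∣ M)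
    (hA : A.LiesOverPrime ℓ) (b : FF (M * ℓ))
    (hb : b ∈ modelAt (M * ℓ) A (heckeBetaBar Kbar M ℓ (jB M)⁻¹))
    (hbs : b ∈ softV A (M * ℓ)) :
    (h44i_phi0 A M ℓ hℓ hM hA).IsIntegralElem (softR A (M * ℓ) ⟨b, hbs⟩) := by
  haveI : Fact ℓ.Prime := ⟨hℓ⟩
  haveI : CharP (IsLocalRing.ResidueField A) ℓ :=
    Base.h80_charP A (IsLocalRing.residue A) ℓ (isResidueMap_residue A ℓ hA)
  haveI : ExpChar (IsLocalRing.ResidueField A) ℓ := ExpChar.prime hℓ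
  rw [Fermat.Agent.Red.KR.mem_modelAt_iff_evalF] at hb
  obtain ⟨p, hp, hpb⟩ := hb
  -- `V₀ = 1/j` and its reduction
  have hV₀ : (jB M)⁻¹ ∈ modelInf M A :=
    Fermat.Agent.Red.Match.ringAdj_le_modelAt M A (jB M)⁻¹ (self_mem_ringAdj M A (jB M)⁻¹)
  have hV₀S : (jB M)⁻¹ ∈ softV A M := h44i_modelInf_le_softV A M ℓ hℓ hM hA hV₀
  have hj : jB M ∈ softV A M := gaussV_le_softV A M (jB_mem_gaussV A M)
  have hjne : jB M ≠ 0 := by
    intro h0
    have h1 := h44r_softR_jB A M hj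
    have h2 : softR A M ⟨jB M, hj⟩ = 0 := by
      have e : (⟨jB M, hj⟩ : softV A M) = 0 := Subtype.ext h0
      rw [e, map_zero]
    rw [h2] at h1
    exact jqModC_ne_zero_of_nontrivial _ h1.symm
  have hrV : softR A M ⟨_, hV₀S⟩ = (jqModC (IsLocalRing.ResidueField A))⁻¹ := by
    have e : (⟨_, hV₀S⟩ : softV A M) * ⟨jB M, hj⟩ = 1 := Subtype.ext (inv_mul_cancel₀ hjne)
    have h1 := congrArg (softR A M) e
    rw [map_mul, map_one, h44r_softR_jB] at h1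
    exact eq_inv_of_mul_eq_one_left h1
  have hfrob : qExpand (IsLocalRing.ResidueField A) ℓ (softR A M ⟨_, hV₀S⟩) =
      (softR A M ⟨_, hV₀S⟩) ^ ℓ := by
    rw [hrV, map_inv₀, inv_pow, h44r_jqModC_pow]
  -- `Q ↦ Q(V₀^ℓ)`
  have hle : ringAdj M A ((jB M)⁻¹ ^ ℓ) ≤ modelInf M A := by
    refine Subring.closure_le.2 ?_
    rintro z (⟨a, ha, rfl⟩ | rfl)
    · exact Fermat.Agent.Red.Match.cst_mem_modelAt M A (jB M)⁻¹ ha
    · exact pow_mem hV₀ ℓ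
  let g : Polynomial A →+* ↥(modelInf M A) :=
    (evalF M A ((jB M)⁻¹ ^ ℓ)).codRestrict (modelInf M A) (fun Q =>
      hle (evalF_mem_ringAdj M A ((jB M)⁻¹ ^ ℓ) Q))
  have hmemV : ∀ Q : Polynomial A, evalF M A (jB M)⁻¹ Q ∈ softV A M := fun Q =>
    h44i_modelInf_le_softV A M ℓ hℓ hM hA
      (Fermat.Agent.Red.Match.ringAdj_le_modelAt M A (jB M)⁻¹
        (evalF_mem_ringAdj M A (jB M)⁻¹ Q))
  have hgV : ∀ Q : Polynomial A, heckeBetaBar Kbar M ℓ (evalF M A (jB M)⁻¹ Q) ∈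
      softV A (M * ℓ) := fun Q => beta_mem_softV A ℓ _ (hmemV Q)
  let G : Polynomial A →+* ↥(softV A (M * ℓ)) :=
    ((heckeBetaBar Kbar M ℓ).toRingHom.comp (evalF M A (jB M)⁻¹)).codRestrict
      (softV A (M * ℓ)) hgV
  have hG : (softV A (M * ℓ)).subtype.comp G =
      evalF (M * ℓ) A (heckeBetaBar Kbar M ℓ (jB M)⁻¹) := by
    rw [← Fermat.Agent.Red.KR.comp_evalF (heckeBetaBar Kbar M ℓ) A (jB M)⁻¹]
    rfl
  have h1 : Polynomial.eval₂ G (⟨b, hbs⟩ : softV A (M * ℓ)) p = 0 := by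
    apply Subtype.val_injective
    have h2 := Polynomial.hom_eval₂ p G (softV A (M * ℓ)).subtype ⟨b, hbs⟩
    rw [hG] at h2
    exact h2.trans hpb
  have h3 := congrArg (softR A (M * ℓ)) h1
  rw [Polynomial.hom_eval₂, map_zero] at h3
  have hcomp : (softR A (M * ℓ)).comp G = (h44i_phi0 A M ℓ hℓ hM hA).comp g := by
    apply Polynomial.ringHom_ext
    · intro a
      show softR A (M * ℓ) ⟨heckeBetaBar Kbar M ℓ (evalF M A (jB M)⁻¹ (C a)), hgV (C a)⟩ =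
        softR A M ⟨evalF M A ((jB M)⁻¹ ^ ℓ) (C a), _⟩
      have e1 : (⟨heckeBetaBar Kbar M ℓ (evalF M A (jB M)⁻¹ (C a)), hgV (C a)⟩ :
          softV A (M * ℓ)) = ⟨cst (M * ℓ) (a : Kbar),
            (cst_mem_softV_iff A (M * ℓ) _).2 a.2⟩ := by
        apply Subtype.ext
        show heckeBetaBar Kbar M ℓ (evalF M A (jB M)⁻¹ (C a)) = cst (M * ℓ) (a : Kbar)
        rw [evalF_C]
        exact (heckeBetaBar Kbar M ℓ).commutes (a : Kbar)
      have e2 : (⟨evalF M A ((jB M)⁻¹ ^ ℓ) (C a),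
          h44i_modelInf_le_softV A M ℓ hℓ hM hA (g (C a)).2⟩ : softV A M) =
          ⟨cst M (a : Kbar), (cst_mem_softV_iff A M _).2 a.2⟩ :=
        Subtype.ext (evalF_C M A _ a)
      rw [e1, softR_cst]
      exact ((congrArg (softR A M) e2).trans (softR_cst A M a _)).symm
    · show softR A (M * ℓ) ⟨heckeBetaBar Kbar M ℓ (evalF M A (jB M)⁻¹ X), hgV X⟩ =
        softR A M ⟨evalF M A ((jB M)⁻¹ ^ ℓ) X, _⟩
      have e1 : (⟨heckeBetaBar Kbar M ℓ (evalF M A (jB M)⁻¹ X), hgV X⟩ :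
          softV A (M * ℓ)) = ⟨heckeBetaBar Kbar M ℓ (jB M)⁻¹,
            beta_mem_softV A ℓ _ hV₀S⟩ := by
        apply Subtype.ext
        show heckeBetaBar Kbar M ℓ (evalF M A (jB M)⁻¹ X) = heckeBetaBar Kbar M ℓ (jB M)⁻¹
        rw [evalF_X]
      have e2 : (⟨evalF M A ((jB M)⁻¹ ^ ℓ) X,
          h44i_modelInf_le_softV A M ℓ hℓ hM hA (g X).2⟩ : softV A M) =
          ⟨_, hV₀S⟩ ^ ℓ :=
        Subtype.ext (evalF_X M A _)
      rw [e1, softR_beta A ℓ ⟨_, hV₀S⟩, hfrob]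
      exact ((congrArg (softR A M) e2).trans (map_pow (softR A M) _ ℓ)).symm
  refine ⟨p.map g, hp.map _, ?_⟩
  rw [Polynomial.eval₂_map, ← hcomp]
  exact h3

/-- **I7-INF, component at `0`.**  For every function `b` of the chart at infinity of level
`Mℓ` there is a function `x` of the chart at infinity of level `M` with
`red_∞ (w b - α x) = 0`, i.e. `red_0 b = red x`. -/
theorem h44i_hsurj_zero (hℓ : ℓ.Prime) (hM : ¬ ℓ ∣ M) (haux : auxLevel ℓ ∣ M)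
    (hA : A.LiesOverPrime ℓ) (b : FF (M * ℓ)) (hb : b ∈ modelInf (M * ℓ) A) :
    ∃ x ∈ modelInf M A,
      ∃ h : kFricke M ℓ hℓ hM b - heckeAlphaBar Kbar M ℓ x ∈ softV A (M * ℓ),
        softR A (M * ℓ) ⟨_, h⟩ = 0 := by
  have hjeq : heckeAlphaBar Kbar M ℓ (jB M)⁻¹ = (jB (M * ℓ))⁻¹ := by
    rw [map_inv₀, Fermat.Agent.Red.HKMod.heckeAlphaBar_jBar M ℓ]
  have hb' : b ∈ modelAt (M * ℓ) A (heckeAlphaBar Kbar M ℓ (jB M)⁻¹) := by
    rw [hjeq]
    exact hb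
  have hbss : b ∈ ssV A M ℓ :=
    h44v_modelAt_le_ssV A M ℓ hA (jB M)⁻¹ (h44v_jB_inv_mem_gaussV A M ℓ hℓ hM hA) hb'
  obtain ⟨-, hwbs⟩ := (h44r_mem_ssV_iff A M ℓ hℓ hM hA b).1 hbss
  have hwb : kFricke M ℓ hℓ hM b ∈ modelAt (M * ℓ) A (heckeBetaBar Kbar M ℓ (jB M)⁻¹) := by
    have h1 := h44g_kFricke_mem_modelInf M ℓ hℓ hM A hb
    rwa [← map_inv₀] at h1
  obtain ⟨y, hy, hyb⟩ := h44r_residue_degree_one A M ℓ hℓ hM hA _ hwbs
  obtain ⟨x, hx⟩ := h44i_exists_red_eq A M ℓ hℓ hM haux hA y hy (by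
    rw [hyb]
    exact h44i_isIntegralElem_softR_beta A M ℓ hℓ hM hA _ hwb hwbs)
  have hxV : (x : FF M) ∈ softV A M := h44i_modelInf_le_softV A M ℓ hℓ hM hA x.2
  have hαx : heckeAlphaBar Kbar M ℓ (x : FF M) ∈ softV A (M * ℓ) :=
    (alpha_mem_softV_iff A ℓ _).mpr hxV
  refine ⟨x, x.2, sub_mem hwbs hαx, ?_⟩
  have e : (⟨_, sub_mem hwbs hαx⟩ : softV A (M * ℓ)) = ⟨_, hwbs⟩ - ⟨_, hαx⟩ := rfl
  rw [e, map_sub (softR A (M * ℓ)), softR_alpha A ℓ ⟨_, hxV⟩ hαx, ← hyb, ← hx,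
    h44i_phi0_apply, sub_self]

end Fermat.Agent.LGC
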