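import Fermat.Agent.Red.Kron.CharpolyAlong
import Fermat.Agent.Red.Kron.FrickeGal

/-!
# W3-LGC / G2: the conjugates of a general element of `F_{Nℓ}` over `α(F_N)`

For a prime `ℓ ∤ N`, `w` the Fricke involution of `F_{Nℓ}` and `ζ` a primitive `ℓ`-th root of
unity, the `ℓ + 1` conjugates of `x ∈ F_{Nℓ}` over `α(F_N)` are, in the variable
`t = q^{1/ℓ}`,

  `x(t^ℓ)`  and  `(w x)(ζ^b t)`, `b < ℓ`.

* `h44g_kEmb_eq` : the cusp embeddings `kEmb b` are `f ↦ (w f)(ω_b 𝕋^N)`.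
* `h44g_charpolyAlong_alpha` : the characteristic polynomial of `x` over `α(F_N)`.
* `h44g_charpolyAlong_beta`  : the characteristic polynomial of `x` over `β(F_N)`.
-/

set_option autoImplicit false
set_option linter.style.haveILetI false
set_option linter.unusedSectionVars false

open ModularCurve AlgebraicCurve CongruenceSubgroup IntermediateField UpperHalfPlane Polynomial
open scoped MatrixGroups Manifold

noncomputable section

namespace Fermat.Agent.LGC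

open Fermat.Agent.S24 Fermat.Agent.Red.Kron Fermat.Agent.Red.TRK

variable (N ℓ : ℕ) [NeZero N] [NeZero ℓ]

/-- the embedding `f ↦ (w f)(ω 𝕋^N)` of `F_{Nℓ}` into `ℂ((𝕋))`. -/
def h44g_embW (hℓ : ℓ.Prime) (hN : ¬ ℓ ∣ N) (ω : ℂ) (hω : ω ≠ 0) :
    FF (N * ℓ) →+* LaurentSeries ℂ :=
  (qExpand ℂ N).comp ((twistHom ω hω).comp ((coeffMap embC).comp
    ((algebraMap (FF (N * ℓ)) (LaurentSeries Kbar)).comp
      (kFricke N ℓ hℓ hN : FF (N * ℓ) →+* FF (N * ℓ)))))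

theorem h44g_embW_apply (hℓ : ℓ.Prime) (hN : ¬ ℓ ∣ N) (ω : ℂ) (hω : ω ≠ 0) (f : FF (N * ℓ)) :
    h44g_embW N ℓ hℓ hN ω hω f =
      qExpand ℂ N (twistK ω (coeffMap embC
        ((kFricke N ℓ hℓ hN f : FF (N * ℓ)) : LaurentSeries Kbar))) := rfl

theorem h44g_kOmega_pow (b : ℤ) : kOmega ℓ b ^ ℓ = 1 := by
  rw [kOmega, ← Complex.exp_nat_mul]
  have hℓ : (ℓ : ℂ) ≠ 0 := by exact_mod_cast NeZero.ne ℓ
  have h1 : (ℓ : ℂ) * (2 * Real.pi * Complex.I * (b : ℂ) / (ℓ : ℂ)) =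
      (b : ℂ) * (2 * Real.pi * Complex.I) := by
    field_simp
  rw [h1]
  exact Complex.exp_int_mul_two_pi_mul_I b

/-- the cusp embeddings are the twisted expansions of `w f`. -/
theorem h44g_kEmb_eq (hℓ : ℓ.Prime) (hN : ¬ ℓ ∣ N) (m y : ℤ)
    (h : (ℓ : ℤ) * m - (N : ℤ) * y = 1) (b : ℤ) (f : FF (N * ℓ)) :
    kEmb N ℓ m y h b f = h44g_embW N ℓ hℓ hN (kOmega ℓ b) (kOmega_ne_zero ℓ b) f := by
  induction f using kFF_induction_ab N ℓ hℓ with
  | hc a =>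
    rw [kEmb_cst, h44g_embW_apply, kFricke_cst]
    have h1 : ((cst (N * ℓ) a : FF (N * ℓ)) : LaurentSeries Kbar) = HahnSeries.C a := by
      change algebraMap Kbar (LaurentSeries Kbar) a = HahnSeries.C a
      rw [algebraMap_laurentSeries_eq_single]
      rfl
    have h2 : coeffMap embC (HahnSeries.C a : LaurentSeries Kbar) = HahnSeries.C (embC a) := by
      have : (HahnSeries.C a : LaurentSeries Kbar) = HahnSeries.single 0 a := rfl
      rw [this, coeffMap_single]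
      rfl
    rw [h1, h2, twistK_C, qExpand_C]
  | ha x =>
    rw [kEmb_alpha, h44g_embW_apply, kFricke_alpha, coe_heckeBetaBar,
      ModularCurve.coeffMap_qExpand, twistK_qExpand ℓ (h44g_kOmega_pow ℓ b), qExpand_qExpand]
  | hb x =>
    rw [kEmb_beta, h44g_embW_apply, kFricke_beta, coe_heckeAlphaBar]
  | hadd x y hx hy => rw [map_add, map_add, hx, hy]
  | hinv x hx => rw [map_inv₀, map_inv₀, hx]
  | hmul x y hx hy => rw [map_mul, map_mul, hx, hy]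

/-- the product over the conjugates, over `ℂ`. -/
def h44g_rhsC (hℓ : ℓ.Prime) (hN : ¬ ℓ ∣ N) (x : FF (N * ℓ)) : Polynomial (LaurentSeries ℂ) :=
  (X - C (qExpand ℂ (N * ℓ) (coeffMap embC (x : LaurentSeries Kbar)))) *
    ∏ b ∈ Finset.range ℓ,
      (X - C (qExpand ℂ N (twistK (kOmega ℓ (b : ℤ)) (coeffMap embC
        ((kFricke N ℓ hℓ hN x : FF (N * ℓ)) : LaurentSeries Kbar)))))

/-- the product over the conjugates, over `ℚ̄`, in the variable `t = q^{1/ℓ}`. -/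
def h44g_rhsK (hℓ : ℓ.Prime) (hN : ¬ ℓ ∣ N) (ζ : Kbar) (x : FF (N * ℓ)) :
    Polynomial (LaurentSeries Kbar) :=
  (X - C (qExpand Kbar ℓ (x : LaurentSeries Kbar))) *
    ∏ b ∈ Finset.range ℓ,
      (X - C (twistK (ζ ^ b) ((kFricke N ℓ hℓ hN x : FF (N * ℓ)) : LaurentSeries Kbar)))

theorem h44g_map_kTheta_rhsK (hℓ : ℓ.Prime) (hN : ¬ ℓ ∣ N) (ζ : Kbar)
    (hζ : IsPrimitiveRoot ζ ℓ) (x : FF (N * ℓ)) :
    (h44g_rhsK N ℓ hℓ hN ζ x).map (kTheta N) = h44g_rhsC N ℓ hℓ hN x := by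
  rw [h44g_rhsK, h44g_rhsC, Polynomial.map_mul, Polynomial.map_prod, Polynomial.map_sub,
    Polynomial.map_X, Polynomial.map_C]
  congr 1
  · rw [kTheta_apply, ModularCurve.coeffMap_qExpand, qExpand_qExpand]
  · have hζC : IsPrimitiveRoot (embC ζ) ℓ := hζ.map_of_injective embC.injective
    have h1 := prod_range_pow_primitiveRoot
      (fun ω : ℂ => (X - C (qExpand ℂ N (twistK ω (coeffMap embC
        ((kFricke N ℓ hℓ hN x : FF (N * ℓ)) : LaurentSeries Kbar))))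
        : Polynomial (LaurentSeries ℂ)))
      (Complex.isPrimitiveRoot_exp ℓ (NeZero.ne ℓ)) hζC
    simp only [← kOmega_eq_pow] at h1
    rw [h1]
    refine Finset.prod_congr rfl (fun b _ => ?_)
    rw [Polynomial.map_sub, Polynomial.map_X, Polynomial.map_C, kTheta_apply, coeffMap_twistK,
      map_pow]

theorem h44g_prod_kFam (hℓ : ℓ.Prime) (hN : ¬ ℓ ∣ N) (m y : ℤ)
    (h : (ℓ : ℤ) * m - (N : ℤ) * y = 1) (x : FF (N * ℓ)) :
    ∏ i, (X - C (kFam N ℓ m y h i x) : Polynomial (LaurentSeries ℂ)) =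
      h44g_rhsC N ℓ hℓ hN x := by
  rw [Fin.prod_univ_succ, kFam_zero, kEmbInf_apply, h44g_rhsC]
  congr 1
  simp only [kFam_succ, h44g_kEmb_eq N ℓ hℓ hN m y h, h44g_embW_apply]
  exact Fin.prod_univ_eq_prod_range
    (fun b : ℕ => (X - C (qExpand ℂ N (twistK (kOmega ℓ (b : ℤ)) (coeffMap embC
      ((kFricke N ℓ hℓ hN x : FF (N * ℓ)) : LaurentSeries Kbar)))) :
        Polynomial (LaurentSeries ℂ))) ℓ

/-- characteristic polynomial of `x` over `α(F_N)`, over `ℂ`. -/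
theorem h44g_charpoly_alpha_C (hℓ : ℓ.Prime) (hN : ¬ ℓ ∣ N) (x : FF (N * ℓ)) :
    letI := algebraAlong (heckeAlphaBar Kbar N ℓ)
    haveI : FiniteDimensional (FF N) (FF (N * ℓ)) :=
      Fermat.Agent.Red.HKMod.finiteAlong_heckeAlphaBar N ℓ
    (LinearMap.mulLeft (FF N) x).charpoly.map (kIota N ℓ) = h44g_rhsC N ℓ hℓ hN x := by
  letI := algebraAlong (heckeAlphaBar Kbar N ℓ)
  have hcop : IsCoprime (ℓ : ℤ) (N : ℤ) := by
    rw [Int.isCoprime_iff_gcd_eq_one, Int.gcd_natCast_natCast]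
    exact (Nat.Prime.coprime_iff_not_dvd hℓ).mpr hN
  obtain ⟨a, c, hac⟩ := hcop
  have hb : (ℓ : ℤ) * a - (N : ℤ) * (-c) = 1 := by linear_combination hac
  haveI : FiniteDimensional (FF N) (FF (N * ℓ)) :=
    Fermat.Agent.Red.HKMod.finiteAlong_heckeAlphaBar N ℓ
  haveI : Algebra.IsSeparable (FF N) (FF (N * ℓ)) := inferInstance
  haveI : Infinite (FF N) := inferInstance
  rw [charpoly_map_eq_prod_of_embeddings (K := FF N) (L := FF (N * ℓ)) (kIota N ℓ)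
    (kFam N ℓ a (-c) hb) (kFam_injective N ℓ a (-c) hb hℓ.one_lt)
    (fun i x => kFam_alpha N ℓ a (-c) hb i x)
    (by rw [Fintype.card_fin]; exact (finrank_heckeAlphaBar N ℓ hℓ hN).symm) x]
  exact h44g_prod_kFam N ℓ hℓ hN a (-c) hb x

/-- **G2 / K1: the characteristic polynomial of a general `x ∈ F_{Nℓ}` over `α(F_N)`**, in the
variable `t = q^{1/ℓ}`: `(X - x(t^ℓ)) · ∏_{b < ℓ} (X - (w x)(ζ^b t))`. -/
theorem h44g_charpolyAlong_alpha (hℓ : ℓ.Prime) (hN : ¬ ℓ ∣ N) (ζ : Kbar)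
    (hζ : IsPrimitiveRoot ζ ℓ) (hfin : FiniteAlong Kbar (heckeAlphaBar Kbar N ℓ))
    (x : FF (N * ℓ)) :
    (charpolyAlong (heckeAlphaBar Kbar N ℓ) hfin x).map (kIotaK N ℓ) =
      h44g_rhsK N ℓ hℓ hN ζ x := by
  apply Polynomial.map_injective (kTheta N) (kTheta_injective N)
  rw [Polynomial.map_map, kTheta_comp_kIotaK, h44g_map_kTheta_rhsK N ℓ hℓ hN ζ hζ x]
  exact h44g_charpoly_alpha_C N ℓ hℓ hN x

/-- characteristic polynomial of `x` over `β(F_N)`, over `ℂ`. -/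
theorem h44g_charpoly_beta_C (hℓ : ℓ.Prime) (hN : ¬ ℓ ∣ N) (x : FF (N * ℓ)) :
    letI := algebraAlong (heckeBetaBar Kbar N ℓ)
    haveI : FiniteDimensional (FF N) (FF (N * ℓ)) :=
      Fermat.Agent.Red.HKMod.finiteAlong_heckeBetaBar N ℓ
    (LinearMap.mulLeft (FF N) x).charpoly.map (kIota N ℓ) =
      h44g_rhsC N ℓ hℓ hN (kFricke N ℓ hℓ hN x) := by
  letI := algebraAlong (heckeBetaBar Kbar N ℓ)
  have hcop : IsCoprime (ℓ : ℤ) (N : ℤ) := by
    rw [Int.isCoprime_iff_gcd_eq_one, Int.gcd_natCast_natCast]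
    exact (Nat.Prime.coprime_iff_not_dvd hℓ).mpr hN
  obtain ⟨a, c, hac⟩ := hcop
  have hb : (ℓ : ℤ) * a - (N : ℤ) * (-c) = 1 := by linear_combination hac
  haveI : FiniteDimensional (FF N) (FF (N * ℓ)) :=
    Fermat.Agent.Red.HKMod.finiteAlong_heckeBetaBar N ℓ
  haveI : Algebra.IsSeparable (FF N) (FF (N * ℓ)) := inferInstance
  haveI : Infinite (FF N) := inferInstance
  let w := kFricke N ℓ hℓ hN
  let e : Fin (ℓ + 1) → (FF (N * ℓ) →+* LaurentSeries ℂ) :=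
    fun i => (kFam N ℓ a (-c) hb i).comp (w : FF (N * ℓ) →+* FF (N * ℓ))
  have he : Function.Injective e := by
    intro i j hij
    apply kFam_injective N ℓ a (-c) hb hℓ.one_lt
    ext1 f
    have h1 : e i (w f) = e j (w f) := by rw [hij]
    have h2 : w (w f) = f := kFricke_kFricke N ℓ hℓ hN f
    simpa [e, h2] using h1
  have hcomm : ∀ i z, e i (algebraMap (FF N) (FF (N * ℓ)) z) = kIota N ℓ z := by
    intro i z
    show kFam N ℓ a (-c) hb i (w (heckeBetaBar Kbar N ℓ z)) = kIota N ℓ z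
    rw [show w (heckeBetaBar Kbar N ℓ z) = heckeAlphaBar Kbar N ℓ z from
      kFricke_beta N ℓ hℓ hN z]
    exact kFam_alpha N ℓ a (-c) hb i z
  rw [charpoly_map_eq_prod_of_embeddings (K := FF N) (L := FF (N * ℓ)) (kIota N ℓ) e he hcomm
    (by rw [Fintype.card_fin]; exact (finrank_heckeBetaBar N ℓ hℓ hN).symm) x]
  exact h44g_prod_kFam N ℓ hℓ hN a (-c) hb (w x)

/-- **the characteristic polynomial of a general `x ∈ F_{Nℓ}` over `β(F_N)`**, in the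
variable `t = q^{1/ℓ}`: `(X - (w x)(t^ℓ)) · ∏_{b < ℓ} (X - x(ζ^b t))`
(`= h44g_rhsK ζ (w x)`, note `w (w x) = x`). -/
theorem h44g_charpolyAlong_beta (hℓ : ℓ.Prime) (hN : ¬ ℓ ∣ N) (ζ : Kbar)
    (hζ : IsPrimitiveRoot ζ ℓ) (hfin : FiniteAlong Kbar (heckeBetaBar Kbar N ℓ))
    (x : FF (N * ℓ)) :
    (charpolyAlong (heckeBetaBar Kbar N ℓ) hfin x).map (kIotaK N ℓ) =
      h44g_rhsK N ℓ hℓ hN ζ (kFricke N ℓ hℓ hN x) := by
  apply Polynomial.map_injective (kTheta N) (kTheta_injective N)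
  rw [Polynomial.map_map, kTheta_comp_kIotaK,
    h44g_map_kTheta_rhsK N ℓ hℓ hN ζ hζ (kFricke N ℓ hℓ hN x)]
  exact h44g_charpoly_beta_C N ℓ hℓ hN x

end Fermat.Agent.LGC
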