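import Mathlib

/-!
# W3-LGC, SS-LOCAL at the cusps (helper21): the abstract local smoothness transfer

`A` a local ring, `B ⊆ F` a chart (an `A`-subalgebra of a field), `𝔫` a prime of `B` over `𝔪_A`
with residue field `A ⧸ 𝔪_A`, `Λ` an `A`-algebra (the chart of the lower level) and
`φ : Λ →ₐ[A] F` a map which lands in the local ring `B_𝔫` only (`hloc`).

`h21c_smooth_local` : if `φ` is surjective modulo `𝔪_A B` locally at `𝔫` (`hsurj`) and the closed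
points of the special fibre of `Λ` have a local parameter (`hLP`), then `𝔫` has a local
parameter: `𝔫 = (t') + 𝔪_A B` locally at `𝔫`.

Mathlib only.
-/

set_option autoImplicit false

open IsLocalRing

namespace Fermat.Agent.LGC

section SmoothLocal

variable {A : Type*} [CommRing A] [IsLocalRing A] {F : Type*} [Field F] [Algebra A F]
  (B : Subalgebra A F) (𝔫 : Ideal B)
  {Λ : Type*} [CommRing Λ] [Algebra A Λ] (φ : Λ →ₐ[A] F)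

omit [IsLocalRing A] in
/-- the contraction of `𝔫 B_𝔫` along `φ : Λ → B_𝔫 ⊆ F`. -/
def h21c_contr [h𝔫 : 𝔫.IsPrime] (hloc : ∀ x : Λ, ∃ s : B, s ∉ 𝔫 ∧ (s : F) * φ x ∈ B) :
    Ideal Λ where
  carrier := {x | ∃ s : B, s ∉ 𝔫 ∧ ∃ b ∈ 𝔫, ((b : B) : F) = (s : F) * φ x}
  zero_mem' := ⟨1, (Ideal.ne_top_iff_one 𝔫).mp h𝔫.ne_top, 0, 𝔫.zero_mem, by simp⟩
  add_mem' := by
    rintro x₁ x₂ ⟨s₁, hs₁, b₁, hb₁, e₁⟩ ⟨s₂, hs₂, b₂, hb₂, e₂⟩
    refine ⟨s₁ * s₂, fun h => (h𝔫.mem_or_mem h).elim hs₁ hs₂, s₂ * b₁ + s₁ * b₂,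
      𝔫.add_mem (𝔫.mul_mem_left _ hb₁) (𝔫.mul_mem_left _ hb₂), ?_⟩
    push_cast
    rw [e₁, e₂, map_add]
    ring
  smul_mem' := by
    rintro c x ⟨s, hs, b, hb, e⟩
    obtain ⟨sc, hsc, hc⟩ := hloc c
    refine ⟨sc * s, fun h => (h𝔫.mem_or_mem h).elim hsc hs, ⟨_, hc⟩ * b,
      𝔫.mul_mem_left _ hb, ?_⟩
    push_cast
    rw [e, smul_eq_mul, map_mul]
    ring

omit [IsLocalRing A] in
theorem h21c_mem_contr [h𝔫 : 𝔫.IsPrime] (hloc : ∀ x : Λ, ∃ s : B, s ∉ 𝔫 ∧ (s : F) * φ x ∈ B)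
    (x : Λ) : x ∈ h21c_contr B 𝔫 φ hloc ↔
      ∃ s : B, s ∉ 𝔫 ∧ ∃ b ∈ 𝔫, ((b : B) : F) = (s : F) * φ x := Iff.rfl

omit [IsLocalRing A] in
/-- an element outside the contraction has a numerator outside `𝔫`. -/
theorem h21c_not_mem_of_not_mem_contr [h𝔫 : 𝔫.IsPrime]
    (hloc : ∀ x : Λ, ∃ s : B, s ∉ 𝔫 ∧ (s : F) * φ x ∈ B) {x : Λ}
    (hx : x ∉ h21c_contr B 𝔫 φ hloc) {s b : B} (hs : s ∉ 𝔫) (e : (b : F) = (s : F) * φ x) :
    b ∉ 𝔫 := fun hb => hx ⟨s, hs, b, hb, e⟩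

omit [IsLocalRing A] in
/-- `φ` maps `I Λ` into `I B_𝔫`. -/
theorem h21c_map_mem [h𝔫 : 𝔫.IsPrime] (hloc : ∀ x : Λ, ∃ s : B, s ∉ 𝔫 ∧ (s : F) * φ x ∈ B)
    (I : Ideal A) {m : Λ} (hm : m ∈ I.map (algebraMap A Λ)) :
    ∃ s : B, s ∉ 𝔫 ∧ ∃ b ∈ I.map (algebraMap A B), ((b : B) : F) = (s : F) * φ m := by
  have h1 : (𝔫 : Set B) ≠ Set.univ := by
    intro h
    exact h𝔫.ne_top (SetLike.coe_injective (by rw [h]; rfl))
  rw [Ideal.map] at hm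
  induction hm using Submodule.span_induction with
  | mem y hy =>
    obtain ⟨a, ha, rfl⟩ := hy
    refine ⟨1, (Ideal.ne_top_iff_one 𝔫).mp h𝔫.ne_top, algebraMap A B a,
      Ideal.mem_map_of_mem _ ha, ?_⟩
    rw [φ.commutes]
    simp
  | zero =>
    exact ⟨1, (Ideal.ne_top_iff_one 𝔫).mp h𝔫.ne_top, 0, Ideal.zero_mem _, by simp⟩
  | add x y _ _ ihx ihy =>
    obtain ⟨s₁, hs₁, b₁, hb₁, e₁⟩ := ihx
    obtain ⟨s₂, hs₂, b₂, hb₂, e₂⟩ := ihy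
    refine ⟨s₁ * s₂, fun h => (h𝔫.mem_or_mem h).elim hs₁ hs₂, s₂ * b₁ + s₁ * b₂,
      Ideal.add_mem _ (Ideal.mul_mem_left _ _ hb₁) (Ideal.mul_mem_left _ _ hb₂), ?_⟩
    push_cast
    rw [e₁, e₂, map_add]
    ring
  | smul c x _ ih =>
    obtain ⟨s, hs, b, hb, e⟩ := ih
    obtain ⟨sc, hsc, hc⟩ := hloc c
    refine ⟨sc * s, fun h => (h𝔫.mem_or_mem h).elim hsc hs, ⟨_, hc⟩ * b,
      Ideal.mul_mem_left _ _ hb, ?_⟩
    push_cast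
    rw [e, smul_eq_mul, map_mul]
    ring

/-- the contraction contains `𝔪_A Λ`. -/
theorem h21c_mExt_le_contr [h𝔫 : 𝔫.IsPrime]
    (hm : (maximalIdeal A).map (algebraMap A B) ≤ 𝔫)
    (hloc : ∀ x : Λ, ∃ s : B, s ∉ 𝔫 ∧ (s : F) * φ x ∈ B) :
    (maximalIdeal A).map (algebraMap A Λ) ≤ h21c_contr B 𝔫 φ hloc := by
  intro m hmm
  obtain ⟨s, hs, b, hb, e⟩ := h21c_map_mem B 𝔫 φ hloc (maximalIdeal A) hmm
  exact ⟨s, hs, b, hm hb, e⟩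

/-- every element of `Λ` is congruent to a constant modulo the contraction. -/
theorem h21c_exists_cst [h𝔫 : 𝔫.IsPrime]
    (hm : (maximalIdeal A).map (algebraMap A B) ≤ 𝔫)
    (hres : ∀ b : B, ∃ a : A, b - algebraMap A B a ∈ 𝔫)
    (hloc : ∀ x : Λ, ∃ s : B, s ∉ 𝔫 ∧ (s : F) * φ x ∈ B) (x : Λ) :
    ∃ a : A, x - algebraMap A Λ a ∈ h21c_contr B 𝔫 φ hloc := by
  obtain ⟨s, hs, hb⟩ := hloc x
  obtain ⟨a₁, ha₁⟩ := hres ⟨_, hb⟩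
  obtain ⟨a₂, ha₂⟩ := hres s
  have hu : IsUnit a₂ := by
    by_contra hnu
    have h1 : a₂ ∈ maximalIdeal A := (mem_maximalIdeal a₂).mpr hnu
    have h2 : algebraMap A B a₂ ∈ 𝔫 := hm (Ideal.mem_map_of_mem _ h1)
    apply hs
    have h3 : s = (s - algebraMap A B a₂) + algebraMap A B a₂ := by ring
    rw [h3]
    exact 𝔫.add_mem ha₂ h2
  obtain ⟨u, hu'⟩ := hu.exists_right_inv
  refine ⟨a₁ * u, s, hs,
    (⟨_, hb⟩ - algebraMap A B a₁) + algebraMap A B (a₁ * u) * (algebraMap A B a₂ - s), ?_, ?_⟩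
  · refine 𝔫.add_mem ha₁ (𝔫.mul_mem_left _ ?_)
    have h3 : algebraMap A B a₂ - s = -(s - algebraMap A B a₂) := by ring
    rw [h3]
    exact 𝔫.neg_mem ha₂
  · have h4 : algebraMap A F a₁ = algebraMap A F (a₁ * u) * algebraMap A F a₂ := by
      rw [← map_mul, mul_assoc, mul_comm u a₂, hu', mul_one]
    have h5 : ∀ a : A, ((algebraMap A B a : B) : F) = algebraMap A F a := fun _ => rfl
    rw [Subalgebra.coe_add, Subalgebra.coe_sub, Subalgebra.coe_mul, Subalgebra.coe_sub,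
      h5, h5, h5, map_sub, φ.commutes]
    linear_combination (-1 : F) * h4

/-- the contraction is a maximal ideal. -/
theorem h21c_contr_isMaximal [h𝔫 : 𝔫.IsPrime]
    (hm : (maximalIdeal A).map (algebraMap A B) ≤ 𝔫)
    (hres : ∀ b : B, ∃ a : A, b - algebraMap A B a ∈ 𝔫)
    (hloc : ∀ x : Λ, ∃ s : B, s ∉ 𝔫 ∧ (s : F) * φ x ∈ B) :
    (h21c_contr B 𝔫 φ hloc).IsMaximal := by
  rw [Ideal.isMaximal_iff]
  refine ⟨?_, fun J x hle hx hxJ => ?_⟩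
  · rintro ⟨s, hs, b, hb, e⟩
    apply hs
    have h1 : b = s := by
      apply Subtype.ext
      rw [e, map_one, mul_one]
    rw [← h1]
    exact hb
  · obtain ⟨a, ha⟩ := h21c_exists_cst B 𝔫 φ hm hres hloc x
    have hu : IsUnit a := by
      by_contra hnu
      have h1 : a ∈ maximalIdeal A := (mem_maximalIdeal a).mpr hnu
      have h2 : algebraMap A Λ a ∈ h21c_contr B 𝔫 φ hloc :=
        h21c_mExt_le_contr B 𝔫 φ hm hloc (Ideal.mem_map_of_mem _ h1)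
      apply hx
      have h3 : x = (x - algebraMap A Λ a) + algebraMap A Λ a := by ring
      rw [h3]
      exact Ideal.add_mem _ ha h2
    have h4 : algebraMap A Λ a ∈ J := by
      have h3 : algebraMap A Λ a = x - (x - algebraMap A Λ a) := by ring
      rw [h3]
      exact J.sub_mem hxJ (hle ha)
    have h5 : IsUnit (algebraMap A Λ a) := hu.map _
    have := J.eq_top_of_isUnit_mem h4 h5
    rw [this]
    trivial

/-- **Local smoothness transfer.**  `𝔫 = (t') + 𝔪_A B` locally at `𝔫`. -/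
theorem h21c_smooth_local [h𝔫 : 𝔫.IsPrime]
    (hm : (maximalIdeal A).map (algebraMap A B) ≤ 𝔫)
    (hres : ∀ b : B, ∃ a : A, b - algebraMap A B a ∈ 𝔫)
    (hloc : ∀ x : Λ, ∃ s : B, s ∉ 𝔫 ∧ (s : F) * φ x ∈ B)
    (hsurj : ∀ z ∈ 𝔫, ∃ x : Λ, ∃ s : B, s ∉ 𝔫 ∧ ∃ b : B, (b : F) = (s : F) * φ x ∧
      s * z - b ∈ (maximalIdeal A).map (algebraMap A B))
    (hLP : ∀ 𝔰 : Ideal Λ, 𝔰.IsMaximal → (maximalIdeal A).map (algebraMap A Λ) ≤ 𝔰 →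
      ∃ t₁ ∈ 𝔰, ∀ y ∈ 𝔰, ∃ s, s ∉ 𝔰 ∧
        s * y ∈ Ideal.span {t₁} ⊔ (maximalIdeal A).map (algebraMap A Λ)) :
    ∃ t' ∈ 𝔫, ∀ z ∈ 𝔫, ∃ s, s ∉ 𝔫 ∧
      s * z ∈ Ideal.span {t'} ⊔ (maximalIdeal A).map (algebraMap A B) := by
  obtain ⟨t₁, ht₁, hgen⟩ := hLP (h21c_contr B 𝔫 φ hloc)
    (h21c_contr_isMaximal B 𝔫 φ hm hres hloc) (h21c_mExt_le_contr B 𝔫 φ hm hloc)
  obtain ⟨s₁, hs₁, t', ht', e₁⟩ := ht₁
  refine ⟨t', ht', fun z hz => ?_⟩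
  obtain ⟨x, s, hs, b, e, hsz⟩ := hsurj z hz
  have hb : b ∈ 𝔫 := by
    have h1 : b = s * z - (s * z - b) := by ring
    rw [h1]
    exact 𝔫.sub_mem (𝔫.mul_mem_left _ hz) (hm hsz)
  have hx : x ∈ h21c_contr B 𝔫 φ hloc := ⟨s, hs, b, hb, e⟩
  obtain ⟨s₀, hs₀, hs₀x⟩ := hgen x hx
  obtain ⟨q, hq, m, hmm, hsum⟩ := Submodule.mem_sup.mp hs₀x
  obtain ⟨c, rfl⟩ := Ideal.mem_span_singleton'.mp hq
  obtain ⟨σ₀, hσ₀, hb₀⟩ := hloc s₀
  have hb₀n : (⟨_, hb₀⟩ : B) ∉ 𝔫 :=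
    h21c_not_mem_of_not_mem_contr B 𝔫 φ hloc hs₀ hσ₀ rfl
  obtain ⟨σc, hσc, hbc⟩ := hloc c
  obtain ⟨σm, hσm, bm, hbm, em⟩ := h21c_map_mem B 𝔫 φ hloc (maximalIdeal A) hmm
  set μ : B := σc * σm * s₁ * ⟨_, hb₀⟩ with hμ
  have hμn : μ ∉ 𝔫 := by
    intro h
    rcases h𝔫.mem_or_mem h with h | h
    · rcases h𝔫.mem_or_mem h with h | h
      · rcases h𝔫.mem_or_mem h with h | h
        · exact hσc h
        · exact hσm h
      · exact hs₁ h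
    · exact hb₀n h
  have key : μ * b = (⟨_, hbc⟩ * σ₀ * σm * s) * t' + (σ₀ * σc * s₁ * s) * bm := by
    apply Subtype.ext
    have h2 : φ s₀ * φ x = φ c * φ t₁ + φ m := by
      rw [← map_mul, ← map_mul, ← map_add, hsum]
    rw [hμ]
    push_cast
    rw [e, e₁, em]
    linear_combination ((σc : F) * (σm : F) * (s₁ : F) * (σ₀ : F) * (s : F)) * h2
  refine ⟨μ * s, fun h => (h𝔫.mem_or_mem h).elim hμn hs, ?_⟩
  have h3 : μ * s * z = (⟨_, hbc⟩ * σ₀ * σm * s) * t'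
      + ((σ₀ * σc * s₁ * s) * bm + μ * (s * z - b)) := by
    have h4 : μ * s * z = μ * b + μ * (s * z - b) := by ring
    rw [h4, key]
    ring
  rw [h3]
  exact Ideal.add_mem _ (Ideal.mem_sup_left (Ideal.mem_span_singleton'.mpr ⟨_, rfl⟩))
    (Ideal.mem_sup_right (Ideal.add_mem _ (Ideal.mul_mem_left _ _ hbm)
      (Ideal.mul_mem_left _ _ hsz)))

end SmoothLocal

end Fermat.Agent.LGC
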