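import Fermat.Agent.LGC.Skeleton
import Fermat.Agent.S37.Inertia
import Fermat.Agent.Red.GGSection

/-!
# W3-LGC (helper63): SS-PERM, the inertia group permutes the places centred at a closed point
of the special fibre

* `h63p_adic_smul` : `(g • v).adicValuation (g • x) = v.adicValuation x`.
* `InertiaTrivAt N A t σ` : `σ` maps the chart `chart N A t` into itself and acts trivially
  modulo `𝔪_A · chart`.
* `h63p_perm_of_triv` : the conclusion of `IfaceSSPerm` for `σ` from `InertiaTrivAt` and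
  `σ t = t`.
* `BCAt N A t` : base change of the chart (the shape of `S37.IfaceBaseChange`).
* `h63p_triv_of_bc` : `BCAt → InertiaTrivAt` for every `σ` in the inertia group.
* `ifaceSSPerm_of_bc`, `ifaceSSPerm_inv_of_bc` : `IfaceSSPerm` for the two charts from `BCAt`
  at the level `M * ℓ`.
-/

set_option autoImplicit false

open AlgebraicCurve ModularCurve WithZero IsLocalRing

noncomputable section

namespace Fermat.Agent.LGC

open Fermat.Agent.S37 Fermat.Agent.Red Fermat.Agent.Red.GG Fermat.Agent.Red.GV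

open scoped Pointwise

section Generic

variable {N : ℕ}

/-- the valuations of a place and of its translate. -/
theorem h63p_adic_smul (g : SemilinearAut Kbar (FF N)) (v : Place Kbar (FF N)) (x : FF N) :
    (g • v).adicValuation (g • x) = v.adicValuation x := by
  rcases eq_or_ne x 0 with rfl | hx
  · rw [smul_zero, map_zero, map_zero]
  · have hgx : g • x ≠ 0 := by
      intro h
      apply hx
      have := congrArg (fun y => g⁻¹ • y) h
      simpa using this
    have h1 := SemilinearAut.ord_smul g v x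
    unfold Place.ord at h1
    have h2 : WithZero.log ((g • v).adicValuation (g • x)) = WithZero.log (v.adicValuation x) :=
      neg_injective h1
    have ha := (g • v).adicValuation_ne_zero hgx
    have hb := v.adicValuation_ne_zero hx
    rw [← WithZero.exp_log ha, ← WithZero.exp_log hb, h2]

theorem h63p_adic_inv_smul (g : SemilinearAut Kbar (FF N)) (v : Place Kbar (FF N)) (x : FF N) :
    (g⁻¹ • v).adicValuation x = v.adicValuation (g • x) := by
  have h := h63p_adic_smul g (g⁻¹ • v) x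
  rw [smul_inv_smul] at h
  exact h.symm

/-- `σ` maps the chart into itself and acts trivially modulo `𝔪_A · chart`. -/
def InertiaTrivAt (N : ℕ) (A : ValuationSubring Kbar) (t : FF N) (σ : GQ) : Prop :=
  ∀ b : chart N A t, ∃ c : chart N A t, (c : FF N) = gal N σ • (b : FF N) ∧
    c - b ∈ (maximalIdeal A).map (algebraMap A (chart N A t))

/-- **PERM from the triviality of `σ` modulo `𝔪_A`.** -/
theorem h63p_perm_of_triv (A : ValuationSubring Kbar) (t : FF N) (σ : GQ)
    (ht : gal N σ • t = t) (htriv : InertiaTrivAt N A t σ)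
    (𝔫 : Ideal (chart N A t))
    (hm : (maximalIdeal A).map (algebraMap A (chart N A t)) ≤ 𝔫) (x : FF N)
    (hx : ∀ k, h26Centered (chart N A t) (chartVal N t) 𝔫 k → chartVal N t k x = 1)
    (k : ChartPlace N t) (hk : h26Centered (chart N A t) (chartVal N t) 𝔫 k) :
    chartVal N t k (gal N σ • x) = 1 := by
  have htmem : t ∈ ((gal N σ)⁻¹ • k.1).toValuationSubring := by
    rw [SemilinearAut.smul_toValuationSubring,
      ValuationSubring.mem_pointwise_smul_iff_inv_smul_mem, inv_inv, ht]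
    exact k.2
  set k' : ChartPlace N t := ⟨(gal N σ)⁻¹ • k.1, htmem⟩ with hk'
  have hval : ∀ y : FF N, chartVal N t k' y = chartVal N t k (gal N σ • y) := fun y =>
    h63p_adic_inv_smul (gal N σ) k.1 y
  have hcent : h26Centered (chart N A t) (chartVal N t) 𝔫 k' := by
    intro b hb
    obtain ⟨c, hc, hcb⟩ := htriv b
    rw [hval, ← hc] at hb
    have hc𝔫 : c ∈ 𝔫 := hk c hb
    have e : b = c - (c - b) := by ring
    rw [e]
    exact Ideal.sub_mem _ hc𝔫 (hm hcb)
  rw [← hval]
  exact hx k' hcent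

end Generic

section BC

variable {N : ℕ}

/-- **base change of the chart** `modelAt N A t`: the chart is generated, as a ring, by the
constants of `A` and its elements with rational `q`-expansion. -/
def BCAt (N : ℕ) (A : ValuationSubring Kbar) (t : FF N) : Prop :=
  modelAt N A t ≤ Subring.closure
    ((fun a : Kbar => cst N a) '' (A : Set Kbar) ∪ {f | IsRat f ∧ f ∈ modelAt N A t})

/-- **base change ⇒ the inertia group acts trivially modulo `𝔪_A`.** -/
theorem h63p_triv_of_bc (A : ValuationSubring Kbar) (t : FF N) (hBC : BCAt N A t)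
    (σ : GQ) (hσ : σ ∈ A.inertiaSubgroupIn ℚ) : InertiaTrivAt N A t σ := by
  have key : ∀ f ∈ Subring.closure
      ((fun a : Kbar => cst N a) '' (A : Set Kbar) ∪ {f | IsRat f ∧ f ∈ modelAt N A t}),
      ∃ b c : chart N A t, (b : FF N) = f ∧ (c : FF N) = gal N σ • f ∧
        c - b ∈ (maximalIdeal A).map (algebraMap A (chart N A t)) := by
    intro f hf
    induction hf using Subring.closure_induction with
    | mem y hy =>
      rcases hy with ⟨a, ha, rfl⟩ | ⟨hrat, hy⟩
      · obtain ⟨h1, h2⟩ := Fermat.Agent.S05.H86.inertia_apply_mem A hσ ha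
        refine ⟨⟨cst N a, ModelO.h85_cst_mem_modelAt N A t ha⟩,
          ⟨cst N (σ a), ModelO.h85_cst_mem_modelAt N A t h1⟩, rfl, ?_, ?_⟩
        · exact (GalI.gal_smul_cst σ a).symm
        · have h3 : (⟨σ a - a, A.nonunits_le h2⟩ : A) ∈ maximalIdeal A :=
            ValuationSubring.coe_mem_nonunits_iff.mp h2
          have h4 := Ideal.mem_map_of_mem (algebraMap A (chart N A t)) h3
          have e : (⟨cst N (σ a), ModelO.h85_cst_mem_modelAt N A t h1⟩ : chart N A t)
              - ⟨cst N a, ModelO.h85_cst_mem_modelAt N A t ha⟩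
              = algebraMap A (chart N A t) ⟨σ a - a, A.nonunits_le h2⟩ := by
            apply Subtype.ext
            show cst N (σ a) - cst N a = cst N (σ a - a)
            exact (map_sub (algebraMap Kbar (FF N)) (σ a) a).symm
          rw [e]
          exact h4
      · refine ⟨⟨y, hy⟩, ⟨y, hy⟩, rfl, (GalI.gal_smul_of_isRat σ hrat).symm, ?_⟩
        rw [sub_self]
        exact zero_mem _
    | zero =>
      refine ⟨0, 0, rfl, ?_, ?_⟩
      · rw [smul_zero]; rfl
      · rw [sub_self]; exact zero_mem _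
    | one =>
      refine ⟨1, 1, rfl, ?_, ?_⟩
      · rw [smul_one]; rfl
      · rw [sub_self]; exact zero_mem _
    | add y z _ _ ihy ihz =>
      obtain ⟨b₁, c₁, hb₁, hc₁, h₁⟩ := ihy
      obtain ⟨b₂, c₂, hb₂, hc₂, h₂⟩ := ihz
      refine ⟨b₁ + b₂, c₁ + c₂, ?_, ?_, ?_⟩
      · rw [← hb₁, ← hb₂]; rfl
      · rw [smul_add, ← hc₁, ← hc₂]; rfl
      · have e : c₁ + c₂ - (b₁ + b₂) = (c₁ - b₁) + (c₂ - b₂) := by ring
        rw [e]
        exact Ideal.add_mem _ h₁ h₂
    | neg y _ ihy =>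
      obtain ⟨b₁, c₁, hb₁, hc₁, h₁⟩ := ihy
      refine ⟨-b₁, -c₁, ?_, ?_, ?_⟩
      · rw [← hb₁]; rfl
      · rw [smul_neg, ← hc₁]; rfl
      · have e : -c₁ - -b₁ = -(c₁ - b₁) := by ring
        rw [e]
        exact Ideal.neg_mem_iff _ |>.mpr h₁
    | mul y z _ _ ihy ihz =>
      obtain ⟨b₁, c₁, hb₁, hc₁, h₁⟩ := ihy
      obtain ⟨b₂, c₂, hb₂, hc₂, h₂⟩ := ihz
      refine ⟨b₁ * b₂, c₁ * c₂, ?_, ?_, ?_⟩
      · rw [← hb₁, ← hb₂]; rfl
      · rw [smul_mul', ← hc₁, ← hc₂]; rfl
      · have e : c₁ * c₂ - b₁ * b₂ = c₁ * (c₂ - b₂) + (c₁ - b₁) * b₂ := by ring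
        rw [e]
        exact Ideal.add_mem _ (Ideal.mul_mem_left _ _ h₂) (Ideal.mul_mem_right _ _ h₁)
  intro b
  obtain ⟨b', c, hb', hc, h⟩ := key (b : FF N) (hBC b.2)
  have hbb : b' = b := Subtype.ext hb'
  rw [hbb] at h
  exact ⟨c, hc, h⟩

end BC

section Level

variable (A : ValuationSubring Kbar) (M ℓ : ℕ) [NeZero M] [NeZero ℓ]

theorem h63p_gal_jSS (σ : GQ) : gal (M * ℓ) σ • jSS M ℓ = jSS M ℓ := by
  have : NeZero (M * ℓ) := ⟨Nat.mul_ne_zero (NeZero.ne M) (NeZero.ne ℓ)⟩
  have h : jSS M ℓ = jB (M * ℓ) := HKMod.heckeAlphaBar_jBar M ℓ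
  rw [h]
  exact GalI.gal_smul_jB σ

theorem h63p_gal_jSS_inv (σ : GQ) : gal (M * ℓ) σ • (jSS M ℓ)⁻¹ = (jSS M ℓ)⁻¹ := by
  rw [smul_inv'', h63p_gal_jSS]

omit [NeZero M] [NeZero ℓ] in
/-- **SS-PERM for a chart from the triviality of the inertia group modulo `𝔪_A`.** -/
theorem ifaceSSPerm_of_triv (t : FF (M * ℓ)) (ht : ∀ σ : GQ, gal (M * ℓ) σ • t = t)
    (htriv : ∀ σ ∈ A.inertiaSubgroupIn ℚ, InertiaTrivAt (M * ℓ) A t σ) :
    IfaceSSPerm A M ℓ t := by
  intro σ hσ 𝔫 _ hm x hx k hk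
  exact h63p_perm_of_triv A t σ (ht σ) (htriv σ hσ) 𝔫 hm x hx k hk

/-- **SS-PERM for the finite chart from base change at the level `M * ℓ`.** -/
theorem ifaceSSPerm_of_bc (hBC : BCAt (M * ℓ) A (jSS M ℓ)) :
    IfaceSSPerm A M ℓ (jSS M ℓ) :=
  ifaceSSPerm_of_triv A M ℓ _ (h63p_gal_jSS M ℓ)
    (fun σ hσ => h63p_triv_of_bc A _ hBC σ hσ)

/-- **SS-PERM for the chart at infinity from base change at the level `M * ℓ`.** -/
theorem ifaceSSPerm_inv_of_bc (hBC : BCAt (M * ℓ) A (jSS M ℓ)⁻¹) :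
    IfaceSSPerm A M ℓ (jSS M ℓ)⁻¹ :=
  ifaceSSPerm_of_triv A M ℓ _ (h63p_gal_jSS_inv M ℓ)
    (fun σ hσ => h63p_triv_of_bc A _ hBC σ hσ)

end Level

end Fermat.Agent.LGC
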