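import Fermat.Agent.Red.GV.Bar
import Fermat.Agent.Red.Kron.Twist
import Mathlib.Algebra.Polynomial.Lifts

/-!
# W3-LGC / G2: fractions of series over a valuation ring

`K` a field, `A` a valuation subring, `π : A → k` a ring homomorphism to a field.

* `h44g_IsFrac A π s` : `s ∈ K((q))` is a quotient `a / b` of series over `A` with
  `b ≢ 0 mod π` (the "soft" Gauss-integrality; the shape of `S37.CongOne`).
* `h44g_fracRing A π` : the subring of such series.
* stability under `qExpand` (`q ↦ q^e`) and under twists by units of `A`.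
* `h44g_mem_gaussSubring_of_frac_qExpand` : an element `w` of `F_N` (`ℓ ∤ N`) such that
  `w(q^e)` is a fraction is Gauss-integral.
* `h44g_coeff_mem_of_prod` : coefficients of `(X - c₀) ∏ (X - c b)`.
-/

set_option autoImplicit false

open ModularCurve Polynomial

noncomputable section

namespace Fermat.Agent.LGC

open Fermat.Agent.S28 Fermat.Agent.Red.GV Fermat.Agent.Red.GV.Asm Fermat.Agent.Red.Kron

section Frac

variable {K : Type} [Field K] (A : ValuationSubring K) {k : Type} [Field k] (π : A →+* k)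

/-- `s = a / b` with `a, b ∈ A((q))` and `b ≢ 0` modulo `π`. -/
def h44g_IsFrac (s : LaurentSeries K) : Prop :=
  ∃ a b : LaurentSeries A, redA π b ≠ 0 ∧ embA A a = s * embA A b

theorem h44g_isFrac_embA (y : LaurentSeries A) : h44g_IsFrac A π (embA A y) :=
  ⟨y, 1, by rw [map_one]; exact one_ne_zero, by rw [map_one, mul_one]⟩

theorem h44g_isFrac_zero : h44g_IsFrac A π 0 := by
  have h := h44g_isFrac_embA A π 0
  rwa [map_zero] at h

theorem h44g_isFrac_one : h44g_IsFrac A π 1 := by
  have h := h44g_isFrac_embA A π 1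
  rwa [map_one] at h

theorem h44g_isFrac_C (a : A) : h44g_IsFrac A π (HahnSeries.C (a : K)) := by
  have h := h44g_isFrac_embA A π (HahnSeries.C a)
  rwa [embA_C] at h

variable {A π}

theorem h44g_isFrac_add {s t : LaurentSeries K} (hs : h44g_IsFrac A π s)
    (ht : h44g_IsFrac A π t) : h44g_IsFrac A π (s + t) := by
  obtain ⟨a, b, hb, hab⟩ := hs
  obtain ⟨c, d, hd, hcd⟩ := ht
  refine ⟨a * d + c * b, b * d, ?_, ?_⟩
  · rw [map_mul]; exact mul_ne_zero hb hd
  · rw [map_add, map_mul, map_mul, map_mul, hab, hcd]; ring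

theorem h44g_isFrac_mul {s t : LaurentSeries K} (hs : h44g_IsFrac A π s)
    (ht : h44g_IsFrac A π t) : h44g_IsFrac A π (s * t) := by
  obtain ⟨a, b, hb, hab⟩ := hs
  obtain ⟨c, d, hd, hcd⟩ := ht
  refine ⟨a * c, b * d, ?_, ?_⟩
  · rw [map_mul]; exact mul_ne_zero hb hd
  · rw [map_mul, map_mul, hab, hcd]; ring

theorem h44g_isFrac_neg {s : LaurentSeries K} (hs : h44g_IsFrac A π s) :
    h44g_IsFrac A π (-s) := by
  obtain ⟨a, b, hb, hab⟩ := hs
  exact ⟨-a, b, hb, by rw [map_neg, hab]; ring⟩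

variable (A π)

/-- the subring of fractions `a / b`, `b ≢ 0`. -/
def h44g_fracRing : Subring (LaurentSeries K) where
  carrier := {s | h44g_IsFrac A π s}
  mul_mem' := h44g_isFrac_mul
  one_mem' := h44g_isFrac_one A π
  add_mem' := h44g_isFrac_add
  zero_mem' := h44g_isFrac_zero A π
  neg_mem' := h44g_isFrac_neg

theorem h44g_mem_fracRing_iff (s : LaurentSeries K) :
    s ∈ h44g_fracRing A π ↔ h44g_IsFrac A π s := Iff.rfl

variable {A π}

/-- `q ↦ q^e` preserves fractions. -/
theorem h44g_isFrac_qExpand (e : ℕ) [NeZero e] {s : LaurentSeries K}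
    (hs : h44g_IsFrac A π s) : h44g_IsFrac A π (qExpand K e s) := by
  obtain ⟨a, b, hb, hab⟩ := hs
  refine ⟨qExpand A e a, qExpand A e b, ?_, ?_⟩
  · rw [redA, ModularCurve.coeffMap_qExpand]
    intro h0
    apply hb
    apply qExpand_injective (R := k) e
    rw [map_zero]
    exact h0
  · rw [embA, ModularCurve.coeffMap_qExpand, ModularCurve.coeffMap_qExpand, ← map_mul]
    congr 1

/-! ### twists by units of `A` -/

/-- the twist `t ↦ u t` of a series over `A`, `u` a unit of `A`. -/
def h44g_twA (u : Aˣ) (s : LaurentSeries A) : LaurentSeries A where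
  coeff n := s.coeff n * ((u ^ n : Aˣ) : A)
  isPWO_support' := s.isPWO_support.mono (by
    intro n hn
    simp only [Function.mem_support, ne_eq] at hn ⊢
    exact fun h0 => hn (by rw [h0, zero_mul]))

theorem h44g_coeff_twA (u : Aˣ) (s : LaurentSeries A) (n : ℤ) :
    (h44g_twA u s).coeff n = s.coeff n * ((u ^ n : Aˣ) : A) := rfl

theorem h44g_embA_twA (u : Aˣ) (s : LaurentSeries A) :
    embA A (h44g_twA u s) = twistK (((u : A) : K)) (embA A s) := by
  ext n
  rw [h36_embA_coeff, coeff_twistK, h36_embA_coeff, h44g_coeff_twA]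
  have h1 : ((((u ^ n : Aˣ) : A)) : K) = (((u : A) : K)) ^ n := by
    have h2 := Units.val_zpow_eq_zpow_val (Units.map A.subtype.toMonoidHom u) n
    rw [← map_zpow] at h2
    exact h2
  rw [← h1]
  rfl

theorem h44g_redA_twA (u : Aˣ) (s : LaurentSeries A) :
    redA π (h44g_twA u s) = twistK (π (u : A)) (redA π s) := by
  ext n
  rw [h36_redA_coeff, coeff_twistK, h36_redA_coeff, h44g_coeff_twA, map_mul]
  have h1 : π (((u ^ n : Aˣ) : A)) = (π (u : A)) ^ n := by
    have h2 := Units.val_zpow_eq_zpow_val (Units.map π.toMonoidHom u) n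
    rw [← map_zpow] at h2
    exact h2
  rw [h1]

/-- twisting by a unit of `A` preserves fractions. -/
theorem h44g_isFrac_twistK (u : Aˣ) {s : LaurentSeries K} (hs : h44g_IsFrac A π s) :
    h44g_IsFrac A π (twistK (((u : A) : K)) s) := by
  obtain ⟨a, b, hb, hab⟩ := hs
  have hu0 : (((u : A) : K)) ≠ 0 := by
    intro h0
    have h1 : (u : A) = 0 := Subtype.ext h0
    exact u.ne_zero h1
  have hπu : π (u : A) ≠ 0 := (u.map π.toMonoidHom).ne_zero
  refine ⟨h44g_twA u a, h44g_twA u b, ?_, ?_⟩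
  · rw [h44g_redA_twA]
    intro h0
    apply hb
    apply twistK_injective hπu
    rw [h0, twistK_zero]
  · rw [h44g_embA_twA, h44g_embA_twA, hab, twistK_mul hu0]

end Frac

/-! ### coefficients of a product of linear factors -/

theorem h44g_coeff_mem_of_prod {R : Type*} [CommRing R] (S : Subring R) (c₀ : R) (c : ℕ → R)
    (n : ℕ) (h₀ : c₀ ∈ S) (h : ∀ b, c b ∈ S) (m : ℕ) :
    ((X - C c₀) * ∏ b ∈ Finset.range n, (X - C (c b))).coeff m ∈ S := by
  have hX : (X : R[X]) ∈ liftsRing S.subtype :=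
    (lifts_iff_liftsRing S.subtype _).1 (X_mem_lifts _)
  have hC : ∀ r ∈ S, (C r : R[X]) ∈ liftsRing S.subtype := fun r hr =>
    (lifts_iff_liftsRing S.subtype _).1 (C'_mem_lifts ⟨⟨r, hr⟩, rfl⟩)
  have key : ((X - C c₀) * ∏ b ∈ Finset.range n, (X - C (c b))) ∈ liftsRing S.subtype :=
    mul_mem (sub_mem hX (hC _ h₀)) (prod_mem fun b _ => sub_mem hX (hC _ (h b)))
  obtain ⟨y, hy⟩ := (lifts_iff_coeff_lifts _).1 ((lifts_iff_liftsRing S.subtype _).2 key) m
  rw [← hy]
  exact y.2

/-! ### Gauss-integrality from a fraction in the variable `t = q^{1/e}` -/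

section Gauss

variable {K : Type} [Field K] [Algebra ℚ K] (A : ValuationSubring K) {k : Type} [Field k]
  (π : A →+* k) (N : ℕ) [NeZero N] (ℓ : ℕ) [Fact ℓ.Prime]

/-- An element `w` of `F_K` (level `N` prime to `ℓ`) such that `w(q^e)` is a fraction `a / b`
of series over `A` with `b ≢ 0 mod 𝔪` is Gauss-integral. -/
theorem h44g_mem_gaussSubring_of_frac_qExpand (hπ : IsResidueMap A π ℓ) (hN : ¬ ℓ ∣ N)
    (e : ℕ) [NeZero e] (w : FK K N)
    (h : h44g_IsFrac A π (qExpand K e (w : LaurentSeries K))) : w ∈ gaussSubring A π N := by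
  obtain ⟨a, b, hb, h⟩ := h
  obtain ⟨D⟩ := exists_igusaInput N ℓ hN
  rw [mem_gaussSubring_iff]
  by_cases hw0 : (w : LaurentSeries K) = 0
  · rw [hw0]; exact inOTA_zero A π
  obtain ⟨c, Dn, P, bb, hc, hDn, hbb, -, hrep⟩ := exists_gauss_rep A π N ℓ hπ D _ w.2 hw0
  rw [inOTA_iff_of_rep A π hπ.ker_eq _ c hc Dn hDn bb hbb hrep]
  by_contra hcn
  have hnu := inv_mem_nonunits_of_notMem A c⁻¹ hcn
  rw [inv_inv] at hnu
  have hcA : c ∈ A := mem_of_mem_nonunits A c hnu
  have h1 : HahnSeries.C (⟨c, hcA⟩ : A) * (qExpand A e (evalC (jqModC A) Dn) * a) =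
      qExpand A e bb * b := by
    apply embA_injective A
    have h2 : embA A (qExpand A e (evalC (jqModC A) Dn)) =
        qExpand K e (evalA A (jK K) Dn) := by
      rw [embA, ModularCurve.coeffMap_qExpand]
      congr 1
      exact embA_evalC_j A Dn
    have h3 : embA A (qExpand A e bb) = qExpand K e (embA A bb) := by
      rw [embA, ModularCurve.coeffMap_qExpand]
    rw [embA_C_mul, map_mul, map_mul, h2, h3, h, ← hrep, map_mul, map_mul, qExpand_C]
    ring
  have h2 := congrArg (redA π) h1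
  rw [redA_C_mul_of_nonunit π hπ.ker_eq _ hnu, map_mul] at h2
  rcases mul_eq_zero.mp h2.symm with h3 | h3
  · apply hbb
    apply qExpand_injective (R := k) e
    rw [map_zero, ← h3, redA, ModularCurve.coeffMap_qExpand]
  · exact hb h3

end Gauss

end Fermat.Agent.LGC
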