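import Fermat.Agent.LGC.Conj
import Fermat.Agent.LGC.Frac

/-!
# W3-LGC / G2 (K2): no third extension of the Gauss valuation to `F_{Nℓ}`

`ℓ ∤ N` a prime, `A` a valuation subring of `ℚ̄` over `ℓ`, `w` the Fricke involution of
`F_{Nℓ}`, `α : F_N → F_{Nℓ}` the inclusion.

If the `q`-expansions of `x` and of `w x` are fractions `a / b` of series over `A` with
`b ≢ 0 mod 𝔪_A` (i.e. `x ∈ W_∞ ∩ W_0`), then all coefficients of the characteristic polynomial
of `x` over `α(F_N)` are Gauss-integral (`h44g_coeff_mem_gaussV`); hence `x` is integral over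
`α(gaussV A N)` (`h44g_isIntegralElem_of_isFrac`).
-/

set_option autoImplicit false
set_option linter.style.haveILetI false
set_option linter.unusedSectionVars false

open ModularCurve AlgebraicCurve Polynomial

noncomputable section

namespace Fermat.Agent.LGC

open Fermat.Agent.S24 Fermat.Agent.Red.Kron Fermat.Agent.Red.TRK Fermat.Agent.Red.GV

/-- Cayley–Hamilton for `charpolyAlong`. -/
theorem h44g_eval₂_charpolyAlong {K F F' : Type*} [Field K] [Field F] [Field F'] [Algebra K F]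
    [Algebra K F'] (φ : F →ₐ[K] F') (hfin : FiniteAlong K φ) (g : F') :
    (charpolyAlong φ hfin g).eval₂ φ.toRingHom g = 0 := by
  letI := algebraAlong φ
  haveI : Module.Finite F F' := hfin
  have h := LinearMap.aeval_self_charpoly (LinearMap.mulLeft F g)
  have h1 : LinearMap.mulLeft F g = Algebra.lmul F F' g := rfl
  rw [h1, Polynomial.aeval_algHom_apply] at h
  have h2 := congrArg (fun f : Module.End F F' => f 1) h
  have h3 : (Algebra.lmul F F') ((aeval g) (LinearMap.charpoly ((Algebra.lmul F F') g))) 1 =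
      (aeval g) (LinearMap.charpoly ((Algebra.lmul F F') g)) * 1 := rfl
  simp only [LinearMap.zero_apply] at h2
  rw [h3, mul_one] at h2
  exact h2

/-- a root of unity of `ℚ̄` as a unit of `A`. -/
theorem h44g_exists_unit_of_pow_eq_one {K : Type} [Field K] (A : ValuationSubring K) {n : ℕ}
    (hn : n ≠ 0) {ω : K} (hω : ω ^ n = 1) : ∃ u : Aˣ, ((u : A) : K) = ω := by
  have hω0 : ω ≠ 0 := by
    rintro rfl
    rw [zero_pow hn] at hω
    exact zero_ne_one hω
  have hmem : ∀ z : K, z ^ n = 1 → z ∈ A := by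
    intro z hz
    rcases A.mem_or_inv_mem z with h | h
    · exact h
    · have h1 : z = (z⁻¹) ^ (n - 1) := by
        have hz0 : z ≠ 0 := by
          rintro rfl
          rw [zero_pow hn] at hz
          exact zero_ne_one hz
        have h2 : z ^ (n - 1) * z = 1 := by
          rw [← pow_succ, Nat.sub_add_cancel (Nat.pos_of_ne_zero hn), hz]
        rw [inv_pow]
        exact eq_inv_of_mul_eq_one_right h2
      rw [h1]
      exact pow_mem h _
  have h1 : ω ∈ A := hmem ω hω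
  have h2 : ω⁻¹ ∈ A := hmem ω⁻¹ (by rw [inv_pow, hω, inv_one])
  refine ⟨⟨⟨ω, h1⟩, ⟨ω⁻¹, h2⟩, ?_, ?_⟩, rfl⟩
  · exact Subtype.ext (mul_inv_cancel₀ hω0)
  · exact Subtype.ext (inv_mul_cancel₀ hω0)

variable (N ℓ : ℕ) [NeZero N] [NeZero ℓ] (A : ValuationSubring Kbar)

/-- **G2 / K2.**  If `x` and `w x` are fractions (`x ∈ W_∞ ∩ W_0`), the coefficients of the
characteristic polynomial of `x` over `α(F_N)` are Gauss-integral. -/
theorem h44g_coeff_mem_gaussV (hℓ : ℓ.Prime) (hN : ¬ ℓ ∣ N) (hA : A.LiesOverPrime ℓ)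
    (hfin : FiniteAlong Kbar (heckeAlphaBar Kbar N ℓ)) (x : FF (N * ℓ))
    (hx : h44g_IsFrac A (IsLocalRing.residue A) (x : LaurentSeries Kbar))
    (hwx : h44g_IsFrac A (IsLocalRing.residue A)
      ((kFricke N ℓ hℓ hN x : FF (N * ℓ)) : LaurentSeries Kbar)) (m : ℕ) :
    (charpolyAlong (heckeAlphaBar Kbar N ℓ) hfin x).coeff m ∈ gaussV A N := by
  haveI : Fact ℓ.Prime := ⟨hℓ⟩
  haveI : NeZero ((ℓ : ℕ) : Kbar) := ⟨by exact_mod_cast NeZero.ne ℓ⟩
  obtain ⟨ζ, hζ⟩ := HasEnoughRootsOfUnity.exists_primitiveRoot Kbar ℓ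
  obtain ⟨u, hu⟩ := h44g_exists_unit_of_pow_eq_one A (NeZero.ne ℓ) hζ.pow_eq_one
  have key := h44g_charpolyAlong_alpha N ℓ hℓ hN ζ hζ hfin x
  have hc := congrArg (fun p : Polynomial (LaurentSeries Kbar) => p.coeff m) key
  simp only [Polynomial.coeff_map] at hc
  apply h44g_mem_gaussSubring_of_frac_qExpand A (IsLocalRing.residue A) N ℓ
    (isResidueMap_residue A ℓ hA) hN ℓ
  rw [← kIotaK_apply, hc, h44g_rhsK]
  refine h44g_coeff_mem_of_prod (h44g_fracRing A (IsLocalRing.residue A)) _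
    (fun b => twistK (ζ ^ b) ((kFricke N ℓ hℓ hN x : FF (N * ℓ)) : LaurentSeries Kbar)) ℓ
    (h44g_isFrac_qExpand ℓ hx) (fun b => ?_) m
  have h1 : (((u ^ b : Aˣ) : A) : Kbar) = ζ ^ b := by
    rw [Units.val_pow_eq_pow_val, ← hu]
    rfl
  rw [h44g_mem_fracRing_iff, ← h1]
  exact h44g_isFrac_twistK (u ^ b) hwx

/-- **G2 / K2, integrality form (no third extension).**  If `x` and `w x` are fractions
(`x ∈ W_∞ ∩ W_0`), then `x` is integral over `α(gaussV A N)`. -/
theorem h44g_isIntegralElem_of_isFrac (hℓ : ℓ.Prime) (hN : ¬ ℓ ∣ N) (hA : A.LiesOverPrime ℓ)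
    (x : FF (N * ℓ))
    (hx : h44g_IsFrac A (IsLocalRing.residue A) (x : LaurentSeries Kbar))
    (hwx : h44g_IsFrac A (IsLocalRing.residue A)
      ((kFricke N ℓ hℓ hN x : FF (N * ℓ)) : LaurentSeries Kbar)) :
    ((heckeAlphaBar Kbar N ℓ).toRingHom.comp (gaussV A N).subtype).IsIntegralElem x := by
  have hfin : FiniteAlong Kbar (heckeAlphaBar Kbar N ℓ) :=
    Fermat.Agent.Red.HKMod.finiteAlong_heckeAlphaBar N ℓ
  have hmem : charpolyAlong (heckeAlphaBar Kbar N ℓ) hfin x ∈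
      Polynomial.lifts (gaussV A N).subtype := by
    rw [lifts_iff_coeff_lifts]
    intro m
    exact ⟨⟨_, h44g_coeff_mem_gaussV N ℓ A hℓ hN hA hfin x hx hwx m⟩, rfl⟩
  obtain ⟨p, hp, -, hpm⟩ := Polynomial.lifts_and_degree_eq_and_monic hmem
    (charpolyAlong_monic _ hfin x)
  refine ⟨p, hpm, ?_⟩
  rw [← Polynomial.eval₂_map, hp]
  exact h44g_eval₂_charpolyAlong (heckeAlphaBar Kbar N ℓ) hfin x

end Fermat.Agent.LGC
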