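import Fermat.Agent.LGC.Skeleton
import Fermat.Agent.Red.KR.MEAlpha
import Fermat.Agent.Red.GGChartAsm
import Fermat.Agent.LGC.SSInt

/-!
# W3-LGC (helper44): the fields of `H26Chart` which depend on the semistable Gauss ring

`ℓ ∤ M` prime, `A` a valuation subring of `ℚ̄` over `ℓ`, `α : F_M → F_{Mℓ}` the inclusion,
`ssV A M ℓ` the integral closure in `F_{Mℓ}` of `α(gaussV A M)` (`LGC/Skeleton.lean`).

* `h44v_mem_ssV_iff` : `x ∈ ssV ↔ x` is integral over `gaussV A M` along `α`.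
* `h44v_hBV_fin`, `h44v_hBV_inf` : the two charts of level `Mℓ` are contained in `ssV`.
* `h44v_hVunit` : `1 + 𝔪_A · ssV ⊆ ssV^×`.
* `h44v_hQEP_fin`, `h44v_hQEP_inf` : QEP at level `Mℓ` with respect to `ssV`.
* `h44v_nt` : `IfaceSSNt`.
* `h44v_mem_ssV_of_isFrac` : `W_∞ ∩ W_0 ⊆ ssV` (fractions `a / b`).
-/

set_option autoImplicit false
set_option linter.style.haveILetI false
set_option linter.unusedSectionVars false
set_option synthInstance.maxHeartbeats 400000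

open AlgebraicCurve ModularCurve WithZero IsLocalRing Polynomial

noncomputable section

namespace Fermat.Agent.LGC

open Fermat.Agent.S37 Fermat.Agent.Red Fermat.Agent.Red.GG Fermat.Agent.Red.GV
  Fermat.Agent.Red.TRK

variable (A : ValuationSubring Kbar) (M ℓ : ℕ) [NeZero M] [NeZero ℓ]

/-! ### `ssV` as integrality over `gaussV A M` along `α` -/

/-- the ring homomorphism `gaussV A M → F_{Mℓ}`. -/
def h44v_f : ↥(gaussV A M) →+* FF (M * ℓ) :=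
  (heckeAlphaBar Kbar M ℓ).toRingHom.comp (gaussV A M).subtype

theorem h44v_f_apply (x : gaussV A M) :
    h44v_f A M ℓ x = heckeAlphaBar Kbar M ℓ (x : FF M) := rfl

theorem h44v_f_injective : Function.Injective (h44v_f A M ℓ) := by
  intro x y h
  exact Subtype.ext ((heckeAlphaBar Kbar M ℓ).toRingHom.injective h)

/-- the surjection `gaussV A M → gaussVImage A M ℓ`. -/
def h44v_toImage : ↥(gaussV A M) →+* ↥(gaussVImage A M ℓ) :=
  (h44v_f A M ℓ).codRestrict (gaussVImage A M ℓ)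
    (fun x => Subring.mem_map.mpr ⟨x.1, x.2, rfl⟩)

theorem h44v_toImage_surjective : Function.Surjective (h44v_toImage A M ℓ) := by
  rintro ⟨y, hy⟩
  obtain ⟨x, hx, rfl⟩ := Subring.mem_map.mp hy
  exact ⟨⟨x, hx⟩, rfl⟩

theorem h44v_mem_ssV_iff (x : FF (M * ℓ)) :
    x ∈ ssV A M ℓ ↔ (h44v_f A M ℓ).IsIntegralElem x := by
  rw [mem_ssV_iff]
  constructor
  · rintro ⟨p, hp, hpx⟩
    obtain ⟨q, hq, -, hqm⟩ := Polynomial.lifts_and_degree_eq_and_monic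
      ((Polynomial.mem_lifts p).2
        (Polynomial.map_surjective _ (h44v_toImage_surjective A M ℓ) p)) hp
    refine ⟨q, hqm, ?_⟩
    have h1 : eval₂ (h44v_f A M ℓ) x q =
        eval₂ (algebraMap (gaussVImage A M ℓ) (FF (M * ℓ))) x (q.map (h44v_toImage A M ℓ)) := by
      rw [Polynomial.eval₂_map]
      rfl
    rw [h1, hq]
    exact hpx
  · rintro ⟨p, hp, hpx⟩
    refine ⟨p.map (h44v_toImage A M ℓ), hp.map _, ?_⟩
    rw [Polynomial.eval₂_map]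
    exact hpx

/-! ### (V1) the charts are contained in `ssV` -/

theorem h44v_modelAt_le_ssV {ℓ' : ℕ} (hA : A.LiesOverPrime ℓ') (t₀ : FF M)
    (ht₀ : t₀ ∈ gaussV A M) :
    modelAt (M * ℓ) A (heckeAlphaBar Kbar M ℓ t₀) ≤ ssV A M ℓ := by
  intro x hx
  rw [h44v_mem_ssV_iff]
  rw [Fermat.Agent.Red.KR.mem_modelAt_iff_evalF] at hx
  obtain ⟨p, hp, hpx⟩ := hx
  have hmem : ∀ Q : Polynomial A, evalF M A t₀ Q ∈ gaussV A M := by
    intro Q
    have hle : ringAdj M A t₀ ≤ gaussV A M := by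
      refine Subring.closure_le.2 ?_
      rintro z (⟨a, ha, rfl⟩ | rfl)
      · exact (cst_mem_gaussV_iff A M hA a).2 ha
      · exact ht₀
    exact hle (evalF_mem_ringAdj M A t₀ Q)
  let g : Polynomial A →+* ↥(gaussV A M) := (evalF M A t₀).codRestrict (gaussV A M) hmem
  refine ⟨p.map g, hp.map _, ?_⟩
  rw [Polynomial.eval₂_map]
  have hcomp : (h44v_f A M ℓ).comp g = evalF (M * ℓ) A (heckeAlphaBar Kbar M ℓ t₀) := by
    rw [← Fermat.Agent.Red.KR.comp_evalF (heckeAlphaBar Kbar M ℓ) A t₀]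
    rfl
  rw [hcomp]
  exact hpx

theorem h44v_jB_mem_gaussV (hℓ : ℓ.Prime) (hM : ¬ ℓ ∣ M) (hA : A.LiesOverPrime ℓ) :
    jB M ∈ gaussV A M :=
  modelFin_le_gaussV A M hℓ hM hA
    (Fermat.Agent.Red.Match.ringAdj_le_modelAt M A (jB M) (self_mem_ringAdj M A (jB M)))

theorem h44v_jB_inv_mem_gaussV (hℓ : ℓ.Prime) (hM : ¬ ℓ ∣ M) (hA : A.LiesOverPrime ℓ) :
    (jB M)⁻¹ ∈ gaussV A M :=
  modelInf_le_gaussV A M hℓ hM hA
    (Fermat.Agent.Red.Match.ringAdj_le_modelAt M A (jB M)⁻¹ (self_mem_ringAdj M A (jB M)⁻¹))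

theorem h44v_jSS_inv : (jSS M ℓ)⁻¹ = heckeAlphaBar Kbar M ℓ (jB M)⁻¹ :=
  (map_inv₀ (heckeAlphaBar Kbar M ℓ) (jB M)).symm

/-- **(V1) hBV**, finite chart. -/
theorem h44v_hBV_fin (hℓ : ℓ.Prime) (hM : ¬ ℓ ∣ M) (hA : A.LiesOverPrime ℓ) :
    ∀ x ∈ chart (M * ℓ) A (jSS M ℓ), x ∈ ssV A M ℓ :=
  fun _ hx => h44v_modelAt_le_ssV A M ℓ hA (jB M) (h44v_jB_mem_gaussV A M ℓ hℓ hM hA) hx

/-- **(V1) hBV**, chart at infinity. -/
theorem h44v_hBV_inf (hℓ : ℓ.Prime) (hM : ¬ ℓ ∣ M) (hA : A.LiesOverPrime ℓ) :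
    ∀ x ∈ chart (M * ℓ) A (jSS M ℓ)⁻¹, x ∈ ssV A M ℓ := by
  intro x hx
  rw [h44v_jSS_inv] at hx
  exact h44v_modelAt_le_ssV A M ℓ hA (jB M)⁻¹ (h44v_jB_inv_mem_gaussV A M ℓ hℓ hM hA) hx

/-! ### the Gauss ring of level `M` is integrally closed -/

/-- the Gauss ring is integrally closed in `F_M`. -/
theorem h44v_mem_gaussV_of_isIntegralElem (hℓ : ℓ.Prime) (hM : ¬ ℓ ∣ M)
    (hA : A.LiesOverPrime ℓ) (c : FF M) (h : (gaussV A M).subtype.IsIntegralElem c) :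
    c ∈ gaussV A M := by
  haveI : Fact ℓ.Prime := ⟨hℓ⟩
  let V : ValuationSubring (FF M) :=
    gaussRing A (IsLocalRing.residue A) M ℓ (isResidueMap_residue A ℓ hA) hM
  obtain ⟨p, hp, hpc⟩ := h
  let e : ↥(gaussV A M) →+* ↥V := (gaussV A M).subtype.codRestrict V (fun x => x.2)
  have hint : IsIntegral ↥V c := ⟨p.map e, hp.map _, by rw [Polynomial.eval₂_map]; exact hpc⟩
  obtain ⟨y, hy⟩ := (IsIntegrallyClosed.isIntegral_iff (R := ↥V) (K := FF M)).mp hint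
  rw [← hy]
  exact y.2

/-- the coefficients of the characteristic polynomial over `α(F_M)` of an element of `ssV` are
Gauss-integral. -/
theorem h44v_coeff_mem_gaussV (hℓ : ℓ.Prime) (hM : ¬ ℓ ∣ M) (hA : A.LiesOverPrime ℓ)
    (hfin : FiniteAlong Kbar (heckeAlphaBar Kbar M ℓ)) (x : FF (M * ℓ)) (hx : x ∈ ssV A M ℓ)
    (i : ℕ) : (charpolyAlong (heckeAlphaBar Kbar M ℓ) hfin x).coeff i ∈ gaussV A M := by
  letI := algebraAlong (heckeAlphaBar Kbar M ℓ)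
  letI : Algebra ↥(gaussV A M) (FF (M * ℓ)) := (h44v_f A M ℓ).toAlgebra
  haveI : IsScalarTower ↥(gaussV A M) (FF M) (FF (M * ℓ)) :=
    IsScalarTower.of_algebraMap_eq (fun _ => rfl)
  haveI : Module.Finite (FF M) (FF (M * ℓ)) := hfin
  have hg : IsIntegral ↥(gaussV A M) x := (h44v_mem_ssV_iff A M ℓ x).1 hx
  have h1 := h87_isIntegral_coeff_charpoly (R := ↥(gaussV A M)) (F := FF M)
    (F' := FF (M * ℓ)) x hg i
  exact h44v_mem_gaussV_of_isIntegralElem A M ℓ hℓ hM hA _ h1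

/-! ### (V3) QEP -/

/-- the characteristic polynomial of `c · x`. -/
theorem h44v_charpoly_cst_mul (hfin : FiniteAlong Kbar (heckeAlphaBar Kbar M ℓ)) (a : Kbar)
    (x : FF (M * ℓ)) (i : ℕ) :
    (charpolyAlong (heckeAlphaBar Kbar M ℓ) hfin (cst (M * ℓ) a * x)).coeff i * cst M a ^ i =
      cst M a ^ finrankAlong Kbar (heckeAlphaBar Kbar M ℓ) *
        (charpolyAlong (heckeAlphaBar Kbar M ℓ) hfin x).coeff i := by
  haveI : Infinite (FF M) := inferInstance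
  have key : (charpolyAlong (heckeAlphaBar Kbar M ℓ) hfin (cst (M * ℓ) a * x)).comp
      (C (cst M a) * X) =
      C (cst M a ^ finrankAlong Kbar (heckeAlphaBar Kbar M ℓ)) *
        charpolyAlong (heckeAlphaBar Kbar M ℓ) hfin x := by
    apply Polynomial.funext
    intro c
    have e : heckeAlphaBar Kbar M ℓ (cst M a * c) - cst (M * ℓ) a * x =
        heckeAlphaBar Kbar M ℓ (cst M a) * (heckeAlphaBar Kbar M ℓ c - x) := by
      have e1 : heckeAlphaBar Kbar M ℓ (cst M a) = cst (M * ℓ) a :=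
        (heckeAlphaBar Kbar M ℓ).commutes a
      rw [map_mul, mul_sub, e1]
    rw [eval_comp, eval_mul, eval_C, eval_X, eval_mul, eval_C,
      ← Fermat.Agent.Red.KR.normAlong_sub_eq_eval, ← Fermat.Agent.Red.KR.normAlong_sub_eq_eval,
      ← Fermat.Agent.Red.KR.normAlong_map, ← Fermat.Agent.Red.KR.normAlong_mul, e]
  have h := congrArg (fun p : Polynomial (FF M) => p.coeff i) key
  simp only [comp_C_mul_X_coeff, coeff_C_mul] at h
  exact h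

/-- **QEP at level `Mℓ` from QEP at level `M`**, for the chart with coordinate `α t₀`. -/
theorem h44v_qep (hℓ : ℓ.Prime) (hM : ¬ ℓ ∣ M) (hA : A.LiesOverPrime ℓ) (t₀ : FF M)
    (hqepM : ∀ c : Kbar, c ∈ A → c ≠ 0 → ∀ y ∈ gaussV A M,
      cst M c * y ∈ modelAt M A t₀ → y ∈ modelAt M A t₀)
    (a : Kbar) (haA : a ∈ A) (ha0 : a ≠ 0) (x : FF (M * ℓ)) (hx : x ∈ ssV A M ℓ)
    (hax : cst (M * ℓ) a * x ∈ modelAt (M * ℓ) A (heckeAlphaBar Kbar M ℓ t₀)) :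
    x ∈ modelAt (M * ℓ) A (heckeAlphaBar Kbar M ℓ t₀) := by
  have hfin : FiniteAlong Kbar (heckeAlphaBar Kbar M ℓ) :=
    Fermat.Agent.Red.HKMod.finiteAlong_heckeAlphaBar M ℓ
  set P := charpolyAlong (heckeAlphaBar Kbar M ℓ) hfin x with hP
  have hcoef : ∀ i, P.coeff i ∈ modelAt M A t₀ := by
    intro i
    have h1 : P.coeff i ∈ gaussV A M := h44v_coeff_mem_gaussV A M ℓ hℓ hM hA hfin x hx i
    have h2 := h87_coeff_mem_modelAt (heckeAlphaBar Kbar M ℓ) hfin A t₀ hax i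
    have h3 := h44v_charpoly_cst_mul M ℓ hfin a x i
    set d := finrankAlong Kbar (heckeAlphaBar Kbar M ℓ) with hd
    have hcA : ∀ n : ℕ, cst M a ^ n ∈ modelAt M A t₀ := fun n =>
      pow_mem (Fermat.Agent.Red.ModelO.h85_cst_mem_modelAt M A t₀ haA) n
    have h4 : cst M (a ^ d) * P.coeff i ∈ modelAt M A t₀ := by
      have e1 : cst M (a ^ d) = cst M a ^ d := map_pow _ _ _
      rw [e1, ← h3]
      exact mul_mem h2 (hcA i)
    exact hqepM (a ^ d) (pow_mem haA d) (pow_ne_zero d ha0) _ h1 h4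
  have hroot : (P.map (heckeAlphaBar Kbar M ℓ).toRingHom).eval x = 0 := by
    rw [Polynomial.eval_map]
    exact h44g_eval₂_charpolyAlong (heckeAlphaBar Kbar M ℓ) hfin x
  refine Fermat.Agent.Red.KR.h69m_mem_modelAt_of_root A _
    (P.map (heckeAlphaBar Kbar M ℓ).toRingHom)
    ((charpolyAlong_monic _ hfin x).map _) (fun m => ?_) x hroot
  rw [Polynomial.coeff_map]
  exact Fermat.Agent.Red.KR.map_mem_modelAt (heckeAlphaBar Kbar M ℓ) A (hcoef m)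

/-- **(V3) hQEP**, finite chart. -/
theorem h44v_hQEP_fin (hℓ : ℓ.Prime) (hM : ¬ ℓ ∣ M) (hA : A.LiesOverPrime ℓ) :
    ∀ a : A, algebraMap A (FF (M * ℓ)) a ≠ 0 → ∀ x ∈ ssV A M ℓ,
      a • x ∈ chart (M * ℓ) A (jSS M ℓ) → x ∈ chart (M * ℓ) A (jSS M ℓ) := by
  intro a ha x hx h
  rw [GGC97_smul_eq] at h
  exact h44v_qep A M ℓ hℓ hM hA (jB M)
    (fun c hc hc0 y hy hcy => mem_modelFin_of_cst_mul A M hℓ hM hA y hy c hc hc0 hcy)
    (a : Kbar) a.2 (GGC97_coe_ne_zero ha) x hx h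

/-- **(V3) hQEP**, chart at infinity. -/
theorem h44v_hQEP_inf (hℓ : ℓ.Prime) (hM : ¬ ℓ ∣ M) (hA : A.LiesOverPrime ℓ) :
    ∀ a : A, algebraMap A (FF (M * ℓ)) a ≠ 0 → ∀ x ∈ ssV A M ℓ,
      a • x ∈ chart (M * ℓ) A (jSS M ℓ)⁻¹ → x ∈ chart (M * ℓ) A (jSS M ℓ)⁻¹ := by
  intro a ha x hx h
  rw [GGC97_smul_eq] at h
  rw [h44v_jSS_inv] at h ⊢
  exact h44v_qep A M ℓ hℓ hM hA (jB M)⁻¹
    (fun c hc hc0 y hy hcy => mem_modelInf_of_cst_mul A M hℓ hM hA y hy c hc hc0 hcy)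
    (a : Kbar) a.2 (GGC97_coe_ne_zero ha) x hx h

/-! ### (V2), (V4): units -/

/-- reduction of a polynomial with roots scaled by an element of the maximal ideal. -/
theorem h44v_red_scaleRoots (R : Polynomial ↥(gaussV A M)) (hR : R.Monic) (μ : ↥(gaussV A M))
    (hμ : gaussR A M μ = 0) (e : ↥(gaussV A M)) :
    gaussR A M ((R.scaleRoots μ).eval e) = gaussR A M e ^ R.natDegree := by
  have h1 : gaussR A M ((R.scaleRoots μ).eval e) =
      ((R.scaleRoots μ).map (gaussR A M)).eval (gaussR A M e) := by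
    rw [Polynomial.eval_map, Polynomial.eval₂_at_apply]
  have hlc : gaussR A M R.leadingCoeff ≠ 0 := by
    rw [hR.leadingCoeff, map_one]
    exact one_ne_zero
  rw [h1, map_scaleRoots R μ (gaussR A M) hlc, hμ, scaleRoots_zero,
    (hR.map (gaussR A M)).leadingCoeff, one_smul, eval_pow, eval_X, hR.natDegree_map]

/-- the constant `m ∈ 𝔪_A` as an element of the Gauss ring. -/
def h44v_mu {ℓ' : ℕ} (hA : A.LiesOverPrime ℓ') (m : A) : ↥(gaussV A M) :=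
  ⟨cst M (m : Kbar), (cst_mem_gaussV_iff A M hA _).2 m.2⟩

theorem h44v_f_mu {ℓ' : ℕ} (hA : A.LiesOverPrime ℓ') (m : A) :
    h44v_f A M ℓ (h44v_mu A M hA m) = algebraMap A (FF (M * ℓ)) m :=
  (heckeAlphaBar Kbar M ℓ).commutes (m : Kbar)

theorem h44v_gaussR_mu (hℓ : ℓ.Prime) (hM : ¬ ℓ ∣ M) (hA : A.LiesOverPrime ℓ) (m : A)
    (hm : m ∈ maximalIdeal A) : gaussR A M (h44v_mu A M hA m) = 0 := by
  have hmnu : (m : Kbar) ∈ A.nonunits := by
    rw [A.mem_nonunits_iff_exists_mem_maximalIdeal]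
    exact ⟨m.2, hm⟩
  exact GGC97_gaussR_cst_eq_zero hℓ hM hA _ hmnu _

/-- **(V4) `IfaceSSNt`**: `1 ∉ 𝔪_A · ssV`. -/
theorem h44v_nt (hℓ : ℓ.Prime) (hM : ¬ ℓ ∣ M) (hA : A.LiesOverPrime ℓ) :
    IfaceSSNt A M ℓ := by
  intro m hm x hx h1
  obtain ⟨R, hR, hRx⟩ := (h44v_mem_ssV_iff A M ℓ x).1 hx
  have h2 := scaleRoots_eval₂_eq_zero (h44v_f A M ℓ) (s := h44v_mu A M hA m) hRx
  rw [h44v_f_mu, h1] at h2
  have h3 : eval₂ (h44v_f A M ℓ) 1 (R.scaleRoots (h44v_mu A M hA m)) =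
      h44v_f A M ℓ ((R.scaleRoots (h44v_mu A M hA m)).eval 1) := by
    rw [← Polynomial.eval₂_at_apply, map_one]
  rw [h3] at h2
  have h4 : (R.scaleRoots (h44v_mu A M hA m)).eval 1 = 0 :=
    h44v_f_injective A M ℓ (h2.trans (map_zero _).symm)
  have h5 := h44v_red_scaleRoots A M R hR (h44v_mu A M hA m)
    (h44v_gaussR_mu A M ℓ hℓ hM hA m hm) 1
  rw [h4, map_zero, map_one, one_pow] at h5
  exact zero_ne_one h5

/-- **(V2) hVunit**: `1 + 𝔪_A · ssV ⊆ ssV^×`. -/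
theorem h44v_hVunit (hℓ : ℓ.Prime) (hM : ¬ ℓ ∣ M) (hA : A.LiesOverPrime ℓ) :
    ∀ m ∈ maximalIdeal A, ∀ x ∈ ssV A M ℓ,
      (1 + algebraMap A (FF (M * ℓ)) m * x)⁻¹ ∈ ssV A M ℓ := by
  intro m hm x hx
  set y : FF (M * ℓ) := 1 + algebraMap A (FF (M * ℓ)) m * x with hy
  by_cases hy0 : y = 0
  · rw [hy0, inv_zero]
    exact zero_mem _
  obtain ⟨R, hR, hRx⟩ := (h44v_mem_ssV_iff A M ℓ x).1 hx
  set μ := h44v_mu A M hA m with hμ
  set S := R.scaleRoots μ with hS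
  have hSm : S.Monic := (monic_scaleRoots_iff μ).2 hR
  have hSx : eval₂ (h44v_f A M ℓ) (algebraMap A (FF (M * ℓ)) m * x) S = 0 := by
    have h2 := scaleRoots_eval₂_eq_zero (h44v_f A M ℓ) (s := μ) hRx
    rwa [h44v_f_mu] at h2
  set Q := S.comp (X - C 1) with hQ
  have hQm : Q.Monic := hSm.comp_X_sub_C 1
  have hQy : eval₂ (h44v_f A M ℓ) y Q = 0 := by
    rw [hQ, eval₂_comp, eval₂_sub, eval₂_X, eval₂_C, map_one, hy, add_sub_cancel_left]
    exact hSx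
  -- the constant coefficient of `Q` is a unit of the Gauss ring
  have hc : gaussR A M (Q.coeff 0) ≠ 0 := by
    have h1 : Q.coeff 0 = S.eval (-1) := by
      rw [coeff_zero_eq_eval_zero, hQ, eval_comp, eval_sub, eval_X, eval_C, zero_sub]
    rw [h1, hS, h44v_red_scaleRoots A M R hR μ (h44v_gaussR_mu A M ℓ hℓ hM hA m hm) (-1),
      map_neg, map_one]
    exact pow_ne_zero _ (neg_ne_zero.2 one_ne_zero)
  have hc' : ((Q.coeff 0 : gaussV A M) : FF M) ≠ 0 ∧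
      ((Q.coeff 0 : gaussV A M) : FF M)⁻¹ ∈ gaussV A M := by
    rw [Ne, gaussR_eq_zero_iff A M hℓ hM hA, not_or, not_not] at hc
    exact hc
  set c' : ↥(gaussV A M) := ⟨((Q.coeff 0 : gaussV A M) : FF M)⁻¹, hc'.2⟩ with hc'def
  have hcc : c' * Q.coeff 0 = 1 := Subtype.ext (inv_mul_cancel₀ hc'.1)
  have hQ0 : Q.coeff 0 ≠ 0 := fun h0 => hc'.1 (by rw [h0]; rfl)
  -- the reversed polynomial
  letI : Invertible y := invertibleOfNonzero hy0
  have hrev : eval₂ (h44v_f A M ℓ) (⅟ y) Q.reverse = 0 :=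
    (eval₂_reverse_eq_zero_iff (h44v_f A M ℓ) y Q).2 hQy
  rw [invOf_eq_inv] at hrev
  have hTm : (C c' * Q.reverse).Monic := by
    apply monic_C_mul_of_mul_leadingCoeff_eq_one
    rw [reverse_leadingCoeff, trailingCoeff_eq_coeff_zero hQ0]
    exact hcc
  rw [h44v_mem_ssV_iff]
  refine ⟨C c' * Q.reverse, hTm, ?_⟩
  rw [eval₂_mul, hrev, mul_zero]

/-! ### (V5) fractions -/

/-- **`W_∞ ∩ W_0 ⊆ ssV`**: if the `q`-expansions of `x` and of `w x` are fractions `a / b` of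
series over `A` with `b ≢ 0 mod 𝔪_A`, then `x ∈ ssV`. -/
theorem h44v_mem_ssV_of_isFrac (hℓ : ℓ.Prime) (hM : ¬ ℓ ∣ M) (hA : A.LiesOverPrime ℓ)
    (x : FF (M * ℓ))
    (hx : h44g_IsFrac A (IsLocalRing.residue A) (x : LaurentSeries Kbar))
    (hwx : h44g_IsFrac A (IsLocalRing.residue A)
      ((Fermat.Agent.Red.Kron.kFricke M ℓ hℓ hM x : FF (M * ℓ)) : LaurentSeries Kbar)) :
    x ∈ ssV A M ℓ :=
  (h44v_mem_ssV_iff A M ℓ x).2 (h44g_isIntegralElem_of_isFrac M ℓ A hℓ hM hA x hx hwx)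

/-! ### assembly -/

theorem h44v_transcendental_jSS : Transcendental Kbar (jSS M ℓ) := by
  have h : jSS M ℓ = jB (M * ℓ) := Fermat.Agent.Red.HKMod.heckeAlphaBar_jBar M ℓ
  rw [h]
  exact GGC97_transcendental_jB (M * ℓ)

theorem h44v_transcendental_jSS_inv : Transcendental Kbar (jSS M ℓ)⁻¹ := by
  have h : jSS M ℓ = jB (M * ℓ) := Fermat.Agent.Red.HKMod.heckeAlphaBar_jBar M ℓ
  rw [h]
  exact GGC97_transcendental_jB_inv (M * ℓ)

/-- **`IfaceSSChart`**, finite chart. -/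
theorem h44v_ifaceSSChart_fin (hℓ : ℓ.Prime) (hM : ¬ ℓ ∣ M) (hA : A.LiesOverPrime ℓ) :
    IfaceSSChart A M ℓ (jSS M ℓ) where
  hfin := GGC97_hfin (M * ℓ) (jSS M ℓ)
  hint := fun f hf => h18c_hint (M * ℓ) A (jSS M ℓ) f hf
  hB := GGC97_hB (M * ℓ) A (jSS M ℓ)
  hunif := GGC97_hunif A (jSS M ℓ) (h44v_transcendental_jSS M ℓ)
  hinj := GGC97_hinj A (jSS M ℓ) (h44v_transcendental_jSS M ℓ)
  hBV := h44v_hBV_fin A M ℓ hℓ hM hA
  hVunit := h44v_hVunit A M ℓ hℓ hM hA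
  hQEP := h44v_hQEP_fin A M ℓ hℓ hM hA

/-- **`IfaceSSChart`**, chart at infinity. -/
theorem h44v_ifaceSSChart_inf (hℓ : ℓ.Prime) (hM : ¬ ℓ ∣ M) (hA : A.LiesOverPrime ℓ) :
    IfaceSSChart A M ℓ (jSS M ℓ)⁻¹ where
  hfin := GGC97_hfin (M * ℓ) (jSS M ℓ)⁻¹
  hint := fun f hf => h18c_hint (M * ℓ) A (jSS M ℓ)⁻¹ f hf
  hB := GGC97_hB (M * ℓ) A (jSS M ℓ)⁻¹
  hunif := GGC97_hunif A (jSS M ℓ)⁻¹ (h44v_transcendental_jSS_inv M ℓ)
  hinj := GGC97_hinj A (jSS M ℓ)⁻¹ (h44v_transcendental_jSS_inv M ℓ)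
  hBV := h44v_hBV_inf A M ℓ hℓ hM hA
  hVunit := h44v_hVunit A M ℓ hℓ hM hA
  hQEP := h44v_hQEP_inf A M ℓ hℓ hM hA

end Fermat.Agent.LGC
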