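import Fermat.Agent.LGC.Fin71Inst
import Fermat.Agent.LGC.SSV44
import Fermat.Agent.LGC.Perm63

/-!
# W3-LGC, FINITE at level `N = M ℓ` (helper71), part 4: the unconditional statements

`ℓ ∤ M` a prime, `A` a valuation subring of `ℚ̄` over `ℓ`.  With helper44's `h44v_hQEP_fin`,
`h44v_hQEP_inf` (`LGC/SSV44.lean`) the results of `LGC/Fin71Inst.lean` are unconditional:

* `h71_bcAt_fin`, `h71_bcAt_inf` : `BCAt (M * ℓ) A t` for `t = jSS M ℓ`, `(jSS M ℓ)⁻¹`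
  (base change of both charts);
* `h71_finite_fin`, `h71_finite_inf` : `GG.IfaceFinite (M * ℓ) A t` for both charts;
* `h71_ssFinite` : `IfaceSSFinite A M ℓ`;
* `h71_ssSection_fin`, `h71_ssSection_inf` : `IfaceSSSection A M ℓ t` for both charts.
-/

set_option autoImplicit false
set_option linter.unusedSectionVars false

open AlgebraicCurve ModularCurve IsLocalRing

noncomputable section

namespace Fermat.Agent.LGC

open Fermat.Agent.S37 Fermat.Agent.Red Fermat.Agent.Red.GG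

variable {A : ValuationSubring Kbar} {M ℓ : ℕ} [NeZero M] [NeZero ℓ]

theorem h71_qep_fin (hℓ : ℓ.Prime) (hM : ¬ ℓ ∣ M) (hA : A.LiesOverPrime ℓ) :
    H71QEP A M ℓ (jSS M ℓ) := by
  intro x hx hℓx
  have h0 : algebraMap A (FF (M * ℓ)) ((ℓ : ℕ) : A) ≠ 0 := by
    show cst (M * ℓ) (((ℓ : ℕ) : A) : Kbar) ≠ 0
    rw [cst, ne_eq, map_eq_zero]
    exact_mod_cast NeZero.ne ℓ
  exact h44v_hQEP_fin A M ℓ hℓ hM hA ((ℓ : ℕ) : A) h0 x hx hℓx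

theorem h71_qep_inf (hℓ : ℓ.Prime) (hM : ¬ ℓ ∣ M) (hA : A.LiesOverPrime ℓ) :
    H71QEP A M ℓ (jSS M ℓ)⁻¹ := by
  intro x hx hℓx
  have h0 : algebraMap A (FF (M * ℓ)) ((ℓ : ℕ) : A) ≠ 0 := by
    show cst (M * ℓ) (((ℓ : ℕ) : A) : Kbar) ≠ 0
    rw [cst, ne_eq, map_eq_zero]
    exact_mod_cast NeZero.ne ℓ
  exact h44v_hQEP_inf A M ℓ hℓ hM hA ((ℓ : ℕ) : A) h0 x hx hℓx

/-- **base change at level `M ℓ`, finite chart.** -/
theorem h71_bcAt_fin (hℓ : ℓ.Prime) (hM : ¬ ℓ ∣ M) (hA : A.LiesOverPrime ℓ) :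
    BCAt (M * ℓ) A (jSS M ℓ) := by
  have hQ := h71_qep_fin hℓ hM hA
  rw [h71i_jSS_eq] at hQ ⊢
  exact h71_baseChange_fin hℓ hM hA hQ

/-- **base change at level `M ℓ`, chart at infinity.** -/
theorem h71_bcAt_inf (hℓ : ℓ.Prime) (hM : ¬ ℓ ∣ M) (hA : A.LiesOverPrime ℓ) :
    BCAt (M * ℓ) A (jSS M ℓ)⁻¹ := by
  have hQ := h71_qep_inf hℓ hM hA
  rw [h71i_jSS_eq] at hQ ⊢
  exact h71_baseChange_inf hℓ hM hA hQ

/-- **FINITE at level `M ℓ`, finite chart** (`t = jB (M * ℓ)`). -/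
theorem h71_finite_fin (hℓ : ℓ.Prime) (hM : ¬ ℓ ∣ M) (hA : A.LiesOverPrime ℓ) :
    IfaceFinite (M * ℓ) A (jB (M * ℓ)) := by
  have hQ := h71_qep_fin hℓ hM hA
  rw [h71i_jSS_eq] at hQ
  exact h71_ifaceFinite_fin hℓ hM hA hQ

/-- **FINITE at level `M ℓ`, chart at infinity** (`t = (jB (M * ℓ))⁻¹`). -/
theorem h71_finite_inf (hℓ : ℓ.Prime) (hM : ¬ ℓ ∣ M) (hA : A.LiesOverPrime ℓ) :
    IfaceFinite (M * ℓ) A (jB (M * ℓ))⁻¹ := by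
  have hQ := h71_qep_inf hℓ hM hA
  rw [h71i_jSS_eq] at hQ
  exact h71_ifaceFinite_inf hℓ hM hA hQ

/-- FINITE, finite chart, in terms of `jSS`. -/
theorem h71_finite_fin' (hℓ : ℓ.Prime) (hM : ¬ ℓ ∣ M) (hA : A.LiesOverPrime ℓ) :
    IfaceFinite (M * ℓ) A (jSS M ℓ) := by
  rw [h71i_jSS_eq]
  exact h71_finite_fin hℓ hM hA

/-- FINITE, chart at infinity, in terms of `jSS`. -/
theorem h71_finite_inf' (hℓ : ℓ.Prime) (hM : ¬ ℓ ∣ M) (hA : A.LiesOverPrime ℓ) :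
    IfaceFinite (M * ℓ) A (jSS M ℓ)⁻¹ := by
  rw [h71i_jSS_eq]
  exact h71_finite_inf hℓ hM hA

/-- **`IfaceSSFinite`.** -/
theorem h71_ssFinite (hℓ : ℓ.Prime) (hM : ¬ ℓ ∣ M) (hA : A.LiesOverPrime ℓ) :
    IfaceSSFinite A M ℓ :=
  h71_ifaceSSFinite hℓ hM hA (h71_qep_fin hℓ hM hA)

/-- **`IfaceSSSection`, finite chart.** -/
theorem h71_ssSection_fin (hℓ : ℓ.Prime) (hM : ¬ ℓ ∣ M) (hA : A.LiesOverPrime ℓ) :
    IfaceSSSection A M ℓ (jSS M ℓ) :=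
  h71_ifaceSSSection_fin hℓ hM hA (h71_qep_fin hℓ hM hA)

/-- **`IfaceSSSection`, chart at infinity.** -/
theorem h71_ssSection_inf (hℓ : ℓ.Prime) (hM : ¬ ℓ ∣ M) (hA : A.LiesOverPrime ℓ) :
    IfaceSSSection A M ℓ (jSS M ℓ)⁻¹ :=
  h71_ifaceSSSection_inf hℓ hM hA (h71_qep_inf hℓ hM hA)

end Fermat.Agent.LGC
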