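import Mathlib

/-!
# W3-LGC, SS-LOCAL-INF (a): overlap transfer, abstract form (helper31)

Two charts `B₀ ∋ t`, `B₁ ∋ t⁻¹` of a field `F` over a local ring `A` with the same overlap
(`B₀[1/t] = B₁[t]`, in the form of the two scaling properties).  For a maximal ideal `𝔫` of `B₁`
containing `𝔪_A B₁` and not containing `t⁻¹`, the contraction `𝔫₀` of `𝔫` to `B₀` is a maximal
ideal of `B₀` containing `𝔪_A B₀`, the local rings coincide, and a smooth/node datum at `𝔫₀`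
gives a smooth/node datum at `𝔫`.

Mathlib only.
-/

set_option autoImplicit false

open Polynomial IsLocalRing

namespace Fermat.Agent.LGC

section Peel

variable {A : Type*} [CommRing A] {R : Type*} [CommRing R] [Algebra A R]

/-- **peeling**: if `t` is a root modulo a prime ideal `I` of a monic polynomial over `A`, the
non-units of `A` lie in `I` and `t ∉ I`, then `t` is invertible modulo `I`. -/
theorem h31o_peel (I : Ideal R) [hI : I.IsPrime]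
    (hm : ∀ a : A, ¬ IsUnit a → algebraMap A R a ∈ I) (t : R) (ht : t ∉ I) :
    ∀ (n : ℕ) (H : A[X]), H.Monic → H.natDegree = n → aeval t H ∈ I →
      ∃ t' : R, t * t' - 1 ∈ I := by
  intro n
  induction n with
  | zero =>
    intro H hH hn h
    have h1 : H = 1 := eq_one_of_monic_natDegree_zero hH hn
    rw [h1, map_one] at h
    exact absurd ((Ideal.eq_top_iff_one I).2 h) hI.ne_top
  | succ n ih =>
    intro H hH hn h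
    have hdec := divX_mul_X_add H
    have hev : aeval t H = aeval t (divX H) * t + algebraMap A R (H.coeff 0) := by
      conv_lhs => rw [← hdec]
      rw [map_add, map_mul, aeval_X, aeval_C]
    by_cases hu : IsUnit (H.coeff 0)
    · obtain ⟨u, hu'⟩ := hu
      refine ⟨-(algebraMap A R (↑u⁻¹ : A)) * aeval t (divX H), ?_⟩
      have h2 : t * (-(algebraMap A R (↑u⁻¹ : A)) * aeval t (divX H)) - 1 =
          -(algebraMap A R (↑u⁻¹ : A)) * aeval t H := by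
        rw [hev, ← hu']
        have h3 : algebraMap A R (↑u⁻¹ : A) * algebraMap A R (u : A) = 1 := by
          rw [← map_mul, Units.inv_mul, map_one]
        linear_combination h3
      rw [h2]
      exact I.mul_mem_left _ h
    · have h0 : algebraMap A R (H.coeff 0) ∈ I := hm _ hu
      have h1 : aeval t (divX H) * t ∈ I := by
        have := I.sub_mem h h0
        rwa [hev, add_sub_cancel_right] at this
      have h2 : aeval t (divX H) ∈ I := (hI.mem_or_mem h1).resolve_right ht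
      have hd : (divX H).natDegree = n := by
        rw [natDegree_divX_eq_natDegree_tsub_one, hn]; rfl
      have hmon : (divX H).Monic := by
        unfold Monic leadingCoeff
        rw [hd, coeff_divX, ← hn]
        exact hH
      exact ih (divX H) hmon hd h2

end Peel

section Overlap

variable {A : Type*} [CommRing A] {F : Type*} [Field F] [Algebra A F]

/-- membership in an ideal of a subalgebra, as a predicate on the ambient field. -/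
def h31o_In (B : Subalgebra A F) (I : Ideal B) (x : F) : Prop :=
  ∃ h : x ∈ B, (⟨x, h⟩ : B) ∈ I

theorem h31o_In_coe {B : Subalgebra A F} {I : Ideal B} (x : B) :
    h31o_In B I (x : F) ↔ x ∈ I :=
  ⟨fun ⟨_, h⟩ => h, fun h => ⟨x.2, h⟩⟩

theorem h31o_In_mk {B : Subalgebra A F} {I : Ideal B} {x : F} (hx : x ∈ B) :
    h31o_In B I x ↔ (⟨x, hx⟩ : B) ∈ I :=
  ⟨fun ⟨_, h⟩ => h, fun h => ⟨hx, h⟩⟩

theorem h31o_In.mem {B : Subalgebra A F} {I : Ideal B} {x : F} (h : h31o_In B I x) : x ∈ B :=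
  h.1

theorem h31o_In_zero {B : Subalgebra A F} {I : Ideal B} : h31o_In B I 0 :=
  ⟨B.zero_mem, I.zero_mem⟩

theorem h31o_In.add {B : Subalgebra A F} {I : Ideal B} {x y : F} (hx : h31o_In B I x)
    (hy : h31o_In B I y) : h31o_In B I (x + y) := by
  obtain ⟨hx, hx'⟩ := hx
  obtain ⟨hy, hy'⟩ := hy
  exact ⟨B.add_mem hx hy, I.add_mem hx' hy'⟩

theorem h31o_In.neg {B : Subalgebra A F} {I : Ideal B} {x : F} (hx : h31o_In B I x) :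
    h31o_In B I (-x) := by
  obtain ⟨hx, hx'⟩ := hx
  exact ⟨B.neg_mem hx, I.neg_mem hx'⟩

theorem h31o_In.mul_left {B : Subalgebra A F} {I : Ideal B} {r x : F} (hr : r ∈ B)
    (hx : h31o_In B I x) : h31o_In B I (r * x) := by
  obtain ⟨hx, hx'⟩ := hx
  exact ⟨B.mul_mem hr hx, I.mul_mem_left ⟨r, hr⟩ hx'⟩

theorem h31o_In.mono {B : Subalgebra A F} {I J : Ideal B} (hIJ : I ≤ J) {x : F}
    (hx : h31o_In B I x) : h31o_In B J x := by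
  obtain ⟨hx, hx'⟩ := hx
  exact ⟨hx, hIJ hx'⟩

theorem h31o_In_of_mul {B : Subalgebra A F} {I : Ideal B} [hI : I.IsPrime] {r x : F}
    (hr : r ∈ B) (hrI : ¬ h31o_In B I r) (hx : x ∈ B) (h : h31o_In B I (r * x)) :
    h31o_In B I x := by
  obtain ⟨h1, h2⟩ := h
  have h3 : (⟨r, hr⟩ : B) * ⟨x, hx⟩ ∈ I := h2
  rcases hI.mem_or_mem h3 with h4 | h4
  · exact absurd ⟨hr, h4⟩ hrI
  · exact ⟨hx, h4⟩

theorem h31o_not_In_pow {B : Subalgebra A F} {I : Ideal B} [hI : I.IsPrime] {r : F}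
    (hr : r ∈ B) (hrI : ¬ h31o_In B I r) (n : ℕ) : ¬ h31o_In B I (r ^ n) := by
  rintro ⟨h1, h2⟩
  have h3 : (⟨r, hr⟩ : B) ^ n ∈ I := h2
  exact hrI ⟨hr, hI.mem_of_pow_mem n h3⟩

variable (B₀ B₁ : Subalgebra A F) (t : F)

/-- the contraction of an ideal of `B₁` to `B₀` through the overlap. -/
def h31o_contr (ht₁ : t⁻¹ ∈ B₁) (hs₁ : ∀ y ∈ B₀, ∃ n : ℕ, t⁻¹ ^ n * y ∈ B₁) (I : Ideal B₁) :
    Ideal B₀ where
  carrier := {b | ∃ n : ℕ, h31o_In B₁ I (t⁻¹ ^ n * (b : F))}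
  add_mem' := by
    rintro a b ⟨m, hm⟩ ⟨n, hn⟩
    refine ⟨m + n, ?_⟩
    have h1 : t⁻¹ ^ (m + n) * ((a + b : B₀) : F) =
        t⁻¹ ^ n * (t⁻¹ ^ m * (a : F)) + t⁻¹ ^ m * (t⁻¹ ^ n * (b : F)) := by
      push_cast; ring
    rw [h1]
    exact (hm.mul_left (B₁.pow_mem ht₁ n)).add (hn.mul_left (B₁.pow_mem ht₁ m))
  zero_mem' := ⟨0, by simpa using h31o_In_zero⟩
  smul_mem' := by
    rintro r b ⟨n, hn⟩
    obtain ⟨k, hk⟩ := hs₁ r r.2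
    refine ⟨k + n, ?_⟩
    have h1 : t⁻¹ ^ (k + n) * ((r • b : B₀) : F) = (t⁻¹ ^ k * (r : F)) * (t⁻¹ ^ n * (b : F)) := by
      rw [smul_eq_mul]; push_cast; ring
    rw [h1]
    exact hn.mul_left hk

variable {B₀ B₁ t}

theorem h31o_mem_contr {ht₁ : t⁻¹ ∈ B₁} {hs₁ : ∀ y ∈ B₀, ∃ n : ℕ, t⁻¹ ^ n * y ∈ B₁}
    {I : Ideal B₁} {b : B₀} :
    b ∈ h31o_contr B₀ B₁ t ht₁ hs₁ I ↔ ∃ n : ℕ, h31o_In B₁ I (t⁻¹ ^ n * (b : F)) :=
  Iff.rfl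

/-- the key lemma: membership in the contraction can be tested with any admissible exponent. -/
theorem h31o_mem_contr_iff {ht₁ : t⁻¹ ∈ B₁} {hs₁ : ∀ y ∈ B₀, ∃ n : ℕ, t⁻¹ ^ n * y ∈ B₁}
    {I : Ideal B₁} [hI : I.IsPrime] (htI : ¬ h31o_In B₁ I t⁻¹) {b : B₀} {n : ℕ}
    (h : t⁻¹ ^ n * (b : F) ∈ B₁) :
    b ∈ h31o_contr B₀ B₁ t ht₁ hs₁ I ↔ h31o_In B₁ I (t⁻¹ ^ n * (b : F)) := by
  constructor
  · rintro ⟨m, hm⟩
    have h1 : h31o_In B₁ I (t⁻¹ ^ m * (t⁻¹ ^ n * (b : F))) := by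
      have h2 : t⁻¹ ^ m * (t⁻¹ ^ n * (b : F)) = t⁻¹ ^ n * (t⁻¹ ^ m * (b : F)) := by ring
      rw [h2]
      exact hm.mul_left (B₁.pow_mem ht₁ n)
    exact h31o_In_of_mul (B₁.pow_mem ht₁ m) (h31o_not_In_pow ht₁ htI m) h h1
  · intro h1
    exact ⟨n, h1⟩

theorem h31o_one_not_mem_contr {ht₁ : t⁻¹ ∈ B₁} {hs₁ : ∀ y ∈ B₀, ∃ n : ℕ, t⁻¹ ^ n * y ∈ B₁}
    {I : Ideal B₁} [hI : I.IsPrime] (htI : ¬ h31o_In B₁ I t⁻¹) :
    (1 : B₀) ∉ h31o_contr B₀ B₁ t ht₁ hs₁ I := by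
  intro h
  have h0 : t⁻¹ ^ 0 * ((1 : B₀) : F) ∈ B₁ := by
    rw [pow_zero, one_mul]; exact B₁.one_mem
  have h1 := (h31o_mem_contr_iff htI h0).1 h
  obtain ⟨h2, h3⟩ := h1
  apply hI.ne_top
  rw [Ideal.eq_top_iff_one]
  have h4 : (⟨t⁻¹ ^ 0 * ((1 : B₀) : F), h2⟩ : B₁) = 1 := by
    apply Subtype.ext
    simp
  rwa [h4] at h3

theorem h31o_contr_isPrime {ht₁ : t⁻¹ ∈ B₁} {hs₁ : ∀ y ∈ B₀, ∃ n : ℕ, t⁻¹ ^ n * y ∈ B₁}
    {I : Ideal B₁} [hI : I.IsPrime] (htI : ¬ h31o_In B₁ I t⁻¹) :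
    (h31o_contr B₀ B₁ t ht₁ hs₁ I).IsPrime := by
  refine ⟨fun h => h31o_one_not_mem_contr htI ((Ideal.eq_top_iff_one _).1 h), ?_⟩
  intro x y hxy
  obtain ⟨n, hn⟩ := hs₁ x x.2
  obtain ⟨m, hm⟩ := hs₁ y y.2
  have h1 : t⁻¹ ^ (n + m) * ((x * y : B₀) : F) = (t⁻¹ ^ n * (x : F)) * (t⁻¹ ^ m * (y : F)) := by
    push_cast; ring
  have h2 : t⁻¹ ^ (n + m) * ((x * y : B₀) : F) ∈ B₁ := by
    rw [h1]; exact B₁.mul_mem hn hm
  have h3 := (h31o_mem_contr_iff htI h2).1 hxy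
  obtain ⟨h4, h5⟩ := h3
  have h6 : (⟨t⁻¹ ^ (n + m) * ((x * y : B₀) : F), h4⟩ : B₁) =
      (⟨t⁻¹ ^ n * (x : F), hn⟩ : B₁) * ⟨t⁻¹ ^ m * (y : F), hm⟩ := Subtype.ext h1
  rw [h6] at h5
  rcases hI.mem_or_mem h5 with h7 | h7
  · exact Or.inl ⟨n, hn, h7⟩
  · exact Or.inr ⟨m, hm, h7⟩

end Overlap

section Main

variable {A : Type*} [CommRing A] [IsLocalRing A] {F : Type*} [Field F] [Algebra A F]
variable {B₀ B₁ : Subalgebra A F} {t : F}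

theorem h31o_inv_pow_mul_pow (ht : t ≠ 0) (m : ℕ) : t⁻¹ ^ m * t ^ m = 1 := by
  rw [← mul_pow, inv_mul_cancel₀ ht, one_pow]

/-- the image of `𝔪_A B₀` lies in the contraction of an ideal containing `𝔪_A B₁`. -/
theorem h31o_mExt_le_contr {ht₁ : t⁻¹ ∈ B₁} {hs₁ : ∀ y ∈ B₀, ∃ n : ℕ, t⁻¹ ^ n * y ∈ B₁}
    {I : Ideal B₁} (hm : (maximalIdeal A).map (algebraMap A B₁) ≤ I) :
    (maximalIdeal A).map (algebraMap A B₀) ≤ h31o_contr B₀ B₁ t ht₁ hs₁ I := by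
  rw [Ideal.map_le_iff_le_comap]
  intro a ha
  rw [Ideal.mem_comap]
  refine ⟨0, ?_⟩
  have h1 : t⁻¹ ^ 0 * ((algebraMap A B₀ a : B₀) : F) = ((algebraMap A B₁ a : B₁) : F) := by
    rw [pow_zero, one_mul]; rfl
  rw [h1, h31o_In_coe]
  exact hm (Ideal.mem_map_of_mem _ ha)

/-- `t` is invertible modulo the contraction of a maximal ideal `𝔫 ⊇ 𝔪_A B₁` with `t⁻¹ ∉ 𝔫`. -/
theorem h31o_exists_inv_mod_contr (ht : t ≠ 0) (ht₀ : t ∈ B₀) (ht₁ : t⁻¹ ∈ B₁)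
    (hs₁ : ∀ y ∈ B₀, ∃ n : ℕ, t⁻¹ ^ n * y ∈ B₁)
    (ev : A[X] →+* F) (hevC : ∀ a, ev (C a) = algebraMap A F a) (hevX : ev X = t⁻¹)
    (hint₁ : ∀ y ∈ B₁, ev.IsIntegralElem y)
    (𝔫 : Ideal B₁) [h𝔫 : 𝔫.IsMaximal] (hm : (maximalIdeal A).map (algebraMap A B₁) ≤ 𝔫)
    (htn : ¬ h31o_In B₁ 𝔫 t⁻¹) :
    ∃ t' : B₀, (⟨t, ht₀⟩ : B₀) * t' - 1 ∈ h31o_contr B₀ B₁ t ht₁ hs₁ 𝔫 := by
  classical
  have : 𝔫.IsPrime := h𝔫.isPrime
  -- the evaluation `A[X] → B₁`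
  set g : A[X] →ₐ[A] B₁ := aeval (⟨t⁻¹, ht₁⟩ : B₁) with hg
  have hgev : ∀ P : A[X], ((g P : B₁) : F) = ev P := by
    intro P
    have h1 : (B₁.val.toRingHom.comp (g : A[X] →+* B₁)) = ev := by
      apply Polynomial.ringHom_ext
      · intro a
        rw [hevC]
        simp [hg]
      · rw [hevX]
        simp [hg]
    exact congrArg (fun f : A[X] →+* F => f P) h1
  have hgint : (g : A[X] →+* B₁).IsIntegral := by
    intro y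
    obtain ⟨p, hp, hroot⟩ := hint₁ y.1 y.2
    refine ⟨p, hp, ?_⟩
    apply Subtype.ext
    have h1 : ((eval₂ (g : A[X] →+* B₁) y p : B₁) : F) =
        eval₂ (B₁.val.toRingHom.comp (g : A[X] →+* B₁)) (B₁.val.toRingHom y) p :=
      Polynomial.hom_eval₂ p (g : A[X] →+* B₁) B₁.val.toRingHom y
    have h2 : (B₁.val.toRingHom.comp (g : A[X] →+* B₁)) = ev :=
      RingHom.ext fun P => hgev P
    rw [h1, h2]
    exact hroot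
  have hmax : (𝔫.comap (g : A[X] →+* B₁)).IsMaximal :=
    Ideal.isMaximal_comap_of_isIntegral_of_isMaximal' _ hgint 𝔫
  have hX : (X : A[X]) ∉ 𝔫.comap (g : A[X] →+* B₁) := by
    intro h
    rw [Ideal.mem_comap] at h
    apply htn
    refine ⟨ht₁, ?_⟩
    have : (g : A[X] →+* B₁) X = ⟨t⁻¹, ht₁⟩ := by simp [hg]
    rwa [this] at h
  obtain ⟨P, i, hi, hPi⟩ := hmax.exists_inv hX
  -- `1 - t⁻¹ P(t⁻¹) ∈ 𝔫`
  have hi' : h31o_In B₁ 𝔫 (1 - ev P * t⁻¹) := by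
    have h1 : i = 1 - P * X := by rw [← hPi]; ring
    rw [Ideal.mem_comap, h1] at hi
    have h2 : (((g : A[X] →+* B₁) (1 - P * X) : B₁) : F) = 1 - ev P * t⁻¹ := by
      have h3 : (((g : A[X] →+* B₁) (1 - P * X) : B₁) : F) = ev (1 - P * X) := hgev (1 - P * X)
      rw [h3, map_sub, map_mul, map_one, hevX]
    rw [← h2, h31o_In_coe]
    exact hi
  -- the reflected polynomial
  set d := P.natDegree with hd
  set u : A[X] := reflect d P with hu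
  have hudeg : u.natDegree ≤ d := by
    rw [natDegree_le_iff_coeff_eq_zero]
    intro N hN
    rw [hu, coeff_reflect, revAt_eq_self_of_lt hN]
    exact coeff_eq_zero_of_natDegree_lt hN
  set H : A[X] := X ^ (d + 1) - u with hH
  have hHmonic : H.Monic := by
    apply monic_X_pow_sub
    exact lt_of_le_of_lt (degree_le_of_natDegree_le hudeg) (by exact_mod_cast Nat.lt_succ_self d)
  -- evaluation at `t`
  set ev₀ : A[X] →+* F := eval₂RingHom (algebraMap A F) t with hev₀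
  have hevcomm : ∀ Q : A[X], ev Q = eval₂ (algebraMap A F) t⁻¹ Q := by
    intro Q
    have h1 : ev = eval₂RingHom (algebraMap A F) t⁻¹ := by
      apply Polynomial.ringHom_ext
      · intro a; rw [hevC]; simp
      · rw [hevX]; simp
    rw [h1]; rfl
  have hrefl : eval₂ (algebraMap A F) t u * t⁻¹ ^ d = ev P := by
    let _ : Invertible t⁻¹ := invertibleOfNonzero (inv_ne_zero ht)
    have h1 := eval₂_reflect_mul_pow (algebraMap A F) t⁻¹ d P le_rfl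
    have h2 : ⅟(t⁻¹) = t := by
      rw [invOf_eq_inv, inv_inv]
    rw [h2] at h1
    rw [hevcomm, ← h1]
  have hHt : (aeval (⟨t, ht₀⟩ : B₀) H : B₀) ∈ h31o_contr B₀ B₁ t ht₁ hs₁ 𝔫 := by
    refine ⟨d + 1, ?_⟩
    have h1 : ((aeval (⟨t, ht₀⟩ : B₀) H : B₀) : F) = eval₂ (algebraMap A F) t H := by
      have h2 : (B₀.val.toRingHom.comp ((aeval (⟨t, ht₀⟩ : B₀) : A[X] →ₐ[A] B₀) : A[X] →+* B₀))
          = eval₂RingHom (algebraMap A F) t := by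
        apply Polynomial.ringHom_ext
        · intro a; simp
        · simp
      exact congrArg (fun f : A[X] →+* F => f H) h2
    have h3 : t⁻¹ ^ (d + 1) * ((aeval (⟨t, ht₀⟩ : B₀) H : B₀) : F) = 1 - ev P * t⁻¹ := by
      rw [h1, hH, eval₂_sub, eval₂_pow, eval₂_X, ← hrefl]
      have h4 := h31o_inv_pow_mul_pow ht (d + 1)
      rw [mul_sub, h4, pow_succ]
      ring
    rw [h3]
    exact hi'
  -- peel
  have hprime : (h31o_contr B₀ B₁ t ht₁ hs₁ 𝔫).IsPrime := h31o_contr_isPrime htn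
  have hmA : ∀ a : A, ¬ IsUnit a → algebraMap A B₀ a ∈ h31o_contr B₀ B₁ t ht₁ hs₁ 𝔫 := by
    intro a ha
    exact h31o_mExt_le_contr hm (Ideal.mem_map_of_mem _ ((mem_maximalIdeal a).2 ha))
  have htc : (⟨t, ht₀⟩ : B₀) ∉ h31o_contr B₀ B₁ t ht₁ hs₁ 𝔫 := by
    intro h
    have h0 : t⁻¹ ^ 1 * ((⟨t, ht₀⟩ : B₀) : F) ∈ B₁ := by
      rw [pow_one, inv_mul_cancel₀ ht]; exact B₁.one_mem
    have h1 := (h31o_mem_contr_iff htn h0).1 h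
    have h2 : t⁻¹ ^ 1 * ((⟨t, ht₀⟩ : B₀) : F) = ((1 : B₁) : F) := by
      rw [pow_one]; exact inv_mul_cancel₀ ht
    rw [h2, h31o_In_coe] at h1
    exact (Ideal.ne_top_iff_one 𝔫).1 h𝔫.ne_top h1
  exact h31o_peel (h31o_contr B₀ B₁ t ht₁ hs₁ 𝔫) hmA ⟨t, ht₀⟩ htc _ H hHmonic rfl hHt

/-- the contraction of a maximal ideal `𝔫 ⊇ 𝔪_A B₁` with `t⁻¹ ∉ 𝔫` is a maximal ideal. -/
theorem h31o_contr_isMaximal (ht : t ≠ 0) (ht₀ : t ∈ B₀) (ht₁ : t⁻¹ ∈ B₁)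
    (hs₀ : ∀ y ∈ B₁, ∃ n : ℕ, t ^ n * y ∈ B₀)
    (hs₁ : ∀ y ∈ B₀, ∃ n : ℕ, t⁻¹ ^ n * y ∈ B₁)
    (ev : A[X] →+* F) (hevC : ∀ a, ev (C a) = algebraMap A F a) (hevX : ev X = t⁻¹)
    (hint₁ : ∀ y ∈ B₁, ev.IsIntegralElem y)
    (𝔫 : Ideal B₁) [h𝔫 : 𝔫.IsMaximal] (hm : (maximalIdeal A).map (algebraMap A B₁) ≤ 𝔫)
    (htn : ¬ h31o_In B₁ 𝔫 t⁻¹) :
    (h31o_contr B₀ B₁ t ht₁ hs₁ 𝔫).IsMaximal := by
  classical
  have : 𝔫.IsPrime := h𝔫.isPrime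
  obtain ⟨t', ht'⟩ := h31o_exists_inv_mod_contr ht ht₀ ht₁ hs₁ ev hevC hevX hint₁ 𝔫 hm htn
  rw [Ideal.isMaximal_iff]
  refine ⟨h31o_one_not_mem_contr htn, ?_⟩
  intro J x hJ hx hxJ
  obtain ⟨k, hk⟩ := hs₁ x x.2
  have hx₁ : ¬ h31o_In B₁ 𝔫 (t⁻¹ ^ k * (x : F)) := fun h =>
    hx ((h31o_mem_contr_iff htn hk).2 h)
  have hx₁' : (⟨t⁻¹ ^ k * (x : F), hk⟩ : B₁) ∉ 𝔫 := fun h => hx₁ ⟨hk, h⟩
  obtain ⟨c, i, hi, hci⟩ := h𝔫.exists_inv hx₁'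
  obtain ⟨m, hm'⟩ := hs₀ c c.2
  -- `x * c₀ - t ^ (m + k) ∈ 𝔫₀`
  have hci' : (c : F) * (t⁻¹ ^ k * (x : F)) + (i : F) = 1 := by
    have := congrArg (fun b : B₁ => (b : F)) hci
    simpa using this
  have hmem : x * (⟨t ^ m * (c : F), hm'⟩ : B₀) - (⟨t, ht₀⟩ : B₀) ^ (m + k) ∈
      h31o_contr B₀ B₁ t ht₁ hs₁ 𝔫 := by
    refine ⟨m + k, ?_⟩
    have h1 : t⁻¹ ^ (m + k) *
        ((x * (⟨t ^ m * (c : F), hm'⟩ : B₀) - (⟨t, ht₀⟩ : B₀) ^ (m + k) : B₀) : F) =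
        -(i : F) := by
      push_cast
      have h2 := h31o_inv_pow_mul_pow ht (m + k)
      have h3 := h31o_inv_pow_mul_pow ht m
      have h4 : t⁻¹ ^ (m + k) * ((x : F) * (t ^ m * (c : F)) - t ^ (m + k)) =
          (t⁻¹ ^ m * t ^ m) * ((c : F) * (t⁻¹ ^ k * (x : F))) - t⁻¹ ^ (m + k) * t ^ (m + k) := by
        ring
      rw [h4, h2, h3, one_mul]
      linear_combination hci'
    rw [h1]
    exact ((h31o_In_coe i).2 hi).neg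
  have htJ : (⟨t, ht₀⟩ : B₀) ^ (m + k) ∈ J := by
    have h1 := J.sub_mem (J.mul_mem_right (⟨t ^ m * (c : F), hm'⟩ : B₀) hxJ) (hJ hmem)
    simpa using h1
  -- `t` is invertible modulo `J`
  have h1 : (Ideal.Quotient.mk J (⟨t, ht₀⟩ : B₀)) * Ideal.Quotient.mk J t' = 1 := by
    rw [← map_mul, ← map_one (Ideal.Quotient.mk J), ← sub_eq_zero, ← map_sub,
      Ideal.Quotient.eq_zero_iff_mem]
    exact hJ ht'
  have h2 : (Ideal.Quotient.mk J (⟨t, ht₀⟩ : B₀)) ^ (m + k) = 0 := by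
    rw [← map_pow, Ideal.Quotient.eq_zero_iff_mem]
    exact htJ
  have h3 : (1 : B₀ ⧸ J) = 0 := by
    calc (1 : B₀ ⧸ J) = ((Ideal.Quotient.mk J (⟨t, ht₀⟩ : B₀)) * Ideal.Quotient.mk J t') ^ (m + k) := by
          rw [h1, one_pow]
      _ = 0 := by rw [mul_pow, h2, zero_mul]
  rw [← map_one (Ideal.Quotient.mk J), Ideal.Quotient.eq_zero_iff_mem] at h3
  exact h3

omit [IsLocalRing A] in
/-- transfer of local generation from the contraction `𝔫₀` to `𝔫`. -/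
theorem h31o_gen_transfer (ht : t ≠ 0) (ht₁ : t⁻¹ ∈ B₁)
    (hs₀ : ∀ y ∈ B₁, ∃ n : ℕ, t ^ n * y ∈ B₀)
    (hs₁ : ∀ y ∈ B₀, ∃ n : ℕ, t⁻¹ ^ n * y ∈ B₁)
    (𝔫 : Ideal B₁) [h𝔫 : 𝔫.IsPrime] (htn : ¬ h31o_In B₁ 𝔫 t⁻¹)
    (S₀ : Set B₀) (I₁ : Ideal B₁)
    (hS : ∀ g ∈ S₀, ∃ n : ℕ, h31o_In B₁ I₁ (t⁻¹ ^ n * (g : F)))
    (hgen : ∀ z ∈ h31o_contr B₀ B₁ t ht₁ hs₁ 𝔫, ∃ s, s ∉ h31o_contr B₀ B₁ t ht₁ hs₁ 𝔫 ∧
      s * z ∈ Ideal.span S₀) :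
    ∀ z ∈ 𝔫, ∃ s, s ∉ 𝔫 ∧ s * z ∈ I₁ := by
  intro z hz
  obtain ⟨m, hm⟩ := hs₀ z z.2
  have hz₀ : (⟨t ^ m * (z : F), hm⟩ : B₀) ∈ h31o_contr B₀ B₁ t ht₁ hs₁ 𝔫 := by
    refine ⟨m, ?_⟩
    have h1 : t⁻¹ ^ m * ((⟨t ^ m * (z : F), hm⟩ : B₀) : F) = (z : F) := by
      change t⁻¹ ^ m * (t ^ m * (z : F)) = (z : F)
      rw [← mul_assoc, h31o_inv_pow_mul_pow ht, one_mul]
    rw [h1, h31o_In_coe]
    exact hz
  obtain ⟨s₀, hs₀n, hs₀z⟩ := hgen _ hz₀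
  have hle : Ideal.span S₀ ≤ h31o_contr B₀ B₁ t ht₁ hs₁ I₁ := Ideal.span_le.2 fun g hg => hS g hg
  obtain ⟨n, hn⟩ := hle hs₀z
  obtain ⟨k, hk⟩ := hs₁ s₀ s₀.2
  have hs₁n : ¬ h31o_In B₁ 𝔫 (t⁻¹ ^ k * (s₀ : F)) := fun h =>
    hs₀n ((h31o_mem_contr_iff htn hk).2 h)
  have hsmem : t⁻¹ ^ n * (t⁻¹ ^ k * (s₀ : F)) ∈ B₁ := B₁.mul_mem (B₁.pow_mem ht₁ n) hk
  refine ⟨⟨t⁻¹ ^ n * (t⁻¹ ^ k * (s₀ : F)), hsmem⟩, ?_, ?_⟩
  · intro h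
    have h1 : h31o_In B₁ 𝔫 (t⁻¹ ^ n * (t⁻¹ ^ k * (s₀ : F))) := ⟨hsmem, h⟩
    exact hs₁n (h31o_In_of_mul (B₁.pow_mem ht₁ n) (h31o_not_In_pow ht₁ htn n) hk h1)
  · have h1 : (((⟨t⁻¹ ^ n * (t⁻¹ ^ k * (s₀ : F)), hsmem⟩ : B₁) * z : B₁) : F) =
        t⁻¹ ^ (k + m) * (t⁻¹ ^ n * ((s₀ * (⟨t ^ m * (z : F), hm⟩ : B₀) : B₀) : F)) := by
      push_cast
      have h3 := h31o_inv_pow_mul_pow ht m
      have h4 : t⁻¹ ^ (k + m) * (t⁻¹ ^ n * ((s₀ : F) * (t ^ m * (z : F)))) =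
          (t⁻¹ ^ m * t ^ m) * (t⁻¹ ^ n * (t⁻¹ ^ k * (s₀ : F)) * (z : F)) := by ring
      rw [h4, h3, one_mul]
    have h2 := hn.mul_left (B₁.pow_mem ht₁ (k + m))
    rw [← h1, h31o_In_coe] at h2
    exact h2

/-- the smooth-or-node datum at an ideal `𝔫` of a chart `B` over `A`
(the body of `IfaceSSLocal`). -/
def h31o_Datum (B : Subalgebra A F) (𝔫 : Ideal B) : Prop :=
  (∃ t' ∈ 𝔫, ∀ z ∈ 𝔫, ∃ s, s ∉ 𝔫 ∧
      s * z ∈ Ideal.span {t'} ⊔ (maximalIdeal A).map (algebraMap A B)) ∨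
  (∃ x ∈ 𝔫, ∃ y ∈ 𝔫, ∃ c, c ∉ 𝔫 ∧ ∃ a : A, a ≠ 0 ∧
      x * y = algebraMap A B a * c ∧
      ∀ z ∈ 𝔫, ∃ s, s ∉ 𝔫 ∧
        s * z ∈ Ideal.span {x, y} ⊔ (maximalIdeal A).map (algebraMap A B))

omit [IsLocalRing A] in
theorem h31o_scale_mono (ht₁ : t⁻¹ ∈ B₁) {y : F} {n m : ℕ} (hnm : n ≤ m)
    (h : t⁻¹ ^ n * y ∈ B₁) : t⁻¹ ^ m * y ∈ B₁ := by
  have h1 : t⁻¹ ^ m * y = t⁻¹ ^ (m - n) * (t⁻¹ ^ n * y) := by
    rw [← mul_assoc, ← pow_add, Nat.sub_add_cancel hnm]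
  rw [h1]
  exact B₁.mul_mem (B₁.pow_mem ht₁ _) h

/-- generators of `𝔪_A B₀` scale into any ideal containing `𝔪_A B₁`. -/
theorem h31o_scale_mExt (I₁ : Ideal B₁) (hI₁ : (maximalIdeal A).map (algebraMap A B₁) ≤ I₁) :
    ∀ g ∈ ((algebraMap A B₀) '' (maximalIdeal A : Set A)),
      ∃ n : ℕ, h31o_In B₁ I₁ (t⁻¹ ^ n * (g : F)) := by
  rintro g ⟨a, ha, rfl⟩
  refine ⟨0, ?_⟩
  have h1 : t⁻¹ ^ 0 * ((algebraMap A B₀ a : B₀) : F) = ((algebraMap A B₁ a : B₁) : F) := by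
    rw [pow_zero, one_mul]; rfl
  rw [h1, h31o_In_coe]
  exact hI₁ (Ideal.mem_map_of_mem _ ha)

/-- **Overlap transfer** (abstract form).  If every maximal ideal `𝔫₀ ⊇ 𝔪_A B₀` of the chart
`B₀` carries a smooth-or-node datum, then so does every maximal ideal `𝔫 ⊇ 𝔪_A B₁` of the chart
`B₁` with `t⁻¹ ∉ 𝔫`. -/
theorem h31o_datum_transfer (ht : t ≠ 0) (ht₀ : t ∈ B₀) (ht₁ : t⁻¹ ∈ B₁)
    (hs₀ : ∀ y ∈ B₁, ∃ n : ℕ, t ^ n * y ∈ B₀)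
    (hs₁ : ∀ y ∈ B₀, ∃ n : ℕ, t⁻¹ ^ n * y ∈ B₁)
    (ev : A[X] →+* F) (hevC : ∀ a, ev (C a) = algebraMap A F a) (hevX : ev X = t⁻¹)
    (hint₁ : ∀ y ∈ B₁, ev.IsIntegralElem y)
    (hloc : ∀ 𝔫₀ : Ideal B₀, 𝔫₀.IsMaximal → (maximalIdeal A).map (algebraMap A B₀) ≤ 𝔫₀ →
      h31o_Datum B₀ 𝔫₀)
    (𝔫 : Ideal B₁) (h𝔫 : 𝔫.IsMaximal) (hm : (maximalIdeal A).map (algebraMap A B₁) ≤ 𝔫)
    (htn : (⟨t⁻¹, ht₁⟩ : B₁) ∉ 𝔫) : h31o_Datum B₁ 𝔫 := by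
  classical
  have hprime : 𝔫.IsPrime := h𝔫.isPrime
  have htn' : ¬ h31o_In B₁ 𝔫 t⁻¹ := fun h => htn h.2
  set 𝔫₀ := h31o_contr B₀ B₁ t ht₁ hs₁ 𝔫 with h𝔫₀
  have hmax₀ : 𝔫₀.IsMaximal :=
    h31o_contr_isMaximal ht ht₀ ht₁ hs₀ hs₁ ev hevC hevX hint₁ 𝔫 hm htn'
  have hm₀ : (maximalIdeal A).map (algebraMap A B₀) ≤ 𝔫₀ := h31o_mExt_le_contr hm
  rcases hloc 𝔫₀ hmax₀ hm₀ with ⟨t', ht', hgen⟩ | ⟨x, hx, y, hy, c, hc, a, ha, hxy, hgen⟩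
  · -- smooth point
    left
    obtain ⟨k, hk⟩ := hs₁ t' t'.2
    have ht'' : (⟨t⁻¹ ^ k * (t' : F), hk⟩ : B₁) ∈ 𝔫 :=
      ((h31o_mem_contr_iff htn' hk).1 ht').2
    refine ⟨⟨t⁻¹ ^ k * (t' : F), hk⟩, ht'', ?_⟩
    refine h31o_gen_transfer ht ht₁ hs₀ hs₁ 𝔫 htn'
      ({t'} ∪ (algebraMap A B₀) '' (maximalIdeal A : Set A)) _ ?_ ?_
    · rintro g (hg | hg)
      · rw [Set.mem_singleton_iff] at hg
        subst hg
        exact ⟨k, hk, Ideal.mem_sup_left (Ideal.subset_span rfl)⟩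
      · exact h31o_scale_mExt _ le_sup_right g hg
    · intro z hz
      obtain ⟨s, hs, hsz⟩ := hgen z hz
      refine ⟨s, hs, ?_⟩
      rw [Ideal.span_union]
      exact hsz
  · -- node
    right
    obtain ⟨k₁, hk₁⟩ := hs₁ x x.2
    obtain ⟨k₂, hk₂⟩ := hs₁ y y.2
    obtain ⟨k₃, hk₃⟩ := hs₁ c c.2
    set k := k₁ + k₂ + k₃ with hk
    have hxk : t⁻¹ ^ k * (x : F) ∈ B₁ := h31o_scale_mono ht₁ (by omega) hk₁
    have hyk : t⁻¹ ^ k * (y : F) ∈ B₁ := h31o_scale_mono ht₁ (by omega) hk₂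
    have hck : t⁻¹ ^ (k + k) * (c : F) ∈ B₁ := h31o_scale_mono ht₁ (by omega) hk₃
    have hx' : (⟨t⁻¹ ^ k * (x : F), hxk⟩ : B₁) ∈ 𝔫 := ((h31o_mem_contr_iff htn' hxk).1 hx).2
    have hy' : (⟨t⁻¹ ^ k * (y : F), hyk⟩ : B₁) ∈ 𝔫 := ((h31o_mem_contr_iff htn' hyk).1 hy).2
    have hc' : (⟨t⁻¹ ^ (k + k) * (c : F), hck⟩ : B₁) ∉ 𝔫 := fun h =>
      hc ((h31o_mem_contr_iff htn' hck).2 ⟨hck, h⟩)
    refine ⟨⟨t⁻¹ ^ k * (x : F), hxk⟩, hx', ⟨t⁻¹ ^ k * (y : F), hyk⟩, hy',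
      ⟨t⁻¹ ^ (k + k) * (c : F), hck⟩, hc', a, ha, ?_, ?_⟩
    · apply Subtype.ext
      have h1 : ((x * y : B₀) : F) = ((algebraMap A B₀ a * c : B₀) : F) := congrArg _ hxy
      push_cast at h1 ⊢
      linear_combination t⁻¹ ^ (k + k) * h1
    · refine h31o_gen_transfer ht ht₁ hs₀ hs₁ 𝔫 htn'
        ({x, y} ∪ (algebraMap A B₀) '' (maximalIdeal A : Set A)) _ ?_ ?_
      · rintro g (hg | hg)
        · rcases hg with hg | hg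
          · subst hg
            exact ⟨k, hxk, Ideal.mem_sup_left (Ideal.subset_span (Set.mem_insert _ _))⟩
          · rw [Set.mem_singleton_iff] at hg
            subst hg
            exact ⟨k, hyk, Ideal.mem_sup_left
              (Ideal.subset_span (Set.mem_insert_of_mem _ rfl))⟩
        · exact h31o_scale_mExt _ le_sup_right g hg
      · intro z hz
        obtain ⟨s, hs, hsz⟩ := hgen z hz
        refine ⟨s, hs, ?_⟩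
        rw [Ideal.span_union]
        exact hsz

end Main

end Fermat.Agent.LGC
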