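import Fermat.Agent.LGC.Skeleton
import Fermat.Agent.Red.ModelO.Mid
import Fermat.Agent.LGC.H31OverlapAbs

/-!
# W3-LGC, SS-LOCAL-INF (a): overlap transfer (helper31)

`IfaceSSLocal` for the chart at infinity `(jSS M ℓ)⁻¹`, at the maximal ideals `𝔫 ⊇ 𝔪_A B` with
`1/j ∉ 𝔫`, from `IfaceSSLocal` for the finite chart `jSS M ℓ`:

* `h31o_ssLocal_inv_at` : the smooth-or-node datum at such an `𝔫`;
* `h31o_ifaceSSLocal_inv` : the glue `IfaceSSLocal (jSS) → (cusp case) → IfaceSSLocal (jSS)⁻¹`.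

The statements hold for any `t ≠ 0` in place of `jSS M ℓ` (`h31o_ssLocal_inv_at_gen`).
-/

set_option autoImplicit false

open AlgebraicCurve ModularCurve WithZero IsLocalRing Polynomial

noncomputable section

namespace Fermat.Agent.LGC

open Fermat.Agent.S37 Fermat.Agent.Red Fermat.Agent.Red.GG Fermat.Agent.Red.GV
  Fermat.Agent.Red.ModelO

section Gen

variable (A : ValuationSubring Kbar) (N : ℕ) (t : FF N)

/-- the smooth-or-node datum of `IfaceSSLocal` at an ideal of a chart of level `N`. -/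
abbrev h31o_DatumAt (𝔫 : Ideal (chart N A t)) : Prop :=
  h31o_Datum (A := A) (F := FF N) (chart N A t) 𝔫

/-- **Overlap transfer**, any level, any `t ≠ 0`: if every maximal ideal `𝔫₀ ⊇ 𝔪_A B₀` of the
chart of `t` carries a smooth-or-node datum, then so does every maximal ideal `𝔫 ⊇ 𝔪_A B₁` of
the chart of `t⁻¹` which does not contain `t⁻¹`. -/
theorem h31o_ssLocal_inv_at_gen (ht : t ≠ 0)
    (hloc : ∀ 𝔫₀ : Ideal (chart N A t), 𝔫₀.IsMaximal →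
      (maximalIdeal A).map (algebraMap A (chart N A t)) ≤ 𝔫₀ → h31o_DatumAt A N t 𝔫₀)
    (𝔫 : Ideal (chart N A t⁻¹)) (h𝔫 : 𝔫.IsMaximal)
    (hm : (maximalIdeal A).map (algebraMap A (chart N A t⁻¹)) ≤ 𝔫)
    (htn : (⟨t⁻¹, h85_self_mem_modelAt N A t⁻¹⟩ : chart N A t⁻¹) ∉ 𝔫) :
    h31o_DatumAt A N t⁻¹ 𝔫 := by
  refine h31o_datum_transfer (A := A) (F := FF N) (B₀ := chart N A t) (B₁ := chart N A t⁻¹)
    (t := t) ht (h85_self_mem_modelAt N A t) (h85_self_mem_modelAt N A t⁻¹) ?_ ?_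
    (h85ev N A t⁻¹) ?_ ?_ ?_ hloc 𝔫 h𝔫 hm htn
  · intro y hy
    exact h85_exists_pow_mul_mem_modelAt N A ht hy
  · intro y hy
    have hy' : y ∈ modelAt N A (t⁻¹)⁻¹ := by rw [inv_inv]; exact hy
    exact h85_exists_pow_mul_mem_modelAt N A (inv_ne_zero ht) hy'
  · intro a
    rw [h85ev_C]
    rfl
  · exact h85ev_X N A t⁻¹
  · intro y hy
    exact (h85_mem_modelAt_iff_isIntegralElem N A t⁻¹ y).1 hy

end Gen

section Level

variable (A : ValuationSubring Kbar) (M ℓ : ℕ) [NeZero M] [NeZero ℓ]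

theorem h31o_jSS_ne_zero : jSS M ℓ ≠ 0 := by
  unfold jSS
  intro h
  apply h85_jB_ne_zero M
  apply (heckeAlphaBar Kbar M ℓ).toRingHom.injective
  rw [map_zero]
  exact h

omit [NeZero M] [NeZero ℓ] in
/-- `IfaceSSLocal` is the statement that every maximal ideal over `𝔪_A` carries a datum. -/
theorem h31o_ifaceSSLocal_iff (t : FF (M * ℓ)) :
    IfaceSSLocal A M ℓ t ↔
      ∀ 𝔫 : Ideal (chart (M * ℓ) A t), 𝔫.IsMaximal → mExt A M ℓ t ≤ 𝔫 →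
        h31o_DatumAt A (M * ℓ) t 𝔫 :=
  Iff.rfl

/-- **SS-LOCAL-INF (a)**: the smooth-or-node datum at the maximal ideals of the chart at
infinity of level `M ℓ` over `𝔪_A` which do not contain `1/j`, from `IfaceSSLocal` for the
finite chart. -/
theorem h31o_ssLocal_inv_at (hloc : IfaceSSLocal A M ℓ (jSS M ℓ))
    (𝔫 : Ideal (chart (M * ℓ) A (jSS M ℓ)⁻¹)) (h𝔫 : 𝔫.IsMaximal)
    (hm : mExt A M ℓ (jSS M ℓ)⁻¹ ≤ 𝔫)
    (htn : (⟨(jSS M ℓ)⁻¹, h85_self_mem_modelAt (M * ℓ) A (jSS M ℓ)⁻¹⟩ :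
      chart (M * ℓ) A (jSS M ℓ)⁻¹) ∉ 𝔫) :
    h31o_DatumAt A (M * ℓ) (jSS M ℓ)⁻¹ 𝔫 :=
  h31o_ssLocal_inv_at_gen A (M * ℓ) (jSS M ℓ) (h31o_jSS_ne_zero M ℓ)
    ((h31o_ifaceSSLocal_iff A M ℓ (jSS M ℓ)).1 hloc) 𝔫 h𝔫 hm htn

/-- **SS-LOCAL-INF, glue**: `IfaceSSLocal` for the chart at infinity from `IfaceSSLocal` for the
finite chart and the cusp case (maximal ideals containing `1/j`). -/
theorem h31o_ifaceSSLocal_inv (hloc : IfaceSSLocal A M ℓ (jSS M ℓ))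
    (hcusp : ∀ 𝔫 : Ideal (chart (M * ℓ) A (jSS M ℓ)⁻¹), 𝔫.IsMaximal →
      mExt A M ℓ (jSS M ℓ)⁻¹ ≤ 𝔫 →
      (⟨(jSS M ℓ)⁻¹, h85_self_mem_modelAt (M * ℓ) A (jSS M ℓ)⁻¹⟩ :
        chart (M * ℓ) A (jSS M ℓ)⁻¹) ∈ 𝔫 →
      h31o_DatumAt A (M * ℓ) (jSS M ℓ)⁻¹ 𝔫) :
    IfaceSSLocal A M ℓ (jSS M ℓ)⁻¹ := by
  rw [h31o_ifaceSSLocal_iff]
  intro 𝔫 h𝔫 hm
  by_cases htn : (⟨(jSS M ℓ)⁻¹, h85_self_mem_modelAt (M * ℓ) A (jSS M ℓ)⁻¹⟩ :
      chart (M * ℓ) A (jSS M ℓ)⁻¹) ∈ 𝔫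
  · exact hcusp 𝔫 h𝔫 hm htn
  · exact h31o_ssLocal_inv_at A M ℓ hloc 𝔫 h𝔫 hm htn

end Level

end Fermat.Agent.LGC
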