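import Fermat.Agent.LGC.Pieces63b
import Fermat.Agent.LGC.Fin71Final
import Fermat.Agent.LGC.H31Overlap

/-!
# W3-LGC (helper63): assembly, third step

With helper71's unconditional FINITE at the levels `M * ℓ` (`Fin71Final.lean`) and helper31's
overlap transfer (`H31Overlap.lean`), the inputs of IN-MONO are

* `IfaceSSLocalFinAll` : SS-LOCAL for the finite chart,
* `IfaceSSCuspAll` : the smooth-or-node datum at the cusps of the chart at infinity (the maximal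
  ideals over `𝔪_A` which contain `1/j`).
-/

set_option autoImplicit false

open AlgebraicCurve ModularCurve WithZero IsLocalRing

noncomputable section

namespace Fermat.Agent.LGC

open Fermat.Agent.S37 Fermat.Agent.Red Fermat.Agent.Red.GG Fermat.Agent.Red.GV
  Fermat.Agent.Red.ModelO

/-- **FINITE at the levels `M * ℓ`, both charts** (helper71). -/
theorem ifaceSSFiniteAll : IfaceSSFiniteAll := by
  intro ℓ hℓ M _ hM _
  have : NeZero ℓ := ⟨hℓ.ne_zero⟩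
  intro A hA
  exact ⟨h71_finite_fin' hℓ hM hA, h71_finite_inf' hℓ hM hA⟩

/-- SS-LOCAL for the finite chart, at all good levels. -/
def IfaceSSLocalFinAll : Prop :=
  ∀ (ℓ : ℕ) (hℓ : ℓ.Prime) (M : ℕ) [NeZero M], ¬ ℓ ∣ M → auxLevel ℓ ∣ M →
    haveI : NeZero ℓ := ⟨hℓ.ne_zero⟩
    ∀ A : ValuationSubring Kbar, A.LiesOverPrime ℓ → IfaceSSLocal A M ℓ (jSS M ℓ)

/-- the smooth-or-node datum at the cusps of the chart at infinity, at all good levels. -/
def IfaceSSCuspAll : Prop :=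
  ∀ (ℓ : ℕ) (hℓ : ℓ.Prime) (M : ℕ) [NeZero M], ¬ ℓ ∣ M → auxLevel ℓ ∣ M →
    haveI : NeZero ℓ := ⟨hℓ.ne_zero⟩
    ∀ A : ValuationSubring Kbar, A.LiesOverPrime ℓ →
      ∀ 𝔫 : Ideal (chart (M * ℓ) A (jSS M ℓ)⁻¹), 𝔫.IsMaximal →
        mExt A M ℓ (jSS M ℓ)⁻¹ ≤ 𝔫 →
        (⟨(jSS M ℓ)⁻¹, h85_self_mem_modelAt (M * ℓ) A (jSS M ℓ)⁻¹⟩ :
          chart (M * ℓ) A (jSS M ℓ)⁻¹) ∈ 𝔫 →
        h31o_DatumAt A (M * ℓ) (jSS M ℓ)⁻¹ 𝔫

/-- SS-LOCAL for both charts from the finite chart and the cusps. -/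
theorem ifaceSSLocalAll_of (hL : IfaceSSLocalFinAll) (hC : IfaceSSCuspAll) :
    IfaceSSLocalAll := by
  intro ℓ hℓ M _ hM haux
  have : NeZero ℓ := ⟨hℓ.ne_zero⟩
  intro A hA
  have h0 := hL ℓ hℓ M hM haux A hA
  exact ⟨h0, h31o_ifaceSSLocal_inv A M ℓ h0 (hC ℓ hℓ M hM haux A hA)⟩

/-- **IN-MONO from SS-LOCAL for the finite chart and the cusps.** -/
theorem inertiaUnipotentTorsion_of_local_cusp (hL : IfaceSSLocalFinAll) (hC : IfaceSSCuspAll)
    (N p : ℕ) [NeZero N] (hp : p.Prime) : Fermat.Agent.S34.InertiaUnipotentTorsion N p :=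
  inertiaUnipotentTorsion_of_finite_local ifaceSSFiniteAll (ifaceSSLocalAll_of hL hC) N p hp

end Fermat.Agent.LGC
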