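import Fermat.Agent.LGC.Cusp21Loc
import Fermat.Agent.LGC.CompInf44
import Fermat.Agent.LGC.Pieces63c
import Fermat.Agent.Red.H67LocalUnifGG
import Fermat.Agent.Red.SM.Final

/-!
# W3-LGC, SS-LOCAL at the cusps (helper21): `IfaceSSCuspAll`, unconditional

The cusp case of `IfaceSSLocal` for the chart at infinity at all good levels:
`h21c_ifaceSSCuspAll : IfaceSSCuspAll` (the input `hC` of `s34_of_local_cusp`), from

* `h21c_cusp_datum` (`LGC/Cusp21Loc.lean`),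
* the two residue statements `H21SurjInf`, `H21SurjZero` = helper44's `h44i_hsurj_inf`,
  `h44i_hsurj_zero` (`LGC/CompInf44.lean`),
* the local parameters of level `M` on the chart at infinity (`h67_ifaceLocalUnif_inf` and
  `h13_ifaceSmooth`).
-/

set_option autoImplicit false
set_option linter.style.haveILetI false
set_option linter.unusedSectionVars false

open AlgebraicCurve ModularCurve WithZero IsLocalRing

noncomputable section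

namespace Fermat.Agent.LGC

open Fermat.Agent.S37 Fermat.Agent.Red Fermat.Agent.Red.GG Fermat.Agent.Red.GV
  Fermat.Agent.Red.GV.Soft Fermat.Agent.Red.Kron Fermat.Agent.Red.ModelO

variable (A : ValuationSubring Kbar) (M ℓ : ℕ) [NeZero M] [NeZero ℓ]

/-- `B = α (Λ) + 𝔪(W_∞)` for the charts at infinity. -/
theorem h21c_surjInf (hℓ : ℓ.Prime) (hM : ¬ ℓ ∣ M) (haux : auxLevel ℓ ∣ M)
    (hA : A.LiesOverPrime ℓ) : H21SurjInf A M ℓ hℓ hA := by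
  intro b hb
  have hb' : b ∈ modelInf (M * ℓ) A := (h21c_mem_chart_iff A M ℓ b).mp hb
  obtain ⟨x, hx, h, h0⟩ := h44i_hsurj_inf A M ℓ hℓ hM haux hA b hb'
  exact ⟨x, hx, (softR_eq_zero_iff_mem_nonunits A (M * ℓ) hℓ hA ⟨_, h⟩).mp h0⟩

/-- `w (B) ⊆ α (Λ) + 𝔪(W_∞)` for the charts at infinity. -/
theorem h21c_surjZero (hℓ : ℓ.Prime) (hM : ¬ ℓ ∣ M) (haux : auxLevel ℓ ∣ M)
    (hA : A.LiesOverPrime ℓ) : H21SurjZero A M ℓ hℓ hM hA := by
  intro b hb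
  have hb' : b ∈ modelInf (M * ℓ) A := (h21c_mem_chart_iff A M ℓ b).mp hb
  obtain ⟨x, hx, h, h0⟩ := h44i_hsurj_zero A M ℓ hℓ hM haux hA b hb'
  exact ⟨x, hx, (softR_eq_zero_iff_mem_nonunits A (M * ℓ) hℓ hA ⟨_, h⟩).mp h0⟩

/-- **the cusps of the chart at infinity of level `M ℓ` are smooth points of the special
fibre**, unconditionally at the good levels. -/
theorem h21c_cusp_datum_good (hℓ : ℓ.Prime) (hM : ¬ ℓ ∣ M) (haux : auxLevel ℓ ∣ M)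
    (hA : A.LiesOverPrime ℓ)
    (𝔫 : Ideal (chart (M * ℓ) A (jSS M ℓ)⁻¹)) (h𝔫 : 𝔫.IsMaximal)
    (hm : mExt A M ℓ (jSS M ℓ)⁻¹ ≤ 𝔫)
    (ht : (⟨(jSS M ℓ)⁻¹, h85_self_mem_modelAt (M * ℓ) A (jSS M ℓ)⁻¹⟩ :
      chart (M * ℓ) A (jSS M ℓ)⁻¹) ∈ 𝔫) :
    h31o_DatumAt A (M * ℓ) (jSS M ℓ)⁻¹ 𝔫 :=
  h21c_cusp_datum A M ℓ hℓ hM hA
    (h67_ifaceLocalUnif_inf M A Fermat.Agent.Red.SM.h13_ifaceSmooth hℓ hM haux hA)
    (h21c_surjInf A M ℓ hℓ hM haux hA) (h21c_surjZero A M ℓ hℓ hM haux hA) 𝔫 h𝔫 hm ht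

/-- **`IfaceSSCuspAll`**: the input `hC` of `s34_of_local_cusp`. -/
theorem h21c_ifaceSSCuspAll : IfaceSSCuspAll := by
  intro ℓ hℓ M _ hM haux
  haveI : NeZero ℓ := ⟨hℓ.ne_zero⟩
  intro A hA 𝔫 h𝔫 hm ht
  exact h21c_cusp_datum_good A M ℓ hℓ hM haux hA 𝔫 h𝔫 hm ht

end Fermat.Agent.LGC
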