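import Fermat.Agent.LGC.Perm63
import Fermat.Agent.LGC.SSInt
import Fermat.Agent.Red.GV.SoftGal
import Fermat.Agent.Red.Kron.FrickeGal

/-!
# W3-LGC (helper63): the semistable Gauss ring is the intersection of the two Gauss valuation
rings; the special fibre is reduced; SS-PERM from SS-CHART

`W_∞ = softV A (M * ℓ)` (helper28's soft Gauss valuation ring at the cusp `∞`),
`W_0 = w⁻¹ (W_∞)`, `w = kFricke M ℓ` (helper44).

* `h63r_mem_ssV_iff` : `x ∈ ssV A M ℓ ↔ x ∈ W_∞ ∧ w x ∈ W_∞`.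
* `h63r_scale` : **(REDUCED)** if `y ∈ 𝔪(W_∞)` and `w y ∈ 𝔪(W_∞)` then `y = π z` with
  `π ∈ 𝔪_A` nonzero and `z ∈ ssV`.
* `h63r_inertia_sub` : for `σ` in the inertia group and `x ∈ ssV`, `σ x - x = π z` as above.
* `h63r_gal_mem_chart` : the decomposition group preserves a chart `modelAt N A t` with `σ t = t`.
* `h63r_triv_of_chart` : `InertiaTrivAt` from `hBV` and `hQEP` of the chart.
* `ifaceSSPerm_of_chart`, `ifaceSSPerm_inv_of_chart` : **SS-PERM from SS-CHART**.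
-/

set_option autoImplicit false

open AlgebraicCurve ModularCurve WithZero IsLocalRing

noncomputable section

namespace Fermat.Agent.LGC

open Fermat.Agent.S37 Fermat.Agent.Red Fermat.Agent.Red.GG Fermat.Agent.Red.GV
  Fermat.Agent.Red.GV.Soft Fermat.Agent.Red.Kron

open scoped Pointwise

/-- an element integral over a subring of a valuation ring lies in the valuation ring. -/
theorem h63r_mem_of_isIntegral_le {K : Type*} [Field K] (W : ValuationSubring K) (R : Subring K)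
    (h : R ≤ W.toSubring) {x : K} (hx : IsIntegral R x) : x ∈ W := by
  obtain ⟨p, hp, hroot⟩ := hx
  have h2 : IsIntegral W.toSubring x := by
    refine ⟨p.map (Subring.inclusion h), hp.map _, ?_⟩
    rw [Polynomial.eval₂_map]
    exact hroot
  have h3 : IsIntegral W x := h2
  obtain ⟨y, hy⟩ := (IsIntegrallyClosed.isIntegral_iff (R := W) (K := K)).mp h3
  rw [← hy]
  exact y.2

/-- the image under a ring homomorphism `f` of an element integral over a subring `R` lies in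
a valuation ring containing `f R`. -/
theorem h63r_map_mem_of_isIntegral {K : Type*} [Field K] (W : ValuationSubring K)
    (R : Subring K) (f : K →+* K) (h : ∀ r ∈ R, f r ∈ W) {x : K} (hx : IsIntegral R x) :
    f x ∈ W := by
  obtain ⟨p, hp, hroot⟩ := hx
  let g : R →+* W.toSubring := (f.comp R.subtype).codRestrict W.toSubring (fun r => h r r.2)
  have h2 : IsIntegral W.toSubring (f x) := by
    refine ⟨p.map g, hp.map _, ?_⟩
    rw [Polynomial.eval₂_map]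
    have e : (algebraMap W.toSubring K).comp g = f.comp (algebraMap R K) := by
      ext r
      rfl
    rw [e, ← Polynomial.hom_eval₂, hroot, map_zero]
  exact h63r_mem_of_isIntegral_le W W.toSubring le_rfl h2

section Level

variable (A : ValuationSubring Kbar) (M ℓ : ℕ) [NeZero M] [NeZero ℓ]

theorem h63r_gaussVImage_le_soft : gaussVImage A M ℓ ≤ softV A (M * ℓ) := by
  rintro x ⟨y, hy, rfl⟩
  exact (alpha_mem_softV_iff A ℓ y).mpr (gaussV_le_softV A M hy)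

theorem h63r_w_gaussVImage_le_soft (hℓ : ℓ.Prime) (hM : ¬ ℓ ∣ M) :
    ∀ x ∈ gaussVImage A M ℓ, (kFricke M ℓ hℓ hM : FF (M * ℓ) →+* FF (M * ℓ)) x ∈
      softV A (M * ℓ) := by
  rintro x ⟨y, hy, rfl⟩
  show kFricke M ℓ hℓ hM (heckeAlphaBar Kbar M ℓ y) ∈ softV A (M * ℓ)
  rw [kFricke_alpha]
  exact beta_mem_softV A ℓ y (gaussV_le_softV A M hy)

variable {A M ℓ}

theorem h63r_ssV_le_soft (hℓ : ℓ.Prime) (hA : A.LiesOverPrime ℓ) {x : FF (M * ℓ)}
    (hx : x ∈ ssV A M ℓ) : x ∈ softV A (M * ℓ) :=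
  h63r_mem_of_isIntegral_le (softRing A (M * ℓ) hℓ hA) (gaussVImage A M ℓ)
    (h63r_gaussVImage_le_soft A M ℓ) hx

theorem h63r_w_ssV_le_soft (hℓ : ℓ.Prime) (hM : ¬ ℓ ∣ M) (hA : A.LiesOverPrime ℓ)
    {x : FF (M * ℓ)} (hx : x ∈ ssV A M ℓ) : kFricke M ℓ hℓ hM x ∈ softV A (M * ℓ) :=
  h63r_map_mem_of_isIntegral (softRing A (M * ℓ) hℓ hA) (gaussVImage A M ℓ)
    (kFricke M ℓ hℓ hM : FF (M * ℓ) →+* FF (M * ℓ))
    (h63r_w_gaussVImage_le_soft A M ℓ hℓ hM) hx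

theorem h63r_mem_ssV_of_soft (hℓ : ℓ.Prime) (hM : ¬ ℓ ∣ M) (hA : A.LiesOverPrime ℓ)
    {x : FF (M * ℓ)} (hx : x ∈ softV A (M * ℓ))
    (hwx : kFricke M ℓ hℓ hM x ∈ softV A (M * ℓ)) : x ∈ ssV A M ℓ := by
  have h1 := h44g_isIntegralElem_of_isFrac M ℓ A hℓ hM hA x hx hwx
  rw [← ModelO.h85_isIntegral_range_iff] at h1
  rw [mem_ssV_iff]
  refine ModelO.h85_isIntegral_mono ?_ h1
  rintro y ⟨z, rfl⟩
  exact ⟨(z : FF M), z.2, rfl⟩

/-- **the semistable Gauss ring is the intersection of the two Gauss valuation rings.** -/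
theorem h63r_mem_ssV_iff (hℓ : ℓ.Prime) (hM : ¬ ℓ ∣ M) (hA : A.LiesOverPrime ℓ)
    (x : FF (M * ℓ)) :
    x ∈ ssV A M ℓ ↔ x ∈ softV A (M * ℓ) ∧ kFricke M ℓ hℓ hM x ∈ softV A (M * ℓ) :=
  ⟨fun h => ⟨h63r_ssV_le_soft hℓ hA h, h63r_w_ssV_le_soft hℓ hM hA h⟩,
    fun h => h63r_mem_ssV_of_soft hℓ hM hA h.1 h.2⟩

omit [NeZero M] [NeZero ℓ] in
/-- a constant which is a non-unit of the Gauss valuation ring is a non-unit of `A`. -/
theorem h63r_cst_nonunit (hℓ : ℓ.Prime) (hA : A.LiesOverPrime ℓ) (N : ℕ) {a : Kbar}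
    (ha : cst N a ∈ (softRing A N hℓ hA).nonunits) : a ∈ A.nonunits := by
  by_cases ha0 : a = 0
  · rw [ha0]
    exact GalI.zero_mem_nonunits A
  rw [GalI.mem_nonunits_iff_inv A ha0]
  intro hinv
  have hc0 : cst N a ≠ 0 := fun h0 =>
    ha0 ((algebraMap Kbar (FF N)).injective (h0.trans (map_zero _).symm))
  rw [GalI.mem_nonunits_iff_inv _ hc0] at ha
  apply ha
  have e : (cst N a)⁻¹ = cst N a⁻¹ := (map_inv₀ (algebraMap Kbar (FF N)) a).symm
  rw [e]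
  exact (cst_mem_softV_iff A N a⁻¹).mpr hinv

omit [NeZero M] [NeZero ℓ] in
/-- a non-unit of the Gauss valuation ring is `π · unit` with `π ∈ 𝔪_A`. -/
theorem h63r_nonunit_scale (hℓ : ℓ.Prime) (hA : A.LiesOverPrime ℓ) (N : ℕ) {y : FF N}
    (hy0 : y ≠ 0) (hy : y ∈ (softRing A N hℓ hA).nonunits) :
    ∃ p : Kbar, p ≠ 0 ∧ p ∈ A.nonunits ∧ ∃ u : FF N, u ∈ softV A N ∧ y = cst N p * u := by
  obtain ⟨c, hc, hu, hinvu⟩ := exists_cst_mul_unit_soft A N hℓ hA y hy0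
  have hcc : cst N c ≠ 0 := fun h0 =>
    hc ((algebraMap Kbar (FF N)).injective (h0.trans (map_zero _).symm))
  have e : (cst N c)⁻¹ = cst N c⁻¹ := (map_inv₀ (algebraMap Kbar (FF N)) c).symm
  have hy' : y = cst N c⁻¹ * (cst N c * y) := by
    rw [← e, ← mul_assoc, inv_mul_cancel₀ hcc, one_mul]
  refine ⟨c⁻¹, inv_ne_zero hc, ?_, cst N c * y, hu, hy'⟩
  apply h63r_cst_nonunit hℓ hA N
  have e2 : cst N c⁻¹ = y * (cst N c * y)⁻¹ := by
    rw [mul_inv, ← mul_assoc, mul_comm y, mul_assoc, mul_inv_cancel₀ hy0, mul_one, e]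
  rw [e2]
  exact GalI.mul_mem_nonunits_left _ hy hinvu

/-- **(REDUCED)** an element which is a non-unit of both Gauss valuation rings is `π z` with
`π ∈ 𝔪_A` nonzero and `z` in the semistable Gauss ring. -/
theorem h63r_scale (hℓ : ℓ.Prime) (hM : ¬ ℓ ∣ M) (hA : A.LiesOverPrime ℓ) {y : FF (M * ℓ)}
    (hy : y ∈ (softRing A (M * ℓ) hℓ hA).nonunits)
    (hwy : kFricke M ℓ hℓ hM y ∈ (softRing A (M * ℓ) hℓ hA).nonunits) :
    ∃ π : A, π ∈ maximalIdeal A ∧ π ≠ 0 ∧ ∃ z ∈ ssV A M ℓ,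
      y = algebraMap A (FF (M * ℓ)) π * z := by
  rcases eq_or_ne y 0 with rfl | hy0
  · -- `π = ℓ`
    have hℓA : ((ℓ : ℕ) : Kbar) ∈ A.nonunits := hA
    refine ⟨⟨(ℓ : Kbar), A.nonunits_le hℓA⟩, ValuationSubring.coe_mem_nonunits_iff.mp hℓA, ?_,
      0, zero_mem _, by rw [mul_zero]⟩
    intro h0
    have h1 : ((ℓ : ℕ) : Kbar) = 0 := congrArg Subtype.val h0
    exact hℓ.ne_zero (by exact_mod_cast h1)
  have hwy0 : kFricke M ℓ hℓ hM y ≠ 0 :=
    (map_ne_zero_iff _ (kFricke M ℓ hℓ hM).injective).mpr hy0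
  obtain ⟨p, hp0, hp, u, hu, hyu⟩ := h63r_nonunit_scale hℓ hA (M * ℓ) hy0 hy
  obtain ⟨p', hp'0, hp', u', hu', hyu'⟩ := h63r_nonunit_scale hℓ hA (M * ℓ) hwy0 hwy
  have hcp : cst (M * ℓ) p ≠ 0 := fun h0 =>
    hp0 ((algebraMap Kbar (FF (M * ℓ))).injective (h0.trans (map_zero _).symm))
  have hcp' : cst (M * ℓ) p' ≠ 0 := fun h0 =>
    hp'0 ((algebraMap Kbar (FF (M * ℓ))).injective (h0.trans (map_zero _).symm))
  have hwc : ∀ a : Kbar, kFricke M ℓ hℓ hM (cst (M * ℓ) a) = cst (M * ℓ) a :=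
    fun a => kFricke_cst M ℓ hℓ hM a
  have hww : kFricke M ℓ hℓ hM (kFricke M ℓ hℓ hM y) = y := kFricke_kFricke M ℓ hℓ hM y
  rcases A.mem_or_inv_mem (p' / p) with h | h
  · -- `p ∣ p'`: `π = p`, `z = u`
    refine ⟨⟨p, A.nonunits_le hp⟩, ValuationSubring.coe_mem_nonunits_iff.mp hp,
      fun h0 => hp0 (congrArg Subtype.val h0), u, ?_, hyu⟩
    refine h63r_mem_ssV_of_soft hℓ hM hA hu ?_
    have e : kFricke M ℓ hℓ hM u = cst (M * ℓ) (p' / p) * u' := by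
      have h1 : kFricke M ℓ hℓ hM y = cst (M * ℓ) p * kFricke M ℓ hℓ hM u := by
        conv_lhs => rw [hyu]
        rw [map_mul, hwc]
      rw [hyu'] at h1
      have h2 : kFricke M ℓ hℓ hM u = (cst (M * ℓ) p)⁻¹ * (cst (M * ℓ) p' * u') := by
        rw [h1, ← mul_assoc, inv_mul_cancel₀ hcp, one_mul]
      have e3 : cst (M * ℓ) (p' / p) = cst (M * ℓ) p' / cst (M * ℓ) p :=
        map_div₀ (algebraMap Kbar (FF (M * ℓ))) p' p
      rw [h2, e3]
      field_simp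
    rw [e]
    exact mul_mem ((cst_mem_softV_iff A (M * ℓ) _).mpr h) hu'
  · -- `p' ∣ p`: `π = p'`, `z = (p / p') u`
    have h' : p / p' ∈ A := by
      rw [inv_div] at h
      exact h
    refine ⟨⟨p', A.nonunits_le hp'⟩, ValuationSubring.coe_mem_nonunits_iff.mp hp',
      fun h0 => hp'0 (congrArg Subtype.val h0), cst (M * ℓ) (p / p') * u, ?_, ?_⟩
    · refine h63r_mem_ssV_of_soft hℓ hM hA
        (mul_mem ((cst_mem_softV_iff A (M * ℓ) _).mpr h') hu) ?_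
      have e : kFricke M ℓ hℓ hM (cst (M * ℓ) (p / p') * u) = u' := by
        have h1 : kFricke M ℓ hℓ hM y = cst (M * ℓ) p * kFricke M ℓ hℓ hM u := by
          conv_lhs => rw [hyu]
          rw [map_mul, hwc]
        rw [hyu'] at h1
        have e3 : cst (M * ℓ) (p / p') = cst (M * ℓ) p / cst (M * ℓ) p' :=
          map_div₀ (algebraMap Kbar (FF (M * ℓ))) p p'
        have h2 : cst (M * ℓ) p * kFricke M ℓ hℓ hM u = cst (M * ℓ) p' * u' := h1.symm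
        rw [map_mul, hwc, e3, div_mul_eq_mul_div, h2, mul_div_assoc]
        exact mul_div_cancel₀ u' hcp'
      rw [e]
      exact hu'
    · show y = cst (M * ℓ) p' * (cst (M * ℓ) (p / p') * u)
      have e3 : cst (M * ℓ) (p / p') = cst (M * ℓ) p / cst (M * ℓ) p' :=
        map_div₀ (algebraMap Kbar (FF (M * ℓ))) p p'
      rw [hyu, e3]
      field_simp

omit [NeZero M] [NeZero ℓ] in
/-- for `σ` in the inertia group and `x` in the Gauss valuation ring, `σ x - x` is a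
non-unit. -/
theorem h63r_inertia_sub_nonunit (hℓ : ℓ.Prime) (hA : A.LiesOverPrime ℓ) (N : ℕ) {σ : GQ}
    (hσ : σ ∈ A.inertiaSubgroupIn ℚ) {x : FF N} (hx : x ∈ softV A N) :
    gal N σ • x - x ∈ (softRing A N hℓ hA).nonunits := by
  obtain ⟨h, hred⟩ := softR_gal_of_inertia A N hσ ⟨x, hx⟩
  have hmem : gal N σ • x - x ∈ softV A N := sub_mem h hx
  have e : (⟨gal N σ • x - x, hmem⟩ : softV A N) = ⟨gal N σ • x, h⟩ - ⟨x, hx⟩ := rfl
  have h0 : softR A N ⟨gal N σ • x - x, hmem⟩ = 0 := by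
    rw [e, map_sub, hred, sub_self]
  exact (softR_eq_zero_iff_mem_nonunits A N hℓ hA ⟨gal N σ • x - x, hmem⟩).mp h0

/-- **inertia acts trivially modulo `𝔪_A` on the semistable Gauss ring.** -/
theorem h63r_inertia_sub (hℓ : ℓ.Prime) (hM : ¬ ℓ ∣ M) (hA : A.LiesOverPrime ℓ) {σ : GQ}
    (hσ : σ ∈ A.inertiaSubgroupIn ℚ) {x : FF (M * ℓ)} (hx : x ∈ ssV A M ℓ) :
    ∃ π : A, π ∈ maximalIdeal A ∧ π ≠ 0 ∧ ∃ z ∈ ssV A M ℓ,
      gal (M * ℓ) σ • x - x = algebraMap A (FF (M * ℓ)) π * z := by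
  refine h63r_scale hℓ hM hA
    (h63r_inertia_sub_nonunit hℓ hA (M * ℓ) hσ (h63r_ssV_le_soft hℓ hA hx)) ?_
  have e : kFricke M ℓ hℓ hM (gal (M * ℓ) σ • x - x) =
      gal (M * ℓ) σ • kFricke M ℓ hℓ hM x - kFricke M ℓ hℓ hM x := by
    rw [map_sub]
    congr 1
    exact kFricke_gal M ℓ hℓ hM σ x
  rw [e]
  exact h63r_inertia_sub_nonunit hℓ hA (M * ℓ) hσ (h63r_w_ssV_le_soft hℓ hM hA hx)

omit [NeZero M] [NeZero ℓ] in
/-- the decomposition group preserves a chart with Galois invariant coordinate. -/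
theorem h63r_gal_mem_chart (N : ℕ) (t : FF N) {σ : GQ} (hσ : ∀ a ∈ A, σ a ∈ A)
    (ht : gal N σ • t = t) {b : FF N} (hb : b ∈ modelAt N A t) :
    gal N σ • b ∈ modelAt N A t := by
  rw [ModelO.h85_mem_modelAt_iff_forall] at hb ⊢
  intro W hW htW
  have h1 : b ∈ ((gal N σ)⁻¹ • W : ValuationSubring (FF N)) := by
    apply hb
    · intro a ha
      rw [ValuationSubring.mem_pointwise_smul_iff_inv_smul_mem, inv_inv, GalI.gal_smul_cst]
      exact hW _ (hσ a ha)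
    · rw [ValuationSubring.mem_pointwise_smul_iff_inv_smul_mem, inv_inv, ht]
      exact htW
  rw [ValuationSubring.mem_pointwise_smul_iff_inv_smul_mem, inv_inv] at h1
  exact h1

set_option synthInstance.maxHeartbeats 400000 in
/-- **the inertia group acts trivially modulo `𝔪_A` on a chart of level `M * ℓ`** (from `hBV`
and `hQEP`). -/
theorem h63r_triv_of_chart (hℓ : ℓ.Prime) (hM : ¬ ℓ ∣ M) (hA : A.LiesOverPrime ℓ)
    (t : FF (M * ℓ)) {σ : GQ} (hσ : σ ∈ A.inertiaSubgroupIn ℚ)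
    (ht : gal (M * ℓ) σ • t = t)
    (hBV : ∀ x ∈ chart (M * ℓ) A t, x ∈ ssV A M ℓ)
    (hQEP : ∀ a : A, algebraMap A (FF (M * ℓ)) a ≠ 0 → ∀ x ∈ ssV A M ℓ,
      a • x ∈ chart (M * ℓ) A t → x ∈ chart (M * ℓ) A t) :
    InertiaTrivAt (M * ℓ) A t σ := by
  intro b
  have hc : gal (M * ℓ) σ • (b : FF (M * ℓ)) ∈ chart (M * ℓ) A t :=
    h63r_gal_mem_chart (M * ℓ) t
      (fun a ha => (Fermat.Agent.S05.H86.inertia_apply_mem A hσ ha).1) ht b.2
  refine ⟨⟨_, hc⟩, rfl, ?_⟩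
  obtain ⟨π, hπ, hπ0, z, hz, hyz⟩ := h63r_inertia_sub hℓ hM hA hσ (hBV _ b.2)
  have hπF : algebraMap A (FF (M * ℓ)) π ≠ 0 := by
    intro h0
    apply hπ0
    apply Subtype.ext
    exact (algebraMap Kbar (FF (M * ℓ))).injective (h0.trans (map_zero _).symm)
  have hy : gal (M * ℓ) σ • (b : FF (M * ℓ)) - b ∈ chart (M * ℓ) A t := sub_mem hc b.2
  have hzB : z ∈ chart (M * ℓ) A t := by
    apply hQEP π hπF z hz
    rw [Algebra.smul_def, ← hyz]
    exact hy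
  have e : (⟨_, hc⟩ : chart (M * ℓ) A t) - b =
      algebraMap A (chart (M * ℓ) A t) π * ⟨z, hzB⟩ := Subtype.ext hyz
  rw [e]
  exact Ideal.mul_mem_right _ _ (Ideal.mem_map_of_mem _ hπ)

/-- **SS-PERM from SS-CHART**, finite chart. -/
theorem ifaceSSPerm_of_chart (hℓ : ℓ.Prime) (hM : ¬ ℓ ∣ M) (hA : A.LiesOverPrime ℓ)
    (hC : IfaceSSChart A M ℓ (jSS M ℓ)) : IfaceSSPerm A M ℓ (jSS M ℓ) :=
  ifaceSSPerm_of_triv A M ℓ _ (h63p_gal_jSS M ℓ) fun _ hσ =>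
    h63r_triv_of_chart hℓ hM hA _ hσ (h63p_gal_jSS M ℓ _) hC.hBV hC.hQEP

/-- **SS-PERM from SS-CHART**, chart at infinity. -/
theorem ifaceSSPerm_inv_of_chart (hℓ : ℓ.Prime) (hM : ¬ ℓ ∣ M) (hA : A.LiesOverPrime ℓ)
    (hC : IfaceSSChart A M ℓ (jSS M ℓ)⁻¹) : IfaceSSPerm A M ℓ (jSS M ℓ)⁻¹ :=
  ifaceSSPerm_of_triv A M ℓ _ (h63p_gal_jSS_inv M ℓ) fun _ hσ =>
    h63r_triv_of_chart hℓ hM hA _ hσ (h63p_gal_jSS_inv M ℓ _) hC.hBV hC.hQEP

end Level

end Fermat.Agent.LGC
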