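import Fermat.Agent.LGC.SSV44
import Fermat.Agent.Red.GV.SoftRat
import Fermat.Agent.Red.ESTF.FrobSeries
import Fermat.Agent.Red.BC.Asm46

/-!
# W3-LGC / K3 (helper44): residue degree one

`ℓ ∤ M` prime, `A` a valuation subring of `ℚ̄` over `ℓ`, `N = Mℓ`, `α, β : F_M → F_N`,
`w` the Fricke involution of `F_N`, `W_∞ = softV A N`, `W_0 = w⁻¹ W_∞`.

* `h44r_trace` : if `x ∈ W_∞` and `w x ∈ 𝔪(W_∞)` then the trace `y` of `x` over `α(F_M)` is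
  Gauss-integral and `red y = red_∞ x`.
* `h44r_sep` : the separating element `e` (`red_∞ e = 1`, `red_0 e = 0`).
* `h44r_residue_degree_one` : for every `x ∈ W_∞` there is `y ∈ softV A M` with
  `red_∞ x = red y` (the residue field of `W_∞` is the residue field of the Gauss valuation of
  level `M`); `h44r_residue_degree_one_gaussV` is the same in `gaussV`/`gaussR` form.
-/

set_option autoImplicit false
set_option linter.style.haveILetI false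
set_option linter.unusedSectionVars false
set_option synthInstance.maxHeartbeats 400000

open AlgebraicCurve ModularCurve IsLocalRing Polynomial

noncomputable section

namespace Fermat.Agent.LGC

open Fermat.Agent.S37 Fermat.Agent.Red Fermat.Agent.Red.GV Fermat.Agent.Red.GV.Soft
  Fermat.Agent.Red.TRK Fermat.Agent.Red.Kron

/-! ### series level: twists preserve the kernel of the reduction -/

section Series

variable {K : Type} [Field K] {A : ValuationSubring K} {k : Type} [Field k] {π : A →+* k}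

theorem h44r_isWit_twistK (u : Aˣ) {x : LaurentSeries K} {a b : LaurentSeries A}
    (h : IsWit A π x a b) :
    IsWit A π (twistK (((u : A) : K)) x) (h44g_twA u a) (h44g_twA u b) := by
  have hu0 : (((u : A) : K)) ≠ 0 := by
    intro h0
    have h1 : (u : A) = 0 := Subtype.ext h0
    exact u.ne_zero h1
  have hπu : π (u : A) ≠ 0 := (u.map π.toMonoidHom).ne_zero
  refine ⟨?_, ?_⟩
  · rw [h44g_redA_twA]
    intro h0
    apply h.1
    apply twistK_injective hπu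
    rw [h0, twistK_zero]
  · rw [h44g_embA_twA, h44g_embA_twA, h.2, twistK_mul hu0]

theorem h44r_twistK_mem_softOT (u : Aˣ) {x : LaurentSeries K} (hx : x ∈ softOT A π) :
    twistK (((u : A) : K)) x ∈ softOT A π := by
  obtain ⟨a, b, h⟩ := hx
  exact ⟨_, _, h44r_isWit_twistK u h⟩

theorem h44r_softRedT_twistK_eq_zero (u : Aˣ) (x : softOT A π) (hx : softRedT A π x = 0)
    (h' : twistK (((u : A) : K)) (x : LaurentSeries K) ∈ softOT A π) :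
    softRedT A π ⟨_, h'⟩ = 0 := by
  obtain ⟨a, b, h⟩ := x.2
  have h1 := softRedT_apply x h
  rw [hx] at h1
  have ha : redA π a = 0 := by
    rcases div_eq_zero_iff.mp h1.symm with h2 | h2
    · exact h2
    · exact absurd h2 h.1
  have h2 : IsWit A π ((⟨_, h'⟩ : softOT A π) : LaurentSeries K) (h44g_twA u a) (h44g_twA u b) :=
    h44r_isWit_twistK u h
  rw [softRedT_apply _ h2, h44g_redA_twA, ha, twistK_zero, zero_div]

end Series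

variable (A : ValuationSubring Kbar) (M ℓ : ℕ) [NeZero M] [NeZero ℓ]

/-! ### the trace over `α(F_M)` -/

/-- the trace of `x ∈ F_{Mℓ}` over `α(F_M)` (minus the second coefficient of the
characteristic polynomial). -/
def h44r_tr (x : FF (M * ℓ)) : FF M :=
  -(charpolyAlong (heckeAlphaBar Kbar M ℓ)
    (Fermat.Agent.Red.HKMod.finiteAlong_heckeAlphaBar M ℓ) x).nextCoeff

/-- the `q`-expansion of the trace, in the variable `t = q^{1/ℓ}`. -/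
theorem h44r_coe_beta_tr (hℓ : ℓ.Prime) (hM : ¬ ℓ ∣ M) (ζ : Kbar) (hζ : IsPrimitiveRoot ζ ℓ)
    (x : FF (M * ℓ)) :
    ((heckeBetaBar Kbar M ℓ (h44r_tr M ℓ x) : FF (M * ℓ)) : LaurentSeries Kbar) =
      qExpand Kbar ℓ (x : LaurentSeries Kbar) +
        ∑ b ∈ Finset.range ℓ,
          twistK (ζ ^ b) ((kFricke M ℓ hℓ hM x : FF (M * ℓ)) : LaurentSeries Kbar) := by
  have key := h44g_charpolyAlong_alpha M ℓ hℓ hM ζ hζ
    (Fermat.Agent.Red.HKMod.finiteAlong_heckeAlphaBar M ℓ) x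
  have h1 := congrArg Polynomial.nextCoeff key
  rw [Polynomial.nextCoeff_map (kIotaK M ℓ).injective, h44g_rhsK,
    Polynomial.Monic.nextCoeff_mul (Polynomial.monic_X_sub_C _)
      (Polynomial.monic_prod_of_monic _ _ (fun b _ => Polynomial.monic_X_sub_C _)),
    Polynomial.nextCoeff_X_sub_C, Polynomial.prod_X_sub_C_nextCoeff] at h1
  rw [coe_heckeBetaBar, ← kIotaK_apply, h44r_tr, map_neg, h1]
  ring

/-- **the trace lemma.**  If `x ∈ W_∞` and `w x ∈ 𝔪(W_∞)` (i.e. `x ∈ 𝔪(W_0)`), the trace `y`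
of `x` over `α(F_M)` is Gauss-integral and `red y = red_∞ x`. -/
theorem h44r_trace (hℓ : ℓ.Prime) (hM : ¬ ℓ ∣ M) (hA : A.LiesOverPrime ℓ) (x : FF (M * ℓ))
    (hx : x ∈ softV A (M * ℓ)) (hwx : kFricke M ℓ hℓ hM x ∈ softV A (M * ℓ))
    (h0 : softR A (M * ℓ) ⟨_, hwx⟩ = 0) :
    ∃ hy : h44r_tr M ℓ x ∈ softV A M,
      softR A M ⟨_, hy⟩ = softR A (M * ℓ) ⟨x, hx⟩ := by
  haveI : Fact ℓ.Prime := ⟨hℓ⟩
  haveI : NeZero ((ℓ : ℕ) : Kbar) := ⟨by exact_mod_cast NeZero.ne ℓ⟩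
  obtain ⟨ζ, hζ⟩ := HasEnoughRootsOfUnity.exists_primitiveRoot Kbar ℓ
  obtain ⟨u, hu⟩ := h44g_exists_unit_of_pow_eq_one A (NeZero.ne ℓ) hζ.pow_eq_one
  have hcoe := h44r_coe_beta_tr M ℓ hℓ hM ζ hζ x
  -- the pieces, in `softOT`
  have hS : qExpand Kbar ℓ (x : LaurentSeries Kbar) ∈ softOT A (IsLocalRing.residue A) :=
    mem_softOT_qExpand A _ ℓ hx
  have hζb : ∀ b : ℕ, ζ ^ b = ((((u ^ b : Aˣ) : A)) : Kbar) := by
    intro b
    rw [Units.val_pow_eq_pow_val, ← hu]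
    rfl
  have hT : ∀ b : ℕ, twistK (ζ ^ b)
      ((kFricke M ℓ hℓ hM x : FF (M * ℓ)) : LaurentSeries Kbar) ∈
        softOT A (IsLocalRing.residue A) := by
    intro b
    rw [hζb b]
    exact h44r_twistK_mem_softOT (u ^ b) hwx
  have hT0 : ∀ b : ℕ, softRedT A (IsLocalRing.residue A) ⟨_, hT b⟩ = 0 := by
    intro b
    have h1 := h44r_softRedT_twistK_eq_zero (u ^ b)
      (softIncl A (M * ℓ) ⟨_, hwx⟩) h0
      (by rw [coe_softIncl]; exact h44r_twistK_mem_softOT (u ^ b) hwx)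
    have h2 : (⟨_, hT b⟩ : softOT A (IsLocalRing.residue A)) =
        ⟨twistK ((((u ^ b : Aˣ) : A)) : Kbar)
          ((softIncl A (M * ℓ) ⟨_, hwx⟩ : softOT A (IsLocalRing.residue A)) :
            LaurentSeries Kbar),
          by rw [coe_softIncl]; exact h44r_twistK_mem_softOT (u ^ b) hwx⟩ := by
      apply Subtype.ext
      show twistK (ζ ^ b) _ = twistK _ _
      rw [hζb b, coe_softIncl]
    rw [h2]
    exact h1
  have hSred : softRedT A (IsLocalRing.residue A) ⟨_, hS⟩ =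
      qExpand (IsLocalRing.ResidueField A) ℓ (softR A (M * ℓ) ⟨x, hx⟩) :=
    softRedT_qExpand A (IsLocalRing.residue A) ℓ (softIncl A (M * ℓ) ⟨x, hx⟩) hS
  -- the sum
  obtain ⟨Z, hZ⟩ : ∃ Z : softOT A (IsLocalRing.residue A),
      Z = ⟨_, hS⟩ + ∑ b ∈ Finset.range ℓ, ⟨_, hT b⟩ := ⟨_, rfl⟩
  have hZcoe : (Z : LaurentSeries Kbar) =
      ((heckeBetaBar Kbar M ℓ (h44r_tr M ℓ x) : FF (M * ℓ)) : LaurentSeries Kbar) := by
    rw [hcoe, hZ, Subring.coe_add, AddSubmonoidClass.coe_finsetSum]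
  have hZred : softRedT A (IsLocalRing.residue A) Z =
      qExpand (IsLocalRing.ResidueField A) ℓ (softR A (M * ℓ) ⟨x, hx⟩) := by
    rw [hZ, map_add, map_sum, Finset.sum_eq_zero (fun b _ => hT0 b), add_zero, hSred]
  have hβ : heckeBetaBar Kbar M ℓ (h44r_tr M ℓ x) ∈ softV A (M * ℓ) := by
    obtain ⟨a, b, hb, hab⟩ := Z.2
    rw [hZcoe] at hab
    exact mem_softV_of_frac A (M * ℓ) _ a b hb hab
  have hy : h44r_tr M ℓ x ∈ softV A M := (beta_mem_softV_iff A hℓ hA ℓ _).mp hβ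
  refine ⟨hy, ?_⟩
  have h1 := softR_beta A ℓ ⟨_, hy⟩ hβ
  have h2 : softR A (M * ℓ) ⟨_, hβ⟩ = softRedT A (IsLocalRing.residue A) Z := by
    have e : softIncl A (M * ℓ) ⟨_, hβ⟩ = Z := Subtype.ext hZcoe.symm
    show softRedT A _ (softIncl A (M * ℓ) ⟨_, hβ⟩) = _
    rw [e]
  rw [h2, hZred] at h1
  exact ((qExpand (IsLocalRing.ResidueField A) ℓ).injective h1).symm

/-! ### the separating element -/

theorem h44r_softR_jB (hj : jB M ∈ softV A M) :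
    softR A M ⟨jB M, hj⟩ = jqModC (IsLocalRing.ResidueField A) := by
  rw [softR_eq_gaussR A M (jB M) hj (jB_mem_gaussV A M), gaussR_jB]

/-- Frobenius: `j(q)^ℓ = j(q^ℓ)` in characteristic `ℓ`. -/
theorem h44r_jqModC_pow (k : Type) [Field k] (ℓ : ℕ) [NeZero ℓ] [ExpChar k ℓ] :
    (jqModC k) ^ ℓ = qExpand k ℓ (jqModC k) := by
  rw [Fermat.Agent.Red.ESTF.h76_pow_char_eq_qExpand, coeffMap_jqModC]

theorem h44r_jqModC_sub_ne_zero (k : Type) [Field k] (n : ℕ) (hn : 1 < n) :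
    jqModC k - (jqModC k) ^ n ≠ 0 := by
  have hQ : (X - X ^ n : Polynomial k) ≠ 0 := by
    intro h0
    have h1 := congrArg (fun p : Polynomial k => p.coeff 1) h0
    simp only [Polynomial.coeff_sub, Polynomial.coeff_X_one, Polynomial.coeff_X_pow,
      Polynomial.coeff_zero] at h1
    rw [if_neg (by omega), sub_zero] at h1
    exact one_ne_zero h1
  have h := Fermat.Agent.S28.evalC_jqModC_ne_zero k (X - X ^ n) hQ
  have e : Fermat.Agent.S28.evalC (jqModC k) (X - X ^ n) = jqModC k - (jqModC k) ^ n := by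
    rw [map_sub, map_pow]
    show Polynomial.eval₂ _ _ X - (Polynomial.eval₂ _ _ X) ^ n = _
    rw [Polynomial.eval₂_X]
  rwa [e] at h

/-- the separating element `e = (α j - (β j)^ℓ) / α(j - j^{ℓ²})`: `red_∞ e = 1`,
`red_0 e = 0`. -/
def h44r_e : FF (M * ℓ) :=
  (heckeAlphaBar Kbar M ℓ (jB M) - heckeBetaBar Kbar M ℓ (jB M) ^ ℓ) *
    (heckeAlphaBar Kbar M ℓ (jB M - jB M ^ (ℓ ^ 2)))⁻¹

theorem h44r_sep (hℓ : ℓ.Prime) (hM : ¬ ℓ ∣ M) (hA : A.LiesOverPrime ℓ) :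
    ∃ (he : h44r_e M ℓ ∈ softV A (M * ℓ))
      (hwe : kFricke M ℓ hℓ hM (h44r_e M ℓ) ∈ softV A (M * ℓ)),
      softR A (M * ℓ) ⟨_, he⟩ = 1 ∧ softR A (M * ℓ) ⟨_, hwe⟩ = 0 := by
  haveI : Fact ℓ.Prime := ⟨hℓ⟩
  haveI : CharP (IsLocalRing.ResidueField A) ℓ :=
    Base.h80_charP A (IsLocalRing.residue A) ℓ (isResidueMap_residue A ℓ hA)
  haveI : ExpChar (IsLocalRing.ResidueField A) ℓ := ExpChar.prime hℓ
  obtain ⟨r, hr⟩ : ∃ r, r = jqModC (IsLocalRing.ResidueField A) := ⟨_, rfl⟩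
  have hj : jB M ∈ softV A M := gaussV_le_softV A M (jB_mem_gaussV A M)
  have hrj : softR A M ⟨jB M, hj⟩ = r := by rw [hr]; exact h44r_softR_jB A M hj
  have hpow : r ^ ℓ = qExpand _ ℓ r := by rw [hr]; exact h44r_jqModC_pow _ ℓ
  have hD : jB M - jB M ^ (ℓ ^ 2) ∈ softV A M := sub_mem hj (pow_mem hj _)
  have hrD : softR A M ⟨_, hD⟩ = r - r ^ (ℓ ^ 2) := by
    have e : (⟨_, hD⟩ : softV A M) = ⟨jB M, hj⟩ - ⟨jB M, hj⟩ ^ (ℓ ^ 2) := rfl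
    rw [e, map_sub, map_pow, hrj]
  have hrD0 : r - r ^ (ℓ ^ 2) ≠ 0 := by
    rw [hr]
    exact h44r_jqModC_sub_ne_zero _ (ℓ ^ 2) (by nlinarith [hℓ.two_le])
  have hqD0 : qExpand (IsLocalRing.ResidueField A) ℓ (r - r ^ (ℓ ^ 2)) ≠ 0 := by
    intro h
    exact hrD0 ((qExpand (IsLocalRing.ResidueField A) ℓ).injective (by rw [h, map_zero]))
  have haj : heckeAlphaBar Kbar M ℓ (jB M) ∈ softV A (M * ℓ) :=
    (alpha_mem_softV_iff A ℓ _).mpr hj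
  have hbj : heckeBetaBar Kbar M ℓ (jB M) ∈ softV A (M * ℓ) := beta_mem_softV A ℓ _ hj
  have hraj : softR A (M * ℓ) ⟨_, haj⟩ = r := (softR_alpha A ℓ ⟨_, hj⟩ haj).trans hrj
  have hrbj : softR A (M * ℓ) ⟨_, hbj⟩ = qExpand _ ℓ r := by
    rw [softR_beta A ℓ ⟨_, hj⟩ hbj, hrj]
  have haD : heckeAlphaBar Kbar M ℓ (jB M - jB M ^ (ℓ ^ 2)) ∈ softV A (M * ℓ) :=
    (alpha_mem_softV_iff A ℓ _).mpr hD
  have hbD : heckeBetaBar Kbar M ℓ (jB M - jB M ^ (ℓ ^ 2)) ∈ softV A (M * ℓ) :=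
    beta_mem_softV A ℓ _ hD
  have hraD : softR A (M * ℓ) ⟨_, haD⟩ = r - r ^ (ℓ ^ 2) :=
    (softR_alpha A ℓ ⟨_, hD⟩ haD).trans hrD
  have hrbD : softR A (M * ℓ) ⟨_, hbD⟩ = qExpand _ ℓ (r - r ^ (ℓ ^ 2)) := by
    rw [softR_beta A ℓ ⟨_, hD⟩ hbD, hrD]
  have haDn := (softR_ne_zero_iff A (M * ℓ) ⟨_, haD⟩).mp (by rw [hraD]; exact hrD0)
  have hbDn := (softR_ne_zero_iff A (M * ℓ) ⟨_, hbD⟩).mp (by rw [hrbD]; exact hqD0)
  have he : h44r_e M ℓ ∈ softV A (M * ℓ) :=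
    mul_mem (sub_mem haj (pow_mem hbj ℓ)) haDn.2
  have hwe_eq : kFricke M ℓ hℓ hM (h44r_e M ℓ) =
      (heckeBetaBar Kbar M ℓ (jB M) - heckeAlphaBar Kbar M ℓ (jB M) ^ ℓ) *
        (heckeBetaBar Kbar M ℓ (jB M - jB M ^ (ℓ ^ 2)))⁻¹ := by
    rw [h44r_e, map_mul, map_sub, map_pow, map_inv₀, kFricke_alpha, kFricke_beta, kFricke_alpha]
  have hwe : kFricke M ℓ hℓ hM (h44r_e M ℓ) ∈ softV A (M * ℓ) := by
    rw [hwe_eq]
    exact mul_mem (sub_mem hbj (pow_mem haj ℓ)) hbDn.2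
  refine ⟨he, hwe, ?_, ?_⟩
  · have e1 : (⟨_, he⟩ : softV A (M * ℓ)) * ⟨_, haD⟩ = ⟨_, haj⟩ - ⟨_, hbj⟩ ^ ℓ := by
      apply Subtype.ext
      show h44r_e M ℓ * heckeAlphaBar Kbar M ℓ (jB M - jB M ^ (ℓ ^ 2)) =
        heckeAlphaBar Kbar M ℓ (jB M) - heckeBetaBar Kbar M ℓ (jB M) ^ ℓ
      rw [h44r_e, mul_assoc, inv_mul_cancel₀ haDn.1, mul_one]
    have h1 := congrArg (softR A (M * ℓ)) e1
    rw [map_mul (softR A (M * ℓ)), map_sub (softR A (M * ℓ)), map_pow (softR A (M * ℓ)),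
      hraD, hraj, hrbj, ← hpow, ← pow_mul, ← sq] at h1
    exact mul_right_cancel₀ hrD0 (h1.trans (one_mul _).symm)
  · have e1 : (⟨_, hwe⟩ : softV A (M * ℓ)) * ⟨_, hbD⟩ = ⟨_, hbj⟩ - ⟨_, haj⟩ ^ ℓ := by
      apply Subtype.ext
      show kFricke M ℓ hℓ hM (h44r_e M ℓ) * heckeBetaBar Kbar M ℓ (jB M - jB M ^ (ℓ ^ 2)) =
        heckeBetaBar Kbar M ℓ (jB M) - heckeAlphaBar Kbar M ℓ (jB M) ^ ℓ
      rw [hwe_eq, mul_assoc, inv_mul_cancel₀ hbDn.1, mul_one]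
    have h1 := congrArg (softR A (M * ℓ)) e1
    rw [map_mul (softR A (M * ℓ)), map_sub (softR A (M * ℓ)), map_pow (softR A (M * ℓ)),
      hrbD, hraj, hrbj, ← hpow, sub_self] at h1
    exact (mul_eq_zero.mp h1).resolve_right hqD0

/-! ### residue degree one -/

/-- **K3: residue degree one at `∞`.**  For every `x ∈ W_∞ = softV A (Mℓ)` there is a
Gauss-integral `y ∈ F_M` with `red y = red_∞ x`. -/
theorem h44r_residue_degree_one (hℓ : ℓ.Prime) (hM : ¬ ℓ ∣ M) (hA : A.LiesOverPrime ℓ)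
    (x : FF (M * ℓ)) (hx : x ∈ softV A (M * ℓ)) :
    ∃ (y : FF M) (hy : y ∈ softV A M), softR A M ⟨y, hy⟩ = softR A (M * ℓ) ⟨x, hx⟩ := by
  obtain ⟨he, hwe, hre, hrwe⟩ := h44r_sep A M ℓ hℓ hM hA
  by_cases hwx : kFricke M ℓ hℓ hM x ∈ softV A (M * ℓ)
  · have hx' : x * h44r_e M ℓ ∈ softV A (M * ℓ) := mul_mem hx he
    have hwx' : kFricke M ℓ hℓ hM (x * h44r_e M ℓ) ∈ softV A (M * ℓ) := by
      rw [map_mul]
      exact mul_mem hwx hwe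
    have h0 : softR A (M * ℓ) ⟨_, hwx'⟩ = 0 := by
      have e1 : (⟨_, hwx'⟩ : softV A (M * ℓ)) = ⟨_, hwx⟩ * ⟨_, hwe⟩ :=
        Subtype.ext (map_mul _ _ _)
      rw [e1, map_mul, hrwe, mul_zero]
    obtain ⟨hy, hry⟩ := h44r_trace A M ℓ hℓ hM hA (x * h44r_e M ℓ) hx' hwx' h0
    refine ⟨_, hy, ?_⟩
    rw [hry]
    have e2 : (⟨_, hx'⟩ : softV A (M * ℓ)) = ⟨x, hx⟩ * ⟨_, he⟩ := rfl
    rw [e2, map_mul, hre, mul_one]
  · by_cases hr : softR A (M * ℓ) ⟨x, hx⟩ = 0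
    · refine ⟨0, zero_mem _, ?_⟩
      rw [hr]
      exact map_zero (softR A M)
    · obtain ⟨hx0, hxi⟩ := (softR_ne_zero_iff A (M * ℓ) ⟨x, hx⟩).mp hr
      have hwxi : kFricke M ℓ hℓ hM x⁻¹ ∈ softV A (M * ℓ) := by
        rcases mem_or_inv_mem_softV A (M * ℓ) hℓ hA (kFricke M ℓ hℓ hM x) with h | h
        · exact absurd h hwx
        · rwa [map_inv₀]
      have h0 : softR A (M * ℓ) ⟨_, hwxi⟩ = 0 := by
        rw [softR_eq_zero_iff]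
        right
        show (kFricke M ℓ hℓ hM x⁻¹)⁻¹ ∉ softV A (M * ℓ)
        rw [map_inv₀, inv_inv]
        exact hwx
      obtain ⟨hy, hry⟩ := h44r_trace A M ℓ hℓ hM hA x⁻¹ hxi hwxi h0
      have hxx : softR A (M * ℓ) ⟨x, hx⟩ * softR A (M * ℓ) ⟨x⁻¹, hxi⟩ = 1 := by
        rw [← map_mul]
        have e3 : (⟨x, hx⟩ : softV A (M * ℓ)) * ⟨x⁻¹, hxi⟩ = 1 :=
          Subtype.ext (mul_inv_cancel₀ hx0)
        rw [e3, map_one]
      have hry0 : softR A M ⟨_, hy⟩ ≠ 0 := by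
        rw [hry]
        exact right_ne_zero_of_mul_eq_one hxx
      obtain ⟨hy0, hyi⟩ := (softR_ne_zero_iff A M ⟨_, hy⟩).mp hry0
      refine ⟨_, hyi, ?_⟩
      have hyy : softR A M ⟨_, hyi⟩ * softR A M ⟨_, hy⟩ = 1 := by
        rw [← map_mul]
        have e4 : (⟨_, hyi⟩ : softV A M) * ⟨_, hy⟩ = 1 :=
          Subtype.ext (inv_mul_cancel₀ hy0)
        rw [e4, map_one]
      rw [hry] at hyy
      exact mul_right_cancel₀ (right_ne_zero_of_mul_eq_one hxx) (hyy.trans hxx.symm)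

/-- K3 in `gaussV` / `gaussR` form. -/
theorem h44r_residue_degree_one_gaussV (hℓ : ℓ.Prime) (hM : ¬ ℓ ∣ M) (hA : A.LiesOverPrime ℓ)
    (x : FF (M * ℓ)) (hx : x ∈ softV A (M * ℓ)) :
    ∃ (y : FF M) (hy : y ∈ gaussV A M), gaussR A M ⟨y, hy⟩ = softR A (M * ℓ) ⟨x, hx⟩ := by
  obtain ⟨y, hy, h⟩ := h44r_residue_degree_one A M ℓ hℓ hM hA x hx
  have hy' : y ∈ gaussV A M := softV_le_gaussV A M hℓ hM hA hy
  exact ⟨y, hy', (softR_eq_gaussR A M y hy hy').symm.trans h⟩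

/-- K3, congruence form: every `x ∈ W_∞` is congruent modulo `𝔪(W_∞)` to `α y` with `y`
Gauss-integral of level `M`. -/
theorem h44r_exists_alpha_congr (hℓ : ℓ.Prime) (hM : ¬ ℓ ∣ M) (hA : A.LiesOverPrime ℓ)
    (x : FF (M * ℓ)) (hx : x ∈ softV A (M * ℓ)) :
    ∃ (y : FF M) (_ : y ∈ gaussV A M) (h : x - heckeAlphaBar Kbar M ℓ y ∈ softV A (M * ℓ)),
      softR A (M * ℓ) ⟨_, h⟩ = 0 := by
  obtain ⟨y, hy, h⟩ := h44r_residue_degree_one A M ℓ hℓ hM hA x hx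
  have hαy : heckeAlphaBar Kbar M ℓ y ∈ softV A (M * ℓ) := (alpha_mem_softV_iff A ℓ y).mpr hy
  refine ⟨y, softV_le_gaussV A M hℓ hM hA hy, sub_mem hx hαy, ?_⟩
  have e : (⟨_, sub_mem hx hαy⟩ : softV A (M * ℓ)) = ⟨x, hx⟩ - ⟨_, hαy⟩ := rfl
  rw [e, map_sub (softR A (M * ℓ)), softR_alpha A ℓ ⟨y, hy⟩ hαy, h, sub_self]

/-- K3 at `0`, congruence form: every `x ∈ W_0` is congruent modulo `𝔪(W_0)` to `β y` with
`y` Gauss-integral of level `M`. -/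
theorem h44r_exists_beta_congr (hℓ : ℓ.Prime) (hM : ¬ ℓ ∣ M) (hA : A.LiesOverPrime ℓ)
    (x : FF (M * ℓ)) (hx : kFricke M ℓ hℓ hM x ∈ softV A (M * ℓ)) :
    ∃ (y : FF M) (_ : y ∈ gaussV A M)
      (h : kFricke M ℓ hℓ hM (x - heckeBetaBar Kbar M ℓ y) ∈ softV A (M * ℓ)),
      softR A (M * ℓ) ⟨_, h⟩ = 0 := by
  obtain ⟨y, hy, h, h0⟩ := h44r_exists_alpha_congr A M ℓ hℓ hM hA _ hx
  have e : kFricke M ℓ hℓ hM (x - heckeBetaBar Kbar M ℓ y) =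
      kFricke M ℓ hℓ hM x - heckeAlphaBar Kbar M ℓ y := by
    rw [map_sub, kFricke_beta]
  have h' : kFricke M ℓ hℓ hM (x - heckeBetaBar Kbar M ℓ y) ∈ softV A (M * ℓ) := by
    rw [e]
    exact h
  refine ⟨y, hy, h', ?_⟩
  have e2 : (⟨_, h'⟩ : softV A (M * ℓ)) = ⟨_, h⟩ := Subtype.ext e
  rw [e2, h0]

/-! ### `ssV = W_∞ ∩ W_0` -/

/-- the soft Gauss ring is integrally closed (any level). -/
theorem h44r_mem_softV_of_isIntegralElem (N : ℕ) (hℓ : ℓ.Prime) (hA : A.LiesOverPrime ℓ)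
    {R : Type*} [CommRing R] (f : R →+* FF N) (hf : ∀ r, f r ∈ softV A N) (c : FF N)
    (h : f.IsIntegralElem c) : c ∈ softV A N := by
  let V : ValuationSubring (FF N) := softRing A N hℓ hA
  obtain ⟨p, hp, hpc⟩ := h
  let e : R →+* ↥V := f.codRestrict V (fun x => hf x)
  have hint : IsIntegral ↥V c := ⟨p.map e, hp.map _, by rw [Polynomial.eval₂_map]; exact hpc⟩
  obtain ⟨y, hy⟩ := (IsIntegrallyClosed.isIntegral_iff (R := ↥V) (K := FF N)).mp hint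
  rw [← hy]
  exact y.2

/-- `ssV ⊆ W_∞`. -/
theorem h44r_ssV_le_softV (hℓ : ℓ.Prime) (hA : A.LiesOverPrime ℓ) {x : FF (M * ℓ)}
    (hx : x ∈ ssV A M ℓ) : x ∈ softV A (M * ℓ) := by
  refine h44r_mem_softV_of_isIntegralElem A ℓ (M * ℓ) hℓ hA (h44v_f A M ℓ) (fun r => ?_) x
    ((h44v_mem_ssV_iff A M ℓ x).1 hx)
  exact (alpha_mem_softV_iff A ℓ _).mpr (gaussV_le_softV A M r.2)

/-- `ssV ⊆ W_0`. -/
theorem h44r_kFricke_ssV_le_softV (hℓ : ℓ.Prime) (hM : ¬ ℓ ∣ M) (hA : A.LiesOverPrime ℓ)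
    {x : FF (M * ℓ)} (hx : x ∈ ssV A M ℓ) : kFricke M ℓ hℓ hM x ∈ softV A (M * ℓ) := by
  obtain ⟨p, hp, hpx⟩ := (h44v_mem_ssV_iff A M ℓ x).1 hx
  refine h44r_mem_softV_of_isIntegralElem A ℓ (M * ℓ) hℓ hA
    (((kFricke M ℓ hℓ hM : FF (M * ℓ) ≃ₐ[Kbar] FF (M * ℓ)) :
      FF (M * ℓ) →+* FF (M * ℓ)).comp (h44v_f A M ℓ)) (fun r => ?_) _ ⟨p, hp, ?_⟩
  · show kFricke M ℓ hℓ hM (heckeAlphaBar Kbar M ℓ (r : FF M)) ∈ softV A (M * ℓ)
    rw [kFricke_alpha]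
    exact beta_mem_softV A ℓ _ (gaussV_le_softV A M r.2)
  · have h1 := congrArg (kFricke M ℓ hℓ hM) hpx
    rw [map_zero] at h1
    rw [← h1]
    exact (Polynomial.hom_eval₂ p (h44v_f A M ℓ)
      ((kFricke M ℓ hℓ hM : FF (M * ℓ) ≃ₐ[Kbar] FF (M * ℓ)) :
        FF (M * ℓ) →+* FF (M * ℓ)) x).symm

/-- **`ssV = W_∞ ∩ W_0`.** -/
theorem h44r_mem_ssV_iff (hℓ : ℓ.Prime) (hM : ¬ ℓ ∣ M) (hA : A.LiesOverPrime ℓ)
    (x : FF (M * ℓ)) :
    x ∈ ssV A M ℓ ↔ x ∈ softV A (M * ℓ) ∧ kFricke M ℓ hℓ hM x ∈ softV A (M * ℓ) :=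
  ⟨fun hx => ⟨h44r_ssV_le_softV A M ℓ hℓ hA hx, h44r_kFricke_ssV_le_softV A M ℓ hℓ hM hA hx⟩,
    fun h => h44v_mem_ssV_of_isFrac A M ℓ hℓ hM hA x h.1 h.2⟩

/-- the Fricke involution preserves `ssV`. -/
theorem h44r_kFricke_mem_ssV_iff (hℓ : ℓ.Prime) (hM : ¬ ℓ ∣ M) (hA : A.LiesOverPrime ℓ)
    (x : FF (M * ℓ)) : kFricke M ℓ hℓ hM x ∈ ssV A M ℓ ↔ x ∈ ssV A M ℓ := by
  rw [h44r_mem_ssV_iff A M ℓ hℓ hM hA, h44r_mem_ssV_iff A M ℓ hℓ hM hA, kFricke_kFricke]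
  exact and_comm

end Fermat.Agent.LGC
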