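import Fermat.Agent.LGC.Skeleton
import Fermat.Agent.Red.ModelO.Hinj85
import Fermat.Agent.Red.HKMod

/-!
# W3-LGC: the interface `IfaceSSGeneric` at level `M * ℓ` (helper85)

At a maximal ideal of a chart of level `M * ℓ` which does not contain `𝔪_A`, at most one place is
centered.  This is the level-free statement `h85_ifaceGeneric_of_hinj` + `h85_hinj` of
`Red/ModelO/Generic85.lean`, `Red/ModelO/Hinj85.lean` at the level `M * ℓ`.

* `h85s_jSS_eq` : `jSS M ℓ = jB (M * ℓ)`.
* `h85s_ifaceSSGeneric_fin`, `h85s_ifaceSSGeneric_inf` : `IfaceSSGeneric` for `t = j`, `1/j`.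
-/

set_option autoImplicit false
set_option linter.unusedSectionVars false

open AlgebraicCurve ModularCurve WithZero IsLocalRing

noncomputable section

namespace Fermat.Agent.LGC

open Fermat.Agent.S37 Fermat.Agent.Red Fermat.Agent.Red.GG Fermat.Agent.Red.GV
  Fermat.Agent.Red.ModelO

variable (A : ValuationSubring Kbar) (M ℓ : ℕ) [NeZero M] [NeZero ℓ]

/-- the `j`-function of level `M * ℓ`. -/
theorem h85s_jSS_eq : jSS M ℓ = jB (M * ℓ) :=
  Fermat.Agent.Red.HKMod.heckeAlphaBar_jBar M ℓ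

/-- **`IfaceSSGeneric`** for the finite chart of level `M * ℓ`. -/
theorem h85s_ifaceSSGeneric_fin {p : ℕ} (hp : p.Prime) (hA : A.LiesOverPrime p) :
    IfaceSSGeneric A M ℓ (jSS M ℓ) := by
  rw [h85s_jSS_eq]
  exact h85_ifaceGeneric_fin (M * ℓ) hp A hA

/-- **`IfaceSSGeneric`** for the chart at infinity of level `M * ℓ`. -/
theorem h85s_ifaceSSGeneric_inf {p : ℕ} (hp : p.Prime) (hA : A.LiesOverPrime p) :
    IfaceSSGeneric A M ℓ (jSS M ℓ)⁻¹ := by
  rw [h85s_jSS_eq]
  exact h85_ifaceGeneric_inf (M * ℓ) hp A hA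

end Fermat.Agent.LGC
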