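import Fermat.Agent.LGC.Skeleton
import Fermat.Agent.LGC.SS85Generic
import Fermat.Agent.Red.GGChartAsm
import Fermat.Agent.Red.GateGoodOf

/-!
# W3-LGC: the interfaces `IfaceSSChart` and `IfaceSSNt` at level `M * ℓ` (helper85)

The semistable Gauss ring `ssV A M ℓ` is the integral closure in `FF (M * ℓ)` of (the image of)
the Gauss valuation ring of level `M`.  All statements are formal consequences of the
corresponding statements at level `M`.

* `h85s_inv_isIntegralElem` : (Mathlib only) `1 + m x` is a unit of the integral closure for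
  `m` in the Jacobson radical.
* `h85s_coeff_minpoly_isIntegralElem`, `h85s_qep_transfer` : (Mathlib only) transfer of QEP to
  a field extension through the minimal polynomial.
* `h85s_mem_ssV_iff`, `h85s_mem_chart_iff` : membership through `RingHom.IsIntegralElem`.
* `h85s_hBV`, `h85s_hVunit`, `h85s_hQEP` : the three Gauss fields of `H26Chart`.
* `h85s_ifaceSSNt` : **`IfaceSSNt`**.
* `h85s_ifaceSSChart_fin`, `h85s_ifaceSSChart_inf` : **`IfaceSSChart`** for `t = j`, `1/j`.
-/

set_option autoImplicit false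
set_option linter.unusedSectionVars false
set_option linter.style.haveILetI false

open AlgebraicCurve ModularCurve WithZero IsLocalRing Polynomial

noncomputable section

namespace Fermat.Agent.LGC

/-! ### Mathlib-only lemmas -/

section Abs

variable {K L : Type*} [Field K] [Field L] (α : K →+* L)

/-- pulling back integrality along a field homomorphism. -/
theorem h85s_isIntegralElem_of_comp {R : Type*} [CommRing R] (e : R →+* K) {y : K}
    (h : (α.comp e).IsIntegralElem (α y)) : e.IsIntegralElem y := by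
  obtain ⟨p, hp, hroot⟩ := h
  refine ⟨p, hp, ?_⟩
  have h1 : α (eval₂ e y p) = 0 := by
    rw [hom_eval₂]
    exact hroot
  exact (map_eq_zero α).mp h1

/-- change of the coefficient ring. -/
theorem h85s_isIntegralElem_of_factor {R R' S : Type*} [CommRing R] [CommRing R'] [CommRing S]
    (e : R →+* S) (e' : R' →+* S) (ι : R →+* R') (hι : e'.comp ι = e) {x : S}
    (h : e.IsIntegralElem x) : e'.IsIntegralElem x := by
  obtain ⟨p, hp, hroot⟩ := h
  refine ⟨p.map ι, hp.map _, ?_⟩
  rw [eval₂_map, hι]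
  exact hroot

/-- integrality over the image of a subring. -/
theorem h85s_isIntegral_map_iff {R S : Type*} [CommRing R] [CommRing S] (f : R →+* S)
    (T : Subring R) (x : S) :
    IsIntegral (T.map f) x ↔ (f.comp T.subtype).IsIntegralElem x := by
  constructor
  · rintro ⟨p, hp, hroot⟩
    rcases subsingleton_or_nontrivial (T.map f) with hsub | hnt
    · refine ⟨1, monic_one, ?_⟩
      have h1 : ((1 : T.map f) : S) = ((0 : T.map f) : S) := congrArg _ (Subsingleton.elim _ _)
      have h2 : (1 : S) = 0 := by simpa using h1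
      rw [eval₂_one]
      exact h2
    · set g : T →+* T.map f := (f.comp T.subtype).codRestrict (T.map f)
        (fun y => ⟨y, y.2, rfl⟩) with hg
      have hgs : Function.Surjective g := by
        rintro ⟨y, z, hz, rfl⟩
        exact ⟨⟨z, hz⟩, rfl⟩
      have hl : p ∈ lifts g := (lifts_iff_coeff_lifts p).2 fun n => hgs (p.coeff n)
      obtain ⟨q, hq, -, hqm⟩ := lifts_and_degree_eq_and_monic hl hp
      refine ⟨q, hqm, ?_⟩
      have h3 : eval₂ (algebraMap (T.map f) S) x (q.map g) = 0 := by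
        rw [hq]; exact hroot
      rw [eval₂_map] at h3
      exact h3
  · rintro ⟨q, hqm, hroot⟩
    set g : T →+* T.map f := (f.comp T.subtype).codRestrict (T.map f)
      (fun y => ⟨y, y.2, rfl⟩) with hg
    refine ⟨q.map g, hqm.map _, ?_⟩
    rw [eval₂_map]
    exact hroot

/-- **units `1 + m x` of the integral closure**, `m` in the Jacobson radical. -/
theorem h85s_inv_isIntegralElem {R S : Type*} [CommRing R] [Field S] (e : R →+* S) (m : R)
    (hm : ∀ r : R, IsUnit (1 + m * r)) {x : S} (hx : e.IsIntegralElem x) :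
    e.IsIntegralElem (1 + e m * x)⁻¹ := by
  let _ : Algebra R S := e.toAlgebra
  have hxS : x ∈ integralClosure R S := hx
  set x' : integralClosure R S := ⟨x, hxS⟩ with hx'
  set z : integralClosure R S := 1 + algebraMap R (integralClosure R S) m * x' with hz
  have hzval : (z : S) = 1 + e m * x := rfl
  have hu : IsUnit z := by
    by_contra hnu
    obtain ⟨𝔐, h𝔐, hz𝔐⟩ := exists_max_ideal_of_mem_nonunits (mem_nonunits_iff.mpr hnu)
    have hmax : (𝔐.comap (algebraMap R (integralClosure R S))).IsMaximal :=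
      Ideal.isMaximal_comap_of_isIntegral_of_isMaximal 𝔐
    have hmJ : m ∈ Ideal.jacobson (⊥ : Ideal R) := by
      rw [Ideal.mem_jacobson_bot]
      intro y
      have := hm y
      rwa [add_comm] at this
    have hm𝔐 : m ∈ 𝔐.comap (algebraMap R (integralClosure R S)) := by
      have hle : Ideal.jacobson (⊥ : Ideal R) ≤ 𝔐.comap (algebraMap R (integralClosure R S)) :=
        sInf_le ⟨bot_le, hmax⟩
      exact hle hmJ
    rw [Ideal.mem_comap] at hm𝔐
    have h1 : (1 : integralClosure R S) ∈ 𝔐 := by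
      have h2 := 𝔐.sub_mem hz𝔐 (𝔐.mul_mem_right x' hm𝔐)
      rwa [hz, add_sub_cancel_right] at h2
    exact h𝔐.ne_top ((Ideal.eq_top_iff_one _).mpr h1)
  obtain ⟨u, hu⟩ := hu
  have h3 : (z : S) * ((u⁻¹ : (integralClosure R S)ˣ) : integralClosure R S) = 1 := by
    have h4 : z * ((u⁻¹ : (integralClosure R S)ˣ) : integralClosure R S) = 1 := by
      rw [← hu]; exact u.mul_inv
    exact_mod_cast congrArg (Subtype.val) h4
  have h5 : (1 + e m * x)⁻¹ = (((u⁻¹ : (integralClosure R S)ˣ) : integralClosure R S) : S) := by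
    rw [← hzval]
    exact inv_eq_of_mul_eq_one_right h3
  rw [h5]
  exact ((u⁻¹ : (integralClosure R S)ˣ) : integralClosure R S).2

/-- the coefficients of the minimal polynomial over `K` of an element which is integral over
a ring `R` mapping to `K` are integral over `R`. -/
theorem h85s_coeff_minpoly_isIntegralElem {K L : Type*} [Field K] [Field L] [Algebra K L]
    {R : Type*} [CommRing R] (e : R →+* K) {x : L}
    (hx : ((algebraMap K L).comp e).IsIntegralElem x) (i : ℕ) :
    e.IsIntegralElem ((minpoly K x).coeff i) := by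
  obtain ⟨p, hp, hroot⟩ := hx
  let _ : Algebra R K := e.toAlgebra
  have hxK : IsIntegral K x := by
    refine ⟨p.map e, hp.map _, ?_⟩
    rw [eval₂_map]
    exact hroot
  have hd : minpoly K x ∣ p.map (algebraMap R K) := by
    apply minpoly.dvd
    rw [aeval_def, eval₂_map]
    exact hroot
  have hl := integralClosure.mem_lifts_of_monic_of_dvd_map K hp (minpoly.monic hxK) hd
  rw [lifts_iff_coeff_lifts] at hl
  obtain ⟨c, hc⟩ := hl i
  have h1 : IsIntegral R ((minpoly K x).coeff i) := by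
    rw [← hc]
    exact c.2
  exact h1

/-- **transfer of QEP to an extension.** -/
theorem h85s_qep_transfer
    {RV R₀ : Type*} [CommRing RV] [CommRing R₀] (eV : RV →+* K) (e : R₀ →+* K)
    (a : K) (ha : a ≠ 0)
    (hQ : ∀ c : K, eV.IsIntegralElem c → ∀ k : ℕ, e.IsIntegralElem (c * a ^ k) →
      e.IsIntegralElem c)
    {x : L} (hxV : (α.comp eV).IsIntegralElem x) (hax : (α.comp e).IsIntegralElem (α a * x)) :
    (α.comp e).IsIntegralElem x := by
  let _ : Algebra K L := α.toAlgebra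
  have hαalg : algebraMap K L = α := rfl
  have hxK : IsIntegral K x := by
    obtain ⟨p, hp, hroot⟩ := hxV
    refine ⟨p.map eV, hp.map _, ?_⟩
    rw [eval₂_map]
    exact hroot
  -- coefficients of the minimal polynomial of `x`
  have hcV : ∀ i, eV.IsIntegralElem ((minpoly K x).coeff i) := fun i =>
    h85s_coeff_minpoly_isIntegralElem eV hxV i
  -- the minimal polynomial of `a • x`
  have hsm : minpoly K (a • x) = (minpoly K x).scaleRoots a :=
    IsIntegrallyClosed.minpoly_smul ha hxK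
  have hax' : ((algebraMap K L).comp e).IsIntegralElem (a • x) := by
    rw [Algebra.smul_def]
    exact hax
  have hc₀ : ∀ i, e.IsIntegralElem ((minpoly K x).coeff i) := by
    intro i
    have h1 := h85s_coeff_minpoly_isIntegralElem e hax' i
    rw [hsm, coeff_scaleRoots] at h1
    exact hQ _ (hcV i) _ h1
  -- conclusion
  let _ : Algebra R₀ L := (α.comp e).toAlgebra
  have hmon : (minpoly K x).Monic := minpoly.monic hxK
  have hdeg : ((minpoly K x).map α).natDegree ≠ 0 := by
    rw [natDegree_map]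
    exact (minpoly.natDegree_pos hxK).ne'
  have hfin : IsIntegral R₀ x := by
    refine IsIntegral.of_aeval_monic_of_isIntegral_coeff (p := (minpoly K x).map α)
      (hmon.map _) hdeg ?_ ?_
    · rw [eval_map, ← hαalg, ← aeval_def, minpoly.aeval]
      exact isIntegral_zero
    · intro i
      rw [coeff_map]
      obtain ⟨q, hq, hroot⟩ := hc₀ i
      refine ⟨q, hq, ?_⟩
      show eval₂ (α.comp e) (α ((minpoly K x).coeff i)) q = 0
      rw [← hom_eval₂, hroot, map_zero]
  exact hfin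

end Abs

/-! ### Level `M * ℓ` -/

set_option synthInstance.maxHeartbeats 400000

open Fermat.Agent.S37 Fermat.Agent.Red Fermat.Agent.Red.GG Fermat.Agent.Red.GV
  Fermat.Agent.Red.ModelO

section Level

variable (A : ValuationSubring Kbar) (M ℓ : ℕ) [NeZero M] [NeZero ℓ]

/-- the inclusion `FF M → FF (M * ℓ)` as a ring homomorphism. -/
abbrev h85sα : FF M →+* FF (M * ℓ) := (heckeAlphaBar Kbar M ℓ).toRingHom

theorem h85sα_cst (a : Kbar) : h85sα M ℓ (cst M a) = cst (M * ℓ) a :=
  (heckeAlphaBar Kbar M ℓ).commutes a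

/-- membership of the semistable Gauss ring. -/
theorem h85s_mem_ssV_iff (x : FF (M * ℓ)) :
    x ∈ ssV A M ℓ ↔ ((h85sα M ℓ).comp (gaussV A M).subtype).IsIntegralElem x := by
  rw [mem_ssV_iff]
  exact h85s_isIntegral_map_iff (h85sα M ℓ) (gaussV A M) x

/-- the evaluation at level `M * ℓ`. -/
theorem h85s_ev_comp (t₀ : FF M) :
    h85ev (M * ℓ) A (h85sα M ℓ t₀) = (h85sα M ℓ).comp (h85ev M A t₀) := by
  apply Polynomial.ringHom_ext
  · intro a
    rw [h85ev_C, RingHom.comp_apply, h85ev_C]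
    exact (h85sα_cst M ℓ _).symm
  · rw [h85ev_X, RingHom.comp_apply, h85ev_X]

/-- membership of the charts of level `M * ℓ`. -/
theorem h85s_mem_chart_iff (t₀ : FF M) (x : FF (M * ℓ)) :
    x ∈ chart (M * ℓ) A (h85sα M ℓ t₀) ↔
      ((h85sα M ℓ).comp (h85ev M A t₀)).IsIntegralElem x := by
  rw [mem_chart, h85_mem_modelAt_iff_isIntegralElem, h85s_ev_comp]

/-- the Gauss ring of level `M` is integrally closed. -/
theorem h85s_gaussV_closed {p : ℕ} (hp : p.Prime) (hM : ¬ p ∣ M) (hA : A.LiesOverPrime p)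
    (c : FF M) (hc : (gaussV A M).subtype.IsIntegralElem c) : c ∈ gaussV A M := by
  set W : ValuationSubring (FF M) :=
    { gaussV A M with mem_or_inv_mem' := mem_or_inv_mem_gaussV A M hp hM hA } with hW
  have h1 : IsIntegral W c := hc
  obtain ⟨y, hy⟩ := IsIntegrallyClosed.isIntegral_iff.mp h1
  rw [← hy]
  exact y.2

/-- **`IfaceSSNt`**: `1 ∉ 𝔪_A · ssV`. -/
theorem h85s_ifaceSSNt {p : ℕ} (hp : p.Prime) (hM : ¬ p ∣ M) (hA : A.LiesOverPrime p) :
    IfaceSSNt A M ℓ := by
  intro m hm x hx h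
  have h1 : cst (M * ℓ) (m : Kbar) * x = 1 := h
  have hm0 : cst (M * ℓ) (m : Kbar) ≠ 0 := by
    intro h0
    rw [h0, zero_mul] at h1
    exact zero_ne_one h1
  have hx' : x = h85sα M ℓ (cst M (m : Kbar))⁻¹ := by
    rw [map_inv₀, h85sα_cst]
    exact eq_inv_of_mul_eq_one_right h1
  rw [h85s_mem_ssV_iff, hx'] at hx
  have h2 := h85s_gaussV_closed A M hp hM hA _ (h85s_isIntegralElem_of_comp (h85sα M ℓ) _ hx)
  refine hVnt_gaussV M A hA m hm _ h2 ?_
  show cst M (m : Kbar) * (cst M (m : Kbar))⁻¹ = 1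
  refine mul_inv_cancel₀ ?_
  intro h0
  apply hm0
  rw [← h85sα_cst M ℓ, h0, map_zero]

/-- **hVunit** for the semistable Gauss ring. -/
theorem h85s_hVunit {p : ℕ} (hp : p.Prime) (hM : ¬ p ∣ M) (hA : A.LiesOverPrime p) :
    ∀ m ∈ maximalIdeal A, ∀ x ∈ ssV A M ℓ,
      (1 + algebraMap A (FF (M * ℓ)) m * x)⁻¹ ∈ ssV A M ℓ := by
  intro m hm x hx
  rw [h85s_mem_ssV_iff] at hx ⊢
  have hmV : cst M (m : Kbar) ∈ gaussV A M := (cst_mem_gaussV_iff A M hA _).2 m.2
  have key := h85s_inv_isIntegralElem ((h85sα M ℓ).comp (gaussV A M).subtype)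
    (⟨cst M (m : Kbar), hmV⟩ : gaussV A M) ?_ hx
  · have h1 : ((h85sα M ℓ).comp (gaussV A M).subtype) ⟨cst M (m : Kbar), hmV⟩
        = algebraMap A (FF (M * ℓ)) m := h85sα_cst M ℓ _
    rwa [h1] at key
  · intro r
    have h2 := GGC97_hVunit hp hM hA m hm (r : FF M) r.2
    have h3 : (1 + cst M (m : Kbar) * (r : FF M)) ∈ gaussV A M :=
      add_mem (one_mem _) (mul_mem hmV r.2)
    have h4 : (1 + cst M (m : Kbar) * (r : FF M)) ≠ 0 := by
      intro h0
      have h5 : cst M (m : Kbar) * (-(r : FF M)) = 1 := by linear_combination -h0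
      exact hVnt_gaussV M A hA m hm _ (neg_mem r.2) h5
    refine ⟨⟨⟨_, h3⟩, ⟨_, h2⟩, ?_, ?_⟩, rfl⟩
    · apply Subtype.ext
      show (1 + cst M (m : Kbar) * (r : FF M)) * (1 + cst M (m : Kbar) * (r : FF M))⁻¹ = 1
      exact mul_inv_cancel₀ h4
    · apply Subtype.ext
      show (1 + cst M (m : Kbar) * (r : FF M))⁻¹ * (1 + cst M (m : Kbar) * (r : FF M)) = 1
      exact inv_mul_cancel₀ h4

/-- **hBV** at level `M * ℓ`: a chart whose coordinate comes from the Gauss ring of level `M`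
is contained in the semistable Gauss ring. -/
theorem h85s_hBV {p : ℕ} (hA : A.LiesOverPrime p) (t₀ : FF M) (ht₀ : t₀ ∈ gaussV A M) :
    ∀ x ∈ chart (M * ℓ) A (h85sα M ℓ t₀), x ∈ ssV A M ℓ := by
  intro x hx
  rw [h85s_mem_chart_iff] at hx
  rw [h85s_mem_ssV_iff]
  have hr : ∀ P : Polynomial A, h85ev M A t₀ P ∈ gaussV A M := by
    intro P
    induction P using Polynomial.induction_on' with
    | add p q hp hq =>
      rw [map_add]
      exact add_mem hp hq
    | monomial n a =>
      rw [← C_mul_X_pow_eq_monomial, map_mul, map_pow, h85ev_C, h85ev_X]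
      exact mul_mem ((cst_mem_gaussV_iff A M hA _).2 a.2) (pow_mem ht₀ n)
  refine h85s_isIntegralElem_of_factor _ _ ((h85ev M A t₀).codRestrict (gaussV A M) hr) ?_ hx
  rfl

/-- **hQEP** at level `M * ℓ`, from QEP at level `M`. -/
theorem h85s_hQEP {p : ℕ} (hp : p.Prime) (hM : ¬ p ∣ M) (hA : A.LiesOverPrime p) (t₀ : FF M)
    (hQ : ∀ a : A, algebraMap A (FF M) a ≠ 0 → ∀ x ∈ gaussV A M,
      a • x ∈ chart M A t₀ → x ∈ chart M A t₀) :
    ∀ a : A, algebraMap A (FF (M * ℓ)) a ≠ 0 → ∀ x ∈ ssV A M ℓ,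
      a • x ∈ chart (M * ℓ) A (h85sα M ℓ t₀) → x ∈ chart (M * ℓ) A (h85sα M ℓ t₀) := by
  intro a ha x hx hax
  rw [h85s_mem_ssV_iff] at hx
  rw [h85s_mem_chart_iff] at hax ⊢
  have ha0 : cst M (a : Kbar) ≠ 0 := by
    intro h0
    apply ha
    show cst (M * ℓ) (a : Kbar) = 0
    rw [← h85sα_cst M ℓ, h0, map_zero]
  refine h85s_qep_transfer (h85sα M ℓ) (gaussV A M).subtype (h85ev M A t₀)
    (cst M (a : Kbar)) ha0 ?_ hx ?_
  · intro c hc k hck
    have hcV : c ∈ gaussV A M := h85s_gaussV_closed A M hp hM hA c hc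
    rw [← h85_mem_modelAt_iff_isIntegralElem] at hck ⊢
    have hak : algebraMap A (FF M) (a ^ k) ≠ 0 := by
      rw [map_pow]
      exact pow_ne_zero _ ha0
    refine hQ (a ^ k) hak c hcV ?_
    rw [mem_chart]
    have h1 : (a ^ k) • c = c * cst M (a : Kbar) ^ k := by
      rw [Algebra.smul_def, map_pow, mul_comm]
      rfl
    rw [h1]
    exact hck
  · have h2 : h85sα M ℓ (cst M (a : Kbar)) * x = a • x := by
      rw [h85sα_cst, Algebra.smul_def]
      rfl
    rw [h2]
    exact hax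

end Level

/-! ### The interface `IfaceSSChart` -/

section Iface

variable (A : ValuationSubring Kbar) (M ℓ : ℕ) [NeZero M] [NeZero ℓ]

theorem h85s_jSS_eq_α : jSS M ℓ = h85sα M ℓ (jB M) := rfl

theorem h85s_jSS_inv_eq_α : (jSS M ℓ)⁻¹ = h85sα M ℓ (jB M)⁻¹ := by
  rw [map_inv₀]
  rfl

theorem h85s_transcendental_jSS : Transcendental Kbar (jSS M ℓ) := by
  rw [h85s_jSS_eq]
  exact GGC97_transcendental_jB (M * ℓ)

theorem h85s_transcendental_jSS_inv : Transcendental Kbar (jSS M ℓ)⁻¹ := by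
  rw [h85s_jSS_eq]
  exact GGC97_transcendental_jB_inv (M * ℓ)

/-- **`IfaceSSChart`** for the finite chart of level `M * ℓ`. -/
theorem h85s_ifaceSSChart_fin {p : ℕ} (hp : p.Prime) (hM : ¬ p ∣ M) (hA : A.LiesOverPrime p) :
    IfaceSSChart A M ℓ (jSS M ℓ) where
  hfin := GGC97_hfin (M * ℓ) (jSS M ℓ)
  hint := fun f hf => h18c_hint (M * ℓ) A (jSS M ℓ) f hf
  hB := GGC97_hB (M * ℓ) A (jSS M ℓ)
  hunif := GGC97_hunif A (jSS M ℓ) (h85s_transcendental_jSS M ℓ)
  hinj := GGC97_hinj A (jSS M ℓ) (h85s_transcendental_jSS M ℓ)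
  hBV := by
    rw [h85s_jSS_eq_α]
    exact h85s_hBV A M ℓ hA (jB M) (GGC97_hBV_fin hp hM hA _ (h85_jB_mem_modelFin M A))
  hVunit := h85s_hVunit A M ℓ hp hM hA
  hQEP := by
    rw [h85s_jSS_eq_α]
    exact h85s_hQEP A M ℓ hp hM hA (jB M) (GGC97_hQEP_fin hp hM hA)

/-- **`IfaceSSChart`** for the chart at infinity of level `M * ℓ`. -/
theorem h85s_ifaceSSChart_inf {p : ℕ} (hp : p.Prime) (hM : ¬ p ∣ M) (hA : A.LiesOverPrime p) :
    IfaceSSChart A M ℓ (jSS M ℓ)⁻¹ where
  hfin := GGC97_hfin (M * ℓ) (jSS M ℓ)⁻¹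
  hint := fun f hf => h18c_hint (M * ℓ) A (jSS M ℓ)⁻¹ f hf
  hB := GGC97_hB (M * ℓ) A (jSS M ℓ)⁻¹
  hunif := GGC97_hunif A (jSS M ℓ)⁻¹ (h85s_transcendental_jSS_inv M ℓ)
  hinj := GGC97_hinj A (jSS M ℓ)⁻¹ (h85s_transcendental_jSS_inv M ℓ)
  hBV := by
    rw [h85s_jSS_inv_eq_α]
    exact h85s_hBV A M ℓ hA (jB M)⁻¹ (GGC97_hBV_inf hp hM hA _ (h85_jB_inv_mem_modelInf M A))
  hVunit := h85s_hVunit A M ℓ hp hM hA
  hQEP := by
    rw [h85s_jSS_inv_eq_α]
    exact h85s_hQEP A M ℓ hp hM hA (jB M)⁻¹ (GGC97_hQEP_inf hp hM hA)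

end Iface

end Fermat.Agent.LGC
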