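import Fermat.Agent.LGC.Cusp21Ord
import Fermat.Agent.LGC.SS85Chart
import Fermat.Agent.LGC.Red63
import Fermat.Agent.LGC.Res44
import Fermat.Agent.Red.GGChart
import Fermat.Agent.Red.KR.MEAlpha

/-!
# W3-LGC, SS-LOCAL at the cusps (helper21): the function `y = j(q^ℓ) / j^ℓ`

Level `N = M ℓ`, `t = 1/j`, `U = 1/j(q^ℓ)`, `B = chart (M ℓ) A t` the chart at infinity,
`W_∞ = softV A (M ℓ)`, `W_0 = w⁻¹ W_∞`.

* `h21c_y M ℓ = j(q^ℓ) · t^ℓ = t^ℓ / U` is regular at all places at which `t` is regular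
  (`h21c_y_regular`, from the orders at the cusps), lies in the semistable Gauss ring and hence
  in `B` (`h21c_y_mem_chart`);
* `1 - y ∈ 𝔪(W_∞)` and `y^ℓ - t^(ℓ²-1) ∈ 𝔪(W_0)` (`h21c_soft_facts`): `y` separates the two
  kinds of cusps on the special fibre;
* `h21c_mem_mExt` : REDUCED in ideal form: `B ∩ 𝔪(W_∞) ∩ 𝔪(W_0) ⊆ 𝔪_A B`.
-/

set_option autoImplicit false
set_option linter.style.haveILetI false
set_option linter.unusedSectionVars false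
set_option synthInstance.maxHeartbeats 400000

open AlgebraicCurve ModularCurve WithZero IsLocalRing Polynomial

noncomputable section

namespace Fermat.Agent.LGC

open Fermat.Agent.S37 Fermat.Agent.Red Fermat.Agent.Red.GG Fermat.Agent.Red.GV
  Fermat.Agent.Red.GV.Soft Fermat.Agent.Red.Kron

variable (A : ValuationSubring Kbar) (M ℓ : ℕ) [NeZero M] [NeZero ℓ]

/-- `y = j(q^ℓ) · (1/j)^ℓ`. -/
def h21c_y : FF (M * ℓ) := heckeBetaBar Kbar M ℓ (jB M) * h21c_t M ℓ ^ ℓ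

theorem h21c_jSS_eq : jSS M ℓ = jB (M * ℓ) := Fermat.Agent.Red.HKMod.heckeAlphaBar_jBar M ℓ

theorem h21c_jSS_inv_eq : (jSS M ℓ)⁻¹ = h21c_t M ℓ := by
  rw [h21c_jSS_eq]
  rfl

theorem h21c_t_eq_alpha : h21c_t M ℓ = heckeAlphaBar Kbar M ℓ (jB M)⁻¹ := by
  rw [map_inv₀, ← h21c_jSS_inv_eq]
  rfl

theorem h21c_U_eq_beta : h21c_U M ℓ = heckeBetaBar Kbar M ℓ (jB M)⁻¹ := by
  rw [map_inv₀]
  rfl

theorem h21c_y_eq : h21c_y M ℓ = (h21c_U M ℓ)⁻¹ * h21c_t M ℓ ^ ℓ := by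
  rw [h21c_y, h21c_U, inv_inv]

theorem h21c_y_ne_zero : h21c_y M ℓ ≠ 0 :=
  mul_ne_zero (h21c_beta_jB_ne_zero M ℓ) (pow_ne_zero _ (h21c_t_ne_zero M ℓ))

/-! ### Regularity at the chart places -/

omit [NeZero M] [NeZero ℓ] in
theorem h21c_ord_nonneg_iff {N : ℕ} [NeZero N] (v : Place Kbar (FF N)) {f : FF N}
    (hf : f ≠ 0) :
    0 ≤ v.ord f ↔ f ∈ v.toValuationSubring := by
  rw [← GGC97_le_one_iff, Place.adicValuation_eq_exp_neg_ord _ hf]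
  have h1 : (1 : ℤᵐ⁰) = exp (0 : ℤ) := rfl
  rw [h1, exp_le_exp]
  constructor <;> intro h <;> omega

theorem h21c_ord_y (P : Place Kbar (FF (M * ℓ))) :
    P.ord (h21c_y M ℓ) = -P.ord (h21c_U M ℓ) + ℓ * P.ord (h21c_t M ℓ) := by
  rw [h21c_y_eq, Place.ord_mul _ (inv_ne_zero (h21c_U_ne_zero M ℓ))
    (pow_ne_zero _ (h21c_t_ne_zero M ℓ)), Place.ord_inv, ← zpow_natCast, Place.ord_zpow]

/-- `y` is regular at every place at which `t = 1/j` is regular. -/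
theorem h21c_y_mem_place (hℓ : ℓ.Prime) (hM : ¬ ℓ ∣ M) (hA : A.LiesOverPrime ℓ)
    (P : Place Kbar (FF (M * ℓ))) (hP : h21c_t M ℓ ∈ P.toValuationSubring) :
    h21c_y M ℓ ∈ P.toValuationSubring := by
  have ht0 : 0 ≤ P.ord (h21c_t M ℓ) := (h21c_ord_nonneg_iff P (h21c_t_ne_zero M ℓ)).mpr hP
  have hℓpos : (0 : ℤ) < ℓ := by exact_mod_cast hℓ.pos
  rcases ht0.lt_or_eq with hpos | hzero
  · -- a cusp
    rw [← h21c_ord_nonneg_iff P (h21c_y_ne_zero M ℓ), h21c_ord_y]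
    have hUpos := h21c_cusp_ord_pos M ℓ hℓ P hpos
    rcases h21c_cusp_ord M ℓ hℓ P hpos with h | h
    · rw [h]
      omega
    · rw [h]
      have h1 : (1 : ℤ) ≤ ℓ := hℓpos
      nlinarith
  · -- `j` is regular at `P`
    have hj : jB (M * ℓ) ∈ P.toValuationSubring := by
      rw [← h21c_ord_nonneg_iff P (h21c_jB_ne_zero (M * ℓ))]
      have h1 : P.ord (jB (M * ℓ)) = -P.ord (h21c_t M ℓ) := by
        rw [h21c_t, Place.ord_inv, neg_neg]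
      rw [h1, ← hzero]
      norm_num
    have hβ : heckeBetaBar Kbar M ℓ (jB M) ∈ modelAt (M * ℓ) A (jB (M * ℓ)) :=
      Fermat.Agent.Red.KR.meAlpha M ℓ hℓ hM A hA
    have hβP : heckeBetaBar Kbar M ℓ (jB M) ∈ P.toValuationSubring :=
      (ModelO.h85_mem_modelAt_iff_forall (M * ℓ) A _ _).1 hβ P.toValuationSubring
        (fun a _ => P.algebraMap_mem' a) hj
    exact mul_mem hβP (pow_mem hP ℓ)

theorem h21c_y_regular (hℓ : ℓ.Prime) (hM : ¬ ℓ ∣ M) (hA : A.LiesOverPrime ℓ)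
    (i : ChartPlace (M * ℓ) (jSS M ℓ)⁻¹) :
    chartVal (M * ℓ) (jSS M ℓ)⁻¹ i (h21c_y M ℓ) ≤ 1 := by
  obtain ⟨P, hP⟩ := i
  show P.adicValuation (h21c_y M ℓ) ≤ 1
  rw [GGC97_le_one_iff]
  refine h21c_y_mem_place A M ℓ hℓ hM hA P ?_
  rw [← h21c_jSS_inv_eq]
  exact hP

/-! ### Reductions -/

/-- the soft reductions of `y`: `1 - y ∈ 𝔪(W_∞)`, `y^ℓ - t^(ℓ²-1) ∈ 𝔪(W_0)`. -/
theorem h21c_soft_facts (hℓ : ℓ.Prime) (hM : ¬ ℓ ∣ M) (hA : A.LiesOverPrime ℓ) :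
    h21c_y M ℓ ∈ softV A (M * ℓ) ∧ kFricke M ℓ hℓ hM (h21c_y M ℓ) ∈ softV A (M * ℓ) ∧
    h21c_t M ℓ ∈ softV A (M * ℓ) ∧ kFricke M ℓ hℓ hM (h21c_t M ℓ) ∈ softV A (M * ℓ) ∧
    1 - h21c_y M ℓ ∈ (softRing A (M * ℓ) hℓ hA).nonunits ∧
    kFricke M ℓ hℓ hM (h21c_y M ℓ ^ ℓ - h21c_t M ℓ ^ (ℓ * ℓ - 1)) ∈
      (softRing A (M * ℓ) hℓ hA).nonunits := by
  haveI : Fact ℓ.Prime := ⟨hℓ⟩
  haveI : CharP (IsLocalRing.ResidueField A) ℓ :=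
    Base.h80_charP A (IsLocalRing.residue A) ℓ (isResidueMap_residue A ℓ hA)
  haveI : ExpChar (IsLocalRing.ResidueField A) ℓ := ExpChar.prime hℓ
  obtain ⟨r, hr⟩ : ∃ r, r = jqModC (IsLocalRing.ResidueField A) := ⟨_, rfl⟩
  have hj : jB M ∈ softV A M := gaussV_le_softV A M (jB_mem_gaussV A M)
  have hrj : softR A M ⟨jB M, hj⟩ = r := by rw [hr]; exact h44r_softR_jB A M hj
  have hpow : r ^ ℓ = qExpand _ ℓ r := by rw [hr]; exact h44r_jqModC_pow _ ℓ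
  have hjinv : (jB M)⁻¹ ∈ softV A M :=
    gaussV_le_softV A M (GGC97_hBV_inf hℓ hM hA _ (ModelO.h85_jB_inv_mem_modelInf M A))
  have hr0 : r ≠ 0 := by
    rw [← hrj]
    exact (softR_ne_zero_iff A M ⟨jB M, hj⟩).mpr ⟨h21c_jB_ne_zero M, hjinv⟩
  have hρ0 : r ^ ℓ ≠ 0 := pow_ne_zero _ hr0
  have hrjinv : softR A M ⟨(jB M)⁻¹, hjinv⟩ = r⁻¹ := by
    have e : (⟨jB M, hj⟩ : softV A M) * ⟨(jB M)⁻¹, hjinv⟩ = 1 :=
      Subtype.ext (mul_inv_cancel₀ (h21c_jB_ne_zero M))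
    have h1 := congrArg (softR A M) e
    rw [map_mul, map_one, hrj] at h1
    exact eq_inv_of_mul_eq_one_right h1
  -- level `M ℓ`
  have haj : heckeAlphaBar Kbar M ℓ (jB M) ∈ softV A (M * ℓ) :=
    (alpha_mem_softV_iff A ℓ _).mpr hj
  have hbj : heckeBetaBar Kbar M ℓ (jB M) ∈ softV A (M * ℓ) := beta_mem_softV A ℓ _ hj
  have hraj : softR A (M * ℓ) ⟨_, haj⟩ = r := (softR_alpha A ℓ ⟨_, hj⟩ haj).trans hrj
  have hrbj : softR A (M * ℓ) ⟨_, hbj⟩ = r ^ ℓ := by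
    rw [softR_beta A ℓ ⟨_, hj⟩ hbj, hrj, hpow]
  have hat : heckeAlphaBar Kbar M ℓ (jB M)⁻¹ ∈ softV A (M * ℓ) :=
    (alpha_mem_softV_iff A ℓ _).mpr hjinv
  have hbt : heckeBetaBar Kbar M ℓ (jB M)⁻¹ ∈ softV A (M * ℓ) := beta_mem_softV A ℓ _ hjinv
  have hrat : softR A (M * ℓ) ⟨_, hat⟩ = r⁻¹ := (softR_alpha A ℓ ⟨_, hjinv⟩ hat).trans hrjinv
  have hrbt : softR A (M * ℓ) ⟨_, hbt⟩ = (r ^ ℓ)⁻¹ := by
    rw [softR_beta A ℓ ⟨_, hjinv⟩ hbt, hrjinv, map_inv₀, ← hpow]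
  have ht : h21c_t M ℓ ∈ softV A (M * ℓ) := by rw [h21c_t_eq_alpha]; exact hat
  have hwt_eq : kFricke M ℓ hℓ hM (h21c_t M ℓ) = heckeBetaBar Kbar M ℓ (jB M)⁻¹ := by
    rw [h21c_kFricke_t, h21c_U_eq_beta]
  have hwt : kFricke M ℓ hℓ hM (h21c_t M ℓ) ∈ softV A (M * ℓ) := by rw [hwt_eq]; exact hbt
  have hy_eq : h21c_y M ℓ =
      heckeBetaBar Kbar M ℓ (jB M) * heckeAlphaBar Kbar M ℓ (jB M)⁻¹ ^ ℓ := by
    rw [h21c_y, h21c_t_eq_alpha]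
  have hy : h21c_y M ℓ ∈ softV A (M * ℓ) := by
    rw [hy_eq]
    exact mul_mem hbj (pow_mem hat ℓ)
  have hwy_eq : kFricke M ℓ hℓ hM (h21c_y M ℓ) =
      heckeAlphaBar Kbar M ℓ (jB M) * heckeBetaBar Kbar M ℓ (jB M)⁻¹ ^ ℓ := by
    rw [hy_eq, map_mul, map_pow, kFricke_beta, kFricke_alpha]
  have hwy : kFricke M ℓ hℓ hM (h21c_y M ℓ) ∈ softV A (M * ℓ) := by
    rw [hwy_eq]
    exact mul_mem haj (pow_mem hbt ℓ)
  refine ⟨hy, hwy, ht, hwt, ?_, ?_⟩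
  · -- `1 - y`
    have h1 : 1 - h21c_y M ℓ ∈ softV A (M * ℓ) := sub_mem (one_mem _) hy
    have e1 : (⟨_, h1⟩ : softV A (M * ℓ)) = 1 - ⟨_, hbj⟩ * ⟨_, hat⟩ ^ ℓ :=
      Subtype.ext (by
        show 1 - h21c_y M ℓ = 1 - heckeBetaBar Kbar M ℓ (jB M) *
          heckeAlphaBar Kbar M ℓ (jB M)⁻¹ ^ ℓ
        rw [hy_eq])
    rw [← softR_eq_zero_iff_mem_nonunits A (M * ℓ) hℓ hA ⟨_, h1⟩, e1, map_sub, map_one, map_mul,
      map_pow, hrbj, hrat, inv_pow, mul_inv_cancel₀ hρ0, sub_self]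
  · -- `w (y^ℓ - t^(ℓ²-1))`
    have hk : ℓ * ℓ - 1 + 1 = ℓ * ℓ :=
      Nat.sub_add_cancel (Nat.mul_pos hℓ.pos hℓ.pos)
    have h2_eq : kFricke M ℓ hℓ hM (h21c_y M ℓ ^ ℓ - h21c_t M ℓ ^ (ℓ * ℓ - 1)) =
        (heckeAlphaBar Kbar M ℓ (jB M) * heckeBetaBar Kbar M ℓ (jB M)⁻¹ ^ ℓ) ^ ℓ -
          heckeBetaBar Kbar M ℓ (jB M)⁻¹ ^ (ℓ * ℓ - 1) := by
      rw [map_sub, map_pow, map_pow, hwy_eq, hwt_eq]
    have h2 : kFricke M ℓ hℓ hM (h21c_y M ℓ ^ ℓ - h21c_t M ℓ ^ (ℓ * ℓ - 1)) ∈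
        softV A (M * ℓ) := by
      rw [h2_eq]
      exact sub_mem (pow_mem (mul_mem haj (pow_mem hbt ℓ)) ℓ) (pow_mem hbt _)
    have e2 : (⟨_, h2⟩ : softV A (M * ℓ)) =
        (⟨_, haj⟩ * ⟨_, hbt⟩ ^ ℓ) ^ ℓ - ⟨_, hbt⟩ ^ (ℓ * ℓ - 1) :=
      Subtype.ext h2_eq
    have h3 : ((r ^ ℓ)⁻¹) ^ (ℓ * ℓ) = ((r ^ ℓ)⁻¹) ^ (ℓ * ℓ - 1) * (r ^ ℓ)⁻¹ := by
      rw [← pow_succ, hk]
    rw [← softR_eq_zero_iff_mem_nonunits A (M * ℓ) hℓ hA ⟨_, h2⟩, e2, map_sub, map_pow, map_mul,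
      map_pow, map_pow, hraj, hrbt, sub_eq_zero, mul_pow, ← pow_mul, h3,
      mul_comm (((r ^ ℓ)⁻¹) ^ (ℓ * ℓ - 1)), ← mul_assoc, mul_inv_cancel₀ hρ0, one_mul]

/-! ### `y` lies in the chart -/

theorem h21c_y_mem_ssV (hℓ : ℓ.Prime) (hM : ¬ ℓ ∣ M) (hA : A.LiesOverPrime ℓ) :
    h21c_y M ℓ ∈ ssV A M ℓ := by
  obtain ⟨hy, hwy, -⟩ := h21c_soft_facts A M ℓ hℓ hM hA
  exact (h63r_mem_ssV_iff hℓ hM hA _).mpr ⟨hy, hwy⟩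

theorem h21c_y_mem_chart (hℓ : ℓ.Prime) (hM : ¬ ℓ ∣ M) (hA : A.LiesOverPrime ℓ) :
    h21c_y M ℓ ∈ chart (M * ℓ) A (jSS M ℓ)⁻¹ := by
  have hC : IfaceSSChart A M ℓ (jSS M ℓ)⁻¹ := h85s_ifaceSSChart_inf A M ℓ hℓ hM hA
  obtain ⟨a, ha, hay⟩ := hC.hint (h21c_y M ℓ) (h21c_y_regular A M ℓ hℓ hM hA)
  exact hC.hQEP a ha _ (h21c_y_mem_ssV A M ℓ hℓ hM hA) hay

/-! ### REDUCED, ideal form -/

/-- an element of the chart which is a non-unit of both Gauss valuation rings lies in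
`𝔪_A B`. -/
theorem h21c_mem_mExt (hℓ : ℓ.Prime) (hM : ¬ ℓ ∣ M) (hA : A.LiesOverPrime ℓ)
    (c : chart (M * ℓ) A (jSS M ℓ)⁻¹)
    (h1 : (c : FF (M * ℓ)) ∈ (softRing A (M * ℓ) hℓ hA).nonunits)
    (h2 : kFricke M ℓ hℓ hM (c : FF (M * ℓ)) ∈ (softRing A (M * ℓ) hℓ hA).nonunits) :
    c ∈ mExt A M ℓ (jSS M ℓ)⁻¹ := by
  have hC : IfaceSSChart A M ℓ (jSS M ℓ)⁻¹ := h85s_ifaceSSChart_inf A M ℓ hℓ hM hA
  obtain ⟨π, hπ, hπ0, z, hz, e⟩ := h63r_scale hℓ hM hA h1 h2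
  have hπF : algebraMap A (FF (M * ℓ)) π ≠ 0 := by
    intro h0
    apply hπ0
    have h3 : cst (M * ℓ) (π : Kbar) = 0 := h0
    have h4 : (π : Kbar) = 0 :=
      (algebraMap Kbar (FF (M * ℓ))).injective (h3.trans (map_zero _).symm)
    exact Subtype.ext h4
  have hzB : z ∈ chart (M * ℓ) A (jSS M ℓ)⁻¹ := by
    refine hC.hQEP π hπF z hz ?_
    rw [Algebra.smul_def, ← e]
    exact c.2
  have e' : c = algebraMap A (chart (M * ℓ) A (jSS M ℓ)⁻¹) π * ⟨z, hzB⟩ := Subtype.ext e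
  rw [e']
  exact Ideal.mul_mem_right _ _ (Ideal.mem_map_of_mem _ hπ)

end Fermat.Agent.LGC
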