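import Fermat.Agent.LGC.Cusp21Abs
import Fermat.Agent.LGC.Cusp21Y
import Fermat.Agent.LGC.H31Overlap
import Fermat.Agent.Red.KR.Nbr
import Fermat.Agent.Red.KR.Reflect
import Fermat.Agent.S18.ResAlgClosed

/-!
# W3-LGC, SS-LOCAL at the cusps (helper21): the cusps of the chart at infinity are smooth points

Level `N = M ℓ`, `B = chart (M ℓ) A (1/j)`, `Λ = chart M A (1/j)`, `𝔫` a maximal ideal of `B`
over `𝔪_A` which contains `1/j` (a cusp of the special fibre).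

* `h21c_hres` : the residue field at a cusp is `A ⧸ 𝔪_A`;
* `h21c_exists_mult` : `β (Λ) ⊆ B[1/S]`, `S = s(1/j)`, `s(0) = 1` (so `β (Λ) ⊆ B_𝔫`);
* `h21c_cusp_datum` : **the cusp case of `IfaceSSLocal`** for the chart at infinity, from the
  local parameters of level `M` (`GG.IfaceLocalUnif M A (jB M)⁻¹`) and the two residue
  statements `H21SurjInf`, `H21SurjZero` (the chart at infinity of level `M ℓ` is
  `α (Λ) + 𝔪(W_∞)`, and its image under `w` is `α (Λ) + 𝔪(W_∞)`);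
* `h21c_ifaceSSLocal_inv` : `IfaceSSLocal` for the chart at infinity from `IfaceSSLocal` for the
  finite chart (helper31's overlap transfer) and the cusp case.
-/

set_option autoImplicit false
set_option linter.style.haveILetI false
set_option linter.unusedSectionVars false
set_option synthInstance.maxHeartbeats 400000

open AlgebraicCurve ModularCurve WithZero IsLocalRing Polynomial

noncomputable section

namespace Fermat.Agent.LGC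

open Fermat.Agent.S37 Fermat.Agent.Red Fermat.Agent.Red.GG Fermat.Agent.Red.GV
  Fermat.Agent.Red.GV.Soft Fermat.Agent.Red.Kron Fermat.Agent.Red.ModelO

/-! ### The residue field at a point of the special fibre at which `t` vanishes -/

section Res

variable (A : ValuationSubring Kbar) (N : ℕ) (t : FF N)

/-- the evaluation at `t` inside the chart. -/
def h21c_evB : Polynomial A →+* chart N A t :=
  (Polynomial.aeval (⟨t, h85_self_mem_modelAt N A t⟩ : chart N A t)).toRingHom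

theorem h21c_evB_C (a : A) : h21c_evB A N t (C a) = algebraMap A (chart N A t) a := by
  simp [h21c_evB]

theorem h21c_evB_X : h21c_evB A N t X = ⟨t, h85_self_mem_modelAt N A t⟩ := by
  simp [h21c_evB]

theorem h21c_val_comp_evB :
    ((chart N A t).val : chart N A t →+* FF N).comp (h21c_evB A N t) = h85ev N A t := by
  apply Polynomial.ringHom_ext
  · intro a
    rw [RingHom.comp_apply, h21c_evB_C, h85ev_C]
    rfl
  · rw [RingHom.comp_apply, h21c_evB_X, h85ev_X]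
    rfl

/-- **the residue field at a cusp**: every element of the chart is congruent to a constant
modulo a maximal ideal over `𝔪_A` which contains `t`. -/
theorem h21c_hres (𝔫 : Ideal (chart N A t)) (h𝔫 : 𝔫.IsMaximal)
    (hm : (maximalIdeal A).map (algebraMap A (chart N A t)) ≤ 𝔫)
    (ht : (⟨t, h85_self_mem_modelAt N A t⟩ : chart N A t) ∈ 𝔫) (b : chart N A t) :
    ∃ a : A, b - algebraMap A (chart N A t) a ∈ 𝔫 := by
  classical
  letI : Field (chart N A t ⧸ 𝔫) := Ideal.Quotient.field 𝔫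
  haveI : IsAlgClosed (IsLocalRing.ResidueField A) := Fermat.Agent.S18.residueAlgClosed Kbar A
  set mk : chart N A t →+* chart N A t ⧸ 𝔫 := Ideal.Quotient.mk 𝔫 with hmk
  set g : A →+* (chart N A t ⧸ 𝔫) := mk.comp (algebraMap A (chart N A t)) with hg
  have hg0 : ∀ a ∈ maximalIdeal A, g a = 0 := fun a ha =>
    Ideal.Quotient.eq_zero_iff_mem.mpr (hm (Ideal.mem_map_of_mem _ ha))
  let gbar : IsLocalRing.ResidueField A →+* (chart N A t ⧸ 𝔫) :=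
    Ideal.Quotient.lift (maximalIdeal A) g hg0
  have hgbar : ∀ a : A, gbar (IsLocalRing.residue A a) = g a := fun a =>
    Ideal.Quotient.lift_mk (maximalIdeal A) g hg0
  letI : Algebra (IsLocalRing.ResidueField A) (chart N A t ⧸ 𝔫) := gbar.toAlgebra
  have hcomp : ((gbar.comp (IsLocalRing.residue A)).comp
      (Polynomial.constantCoeff : Polynomial A →+* A)) = mk.comp (h21c_evB A N t) := by
    apply Polynomial.ringHom_ext
    · intro a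
      show gbar (IsLocalRing.residue A (Polynomial.constantCoeff (C a))) =
        mk (h21c_evB A N t (C a))
      rw [Polynomial.constantCoeff_apply, Polynomial.coeff_C_zero, hgbar, h21c_evB_C]
      rfl
    · show gbar (IsLocalRing.residue A (Polynomial.constantCoeff X)) =
        mk (h21c_evB A N t X)
      rw [Polynomial.constantCoeff_apply, Polynomial.coeff_X_zero, map_zero, map_zero,
        h21c_evB_X]
      exact (Ideal.Quotient.eq_zero_iff_mem.mpr ht).symm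
  haveI hint : Algebra.IsIntegral (IsLocalRing.ResidueField A) (chart N A t ⧸ 𝔫) := by
    refine ⟨fun q => ?_⟩
    obtain ⟨b', rfl⟩ := Ideal.Quotient.mk_surjective q
    obtain ⟨p, hp, hroot⟩ := (h85_mem_modelAt_iff_isIntegralElem N A t b').1 b'.2
    refine ⟨(p.map (Polynomial.constantCoeff : Polynomial A →+* A)).map
      (IsLocalRing.residue A), (hp.map _).map _, ?_⟩
    have h0 : Polynomial.eval₂ (h21c_evB A N t) b' p = 0 := by
      apply Subtype.ext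
      have h1 := Polynomial.hom_eval₂ p (h21c_evB A N t)
        ((chart N A t).val : chart N A t →+* FF N) b'
      rw [h21c_val_comp_evB] at h1
      exact h1.trans hroot
    have h2 := Polynomial.hom_eval₂ p (h21c_evB A N t) mk b'
    rw [h0, map_zero, ← hcomp] at h2
    show Polynomial.eval₂ gbar (mk b') _ = 0
    rw [Polynomial.eval₂_map, Polynomial.eval₂_map]
    exact h2.symm
  obtain ⟨c, hc⟩ := (IsAlgClosed.algebraMap_bijective_of_isIntegral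
    (k := IsLocalRing.ResidueField A) (K := chart N A t ⧸ 𝔫)).2 (mk b)
  obtain ⟨a, rfl⟩ := IsLocalRing.residue_surjective c
  refine ⟨a, ?_⟩
  rw [← Ideal.Quotient.eq_zero_iff_mem, map_sub, sub_eq_zero]
  have h3 : gbar (IsLocalRing.residue A a) = mk b := hc
  rw [hgbar] at h3
  exact h3.symm

end Res

section Level

variable (A : ValuationSubring Kbar) (M ℓ : ℕ) [NeZero M] [NeZero ℓ]

/-! ### `β` maps the chart at infinity of level `M` into `B[1/S]` -/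

/-- `β (Λ) ⊆ B[1/S]` with `S = s(1/j)`, `s(0) = 1`. -/
theorem h21c_exists_mult (hℓ : ℓ.Prime) (hM : ¬ ℓ ∣ M) (hA : A.LiesOverPrime ℓ) :
    ∃ s : Polynomial A, s.coeff 0 = 1 ∧ ∀ f ∈ modelInf M A, ∃ E : ℕ,
      evalF (M * ℓ) A (jB (M * ℓ))⁻¹ s ^ E * heckeBetaBar Kbar M ℓ f ∈
        modelAt (M * ℓ) A (jB (M * ℓ))⁻¹ := by
  have hY : jB (M * ℓ) ≠ 0 := h21c_jB_ne_zero (M * ℓ)
  have hJ : heckeBetaBar Kbar M ℓ (jB M) ≠ 0 := h21c_beta_jB_ne_zero M ℓ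
  have hmeb : jB (M * ℓ) ∈ modelAt (M * ℓ) A (heckeBetaBar Kbar M ℓ (jB M)) :=
    Fermat.Agent.Red.KR.meBeta Fermat.Agent.Red.KR.meAlpha M ℓ hℓ hM A hA
  rw [Fermat.Agent.Red.KR.mem_modelAt_iff_evalF] at hmeb
  obtain ⟨s, hs0, hsU⟩ := Fermat.Agent.Red.KR.reflect A (FF (M * ℓ))
    ((algebraMap Kbar (FF (M * ℓ))).comp A.subtype)
    (heckeBetaBar Kbar M ℓ (jB M)) (jB (M * ℓ)) hJ hY hmeb
  refine ⟨s, hs0, fun f hf => ?_⟩
  have hU : heckeBetaBar Kbar M ℓ (jB M)⁻¹ = (heckeBetaBar Kbar M ℓ (jB M))⁻¹ := map_inv₀ _ _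
  have hβf : heckeBetaBar Kbar M ℓ f ∈ modelAt (M * ℓ) A (heckeBetaBar Kbar M ℓ (jB M)⁻¹) :=
    Fermat.Agent.Red.KR.map_mem_modelAt (heckeBetaBar Kbar M ℓ) A hf
  rw [hU, Fermat.Agent.Red.KR.mem_modelAt_iff_evalF] at hβf
  obtain ⟨E, hE⟩ := Fermat.Agent.Red.KR.mult A (FF (M * ℓ))
    ((algebraMap Kbar (FF (M * ℓ))).comp A.subtype)
    (heckeBetaBar Kbar M ℓ (jB M))⁻¹ (jB (M * ℓ))⁻¹ s hsU (heckeBetaBar Kbar M ℓ f) hβf
  refine ⟨E, ?_⟩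
  rw [Fermat.Agent.Red.KR.mem_modelAt_iff_evalF]
  exact hE

/-- `s(t) - 1 ∈ t · A[t]` when `s(0) = 1`. -/
theorem h21c_evalF_sub_one (N : ℕ) (t : FF N) (s : Polynomial A) (hs : s.coeff 0 = 1) :
    evalF N A t s = evalF N A t s.divX * t + 1 := by
  conv_lhs => rw [← Polynomial.divX_mul_X_add s]
  rw [map_add, map_mul, evalF_X, evalF_C, hs]
  congr 1
  exact map_one _

/-! ### The two residue statements -/

/-- **I7 at the chart at infinity, component `C_∞`**: `B = α (Λ) + 𝔪(W_∞)`. -/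
def H21SurjInf (hℓ : ℓ.Prime) (hA : A.LiesOverPrime ℓ) : Prop :=
  ∀ b ∈ modelAt (M * ℓ) A (jSS M ℓ)⁻¹, ∃ x ∈ modelInf M A,
    b - heckeAlphaBar Kbar M ℓ x ∈ (softRing A (M * ℓ) hℓ hA).nonunits

/-- **I7 at the chart at infinity, component `C_0`**: `w (B) ⊆ α (Λ) + 𝔪(W_∞)`, i.e.
`B ⊆ β (Λ) + 𝔪(W_0)`. -/
def H21SurjZero (hℓ : ℓ.Prime) (hM : ¬ ℓ ∣ M) (hA : A.LiesOverPrime ℓ) : Prop :=
  ∀ b ∈ modelAt (M * ℓ) A (jSS M ℓ)⁻¹, ∃ x ∈ modelInf M A,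
    kFricke M ℓ hℓ hM b - heckeAlphaBar Kbar M ℓ x ∈ (softRing A (M * ℓ) hℓ hA).nonunits

/-! ### The maps `α`, `β` on the chart at infinity of level `M` -/

/-- a `ℚ̄`-algebra map `F_M → F_{Mℓ}` restricted to the chart at infinity of level `M`. -/
def h21c_phi (ψ : FF M →ₐ[Kbar] FF (M * ℓ)) : chart M A (jB M)⁻¹ →ₐ[A] FF (M * ℓ) where
  toFun x := ψ (x : FF M)
  map_one' := by simp
  map_mul' x y := by simp
  map_zero' := by simp
  map_add' x y := by simp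
  commutes' a := ψ.commutes (a : Kbar)

theorem h21c_phi_apply (ψ : FF M →ₐ[Kbar] FF (M * ℓ)) (x : chart M A (jB M)⁻¹) :
    h21c_phi A M ℓ ψ x = ψ (x : FF M) := rfl

theorem h21c_mem_chart_iff (x : FF (M * ℓ)) :
    x ∈ chart (M * ℓ) A (jSS M ℓ)⁻¹ ↔ x ∈ modelAt (M * ℓ) A (jB (M * ℓ))⁻¹ := by
  rw [h21c_jSS_eq]
  rfl

/-! ### The cusp case -/

/-- **the cusps of the chart at infinity of level `M ℓ` are smooth points of the special
fibre.** -/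
theorem h21c_cusp_smooth (hℓ : ℓ.Prime) (hM : ¬ ℓ ∣ M) (hA : A.LiesOverPrime ℓ)
    (hLU : IfaceLocalUnif M A (jB M)⁻¹)
    (Ha : H21SurjInf A M ℓ hℓ hA) (Hb : H21SurjZero A M ℓ hℓ hM hA)
    (𝔫 : Ideal (chart (M * ℓ) A (jSS M ℓ)⁻¹)) (h𝔫 : 𝔫.IsMaximal)
    (hm : mExt A M ℓ (jSS M ℓ)⁻¹ ≤ 𝔫)
    (ht : (⟨(jSS M ℓ)⁻¹, h85_self_mem_modelAt (M * ℓ) A (jSS M ℓ)⁻¹⟩ :
      chart (M * ℓ) A (jSS M ℓ)⁻¹) ∈ 𝔫) :
    ∃ t' ∈ 𝔫, ∀ z ∈ 𝔫, ∃ s, s ∉ 𝔫 ∧ s * z ∈ Ideal.span {t'} ⊔ mExt A M ℓ (jSS M ℓ)⁻¹ := by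
  classical
  haveI h𝔫p : 𝔫.IsPrime := h𝔫.isPrime
  have hC : IfaceSSChart A M ℓ (jSS M ℓ)⁻¹ := h85s_ifaceSSChart_inf A M ℓ hℓ hM hA
  obtain ⟨hy, hwy, htS, hwtS, hVinf, hV0⟩ := h21c_soft_facts A M ℓ hℓ hM hA
  -- elements of the chart are in both Gauss rings
  have hBsoft : ∀ b : chart (M * ℓ) A (jSS M ℓ)⁻¹, (b : FF (M * ℓ)) ∈ softV A (M * ℓ) ∧
      kFricke M ℓ hℓ hM (b : FF (M * ℓ)) ∈ softV A (M * ℓ) := fun b =>
    (h63r_mem_ssV_iff hℓ hM hA _).mp (hC.hBV _ b.2)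
  have hres := h21c_hres A (M * ℓ) (jSS M ℓ)⁻¹ 𝔫 h𝔫 hm ht
  have hLP : ∀ 𝔰 : Ideal (chart M A (jB M)⁻¹), 𝔰.IsMaximal →
      (maximalIdeal A).map (algebraMap A (chart M A (jB M)⁻¹)) ≤ 𝔰 →
      ∃ t₁ ∈ 𝔰, ∀ y ∈ 𝔰, ∃ s, s ∉ 𝔰 ∧
        s * y ∈ Ideal.span {t₁} ⊔ (maximalIdeal A).map (algebraMap A (chart M A (jB M)⁻¹)) := by
    intro 𝔰 h𝔰 hle
    obtain ⟨t₁, ht₁, -, -, hall⟩ := hLU 𝔰 h𝔰 hle
    exact ⟨t₁, ht₁, hall⟩
  -- the elements `t`, `y`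
  set tB : chart (M * ℓ) A (jSS M ℓ)⁻¹ :=
    ⟨(jSS M ℓ)⁻¹, h85_self_mem_modelAt (M * ℓ) A (jSS M ℓ)⁻¹⟩ with htB
  set yB : chart (M * ℓ) A (jSS M ℓ)⁻¹ := ⟨h21c_y M ℓ, h21c_y_mem_chart A M ℓ hℓ hM hA⟩
    with hyB
  have htBval : (tB : FF (M * ℓ)) = h21c_t M ℓ := h21c_jSS_inv_eq M ℓ
  by_cases hyn : yB ∈ 𝔫
  · -- a cusp on `C_0`: use `β`
    obtain ⟨s, hs0, hmult⟩ := h21c_exists_mult A M ℓ hℓ hM hA
    -- `S = s(t)`
    have hSmem : evalF (M * ℓ) A (jB (M * ℓ))⁻¹ s ∈ chart (M * ℓ) A (jSS M ℓ)⁻¹ :=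
      (h21c_mem_chart_iff A M ℓ _).mpr
        (Fermat.Agent.Red.Match.ringAdj_le_modelAt _ A _ (evalF_mem_ringAdj _ A _ s))
    have hS'mem : evalF (M * ℓ) A (jB (M * ℓ))⁻¹ s.divX ∈ chart (M * ℓ) A (jSS M ℓ)⁻¹ :=
      (h21c_mem_chart_iff A M ℓ _).mpr
        (Fermat.Agent.Red.Match.ringAdj_le_modelAt _ A _ (evalF_mem_ringAdj _ A _ s.divX))
    set S : chart (M * ℓ) A (jSS M ℓ)⁻¹ := ⟨_, hSmem⟩ with hS
    have hSn : S ∉ 𝔫 := by
      intro h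
      have e : S = ⟨_, hS'mem⟩ * tB + 1 := by
        apply Subtype.ext
        show evalF (M * ℓ) A (jB (M * ℓ))⁻¹ s =
          evalF (M * ℓ) A (jB (M * ℓ))⁻¹ s.divX * (jSS M ℓ)⁻¹ + 1
        rw [h21c_jSS_eq]
        exact h21c_evalF_sub_one A (M * ℓ) _ s hs0
      have h1 : (1 : chart (M * ℓ) A (jSS M ℓ)⁻¹) ∈ 𝔫 := by
        have h2 : (1 : chart (M * ℓ) A (jSS M ℓ)⁻¹) = S - ⟨_, hS'mem⟩ * tB := by
          rw [e]; ring
        rw [h2]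
        exact 𝔫.sub_mem h (𝔫.mul_mem_left _ ht)
      exact h𝔫.ne_top ((Ideal.eq_top_iff_one _).mpr h1)
    have hSEn : ∀ E : ℕ, S ^ E ∉ 𝔫 := fun E h => hSn (h𝔫p.mem_of_pow_mem E h)
    have hmult' : ∀ x : chart M A (jB M)⁻¹, ∃ E : ℕ,
        ((S ^ E : chart (M * ℓ) A (jSS M ℓ)⁻¹) : FF (M * ℓ)) *
          heckeBetaBar Kbar M ℓ (x : FF M) ∈ chart (M * ℓ) A (jSS M ℓ)⁻¹ := by
      intro x
      obtain ⟨E, hE⟩ := hmult x x.2
      refine ⟨E, ?_⟩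
      rw [Subalgebra.coe_pow]
      exact (h21c_mem_chart_iff A M ℓ _).mpr hE
    -- `e_∞ = 1 - y`
    have hen : (1 - yB) ∉ 𝔫 := by
      intro h
      have h1 : (1 : chart (M * ℓ) A (jSS M ℓ)⁻¹) ∈ 𝔫 := by
        have h2 : (1 : chart (M * ℓ) A (jSS M ℓ)⁻¹) = (1 - yB) + yB := by ring
        rw [h2]
        exact 𝔫.add_mem h hyn
      exact h𝔫.ne_top ((Ideal.eq_top_iff_one _).mpr h1)
    refine h21c_smooth_local (chart (M * ℓ) A (jSS M ℓ)⁻¹) 𝔫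
      (h21c_phi A M ℓ (heckeBetaBar Kbar M ℓ)) hm hres ?_ ?_ hLP
    · intro x
      obtain ⟨E, hE⟩ := hmult' x
      exact ⟨S ^ E, hSEn E, hE⟩
    · intro z hz
      obtain ⟨x, hx, hxz⟩ := Hb z z.2
      obtain ⟨E, hE⟩ := hmult' ⟨x, hx⟩
      refine ⟨⟨x, hx⟩, (1 - yB) * S ^ E, fun h => (h𝔫p.mem_or_mem h).elim hen (hSEn E),
        (1 - yB) * ⟨_, hE⟩, ?_, ?_⟩
      · rw [h21c_phi_apply]
        push_cast
        ring
      · -- `c = (1 - y) S^E (z - β x)`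
        apply h21c_mem_mExt A M ℓ hℓ hM hA
        · have e : (((1 - yB) * S ^ E * z - (1 - yB) * ⟨_, hE⟩ :
              chart (M * ℓ) A (jSS M ℓ)⁻¹) : FF (M * ℓ)) =
              (1 - h21c_y M ℓ) * ((S ^ E * z - ⟨_, hE⟩ :
                chart (M * ℓ) A (jSS M ℓ)⁻¹) : FF (M * ℓ)) := by
            push_cast
            ring
          rw [e]
          exact GalI.mul_mem_nonunits_left _ hVinf (hBsoft _).1
        · have e1 : (((1 - yB) * S ^ E * z - (1 - yB) * ⟨_, hE⟩ :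
              chart (M * ℓ) A (jSS M ℓ)⁻¹) : FF (M * ℓ)) =
              (((1 - yB) * S ^ E : chart (M * ℓ) A (jSS M ℓ)⁻¹) : FF (M * ℓ)) *
              ((z : FF (M * ℓ)) - heckeBetaBar Kbar M ℓ x) := by
            push_cast
            ring
          rw [e1, map_mul, map_sub, kFricke_beta]
          exact GalI.mul_mem_nonunits_right _ (hBsoft _).2 hxz
  · -- a cusp on `C_∞`: use `α`
    have hαmem : ∀ x : chart M A (jB M)⁻¹,
        heckeAlphaBar Kbar M ℓ (x : FF M) ∈ chart (M * ℓ) A (jSS M ℓ)⁻¹ := by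
      intro x
      show _ ∈ modelAt (M * ℓ) A (jSS M ℓ)⁻¹
      rw [h85s_jSS_inv_eq_α]
      exact Fermat.Agent.Red.KR.map_mem_modelAt (heckeAlphaBar Kbar M ℓ) A x.2
    -- `e_0 = y^ℓ - t^(ℓ²-1)`
    have he0 : (yB ^ ℓ - tB ^ (ℓ * ℓ - 1)) ∉ 𝔫 := by
      intro h
      have hk : 0 < ℓ * ℓ - 1 := by
        have := hℓ.two_le
        have h7 : 2 * 2 ≤ ℓ * ℓ := Nat.mul_le_mul this this
        omega
      have h1 : yB ^ ℓ ∈ 𝔫 := by
        have h2 : yB ^ ℓ = (yB ^ ℓ - tB ^ (ℓ * ℓ - 1)) + tB ^ (ℓ * ℓ - 1) := by ring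
        rw [h2]
        exact 𝔫.add_mem h (𝔫.pow_mem_of_mem ht _ hk)
      exact hyn (h𝔫p.mem_of_pow_mem _ h1)
    have he0val : ((yB ^ ℓ - tB ^ (ℓ * ℓ - 1) : chart (M * ℓ) A (jSS M ℓ)⁻¹) :
        FF (M * ℓ)) = h21c_y M ℓ ^ ℓ - h21c_t M ℓ ^ (ℓ * ℓ - 1) := by
      push_cast
      rw [htBval]
    refine h21c_smooth_local (chart (M * ℓ) A (jSS M ℓ)⁻¹) 𝔫
      (h21c_phi A M ℓ (heckeAlphaBar Kbar M ℓ)) hm hres ?_ ?_ hLP
    · intro x
      refine ⟨1, (Ideal.ne_top_iff_one 𝔫).mp h𝔫.ne_top, ?_⟩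
      rw [h21c_phi_apply]
      simpa using hαmem x
    · intro z hz
      obtain ⟨x, hx, hxz⟩ := Ha z z.2
      refine ⟨⟨x, hx⟩, yB ^ ℓ - tB ^ (ℓ * ℓ - 1), he0,
        (yB ^ ℓ - tB ^ (ℓ * ℓ - 1)) * ⟨_, hαmem ⟨x, hx⟩⟩, ?_, ?_⟩
      · rw [h21c_phi_apply]
        push_cast
        ring
      · apply h21c_mem_mExt A M ℓ hℓ hM hA
        · have e : (((yB ^ ℓ - tB ^ (ℓ * ℓ - 1)) * z -
              (yB ^ ℓ - tB ^ (ℓ * ℓ - 1)) * ⟨_, hαmem ⟨x, hx⟩⟩ :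
              chart (M * ℓ) A (jSS M ℓ)⁻¹) : FF (M * ℓ)) =
              ((yB ^ ℓ - tB ^ (ℓ * ℓ - 1) : chart (M * ℓ) A (jSS M ℓ)⁻¹) : FF (M * ℓ)) *
                ((z : FF (M * ℓ)) - heckeAlphaBar Kbar M ℓ x) := by
            push_cast
            ring
          rw [e]
          exact GalI.mul_mem_nonunits_right _ (hBsoft _).1 hxz
        · have e1 : (((yB ^ ℓ - tB ^ (ℓ * ℓ - 1)) * z -
              (yB ^ ℓ - tB ^ (ℓ * ℓ - 1)) * ⟨_, hαmem ⟨x, hx⟩⟩ :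
              chart (M * ℓ) A (jSS M ℓ)⁻¹) : FF (M * ℓ)) =
              ((yB ^ ℓ - tB ^ (ℓ * ℓ - 1) : chart (M * ℓ) A (jSS M ℓ)⁻¹) : FF (M * ℓ)) *
                ((z - ⟨_, hαmem ⟨x, hx⟩⟩ : chart (M * ℓ) A (jSS M ℓ)⁻¹) : FF (M * ℓ)) := by
            push_cast
            ring
          rw [e1, map_mul, he0val]
          exact GalI.mul_mem_nonunits_left _ hV0 (hBsoft _).2

/-- **the cusp case of `IfaceSSLocal`** for the chart at infinity, in the shape consumed by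
`h31o_ifaceSSLocal_inv`. -/
theorem h21c_cusp_datum (hℓ : ℓ.Prime) (hM : ¬ ℓ ∣ M) (hA : A.LiesOverPrime ℓ)
    (hLU : IfaceLocalUnif M A (jB M)⁻¹)
    (Ha : H21SurjInf A M ℓ hℓ hA) (Hb : H21SurjZero A M ℓ hℓ hM hA)
    (𝔫 : Ideal (chart (M * ℓ) A (jSS M ℓ)⁻¹)) (h𝔫 : 𝔫.IsMaximal)
    (hm : mExt A M ℓ (jSS M ℓ)⁻¹ ≤ 𝔫)
    (ht : (⟨(jSS M ℓ)⁻¹, h85_self_mem_modelAt (M * ℓ) A (jSS M ℓ)⁻¹⟩ :
      chart (M * ℓ) A (jSS M ℓ)⁻¹) ∈ 𝔫) :
    h31o_DatumAt A (M * ℓ) (jSS M ℓ)⁻¹ 𝔫 :=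
  Or.inl (h21c_cusp_smooth A M ℓ hℓ hM hA hLU Ha Hb 𝔫 h𝔫 hm ht)

/-- **`IfaceSSLocal` for the chart at infinity** from `IfaceSSLocal` for the finite chart, the
local parameters of level `M` and the two residue statements. -/
theorem h21c_ifaceSSLocal_inv (hℓ : ℓ.Prime) (hM : ¬ ℓ ∣ M) (hA : A.LiesOverPrime ℓ)
    (hloc : IfaceSSLocal A M ℓ (jSS M ℓ))
    (hLU : IfaceLocalUnif M A (jB M)⁻¹)
    (Ha : H21SurjInf A M ℓ hℓ hA) (Hb : H21SurjZero A M ℓ hℓ hM hA) :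
    IfaceSSLocal A M ℓ (jSS M ℓ)⁻¹ :=
  h31o_ifaceSSLocal_inv A M ℓ hloc
    (fun 𝔫 h𝔫 hm ht => h21c_cusp_datum A M ℓ hℓ hM hA hLU Ha Hb 𝔫 h𝔫 hm ht)

end Level

end Fermat.Agent.LGC
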