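import Fermat.Agent.Red.Kron.FrickeGal
import Fermat.Agent.Red.Kron.Finrank
import Fermat.Agent.Red.CH0
import Fermat.Agent.S24.PlaceOfEmb
import Fermat.Agent.S24.FICore
import Fermat.Agent.S24.FIWrap
import Fermat.Agent.S24.Glue
import Fermat.Agent.Red.GV.Bar
import Fermat.Agent.S28.RAsm
import Fermat.Agent.S28.CoeffAlg

/-!
# W3-LGC, leaf CUSP (helper21): orders of `j` and `j(q^ℓ)` at the cusps of `X₀(M ℓ)`

`ℓ` a prime, `ℓ ∤ M`.  At every place `P` of `F_{Mℓ}` over `j = ∞`: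
`ord_P (1/j(q^ℓ)) = ℓ · ord_P (1/j)`  or  `ord_P (1/j) = ℓ · ord_P (1/j(q^ℓ))`.

Proof: at level `1 · ℓ` the function `1/j` has exactly two zeros: the place of the `q`-order
(`ord (1/j) = 1`, `ord (1/j(q^ℓ)) = ℓ`) and its image under the Fricke involution
(`ord (1/j) = ℓ`, `ord (1/j(q^ℓ)) = 1`), because `1 + ℓ = ψ(ℓ) = [F_ℓ : ℚ̄(j)]`.  The general
level follows by restricting places along `F_{1·ℓ} ⊆ F_{Mℓ}`.

Consequence (`h21c_ord_y_nonneg`): the functions `j(q^ℓ) / j^ℓ` and `j / j(q^ℓ)^ℓ` are regular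
at all places over `j = ∞`.
-/

set_option autoImplicit false
set_option linter.style.haveILetI false
set_option linter.unusedSectionVars false

open AlgebraicCurve ModularCurve IntermediateField

noncomputable section

namespace Fermat.Agent.LGC

open Fermat.Agent.S37 Fermat.Agent.Red.Kron

/-! ## the place of the `q`-order -/

/-- coefficientwise embedding of `F_N` into `ℂ((q))`. -/
def h21c_iota (N : ℕ) : FF N →+* LaurentSeries ℂ :=
  (coeffMap Fermat.Agent.S24.embC).comp (algebraMap (FF N) (LaurentSeries Kbar))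

theorem h21c_iota_apply (N : ℕ) (f : FF N) :
    h21c_iota N f = coeffMap Fermat.Agent.S24.embC (f : LaurentSeries Kbar) := rfl

theorem h21c_order_coeffMap (x : LaurentSeries Kbar) :
    (coeffMap Fermat.Agent.S24.embC x).order = x.order := by
  by_cases hx : x = 0
  · rw [hx, map_zero, HahnSeries.order_zero, HahnSeries.order_zero]
  · have hinj : Function.Injective (coeffMap Fermat.Agent.S24.embC) := (coeffMap Fermat.Agent.S24.embC).injective
    have hne : coeffMap Fermat.Agent.S24.embC x ≠ 0 := (map_ne_zero_iff _ hinj).mpr hx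
    apply le_antisymm
    · apply HahnSeries.order_le_of_coeff_ne_zero
      rw [coeffMap_coeff]
      exact (map_ne_zero Fermat.Agent.S24.embC).mpr (fun h => hx (HahnSeries.coeff_order_eq_zero.mp h))
    · apply HahnSeries.order_le_of_coeff_ne_zero
      intro h
      have h2 : (coeffMap Fermat.Agent.S24.embC x).coeff (coeffMap Fermat.Agent.S24.embC x).order = 0 := by
        rw [coeffMap_coeff, h, map_zero]
      exact hne (HahnSeries.coeff_order_eq_zero.mp h2)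

theorem h21c_order_iota (N : ℕ) (f : FF N) :
    (h21c_iota N f).order = (f : LaurentSeries Kbar).order :=
  h21c_order_coeffMap _

theorem h21c_iota_cst (N : ℕ) (a : Kbar) :
    h21c_iota N (algebraMap Kbar (FF N) a) = HahnSeries.C (Fermat.Agent.S24.embC a) := by
  rw [h21c_iota_apply]
  have : ((algebraMap Kbar (FF N) a : FF N) :
      LaurentSeries Kbar) = HahnSeries.C a := by
    change algebraMap Kbar (LaurentSeries Kbar) a = HahnSeries.C a
    rw [algebraMap_laurentSeries_eq_single]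
    rfl
  rw [this]
  have : (HahnSeries.C a : LaurentSeries Kbar) = HahnSeries.single 0 a := rfl
  rw [this, coeffMap_single]
  rfl


theorem h21c_coe_jB (N : ℕ) [NeZero N] :
    ((jB N : FF N) : LaurentSeries Kbar) = jqModC Kbar := Fermat.Agent.Red.GV.coe_jB N

theorem h21c_jB_ne_zero (N : ℕ) [NeZero N] : jB N ≠ 0 := by
  intro h
  have h1 : ((jB N : FF N) : LaurentSeries Kbar).order = 0 := by
    rw [h]
    exact HahnSeries.order_zero
  rw [h21c_coe_jB, Fermat.Agent.S28.Asm.order_jqModC'] at h1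
  norm_num at h1

theorem h21c_order_iota_mul (N : ℕ) {f g : FF N} (hf : f ≠ 0) (hg : g ≠ 0) :
    (h21c_iota N (f * g)).order = (h21c_iota N f).order + (h21c_iota N g).order := by
  rw [map_mul]
  exact HahnSeries.order_mul ((map_ne_zero _).mpr hf) ((map_ne_zero _).mpr hg)

theorem h21c_order_iota_inv (N : ℕ) (f : FF N) :
    (h21c_iota N f⁻¹).order = -(h21c_iota N f).order :=
  Fermat.Agent.S24.h87_order_map_inv (h21c_iota N) f

theorem h21c_order_iota_jB (N : ℕ) [NeZero N] : (h21c_iota N (jB N)).order = -1 := by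
  rw [h21c_order_iota, h21c_coe_jB, Fermat.Agent.S28.Asm.order_jqModC']

/-- **the place of the `q`-order.** -/
theorem h21c_exists_place_infty (N : ℕ) [NeZero N] :
    ∃ v : Place Kbar (FF N), ∀ f : FF N, f ≠ 0 → (h21c_iota N f).order = v.ord f := by
  have ht : 0 < (h21c_iota N (jB N)⁻¹).order := by
    rw [h21c_order_iota_inv, h21c_order_iota_jB]
    norm_num
  obtain ⟨v, m, hm, hv⟩ := Fermat.Agent.S24.exists_place_of_emb (K := Kbar) (F := FF N)
    (jB N)⁻¹ Fermat.Agent.S24.embC (h21c_iota N) (h21c_iota_cst N) ht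
  have h1 := hv (jB N)⁻¹ (inv_ne_zero (h21c_jB_ne_zero N))
  rw [h21c_order_iota_inv, h21c_order_iota_jB] at h1
  have hm1 : (m : ℤ) = 1 := by
    have h2 : (m : ℤ) ∣ 1 := ⟨_, by simpa using h1⟩
    have h3 : (0 : ℤ) < m := by exact_mod_cast hm
    exact Int.eq_one_of_dvd_one h3.le h2
  refine ⟨v, fun f hf => ?_⟩
  rw [hv f hf, hm1, one_mul]


/-! ## the two cusps at level `N ℓ` -/

section Level

variable (N ℓ : ℕ) [NeZero N] [NeZero ℓ]

/-- `1/j` at level `N ℓ`. -/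
def h21c_t : FF (N * ℓ) := (jB (N * ℓ))⁻¹

/-- `1/j(q^ℓ)` at level `N ℓ`. -/
def h21c_U : FF (N * ℓ) := (heckeBetaBar Kbar N ℓ (jB N))⁻¹

theorem h21c_t_ne_zero : h21c_t N ℓ ≠ 0 := inv_ne_zero (h21c_jB_ne_zero (N * ℓ))

theorem h21c_beta_jB_ne_zero : heckeBetaBar Kbar N ℓ (jB N) ≠ 0 :=
  (map_ne_zero _).mpr (h21c_jB_ne_zero N)

theorem h21c_U_ne_zero : h21c_U N ℓ ≠ 0 := inv_ne_zero (h21c_beta_jB_ne_zero N ℓ)

theorem h21c_order_iota_beta_jB :
    (h21c_iota (N * ℓ) (heckeBetaBar Kbar N ℓ (jB N))).order = -(ℓ : ℤ) := by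
  rw [h21c_iota_apply, coe_heckeBetaBar, ModularCurve.coeffMap_qExpand,
    Fermat.Agent.S28.order_qExpand, h21c_order_coeffMap, h21c_coe_jB,
    Fermat.Agent.S28.Asm.order_jqModC']
  ring

theorem h21c_order_iota_t : (h21c_iota (N * ℓ) (h21c_t N ℓ)).order = 1 := by
  rw [h21c_t, h21c_order_iota_inv, h21c_order_iota_jB]
  norm_num

theorem h21c_order_iota_U : (h21c_iota (N * ℓ) (h21c_U N ℓ)).order = (ℓ : ℤ) := by
  rw [h21c_U, h21c_order_iota_inv, h21c_order_iota_beta_jB]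
  norm_num

theorem h21c_kFricke_t (hℓ : ℓ.Prime) (hN : ¬ ℓ ∣ N) :
    kFricke N ℓ hℓ hN (h21c_t N ℓ) = h21c_U N ℓ := by
  rw [h21c_t, h21c_U, map_inv₀]
  congr 1
  have h1 : jB (N * ℓ) = heckeAlphaBar Kbar N ℓ (jB N) :=
    (Fermat.Agent.Red.HKMod.heckeAlphaBar_jBar N ℓ).symm
  rw [h1, kFricke_alpha]

theorem h21c_kFricke_U (hℓ : ℓ.Prime) (hN : ¬ ℓ ∣ N) :
    kFricke N ℓ hℓ hN (h21c_U N ℓ) = h21c_t N ℓ := by
  rw [← h21c_kFricke_t N ℓ hℓ hN, kFricke_kFricke]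

/-- the place of the `q`-order: `ord (1/j) = 1`, `ord (1/j(q^ℓ)) = ℓ`. -/
theorem h21c_exists_place_one :
    ∃ v : Place Kbar (FF (N * ℓ)), v.ord (h21c_t N ℓ) = 1 ∧ v.ord (h21c_U N ℓ) = ℓ := by
  obtain ⟨v, hv⟩ := h21c_exists_place_infty (N * ℓ)
  refine ⟨v, ?_, ?_⟩
  · rw [← hv _ (h21c_t_ne_zero N ℓ), h21c_order_iota_t]
  · rw [← hv _ (h21c_U_ne_zero N ℓ), h21c_order_iota_U]

/-- the Fricke image of the place of the `q`-order: `ord (1/j) = ℓ`, `ord (1/j(q^ℓ)) = 1`. -/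
theorem h21c_exists_place_two (hℓ : ℓ.Prime) (hN : ¬ ℓ ∣ N) :
    ∃ v : Place Kbar (FF (N * ℓ)), v.ord (h21c_t N ℓ) = ℓ ∧ v.ord (h21c_U N ℓ) = 1 := by
  set w := kFricke N ℓ hℓ hN with hw
  set ι₂ : FF (N * ℓ) →+* LaurentSeries ℂ :=
    (h21c_iota (N * ℓ)).comp (w : FF (N * ℓ) →+* FF (N * ℓ)) with hι₂
  have hι₂_apply : ∀ f, ι₂ f = h21c_iota (N * ℓ) (w f) := fun f => rfl
  have hconst : ∀ a : Kbar, ι₂ (algebraMap Kbar (FF (N * ℓ)) a) =
      HahnSeries.C (Fermat.Agent.S24.embC a) := by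
    intro a
    rw [hι₂_apply]
    have : w (algebraMap Kbar (FF (N * ℓ)) a) = algebraMap Kbar (FF (N * ℓ)) a :=
      kFricke_cst N ℓ hℓ hN a
    rw [this, h21c_iota_cst]
  have hℓpos : (0 : ℤ) < ℓ := by exact_mod_cast hℓ.pos
  have ht : 0 < (ι₂ (h21c_t N ℓ)).order := by
    rw [hι₂_apply, hw, h21c_kFricke_t, h21c_order_iota_U]
    exact hℓpos
  obtain ⟨v, m, hm, hv⟩ := Fermat.Agent.S24.exists_place_of_emb (K := Kbar) (F := FF (N * ℓ))
    (h21c_t N ℓ) Fermat.Agent.S24.embC ι₂ hconst ht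
  have h1 := hv _ (h21c_U_ne_zero N ℓ)
  rw [hι₂_apply, hw, h21c_kFricke_U, h21c_order_iota_t] at h1
  have hm1 : (m : ℤ) = 1 := by
    have h2 : (m : ℤ) ∣ 1 := ⟨_, h1⟩
    have h3 : (0 : ℤ) < m := by exact_mod_cast hm
    exact Int.eq_one_of_dvd_one h3.le h2
  have h4 := hv _ (h21c_t_ne_zero N ℓ)
  rw [hι₂_apply, hw, h21c_kFricke_t, h21c_order_iota_U, hm1, one_mul] at h4
  rw [hm1, one_mul] at h1
  exact ⟨v, h4.symm, h1.symm⟩

end Level


/-! ## the fundamental identity at level `1 · ℓ` -/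

theorem h21c_ifaceFI (N : ℕ) [NeZero N] : Fermat.Agent.S24.IfaceFI N :=
  Fermat.Agent.S24.glue_fi N (kIfaceFin N)
    (Fermat.Agent.S24.fi_general_of_zeros
      (fun y hy hfin => @Fermat.Agent.S24.FICore.fi_zeros Kbar (FF N) _ _ _ _ _ y hy hfin))

theorem h21c_dedekindPsi_one_mul {ℓ : ℕ} (hℓ : ℓ.Prime) : dedekindPsi (1 * ℓ) = ℓ + 1 := by
  rw [one_mul]
  have h3 := Fermat.Agent.S21.C1.dedekindPsi_prime_pow hℓ (k := 1) one_pos
  simp only [pow_one, Nat.sub_self, pow_zero] at h3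
  rw [h3]

theorem h21c_not_dvd_one {ℓ : ℕ} (hℓ : ℓ.Prime) : ¬ ℓ ∣ 1 := by
  intro h
  exact hℓ.one_lt.ne' (Nat.dvd_one.mp h)

/-- **the cusps of `X₀(ℓ)`**: at a zero of `1/j` at level `1 · ℓ`, the orders of `1/j` and
`1/j(q^ℓ)` are `(1, ℓ)` or `(ℓ, 1)`. -/
theorem h21c_cusp_ord_one (ℓ : ℕ) [NeZero ℓ] (hℓ : ℓ.Prime) (v : Place Kbar (FF (1 * ℓ)))
    (hv : 0 < v.ord (h21c_t 1 ℓ)) :
    (v.ord (h21c_t 1 ℓ) = 1 ∧ v.ord (h21c_U 1 ℓ) = ℓ) ∨
      (v.ord (h21c_t 1 ℓ) = ℓ ∧ v.ord (h21c_U 1 ℓ) = 1) := by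
  classical
  obtain ⟨v₁, h1t, h1U⟩ := h21c_exists_place_one 1 ℓ
  obtain ⟨v₂, h2t, h2U⟩ := h21c_exists_place_two 1 ℓ hℓ (h21c_not_dvd_one hℓ)
  obtain ⟨s, hs, hsum⟩ := (h21c_ifaceFI (1 * ℓ)).2
  rw [(kIfaceFin (1 * ℓ)).2.2, h21c_dedekindPsi_one_mul hℓ] at hsum
  have hord : ∀ u : Place Kbar (FF (1 * ℓ)),
      u.ord (Fermat.Agent.S24.jBar (1 * ℓ)) = - u.ord (h21c_t 1 ℓ) := by
    intro u
    rw [h21c_t, Place.ord_inv, neg_neg]
  have hℓ2 : (2 : ℤ) ≤ ℓ := by exact_mod_cast hℓ.two_le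
  have hmem : ∀ u : Place Kbar (FF (1 * ℓ)), 0 < u.ord (h21c_t 1 ℓ) → u ∈ s := by
    intro u hu
    rw [hs, hord]
    linarith
  have hv₁s : v₁ ∈ s := hmem v₁ (by rw [h1t]; norm_num)
  have hv₂s : v₂ ∈ s := hmem v₂ (by rw [h2t]; linarith)
  have hvs : v ∈ s := hmem v hv
  have h12 : v₁ ≠ v₂ := by
    intro h
    rw [h, h2t] at h1t
    linarith
  by_cases hv1 : v = v₁
  · left; rw [hv1]; exact ⟨h1t, h1U⟩
  by_cases hv2 : v = v₂
  · right; rw [hv2]; exact ⟨h2t, h2U⟩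
  exfalso
  have hsub : ({v₁, v₂, v} : Finset (Place Kbar (FF (1 * ℓ)))) ⊆ s := by
    intro u hu
    simp only [Finset.mem_insert, Finset.mem_singleton] at hu
    rcases hu with rfl | rfl | rfl
    · exact hv₁s
    · exact hv₂s
    · exact hvs
  have hle := Finset.sum_le_sum_of_subset_of_nonneg
    (f := fun u : Place Kbar (FF (1 * ℓ)) => - u.ord (Fermat.Agent.S24.jBar (1 * ℓ))) hsub
    (fun u hu _ => by
      have := (hs u).mp hu
      linarith)
  rw [hsum] at hle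
  rw [Finset.sum_insert (by
      simp only [Finset.mem_insert, Finset.mem_singleton, not_or]
      exact ⟨h12, fun h => hv1 h.symm⟩),
    Finset.sum_insert (by
      simp only [Finset.mem_singleton]
      exact fun h => hv2 h.symm),
    Finset.sum_singleton] at hle
  simp only [hord, neg_neg, h1t, h2t] at hle
  push_cast at hle
  linarith


/-! ## general level -/

section General

variable (M ℓ : ℕ) [NeZero M] [NeZero ℓ]

theorem h21c_one_mul_dvd : 1 * ℓ ∣ M * ℓ := Nat.mul_dvd_mul_right (one_dvd M) ℓ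

theorem h21c_degen_t :
    degen (h21c_one_mul_dvd M ℓ) (h21c_t 1 ℓ) = h21c_t M ℓ := by
  rw [h21c_t, h21c_t, map_inv₀]
  exact congrArg _ (Fermat.Agent.Red.CH0.degen_jBar (h21c_one_mul_dvd M ℓ))

theorem h21c_degen_U :
    degen (h21c_one_mul_dvd M ℓ) (h21c_U 1 ℓ) = h21c_U M ℓ := by
  rw [h21c_U, h21c_U, map_inv₀]
  refine congrArg _ (Subtype.ext ?_)
  rw [coe_degen, coe_heckeBetaBar, coe_heckeBetaBar, h21c_coe_jB, h21c_coe_jB]

/-- **CUSP-ORD.**  At a zero `P` of `1/j` at level `M ℓ`: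
`ord_P (1/j(q^ℓ)) = ℓ · ord_P (1/j)` or `ord_P (1/j) = ℓ · ord_P (1/j(q^ℓ))`. -/
theorem h21c_cusp_ord (hℓ : ℓ.Prime) (P : Place Kbar (FF (M * ℓ)))
    (hP : 0 < P.ord (h21c_t M ℓ)) :
    P.ord (h21c_U M ℓ) = ℓ * P.ord (h21c_t M ℓ) ∨
      P.ord (h21c_t M ℓ) = ℓ * P.ord (h21c_U M ℓ) := by
  have hint := Fermat.Agent.Red.CH0.isIntegral_degen (h21c_one_mul_dvd M ℓ)
  have ht := Place.ord_restrictAlong (degen (h21c_one_mul_dvd M ℓ)) hint P (h21c_t 1 ℓ)
  have hU := Place.ord_restrictAlong (degen (h21c_one_mul_dvd M ℓ)) hint P (h21c_U 1 ℓ)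
  rw [h21c_degen_t] at ht
  rw [h21c_degen_U] at hU
  set e : ℕ := Place.ramificationIndexAlong (degen (h21c_one_mul_dvd M ℓ)) P with he
  set P' := Place.restrictAlong (degen (h21c_one_mul_dvd M ℓ)) hint P with hP'
  have hpos : 0 < P'.ord (h21c_t 1 ℓ) := by
    rw [ht] at hP
    have he0 : (0 : ℤ) ≤ e := Int.natCast_nonneg e
    by_contra hcon
    have hcon' : P'.ord (h21c_t 1 ℓ) ≤ 0 := not_lt.mp hcon
    have := mul_nonpos_of_nonneg_of_nonpos he0 hcon'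
    linarith
  rcases h21c_cusp_ord_one ℓ hℓ P' hpos with ⟨h1, h2⟩ | ⟨h1, h2⟩
  · left
    rw [ht, hU, h1, h2]
    ring
  · right
    rw [ht, hU, h1, h2]
    ring

/-- both orders are positive at a zero of `1/j`. -/
theorem h21c_cusp_ord_pos (hℓ : ℓ.Prime) (P : Place Kbar (FF (M * ℓ)))
    (hP : 0 < P.ord (h21c_t M ℓ)) : 0 < P.ord (h21c_U M ℓ) := by
  have hℓpos : (0 : ℤ) < ℓ := by exact_mod_cast hℓ.pos
  rcases h21c_cusp_ord M ℓ hℓ P hP with h | h
  · rw [h]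
    exact mul_pos hℓpos hP
  · rw [h] at hP
    by_contra hcon
    have hcon' : P.ord (h21c_U M ℓ) ≤ 0 := not_lt.mp hcon
    have := mul_nonpos_of_nonneg_of_nonpos hℓpos.le hcon'
    linarith

end General

end Fermat.Agent.LGC
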