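import Fermat.Agent.LGC.Pieces63c
import Fermat.Agent.LGC.FrickeChart
import Fermat.Agent.Red.KR.MEAlpha
import Fermat.Agent.Red.KR.Nbr

/-!
# W3-LGC (helper63): the Fricke involution at the cusps of the chart at infinity

`B = chart (M * ℓ) A (jSS M ℓ)⁻¹`, `w = kFricke M ℓ`, `𝔫 ⊆ B` a maximal ideal over `𝔪_A` with
`1/j ∈ 𝔫` (a cusp of the special fibre).

* `h63c_reg_of_int` : (any level, any chart `t`) if `t⁻¹` is integral over `A[u⁻¹]` and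
  `t ∈ 𝔫 ⊇ 𝔪_A B`, then `u` is regular at every place of the chart centred at `𝔫`.
* `h63c_betaInv_mem_place` : `1/β(j)` is regular at every place centred at a cusp `𝔫`.
* `h63c_local_of_regular` : an element of `ssV` which is regular at the places centred at `𝔫`
  lies in `B_𝔫`.
* `h63c_w_local` **(WB)** : for `b ∈ B` there is `s ∈ B`, `s ∉ 𝔫`, with `s · w b ∈ B`.
* `h63c_beta_local` : for `x ∈ modelInf M A` there is `s ∈ B`, `s ∉ 𝔫`, with `s · β x ∈ B`.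
-/

set_option autoImplicit false
set_option linter.unusedSectionVars false

open AlgebraicCurve ModularCurve WithZero IsLocalRing

noncomputable section

namespace Fermat.Agent.LGC

open Fermat.Agent.S37 Fermat.Agent.Red Fermat.Agent.Red.GG Fermat.Agent.Red.GV
  Fermat.Agent.Red.GV.Soft Fermat.Agent.Red.Kron Fermat.Agent.Red.KR Fermat.Agent.Red.ModelO

section Gen

variable (A : ValuationSubring Kbar) (N : ℕ) (t u : FF N)

/-- a chart element which is a non-unit at a place centred at `𝔫` lies in `𝔫`. -/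
theorem h63c_mem_of_nonunit (𝔫 : Ideal (chart N A t)) (i : ChartPlace N t)
    (hi : h26Centered (chart N A t) (chartVal N t) 𝔫 i) (y : chart N A t)
    (hy : (y : FF N) ∈ i.1.toValuationSubring.nonunits) : y ∈ 𝔫 := by
  apply hi y
  show i.1.adicValuation (y : FF N) < 1
  exact (h71_adicValuation_lt_one_iff _ _).mpr hy

set_option synthInstance.maxHeartbeats 400000 in
/-- **regularity at the places centred at a closed point where `t` vanishes**: if `t⁻¹` is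
integral over `A[u⁻¹]`, then `u` is regular at these places. -/
theorem h63c_reg_of_int [NeZero N] (ht0 : t ≠ 0) (hint : t⁻¹ ∈ modelAt N A u⁻¹)
    (𝔫 : Ideal (chart N A t)) (h𝔫 : 𝔫 ≠ ⊤)
    (hm : (maximalIdeal A).map (algebraMap A (chart N A t)) ≤ 𝔫)
    (ht : chartT N A t ∈ 𝔫) (i : ChartPlace N t)
    (hi : h26Centered (chart N A t) (chartVal N t) 𝔫 i) :
    u ∈ i.1.toValuationSubring := by
  by_contra hU
  have hu0 : u ≠ 0 := by
    rintro rfl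
    exact hU (zero_mem _)
  have hui0 : u⁻¹ ≠ 0 := inv_ne_zero hu0
  have hβnu : u⁻¹ ∈ i.1.toValuationSubring.nonunits := by
    rw [GalI.mem_nonunits_iff_inv _ hui0, inv_inv]
    exact hU
  have hval0 : ValueAt i.1 u⁻¹ 0 := by
    unfold ValueAt
    rw [GalI.cst_zero, sub_zero]
    exact hβnu
  obtain ⟨b, hbA, hjb⟩ := GalI.chart_value A i.1 A.zero_mem hval0 hint
  have hVO : t ∈ i.1.toValuationSubring := i.2
  have hjV : t * t⁻¹ = 1 := mul_inv_cancel₀ ht0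
  unfold ValueAt at hjb
  by_cases hb : b ∈ A.nonunits
  · -- `1 - b t ∈ 𝔫` and `b t ∈ 𝔪_A B`
    have hbV : algebraMap A (chart N A t) ⟨b, hbA⟩ * chartT N A t ∈ 𝔫 :=
      hm (Ideal.mul_mem_right _ _ (Ideal.mem_map_of_mem _
        (ValuationSubring.coe_mem_nonunits_iff.mp hb)))
    have hy : (1 : chart N A t) - algebraMap A (chart N A t) ⟨b, hbA⟩ * chartT N A t ∈ 𝔫 := by
      apply h63c_mem_of_nonunit A N t 𝔫 i hi
      have e : (((1 : chart N A t) - algebraMap A (chart N A t) ⟨b, hbA⟩ * chartT N A t :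
          chart N A t) : FF N) = t * (t⁻¹ - cst N b) := by
        show (1 : FF N) - cst N b * t = t * (t⁻¹ - cst N b)
        rw [mul_sub, hjV, mul_comm]
      rw [e]
      exact GalI.mul_mem_nonunits_right _ hVO hjb
    apply h𝔫
    rw [Ideal.eq_top_iff_one]
    have e1 : (1 : chart N A t) =
        ((1 : chart N A t) - algebraMap A (chart N A t) ⟨b, hbA⟩ * chartT N A t) +
        algebraMap A (chart N A t) ⟨b, hbA⟩ * chartT N A t := by ring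
    rw [e1]
    exact Ideal.add_mem _ hy hbV
  · -- `b` is a unit of `A`: `t - b⁻¹ ∈ 𝔫`
    have hb0 : b ≠ 0 := by
      rintro rfl
      exact hb (GalI.zero_mem_nonunits A)
    have hbinv : b⁻¹ ∈ A := by
      by_contra hcon
      exact hb ((GalI.mem_nonunits_iff_inv A hb0).mpr hcon)
    have hcb : cst N b ≠ 0 := fun h0 =>
      hb0 ((algebraMap Kbar (FF N)).injective (h0.trans (map_zero _).symm))
    have hy : chartT N A t - algebraMap A (chart N A t) ⟨b⁻¹, hbinv⟩ ∈ 𝔫 := by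
      apply h63c_mem_of_nonunit A N t 𝔫 i hi
      have e : ((chartT N A t - algebraMap A (chart N A t) ⟨b⁻¹, hbinv⟩ : chart N A t) :
          FF N) = -(cst N b⁻¹ * t) * (t⁻¹ - cst N b) := by
        show t - cst N b⁻¹ = -(cst N b⁻¹ * t) * (t⁻¹ - cst N b)
        have e2 : cst N b⁻¹ = (cst N b)⁻¹ := map_inv₀ _ _
        rw [e2]
        field_simp
        ring
      rw [e]
      refine GalI.mul_mem_nonunits_right _ ?_ hjb
      exact neg_mem (mul_mem (i.1.algebraMap_mem' _) hVO)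
    have hcinv : algebraMap A (chart N A t) ⟨b⁻¹, hbinv⟩ ∈ 𝔫 := by
      have e1 : algebraMap A (chart N A t) ⟨b⁻¹, hbinv⟩ =
          chartT N A t - (chartT N A t - algebraMap A (chart N A t) ⟨b⁻¹, hbinv⟩) := by ring
      rw [e1]
      exact Ideal.sub_mem _ ht hy
    apply h𝔫
    rw [Ideal.eq_top_iff_one]
    have e1 : (1 : chart N A t) =
        algebraMap A (chart N A t) ⟨b, hbA⟩ * algebraMap A (chart N A t) ⟨b⁻¹, hbinv⟩ := by
      rw [← map_mul]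
      have : (⟨b, hbA⟩ : A) * ⟨b⁻¹, hbinv⟩ = 1 := Subtype.ext (mul_inv_cancel₀ hb0)
      rw [this, map_one]
    rw [e1]
    exact Ideal.mul_mem_left _ _ hcinv

end Gen

section Abs

variable {A : Type*} [CommRing A] [IsLocalRing A] {F : Type*} [Field F] [Algebra A F]
  {B : Subalgebra A F} {V : Subring F} {ι : Type*} {v : ι → Valuation F ℤᵐ⁰}

/-- **an element of `V` which is regular at the places centred at `𝔫` lies in `B_𝔫`.** -/
theorem h63c_local_of_regular (hC : H26Chart B V v) (𝔫 : Ideal B) [𝔫.IsPrime] (f : F)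
    (hfV : f ∈ V) (hf : ∀ i, h26Centered B v 𝔫 i → v i f ≤ 1) :
    ∃ s : B, s ∉ 𝔫 ∧ (s : F) * f ∈ B := by
  obtain ⟨a, ha, s, hs, hmem⟩ := h26_stepC hC.hfin hC.hint hC.hB 𝔫 f hf
  exact ⟨s, hs, hC.hQEP a ha _ (V.mul_mem (hC.hBV _ s.2) hfV) hmem⟩

end Abs

section Level

variable (A : ValuationSubring Kbar) (M : ℕ) {ℓ : ℕ} [NeZero M] [NeZero ℓ]

/-- `j` (of level `M ℓ`) is integral over `A[β j]`. -/
theorem h63c_jSS_mem (hℓ : ℓ.Prime) (hM : ¬ ℓ ∣ M) (hA : A.LiesOverPrime ℓ) :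
    jSS M ℓ ∈ modelAt (M * ℓ) A (heckeBetaBar Kbar M ℓ (jB M)) := by
  have h := meBeta meAlpha M ℓ hℓ hM A hA
  rw [← h85s_jSS_eq] at h
  exact h

/-- **`1/β(j)` is regular at the places centred at a cusp of the special fibre.** -/
theorem h63c_betaInv_mem_place (hℓ : ℓ.Prime) (hM : ¬ ℓ ∣ M) (hA : A.LiesOverPrime ℓ)
    (𝔫 : Ideal (chart (M * ℓ) A (jSS M ℓ)⁻¹)) (h𝔫 : 𝔫 ≠ ⊤)
    (hm : mExt A M ℓ (jSS M ℓ)⁻¹ ≤ 𝔫)
    (hV : (⟨(jSS M ℓ)⁻¹, h85_self_mem_modelAt (M * ℓ) A (jSS M ℓ)⁻¹⟩ :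
      chart (M * ℓ) A (jSS M ℓ)⁻¹) ∈ 𝔫)
    (i : ChartPlace (M * ℓ) (jSS M ℓ)⁻¹)
    (hi : h26Centered (chart (M * ℓ) A (jSS M ℓ)⁻¹) (chartVal (M * ℓ) (jSS M ℓ)⁻¹) 𝔫 i) :
    (heckeBetaBar Kbar M ℓ (jB M))⁻¹ ∈ i.1.toValuationSubring := by
  have : NeZero (M * ℓ) := ⟨Nat.mul_ne_zero (NeZero.ne M) (NeZero.ne ℓ)⟩
  refine h63c_reg_of_int A (M * ℓ) (jSS M ℓ)⁻¹ (heckeBetaBar Kbar M ℓ (jB M))⁻¹
    (inv_ne_zero (h31o_jSS_ne_zero M ℓ)) ?_ 𝔫 h𝔫 hm hV i hi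
  rw [inv_inv, inv_inv]
  exact h63c_jSS_mem A M hℓ hM hA

/-- the image under `w` of the chart at infinity is regular at the places centred at a cusp. -/
theorem h63c_w_regular (hℓ : ℓ.Prime) (hM : ¬ ℓ ∣ M) (hA : A.LiesOverPrime ℓ)
    (𝔫 : Ideal (chart (M * ℓ) A (jSS M ℓ)⁻¹)) (h𝔫 : 𝔫 ≠ ⊤)
    (hm : mExt A M ℓ (jSS M ℓ)⁻¹ ≤ 𝔫)
    (hV : (⟨(jSS M ℓ)⁻¹, h85_self_mem_modelAt (M * ℓ) A (jSS M ℓ)⁻¹⟩ :
      chart (M * ℓ) A (jSS M ℓ)⁻¹) ∈ 𝔫)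
    (b : FF (M * ℓ)) (hb : b ∈ chart (M * ℓ) A (jSS M ℓ)⁻¹)
    (i : ChartPlace (M * ℓ) (jSS M ℓ)⁻¹)
    (hi : h26Centered (chart (M * ℓ) A (jSS M ℓ)⁻¹) (chartVal (M * ℓ) (jSS M ℓ)⁻¹) 𝔫 i) :
    chartVal (M * ℓ) (jSS M ℓ)⁻¹ i (kFricke M ℓ hℓ hM b) ≤ 1 := by
  have h1 : kFricke M ℓ hℓ hM b ∈
      modelAt (M * ℓ) A (kFricke M ℓ hℓ hM (jSS M ℓ)⁻¹) :=
    h44g_kFricke_mem_modelAt M ℓ hℓ hM A hb
  have e : kFricke M ℓ hℓ hM (jSS M ℓ)⁻¹ = (heckeBetaBar Kbar M ℓ (jB M))⁻¹ := by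
    rw [map_inv₀]
    congr 1
    exact kFricke_alpha M ℓ hℓ hM (jB M)
  rw [e, h85_mem_modelAt_iff_forall] at h1
  rw [GGC97_chartVal, GGC97_le_one_iff]
  exact h1 i.1.toValuationSubring (fun a _ => i.1.algebraMap_mem' a)
    (h63c_betaInv_mem_place A M hℓ hM hA 𝔫 h𝔫 hm hV i hi)

/-- **(WB)** the Fricke involution maps the chart at infinity into its local ring at every
cusp of the special fibre. -/
theorem h63c_w_local (hℓ : ℓ.Prime) (hM : ¬ ℓ ∣ M) (hA : A.LiesOverPrime ℓ)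
    (𝔫 : Ideal (chart (M * ℓ) A (jSS M ℓ)⁻¹)) [h𝔫 : 𝔫.IsPrime]
    (hm : mExt A M ℓ (jSS M ℓ)⁻¹ ≤ 𝔫)
    (hV : (⟨(jSS M ℓ)⁻¹, h85_self_mem_modelAt (M * ℓ) A (jSS M ℓ)⁻¹⟩ :
      chart (M * ℓ) A (jSS M ℓ)⁻¹) ∈ 𝔫)
    (b : FF (M * ℓ)) (hb : b ∈ chart (M * ℓ) A (jSS M ℓ)⁻¹) :
    ∃ s : chart (M * ℓ) A (jSS M ℓ)⁻¹, s ∉ 𝔫 ∧
      (s : FF (M * ℓ)) * kFricke M ℓ hℓ hM b ∈ chart (M * ℓ) A (jSS M ℓ)⁻¹ := by
  have hC : IfaceSSChart A M ℓ (jSS M ℓ)⁻¹ := h85s_ifaceSSChart_inf A M ℓ hℓ hM hA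
  have hbV : b ∈ ssV A M ℓ := hC.hBV b hb
  have hwV : kFricke M ℓ hℓ hM b ∈ ssV A M ℓ := by
    refine h63r_mem_ssV_of_soft hℓ hM hA (h63r_w_ssV_le_soft hℓ hM hA hbV) ?_
    rw [kFricke_kFricke]
    exact h63r_ssV_le_soft hℓ hA hbV
  exact h63c_local_of_regular hC 𝔫 _ hwV
    (fun i hi => h63c_w_regular A M hℓ hM hA 𝔫 h𝔫.ne_top hm hV b hb i hi)

/-- `α` maps the chart at infinity of level `M` into the chart at infinity of level `M ℓ`. -/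
theorem h63c_alpha_mem (x : FF M) (hx : x ∈ modelInf M A) :
    heckeAlphaBar Kbar M ℓ x ∈ chart (M * ℓ) A (jSS M ℓ)⁻¹ := by
  have h := map_mem_modelAt (heckeAlphaBar Kbar M ℓ) A hx
  rw [map_inv₀] at h
  exact h

/-- **local `β`**: for `x` in the chart at infinity of level `M`, `β x` lies in the local ring
of the chart at infinity of level `M ℓ` at every cusp of the special fibre. -/
theorem h63c_beta_local (hℓ : ℓ.Prime) (hM : ¬ ℓ ∣ M) (hA : A.LiesOverPrime ℓ)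
    (𝔫 : Ideal (chart (M * ℓ) A (jSS M ℓ)⁻¹)) [h𝔫 : 𝔫.IsPrime]
    (hm : mExt A M ℓ (jSS M ℓ)⁻¹ ≤ 𝔫)
    (hV : (⟨(jSS M ℓ)⁻¹, h85_self_mem_modelAt (M * ℓ) A (jSS M ℓ)⁻¹⟩ :
      chart (M * ℓ) A (jSS M ℓ)⁻¹) ∈ 𝔫)
    (x : FF M) (hx : x ∈ modelInf M A) :
    ∃ s : chart (M * ℓ) A (jSS M ℓ)⁻¹, s ∉ 𝔫 ∧
      (s : FF (M * ℓ)) * heckeBetaBar Kbar M ℓ x ∈ chart (M * ℓ) A (jSS M ℓ)⁻¹ := by
  have h := h63c_w_local A M hℓ hM hA 𝔫 hm hV _ (h63c_alpha_mem A M x hx)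
  rw [kFricke_alpha] at h
  exact h

end Level

end Fermat.Agent.LGC
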