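import Fermat.Agent.LGC.Cusp21Loc
import Fermat.Agent.LGC.CompInf44
import Fermat.Agent.LGC.Pieces63c
import Fermat.Agent.Red.H67LocalUnifGG
import Fermat.Agent.Red.SM.Final

/-!
# W3-LGC (helper63): the cusps of the chart at infinity, at all good levels

Wiring of helper21's cusp case `h21c_cusp_datum` with helper44's residue statements
`h44i_hsurj_inf`, `h44i_hsurj_zero`, helper67's local parameters of level `M` at the chart at
infinity and helper13's smoothness of level `M`.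
-/

set_option autoImplicit false
set_option linter.unusedSectionVars false
set_option synthInstance.maxHeartbeats 400000

open AlgebraicCurve ModularCurve WithZero IsLocalRing

noncomputable section

namespace Fermat.Agent.LGC

open Fermat.Agent.S37 Fermat.Agent.Red Fermat.Agent.Red.GG Fermat.Agent.Red.GV
  Fermat.Agent.Red.GV.Soft Fermat.Agent.Red.ModelO

variable (A : ValuationSubring Kbar) (M ℓ : ℕ) [NeZero M] [NeZero ℓ]

/-- the residue statement on the component at infinity. -/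
theorem h63a_surjInf (hℓ : ℓ.Prime) (hM : ¬ ℓ ∣ M) (haux : auxLevel ℓ ∣ M)
    (hA : A.LiesOverPrime ℓ) : H21SurjInf A M ℓ hℓ hA := by
  intro b hb
  have hb' : b ∈ modelInf (M * ℓ) A := (h21c_mem_chart_iff A M ℓ b).mp hb
  obtain ⟨x, hx, h, hx0⟩ := h44i_hsurj_inf A M ℓ hℓ hM haux hA b hb'
  exact ⟨x, hx, (softR_eq_zero_iff_mem_nonunits A (M * ℓ) hℓ hA ⟨_, h⟩).mp hx0⟩

/-- the residue statement on the component at zero. -/
theorem h63a_surjZero (hℓ : ℓ.Prime) (hM : ¬ ℓ ∣ M) (haux : auxLevel ℓ ∣ M)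
    (hA : A.LiesOverPrime ℓ) : H21SurjZero A M ℓ hℓ hM hA := by
  intro b hb
  have hb' : b ∈ modelInf (M * ℓ) A := (h21c_mem_chart_iff A M ℓ b).mp hb
  obtain ⟨x, hx, h, hx0⟩ := h44i_hsurj_zero A M ℓ hℓ hM haux hA b hb'
  exact ⟨x, hx, (softR_eq_zero_iff_mem_nonunits A (M * ℓ) hℓ hA ⟨_, h⟩).mp hx0⟩

/-- **the smooth-or-node datum at the cusps of the chart at infinity, at all good levels.** -/
theorem h63a_ifaceSSCuspAll : IfaceSSCuspAll := by
  intro ℓ hℓ M _ hM haux
  have : NeZero ℓ := ⟨hℓ.ne_zero⟩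
  intro A hA 𝔫 h𝔫 hm ht
  exact h21c_cusp_datum A M ℓ hℓ hM hA
    (h67_ifaceLocalUnif_inf M A Fermat.Agent.Red.SM.h13_ifaceSmooth hℓ hM haux hA)
    (h63a_surjInf A M ℓ hℓ hM haux hA) (h63a_surjZero A M ℓ hℓ hM haux hA) 𝔫 h𝔫 hm ht

end Fermat.Agent.LGC
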