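import Mathlib

/-!
# W3-LGC, FINITE at level `N = M ℓ` (helper71), part 1: the abstract base change lemma

Abstract form of helper58's base change induction (`Red/BC/Rel.lean`, `Red/BC/Ind.lean`), for a
reduction map with values in an arbitrary vector space over the residue field (so that it can
be applied to the PAIR of `q`-expansions at the cusps `∞` and `0` of `X₀(M ℓ)`).

Setting: `A` a valuation subring of a field `K`, `π : A → k` its residue map, `ℓ` a prime number
which is a non-unit of `A`, every element of `K` becomes integral after multiplication by a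
power of `ℓ`.  `E` a `K`-vector space, with
* `Int, G ⊆ E` two `A`-submodules (the chart and the Gauss ring), with `Rat ∩ Int ⊆ G`,
* `Rat ⊆ E` a subgroup stable under division by `ℓ` (the rational elements),
* `rd : E → W` a reduction map, additive and `π`-semilinear on `G`, such that `rd (e x) = 0`
  for `x ∈ Int`, `e` a non-unit of `A` with `e x ∈ G` (integrality of `x`),
such that
* (REL) a `k`-linear relation between the reductions of rational elements of `G`, with one
  coefficient `1`, comes from a relation `∑ m_f f ∈ ℓ G` with natural numbers `m_f`, one of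
  them `1` (linear disjointness + rational value group);
* (QEP) `x ∈ Rat ∩ G`, `ℓ x ∈ Int` imply `x ∈ Int`;
* (DESC) every element of `Int` is a `K`-linear combination of elements of `Rat ∩ Int`.

Conclusion (`h71f_core`): `Int` is the `A`-span of `Rat ∩ Int`.
-/

set_option autoImplicit false
set_option linter.unusedSectionVars false

namespace Fermat.Agent.LGC

section Abs

variable {K : Type*} [Field K] (A : ValuationSubring K)
  {E : Type*} [AddCommGroup E] [Module K E]
  {k : Type*} [Field k] (π : A →+* k)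
  {W : Type*} [AddCommGroup W] [Module k W]

/-- the hypotheses of the abstract base change lemma. -/
structure H71BC (ℓ : ℕ) (Int G Rat : Set E) (rd : E → W) : Prop where
  hℓ0 : (ℓ : K) ≠ 0
  hℓ : (ℓ : K) ∈ A.nonunits
  hπ : ∀ a : A, π a = 0 ↔ (a : K) ∈ A.nonunits
  hpow : ∀ c : K, ∃ n : ℕ, (ℓ : K) ^ n * c ∈ A
  int_zero : (0 : E) ∈ Int
  int_add : ∀ x ∈ Int, ∀ y ∈ Int, x + y ∈ Int
  int_smul : ∀ a : A, ∀ x ∈ Int, (a : K) • x ∈ Int
  ratint_le : ∀ x ∈ Rat, x ∈ Int → x ∈ G
  g_zero : (0 : E) ∈ G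
  g_add : ∀ x ∈ G, ∀ y ∈ G, x + y ∈ G
  g_smul : ∀ a : A, ∀ x ∈ G, (a : K) • x ∈ G
  rat_zero : (0 : E) ∈ Rat
  rat_add : ∀ x ∈ Rat, ∀ y ∈ Rat, x + y ∈ Rat
  rat_nsmul : ∀ m : ℕ, ∀ x ∈ Rat, (m : K) • x ∈ Rat
  rat_div : ∀ x ∈ Rat, (ℓ : K)⁻¹ • x ∈ Rat
  rd_add : ∀ x ∈ G, ∀ y ∈ G, rd (x + y) = rd x + rd y
  rd_smul : ∀ a : A, ∀ x ∈ G, rd ((a : K) • x) = π a • rd x
  rd_int : ∀ e ∈ A.nonunits, ∀ x ∈ Int, e • x ∈ G → rd (e • x) = 0
  rel : ∀ (s : Finset E) (a : E → k) (f0 : E), f0 ∈ s → (∀ f ∈ s, f ∈ Rat ∧ f ∈ G) →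
    a f0 = 1 → ∑ f ∈ s, a f • rd f = 0 →
    ∃ m : E → ℕ, m f0 = 1 ∧ (ℓ : K)⁻¹ • ∑ f ∈ s, (m f : K) • f ∈ G
  qep : ∀ x ∈ Rat, x ∈ G → (ℓ : K) • x ∈ Int → x ∈ Int
  desc : ∀ x ∈ Int, ∃ (s : Finset E) (c : E → K),
    (∀ f ∈ s, f ∈ Rat ∧ f ∈ Int) ∧ x = ∑ f ∈ s, c f • f

variable {A π}
variable {ℓ : ℕ} {Int G Rat : Set E} {rd : E → W}

/-- the rational integral elements. -/
def h71fR0 (Int Rat : Set E) : Set E := {f | f ∈ Rat ∧ f ∈ Int}

/-- the `A`-span of the rational integral elements. -/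
def h71fSA (A : ValuationSubring K) (Int Rat : Set E) : Submodule A E :=
  Submodule.span A (h71fR0 Int Rat)

theorem h71f_smul_def (a : A) (x : E) : a • x = (a : K) • x := rfl

namespace H71BC

variable (H : H71BC A π ℓ Int G Rat rd)
include H

theorem rd_zero : rd (0 : E) = 0 := by
  have h := H.rd_smul 0 0 H.g_zero
  rw [map_zero, zero_smul] at h
  simpa using h

theorem rd_nonunit {e : K} (he : e ∈ A.nonunits) {x : E} (hx : x ∈ G) : rd (e • x) = 0 := by
  have heA : e ∈ A := ValuationSubring.nonunits_subset he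
  have h := H.rd_smul ⟨e, heA⟩ x hx
  rw [(H.hπ ⟨e, heA⟩).mpr he, zero_smul] at h
  exact h

theorem g_sum (s : Finset E) (a : E → A) (hs : ∀ f ∈ s, f ∈ G) :
    ∑ f ∈ s, ((a f : A) : K) • f ∈ G := by
  classical
  induction s using Finset.induction_on with
  | empty => simpa using H.g_zero
  | insert b t hb ih =>
    rw [Finset.sum_insert hb]
    exact H.g_add _ (H.g_smul _ _ (hs b (Finset.mem_insert_self b t))) _
      (ih fun f hf => hs f (Finset.mem_insert_of_mem hf))

theorem rd_sum (s : Finset E) (a : E → A) (hs : ∀ f ∈ s, f ∈ G) :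
    rd (∑ f ∈ s, ((a f : A) : K) • f) = ∑ f ∈ s, π (a f) • rd f := by
  classical
  induction s using Finset.induction_on with
  | empty => simpa using H.rd_zero
  | insert b t hb ih =>
    have hbG := hs b (Finset.mem_insert_self b t)
    have htG : ∀ f ∈ t, f ∈ G := fun f hf => hs f (Finset.mem_insert_of_mem hf)
    rw [Finset.sum_insert hb, Finset.sum_insert hb,
      H.rd_add _ (H.g_smul _ _ hbG) _ (H.g_sum t a htG), H.rd_smul _ _ hbG, ih htG]

theorem int_sum_nat (s : Finset E) (m : E → ℕ) (hs : ∀ f ∈ s, f ∈ Int) :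
    ∑ f ∈ s, (m f : K) • f ∈ Int := by
  classical
  induction s using Finset.induction_on with
  | empty => simpa using H.int_zero
  | insert b t hb ih =>
    rw [Finset.sum_insert hb]
    refine H.int_add _ ?_ _ (ih fun f hf => hs f (Finset.mem_insert_of_mem hf))
    have h := H.int_smul ((m b : ℕ) : A) b (hs b (Finset.mem_insert_self b t))
    simpa using h

theorem rat_sum_nat (s : Finset E) (m : E → ℕ) (hs : ∀ f ∈ s, f ∈ Rat) :
    ∑ f ∈ s, (m f : K) • f ∈ Rat := by
  classical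
  induction s using Finset.induction_on with
  | empty => simpa using H.rat_zero
  | insert b t hb ih =>
    rw [Finset.sum_insert hb]
    exact H.rat_add _ (H.rat_nsmul _ _ (hs b (Finset.mem_insert_self b t))) _
      (ih fun f hf => hs f (Finset.mem_insert_of_mem hf))

theorem sa_props {y : E} (hy : y ∈ h71fSA A Int Rat) : y ∈ Int := by
  unfold h71fSA at hy
  induction hy using Submodule.span_induction with
  | mem f hf => exact hf.2
  | zero => exact H.int_zero
  | add y z _ _ hy hz => exact H.int_add _ hy _ hz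
  | smul a y _ hy => exact H.int_smul a y hy

theorem sa_le_g {y : E} (hy : y ∈ h71fSA A Int Rat) : y ∈ G := by
  unfold h71fSA at hy
  induction hy using Submodule.span_induction with
  | mem f hf => exact H.ratint_le f hf.1 hf.2
  | zero => exact H.g_zero
  | add y z _ _ hy hz => exact H.g_add _ hy _ hz
  | smul a y _ hy => exact H.g_smul a y hy

theorem smul_mem_sa {a : K} (ha : a ∈ A) {f : E} (hf : f ∈ h71fSA A Int Rat) :
    a • f ∈ h71fSA A Int Rat :=
  (h71fSA A Int Rat).smul_mem (⟨a, ha⟩ : A) hf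

omit H in
/-- a coefficient of maximal valuation. -/
theorem exists_max (s : Finset E) (c : E → K) (hne : s.Nonempty) (hcA : ∀ f ∈ s, c f ∉ A) :
    ∃ f0 ∈ s, c f0 ≠ 0 ∧ (c f0)⁻¹ ∈ A.nonunits ∧ ∀ f ∈ s, c f * (c f0)⁻¹ ∈ A := by
  obtain ⟨f0, hf0s, hf0max⟩ := Finset.exists_max_image s (fun f => A.valuation (c f)) hne
  have hc0 : c f0 ∉ A := hcA f0 hf0s
  have hc0ne : c f0 ≠ 0 := fun h => hc0 (h ▸ A.zero_mem)
  refine ⟨f0, hf0s, hc0ne, ?_, fun f hf => ?_⟩
  · rw [ValuationSubring.mem_nonunits_iff_or]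
    right
    rwa [inv_inv]
  · rw [← A.valuation_le_one_iff, map_mul, map_inv₀, ← div_eq_mul_inv]
    have hpos : 0 < A.valuation (c f0) := zero_lt_iff.mpr ((A.valuation).ne_zero_iff.mpr hc0ne)
    exact (div_le_one₀ hpos).mpr (hf0max f hf)

/-- **The relation lemma.** -/
theorem relation (s : Finset E) (c : E → K) (x : E)
    (hs : ∀ f ∈ s, f ∈ h71fR0 Int Rat) (hne : s.Nonempty) (hcA : ∀ f ∈ s, c f ∉ A)
    (hx : x ∈ Int) (hz : x - ∑ f ∈ s, c f • f ∈ h71fSA A Int Rat) :
    ∃ f0 ∈ s, ∃ (m : E → ℕ) (h : E), h ∈ h71fR0 Int Rat ∧ m f0 = 1 ∧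
      (ℓ : K) • h = ∑ f ∈ s, (m f : K) • f := by
  classical
  obtain ⟨f0, hf0s, hc0ne, he, haA⟩ := exists_max s c hne hcA
  set e : K := (c f0)⁻¹ with he_def
  have heA : e ∈ A := ValuationSubring.nonunits_subset he
  refine ⟨f0, hf0s, ?_⟩
  let aA : E → A := fun f => if h : c f * e ∈ A then ⟨c f * e, h⟩ else 0
  have haA' : ∀ f ∈ s, ((aA f : A) : K) = c f * e := by
    intro f hf
    simp only [aA, dif_pos (haA f hf)]
  have haA0 : aA f0 = 1 := by
    apply Subtype.ext
    rw [haA' f0 hf0s, he_def, mul_inv_cancel₀ hc0ne]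
    rfl
  set z : E := x - ∑ f ∈ s, c f • f with hzdef
  have hzG : z ∈ G := H.sa_le_g hz
  have hfG : ∀ f ∈ s, f ∈ G := fun f hf => H.ratint_le _ (hs f hf).1 (hs f hf).2
  have hkey : e • x = ∑ f ∈ s, ((aA f : A) : K) • f + e • z := by
    have h1 : x = z + ∑ f ∈ s, c f • f := by rw [hzdef]; abel
    conv_lhs => rw [h1]
    rw [smul_add, add_comm, Finset.smul_sum]
    congr 1
    refine Finset.sum_congr rfl fun f hf => ?_
    rw [haA' f hf, smul_smul, mul_comm]
  have hrd0 : rd (∑ f ∈ s, ((aA f : A) : K) • f) = 0 := by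
    have hexG : e • x ∈ G := by
      rw [hkey]
      exact H.g_add _ (H.g_sum s aA hfG) _ (H.g_smul ⟨e, heA⟩ z hzG)
    have h1 := H.rd_int e he x hx hexG
    have h2 := H.rd_nonunit he hzG
    rw [hkey, H.rd_add _ (H.g_sum s aA hfG) _ (H.g_smul ⟨e, heA⟩ z hzG), h2, add_zero] at h1
    exact h1
  rw [H.rd_sum s aA hfG] at hrd0
  obtain ⟨m, hm0, hmG⟩ := H.rel s (fun f => π (aA f)) f0 hf0s
    (fun f hf => ⟨(hs f hf).1, hfG f hf⟩) (by simp only [haA0, map_one]) hrd0
  set g : E := ∑ f ∈ s, (m f : K) • f with hg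
  have hgR : g ∈ Rat := H.rat_sum_nat s m fun f hf => (hs f hf).1
  have hgI : g ∈ Int := H.int_sum_nat s m fun f hf => (hs f hf).2
  have hℓh : (ℓ : K) • ((ℓ : K)⁻¹ • g) = g := by
    rw [smul_smul, mul_inv_cancel₀ H.hℓ0, one_smul]
  refine ⟨m, (ℓ : K)⁻¹ • g, ⟨H.rat_div g hgR, ?_⟩, hm0, hℓh⟩
  refine H.qep _ (H.rat_div g hgR) hmG ?_
  rw [hℓh]
  exact hgI

/-- the inner induction (on the number of terms). -/
theorem inner : ∀ (n : ℕ) (s : Finset E) (c : E → K) (x : E), s.card = n →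
    (∀ f ∈ s, f ∈ h71fR0 Int Rat ∧ (ℓ : K) * c f ∈ A) → x ∈ Int →
    x - ∑ f ∈ s, c f • f ∈ h71fSA A Int Rat → x ∈ h71fSA A Int Rat := by
  intro n
  induction n using Nat.strong_induction_on with
  | _ n ih =>
  intro s c x hcard hs hx hz
  classical
  by_cases hex : ∃ f ∈ s, c f ∈ A
  · obtain ⟨f, hfs, hcf⟩ := hex
    refine ih (s.erase f).card (by rw [← hcard]; exact Finset.card_erase_lt_of_mem hfs)
      (s.erase f) c x rfl (fun f' hf' => hs f' (Finset.mem_of_mem_erase hf')) hx ?_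
    have h1 : x - ∑ f' ∈ s.erase f, c f' • f' = (x - ∑ f' ∈ s, c f' • f') + c f • f := by
      rw [← Finset.add_sum_erase s _ hfs]
      abel
    rw [h1]
    exact add_mem hz (H.smul_mem_sa hcf (Submodule.subset_span (hs f hfs).1))
  · simp only [not_exists, not_and] at hex
    by_cases hne : s.Nonempty
    swap
    · rw [Finset.not_nonempty_iff_eq_empty] at hne
      subst hne
      simpa using hz
    obtain ⟨f0, hf0s, m, h, hh, hm0, hrel⟩ :=
      H.relation s c x (fun f hf => (hs f hf).1) hne hex hx hz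
    set S1 : E := ∑ f ∈ s.erase f0, c f • f with hS1
    set S2 : E := ∑ f ∈ s.erase f0, (m f : K) • f with hS2
    have e1 : ∑ f ∈ s, c f • f = c f0 • f0 + S1 := (Finset.add_sum_erase s _ hf0s).symm
    have e2 : (ℓ : K) • h = f0 + S2 := by
      rw [hrel, ← Finset.add_sum_erase s _ hf0s, hm0, Nat.cast_one, one_smul]
    have e3 : ∑ f ∈ s.erase f0, (c f - c f0 * (m f : K)) • f = S1 - c f0 • S2 := by
      rw [hS1, hS2, Finset.smul_sum, ← Finset.sum_sub_distrib]
      refine Finset.sum_congr rfl fun f _ => ?_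
      rw [sub_smul, smul_smul]
    refine ih (s.erase f0).card (by rw [← hcard]; exact Finset.card_erase_lt_of_mem hf0s)
      (s.erase f0) (fun f => c f - c f0 * (m f : K)) x rfl ?_ hx ?_
    · intro f hf
      have hfs := Finset.mem_of_mem_erase hf
      refine ⟨(hs f hfs).1, ?_⟩
      have : (ℓ : K) * (c f - c f0 * (m f : K)) =
          (ℓ : K) * c f - ((ℓ : K) * c f0) * (m f : K) := by ring
      rw [this]
      exact A.sub_mem (hs f hfs).2 (A.mul_mem _ _ (hs f0 hf0s).2 (natCast_mem A _))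
    · have h2 : x - ∑ f ∈ s.erase f0, (c f - c f0 * (m f : K)) • f =
          (x - ∑ f ∈ s, c f • f) + ((ℓ : K) * c f0) • h := by
        rw [e3, e1, mul_comm, mul_smul, e2, smul_add]
        abel
      rw [h2]
      exact add_mem hz (H.smul_mem_sa (hs f0 hf0s).2 (Submodule.subset_span hh))

/-- division by `ℓ`. -/
theorem div_ell (x : E) (hx : x ∈ Int) (hℓx : (ℓ : K) • x ∈ h71fSA A Int Rat) :
    x ∈ h71fSA A Int Rat := by
  classical
  obtain ⟨a, s, hsR, -, hsum⟩ := Submodule.mem_span_iff_exists_finset_subset.mp hℓx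
  refine H.inner s.card s (fun f => ((a f : A) : K) * (ℓ : K)⁻¹) x rfl
    (fun f hf => ⟨hsR hf, ?_⟩) hx ?_
  · have : (ℓ : K) * (((a f : A) : K) * (ℓ : K)⁻¹) = ((a f : A) : K) := by
      field_simp [H.hℓ0]
    rw [this]
    exact (a f).2
  · have h1 : ∑ f ∈ s, (((a f : A) : K) * (ℓ : K)⁻¹) • f = x := by
      have h2 : ∑ f ∈ s, (((a f : A) : K) * (ℓ : K)⁻¹) • f =
          (ℓ : K)⁻¹ • ∑ f ∈ s, a f • f := by
        rw [Finset.smul_sum]
        refine Finset.sum_congr rfl fun f _ => ?_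
        rw [h71f_smul_def, smul_smul, mul_comm]
      rw [h2, hsum, smul_smul, inv_mul_cancel₀ H.hℓ0, one_smul]
    rw [h1, sub_self]
    exact zero_mem _

/-- division by a power of `ℓ`. -/
theorem div_pow : ∀ (n : ℕ) (x : E), x ∈ Int →
    ((ℓ : K) ^ n) • x ∈ h71fSA A Int Rat → x ∈ h71fSA A Int Rat := by
  intro n
  induction n with
  | zero =>
    intro x _ hx
    rwa [pow_zero, one_smul] at hx
  | succ n ih =>
    intro x hxI hx
    apply ih x hxI
    have hℓA : (ℓ : K) ∈ A := ValuationSubring.nonunits_subset H.hℓ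
    have hℓn : (ℓ : K) ^ n ∈ A := A.pow_mem hℓA n
    refine H.div_ell _ (H.int_smul ⟨_, hℓn⟩ x hxI) ?_
    rw [smul_smul, ← pow_succ']
    exact hx

omit H in
theorem exists_pow_mul_mem_finset (hpow : ∀ c : K, ∃ n : ℕ, (ℓ : K) ^ n * c ∈ A)
    (hℓA : (ℓ : K) ∈ A) (s : Finset E) (c : E → K) :
    ∃ n : ℕ, ∀ f ∈ s, (ℓ : K) ^ n * c f ∈ A := by
  classical
  induction s using Finset.induction_on with
  | empty => exact ⟨0, fun f hf => absurd hf (Finset.notMem_empty f)⟩
  | insert b t _ ih =>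
    obtain ⟨n, hn⟩ := ih
    obtain ⟨n', hn'⟩ := hpow (c b)
    refine ⟨n + n', fun f hf => ?_⟩
    rcases Finset.mem_insert.mp hf with rfl | hft
    · rw [pow_add, mul_assoc]
      exact A.mul_mem _ _ (A.pow_mem hℓA n) hn'
    · rw [pow_add, mul_comm ((ℓ : K) ^ n), mul_assoc]
      exact A.mul_mem _ _ (A.pow_mem hℓA n') (hn f hft)

/-- **The abstract base change lemma**: the chart is the `A`-span of its rational elements. -/
theorem core (x : E) (hx : x ∈ Int) : x ∈ h71fSA A Int Rat := by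
  classical
  obtain ⟨s, c, hs, hsum⟩ := H.desc x hx
  have hℓA : (ℓ : K) ∈ A := ValuationSubring.nonunits_subset H.hℓ
  obtain ⟨n, hn⟩ := exists_pow_mul_mem_finset H.hpow hℓA s c
  refine H.div_pow n x hx ?_
  rw [hsum, Finset.smul_sum]
  refine Submodule.sum_mem _ fun f hf => ?_
  rw [smul_smul]
  exact H.smul_mem_sa (hn f hf) (Submodule.subset_span (hs f hf))

end H71BC

end Abs

/-- **reduction of a multiple of an integral element**: let `S` be a subring of a field `F`,
`ρ : S → k'` a homomorphism to a domain, `B ⊆ S` a subring, `x` integral over `B` and `e ∈ S`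
with `ρ e = 0`.  If `e x ∈ S` then `ρ (e x) = 0`. -/
theorem h71f_red_zero_of_integral {F : Type*} [Field F] (S : Subring F) {k' : Type*}
    [CommRing k'] [IsDomain k'] (ρ : S →+* k') (B : Subring F) (hBS : B ≤ S) (e : S)
    (he : ρ e = 0) (x : F) (hx : IsIntegral B x) (y : S) (hy : (y : F) = e * x) : ρ y = 0 := by
  obtain ⟨p, hp, hpx⟩ := hx
  set pS : Polynomial S := p.map (Subring.inclusion hBS) with hpS
  have hpSm : pS.Monic := hp.map _
  have h1 : Polynomial.eval₂ S.subtype x pS = 0 := by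
    rw [hpS, Polynomial.eval₂_map]
    exact hpx
  have h2 : Polynomial.eval₂ S.subtype (S.subtype e * x) (Polynomial.scaleRoots pS e) = 0 :=
    Polynomial.scaleRoots_eval₂_eq_zero _ h1
  have h3 : Polynomial.eval₂ S.subtype (S.subtype y) (Polynomial.scaleRoots pS e) = 0 := by
    rw [show S.subtype y = S.subtype e * x from hy]
    exact h2
  have h4 : Polynomial.eval y (Polynomial.scaleRoots pS e) = 0 := by
    apply Subtype.val_injective
    have := Polynomial.eval₂_at_apply (p := Polynomial.scaleRoots pS e) S.subtype y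
    rw [h3] at this
    exact this.symm
  have h5 : Polynomial.eval (ρ y) ((Polynomial.scaleRoots pS e).map ρ) = 0 := by
    rw [Polynomial.eval_map, Polynomial.eval₂_at_apply, h4, map_zero]
  have h6 : (Polynomial.scaleRoots pS e).map ρ = Polynomial.X ^ pS.natDegree := by
    ext i
    rw [Polynomial.coeff_map, Polynomial.coeff_scaleRoots, Polynomial.coeff_X_pow]
    split_ifs with h
    · subst h
      rw [Nat.sub_self, pow_zero, mul_one, Polynomial.Monic.coeff_natDegree hpSm, map_one]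
    · rcases lt_or_gt_of_ne h with h' | h'
      · rw [map_mul, map_pow, he, zero_pow (by omega), mul_zero]
      · rw [Polynomial.coeff_eq_zero_of_natDegree_lt h', zero_mul, map_zero]
  rw [h6, Polynomial.eval_pow, Polynomial.eval_X] at h5
  exact eq_zero_of_pow_eq_zero h5

end Fermat.Agent.LGC
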