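import Fermat.Agent.LGC.Frac

/-!
# W3-LGC, FINITE at level `N = M ℓ` (helper71), part 2: the rational scale

Elementary facts on rational functions (elements of `modularFunctionFieldFull N`, ANY level
`N`) and the "soft" Gauss valuation (fractions `a / b` of series over `A`, `b ≢ 0 mod 𝔪`):

* `h71s_content` : a nonzero series over `ℤ` is `ℓ ^ n` times a series which is nonzero
  modulo `ℓ`.
* `h71s_exists_int_frac` : every rational function is a quotient of two series over `ℤ`.
* `h71s_scale` : every nonzero rational function `y` satisfies `ℓ ^ t a = y ℓ ^ s b` with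
  `a`, `b` series over `ℤ`, nonzero modulo `ℓ` (the value group of the rational functions for
  the Gauss valuation is `ℓ ^ ℤ`).
* `h71sr A π` : the soft reduction `a / b ↦ ā / b̄`, a ring homomorphism on `h44g_fracRing`.
* `h71s_red_rat` : the soft reduction of a rational fraction has coefficients in `𝔽_ℓ`.
* `h71s_div_of_red_eq_zero` : a rational fraction with reduction `0` is divisible by `ℓ`.
* `h71s_frac_or_inv` : a nonzero rational function or its inverse is a fraction.
-/

set_option autoImplicit false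
set_option linter.unusedSectionVars false
set_option linter.style.haveILetI false

open ModularCurve

noncomputable section

namespace Fermat.Agent.LGC

open Fermat.Agent.Red.GV Fermat.Agent.Red.GV.Asm

/-! ### generalities on `coeffMap` -/

theorem h71s_coeffMap_C {R S : Type*} [CommRing R] [CommRing S] (f : R →+* S) (r : R) :
    coeffMap f (HahnSeries.C r) = HahnSeries.C (f r) := by
  rw [HahnSeries.C_apply, coeffMap_single, HahnSeries.C_apply]

theorem h71s_coeffMap_injective {R S : Type*} [CommRing R] [CommRing S] (f : R →+* S)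
    (hf : Function.Injective f) : Function.Injective (coeffMap f) := by
  intro x y h
  ext n
  apply hf
  have := congrArg (fun s : LaurentSeries S => s.coeff n) h
  simpa using this

/-! ### content of an integer series -/

section Content

variable (ℓ : ℕ) [Fact ℓ.Prime]

/-- reduction modulo `ℓ` of an integer series. -/
abbrev h71s_redZ : LaurentSeries ℤ →+* LaurentSeries (ZMod ℓ) :=
  coeffMap (Int.castRingHom (ZMod ℓ))

/-- integer series as rational series. -/
abbrev h71s_embQ : LaurentSeries ℤ →+* LaurentSeries ℚ :=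
  coeffMap (Int.castRingHom ℚ)

theorem h71s_embQ_injective : Function.Injective h71s_embQ :=
  h71s_coeffMap_injective _ Int.cast_injective

/-- division of the coefficients by `ℓ`. -/
def h71s_divZ (a : LaurentSeries ℤ) : LaurentSeries ℤ :=
  a.map (⟨fun z => z / (ℓ : ℤ), Int.zero_ediv _⟩ : ZeroHom ℤ ℤ)

theorem h71s_coeff_divZ (a : LaurentSeries ℤ) (n : ℤ) :
    (h71s_divZ ℓ a).coeff n = a.coeff n / (ℓ : ℤ) := rfl

theorem h71s_C_mul_divZ (a : LaurentSeries ℤ) (h : h71s_redZ ℓ a = 0) :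
    HahnSeries.C (ℓ : ℤ) * h71s_divZ ℓ a = a := by
  ext n
  rw [HahnSeries.C_mul_eq_smul, HahnSeries.coeff_smul, h71s_coeff_divZ, smul_eq_mul]
  have h1 : ((a.coeff n : ℤ) : ZMod ℓ) = 0 := by
    have := congrArg (fun s : LaurentSeries (ZMod ℓ) => s.coeff n) h
    simpa using this
  have h2 : (ℓ : ℤ) ∣ a.coeff n := (ZMod.intCast_zmod_eq_zero_iff_dvd _ _).mp h1
  exact Int.mul_ediv_cancel' h2

theorem h71s_content_aux : ∀ (m : ℕ) (a : LaurentSeries ℤ) (i : ℤ),
    (a.coeff i).natAbs = m → a.coeff i ≠ 0 →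
    ∃ (n : ℕ) (a' : LaurentSeries ℤ),
      a = HahnSeries.C ((ℓ : ℤ) ^ n) * a' ∧ h71s_redZ ℓ a' ≠ 0 := by
  intro m
  induction m using Nat.strong_induction_on with
  | _ m ih =>
  intro a i hm hi
  by_cases h : h71s_redZ ℓ a = 0
  · have hdiv := h71s_C_mul_divZ ℓ a h
    have hci : a.coeff i = (ℓ : ℤ) * (h71s_divZ ℓ a).coeff i := by
      conv_lhs => rw [← hdiv]
      rw [HahnSeries.C_mul_eq_smul, HahnSeries.coeff_smul, smul_eq_mul]
    have hb0 : (h71s_divZ ℓ a).coeff i ≠ 0 := by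
      intro h0
      rw [h0, mul_zero] at hci
      exact hi hci
    have hlt : ((h71s_divZ ℓ a).coeff i).natAbs < m := by
      rw [← hm, hci, Int.natAbs_mul, Int.natAbs_natCast]
      have h2 : 2 ≤ ℓ := (Fact.out : ℓ.Prime).two_le
      have hpos : 0 < ((h71s_divZ ℓ a).coeff i).natAbs := Int.natAbs_pos.mpr hb0
      nlinarith
    obtain ⟨n, a', ha', hred⟩ := ih _ hlt (h71s_divZ ℓ a) i rfl hb0
    refine ⟨n + 1, a', ?_, hred⟩
    conv_lhs => rw [← hdiv, ha']
    rw [← mul_assoc, ← map_mul, pow_succ']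
  · exact ⟨0, a, by rw [pow_zero, map_one, one_mul], h⟩

/-- **content**: a nonzero integer series is `ℓ ^ n` times a series nonzero modulo `ℓ`. -/
theorem h71s_content (a : LaurentSeries ℤ) (ha : a ≠ 0) :
    ∃ (n : ℕ) (a' : LaurentSeries ℤ),
      a = HahnSeries.C ((ℓ : ℤ) ^ n) * a' ∧ h71s_redZ ℓ a' ≠ 0 := by
  have : ∃ i, a.coeff i ≠ 0 := by
    by_contra hcon
    simp only [not_exists, not_not] at hcon
    exact ha (HahnSeries.ext (funext hcon))
  obtain ⟨i, hi⟩ := this
  exact h71s_content_aux ℓ _ a i rfl hi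

end Content

/-! ### rational functions are quotients of integer series -/

section IntFrac

variable (N : ℕ) [NeZero N]

theorem h71s_embQ_jqd (d : ℕ) [NeZero d] :
    h71s_embQ (qExpand ℤ d (jqModC ℤ)) = qExpand ℚ d jq := by
  rw [h71s_embQ, ModularCurve.coeffMap_qExpand, coeffMap_jqModC]
  rfl

/-- every rational function is a quotient of two integer series. -/
theorem h71s_exists_int_frac (y : LaurentSeries ℚ) (hy : y ∈ modularFunctionFieldFull N) :
    ∃ a b : LaurentSeries ℤ, b ≠ 0 ∧ h71s_embQ a = y * h71s_embQ b := by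
  unfold modularFunctionFieldFull at hy
  induction hy using IntermediateField.adjoin_induction with
  | mem x hx =>
    obtain ⟨d, hd, -, rfl⟩ := hx
    letI : NeZero d := hd
    exact ⟨qExpand ℤ d (jqModC ℤ), 1, one_ne_zero, by rw [h71s_embQ_jqd, map_one, mul_one]⟩
  | algebraMap r =>
    refine ⟨HahnSeries.C r.num, HahnSeries.C (r.den : ℤ), ?_, ?_⟩
    · intro h0
      have h1 := congrArg (fun s : LaurentSeries ℤ => s.coeff 0) h0
      rw [HahnSeries.C_apply] at h1
      simp only [HahnSeries.coeff_single_same, HahnSeries.coeff_zero] at h1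
      exact r.den_ne_zero (by exact_mod_cast h1)
    · rw [h71s_embQ, h71s_coeffMap_C, h71s_coeffMap_C, algebraMap_laurentSeries_eq_single,
        ← HahnSeries.C_apply, ← map_mul]
      congr 1
      simp only [eq_intCast, Int.cast_natCast]
      exact (Rat.mul_den_eq_num r).symm
  | add x y _ _ hx hy =>
    obtain ⟨a, b, hb, hab⟩ := hx
    obtain ⟨c, d, hd, hcd⟩ := hy
    refine ⟨a * d + c * b, b * d, mul_ne_zero hb hd, ?_⟩
    rw [map_add, map_mul, map_mul, map_mul, hab, hcd]
    ring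
  | inv x _ hx =>
    obtain ⟨a, b, hb, hab⟩ := hx
    by_cases ha : a = 0
    · have hx0 : x = 0 := by
        rw [ha, map_zero] at hab
        rcases mul_eq_zero.mp hab.symm with h | h
        · exact h
        · exact absurd ((map_eq_zero_iff _ h71s_embQ_injective).mp h) hb
      exact ⟨0, 1, one_ne_zero, by rw [hx0, inv_zero, map_zero, zero_mul]⟩
    · refine ⟨b, a, ha, ?_⟩
      have hb' : h71s_embQ b ≠ 0 := (map_ne_zero_iff _ h71s_embQ_injective).mpr hb
      have ha' : h71s_embQ a ≠ 0 := (map_ne_zero_iff _ h71s_embQ_injective).mpr ha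
      have hx0 : x ≠ 0 := by
        rintro rfl
        rw [zero_mul] at hab
        exact ha' hab
      rw [hab]
      field_simp
  | mul x y _ _ hx hy =>
    obtain ⟨a, b, hb, hab⟩ := hx
    obtain ⟨c, d, hd, hcd⟩ := hy
    refine ⟨a * c, b * d, mul_ne_zero hb hd, ?_⟩
    rw [map_mul, map_mul, hab, hcd]
    ring

variable (ℓ : ℕ) [Fact ℓ.Prime]

/-- **the rational scale.** -/
theorem h71s_scale (y : LaurentSeries ℚ) (hy : y ∈ modularFunctionFieldFull N) (hy0 : y ≠ 0) :
    ∃ (s t : ℕ) (a b : LaurentSeries ℤ), h71s_redZ ℓ a ≠ 0 ∧ h71s_redZ ℓ b ≠ 0 ∧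
      HahnSeries.C ((ℓ : ℚ) ^ t) * h71s_embQ a = y * (HahnSeries.C ((ℓ : ℚ) ^ s) * h71s_embQ b) := by
  obtain ⟨a₀, b₀, hb₀, hab⟩ := h71s_exists_int_frac N y hy
  have hb₀' : h71s_embQ b₀ ≠ 0 := (map_ne_zero_iff _ h71s_embQ_injective).mpr hb₀
  have ha₀ : a₀ ≠ 0 := by
    rintro rfl
    rw [map_zero] at hab
    exact (mul_ne_zero hy0 hb₀') hab.symm
  obtain ⟨t, a, ha, hared⟩ := h71s_content ℓ a₀ ha₀
  obtain ⟨s, b, hb, hbred⟩ := h71s_content ℓ b₀ hb₀
  refine ⟨s, t, a, b, hared, hbred, ?_⟩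
  have e1 : h71s_embQ a₀ = HahnSeries.C ((ℓ : ℚ) ^ t) * h71s_embQ a := by
    rw [ha, map_mul, h71s_embQ, h71s_coeffMap_C]
    simp
  have e2 : h71s_embQ b₀ = HahnSeries.C ((ℓ : ℚ) ^ s) * h71s_embQ b := by
    rw [hb, map_mul, h71s_embQ, h71s_coeffMap_C]
    simp
  rw [← e1, ← e2, hab]

end IntFrac

/-! ### the soft reduction -/

section SoftRed

variable {K : Type} [Field K] (A : ValuationSubring K) {k : Type} [Field k] (π : A →+* k)

open Classical in
/-- **the soft reduction** `a / b ↦ ā / b̄` (zero outside the fractions). -/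
def h71sr (x : LaurentSeries K) : LaurentSeries k :=
  if h : h44g_IsFrac A π x then redA π h.choose / redA π h.choose_spec.choose else 0

variable {A π}

theorem h71sr_eq {x : LaurentSeries K} {a b : LaurentSeries A} (hb : redA π b ≠ 0)
    (h : embA A a = x * embA A b) : h71sr A π x = redA π a / redA π b := by
  have hx : h44g_IsFrac A π x := ⟨a, b, hb, h⟩
  rw [h71sr, dif_pos hx]
  obtain ⟨hb', h'⟩ := hx.choose_spec.choose_spec
  set a' := hx.choose
  set b' := hx.choose_spec.choose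
  rw [div_eq_div_iff hb' hb]
  have e : a' * b = a * b' := by
    apply embA_injective A
    rw [map_mul, map_mul, h', h]
    ring
  rw [← map_mul, ← map_mul, e]

theorem h71sr_of_not {x : LaurentSeries K} (h : ¬ h44g_IsFrac A π x) : h71sr A π x = 0 := by
  rw [h71sr, dif_neg h]

theorem h71sr_embA (y : LaurentSeries A) : h71sr A π (embA A y) = redA π y := by
  have h := h71sr_eq (π := π) (x := embA A y) (a := y) (b := 1)
    (by rw [map_one]; exact one_ne_zero) (by rw [map_one, mul_one])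
  rw [h, map_one, div_one]

theorem h71sr_zero : h71sr A π (0 : LaurentSeries K) = 0 := by
  have h := h71sr_embA (π := π) (0 : LaurentSeries A)
  rwa [map_zero, map_zero] at h

theorem h71sr_one : h71sr A π (1 : LaurentSeries K) = 1 := by
  have h := h71sr_embA (π := π) (1 : LaurentSeries A)
  rwa [map_one, map_one] at h

theorem h71sr_C (a : A) : h71sr A π (HahnSeries.C (a : K)) = HahnSeries.C (π a) := by
  have h := h71sr_embA (π := π) (HahnSeries.C a)
  rwa [embA_C, redA_C] at h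

theorem h71sr_add {x y : LaurentSeries K} (hx : h44g_IsFrac A π x) (hy : h44g_IsFrac A π y) :
    h71sr A π (x + y) = h71sr A π x + h71sr A π y := by
  obtain ⟨a, b, hb, hab⟩ := hx
  obtain ⟨c, d, hd, hcd⟩ := hy
  have h1 : embA A (a * d + c * b) = (x + y) * embA A (b * d) := by
    rw [map_add, map_mul, map_mul, map_mul, hab, hcd]
    ring
  have hbd : redA π (b * d) ≠ 0 := by
    rw [map_mul]
    exact mul_ne_zero hb hd
  rw [h71sr_eq hbd h1, h71sr_eq hb hab, h71sr_eq hd hcd, map_add, map_mul, map_mul, map_mul]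
  field_simp

theorem h71sr_mul {x y : LaurentSeries K} (hx : h44g_IsFrac A π x) (hy : h44g_IsFrac A π y) :
    h71sr A π (x * y) = h71sr A π x * h71sr A π y := by
  obtain ⟨a, b, hb, hab⟩ := hx
  obtain ⟨c, d, hd, hcd⟩ := hy
  have h1 : embA A (a * c) = (x * y) * embA A (b * d) := by
    rw [map_mul, map_mul, hab, hcd]
    ring
  have hbd : redA π (b * d) ≠ 0 := by
    rw [map_mul]
    exact mul_ne_zero hb hd
  rw [h71sr_eq hbd h1, h71sr_eq hb hab, h71sr_eq hd hcd, map_mul, map_mul]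
  field_simp

theorem h71sr_C_mul (a : A) {x : LaurentSeries K} (hx : h44g_IsFrac A π x) :
    h71sr A π (HahnSeries.C (a : K) * x) = HahnSeries.C (π a) * h71sr A π x := by
  rw [h71sr_mul (h44g_isFrac_C A π a) hx, h71sr_C]

variable (A π)

/-- the soft reduction as a ring homomorphism on the ring of fractions. -/
def h71srHom : h44g_fracRing A π →+* LaurentSeries k where
  toFun x := h71sr A π (x : LaurentSeries K)
  map_one' := h71sr_one
  map_mul' x y := h71sr_mul x.2 y.2
  map_zero' := h71sr_zero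
  map_add' x y := h71sr_add x.2 y.2

theorem h71srHom_apply (x : h44g_fracRing A π) :
    h71srHom A π x = h71sr A π (x : LaurentSeries K) := rfl

end SoftRed

/-! ### rational fractions -/

section RatFrac

variable {K : Type} [Field K] [Algebra ℚ K] (A : ValuationSubring K) {k : Type} [Field k]
  (π : A →+* k) (N : ℕ) [NeZero N] (ℓ : ℕ) [Fact ℓ.Prime]

/-- integer series as series over `A`. -/
abbrev h71s_intA : LaurentSeries ℤ →+* LaurentSeries A := coeffMap (Int.castRingHom A)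

theorem h71s_embA_intA (a : LaurentSeries ℤ) :
    embA A (h71s_intA A a) = coeffEmb K (h71s_embQ a) := by
  rw [embA, h71s_intA, h71s_embQ, coeffEmb, coeffMap_coeffMap, coeffMap_coeffMap]
  exact coeffMap_congr (RingHom.ext_int _ _) a

/-- the homomorphism `𝔽_ℓ → k`. -/
def h71s_kappa (hπ : IsResidueMap A π ℓ) : ZMod ℓ →+* k :=
  letI := Base.h80_charP A π ℓ hπ
  ZMod.castHom (dvd_refl ℓ) k

theorem h71s_redA_intA (hπ : IsResidueMap A π ℓ) (a : LaurentSeries ℤ) :
    redA π (h71s_intA A a) = coeffMap (h71s_kappa A π ℓ hπ) (h71s_redZ ℓ a) := by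
  rw [redA, h71s_intA, h71s_redZ, coeffMap_coeffMap, coeffMap_coeffMap]
  exact coeffMap_congr (RingHom.ext_int _ _) a

theorem h71s_redA_intA_ne_zero (hπ : IsResidueMap A π ℓ) {a : LaurentSeries ℤ}
    (ha : h71s_redZ ℓ a ≠ 0) : redA π (h71s_intA A a) ≠ 0 := by
  rw [h71s_redA_intA A π ℓ hπ]
  exact (map_ne_zero_iff _ (h71s_coeffMap_injective _ (h71s_kappa A π ℓ hπ).injective)).mpr ha

theorem h71s_natCast_C (n : ℕ) :
    (HahnSeries.C ((ℓ : K) ^ n) : LaurentSeries K) = embA A (HahnSeries.C ((ℓ : A) ^ n)) := by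
  rw [embA_C]
  congr 1

/-- the scale, over `(K, A)`. -/
theorem h71s_scaleA (y : LaurentSeries ℚ) (hy : y ∈ modularFunctionFieldFull N) (hy0 : y ≠ 0) :
    ∃ (s t : ℕ) (a b : LaurentSeries ℤ), h71s_redZ ℓ a ≠ 0 ∧ h71s_redZ ℓ b ≠ 0 ∧
      HahnSeries.C ((ℓ : K) ^ t) * embA A (h71s_intA A a) =
        coeffEmb K y * (HahnSeries.C ((ℓ : K) ^ s) * embA A (h71s_intA A b)) := by
  obtain ⟨s, t, a, b, ha, hb, h⟩ := h71s_scale N ℓ y hy hy0
  refine ⟨s, t, a, b, ha, hb, ?_⟩
  have h1 := congrArg (coeffEmb K) h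
  have hC : ∀ n : ℕ, coeffEmb K (HahnSeries.C ((ℓ : ℚ) ^ n)) = HahnSeries.C ((ℓ : K) ^ n) := by
    intro n
    rw [coeffEmb, h71s_coeffMap_C, map_pow, map_natCast]
  rw [map_mul, map_mul, map_mul, hC, hC] at h1
  rw [h71s_embA_intA, h71s_embA_intA]
  exact h1

/-- normal form of a nonzero rational function: `ℓ ^ d a = y b` or `a = y ℓ ^ d b` (`d > 0`)
with integer series `a`, `b` nonzero modulo `ℓ`. -/
theorem h71s_normal (y : LaurentSeries ℚ) (hy : y ∈ modularFunctionFieldFull N) (hy0 : y ≠ 0) :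
    ∃ (d : ℕ) (a b : LaurentSeries ℤ), h71s_redZ ℓ a ≠ 0 ∧ h71s_redZ ℓ b ≠ 0 ∧
      (HahnSeries.C ((ℓ : K) ^ d) * embA A (h71s_intA A a) =
          coeffEmb K y * embA A (h71s_intA A b) ∨
        (0 < d ∧ embA A (h71s_intA A a) =
          coeffEmb K y * (HahnSeries.C ((ℓ : K) ^ d) * embA A (h71s_intA A b)))) := by
  obtain ⟨s, t, a, b, ha, hb, h⟩ := h71s_scaleA A N ℓ y hy hy0
  have hℓ0 : (ℓ : K) ≠ 0 := by
    have h1 : (ℓ : ℚ) ≠ 0 := Nat.cast_ne_zero.mpr (Fact.out : ℓ.Prime).ne_zero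
    have h2 : (algebraMap ℚ K) (ℓ : ℚ) ≠ 0 := (map_ne_zero _).mpr h1
    rwa [map_natCast] at h2
  have hC0 : ∀ n : ℕ, (HahnSeries.C ((ℓ : K) ^ n) : LaurentSeries K) ≠ 0 := by
    intro n
    rw [HahnSeries.C_apply]
    exact HahnSeries.single_ne_zero (pow_ne_zero _ hℓ0)
  rcases le_or_gt s t with hst | hst
  · obtain ⟨d, rfl⟩ := Nat.exists_eq_add_of_le hst
    refine ⟨d, a, b, ha, hb, Or.inl ?_⟩
    apply mul_left_cancel₀ (hC0 s)
    rw [← mul_assoc, ← map_mul, ← pow_add, h]
    ring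
  · obtain ⟨d, rfl⟩ := Nat.exists_eq_add_of_le hst.le
    have hd : 0 < d := by omega
    refine ⟨d, a, b, ha, hb, Or.inr ⟨hd, ?_⟩⟩
    apply mul_left_cancel₀ (hC0 t)
    rw [h, pow_add, map_mul]
    ring

variable {A π N ℓ}

theorem h71s_pi_natCast (hπ : IsResidueMap A π ℓ) : π (ℓ : A) = 0 :=
  (hπ.ker_eq (ℓ : A)).mpr (by exact_mod_cast hπ.natCast_mem)

/-- the second case of the normal form is not a fraction. -/
theorem h71s_not_frac (hπ : IsResidueMap A π ℓ) {f : LaurentSeries K} {d : ℕ} (hd : 0 < d)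
    {a b : LaurentSeries ℤ} (ha : h71s_redZ ℓ a ≠ 0)
    (h : embA A (h71s_intA A a) = f * (HahnSeries.C ((ℓ : K) ^ d) * embA A (h71s_intA A b))) :
    ¬ h44g_IsFrac A π f := by
  rintro ⟨a₀, b₀, hb₀, h₀⟩
  have e : h71s_intA A a * b₀ = HahnSeries.C ((ℓ : A) ^ d) * h71s_intA A b * a₀ := by
    apply embA_injective A
    rw [map_mul, map_mul, map_mul, h, h₀, ← h71s_natCast_C]
    ring
  have e2 := congrArg (redA π) e
  rw [map_mul, map_mul, map_mul, redA_C, map_pow, h71s_pi_natCast hπ, zero_pow hd.ne', map_zero,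
    zero_mul, zero_mul] at e2
  rcases mul_eq_zero.mp e2 with h1 | h1
  · exact h71s_redA_intA_ne_zero A π ℓ hπ ha h1
  · exact hb₀ h1

/-- **the soft reduction of a rational fraction has coefficients in `𝔽_ℓ`.** -/
theorem h71s_red_rat (hπ : IsResidueMap A π ℓ) {y : LaurentSeries ℚ}
    (hy : y ∈ modularFunctionFieldFull N) (hf : h44g_IsFrac A π (coeffEmb K y)) :
    ∃ r : LaurentSeries (ZMod ℓ), h71sr A π (coeffEmb K y) = coeffMap (h71s_kappa A π ℓ hπ) r := by
  by_cases hy0 : y = 0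
  · exact ⟨0, by rw [hy0, map_zero, map_zero, h71sr_zero]⟩
  obtain ⟨d, a, b, ha, hb, h | ⟨hd, h⟩⟩ := h71s_normal A N ℓ y hy hy0
  · rw [h71s_natCast_C, ← map_mul] at h
    have hb' := h71s_redA_intA_ne_zero A π ℓ hπ hb
    rw [h71sr_eq hb' h, map_mul, redA_C, map_pow, h71s_pi_natCast hπ]
    rcases Nat.eq_zero_or_pos d with rfl | hd
    · refine ⟨h71s_redZ ℓ a / h71s_redZ ℓ b, ?_⟩
      rw [pow_zero, map_one, one_mul, map_div₀, h71s_redA_intA A π ℓ hπ,
        h71s_redA_intA A π ℓ hπ]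
    · refine ⟨0, ?_⟩
      rw [zero_pow hd.ne', map_zero, zero_mul, zero_div, map_zero]
  · exact absurd hf (h71s_not_frac hπ hd ha h)

/-- **a rational fraction with reduction zero is divisible by `ℓ`.** -/
theorem h71s_div_of_red_eq_zero (hπ : IsResidueMap A π ℓ) {y : LaurentSeries ℚ}
    (hy : y ∈ modularFunctionFieldFull N) (hf : h44g_IsFrac A π (coeffEmb K y))
    (h0 : h71sr A π (coeffEmb K y) = 0) :
    h44g_IsFrac A π (HahnSeries.C ((ℓ : K))⁻¹ * coeffEmb K y) := by
  by_cases hy0 : y = 0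
  · rw [hy0, map_zero, mul_zero]
    exact h44g_isFrac_zero A π
  have hℓ0 : (ℓ : K) ≠ 0 := by
    have h1 : (ℓ : ℚ) ≠ 0 := Nat.cast_ne_zero.mpr (Fact.out : ℓ.Prime).ne_zero
    have h2 : (algebraMap ℚ K) (ℓ : ℚ) ≠ 0 := (map_ne_zero _).mpr h1
    rwa [map_natCast] at h2
  obtain ⟨d, a, b, ha, hb, h | ⟨hd, h⟩⟩ := h71s_normal A N ℓ y hy hy0
  · have hb' := h71s_redA_intA_ne_zero A π ℓ hπ hb
    have ha' := h71s_redA_intA_ne_zero A π ℓ hπ ha
    rcases Nat.eq_zero_or_pos d with rfl | hd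
    · exfalso
      rw [pow_zero, map_one, one_mul] at h
      rw [h71sr_eq hb' h] at h0
      exact (div_ne_zero ha' hb') h0
    · obtain ⟨e, rfl⟩ := Nat.exists_eq_add_of_le hd
      refine ⟨HahnSeries.C ((ℓ : A) ^ e) * h71s_intA A a, h71s_intA A b, hb', ?_⟩
      rw [map_mul, ← h71s_natCast_C, mul_assoc, ← h, ← mul_assoc, ← map_mul]
      congr 2
      rw [pow_add, pow_one]
      field_simp
  · exact absurd hf (h71s_not_frac hπ hd ha h)

/-- **a nonzero rational function or its inverse is a fraction.** -/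
theorem h71s_frac_or_inv (hπ : IsResidueMap A π ℓ) {y : LaurentSeries ℚ}
    (hy : y ∈ modularFunctionFieldFull N) :
    h44g_IsFrac A π (coeffEmb K y) ∨ h44g_IsFrac A π (coeffEmb K y)⁻¹ := by
  by_cases hy0 : y = 0
  · left
    rw [hy0, map_zero]
    exact h44g_isFrac_zero A π
  have hf0 : coeffEmb K y ≠ 0 :=
    (map_ne_zero_iff _ (h71s_coeffMap_injective _ (algebraMap ℚ K).injective)).mpr hy0
  obtain ⟨d, a, b, ha, hb, h | ⟨hd, h⟩⟩ := h71s_normal A N ℓ y hy hy0
  · left
    rw [h71s_natCast_C, ← map_mul] at h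
    exact ⟨_, _, h71s_redA_intA_ne_zero A π ℓ hπ hb, h⟩
  · right
    refine ⟨HahnSeries.C ((ℓ : A) ^ d) * h71s_intA A b, h71s_intA A a,
      h71s_redA_intA_ne_zero A π ℓ hπ ha, ?_⟩
    rw [map_mul, ← h71s_natCast_C, h]
    field_simp

end RatFrac

/-! ### linear disjointness for pairs -/

section LinDisj

variable {k : Type} [Field k] (ℓ : ℕ) [Fact ℓ.Prime] (κ : ZMod ℓ →+* k)

/-- an `𝔽_ℓ`-linear retraction of `κ : 𝔽_ℓ → k` kills the `k`-linear relations between series
with coefficients in `𝔽_ℓ`. -/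
theorem h71s_retract_rel (φ : k →+ ZMod ℓ) (hφmul : ∀ (c : ZMod ℓ) (v : k), φ (v * κ c) = φ v * c)
    {ι : Type*} (s : Finset ι) (lam : ι → k) (r : ι → LaurentSeries (ZMod ℓ))
    (h : ∑ i ∈ s, HahnSeries.C (lam i) * coeffMap κ (r i) = 0) :
    ∑ i ∈ s, HahnSeries.C (φ (lam i)) * r i = 0 := by
  ext n
  have hn := congrArg (fun z : LaurentSeries k => z.coeff n) h
  simp only [HahnSeries.coeff_zero] at hn
  have e1 : (∑ i ∈ s, HahnSeries.C (lam i) * coeffMap κ (r i)).coeff n =
      ∑ i ∈ s, lam i * κ ((r i).coeff n) := by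
    rw [← HahnSeries.coeff.addMonoidHom_apply, map_sum]
    refine Finset.sum_congr rfl fun i _ => ?_
    rw [HahnSeries.coeff.addMonoidHom_apply, HahnSeries.C_mul_eq_smul, HahnSeries.coeff_smul,
      coeffMap_coeff, smul_eq_mul]
  have e2 : (∑ i ∈ s, HahnSeries.C (φ (lam i)) * r i).coeff n =
      ∑ i ∈ s, φ (lam i) * (r i).coeff n := by
    rw [← HahnSeries.coeff.addMonoidHom_apply, map_sum]
    refine Finset.sum_congr rfl fun i _ => ?_
    rw [HahnSeries.coeff.addMonoidHom_apply, HahnSeries.C_mul_eq_smul, HahnSeries.coeff_smul,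
      smul_eq_mul]
  rw [e1] at hn
  rw [e2, HahnSeries.coeff_zero]
  have := congrArg φ hn
  rw [map_sum, map_zero] at this
  rw [← this]
  refine Finset.sum_congr rfl fun i _ => ?_
  rw [hφmul]

/-- **linear disjointness for pairs**: a `k`-linear relation between pairs of series with
coefficients in the prime field, one of whose coefficients is `1`, gives a relation over the
prime field with the same coefficient equal to `1`. -/
theorem h71s_linDisj2 {ι : Type*} (s : Finset ι) (lam : ι → k)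
    (r r' : ι → LaurentSeries (ZMod ℓ)) (i0 : ι) (h1 : lam i0 = 1)
    (h : ∑ i ∈ s, HahnSeries.C (lam i) * coeffMap κ (r i) = 0)
    (h' : ∑ i ∈ s, HahnSeries.C (lam i) * coeffMap κ (r' i) = 0) :
    ∃ μ : ι → ZMod ℓ, μ i0 = 1 ∧ ∑ i ∈ s, HahnSeries.C (μ i) * r i = 0 ∧
      ∑ i ∈ s, HahnSeries.C (μ i) * r' i = 0 := by
  letI : Algebra (ZMod ℓ) k := κ.toAlgebra
  obtain ⟨φ, hφ⟩ := LinearMap.exists_leftInverse_of_injective (Algebra.linearMap (ZMod ℓ) k)
    (LinearMap.ker_eq_bot.mpr κ.injective)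
  have hφ' : ∀ c : ZMod ℓ, φ (κ c) = c := fun c => by
    have h0 : φ (algebraMap (ZMod ℓ) k c) = c := by
      have := LinearMap.congr_fun hφ c
      simpa using this
    exact h0
  have hφmul : ∀ (c : ZMod ℓ) (v : k), φ (v * κ c) = φ v * c := by
    intro c v
    have : v * κ c = c • v := by
      rw [Algebra.smul_def, mul_comm]
      rfl
    rw [this, map_smul, smul_eq_mul, mul_comm]
  refine ⟨fun i => φ (lam i), ?_, ?_, ?_⟩
  · show φ (lam i0) = 1
    rw [h1, ← map_one κ, hφ']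
  · exact h71s_retract_rel ℓ κ φ.toAddMonoidHom hφmul s lam r h
  · exact h71s_retract_rel ℓ κ φ.toAddMonoidHom hφmul s lam r' h'

end LinDisj

end Fermat.Agent.LGC
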