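import Fermat.Agent.Red.GGDefs
import Fermat.Agent.Red.GateAsm
import Fermat.Agent.Red.Kron.FrickeGal

/-!
# W3-LGC (semistable reduction of `J₀(Mℓ)` at `ℓ`, unipotent inertia): frozen interfaces

Architect: helper92.  Target: `Fermat.Agent.S34.InertiaUnipotentTorsion` (IN-MONO), consumed by
`Fermat.Agent.S34.s34_of_mono`.

Setting (as in P-RED): `K = Kbar = ℚ̄`, `A` a valuation subring of `ℚ̄` over the prime `ℓ`,
`M` a good level (`ℓ ∤ M`, `auxLevel ℓ ∣ M`), `N = M * ℓ`, `F = FF (M * ℓ)`,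
`α = heckeAlphaBar Kbar M ℓ : FF M → FF (M * ℓ)` (the inclusion), `w = kFricke M ℓ`.

* `dd N σ τ u = σ'σ(u) · u / (σ(u) · σ'(u))` : the double difference.
* `UnipGate N`, `UnipGateGood` : the function form of IN-MONO.
* `ssV A M ℓ` : the semistable Gauss ring: the integral closure in `FF (M * ℓ)` of the Gauss
  valuation ring of level `M` (it is the intersection of the two Gauss valuation rings
  `W_∞`, `W_0 = w (W_∞)`).
* `IfaceSSChart`, `IfaceSSGal`, `IfaceSSPerm`, `IfaceSSLocal`, `IfaceSSLP`, `IfaceSSPieces` :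
  the modular inputs, in the vocabulary of `Red/GGDefs.lean` and `Red/LocalFact.lean`.
* `LPSmoothStatement`, `LPNodeStatement`, `LocalAllDDStatement`, `GateAsmDDStatement` : the
  abstract (Mathlib + `Red/Local*.lean`, `Red/Gate*.lean`) statements of the local half.

Every declaration is a definition; nothing is assumed.
-/

set_option autoImplicit false

open AlgebraicCurve ModularCurve WithZero IsLocalRing

noncomputable section

namespace Fermat.Agent.LGC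

open Fermat.Agent.S37 Fermat.Agent.Red Fermat.Agent.Red.GG Fermat.Agent.Red.GV

/-! ## Targets -/

/-- the double difference `τσ(u) · u / (σ(u) · τ(u))`. -/
def dd (N : ℕ) (σ τ : GQ) (u : FF N) : FF N :=
  (gal N τ • (gal N σ • u)) * u / ((gal N σ • u) * (gal N τ • u))

/-- **UNIP gate at level `N`** (function form of IN-MONO): for inertia elements `σ, τ` at a
prime `ℓ ∥ N` and `u` whose divisor is divisible by `m` (prime to `ℓ`), the double difference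
of `u` is an `m`-th power. -/
def UnipGate (N : ℕ) [NeZero N] : Prop :=
  ∀ ℓ : ℕ, ℓ.Prime → ℓ ∣ N → ¬ ℓ ^ 2 ∣ N →
    ∀ A : ValuationSubring Kbar, A.LiesOverPrime ℓ →
    ∀ σ ∈ A.inertiaSubgroupIn ℚ, ∀ τ ∈ A.inertiaSubgroupIn ℚ,
    ∀ m : ℕ, ¬ ℓ ∣ m → ∀ u : FF N, u ≠ 0 →
      (∀ v : Place Kbar (FF N), (m : ℤ) ∣ v.ord u) → ∃ h : FF N, h ^ m = dd N σ τ u

/-- **UNIP gate at the good levels**: levels `N` with `ℓ ∥ N` and `auxLevel ℓ ∣ N`
(so `N = M * ℓ` with `M` a good level for `ℓ`). -/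
def UnipGateGood : Prop :=
  ∀ ℓ : ℕ, ℓ.Prime → ∀ (N : ℕ) [NeZero N], ℓ ∣ N → ¬ ℓ ^ 2 ∣ N → auxLevel ℓ ∣ N →
    ∀ A : ValuationSubring Kbar, A.LiesOverPrime ℓ →
    ∀ σ ∈ A.inertiaSubgroupIn ℚ, ∀ τ ∈ A.inertiaSubgroupIn ℚ,
    ∀ m : ℕ, ¬ ℓ ∣ m → ∀ u : FF N, u ≠ 0 →
      (∀ v : Place Kbar (FF N), (m : ℤ) ∣ v.ord u) → ∃ h : FF N, h ^ m = dd N σ τ u

/-- the same statement at the levels literally of the form `M * ℓ` (what the integration
proves; `UnipGateGood` follows by substitution). -/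
def UnipGateMul : Prop :=
  ∀ ℓ : ℕ, ℓ.Prime → ∀ (M : ℕ) [NeZero M], ¬ ℓ ∣ M → auxLevel ℓ ∣ M →
    ∀ A : ValuationSubring Kbar, A.LiesOverPrime ℓ →
    ∀ σ ∈ A.inertiaSubgroupIn ℚ, ∀ τ ∈ A.inertiaSubgroupIn ℚ,
    ∀ m : ℕ, ¬ ℓ ∣ m → ∀ u : FF (M * ℓ), u ≠ 0 →
      (∀ v : Place Kbar (FF (M * ℓ)), (m : ℤ) ∣ v.ord u) →
        ∃ h : FF (M * ℓ), h ^ m = dd (M * ℓ) σ τ u

/-! ## The semistable Gauss ring -/

section Level

variable (A : ValuationSubring Kbar) (M ℓ : ℕ) [NeZero M] [NeZero ℓ]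

/-- the image in `FF (M * ℓ)` of the Gauss valuation ring of level `M`. -/
def gaussVImage : Subring (FF (M * ℓ)) :=
  (gaussV A M).map (heckeAlphaBar Kbar M ℓ).toRingHom

set_option synthInstance.maxHeartbeats 400000 in
/-- shortcut instance (the instance found by unification is `Algebra.ofSubsemiring`, but the
search is slow). -/
instance (priority := 10000) instAlgebraGaussVImage :
    Algebra (gaussVImage A M ℓ) (FF (M * ℓ)) := inferInstance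

/-- **the semistable Gauss ring**: the integral closure in `FF (M * ℓ)` of the Gauss
valuation ring of level `M`. -/
def ssV : Subring (FF (M * ℓ)) :=
  (integralClosure (gaussVImage A M ℓ) (FF (M * ℓ))).toSubring

theorem mem_ssV_iff {x : FF (M * ℓ)} :
    x ∈ ssV A M ℓ ↔ IsIntegral (gaussVImage A M ℓ) x := Iff.rfl

/-- the ideal `𝔪_A · B` of a chart. -/
abbrev mExt (t : FF (M * ℓ)) : Ideal (chart (M * ℓ) A t) :=
  (maximalIdeal A).map (algebraMap A (chart (M * ℓ) A t))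

/-- **SS-CHART**: the axioms `H26Chart` for a chart of level `M * ℓ`, the semistable Gauss ring
and the places at which `t` is regular. -/
def IfaceSSChart (t : FF (M * ℓ)) : Prop :=
  H26Chart (chart (M * ℓ) A t) (ssV A M ℓ) (chartVal (M * ℓ) t)

/-- **SS-NT**: `1 ∉ 𝔪_A · ssV`. -/
def IfaceSSNt : Prop :=
  ∀ m ∈ maximalIdeal A, ∀ x ∈ ssV A M ℓ, algebraMap A (FF (M * ℓ)) m * x ≠ 1

/-- **SS-GAL**: every double difference under two inertia elements is `≡ 1` modulo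
`π · ssV` for some nonzero `π ∈ 𝔪_A`. -/
def IfaceSSGal : Prop :=
  ∀ σ ∈ A.inertiaSubgroupIn ℚ, ∀ τ ∈ A.inertiaSubgroupIn ℚ,
    ∀ h : FF (M * ℓ), h ≠ 0 →
      ∃ π : A, π ∈ maximalIdeal A ∧ π ≠ 0 ∧ dd (M * ℓ) σ τ h ∈ h26U π (ssV A M ℓ)

/-- **SS-PERM**: an inertia element maps functions without zeros and poles at the places
centered at a closed point of the special fibre to functions with the same property. -/
def IfaceSSPerm (t : FF (M * ℓ)) : Prop :=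
  ∀ σ ∈ A.inertiaSubgroupIn ℚ, ∀ 𝔫 : Ideal (chart (M * ℓ) A t), 𝔫.IsMaximal →
    mExt A M ℓ t ≤ 𝔫 → ∀ x : FF (M * ℓ),
      (∀ k, h26Centered (chart (M * ℓ) A t) (chartVal (M * ℓ) t) 𝔫 k →
        chartVal (M * ℓ) t k x = 1) →
      ∀ k, h26Centered (chart (M * ℓ) A t) (chartVal (M * ℓ) t) 𝔫 k →
        chartVal (M * ℓ) t k (gal (M * ℓ) σ • x) = 1

/-- **SS-LOCAL** (the geometric heart): every closed point of the special fibre of a chart of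
level `M * ℓ` is either a smooth point (one local parameter modulo `𝔪_A`) or a node with an
exact local equation `x · y = a · c`, `a ∈ 𝔪_A` nonzero, `c` a local unit. -/
def IfaceSSLocal (t : FF (M * ℓ)) : Prop :=
  ∀ 𝔫 : Ideal (chart (M * ℓ) A t), 𝔫.IsMaximal → mExt A M ℓ t ≤ 𝔫 →
    (∃ t' ∈ 𝔫, ∀ z ∈ 𝔫, ∃ s, s ∉ 𝔫 ∧ s * z ∈ Ideal.span {t'} ⊔ mExt A M ℓ t) ∨
    (∃ x ∈ 𝔫, ∃ y ∈ 𝔫, ∃ c, c ∉ 𝔫 ∧ ∃ a : A, a ≠ 0 ∧
      x * y = algebraMap A (chart (M * ℓ) A t) a * c ∧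
      ∀ z ∈ 𝔫, ∃ s, s ∉ 𝔫 ∧ s * z ∈ Ideal.span {x, y} ⊔ mExt A M ℓ t)

/-- **SS-LP** (local principality up to the special fibre): every place has a function with a
simple zero at it and no other zero or pole among the places with the same centre on the
special fibre. -/
def IfaceSSLP (t : FF (M * ℓ)) : Prop :=
  ∀ i : ChartPlace (M * ℓ) t, ∃ G : FF (M * ℓ),
    ∀ 𝔫 : Ideal (chart (M * ℓ) A t), 𝔫.IsMaximal → mExt A M ℓ t ≤ 𝔫 →
      h26Centered (chart (M * ℓ) A t) (chartVal (M * ℓ) t) 𝔫 i →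
        chartVal (M * ℓ) t i G = exp (-1 : ℤ) ∧
        ∀ k, h26Centered (chart (M * ℓ) A t) (chartVal (M * ℓ) t) 𝔫 k → k ≠ i →
          chartVal (M * ℓ) t k G = 1

end Level

/-- the `j`-function of level `M * ℓ` (no `NeZero (M * ℓ)` instance needed by the users). -/
def jSS (M ℓ : ℕ) [NeZero M] [NeZero ℓ] : FF (M * ℓ) :=
  heckeAlphaBar Kbar M ℓ (jB M)

/-- the finite chart of level `M * ℓ` is generated as an `A[j]`-module by finitely many of its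
elements (`GG.IfaceFinite` at level `M * ℓ`, stated without instance arguments). -/
def IfaceSSFinite (A : ValuationSubring Kbar) (M ℓ : ℕ) [NeZero M] [NeZero ℓ] : Prop :=
  ∃ S : Finset (FF (M * ℓ)), (∀ s ∈ S, s ∈ modelAt (M * ℓ) A (jSS M ℓ)) ∧
    ∀ x ∈ modelAt (M * ℓ) A (jSS M ℓ), ∃ c : FF (M * ℓ) → Polynomial A,
      x = ∑ s ∈ S, ModelO.h85ev (M * ℓ) A (jSS M ℓ) (c s) * s

/-- `GG.IfaceSection` at level `M * ℓ`. -/
def IfaceSSSection (A : ValuationSubring Kbar) (M ℓ : ℕ) [NeZero M] [NeZero ℓ]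
    (t : FF (M * ℓ)) : Prop :=
  ∀ (i : ChartPlace (M * ℓ) t) (𝔫 : Ideal (chart (M * ℓ) A t)), 𝔫.IsMaximal →
    mExt A M ℓ t ≤ 𝔫 → h26Centered (chart (M * ℓ) A t) (chartVal (M * ℓ) t) 𝔫 i →
    ∃ φ : chart (M * ℓ) A t →ₐ[A] A,
      (∀ b : chart (M * ℓ) A t, φ b = 0 ↔ chartVal (M * ℓ) t i (b : FF (M * ℓ)) < 1) ∧
      (RingHom.ker (φ : chart (M * ℓ) A t →+* A)).FG

/-- `GG.IfaceGeneric` at level `M * ℓ`. -/
def IfaceSSGeneric (A : ValuationSubring Kbar) (M ℓ : ℕ) [NeZero M] [NeZero ℓ]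
    (t : FF (M * ℓ)) : Prop :=
  ∀ 𝔫 : Ideal (chart (M * ℓ) A t), 𝔫.IsMaximal → ¬ mExt A M ℓ t ≤ 𝔫 →
    ∀ i k : ChartPlace (M * ℓ) t,
      h26Centered (chart (M * ℓ) A t) (chartVal (M * ℓ) t) 𝔫 i →
      h26Centered (chart (M * ℓ) A t) (chartVal (M * ℓ) t) 𝔫 k → i = k

/-- **the package of inputs of the UNIP gate at the good levels.** -/
def IfaceSSPieces : Prop :=
  ∀ (ℓ : ℕ) (hℓ : ℓ.Prime) (M : ℕ) [NeZero M], ¬ ℓ ∣ M → auxLevel ℓ ∣ M →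
    haveI : NeZero ℓ := ⟨hℓ.ne_zero⟩
    ∀ A : ValuationSubring Kbar, A.LiesOverPrime ℓ →
      (IfaceSSChart A M ℓ (jSS M ℓ) ∧ IfaceSSChart A M ℓ (jSS M ℓ)⁻¹) ∧
      IfaceSSNt A M ℓ ∧
      IfaceSSFinite A M ℓ ∧
      (IfaceSSGeneric A M ℓ (jSS M ℓ) ∧ IfaceSSGeneric A M ℓ (jSS M ℓ)⁻¹) ∧
      IfaceSSGal A M ℓ ∧
      (IfaceSSPerm A M ℓ (jSS M ℓ) ∧ IfaceSSPerm A M ℓ (jSS M ℓ)⁻¹) ∧
      (IfaceSSLP A M ℓ (jSS M ℓ) ∧ IfaceSSLP A M ℓ (jSS M ℓ)⁻¹)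

/-! ## The abstract statements of the local half -/

section Abstract

universe u v w

/-- **LP at a smooth point** (abstract): with a local parameter `t` at `𝔫` and a section `φ`
at the place `i`, the function `t - φ t` has a simple zero at `i` and no other zero among the
places centered at `𝔫`. -/
def LPSmoothStatement : Prop :=
  ∀ {A : Type u} [CommRing A] [IsLocalRing A] {F : Type v} [Field F] [Algebra A F]
    {B : Subalgebra A F} {V : Subring F} {ι : Type w} {val : ι → Valuation F ℤᵐ⁰},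
    H26Chart B V val →
    ∀ (𝔫 : Ideal B), 𝔫.IsPrime → (maximalIdeal A).map (algebraMap A B) ≤ 𝔫 →
    ∀ t ∈ 𝔫,
      (∀ z ∈ 𝔫, ∃ s, s ∉ 𝔫 ∧
        s * z ∈ Ideal.span {t} ⊔ (maximalIdeal A).map (algebraMap A B)) →
    ∀ (i : ι) (φ : B →ₐ[A] A), (∀ b : B, φ b = 0 ↔ val i (b : F) < 1) →
      (RingHom.ker (φ : B →+* A)).FG → h26Centered B val 𝔫 i →
      val i ((t : F) - algebraMap A F (φ t)) = exp (-1 : ℤ) ∧
      ∀ k, h26Centered B val 𝔫 k → k ≠ i → val k ((t : F) - algebraMap A F (φ t)) = 1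

/-- **LP at a node** (abstract): with `x y = a c` (`a ∈ A` nonzero, `c ∉ 𝔫`),
`𝔫 = (x, y) + 𝔪_A B` locally, and a section `φ` at the place `i`, the function `x - φ x` has
a simple zero at `i` and no other zero among the places centered at `𝔫`.  The places are
trivial on the nonzero constants. -/
def LPNodeStatement : Prop :=
  ∀ {A : Type u} [CommRing A] [IsLocalRing A] {F : Type v} [Field F] [Algebra A F]
    {B : Subalgebra A F} {V : Subring F} {ι : Type w} {val : ι → Valuation F ℤᵐ⁰},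
    H26Chart B V val →
    (∀ (i : ι) (a : A), algebraMap A F a ≠ 0 → val i (algebraMap A F a) = 1) →
    ∀ (𝔫 : Ideal B), 𝔫.IsPrime → (maximalIdeal A).map (algebraMap A B) ≤ 𝔫 →
    ∀ x ∈ 𝔫, ∀ y ∈ 𝔫, ∀ c : B, c ∉ 𝔫 → ∀ a : A, algebraMap A F a ≠ 0 →
      x * y = algebraMap A B a * c →
      (∀ z ∈ 𝔫, ∃ s, s ∉ 𝔫 ∧
        s * z ∈ Ideal.span {x, y} ⊔ (maximalIdeal A).map (algebraMap A B)) →
    ∀ (i : ι) (φ : B →ₐ[A] A), (∀ b : B, φ b = 0 ↔ val i (b : F) < 1) →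
      (RingHom.ker (φ : B →+* A)).FG → h26Centered B val 𝔫 i →
      val i ((x : F) - algebraMap A F (φ x)) = exp (-1 : ℤ) ∧
      ∀ k, h26Centered B val 𝔫 k → k ≠ i → val k ((x : F) - algebraMap A F (φ x)) = 1

/-- **The local input of the UNIP gate at all closed points of a chart** (abstract; the
analogue of `h26_local_all` for a double difference `w = τσ(u) u / (σ(u) τ(u))`). -/
def LocalAllDDStatement : Prop :=
  ∀ {A : Type u} [CommRing A] [IsDomain A] [ValuationRing A]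
    {F : Type v} [Field F] [Algebra A F]
    {B : Subalgebra A F} {V : Subring F} {ι : Type w} {val : ι → Valuation F ℤᵐ⁰},
    H26Chart B V val →
    Function.Injective (algebraMap A F) →
    (∀ c ∈ maximalIdeal A, c ≠ 0 → ∀ a : A, a ≠ 0 → ∃ k : ℕ, a ∣ c ^ k) →
    (∀ m ∈ maximalIdeal A, ∀ x ∈ V, algebraMap A F m * x ≠ 1) →
    ∀ (σ τ : F ≃+* F),
    -- `σ` and `τ` respect the places centered at the closed points of the special fibre
    (∀ 𝔫 : Ideal B, 𝔫.IsMaximal → (maximalIdeal A).map (algebraMap A B) ≤ 𝔫 → ∀ x : F,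
      (∀ k, h26Centered B val 𝔫 k → val k x = 1) →
        ∀ k, h26Centered B val 𝔫 k → val k (σ x) = 1 ∧ val k (τ x) = 1) →
    -- double differences are `≡ 1`
    (∀ h : F, h ≠ 0 → ∃ π : A, π ∈ maximalIdeal A ∧ π ≠ 0 ∧
      τ (σ h) * h / (σ h * τ h) ∈ h26U π V) →
    -- local principality
    (∀ i : ι, ∃ G : F, ∀ 𝔫 : Ideal B, 𝔫.IsMaximal →
      (maximalIdeal A).map (algebraMap A B) ≤ 𝔫 → h26Centered B val 𝔫 i →
        val i G = exp (-1 : ℤ) ∧ ∀ k, h26Centered B val 𝔫 k → k ≠ i → val k G = 1) →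
    -- generic fibre
    (∀ 𝔫 : Ideal B, 𝔫.IsMaximal → ¬ (maximalIdeal A).map (algebraMap A B) ≤ 𝔫 →
      ∀ i k, h26Centered B val 𝔫 i → h26Centered B val 𝔫 k → i = k) →
    ∀ (u : F), u ≠ 0 → ∀ r : ℕ,
      (∀ i, ∃ n : ℤ, val i u = exp (-((r : ℤ) * n))) →
      (∀ i, ∃ n : ℤ, val i (τ (σ u) * u / (σ u * τ u)) = exp (-((r : ℤ) * n))) →
    ∃ π₀ ∈ maximalIdeal A, π₀ ≠ 0 ∧ ∀ π ∈ maximalIdeal A, π ∣ π₀ →
      ∀ 𝔫 : Ideal B, 𝔫.IsMaximal →
        ∃ g : F, g ≠ 0 ∧ ((maximalIdeal A).map (algebraMap A B) ≤ 𝔫 → g ∈ h26U π V) ∧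
          ∃ s : B, s ∉ 𝔫 ∧
            (s : F) * (τ (σ u) * u / (σ u * τ u) * (g ^ r)⁻¹) ∈ B ∧
            (s : F) * (g ^ r * (τ (σ u) * u / (σ u * τ u))⁻¹) ∈ B

/-- **Abstract assembly of the gate from local data** (the second half of the proof of
`h26_gate_asm`, with the output of `h26_local_all` as a hypothesis). -/
def GateAsmOfLocalStatement : Prop :=
  ∀ {A : Type u} [CommRing A] [IsDomain A] [ValuationRing A]
    {F : Type v} [Field F] [Algebra A F],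
    Function.Injective (algebraMap A F) →
    (∀ c ∈ maximalIdeal A, c ≠ 0 → ∀ a : A, a ≠ 0 → ∃ k : ℕ, a ∣ c ^ k) →
    ∀ (V : Subring F),
    (∀ m ∈ maximalIdeal A, ∀ x ∈ V, algebraMap A F m * x ≠ 1) →
    ∀ (j : F), j ≠ 0 → ∀ (B₀ Binf Bm : Subalgebra A F),
    j ∈ B₀ → j⁻¹ ∈ Binf → B₀ ≤ Bm → Binf ≤ Bm →
    (∀ x ∈ Bm, ∃ k : ℕ, j ^ k * x ∈ B₀) →
    (∀ x ∈ Bm, ∃ k : ℕ, j⁻¹ ^ k * x ∈ Binf) →
    ∀ (r : ℕ), 0 < r → IsUnit (r : A) →
    (∀ x : F, x ^ r ∈ B₀ → x ∈ B₀) →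
    (∀ x : F, x ^ r ∈ Binf → x ∈ Binf) →
    (∀ x : F, x ^ r ∈ Bm → x ∈ Bm) →
    (∀ a : A, algebraMap A F a ≠ 0 → ∀ x ∈ V, a • x ∈ Bm → x ∈ Bm) →
    ∀ {ι₀ ι₁ : Type w} (v₀ : ι₀ → Valuation F ℤᵐ⁰) (v₁ : ι₁ → Valuation F ℤᵐ⁰),
    H26Chart B₀ V v₀ → H26Chart Binf V v₁ →
    ∀ (S : Finset F), (∀ s ∈ S, s ∈ B₀) →
    (∀ x ∈ B₀, x ∈ Submodule.span A {y : F | ∃ a : ℕ, ∃ s ∈ S, y = j ^ a * s}) →
    ∀ (w : F), w ≠ 0 →
    ∀ (π : A), π ∈ maximalIdeal A → π ≠ 0 → w ∈ h26U π V →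
    (∀ 𝔫 : Ideal B₀, 𝔫.IsMaximal →
      ∃ g : F, g ≠ 0 ∧ ((maximalIdeal A).map (algebraMap A B₀) ≤ 𝔫 → g ∈ h26U π V) ∧
        ∃ s : B₀, s ∉ 𝔫 ∧ (s : F) * (w * (g ^ r)⁻¹) ∈ B₀ ∧ (s : F) * (g ^ r * w⁻¹) ∈ B₀) →
    (∀ 𝔫 : Ideal Binf, 𝔫.IsMaximal →
      ∃ g : F, g ≠ 0 ∧ ((maximalIdeal A).map (algebraMap A Binf) ≤ 𝔫 → g ∈ h26U π V) ∧
        ∃ s : Binf, s ∉ 𝔫 ∧ (s : F) * (w * (g ^ r)⁻¹) ∈ Binf ∧
          (s : F) * (g ^ r * w⁻¹) ∈ Binf) →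
    ∃ t : F, t ≠ 0 ∧ t ^ r * w⁻¹ ∈ B₀ ∧ t ^ r * w⁻¹ ∈ Binf

end Abstract

end Fermat.Agent.LGC
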