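import Fermat.Agent.LGC.Fin71Abs
import Fermat.Agent.LGC.Fin71Scale
import Fermat.Agent.LGC.SSInt
import Fermat.Agent.LGC.Skeleton
import Fermat.Agent.Red.BC.Main
import Fermat.Agent.Red.ModelO.Bridge85
import Fermat.Agent.Red.GGSection

/-!
# W3-LGC, FINITE at level `N = M ℓ` (helper71), part 3: base change at level `M ℓ`

`ℓ ∤ M` a prime, `A` a valuation subring of `ℚ̄` over `ℓ`, `w` the Fricke involution of
`F_{Mℓ}`.

* `h71i_G A M ℓ hℓ hM` : the subring of the functions `x` such that the `q`-expansions of `x`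
  and of `w x` are fractions `a / b` of series over `A`, `b ≢ 0 mod 𝔪_A` (`= W_∞ ∩ W_0`).
* `h71i_rd` : the pair of the soft reductions at the cusps `∞` and `0`.
-/

set_option autoImplicit false
set_option linter.unusedSectionVars false
set_option linter.style.haveILetI false

open AlgebraicCurve ModularCurve IsLocalRing

noncomputable section

namespace Fermat.Agent.LGC

open Fermat.Agent.S37 Fermat.Agent.Red Fermat.Agent.Red.GG Fermat.Agent.Red.GV
  Fermat.Agent.Red.Kron Fermat.Agent.Red.BC Fermat.Agent.Red.ModelO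

section Setup

variable (A : ValuationSubring Kbar) (M ℓ : ℕ) [NeZero M] [NeZero ℓ]

/-- the functions whose `q`-expansion is a fraction (`W_∞`). -/
def h71i_Winf : Subring (FF (M * ℓ)) :=
  (h44g_fracRing A (residue A)).comap (h58_val (M * ℓ))

theorem h71i_mem_Winf {x : FF (M * ℓ)} :
    x ∈ h71i_Winf A M ℓ ↔ h44g_IsFrac A (residue A) (x : LaurentSeries Kbar) := Iff.rfl

variable (hℓ : ℓ.Prime) (hM : ¬ ℓ ∣ M)

/-- the functions `x` such that `x` and `w x` have fractions as `q`-expansions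
(`W_∞ ∩ W_0`). -/
def h71i_G : Subring (FF (M * ℓ)) :=
  h71i_Winf A M ℓ ⊓ (h71i_Winf A M ℓ).comap (kFricke M ℓ hℓ hM : FF (M * ℓ) →+* FF (M * ℓ))

theorem h71i_mem_G {x : FF (M * ℓ)} :
    x ∈ h71i_G A M ℓ hℓ hM ↔ h44g_IsFrac A (residue A) (x : LaurentSeries Kbar) ∧
      h44g_IsFrac A (residue A) ((kFricke M ℓ hℓ hM x : FF (M * ℓ)) : LaurentSeries Kbar) :=
  Iff.rfl

/-- the pair of the soft reductions at the cusps `∞` and `0`. -/
def h71i_rd (x : FF (M * ℓ)) :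
    LaurentSeries (ResidueField A) × LaurentSeries (ResidueField A) :=
  (h71sr A (residue A) (x : LaurentSeries Kbar),
    h71sr A (residue A) ((kFricke M ℓ hℓ hM x : FF (M * ℓ)) : LaurentSeries Kbar))

/-! ### constants -/

theorem h71i_coe_cst (N : ℕ) (c : Kbar) :
    ((cst N c : FF N) : LaurentSeries Kbar) = HahnSeries.C c := by
  rw [h58_C_eq_algebraMap]
  rfl

theorem h71i_coe_smul (N : ℕ) (c : Kbar) (x : FF N) :
    ((c • x : FF N) : LaurentSeries Kbar) = HahnSeries.C c * (x : LaurentSeries Kbar) := by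
  rw [Algebra.smul_def, ← h71i_coe_cst N]
  rfl

theorem h71i_fricke_smul (c : Kbar) (x : FF (M * ℓ)) :
    kFricke M ℓ hℓ hM (c • x) = c • kFricke M ℓ hℓ hM x := by
  rw [Algebra.smul_def, Algebra.smul_def, map_mul]
  congr 1
  exact kFricke_cst M ℓ hℓ hM c

theorem h71i_cst_mem_G (a : A) : cst (M * ℓ) (a : Kbar) ∈ h71i_G A M ℓ hℓ hM := by
  have h1 : h44g_IsFrac A (residue A) ((cst (M * ℓ) (a : Kbar) : FF (M * ℓ)) :
      LaurentSeries Kbar) := by
    rw [h71i_coe_cst]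
    exact h44g_isFrac_C A _ a
  refine ⟨h1, ?_⟩
  show h44g_IsFrac A (residue A) ((kFricke M ℓ hℓ hM (cst (M * ℓ) (a : Kbar)) : FF (M * ℓ)) :
      LaurentSeries Kbar)
  rw [kFricke_cst]
  exact h1

theorem h71i_smul_mem_G (a : A) {x : FF (M * ℓ)} (hx : x ∈ h71i_G A M ℓ hℓ hM) :
    (a : Kbar) • x ∈ h71i_G A M ℓ hℓ hM := by
  rw [Algebra.smul_def]
  exact mul_mem (h71i_cst_mem_G A M ℓ hℓ hM a) hx

/-! ### rationality -/

/-- a function fixed by the Galois action is rational. -/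
theorem h71i_isRat_of_fixed (N : ℕ) [NeZero N] (f : FF N) (h : ∀ σ : GQ, gal N σ • f = f) :
    IsRat f := by
  have hc : ∀ n : ℤ, (f : LaurentSeries Kbar).coeff n ∈ Set.range (algebraMap ℚ Kbar) := by
    intro n
    haveI : IsAlgClosure ℚ (AlgebraicClosure ℚ) :=
      ⟨inferInstance, AlgebraicClosure.isAlgebraic ℚ⟩
    haveI : IsGalois ℚ (AlgebraicClosure ℚ) := IsAlgClosure.isGalois ℚ (AlgebraicClosure ℚ)
    rw [InfiniteGalois.mem_range_algebraMap_iff_fixed]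
    intro σ
    have h1 := congrArg (fun x : FF N => (x : LaurentSeries Kbar).coeff n) (h σ)
    simp only [coe_arithmeticGalois_smul, coeffMap_coeff] at h1
    exact h1
  obtain ⟨g, hg, hgf⟩ := h58_exists_rat_of_coeff (modularFunctionFieldFull N) f.2 hc
  exact ⟨g, hg, hgf⟩

/-- the Fricke involution preserves the rational functions. -/
theorem h71i_isRat_fricke {f : FF (M * ℓ)} (hf : IsRat f) : IsRat (kFricke M ℓ hℓ hM f) := by
  haveI : NeZero (M * ℓ) := ⟨Nat.mul_ne_zero (NeZero.ne M) (NeZero.ne ℓ)⟩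
  apply h71i_isRat_of_fixed
  intro σ
  rw [← kFricke_gal, GalI.gal_smul_of_isRat σ hf]

/-! ### the rational Gauss valuation rings -/

/-- the valuation ring `W_∞ ∩ F_ℚ` of the rational function field. -/
def h71i_WinfQ (hA : A.LiesOverPrime ℓ) : ValuationSubring (FQ (M * ℓ)) :=
  { (h71i_Winf A M ℓ).comap (h85ratEmb (M * ℓ)) with
    mem_or_inv_mem' := by
      intro y
      haveI : Fact ℓ.Prime := ⟨hℓ⟩
      rcases h71s_frac_or_inv (isResidueMap_residue A ℓ hA) y.2 with h | h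
      · exact Or.inl h
      · right
        show h44g_IsFrac A (residue A) ((h85ratEmb (M * ℓ) y⁻¹ : FF (M * ℓ)) : LaurentSeries Kbar)
        rw [map_inv₀]
        exact h }

theorem h71i_mem_WinfQ (hA : A.LiesOverPrime ℓ) {y : FQ (M * ℓ)} :
    y ∈ h71i_WinfQ A M ℓ hℓ hA ↔ h85ratEmb (M * ℓ) y ∈ h71i_Winf A M ℓ := Iff.rfl

/-- the valuation ring `W_0 ∩ F_ℚ` of the rational function field. -/
def h71i_WzeroQ (hA : A.LiesOverPrime ℓ) : ValuationSubring (FQ (M * ℓ)) :=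
  { ((h71i_Winf A M ℓ).comap (kFricke M ℓ hℓ hM : FF (M * ℓ) →+* FF (M * ℓ))).comap
      (h85ratEmb (M * ℓ)) with
    mem_or_inv_mem' := by
      intro y
      haveI : Fact ℓ.Prime := ⟨hℓ⟩
      obtain ⟨y', hy'⟩ := h85_exists_ratEmb_of_isRat
        (h71i_isRat_fricke M ℓ hℓ hM (h85_isRat_ratEmb (M * ℓ) y))
      rcases h71s_frac_or_inv (isResidueMap_residue A ℓ hA) y'.2 with h | h
      · left
        show h44g_IsFrac A (residue A)
          ((kFricke M ℓ hℓ hM (h85ratEmb (M * ℓ) y) : FF (M * ℓ)) : LaurentSeries Kbar)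
        rw [← hy']
        exact h
      · right
        show h44g_IsFrac A (residue A)
          ((kFricke M ℓ hℓ hM (h85ratEmb (M * ℓ) y⁻¹) : FF (M * ℓ)) : LaurentSeries Kbar)
        rw [map_inv₀, map_inv₀, ← hy']
        exact h }

theorem h71i_mem_WzeroQ (hA : A.LiesOverPrime ℓ) {y : FQ (M * ℓ)} :
    y ∈ h71i_WzeroQ A M ℓ hℓ hM hA ↔
      kFricke M ℓ hℓ hM (h85ratEmb (M * ℓ) y) ∈ h71i_Winf A M ℓ := Iff.rfl

/-- **rational integral functions are fractions at both cusps.** -/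
theorem h71i_ratint_le (hA : A.LiesOverPrime ℓ) (tQ : FQ (M * ℓ))
    (htG : h85ratEmb (M * ℓ) tQ ∈ h71i_G A M ℓ hℓ hM) {f : FF (M * ℓ)} (hf : IsRat f)
    (hint : f ∈ modelAt (M * ℓ) A (h85ratEmb (M * ℓ) tQ)) : f ∈ h71i_G A M ℓ hℓ hM := by
  haveI : Fact ℓ.Prime := ⟨hℓ⟩
  obtain ⟨y, rfl⟩ := h85_exists_ratEmb_of_isRat hf
  have hbr := h85_bridge (M * ℓ) ℓ hℓ A hA tQ y hint
  have hcrit := (h85_isIntegralElem_iff_forall (h85zlHom ℓ (M * ℓ)) tQ y).1 hbr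
  have hcst : ∀ r : GaloisRep.ratLocalizedAt ℓ,
      h85ratEmb (M * ℓ) (h85zlHom ℓ (M * ℓ) r) ∈ h71i_G A M ℓ hℓ hM := by
    intro r
    rw [h85zlHom_apply, h85ratEmb_algebraMap]
    exact h71i_cst_mem_G A M ℓ hℓ hM
      ⟨_, Base.h80_algebraMap_mem A (residue A) ℓ (isResidueMap_residue A ℓ hA) r⟩
  exact ⟨hcrit (h71i_WinfQ A M ℓ hℓ hA) (fun r => (hcst r).1) htG.1,
    hcrit (h71i_WzeroQ A M ℓ hℓ hM hA) (fun r => (hcst r).2) htG.2⟩

/-! ### reduction of multiples of integral functions -/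

/-- the reduction at `∞` as a ring homomorphism. -/
def h71i_rhoInf : h71i_Winf A M ℓ →+* LaurentSeries (ResidueField A) :=
  (h71srHom A (residue A)).comp
    ((h58_val (M * ℓ)).restrict (h71i_Winf A M ℓ) (h44g_fracRing A (residue A)) fun _ hx => hx)

theorem h71i_rhoInf_apply (x : h71i_Winf A M ℓ) :
    h71i_rhoInf A M ℓ x = h71sr A (residue A) ((x : FF (M * ℓ)) : LaurentSeries Kbar) := rfl

/-- the reduction at `0` as a ring homomorphism. -/
def h71i_rhoZero :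
    (h71i_Winf A M ℓ).comap (kFricke M ℓ hℓ hM : FF (M * ℓ) →+* FF (M * ℓ)) →+*
      LaurentSeries (ResidueField A) :=
  (h71srHom A (residue A)).comp
    (((h58_val (M * ℓ)).comp (kFricke M ℓ hℓ hM : FF (M * ℓ) →+* FF (M * ℓ))).restrict
      ((h71i_Winf A M ℓ).comap (kFricke M ℓ hℓ hM : FF (M * ℓ) →+* FF (M * ℓ)))
      (h44g_fracRing A (residue A)) fun _ hx => hx)

theorem h71i_rhoZero_apply
    (x : (h71i_Winf A M ℓ).comap (kFricke M ℓ hℓ hM : FF (M * ℓ) →+* FF (M * ℓ))) :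
    h71i_rhoZero A M ℓ hℓ hM x =
      h71sr A (residue A) ((kFricke M ℓ hℓ hM (x : FF (M * ℓ)) : FF (M * ℓ)) :
        LaurentSeries Kbar) := rfl

theorem h71i_ringAdj_le (S : Subring (FF (M * ℓ))) (t : FF (M * ℓ))
    (hc : ∀ a : A, cst (M * ℓ) (a : Kbar) ∈ S) (ht : t ∈ S) : ringAdj (M * ℓ) A t ≤ S := by
  refine Subring.closure_le.mpr ?_
  rintro y (⟨a, ha, rfl⟩ | rfl)
  · exact hc ⟨a, ha⟩
  · exact ht

set_option synthInstance.maxHeartbeats 400000 in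
/-- **the reductions of `e x`, `x` in the chart, `e` a non-unit of `A`, vanish.** -/
theorem h71i_rd_int (t : FF (M * ℓ)) (htG : t ∈ h71i_G A M ℓ hℓ hM) {e : Kbar}
    (he : e ∈ A.nonunits) {x : FF (M * ℓ)} (hx : x ∈ modelAt (M * ℓ) A t)
    (hex : e • x ∈ h71i_G A M ℓ hℓ hM) : h71i_rd A M ℓ hℓ hM (e • x) = 0 := by
  have heA : e ∈ A := ValuationSubring.nonunits_subset he
  have hπe : residue A ⟨e, heA⟩ = 0 := by
    rw [IsLocalRing.residue_eq_zero_iff]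
    exact (ValuationSubring.coe_mem_nonunits_iff (a := (⟨e, heA⟩ : A))).mp he
  have hsrC : h71sr A (residue A) (HahnSeries.C e : LaurentSeries Kbar) = 0 := by
    have := h71sr_C (π := residue A) (⟨e, heA⟩ : A)
    rw [hπe, map_zero] at this
    exact this
  have hce := h71i_cst_mem_G A M ℓ hℓ hM ⟨e, heA⟩
  have hxint : IsIntegral (ringAdj (M * ℓ) A t) x := hx
  have hsm : e • x = cst (M * ℓ) e * x := Algebra.smul_def e x
  have h1 : h71sr A (residue A) ((e • x : FF (M * ℓ)) : LaurentSeries Kbar) = 0 := by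
    have hB : ringAdj (M * ℓ) A t ≤ h71i_Winf A M ℓ :=
      h71i_ringAdj_le A M ℓ _ t (fun a => (h71i_cst_mem_G A M ℓ hℓ hM a).1) htG.1
    have := h71f_red_zero_of_integral (h71i_Winf A M ℓ) (h71i_rhoInf A M ℓ)
      (ringAdj (M * ℓ) A t) hB ⟨cst (M * ℓ) e, hce.1⟩
      (by rw [h71i_rhoInf_apply, h71i_coe_cst]; exact hsrC)
      x hxint ⟨e • x, hex.1⟩ hsm
    rwa [h71i_rhoInf_apply] at this
  have h2 : h71sr A (residue A)
      ((kFricke M ℓ hℓ hM (e • x) : FF (M * ℓ)) : LaurentSeries Kbar) = 0 := by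
    have hB : ringAdj (M * ℓ) A t ≤
        (h71i_Winf A M ℓ).comap (kFricke M ℓ hℓ hM : FF (M * ℓ) →+* FF (M * ℓ)) :=
      h71i_ringAdj_le A M ℓ _ t (fun a => (h71i_cst_mem_G A M ℓ hℓ hM a).2) htG.2
    have := h71f_red_zero_of_integral
      ((h71i_Winf A M ℓ).comap (kFricke M ℓ hℓ hM : FF (M * ℓ) →+* FF (M * ℓ)))
      (h71i_rhoZero A M ℓ hℓ hM) (ringAdj (M * ℓ) A t) hB ⟨cst (M * ℓ) e, hce.2⟩
      (by
        rw [h71i_rhoZero_apply]
        show h71sr A (residue A)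
          ((kFricke M ℓ hℓ hM (cst (M * ℓ) e) : FF (M * ℓ)) : LaurentSeries Kbar) = 0
        rw [kFricke_cst, h71i_coe_cst]
        exact hsrC)
      x hxint ⟨e • x, hex.2⟩ hsm
    rwa [h71i_rhoZero_apply] at this
  exact Prod.ext h1 h2

/-! ### closure properties of the rational functions -/

theorem h71i_isRat_iff (N : ℕ) (f : FF N) : IsRat f ↔ h58_IsR N (f : LaurentSeries Kbar) :=
  Iff.rfl

theorem h71i_isRat_zero (N : ℕ) : IsRat (0 : FF N) := h58_isR_zero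

theorem h71i_isRat_add (N : ℕ) {f g : FF N} (hf : IsRat f) (hg : IsRat g) : IsRat (f + g) :=
  h58_isR_add hf hg

theorem h71i_isRat_nsmul (N : ℕ) (m : ℕ) {f : FF N} (hf : IsRat f) :
    IsRat ((m : Kbar) • f) := by
  rw [h71i_isRat_iff, h71i_coe_smul]
  have h1 : (HahnSeries.C (m : Kbar) : LaurentSeries Kbar) = (m : LaurentSeries Kbar) :=
    map_natCast _ m
  rw [h1]
  exact h58_isR_mul (h58_isR_natCast m) hf

theorem h71i_isRat_div (N : ℕ) (m : ℕ) {f : FF N} (hf : IsRat f) :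
    IsRat ((m : Kbar)⁻¹ • f) := by
  rw [h71i_isRat_iff, h71i_coe_smul]
  have h1 : (HahnSeries.C ((m : Kbar)⁻¹) : LaurentSeries Kbar) = (m : LaurentSeries Kbar)⁻¹ := by
    rw [map_inv₀, map_natCast]
  rw [h1]
  exact h58_isR_mul (h58_isR_inv (h58_isR_natCast m)) hf

theorem h71i_isRat_sum (N : ℕ) (s : Finset (FF N)) (m : FF N → ℕ)
    (hs : ∀ f ∈ s, IsRat f) : IsRat (∑ f ∈ s, (m f : Kbar) • f) := by
  classical
  induction s using Finset.induction_on with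
  | empty => simpa using h71i_isRat_zero N
  | insert b t hb ih =>
    rw [Finset.sum_insert hb]
    exact h71i_isRat_add N (h71i_isRat_nsmul N _ (hs b (Finset.mem_insert_self b t)))
      (ih fun f hf => hs f (Finset.mem_insert_of_mem hf))

/-! ### the relation lemma -/

theorem h71i_sr_sum {ι : Type*} (s : Finset ι) (x : ι → LaurentSeries Kbar)
    (hx : ∀ i ∈ s, h44g_IsFrac A (residue A) (x i)) :
    h44g_IsFrac A (residue A) (∑ i ∈ s, x i) ∧
      h71sr A (residue A) (∑ i ∈ s, x i) = ∑ i ∈ s, h71sr A (residue A) (x i) := by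
  classical
  induction s using Finset.induction_on with
  | empty => exact ⟨by simpa using h44g_isFrac_zero A (residue A), by simp [h71sr_zero]⟩
  | insert b t hb ih =>
    have h1 := hx b (Finset.mem_insert_self b t)
    obtain ⟨h2, h3⟩ := ih fun i hi => hx i (Finset.mem_insert_of_mem hi)
    rw [Finset.sum_insert hb, Finset.sum_insert hb]
    exact ⟨h44g_isFrac_add h1 h2, by rw [h71sr_add h1 h2, h3]⟩

/-- the reduction of a combination with natural coefficients of rational fractions. -/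
theorem h71i_sr_comb [Fact ℓ.Prime] (hA : A.LiesOverPrime ℓ) (s : Finset (FF (M * ℓ)))
    (μ : FF (M * ℓ) → ZMod ℓ) (x : FF (M * ℓ) → LaurentSeries Kbar)
    (r : FF (M * ℓ) → LaurentSeries (ZMod ℓ))
    (hx : ∀ f ∈ s, h44g_IsFrac A (residue A) (x f))
    (hr : ∀ f ∈ s, h71sr A (residue A) (x f) =
      coeffMap (h71s_kappa A (residue A) ℓ (isResidueMap_residue A ℓ hA)) (r f))
    (hrel : ∑ f ∈ s, HahnSeries.C (μ f) * r f = 0) :
    h44g_IsFrac A (residue A) (∑ f ∈ s, HahnSeries.C (((μ f).val : ℕ) : Kbar) * x f) ∧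
      h71sr A (residue A) (∑ f ∈ s, HahnSeries.C (((μ f).val : ℕ) : Kbar) * x f) = 0 := by
  have hfr : ∀ f ∈ s, h44g_IsFrac A (residue A) (HahnSeries.C (((μ f).val : ℕ) : Kbar) * x f) :=
    fun f hf => h44g_isFrac_mul (h44g_isFrac_C A (residue A) (((μ f).val : ℕ) : A)) (hx f hf)
  obtain ⟨h1, h2⟩ := h71i_sr_sum A s _ hfr
  refine ⟨h1, ?_⟩
  rw [h2]
  have h3 : ∀ f ∈ s, h71sr A (residue A) (HahnSeries.C (((μ f).val : ℕ) : Kbar) * x f) =
      coeffMap (h71s_kappa A (residue A) ℓ (isResidueMap_residue A ℓ hA))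
        (HahnSeries.C (μ f) * r f) := by
    intro f hf
    have h4 := h71sr_C_mul (π := residue A) (((μ f).val : ℕ) : A) (hx f hf)
    have h5 : ((((μ f).val : ℕ) : A) : Kbar) = (((μ f).val : ℕ) : Kbar) := rfl
    rw [h5] at h4
    rw [h4, hr f hf, map_mul, h71s_coeffMap_C, map_natCast]
    congr 2
    rw [← map_natCast (h71s_kappa A (residue A) ℓ (isResidueMap_residue A ℓ hA)),
      ZMod.natCast_zmod_val]
  rw [Finset.sum_congr rfl h3, ← map_sum, hrel, map_zero]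

/-- a rational fraction with reduction zero, divided by `ℓ`, is a fraction. -/
theorem h71i_div_frac [Fact ℓ.Prime] (hA : A.LiesOverPrime ℓ) {g : FF (M * ℓ)} (hg : IsRat g)
    (hfr : h44g_IsFrac A (residue A) (g : LaurentSeries Kbar))
    (h0 : h71sr A (residue A) (g : LaurentSeries Kbar) = 0) :
    h44g_IsFrac A (residue A) ((((ℓ : Kbar))⁻¹ • g : FF (M * ℓ)) : LaurentSeries Kbar) := by
  obtain ⟨y, hy, hyg⟩ := hg
  rw [h71i_coe_smul, ← hyg]
  rw [← hyg] at hfr h0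
  exact h71s_div_of_red_eq_zero (isResidueMap_residue A ℓ hA) hy hfr h0

/-- **the relation lemma at level `M ℓ`.** -/
theorem h71i_rel [Fact ℓ.Prime] (hA : A.LiesOverPrime ℓ) (s : Finset (FF (M * ℓ)))
    (a : FF (M * ℓ) → ResidueField A) (f0 : FF (M * ℓ)) (_hf0 : f0 ∈ s)
    (hs : ∀ f ∈ s, IsRat f ∧ f ∈ h71i_G A M ℓ hℓ hM) (ha : a f0 = 1)
    (hrel : ∑ f ∈ s, a f • h71i_rd A M ℓ hℓ hM f = 0) :
    ∃ m : FF (M * ℓ) → ℕ, m f0 = 1 ∧
      ((ℓ : Kbar))⁻¹ • ∑ f ∈ s, (m f : Kbar) • f ∈ h71i_G A M ℓ hℓ hM := by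
  classical
  have hπ := isResidueMap_residue A ℓ hA
  have key : ∀ f : FF (M * ℓ), ∃ r r' : LaurentSeries (ZMod ℓ), f ∈ s →
      (h71sr A (residue A) (f : LaurentSeries Kbar) =
        coeffMap (h71s_kappa A (residue A) ℓ hπ) r ∧
      h71sr A (residue A) ((kFricke M ℓ hℓ hM f : FF (M * ℓ)) : LaurentSeries Kbar) =
        coeffMap (h71s_kappa A (residue A) ℓ hπ) r') := by
    intro f
    by_cases hf : f ∈ s
    · obtain ⟨hfR, hfG⟩ := hs f hf
      obtain ⟨y, hy, hyf⟩ := hfR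
      obtain ⟨y', hy', hyf'⟩ := h71i_isRat_fricke M ℓ hℓ hM ⟨y, hy, hyf⟩
      have h1 : h44g_IsFrac A (residue A) (coeffEmb Kbar y) := by rw [hyf]; exact hfG.1
      have h2 : h44g_IsFrac A (residue A) (coeffEmb Kbar y') := by rw [hyf']; exact hfG.2
      obtain ⟨r, hr⟩ := h71s_red_rat hπ hy h1
      obtain ⟨r', hr'⟩ := h71s_red_rat hπ hy' h2
      rw [hyf] at hr
      rw [hyf'] at hr'
      exact ⟨r, r', fun _ => ⟨hr, hr'⟩⟩
    · exact ⟨0, 0, fun h => absurd h hf⟩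
  choose r r' hr using key
  have h1 : ∑ f ∈ s, HahnSeries.C (a f) *
      coeffMap (h71s_kappa A (residue A) ℓ hπ) (r f) = 0 := by
    have := congrArg Prod.fst hrel
    rw [Prod.fst_sum] at this
    have h0 : ∑ c ∈ s, (a c • h71i_rd A M ℓ hℓ hM c).1 = 0 := this
    rw [← h0]
    refine Finset.sum_congr rfl fun f hf => ?_
    rw [Prod.smul_fst, HahnSeries.C_mul_eq_smul, ← (hr f hf).1]
    rfl
  have h2 : ∑ f ∈ s, HahnSeries.C (a f) *
      coeffMap (h71s_kappa A (residue A) ℓ hπ) (r' f) = 0 := by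
    have := congrArg Prod.snd hrel
    rw [Prod.snd_sum] at this
    have h0 : ∑ c ∈ s, (a c • h71i_rd A M ℓ hℓ hM c).2 = 0 := this
    rw [← h0]
    refine Finset.sum_congr rfl fun f hf => ?_
    rw [Prod.smul_snd, HahnSeries.C_mul_eq_smul, ← (hr f hf).2]
    rfl
  obtain ⟨μ, hμ0, hμ1, hμ2⟩ := h71s_linDisj2 ℓ _ s a r r' f0 ha h1 h2
  haveI : Fact (1 < ℓ) := ⟨(Fact.out : ℓ.Prime).one_lt⟩
  refine ⟨fun f => (μ f).val, by show (μ f0).val = 1; rw [hμ0, ZMod.val_one], ?_⟩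
  set g : FF (M * ℓ) := ∑ f ∈ s, (((μ f).val : ℕ) : Kbar) • f with hg
  have hgR : IsRat g := h71i_isRat_sum (M * ℓ) s _ fun f hf => (hs f hf).1
  have hcoe : (g : LaurentSeries Kbar) =
      ∑ f ∈ s, HahnSeries.C (((μ f).val : ℕ) : Kbar) * (f : LaurentSeries Kbar) := by
    show h58_val (M * ℓ) g = _
    rw [hg, map_sum]
    exact Finset.sum_congr rfl fun f _ => h71i_coe_smul (M * ℓ) _ f
  have hwcoe : ((kFricke M ℓ hℓ hM g : FF (M * ℓ)) : LaurentSeries Kbar) =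
      ∑ f ∈ s, HahnSeries.C (((μ f).val : ℕ) : Kbar) *
        ((kFricke M ℓ hℓ hM f : FF (M * ℓ)) : LaurentSeries Kbar) := by
    show h58_val (M * ℓ) (kFricke M ℓ hℓ hM g) = _
    rw [hg, map_sum, map_sum]
    refine Finset.sum_congr rfl fun f _ => ?_
    rw [h71i_fricke_smul]
    exact h71i_coe_smul (M * ℓ) _ _
  obtain ⟨hg1, hg2⟩ := h71i_sr_comb A M ℓ hA s μ (fun f => (f : LaurentSeries Kbar)) r
    (fun f hf => (hs f hf).2.1) (fun f hf => (hr f hf).1) hμ1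
  obtain ⟨hw1, hw2⟩ := h71i_sr_comb A M ℓ hA s μ
    (fun f => ((kFricke M ℓ hℓ hM f : FF (M * ℓ)) : LaurentSeries Kbar)) r'
    (fun f hf => (hs f hf).2.2) (fun f hf => (hr f hf).2) hμ2
  rw [← hcoe] at hg1 hg2
  rw [← hwcoe] at hw1 hw2
  refine ⟨h71i_div_frac A M ℓ hA hgR hg1 hg2, ?_⟩
  show h44g_IsFrac A (residue A)
    ((kFricke M ℓ hℓ hM (((ℓ : Kbar))⁻¹ • g) : FF (M * ℓ)) : LaurentSeries Kbar)
  rw [h71i_fricke_smul]
  exact h71i_div_frac A M ℓ hA (h71i_isRat_fricke M ℓ hℓ hM hgR) hw1 hw2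

/-! ### Galois descent -/

/-- **Galois descent** (helper58's `h58_stepA`, in the vocabulary of `FF N`): a function of the
chart is a `ℚ̄`-linear combination of rational functions of the chart. -/
theorem h71i_desc (N : ℕ) (hℓ' : ℓ.Prime) (hA : A.LiesOverPrime ℓ) (t : FF N) (ht : IsRat t)
    {x : FF N} (hx : x ∈ modelAt N A t) :
    ∃ (s : Finset (FF N)) (c : FF N → Kbar),
      (∀ f ∈ s, IsRat f ∧ f ∈ modelAt N A t) ∧ x = ∑ f ∈ s, c f • f := by
  classical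
  have hint := (h58_mem_modelAt_iff N A t x).mp hx
  have htfix : ∀ σ : Kbar ≃+* Kbar,
      coeffMap (σ : Kbar →+* Kbar) (t : LaurentSeries Kbar) = (t : LaurentSeries Kbar) := by
    obtain ⟨g, -, hgt⟩ := ht
    intro σ
    rw [← hgt]
    exact h58_coeffMap_ringEquiv_coeffEmb σ g
  have h1 := h58_stepA (modularFunctionFieldFull N) A ℓ hℓ' hA (t : LaurentSeries Kbar) htfix
    x.2 hint
  have key : ∀ y ∈ Submodule.span Kbar
      (h58_Rat0 (modularFunctionFieldFull N) A (t : LaurentSeries Kbar)),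
      ∃ x' : FF N, (x' : LaurentSeries Kbar) = y ∧
        x' ∈ Submodule.span Kbar {f : FF N | IsRat f ∧ f ∈ modelAt N A t} := by
    intro y hy
    induction hy using Submodule.span_induction with
    | mem f hf =>
      obtain ⟨⟨g, hg, hgf⟩, hfint⟩ := hf
      have hfF : f ∈ modularFunctionFieldBar N := by
        rw [← hgf]
        exact coeffEmb_mem_laurentBaseChange Kbar hg
      exact ⟨⟨f, hfF⟩, rfl, Submodule.subset_span
        ⟨⟨g, hg, hgf⟩, (h58_mem_modelAt_iff N A t ⟨f, hfF⟩).mpr hfint⟩⟩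
    | zero => exact ⟨0, rfl, zero_mem _⟩
    | add y z _ _ hy hz =>
      obtain ⟨y', hy', hy''⟩ := hy
      obtain ⟨z', hz', hz''⟩ := hz
      exact ⟨y' + z', by rw [← hy', ← hz']; rfl, add_mem hy'' hz''⟩
    | smul c y _ hy =>
      obtain ⟨y', hy', hy''⟩ := hy
      refine ⟨c • y', ?_, Submodule.smul_mem _ _ hy''⟩
      rw [h71i_coe_smul, hy', HahnSeries.C_mul_eq_smul]
  obtain ⟨x', hx', hx''⟩ := key _ h1
  have hxx : x' = x := Subtype.ext hx'
  rw [hxx] at hx''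
  obtain ⟨c, s, hs, -, hsum⟩ := Submodule.mem_span_iff_exists_finset_subset.mp hx''
  exact ⟨s, c, fun f hf => hs hf, hsum.symm⟩

/-! ### the base change theorem -/

/-- the hypotheses of the abstract base change lemma hold at level `M ℓ`. -/
theorem h71i_H71BC (hA : A.LiesOverPrime ℓ) (tQ : FQ (M * ℓ))
    (htG : h85ratEmb (M * ℓ) tQ ∈ h71i_G A M ℓ hℓ hM)
    (hQ : ∀ x : FF (M * ℓ), IsRat x → x ∈ h71i_G A M ℓ hℓ hM →
      (ℓ : Kbar) • x ∈ modelAt (M * ℓ) A (h85ratEmb (M * ℓ) tQ) →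
      x ∈ modelAt (M * ℓ) A (h85ratEmb (M * ℓ) tQ)) :
    H71BC A (residue A) ℓ
      (modelAt (M * ℓ) A (h85ratEmb (M * ℓ) tQ) : Set (FF (M * ℓ)))
      (h71i_G A M ℓ hℓ hM : Set (FF (M * ℓ))) {f : FF (M * ℓ) | IsRat f}
      (h71i_rd A M ℓ hℓ hM) := by
  haveI : Fact ℓ.Prime := ⟨hℓ⟩
  exact
  { hℓ0 := Nat.cast_ne_zero.mpr hℓ.ne_zero
    hℓ := hA
    hπ := (isResidueMap_residue A ℓ hA).ker_eq
    hpow := h58_exists_pow_mul_mem A ℓ hℓ hA
    int_zero := zero_mem _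
    int_add := fun x hx y hy => add_mem hx hy
    int_smul := fun a x hx => by
      rw [Algebra.smul_def]
      exact mul_mem (h85_cst_mem_modelAt (M * ℓ) A _ a.2) hx
    ratint_le := fun x hxR hxI => h71i_ratint_le A M ℓ hℓ hM hA tQ htG hxR hxI
    g_zero := zero_mem _
    g_add := fun x hx y hy => add_mem hx hy
    g_smul := fun a x hx => h71i_smul_mem_G A M ℓ hℓ hM a hx
    rat_zero := h71i_isRat_zero (M * ℓ)
    rat_add := fun x hx y hy => h71i_isRat_add (M * ℓ) hx hy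
    rat_nsmul := fun m x hx => h71i_isRat_nsmul (M * ℓ) m hx
    rat_div := fun x hx => h71i_isRat_div (M * ℓ) ℓ hx
    rd_add := fun x hx y hy => by
      refine Prod.ext ?_ ?_
      · exact h71sr_add hx.1 hy.1
      · show h71sr A (residue A)
          ((kFricke M ℓ hℓ hM (x + y) : FF (M * ℓ)) : LaurentSeries Kbar) = _
        rw [map_add]
        exact h71sr_add hx.2 hy.2
    rd_smul := fun a x hx => by
      have hx1 : h44g_IsFrac A (residue A) (x : LaurentSeries Kbar) := hx.1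
      have hx2 : h44g_IsFrac A (residue A)
          ((kFricke M ℓ hℓ hM x : FF (M * ℓ)) : LaurentSeries Kbar) := hx.2
      refine Prod.ext ?_ ?_
      · show h71sr A (residue A) (((a : Kbar) • x : FF (M * ℓ)) : LaurentSeries Kbar) =
          residue A a • h71sr A (residue A) (x : LaurentSeries Kbar)
        rw [h71i_coe_smul, h71sr_C_mul a hx1, HahnSeries.C_mul_eq_smul]
      · show h71sr A (residue A)
          ((kFricke M ℓ hℓ hM ((a : Kbar) • x) : FF (M * ℓ)) : LaurentSeries Kbar) =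
          residue A a • h71sr A (residue A)
            ((kFricke M ℓ hℓ hM x : FF (M * ℓ)) : LaurentSeries Kbar)
        rw [h71i_fricke_smul, h71i_coe_smul, h71sr_C_mul a hx2, HahnSeries.C_mul_eq_smul]
    rd_int := fun e he x hx hex => h71i_rd_int A M ℓ hℓ hM _ htG he hx hex
    rel := fun s a f0 hf0 hs ha hrel => h71i_rel A M ℓ hℓ hM hA s a f0 hf0 hs ha hrel
    qep := fun x hxR hxG hℓx => hQ x hxR hxG hℓx
    desc := fun x hx =>
      h71i_desc A ℓ (M * ℓ) hℓ hA _ (h85_isRat_ratEmb (M * ℓ) tQ) hx }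

/-- **base change at level `M ℓ`**: the chart is generated, as a ring, by the constants of `A`
and the rational functions of the chart. -/
theorem h71i_baseChange (hA : A.LiesOverPrime ℓ) (tQ : FQ (M * ℓ))
    (htG : h85ratEmb (M * ℓ) tQ ∈ h71i_G A M ℓ hℓ hM)
    (hQ : ∀ x : FF (M * ℓ), IsRat x → x ∈ h71i_G A M ℓ hℓ hM →
      (ℓ : Kbar) • x ∈ modelAt (M * ℓ) A (h85ratEmb (M * ℓ) tQ) →
      x ∈ modelAt (M * ℓ) A (h85ratEmb (M * ℓ) tQ)) :
    modelAt (M * ℓ) A (h85ratEmb (M * ℓ) tQ) ≤ Subring.closure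
      ((fun a : Kbar => cst (M * ℓ) a) '' (A : Set Kbar) ∪
        {f | IsRat f ∧ f ∈ modelAt (M * ℓ) A (h85ratEmb (M * ℓ) tQ)}) := by
  intro x hx
  have hcore := (h71i_H71BC A M ℓ hℓ hM hA tQ htG hQ).core x hx
  unfold h71fSA at hcore
  clear hx
  induction hcore using Submodule.span_induction with
  | mem f hf => exact Subring.subset_closure (Or.inr hf)
  | zero => exact zero_mem _
  | add y z _ _ hy hz => exact add_mem hy hz
  | smul a y _ hy =>
    have h1 : a • y = cst (M * ℓ) (a : Kbar) * y := by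
      rw [h71f_smul_def, Algebra.smul_def]
    rw [h1]
    exact mul_mem (Subring.subset_closure (Or.inl ⟨(a : Kbar), a.2, rfl⟩)) hy

end Setup

/-! ### the charts `t = j`, `t = 1 / j` -/

section Charts

variable (A : ValuationSubring Kbar) (M ℓ : ℕ) [NeZero M] [NeZero ℓ] (hℓ : ℓ.Prime)
  (hM : ¬ ℓ ∣ M)

theorem h71i_isFrac_inv_of_embA {K : Type} [Field K] (A : ValuationSubring K) {k : Type}
    [Field k] (π : A →+* k) {s : LaurentSeries K} (b : LaurentSeries A) (hb : redA π b ≠ 0)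
    (hs : embA A b = s) : h44g_IsFrac A π s⁻¹ := by
  have hb0 : b ≠ 0 := by
    rintro rfl
    exact hb (map_zero _)
  have hs0 : s ≠ 0 := by
    rw [← hs]
    exact (map_ne_zero_iff _ (embA_injective A)).mpr hb0
  exact ⟨1, b, hb, by rw [map_one, hs, inv_mul_cancel₀ hs0]⟩

theorem h71i_jB_eq : jB (M * ℓ) = heckeAlphaBar Kbar M ℓ (jB M) := by
  apply Subtype.ext
  rw [coe_heckeAlphaBar, h58_coe_jB, h58_coe_jB]

theorem h71i_jSS_eq : jSS M ℓ = jB (M * ℓ) := (h71i_jB_eq M ℓ).symm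

theorem h71i_coe_fricke_jB :
    ((kFricke M ℓ hℓ hM (jB (M * ℓ)) : FF (M * ℓ)) : LaurentSeries Kbar) =
      embA A (qExpand A ℓ (jqModC A)) := by
  rw [h71i_jB_eq, kFricke_alpha, coe_heckeBetaBar, h58_coe_jB, embA,
    ModularCurve.coeffMap_qExpand, coeffMap_jqModC]
  rfl

theorem h71i_red_qExpand_jq_ne_zero :
    redA (residue A) (qExpand A ℓ (jqModC A)) ≠ 0 := by
  rw [redA, ModularCurve.coeffMap_qExpand, coeffMap_jqModC]
  intro h0
  apply jqModC_ne_zero_of_nontrivial (ResidueField A)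
  apply qExpand_injective (R := ResidueField A) ℓ
  rw [map_zero]
  exact h0

theorem h71i_jB_mem_G : jB (M * ℓ) ∈ h71i_G A M ℓ hℓ hM := by
  refine ⟨?_, ?_⟩
  · show h44g_IsFrac A (residue A) ((jB (M * ℓ) : FF (M * ℓ)) : LaurentSeries Kbar)
    rw [h58_coe_jB, ← embA_jqModC A]
    exact h44g_isFrac_embA A _ _
  · show h44g_IsFrac A (residue A)
      ((kFricke M ℓ hℓ hM (jB (M * ℓ)) : FF (M * ℓ)) : LaurentSeries Kbar)
    rw [h71i_coe_fricke_jB A]
    exact h44g_isFrac_embA A _ _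

theorem h71i_jB_inv_mem_G : (jB (M * ℓ))⁻¹ ∈ h71i_G A M ℓ hℓ hM := by
  refine ⟨?_, ?_⟩
  · show h44g_IsFrac A (residue A) (((jB (M * ℓ))⁻¹ : FF (M * ℓ)) : LaurentSeries Kbar)
    rw [h58_coe_jB_inv]
    refine h71i_isFrac_inv_of_embA A _ (jqModC A) ?_ (embA_jqModC A)
    rw [redA_jqModC]
    exact jqModC_ne_zero_of_nontrivial _
  · show h44g_IsFrac A (residue A)
      ((kFricke M ℓ hℓ hM (jB (M * ℓ))⁻¹ : FF (M * ℓ)) : LaurentSeries Kbar)
    rw [map_inv₀]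
    show h44g_IsFrac A (residue A)
      (((kFricke M ℓ hℓ hM (jB (M * ℓ)) : FF (M * ℓ)) : LaurentSeries Kbar))⁻¹
    exact h71i_isFrac_inv_of_embA A _ (qExpand A ℓ (jqModC A))
      (h71i_red_qExpand_jq_ne_zero A ℓ) (h71i_coe_fricke_jB A M ℓ hℓ hM).symm

/-- `W_∞ ∩ W_0 ⊆ ssV` (helper44's `h44g_isIntegralElem_of_isFrac`). -/
theorem h71i_G_le_ssV (hA : A.LiesOverPrime ℓ) : h71i_G A M ℓ hℓ hM ≤ ssV A M ℓ := by
  intro x hx
  obtain ⟨p, hp, hpx⟩ := h44g_isIntegralElem_of_isFrac M ℓ A hℓ hM hA x hx.1 hx.2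
  rw [mem_ssV_iff]
  let g : gaussV A M →+* gaussVImage A M ℓ :=
    ((heckeAlphaBar Kbar M ℓ).toRingHom.comp (gaussV A M).subtype).codRestrict
      (gaussVImage A M ℓ) (fun y => ⟨(y : FF M), y.2, rfl⟩)
  refine ⟨p.map g, hp.map g, ?_⟩
  rw [Polynomial.eval₂_map]
  exact hpx

end Charts

/-! ### FINITE at level `M ℓ` -/

section Final

variable (A : ValuationSubring Kbar) (M ℓ : ℕ) [NeZero M] [NeZero ℓ]

/-- **the input of FINITE at level `M ℓ`**: the `q`-expansion principle of the chart `t` with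
respect to the semistable Gauss ring, for the constant `ℓ` (a special case of the field `hQEP`
of `IfaceSSChart A M ℓ t`). -/
def H71QEP (t : FF (M * ℓ)) : Prop :=
  ∀ x ∈ ssV A M ℓ, cst (M * ℓ) (ℓ : Kbar) * x ∈ modelAt (M * ℓ) A t →
    x ∈ modelAt (M * ℓ) A t

theorem h71_qep_of_chart (t : FF (M * ℓ)) (h : IfaceSSChart A M ℓ t) : H71QEP A M ℓ t := by
  intro x hx hℓx
  have h0 : algebraMap A (FF (M * ℓ)) ((ℓ : ℕ) : A) ≠ 0 := by
    show cst (M * ℓ) (((ℓ : ℕ) : A) : Kbar) ≠ 0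
    rw [cst, ne_eq, map_eq_zero]
    exact_mod_cast NeZero.ne ℓ
  exact h.hQEP ((ℓ : ℕ) : A) h0 x hx hℓx

variable {A M ℓ}

theorem h71_baseChange_fin (hℓ : ℓ.Prime) (hM : ¬ ℓ ∣ M) (hA : A.LiesOverPrime ℓ)
    (hQ : H71QEP A M ℓ (jB (M * ℓ))) :
    modelAt (M * ℓ) A (jB (M * ℓ)) ≤ Subring.closure
      ((fun a : Kbar => cst (M * ℓ) a) '' (A : Set Kbar) ∪
        {f | IsRat f ∧ f ∈ modelAt (M * ℓ) A (jB (M * ℓ))}) := by
  have h := h71i_baseChange A M ℓ hℓ hM hA (h85jQ (M * ℓ))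
    (by rw [h85ratEmb_jQ]; exact h71i_jB_mem_G A M ℓ hℓ hM)
    (by
      rw [h85ratEmb_jQ]
      intro x _ hxG hℓx
      rw [Algebra.smul_def] at hℓx
      exact hQ x (h71i_G_le_ssV A M ℓ hℓ hM hA hxG) hℓx)
  rwa [h85ratEmb_jQ] at h

theorem h71_baseChange_inf (hℓ : ℓ.Prime) (hM : ¬ ℓ ∣ M) (hA : A.LiesOverPrime ℓ)
    (hQ : H71QEP A M ℓ (jB (M * ℓ))⁻¹) :
    modelAt (M * ℓ) A (jB (M * ℓ))⁻¹ ≤ Subring.closure
      ((fun a : Kbar => cst (M * ℓ) a) '' (A : Set Kbar) ∪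
        {f | IsRat f ∧ f ∈ modelAt (M * ℓ) A (jB (M * ℓ))⁻¹}) := by
  have h := h71i_baseChange A M ℓ hℓ hM hA (h85jQ (M * ℓ))⁻¹
    (by rw [h85ratEmb_jQ_inv]; exact h71i_jB_inv_mem_G A M ℓ hℓ hM)
    (by
      rw [h85ratEmb_jQ_inv]
      intro x _ hxG hℓx
      rw [Algebra.smul_def] at hℓx
      exact hQ x (h71i_G_le_ssV A M ℓ hℓ hM hA hxG) hℓx)
  rwa [h85ratEmb_jQ_inv] at h

/-- **FINITE at level `M ℓ`, finite chart.** -/
theorem h71_ifaceFinite_fin (hℓ : ℓ.Prime) (hM : ¬ ℓ ∣ M) (hA : A.LiesOverPrime ℓ)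
    (hQ : H71QEP A M ℓ (jB (M * ℓ))) : IfaceFinite (M * ℓ) A (jB (M * ℓ)) := by
  haveI : Fact ℓ.Prime := ⟨hℓ⟩
  have h := h85_modelAt_fg_of_bridge hA (h85jQ (M * ℓ)) (Or.inl rfl)
    (h85_bridge (M * ℓ) ℓ hℓ A hA)
    (by rw [h85ratEmb_jQ]; exact h71_baseChange_fin hℓ hM hA hQ)
  rwa [h85ratEmb_jQ] at h

/-- **FINITE at level `M ℓ`, chart at infinity.** -/
theorem h71_ifaceFinite_inf (hℓ : ℓ.Prime) (hM : ¬ ℓ ∣ M) (hA : A.LiesOverPrime ℓ)
    (hQ : H71QEP A M ℓ (jB (M * ℓ))⁻¹) : IfaceFinite (M * ℓ) A (jB (M * ℓ))⁻¹ := by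
  haveI : Fact ℓ.Prime := ⟨hℓ⟩
  have h := h85_modelAt_fg_of_bridge hA (h85jQ (M * ℓ))⁻¹ (Or.inr rfl)
    (h85_bridge (M * ℓ) ℓ hℓ A hA)
    (by rw [h85ratEmb_jQ_inv]; exact h71_baseChange_inf hℓ hM hA hQ)
  rwa [h85ratEmb_jQ_inv] at h

/-- **`IfaceSSFinite`** from the `q`-expansion principle for the semistable Gauss ring. -/
theorem h71_ifaceSSFinite (hℓ : ℓ.Prime) (hM : ¬ ℓ ∣ M) (hA : A.LiesOverPrime ℓ)
    (hQ : H71QEP A M ℓ (jSS M ℓ)) : IfaceSSFinite A M ℓ := by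
  rw [h71i_jSS_eq] at hQ
  have h := h71_ifaceFinite_fin hℓ hM hA hQ
  unfold IfaceSSFinite
  rw [h71i_jSS_eq]
  exact h

/-- **`IfaceSSSection`, finite chart.** -/
theorem h71_ifaceSSSection_fin (hℓ : ℓ.Prime) (hM : ¬ ℓ ∣ M) (hA : A.LiesOverPrime ℓ)
    (hQ : H71QEP A M ℓ (jSS M ℓ)) : IfaceSSSection A M ℓ (jSS M ℓ) := by
  rw [h71i_jSS_eq] at hQ ⊢
  exact ifaceSection_of (M * ℓ) A _ (h71_ifaceFinite_fin hℓ hM hA hQ)

/-- **`IfaceSSSection`, chart at infinity.** -/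
theorem h71_ifaceSSSection_inf (hℓ : ℓ.Prime) (hM : ¬ ℓ ∣ M) (hA : A.LiesOverPrime ℓ)
    (hQ : H71QEP A M ℓ (jSS M ℓ)⁻¹) : IfaceSSSection A M ℓ (jSS M ℓ)⁻¹ := by
  rw [h71i_jSS_eq] at hQ ⊢
  exact ifaceSection_of (M * ℓ) A _ (h71_ifaceFinite_inf hℓ hM hA hQ)

/-- all the FINITE / SECTION inputs of `IfaceSSPieces` from the two charts `IfaceSSChart`. -/
theorem h71_finite_section_of_charts (hℓ : ℓ.Prime) (hM : ¬ ℓ ∣ M) (hA : A.LiesOverPrime ℓ)
    (h₀ : IfaceSSChart A M ℓ (jSS M ℓ)) (h₁ : IfaceSSChart A M ℓ (jSS M ℓ)⁻¹) :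
    IfaceSSFinite A M ℓ ∧ IfaceFinite (M * ℓ) A (jB (M * ℓ)) ∧
      IfaceFinite (M * ℓ) A (jB (M * ℓ))⁻¹ ∧
      IfaceSSSection A M ℓ (jSS M ℓ) ∧ IfaceSSSection A M ℓ (jSS M ℓ)⁻¹ := by
  have hQ₀ := h71_qep_of_chart A M ℓ _ h₀
  have hQ₁ := h71_qep_of_chart A M ℓ _ h₁
  refine ⟨h71_ifaceSSFinite hℓ hM hA hQ₀, ?_, ?_, h71_ifaceSSSection_fin hℓ hM hA hQ₀,
    h71_ifaceSSSection_inf hℓ hM hA hQ₁⟩
  · rw [h71i_jSS_eq] at hQ₀
    exact h71_ifaceFinite_fin hℓ hM hA hQ₀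
  · rw [h71i_jSS_eq] at hQ₁
    exact h71_ifaceFinite_inf hℓ hM hA hQ₁

end Final

end Fermat.Agent.LGC
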