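import Fermat.Agent.LGC.Skeleton
import Fermat.Agent.LGC.SSInt
import Fermat.Agent.Red.GV.SoftGal
import Fermat.Agent.Red.Kron.FrickeGal

/-!
# W3-LGC (helper75): SS-GAL — double differences under inertia are `≡ 1` modulo `π · ssV`

`ℓ ∤ M` a prime, `A` a valuation subring of `ℚ̄` over `ℓ`, `N = M * ℓ`, `W = softV A N` the
Gauss valuation ring of level `N` (helper28, `Red/GV/Soft*.lean`), `w = kFricke M ℓ`.

* `h75q_exists_pow_fix`, `h75q_div_mem` : for `σ` in the decomposition group and `c ≠ 0`,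
  `σ c / c ∈ A` (the orbit of `c` under `σ` is finite).
* `h75q_congOne_of_unit` : for a unit `x` of `W` and `τ` in the inertia group,
  `τ x / x ≡ 1`.
* `h75q_unit_gal` : for `x ≠ 0` and `σ` in the inertia group, `σ x / x` is a unit of `W`.
* `h75q_congOne_dd` : `CongOne A (dd N σ τ x)` at every level `N`.
* `h75q_ifaceSSGal : IfaceSSGal A M ℓ` : the double difference is `≡ 1` modulo `π · ssV` for
  some nonzero `π ∈ 𝔪_A` (using `W ∩ w W ⊆ ssV`, helper44's `h44g_isIntegralElem_of_isFrac`).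
-/

set_option autoImplicit false
set_option linter.unusedSectionVars false
set_option linter.style.haveILetI false

open AlgebraicCurve ModularCurve WithZero IsLocalRing

noncomputable section

namespace Fermat.Agent.LGC

open Fermat.Agent.S37 Fermat.Agent.Red Fermat.Agent.Red.GV Fermat.Agent.Red.GV.Soft
  Fermat.Agent.Red.Kron Fermat.Agent.S37.GalI

/-! ## The decomposition group preserves the valuation -/

section Orbit

/-- the orbit of an algebraic number under a power of an automorphism is finite. -/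
theorem h75q_exists_pow_fix (σ : GQ) (c : Kbar) : ∃ n : ℕ, 0 < n ∧ (σ ^ n) c = c := by
  classical
  have hint : IsIntegral ℚ c := ((AlgebraicClosure.isAlgebraic ℚ).isAlgebraic c).isIntegral
  have hp0 : minpoly ℚ c ≠ 0 := minpoly.ne_zero hint
  have hmem : ∀ i : ℕ, (σ ^ i) c ∈ (minpoly ℚ c).rootSet Kbar := by
    intro i
    rw [Polynomial.mem_rootSet]
    refine ⟨hp0, ?_⟩
    have h1 := Polynomial.aeval_algHom_apply ((σ ^ i : GQ) : Kbar →ₐ[ℚ] Kbar) c (minpoly ℚ c)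
    rw [minpoly.aeval, map_zero] at h1
    exact h1
  have hfin : Finite ((minpoly ℚ c).rootSet Kbar) :=
    (Polynomial.rootSet_finite (minpoly ℚ c) Kbar).to_subtype
  obtain ⟨i, j, hij, hf⟩ := Finite.exists_ne_map_eq_of_infinite
    (fun i : ℕ => (⟨(σ ^ i) c, hmem i⟩ : (minpoly ℚ c).rootSet Kbar))
  have hf' : (σ ^ i) c = (σ ^ j) c := congrArg Subtype.val hf
  have key : ∀ a b : ℕ, a < b → (σ ^ a) c = (σ ^ b) c → ∃ n : ℕ, 0 < n ∧ (σ ^ n) c = c := by
    intro a b hab h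
    refine ⟨b - a, by omega, ?_⟩
    have h1 : σ ^ b = σ ^ a * σ ^ (b - a) := by
      rw [← pow_add]
      congr 1
      omega
    rw [h1, AlgEquiv.mul_apply] at h
    exact ((σ ^ a).injective h).symm
  rcases lt_or_gt_of_ne hij with h | h
  · exact key i j h hf'
  · exact key j i h hf'.symm

/-- a nonempty product of non-units of a valuation ring is a non-unit. -/
theorem h75q_prod_mem_nonunits (A : ValuationSubring Kbar) (f : ℕ → Kbar)
    (hf : ∀ i, f i ∈ A.nonunits) (n : ℕ) :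
    ∏ i ∈ Finset.range (n + 1), f i ∈ A.nonunits := by
  induction n with
  | zero => simpa using hf 0
  | succ n ih =>
    rw [Finset.prod_range_succ]
    exact A.nonunits.mul_mem ih (hf (n + 1))

/-- **an automorphism stabilising `A` preserves the valuation**: `σ c / c ∈ A`. -/
theorem h75q_div_mem (A : ValuationSubring Kbar) (σ : GQ) (hσ : ∀ z : Kbar, σ z ∈ A → z ∈ A)
    (c : Kbar) (hc : c ≠ 0) : σ c / c ∈ A := by
  by_contra hn
  obtain ⟨n, hn0, hfix⟩ := h75q_exists_pow_fix σ c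
  have hpow0 : ∀ i : ℕ, (σ ^ i) c ≠ 0 := fun i =>
    (map_ne_zero_iff _ (σ ^ i).injective).mpr hc
  -- `σ^i (σ c / c) ∉ A`
  have hnot : ∀ i : ℕ, (σ ^ i) (σ c / c) ∉ A := by
    intro i
    induction i with
    | zero => simpa using hn
    | succ i ih =>
      intro h
      apply ih
      apply hσ
      have h1 : (σ ^ (i + 1)) (σ c / c) = σ ((σ ^ i) (σ c / c)) := by
        rw [pow_succ', AlgEquiv.mul_apply]
      rwa [h1] at h
  -- the inverses are non-units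
  have hnu : ∀ i : ℕ, ((σ ^ i) (σ c / c))⁻¹ ∈ A.nonunits := by
    intro i
    rw [ValuationSubring.mem_nonunits_iff_or]
    right
    rw [inv_inv]
    exact hnot i
  obtain ⟨m, rfl⟩ : ∃ m, n = m + 1 := ⟨n - 1, by omega⟩
  have h1 := h75q_prod_mem_nonunits A _ hnu m
  -- the product telescopes
  have h2 : ∏ i ∈ Finset.range (m + 1), (σ ^ i) (σ c / c) = 1 := by
    have h3 : ∀ i : ℕ, (σ ^ i) (σ c / c) = (σ ^ (i + 1)) c / (σ ^ i) c := by
      intro i
      rw [map_div₀, pow_succ, AlgEquiv.mul_apply]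
    simp only [h3]
    have h4 : ∀ k : ℕ, ∏ i ∈ Finset.range k, (σ ^ (i + 1)) c / (σ ^ i) c = (σ ^ k) c / c := by
      intro k
      induction k with
      | zero => simp [hc]
      | succ k ih =>
        rw [Finset.prod_range_succ, ih]
        have h5 := hpow0 k
        field_simp
    rw [h4, hfix, div_self hc]
  rw [Finset.prod_inv_distrib, h2, inv_one] at h1
  exact ((A.mem_nonunits_iff_or).mp h1).elim one_ne_zero
    (fun h => h (by rw [inv_one]; exact A.one_mem))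

/-- for `σ` in the inertia group, `σ c / c` and `c / σ c` are in `A`. -/
theorem h75q_inertia_div_mem (A : ValuationSubring Kbar) {σ : GQ}
    (hσ : σ ∈ A.inertiaSubgroupIn ℚ) (c : Kbar) (hc : c ≠ 0) :
    σ c / c ∈ A ∧ c / σ c ∈ A := by
  have hinv : σ⁻¹ ∈ A.inertiaSubgroupIn ℚ := inv_mem hσ
  have h1 : ∀ z : Kbar, σ z ∈ A → z ∈ A := by
    intro z hz
    have := (Fermat.Agent.S05.H86.inertia_apply_mem A hinv hz).1
    simpa using this
  have h2 : ∀ z : Kbar, σ⁻¹ z ∈ A → z ∈ A := by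
    intro z hz
    have := (Fermat.Agent.S05.H86.inertia_apply_mem A hσ hz).1
    simpa using this
  refine ⟨h75q_div_mem A σ h1 c hc, ?_⟩
  have hσc : σ c ≠ 0 := (map_ne_zero_iff _ σ.injective).mpr hc
  have h3 := h75q_div_mem A σ⁻¹ h2 (σ c) hσc
  simpa using h3

end Orbit

/-! ## Units of the Gauss valuation ring and inertia -/

section Soft

variable (A : ValuationSubring Kbar) (N : ℕ)

/-- `x ≡ 1`: `x` lies in the Gauss valuation ring and its reduction is `1`. -/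
def h75q_One (x : FF N) : Prop := ∃ h : x ∈ softV A N, softR A N ⟨x, h⟩ = 1

theorem h75q_one_iff_congOne (x : FF N) : h75q_One A N x ↔ CongOne A x :=
  (congOne_iff_softR A N x).symm

theorem h75q_one_mul {x y : FF N} (hx : h75q_One A N x) (hy : h75q_One A N y) :
    h75q_One A N (x * y) := by
  obtain ⟨h1, h2⟩ := hx
  obtain ⟨h3, h4⟩ := hy
  refine ⟨mul_mem h1 h3, ?_⟩
  have h5 : (⟨x * y, mul_mem h1 h3⟩ : softV A N) = ⟨x, h1⟩ * ⟨y, h3⟩ := rfl
  rw [h5, map_mul, h2, h4, one_mul]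

theorem h75q_one_unit {x : FF N} (hx : h75q_One A N x) : x ≠ 0 ∧ x⁻¹ ∈ softV A N := by
  obtain ⟨h1, h2⟩ := hx
  have h3 : softR A N ⟨x, h1⟩ ≠ 0 := by
    rw [h2]
    exact one_ne_zero
  exact (softR_ne_zero_iff A N ⟨x, h1⟩).mp h3

/-- the reduction of the inverse of a unit. -/
theorem h75q_softR_inv {x : FF N} (hx0 : x ≠ 0) (hx : x ∈ softV A N) (hxi : x⁻¹ ∈ softV A N) :
    softR A N ⟨x, hx⟩ * softR A N ⟨x⁻¹, hxi⟩ = 1 := by
  rw [← map_mul]
  have h5 : (⟨x, hx⟩ : softV A N) * ⟨x⁻¹, hxi⟩ = 1 := Subtype.ext (mul_inv_cancel₀ hx0)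
  rw [h5, map_one]

theorem h75q_one_inv {x : FF N} (hx : h75q_One A N x) : h75q_One A N x⁻¹ := by
  obtain ⟨hx0, hxi⟩ := h75q_one_unit A N hx
  obtain ⟨h1, h2⟩ := hx
  refine ⟨hxi, ?_⟩
  have h3 := h75q_softR_inv A N hx0 h1 hxi
  rw [h2, one_mul] at h3
  exact h3

/-- **inertia acts trivially on the units of `W` modulo `𝔪_W`.** -/
theorem h75q_congOne_of_unit {τ : GQ} (hτ : τ ∈ A.inertiaSubgroupIn ℚ) {x : FF N}
    (hx0 : x ≠ 0) (hx : x ∈ softV A N) (hxi : x⁻¹ ∈ softV A N) :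
    h75q_One A N (gal N τ • x / x) := by
  obtain ⟨h1, h2⟩ := softR_gal_of_inertia A N hτ ⟨x, hx⟩
  have h3 : gal N τ • x / x ∈ softV A N := by
    rw [div_eq_mul_inv]
    exact mul_mem h1 hxi
  refine ⟨h3, ?_⟩
  have h4 : (⟨gal N τ • x / x, h3⟩ : softV A N) = ⟨gal N τ • x, h1⟩ * ⟨x⁻¹, hxi⟩ :=
    Subtype.ext (div_eq_mul_inv _ _)
  rw [h4, map_mul, h2]
  exact h75q_softR_inv A N hx0 hx hxi

variable {ℓ : ℕ}

/-- **for `σ` in the inertia group and `x ≠ 0`, `σ x / x` is a unit of `W`.** -/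
theorem h75q_unit_gal (hℓ : ℓ.Prime) (hA : A.LiesOverPrime ℓ) {σ : GQ}
    (hσ : σ ∈ A.inertiaSubgroupIn ℚ) {x : FF N} (hx : x ≠ 0) :
    gal N σ • x / x ∈ softV A N ∧ (gal N σ • x / x)⁻¹ ∈ softV A N := by
  obtain ⟨c, hc, hy, hyi⟩ := exists_cst_mul_unit_soft A N hℓ hA x hx
  have hc0 : cst N c ≠ 0 := by
    rw [Ne, map_eq_zero_iff _ (algebraMap Kbar (FF N)).injective]
    exact hc
  have hy0 : cst N c * x ≠ 0 := mul_ne_zero hc0 hx
  have hone := h75q_congOne_of_unit A N hσ hy0 hy hyi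
  have hone' := h75q_one_inv A N hone
  obtain ⟨hd1, hd2⟩ := h75q_inertia_div_mem A hσ c hc
  have hσc : (σ : Kbar →+* Kbar) c ≠ 0 := (map_ne_zero_iff _ σ.injective).mpr hc
  have hσc0 : cst N (σ c) ≠ 0 := by
    rw [Ne, map_eq_zero_iff _ (algebraMap Kbar (FF N)).injective]
    exact hσc
  have hgx : gal N σ • x ≠ 0 := by
    intro h
    apply hx
    have := congrArg (fun y => (gal N σ)⁻¹ • y) h
    simpa using this
  have hsm : gal N σ • (cst N c * x) = cst N (σ c) * gal N σ • x := by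
    rw [smul_mul', gal_smul_cst]
  constructor
  · have h1 : gal N σ • x / x =
        cst N (c / σ c) * (gal N σ • (cst N c * x) / (cst N c * x)) := by
      rw [hsm, cst, map_div₀]
      field_simp
    rw [h1]
    exact mul_mem ((cst_mem_softV_iff A N _).mpr hd2) hone.1
  · have h1 : (gal N σ • x / x)⁻¹ =
        cst N (σ c / c) * (gal N σ • (cst N c * x) / (cst N c * x))⁻¹ := by
      rw [hsm, cst, map_div₀]
      field_simp
    rw [h1]
    exact mul_mem ((cst_mem_softV_iff A N _).mpr hd1) hone'.1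

/-- **double differences under inertia are `≡ 1` modulo the Gauss valuation** (any level). -/
theorem h75q_one_dd (hℓ : ℓ.Prime) (hA : A.LiesOverPrime ℓ) {σ τ : GQ}
    (hσ : σ ∈ A.inertiaSubgroupIn ℚ) (hτ : τ ∈ A.inertiaSubgroupIn ℚ) {x : FF N}
    (hx : x ≠ 0) : h75q_One A N (dd N σ τ x) := by
  obtain ⟨h1, h2⟩ := h75q_unit_gal A N hℓ hA hσ hx
  have hgx : gal N σ • x ≠ 0 := by
    intro h
    apply hx
    have := congrArg (fun y => (gal N σ)⁻¹ • y) h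
    simpa using this
  have hgx' : gal N τ • x ≠ 0 := by
    intro h
    apply hx
    have := congrArg (fun y => (gal N τ)⁻¹ • y) h
    simpa using this
  have hψ0 : gal N σ • x / x ≠ 0 := div_ne_zero hgx hx
  have h3 := h75q_congOne_of_unit A N hτ hψ0 h1 h2
  have h4 : dd N σ τ x = gal N τ • (gal N σ • x / x) / (gal N σ • x / x) := by
    unfold dd
    rw [div_eq_mul_inv (gal N σ • x) x, smul_mul', smul_inv'']
    field_simp
  rw [h4]
  exact h3

theorem h75q_congOne_dd (hℓ : ℓ.Prime) (hA : A.LiesOverPrime ℓ) {σ τ : GQ}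
    (hσ : σ ∈ A.inertiaSubgroupIn ℚ) (hτ : τ ∈ A.inertiaSubgroupIn ℚ) {x : FF N}
    (hx : x ≠ 0) : CongOne A (dd N σ τ x) :=
  (h75q_one_iff_congOne A N _).mp (h75q_one_dd A N hℓ hA hσ hτ hx)

/-- an element of the maximal ideal of `W` is a constant of `𝔪_A` times an element of `W`. -/
theorem h75q_exists_scale_of_red_zero (hℓ : ℓ.Prime) (hA : A.LiesOverPrime ℓ) {z : FF N}
    (hz0 : z ≠ 0) (hz : z ∈ softV A N) (hred : softR A N ⟨z, hz⟩ = 0) :
    ∃ c : Kbar, c ∈ A.nonunits ∧ c ≠ 0 ∧ cst N c⁻¹ * z ∈ softV A N := by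
  obtain ⟨c, hc, hy, hyi⟩ := exists_cst_mul_unit_soft A N hℓ hA z hz0
  have hc0 : cst N c ≠ 0 := by
    rw [Ne, map_eq_zero_iff _ (algebraMap Kbar (FF N)).injective]
    exact hc
  have hzi : z⁻¹ ∉ softV A N := by
    rcases (softR_eq_zero_iff A N ⟨z, hz⟩).mp hred with h | h
    · exact (hz0 h).elim
    · exact h
  have hcA : c ∉ A := by
    intro hcA
    apply hzi
    have h1 : z⁻¹ = cst N c * (cst N c * z)⁻¹ := by
      field_simp
    rw [h1]
    exact mul_mem ((cst_mem_softV_iff A N c).mpr hcA) hyi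
  refine ⟨c⁻¹, ?_, inv_ne_zero hc, ?_⟩
  · rw [ValuationSubring.mem_nonunits_iff_or]
    right
    rwa [inv_inv]
  · rwa [inv_inv]

end Soft

/-! ## The semistable Gauss ring -/

section SS

/-- integrality over the image of a subring. -/
theorem h75q_isIntegral_map {R S : Type*} [CommRing R] [CommRing S] (f : R →+* S)
    (T : Subring R) (x : S) (h : (f.comp T.subtype).IsIntegralElem x) :
    IsIntegral (T.map f) x := by
  obtain ⟨p, hp, hpx⟩ := h
  refine ⟨p.map ((f.comp T.subtype).codRestrict (T.map f) (fun t => ⟨t, t.2, rfl⟩)),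
    hp.map _, ?_⟩
  rw [Polynomial.eval₂_map]
  exact hpx

variable (A : ValuationSubring Kbar) (M ℓ : ℕ) [NeZero M] [NeZero ℓ]

/-- `W ∩ w W ⊆ ssV` (helper44's K2 in the vocabulary of the skeleton). -/
theorem h75q_mem_ssV (hℓ : ℓ.Prime) (hM : ¬ ℓ ∣ M) (hA : A.LiesOverPrime ℓ) (x : FF (M * ℓ))
    (hx : x ∈ softV A (M * ℓ)) (hwx : kFricke M ℓ hℓ hM x ∈ softV A (M * ℓ)) :
    x ∈ ssV A M ℓ := by
  have h1 : ((heckeAlphaBar Kbar M ℓ).toRingHom.comp (gaussV A M).subtype).IsIntegralElem x := by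
    refine h44g_isIntegralElem_of_isFrac M ℓ A hℓ hM hA x ?_ ?_
    · obtain ⟨a, b, hb, hab⟩ := hx
      exact ⟨a, b, hb, hab⟩
    · obtain ⟨a, b, hb, hab⟩ := hwx
      exact ⟨a, b, hb, hab⟩
  rw [mem_ssV_iff]
  exact h75q_isIntegral_map (heckeAlphaBar Kbar M ℓ).toRingHom (gaussV A M) x h1

/-- the Fricke involution commutes with the double difference. -/
theorem h75q_kFricke_dd (hℓ : ℓ.Prime) (hM : ¬ ℓ ∣ M) (σ τ : GQ) (x : FF (M * ℓ)) :
    kFricke M ℓ hℓ hM (dd (M * ℓ) σ τ x) = dd (M * ℓ) σ τ (kFricke M ℓ hℓ hM x) := by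
  unfold dd
  rw [map_div₀, map_mul, map_mul, kFricke_gal, kFricke_gal, kFricke_gal]

/-- **SS-GAL.** -/
theorem h75q_ifaceSSGal (hℓ : ℓ.Prime) (hM : ¬ ℓ ∣ M) (hA : A.LiesOverPrime ℓ) :
    IfaceSSGal A M ℓ := by
  intro σ hσ τ hτ x hx
  set w := kFricke M ℓ hℓ hM with hw
  set z : FF (M * ℓ) := dd (M * ℓ) σ τ x - 1 with hz
  have hwx : w x ≠ 0 := (map_ne_zero_iff _ w.injective).mpr hx
  -- the two congruences
  obtain ⟨h1, h2⟩ := h75q_one_dd A (M * ℓ) hℓ hA hσ hτ hx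
  have hcomm := h75q_kFricke_dd M ℓ hℓ hM σ τ x
  rw [← hw] at hcomm
  have hone2 : h75q_One A (M * ℓ) (w (dd (M * ℓ) σ τ x)) := by
    rw [hcomm]
    exact h75q_one_dd A (M * ℓ) hℓ hA hσ hτ hwx
  obtain ⟨h3, h4⟩ := hone2
  have hzW : z ∈ softV A (M * ℓ) := sub_mem h1 (one_mem _)
  have hzred : softR A (M * ℓ) ⟨z, hzW⟩ = 0 := by
    have h5 : (⟨z, hzW⟩ : softV A (M * ℓ)) = ⟨dd (M * ℓ) σ τ x, h1⟩ - 1 := rfl
    rw [h5, map_sub, h2, map_one, sub_self]
  have hwz : w z = w (dd (M * ℓ) σ τ x) - 1 := by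
    rw [hz, map_sub, map_one]
  have hwzW : w z ∈ softV A (M * ℓ) := by
    rw [hwz]
    exact sub_mem h3 (one_mem _)
  have hwzred : softR A (M * ℓ) ⟨w z, hwzW⟩ = 0 := by
    have h5 : (⟨w z, hwzW⟩ : softV A (M * ℓ)) = ⟨w (dd (M * ℓ) σ τ x), h3⟩ - 1 :=
      Subtype.ext hwz
    rw [h5, map_sub, h4, map_one, sub_self]
  -- the element `ℓ ∈ 𝔪_A`
  have hℓA : ((ℓ : ℕ) : Kbar) ∈ A.nonunits := hA
  by_cases hz0 : z = 0
  · refine ⟨⟨(ℓ : Kbar), A.nonunits_subset hℓA⟩, ?_, ?_, 0, zero_mem _, ?_⟩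
    · exact ValuationSubring.coe_mem_nonunits_iff.mp hℓA
    · intro h
      have h5 : ((ℓ : ℕ) : Kbar) = 0 := congrArg Subtype.val h
      exact hℓ.ne_zero (by exact_mod_cast h5)
    · rw [mul_zero, add_zero]
      exact sub_eq_zero.mp hz0
  have hwz0 : w z ≠ 0 := (map_ne_zero_iff _ w.injective).mpr hz0
  obtain ⟨c₁, hc₁, hc₁0, hs₁⟩ :=
    h75q_exists_scale_of_red_zero A (M * ℓ) hℓ hA hz0 hzW hzred
  obtain ⟨c₂, hc₂, hc₂0, hs₂⟩ :=
    h75q_exists_scale_of_red_zero A (M * ℓ) hℓ hA hwz0 hwzW hwzred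
  have hwcst : ∀ c : Kbar, w (cst (M * ℓ) c) = cst (M * ℓ) c := fun c =>
    kFricke_cst M ℓ hℓ hM c
  have hcst0 : ∀ c : Kbar, c ≠ 0 → cst (M * ℓ) c ≠ 0 := by
    intro c hc
    rw [Ne, map_eq_zero_iff _ (algebraMap Kbar (FF (M * ℓ))).injective]
    exact hc
  have hinv : ∀ c : Kbar, cst (M * ℓ) c⁻¹ = (cst (M * ℓ) c)⁻¹ := fun c =>
    map_inv₀ (algebraMap Kbar (FF (M * ℓ))) c
  have hdiv : ∀ a b : Kbar, cst (M * ℓ) (a / b) = cst (M * ℓ) a / cst (M * ℓ) b := fun a b =>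
    map_div₀ (algebraMap Kbar (FF (M * ℓ))) a b
  -- the conclusion for a common modulus
  have key : ∀ c : Kbar, c ∈ A.nonunits → c ≠ 0 →
      cst (M * ℓ) c⁻¹ * z ∈ softV A (M * ℓ) → cst (M * ℓ) c⁻¹ * w z ∈ softV A (M * ℓ) →
      ∃ π : A, π ∈ maximalIdeal A ∧ π ≠ 0 ∧ dd (M * ℓ) σ τ x ∈ h26U π (ssV A M ℓ) := by
    intro c hc hc0 hcz hcwz
    refine ⟨⟨c, A.nonunits_subset hc⟩, ValuationSubring.coe_mem_nonunits_iff.mp hc,
      fun h => hc0 (congrArg Subtype.val h), cst (M * ℓ) c⁻¹ * z, ?_, ?_⟩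
    · refine h75q_mem_ssV A M ℓ hℓ hM hA _ hcz ?_
      rw [map_mul, hwcst]
      exact hcwz
    · show dd (M * ℓ) σ τ x = 1 + cst (M * ℓ) c * (cst (M * ℓ) c⁻¹ * z)
      have h5 := hcst0 c hc0
      rw [hinv, ← mul_assoc, mul_inv_cancel₀ h5, one_mul, hz]
      ring
  have hc₁A : c₁ ∈ A := A.nonunits_subset hc₁
  have hc₂A : c₂ ∈ A := A.nonunits_subset hc₂
  rcases A.mem_or_inv_mem (c₂ / c₁) with h | h
  · -- `c₁ ∣ c₂`: the modulus `c₁`
    refine key c₁ hc₁ hc₁0 hs₁ ?_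
    have h5 : cst (M * ℓ) c₁⁻¹ * w z = cst (M * ℓ) (c₂ / c₁) * (cst (M * ℓ) c₂⁻¹ * w z) := by
      have h6 := hcst0 c₁ hc₁0
      have h7 := hcst0 c₂ hc₂0
      rw [hdiv, hinv, hinv]
      field_simp
    rw [h5]
    exact mul_mem ((cst_mem_softV_iff A (M * ℓ) _).mpr h) hs₂
  · -- `c₂ ∣ c₁`: the modulus `c₂`
    refine key c₂ hc₂ hc₂0 ?_ hs₂
    have h5 : cst (M * ℓ) c₂⁻¹ * z = cst (M * ℓ) (c₂ / c₁)⁻¹ * (cst (M * ℓ) c₁⁻¹ * z) := by
      have h6 := hcst0 c₁ hc₁0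
      have h7 := hcst0 c₂ hc₂0
      rw [hinv (c₂ / c₁), hdiv, hinv, hinv]
      field_simp
    rw [h5]
    exact mul_mem ((cst_mem_softV_iff A (M * ℓ) _).mpr h) hs₁

end SS

end Fermat.Agent.LGC
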