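import Mathlib
import Fermat.Agent.Red.GateAsm

/-!
# W3-LGC (helper63): the abstract gate on a two-chart model with exceptional closed points

This is the assembly `h26_gate_asm` of `Red/GateAsm.lean` (helper26) in a form which tolerates
finitely or infinitely many *exceptional* closed points of the special fibre (the nodes of a
semistable model): at the closed points outside the exceptional sets `Nd₀`, `Nd₁` the charts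
have local uniformisers (smoothness), and at the exceptional points the local datum of the gate
is a hypothesis (uniform in the modulus `π`).

* `h63_local_all_ss` : `h26_local_all` away from an exceptional set.
* `h63_gate_asm_ss` : the abstract gate.  The exponent `r` is any positive integer which is a
  unit of `A`.
-/

set_option autoImplicit false
set_option linter.unusedSectionVars false

open WithZero IsLocalRing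

namespace Fermat.Agent.LGC

open Fermat.Agent.Red

section Chart

variable {A : Type*} [CommRing A] [IsDomain A] [ValuationRing A]
  {F : Type*} [Field F] [Algebra A F]
  {B : Subalgebra A F} {V : Subring F} {ι : Type*} {v : ι → Valuation F ℤᵐ⁰}

/-- **The local input of the gate at all closed points of a chart outside an exceptional set
`Nd`.** -/
theorem h63_local_all_ss (hC : H26Chart B V v)
    (hAF : Function.Injective (algebraMap A F))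
    (harch : ∀ c ∈ maximalIdeal A, c ≠ 0 → ∀ a : A, a ≠ 0 → ∃ k : ℕ, a ∣ c ^ k)
    (hVnt : ∀ m ∈ maximalIdeal A, ∀ x ∈ V, algebraMap A F m * x ≠ 1)
    (Nd : Set (Ideal B))
    (hSM : ∀ 𝔫 : Ideal B, 𝔫.IsMaximal → (maximalIdeal A).map (algebraMap A B) ≤ 𝔫 → 𝔫 ∉ Nd →
      ∃ t ∈ 𝔫, (t : F) ≠ 0 ∧ (t : F)⁻¹ ∈ V ∧ ∀ y ∈ 𝔫, ∃ s, s ∉ 𝔫 ∧
        s * y ∈ Ideal.span {t} ⊔ (maximalIdeal A).map (algebraMap A B))
    (hsec : ∀ (i : ι) (𝔫 : Ideal B), 𝔫.IsMaximal →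
      (maximalIdeal A).map (algebraMap A B) ≤ 𝔫 → h26Centered B v 𝔫 i →
      ∃ φ : B →ₐ[A] A, (∀ b : B, φ b = 0 ↔ v i (b : F) < 1) ∧
        (RingHom.ker (φ : B →+* A)).FG)
    (hgen : ∀ 𝔫 : Ideal B, 𝔫.IsMaximal → ¬ (maximalIdeal A).map (algebraMap A B) ≤ 𝔫 →
      ∀ i k, h26Centered B v 𝔫 i → h26Centered B v 𝔫 k → i = k)
    (w : F) (hw0 : w ≠ 0) (r : ℕ) (hrw : ∀ i, ∃ n : ℤ, v i w = exp (-((r : ℤ) * n)))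
    (π₁ : A) (hπ₁ : π₁ ∈ maximalIdeal A) (hπ₁0 : π₁ ≠ 0) (hwU : w ∈ h26U π₁ V) :
    ∃ π₀ ∈ maximalIdeal A, π₀ ≠ 0 ∧ π₀ ∣ π₁ ∧ ∀ π ∈ maximalIdeal A, π ∣ π₀ →
      ∀ 𝔫 : Ideal B, 𝔫.IsMaximal →
        ((maximalIdeal A).map (algebraMap A B) ≤ 𝔫 → 𝔫 ∉ Nd) →
        ∃ g : F, g ≠ 0 ∧ ((maximalIdeal A).map (algebraMap A B) ≤ 𝔫 → g ∈ h26U π V) ∧
          ∃ s : B, s ∉ 𝔫 ∧ (s : F) * (w * (g ^ r)⁻¹) ∈ B ∧ (s : F) * (g ^ r * w⁻¹) ∈ B := by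
  classical
  have hAV : ∀ a : A, algebraMap A F a ∈ V := fun a => hC.hBV _ (B.algebraMap_mem a)
  -- divisibility transfers the congruence
  have hU_of_dvd : ∀ π : A, π ∣ π₁ → w ∈ h26U π V := by
    rintro π ⟨a, rfl⟩
    obtain ⟨x, hx, rfl⟩ := hwU
    exact ⟨algebraMap A F a * x, mul_mem (hAV a) hx, by rw [map_mul]; ring⟩
  -- the generic points
  have hgeneric : ∀ 𝔫 : Ideal B, 𝔫.IsMaximal → ¬ (maximalIdeal A).map (algebraMap A B) ≤ 𝔫 →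
      ∃ g : F, g ≠ 0 ∧ ∃ s : B, s ∉ 𝔫 ∧
        (s : F) * (w * (g ^ r)⁻¹) ∈ B ∧ (s : F) * (g ^ r * w⁻¹) ∈ B := by
    intro 𝔫 h𝔫 hnle
    have := h𝔫.isPrime
    refine h26_local_generic hC 𝔫 ?_ (hgen 𝔫 h𝔫 hnle) w r hrw
    intro a ha ha𝔫
    have ha0 : a ≠ 0 := fun h => ha (by rw [h, map_zero])
    apply hnle
    rw [Ideal.map_le_iff_le_comap]
    intro m hm
    rw [Ideal.mem_comap]
    by_cases hm0 : m = 0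
    · rw [hm0, map_zero]; exact 𝔫.zero_mem
    obtain ⟨k, b, hk⟩ := harch m hm hm0 a ha0
    have h1 : algebraMap A B m ^ k ∈ 𝔫 := by
      rw [← map_pow, hk, map_mul]
      exact 𝔫.mul_mem_right _ ha𝔫
    exact h𝔫.isPrime.mem_of_pow_mem k h1
  by_cases hP : ∃ (i : ι) (𝔫 : Ideal B), 𝔫.IsMaximal ∧
      (maximalIdeal A).map (algebraMap A B) ≤ 𝔫 ∧ h26Centered B v 𝔫 i
  swap
  · -- no place is centered on the special fibre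
    refine ⟨π₁, hπ₁, hπ₁0, dvd_rfl, fun π hπ hππ 𝔫 h𝔫 _ => ?_⟩
    have := h𝔫.isPrime
    by_cases hle : (maximalIdeal A).map (algebraMap A B) ≤ 𝔫
    · have hwπ := hU_of_dvd π hππ
      have hVπ : algebraMap A F π ∈ V := hAV π
      have hwV : w ∈ V := h26U_mem_V hVπ hwπ
      have hwV' : w⁻¹ ∈ V :=
        h26U_mem_V hVπ (h26U_inv (hC.hVunit π hπ) (hVnt π hπ) hwπ)
      obtain ⟨s, hs, h1, h2⟩ := h26_local_unit hC 𝔫 w hwV hwV'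
        (fun k hk => (hP ⟨k, 𝔫, h𝔫, hle, hk⟩).elim)
      refine ⟨1, one_ne_zero, fun _ => h26U_one, s, hs, ?_, ?_⟩
      · simpa using h1
      · simpa using h2
    · obtain ⟨g, hg0, s, hs, h1, h2⟩ := hgeneric 𝔫 h𝔫 hle
      exact ⟨g, hg0, fun h => (hle h).elim, s, hs, h1, h2⟩
  -- a default section
  obtain ⟨i₀, 𝔫₀, h𝔫₀, hle₀, hc₀⟩ := hP
  obtain ⟨φ₀, -, -⟩ := hsec i₀ 𝔫₀ h𝔫₀ hle₀ hc₀
  -- the sections
  have hex : ∀ i : ι, ∃ φ : B →ₐ[A] A, ∀ 𝔫 : Ideal B, 𝔫.IsMaximal →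
      (maximalIdeal A).map (algebraMap A B) ≤ 𝔫 → h26Centered B v 𝔫 i →
      (∀ b : B, φ b = 0 ↔ v i (b : F) < 1) ∧ (RingHom.ker (φ : B →+* A)).FG := by
    intro i
    by_cases h : ∃ 𝔫 : Ideal B, 𝔫.IsMaximal ∧
        (maximalIdeal A).map (algebraMap A B) ≤ 𝔫 ∧ h26Centered B v 𝔫 i
    · obtain ⟨𝔫, h𝔫, hle, hc⟩ := h
      obtain ⟨φ, h1, h2⟩ := hsec i 𝔫 h𝔫 hle hc
      exact ⟨φ, fun _ _ _ _ => ⟨h1, h2⟩⟩
    · exact ⟨φ₀, fun 𝔫 h𝔫 hle hc => (h ⟨𝔫, h𝔫, hle, hc⟩).elim⟩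
  choose φ hφ using hex
  -- the local uniformisers
  have hex2 : ∀ 𝔫 : Ideal B, ∃ t : B, t ∈ 𝔫 ∧ (𝔫.IsMaximal →
      (maximalIdeal A).map (algebraMap A B) ≤ 𝔫 → 𝔫 ∉ Nd →
      (t : F) ≠ 0 ∧ (t : F)⁻¹ ∈ V ∧ ∀ y ∈ 𝔫, ∃ s, s ∉ 𝔫 ∧
        s * y ∈ Ideal.span {t} ⊔ (maximalIdeal A).map (algebraMap A B)) := by
    intro 𝔫
    by_cases h : 𝔫.IsMaximal ∧ (maximalIdeal A).map (algebraMap A B) ≤ 𝔫 ∧ 𝔫 ∉ Nd
    · obtain ⟨t, ht, h1⟩ := hSM 𝔫 h.1 h.2.1 h.2.2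
      exact ⟨t, ht, fun _ _ _ => h1⟩
    · exact ⟨0, 𝔫.zero_mem, fun h1 h2 h3 => (h ⟨h1, h2, h3⟩).elim⟩
  choose τ hτmem hτ using hex2
  -- the values `c i = t(P_i)`
  set c : ι → A := fun i => φ i (τ ((maximalIdeal A).comap (φ i : B →+* A))) with hc
  have hcm : ∀ i, c i ∈ maximalIdeal A := fun i =>
    Ideal.mem_comap.mp (hτmem ((maximalIdeal A).comap (φ i : B →+* A)))
  set Z : Finset ι := (h26_finite_support hC w hw0).toFinset with hZ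
  obtain ⟨π₀, hπ₀, hπ₀0, hπ₀π₁, hπ₀c⟩ := h26_common_divisor Z c (fun i _ => hcm i) π₁ hπ₁ hπ₁0
  refine ⟨π₀, hπ₀, hπ₀0, hπ₀π₁, fun π hπ hππ 𝔫 h𝔫 hNd => ?_⟩
  have := h𝔫.isPrime
  by_cases hle : (maximalIdeal A).map (algebraMap A B) ≤ 𝔫
  swap
  · obtain ⟨g, hg0, s, hs, h1, h2⟩ := hgeneric 𝔫 h𝔫 hle
    exact ⟨g, hg0, fun h => (hle h).elim, s, hs, h1, h2⟩
  have hπ0 : π ≠ 0 := by
    rintro rfl
    exact hπ₀0 (zero_dvd_iff.mp hππ)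
  have hπF : algebraMap A F π ≠ 0 := fun h => hπ0 (hAF (by rw [h, map_zero]))
  obtain ⟨ht0, htV, hprin⟩ := hτ 𝔫 h𝔫 hle (hNd hle)
  set T : Finset ι := Z.filter (fun i => h26Centered B v 𝔫 i) with hT
  have hTc : ∀ i ∈ T, h26Centered B v 𝔫 i := fun i hi => (Finset.mem_filter.mp hi).2
  have hφT : ∀ i ∈ T, (∀ b : B, φ i b = 0 ↔ v i (b : F) < 1) ∧
      (RingHom.ker (φ i : B →+* A)).FG := fun i hi => hφ i 𝔫 h𝔫 hle (hTc i hi)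
  -- the centre of `i ∈ T` is `𝔫`
  have hcomap : ∀ i ∈ T, (maximalIdeal A).comap (φ i : B →+* A) = 𝔫 := by
    intro i hi
    have hkerle : RingHom.ker (φ i : B →+* A) ≤ 𝔫 := by
      intro b hb
      exact hTc i hi b (((hφT i hi).1 b).mp hb)
    have h1 : 𝔫 ≤ (maximalIdeal A).comap (φ i : B →+* A) := fun y hy =>
      h26_section_local 𝔫 (φ i) hkerle y hy
    have h2 : (maximalIdeal A).comap (φ i : B →+* A) ≠ ⊤ := by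
      rw [Ne, Ideal.eq_top_iff_one, Ideal.mem_comap, map_one]
      exact fun h => (Ideal.ne_top_iff_one _).mp (IsLocalRing.maximalIdeal.isMaximal A).ne_top h
    exact (h𝔫.eq_of_le h2 h1).symm
  have hcT : ∀ i ∈ T, ∃ a : A, φ i (τ 𝔫) = π * a := by
    intro i hi
    have h1 : φ i (τ 𝔫) = c i := by
      rw [hc]
      simp only
      rw [hcomap i hi]
    rw [h1]
    exact hππ.trans (hπ₀c i (Finset.mem_filter.mp hi).1)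
  choose n hn using hrw
  have hw1 : ∀ k, h26Centered B v 𝔫 k → k ∉ T → v k w = 1 := by
    intro k hk hkT
    by_contra hne
    apply hkT
    rw [hT, Finset.mem_filter, hZ, Set.Finite.mem_toFinset]
    exact ⟨hne, hk⟩
  obtain ⟨g, hgU, s, hs, h1, h2⟩ := h26_local_gate hC 𝔫 hle (τ 𝔫) (hτmem 𝔫) ht0 htV hprin T φ
    (fun i hi => (hφT i hi).1) (fun i hi => (hφT i hi).2) hTc π hπ hπF hcT w
    (hU_of_dvd π (hππ.trans hπ₀π₁)) r n (fun i _ => hn i) hw1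
  exact ⟨g, h26U_ne_zero (hVnt π hπ) hgU, fun _ => hgU, s, hs, h1, h2⟩

end Chart

section Asm

variable {A : Type*} [CommRing A] [IsDomain A] [ValuationRing A]
  {F : Type*} [Field F] [Algebra A F]

/-- **Abstract assembly of the gate with exceptional closed points.**  Same as `h26_gate_asm`,
but the local uniformisers are only required outside the exceptional sets `Nd₀`, `Nd₁`, and at
the exceptional points the local datum for `w` is given, for every modulus `π ∣ π₁`. -/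
theorem h63_gate_asm_ss
    (hAF : Function.Injective (algebraMap A F))
    (harch : ∀ c ∈ maximalIdeal A, c ≠ 0 → ∀ a : A, a ≠ 0 → ∃ k : ℕ, a ∣ c ^ k)
    (V : Subring F)
    (hVnt : ∀ m ∈ maximalIdeal A, ∀ x ∈ V, algebraMap A F m * x ≠ 1)
    (j : F) (hj : j ≠ 0) (B₀ Binf Bm : Subalgebra A F)
    (hj₀ : j ∈ B₀) (hjinf : j⁻¹ ∈ Binf) (h0m : B₀ ≤ Bm) (hinfm : Binf ≤ Bm)
    (hm0 : ∀ x ∈ Bm, ∃ k : ℕ, j ^ k * x ∈ B₀)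
    (hminf : ∀ x ∈ Bm, ∃ k : ℕ, j⁻¹ ^ k * x ∈ Binf)
    (r : ℕ) (hr : 0 < r) (hrA : IsUnit (r : A))
    (hroot₀ : ∀ x : F, x ^ r ∈ B₀ → x ∈ B₀)
    (hrootinf : ∀ x : F, x ^ r ∈ Binf → x ∈ Binf)
    (hrootm : ∀ x : F, x ^ r ∈ Bm → x ∈ Bm)
    (hqepm : ∀ a : A, algebraMap A F a ≠ 0 → ∀ x ∈ V, a • x ∈ Bm → x ∈ Bm)
    {ι₀ ι₁ : Type*} (v₀ : ι₀ → Valuation F ℤᵐ⁰) (v₁ : ι₁ → Valuation F ℤᵐ⁰)
    (hC₀ : H26Chart B₀ V v₀) (hC₁ : H26Chart Binf V v₁)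
    (Nd₀ : Set (Ideal B₀)) (Nd₁ : Set (Ideal Binf))
    (hSM₀ : ∀ 𝔫 : Ideal B₀, 𝔫.IsMaximal → (maximalIdeal A).map (algebraMap A B₀) ≤ 𝔫 →
      𝔫 ∉ Nd₀ →
      ∃ t ∈ 𝔫, (t : F) ≠ 0 ∧ (t : F)⁻¹ ∈ V ∧ ∀ y ∈ 𝔫, ∃ s, s ∉ 𝔫 ∧
        s * y ∈ Ideal.span {t} ⊔ (maximalIdeal A).map (algebraMap A B₀))
    (hSM₁ : ∀ 𝔫 : Ideal Binf, 𝔫.IsMaximal → (maximalIdeal A).map (algebraMap A Binf) ≤ 𝔫 →
      𝔫 ∉ Nd₁ →
      ∃ t ∈ 𝔫, (t : F) ≠ 0 ∧ (t : F)⁻¹ ∈ V ∧ ∀ y ∈ 𝔫, ∃ s, s ∉ 𝔫 ∧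
        s * y ∈ Ideal.span {t} ⊔ (maximalIdeal A).map (algebraMap A Binf))
    (hsec₀ : ∀ (i : ι₀) (𝔫 : Ideal B₀), 𝔫.IsMaximal →
      (maximalIdeal A).map (algebraMap A B₀) ≤ 𝔫 → h26Centered B₀ v₀ 𝔫 i →
      ∃ φ : B₀ →ₐ[A] A, (∀ b : B₀, φ b = 0 ↔ v₀ i (b : F) < 1) ∧
        (RingHom.ker (φ : B₀ →+* A)).FG)
    (hsec₁ : ∀ (i : ι₁) (𝔫 : Ideal Binf), 𝔫.IsMaximal →
      (maximalIdeal A).map (algebraMap A Binf) ≤ 𝔫 → h26Centered Binf v₁ 𝔫 i →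
      ∃ φ : Binf →ₐ[A] A, (∀ b : Binf, φ b = 0 ↔ v₁ i (b : F) < 1) ∧
        (RingHom.ker (φ : Binf →+* A)).FG)
    (hgen₀ : ∀ 𝔫 : Ideal B₀, 𝔫.IsMaximal → ¬ (maximalIdeal A).map (algebraMap A B₀) ≤ 𝔫 →
      ∀ i k, h26Centered B₀ v₀ 𝔫 i → h26Centered B₀ v₀ 𝔫 k → i = k)
    (hgen₁ : ∀ 𝔫 : Ideal Binf, 𝔫.IsMaximal →
      ¬ (maximalIdeal A).map (algebraMap A Binf) ≤ 𝔫 →
      ∀ i k, h26Centered Binf v₁ 𝔫 i → h26Centered Binf v₁ 𝔫 k → i = k)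
    (S : Finset F) (hS : ∀ s ∈ S, s ∈ B₀)
    (hfin : ∀ x ∈ B₀, x ∈ Submodule.span A {y : F | ∃ a : ℕ, ∃ s ∈ S, y = j ^ a * s})
    (w : F) (hw0 : w ≠ 0)
    (hrw₀ : ∀ i, ∃ n : ℤ, v₀ i w = exp (-((r : ℤ) * n)))
    (hrw₁ : ∀ i, ∃ n : ℤ, v₁ i w = exp (-((r : ℤ) * n)))
    (π₁ : A) (hπ₁ : π₁ ∈ maximalIdeal A) (hπ₁0 : π₁ ≠ 0) (hwU : w ∈ h26U π₁ V)
    (hnode₀ : ∀ π ∈ maximalIdeal A, π ∣ π₁ → ∀ 𝔫 : Ideal B₀, 𝔫.IsMaximal →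
      (maximalIdeal A).map (algebraMap A B₀) ≤ 𝔫 → 𝔫 ∈ Nd₀ →
      ∃ g ∈ h26U π V, ∃ s : B₀, s ∉ 𝔫 ∧
        (s : F) * (w * (g ^ r)⁻¹) ∈ B₀ ∧ (s : F) * (g ^ r * w⁻¹) ∈ B₀)
    (hnode₁ : ∀ π ∈ maximalIdeal A, π ∣ π₁ → ∀ 𝔫 : Ideal Binf, 𝔫.IsMaximal →
      (maximalIdeal A).map (algebraMap A Binf) ≤ 𝔫 → 𝔫 ∈ Nd₁ →
      ∃ g ∈ h26U π V, ∃ s : Binf, s ∉ 𝔫 ∧
        (s : F) * (w * (g ^ r)⁻¹) ∈ Binf ∧ (s : F) * (g ^ r * w⁻¹) ∈ Binf) :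
    ∃ t : F, t ≠ 0 ∧ t ^ r * w⁻¹ ∈ B₀ ∧ t ^ r * w⁻¹ ∈ Binf := by
  classical
  have hAV : ∀ a : A, algebraMap A F a ∈ V := fun a => hC₀.hBV _ (B₀.algebraMap_mem a)
  -- the constant `π`
  obtain ⟨π₀, hπ₀, hπ₀0, hπ₀π₁, hloc₀⟩ := h63_local_all_ss hC₀ hAF harch hVnt Nd₀ hSM₀ hsec₀
    hgen₀ w hw0 r hrw₀ π₁ hπ₁ hπ₁0 hwU
  have hwU₀ : w ∈ h26U π₀ V := by
    obtain ⟨a, rfl⟩ := hπ₀π₁
    obtain ⟨x, hx, rfl⟩ := hwU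
    exact ⟨algebraMap A F a * x, mul_mem (hAV a) hx, by rw [map_mul]; ring⟩
  obtain ⟨π, hπ, hπ0, hππ₀, hloc₁⟩ := h63_local_all_ss hC₁ hAF harch hVnt Nd₁ hSM₁ hsec₁
    hgen₁ w hw0 r hrw₁ π₀ hπ₀ hπ₀0 hwU₀
  have hππ₁ : π ∣ π₁ := hππ₀.trans hπ₀π₁
  -- the local data at all closed points
  have hL₀ : ∀ 𝔫 : Ideal B₀, 𝔫.IsMaximal →
      ∃ g : F, g ≠ 0 ∧ ((maximalIdeal A).map (algebraMap A B₀) ≤ 𝔫 → g ∈ h26U π V) ∧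
        ∃ s : B₀, s ∉ 𝔫 ∧ (s : F) * (w * (g ^ r)⁻¹) ∈ B₀ ∧ (s : F) * (g ^ r * w⁻¹) ∈ B₀ := by
    intro 𝔫 h𝔫
    by_cases hN : (maximalIdeal A).map (algebraMap A B₀) ≤ 𝔫 ∧ 𝔫 ∈ Nd₀
    · obtain ⟨g, hgU, s, hs, h1, h2⟩ := hnode₀ π hπ hππ₁ 𝔫 h𝔫 hN.1 hN.2
      exact ⟨g, h26U_ne_zero (hVnt π hπ) hgU, fun _ => hgU, s, hs, h1, h2⟩
    · exact hloc₀ π hπ hππ₀ 𝔫 h𝔫 (fun hle hNd => hN ⟨hle, hNd⟩)
  have hL₁ : ∀ 𝔫 : Ideal Binf, 𝔫.IsMaximal →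
      ∃ g : F, g ≠ 0 ∧ ((maximalIdeal A).map (algebraMap A Binf) ≤ 𝔫 → g ∈ h26U π V) ∧
        ∃ s : Binf, s ∉ 𝔫 ∧ (s : F) * (w * (g ^ r)⁻¹) ∈ Binf ∧
          (s : F) * (g ^ r * w⁻¹) ∈ Binf := by
    intro 𝔫 h𝔫
    by_cases hN : (maximalIdeal A).map (algebraMap A Binf) ≤ 𝔫 ∧ 𝔫 ∈ Nd₁
    · obtain ⟨g, hgU, s, hs, h1, h2⟩ := hnode₁ π hπ hππ₁ 𝔫 h𝔫 hN.1 hN.2
      exact ⟨g, h26U_ne_zero (hVnt π hπ) hgU, fun _ => hgU, s, hs, h1, h2⟩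
    · exact hloc₁ π hπ dvd_rfl 𝔫 h𝔫 (fun hle hNd => hN ⟨hle, hNd⟩)
  have hwUπ : w ∈ h26U π V := by
    obtain ⟨a, rfl⟩ := hππ₀
    obtain ⟨x, hx, rfl⟩ := hwU₀
    exact ⟨algebraMap A F a * x, mul_mem (hAV a) hx, by rw [map_mul]; ring⟩
  have hπF : algebraMap A F π ≠ 0 := fun h => hπ0 (hAF (by rw [h, map_zero]))
  have hVπ : algebraMap A F π ∈ V := hAV π
  have hVinv : ∀ x ∈ V, (1 + algebraMap A F π * x)⁻¹ ∈ V := hC₀.hVunit π hπ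
  have hVntπ : ∀ x ∈ V, algebraMap A F π * x ≠ 1 := hVnt π hπ
  -- the elements `e₀`, `e∞`
  have hmVstable : ∀ (B : Subalgebra A F), (∀ x ∈ B, x ∈ V) →
      ∀ b ∈ B, ∀ x ∈ h26mV π V, b * x ∈ h26mV π V := by
    rintro B hBV b hb _ ⟨y, hy, rfl⟩
    exact ⟨b * y, mul_mem (hBV b hb) hy, by ring⟩
  obtain ⟨e₀, he₀, he₀m⟩ := h26_exists_e B₀ w r hr hroot₀ (h26mV π V)
    (hmVstable B₀ hC₀.hBV) (fun 𝔫 h𝔫 => h26_local_for_e harch π hπ0 w r hr hL₀ 𝔫 h𝔫)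
  obtain ⟨einf, heinf, heinfm⟩ := h26_exists_e Binf w r hr hrootinf (h26mV π V)
    (hmVstable Binf hC₁.hBV) (fun 𝔫 h𝔫 => h26_local_for_e harch π hπ0 w r hr hL₁ 𝔫 h𝔫)
  have he₀U : e₀ ∈ h26U π V := by
    obtain ⟨y, hy, h⟩ := he₀m
    exact ⟨y, hy, by rw [← h]; ring⟩
  have heinfU : einf ∈ h26U π V := by
    obtain ⟨y, hy, h⟩ := heinfm
    exact ⟨y, hy, by rw [← h]; ring⟩
  -- generators of `L₀`
  obtain ⟨T, hT, hgen⟩ := h26_L_gen_of_local B₀ j w hw0 r hr hroot₀ S hS hfin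
    (fun 𝔫 h𝔫 => h26_local_for_L π w r hr hL₀ 𝔫 h𝔫)
  -- `H¹` is finitely generated up to `L₀ + L∞`
  obtain ⟨G, hG, hGle⟩ := h26_H1_fg (h26L B₀ w r hr hroot₀) (h26L Binf w r hr hrootinf)
    (h26L Bm w r hr hrootm) j hj
    (fun f hf => h26_mul_mem_L hj₀ hf) (fun f hf => h26_mul_mem_L hjinf hf) (h26_L_mono h0m)
    (fun f hf => h26_L_exists_pow j hj₀ hm0 hf)
    (fun f hf => h26_L_exists_pow j⁻¹ hjinf hminf hf) T hT hgen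
  -- bounded torsion
  obtain ⟨k, hk⟩ := h26_pow_torsion_bound π hπ0 (harch π hπ hπ0)
    (h26L B₀ w r hr hroot₀ ⊔ h26L Binf w r hr hrootinf) G hG
  -- the gate
  refine h26_gate_core π r hr hrA V hVπ hVinv hVntπ B₀ Binf Bm h0m hinfm hC₀.hBV hC₁.hBV
    hroot₀ hrootinf hrootm ?_ ?_ ?_ w hwUπ ⟨k, fun f hf hn => hk f (hGle hf) hn⟩
    e₀ he₀ he₀U einf heinf heinfU
  · intro x hx h
    exact hC₀.hQEP π hπF x hx (by rw [Algebra.smul_def]; exact h)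
  · intro x hx h
    exact hC₁.hQEP π hπF x hx (by rw [Algebra.smul_def]; exact h)
  · intro x hx h
    exact hqepm π hπF x hx (by rw [Algebra.smul_def]; exact h)

end Asm

end Fermat.Agent.LGC
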