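import Fermat.Agent.S34.Skeleton
import Fermat.Agent.Red.EST.Assembly
import Fermat.Agent.Red.Desc.Final
import Fermat.Agent.Red.GateAll

/-!
# W3-LGC (helper63): `InertiaUnipotentTorsion` from the semistable gate

* `ddiff N σ σ' u = σ'σ(u) · u / (σ'(u) · σ(u))` : the double difference of a function.
* `GateSS` : **the semistable gate**.  At a level `N` with `ℓ ∥ N` and `auxLevel ℓ ∣ N`, for
  `σ, σ'` in the inertia group at `A` over `ℓ` and every function `u` whose divisor is divisible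
  by `m` (`ℓ ∤ m`), the double difference of `u` is an `m`-th power in `F_N`.
* `h63_descent_pow` : descent of `m`-th roots from the good level (any exponent `m ≠ 0`), from
  the landed `IfaceGateDescent`.
* `inertiaUnipotentTorsion_of_gateSS` : `GateSS → InertiaUnipotentTorsion N p` for every level
  `N` and every prime `p` (the socket of `S34/Assembly.lean`).
-/

set_option autoImplicit false

open AlgebraicCurve ModularCurve IntermediateField

noncomputable section

namespace Fermat.Agent.LGC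

open Fermat.Agent.S37 Fermat.Agent.Jac.K1 Fermat.Agent.Red.GateAll

/-- the double difference `σ'σ(u) · u / (σ'(u) · σ(u))`. -/
def ddiff (N : ℕ) (σ σ' : GQ) (u : FF N) : FF N :=
  ((gal N σ' • (gal N σ • u)) * u) / ((gal N σ' • u) * (gal N σ • u))

/-- **The semistable gate.** -/
def GateSS : Prop :=
  ∀ ℓ : ℕ, ℓ.Prime → ∀ (N : ℕ) [NeZero N], ℓ ∣ N → ¬ ℓ ^ 2 ∣ N → auxLevel ℓ ∣ N →
    ∀ A : ValuationSubring Kbar, A.LiesOverPrime ℓ →
    ∀ σ ∈ A.inertiaSubgroupIn ℚ, ∀ σ' ∈ A.inertiaSubgroupIn ℚ,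
    ∀ m : ℕ, ¬ ℓ ∣ m → ∀ u : FF N, u ≠ 0 → (∀ v : Place Kbar (FF N), (m : ℤ) ∣ v.ord u) →
      ∃ h : FF N, h ^ m = ddiff N σ σ' u

/-- the degeneracy inclusion commutes with the Galois action. -/
theorem h63_degen_gal {N M : ℕ} [NeZero N] [NeZero M] (h : N ∣ M) (σ : GQ) (u : FF N) :
    degen h (gal N σ • u) = gal M σ • degen h u :=
  Subtype.ext (by
    rw [coe_degen]
    show _ = coeffMap (σ : Kbar →+* Kbar) ((degen h u : FF M) : LaurentSeries Kbar)
    rw [coe_degen]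
    rfl)

theorem h63_degen_ddiff {N M : ℕ} [NeZero N] [NeZero M] (h : N ∣ M) (σ σ' : GQ) (u : FF N) :
    degen h (ddiff N σ σ' u) = ddiff M σ σ' (degen h u) := by
  unfold ddiff
  rw [map_div₀, map_mul, map_mul, h63_degen_gal, h63_degen_gal, h63_degen_gal]

/-- an element of `F_M` of finite multiplicative order is a constant. -/
theorem h63_const_of_pow_eq_one {M : ℕ} (z : FF M) (r : ℕ) (hr : r ≠ 0) (hz : z ^ r = 1) :
    ∃ c : Kbar, c ^ r = 1 ∧ z = cst M c := by
  have hint : IsIntegral Kbar z := by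
    refine ⟨Polynomial.X ^ r - 1, Polynomial.monic_X_pow_sub_C 1 hr, ?_⟩
    simp [hz]
  have hdeg : (minpoly Kbar z).degree = 1 :=
    IsAlgClosed.degree_eq_one_of_irreducible Kbar (minpoly.irreducible hint)
  obtain ⟨c, hc⟩ := minpoly.mem_range_of_degree_eq_one Kbar z hdeg
  refine ⟨c, ?_, hc.symm⟩
  have h1 : algebraMap Kbar (FF M) (c ^ r) = algebraMap Kbar (FF M) 1 := by
    rw [map_pow, hc, hz, map_one]
  exact (algebraMap Kbar (FF M)).injective h1

/-- **Descent of roots from the good level, any exponent.** -/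
theorem h63_descent_pow (ℓ N : ℕ) [NeZero N] (m : ℕ) :
    m ≠ 0 → ∀ w : FF N, w ≠ 0 → (∀ v : Place Kbar (FF N), (m : ℤ) ∣ v.ord w) →
    (∃ h : FF (goodLevel ℓ N), h ^ m = degen (dvd_goodLevel ℓ N) w) → ∃ h : FF N, h ^ m = w := by
  induction m using Nat.strong_induction_on with
  | _ m ih =>
    intro hm0 w hw hord hroot
    rcases Nat.lt_or_ge m 2 with hm | hm
    · interval_cases m
      · exact absurd rfl hm0
      · exact ⟨w, pow_one w⟩
    · have hrp : (m.minFac).Prime := Nat.minFac_prime (by omega)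
      obtain ⟨m', hm'⟩ : m.minFac ∣ m := Nat.minFac_dvd m
      have hm'pos : 0 < m' := by
        rcases Nat.eq_zero_or_pos m' with h0 | h0
        · rw [h0, mul_zero] at hm'; omega
        · exact h0
      have hm'lt : m' < m := by
        have := hrp.two_le
        nlinarith
      obtain ⟨h', hh'⟩ := hroot
      -- a root of prime order at level `N`
      obtain ⟨h1, hh1⟩ := Fermat.Agent.Red.Desc.ifaceGateDescent ℓ N m.minFac hrp w hw
        (fun v => (Int.natCast_dvd_natCast.2 (Nat.minFac_dvd m)).trans (hord v))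
        ⟨h' ^ m', by rw [← pow_mul, mul_comm, ← hm', hh']⟩
      have h10 : h1 ≠ 0 := by
        rintro rfl
        rw [zero_pow hrp.ne_zero] at hh1
        exact hw hh1.symm
      have hord1 : ∀ v : Place Kbar (FF N), (m' : ℤ) ∣ v.ord h1 := by
        intro v
        have h3 := hord v
        rw [← hh1, ← zpow_natCast, Place.ord_zpow] at h3
        have h4 : ((m : ℕ) : ℤ) = (m.minFac : ℤ) * (m' : ℤ) := by exact_mod_cast hm'
        rw [h4] at h3
        exact (mul_dvd_mul_iff_left (by exact_mod_cast hrp.ne_zero)).1 h3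
      -- `h1` is an `m'`-th power at the good level
      have hh'0 : h' ≠ 0 := by
        rintro rfl
        rw [zero_pow hm0] at hh'
        exact hw ((degen (dvd_goodLevel ℓ N)).toRingHom.injective (by simpa using hh'.symm))
      have hz : (degen (dvd_goodLevel ℓ N) h1 / h' ^ m') ^ m.minFac = 1 := by
        rw [div_pow, ← map_pow, hh1, ← hh', ← pow_mul, mul_comm m' m.minFac, ← hm']
        exact div_self (pow_ne_zero _ hh'0)
      obtain ⟨c, -, hc⟩ := h63_const_of_pow_eq_one _ m.minFac hrp.ne_zero hz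
      obtain ⟨d, hd⟩ := IsAlgClosed.exists_pow_nat_eq c hm'pos
      have hroot1 : ∃ h : FF (goodLevel ℓ N), h ^ m' = degen (dvd_goodLevel ℓ N) h1 := by
        refine ⟨cst _ d * h', ?_⟩
        have hp0 : h' ^ m' ≠ 0 := pow_ne_zero _ hh'0
        rw [mul_pow, ← map_pow, hd]
        show cst _ c * h' ^ m' = _
        rw [← hc, div_mul_cancel₀ _ hp0]
      obtain ⟨h2, hh2⟩ := ih m' hm'lt hm'pos.ne' h1 h10 hord1 hroot1
      exact ⟨h2, by rw [hm', mul_comm, pow_mul, hh2, hh1]⟩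

/-- `ℓ ∥ N` is inherited by the good level above `N`. -/
theorem h63_not_sq_dvd_goodLevel {ℓ N : ℕ} (hℓ : ℓ.Prime) (h : ¬ ℓ ^ 2 ∣ N) :
    ¬ ℓ ^ 2 ∣ goodLevel ℓ N := by
  intro hd
  have h2 : ℓ ^ 2 ∣ N * auxLevel ℓ := hd.trans (Nat.lcm_dvd_mul _ _)
  have hcop : Nat.Coprime (ℓ ^ 2) (auxLevel ℓ) :=
    Nat.Coprime.pow_left 2 ((Nat.Prime.coprime_iff_not_dvd hℓ).2 (not_dvd_auxLevel hℓ))
  exact h (hcop.dvd_of_dvd_mul_right h2)

/-- **The double difference of a torsion point vanishes** (any level `N` with `ℓ ∥ N`). -/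
theorem h63_ddiff_torsion (hG : GateSS) (N : ℕ) [NeZero N] {ℓ : ℕ} (hℓ : ℓ.Prime)
    (hℓN : ℓ ∣ N) (hℓ2 : ¬ ℓ ^ 2 ∣ N) (A : ValuationSubring Kbar) (hA : A.LiesOverPrime ℓ)
    (σ : GQ) (hσ : σ ∈ A.inertiaSubgroupIn ℚ) (σ' : GQ) (hσ' : σ' ∈ A.inertiaSubgroupIn ℚ)
    (m : ℕ) (hm0 : m ≠ 0) (hm : ¬ ℓ ∣ m) (x : JZero N) (hx : m • x = 0) :
    gal N σ' • (gal N σ • x) + x = gal N σ' • x + gal N σ • x := by
  obtain ⟨f, hf⟩ := exists_kummerPair (n := m) (x := x) (by rw [natCast_zsmul]; exact hx)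
  have h1 := hf.smul (gal N σ)
  have h1' := hf.smul (gal N σ')
  have h2 := h1.smul (gal N σ')
  have hw : IsKummerPair m (gal N σ' • (gal N σ • x) + x - (gal N σ' • x + gal N σ • x))
      (ddiff N σ σ' f) := (h2.mul hf).div (h1'.mul h1)
  have hd0 : degen (dvd_goodLevel ℓ N) f ≠ 0 := by
    intro h0
    exact hf.ne_zero ((degen (dvd_goodLevel ℓ N)).toRingHom.injective (by simpa using h0))
  obtain ⟨h', hh'⟩ := hG ℓ hℓ (goodLevel ℓ N) (hℓN.trans (dvd_goodLevel ℓ N))
    (h63_not_sq_dvd_goodLevel hℓ hℓ2) (auxLevel_dvd_goodLevel ℓ N) A hA σ hσ σ' hσ' m hm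
    (degen (dvd_goodLevel ℓ N) f) hd0 (by
      intro v
      rw [Place.ord_restrictAlong (degen (dvd_goodLevel ℓ N)) (h99_isIntegral_degen _) v f]
      exact Dvd.dvd.mul_left (hf.dvd_ord _) _)
  rw [← h63_degen_ddiff] at hh'
  obtain ⟨h, hh⟩ := h63_descent_pow ℓ N m hm0 (ddiff N σ σ' f) hw.ne_zero
    (fun v => hw.dvd_ord v) ⟨h', hh'⟩
  exact sub_eq_zero.mp (Fermat.Agent.Red.EST.h76_kummer_eq_zero_of_pow hm0 hw hh)

/-- **IN-MONO from the semistable gate.** -/
theorem inertiaUnipotentTorsion_of_gateSS (hG : GateSS) (N p : ℕ) [NeZero N] (hp : p.Prime) :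
    Fermat.Agent.S34.InertiaUnipotentTorsion N p := by
  intro q hq hqp hqN hq2 A hA σ hσ k x hx
  have hm0 : p ^ k ≠ 0 := pow_ne_zero _ hp.ne_zero
  have hqm : ¬ q ∣ p ^ k := fun h =>
    hqp ((Nat.prime_dvd_prime_iff_eq hq hp).1 (hq.dvd_of_dvd_pow h))
  have key := h63_ddiff_torsion hG N hq hqN hq2 A hA σ hσ σ hσ (p ^ k) hm0 hqm x hx
  rw [two_nsmul]
  exact key

end Fermat.Agent.LGC
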