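import Fermat.Agent.LGC.GateSSLoc
import Fermat.Agent.LGC.Unip
import Fermat.Agent.Red.GateGoodOf

/-!
# W3-LGC (helper63): the semistable gate `GateSS` from the chart inputs at level `N`, `ℓ ∥ N`

`gateSS_of_pieces : IfacePiecesSS → GateSS`.  The pieces, at a level `N` with `ℓ ∥ N` and
`auxLevel ℓ ∣ N`, for a subring `V ⊆ F_N` (the semistable Gauss ring
`V = V_∞ ∩ V_0`):

* `H26Chart` for the two charts `t = j`, `t = 1/j` with respect to `V`;
* `1 ∉ 𝔪_A V`;
* `IfaceFinite N A j` (the finite chart is a finitely generated `A[j]`-module);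
* `IfaceGeneric` for the two charts (closed points of the generic fibre);
* `loc` : for `σ, σ'` in the inertia group and `u` with divisor divisible by `m`, the double
  difference `w = ddiff N σ σ' u` is `≡ 1` modulo some `π V` and has the local datum of the gate
  modulo `π` at every closed point of the special fibre of both charts (`LocDatum`).
-/

set_option autoImplicit false
set_option linter.unusedSectionVars false

open AlgebraicCurve WithZero IsLocalRing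

noncomputable section

namespace Fermat.Agent.LGC

open Fermat.Agent.S37 Fermat.Agent.Red Fermat.Agent.Red.GG Fermat.Agent.Red.ModelO

/-- the local datum of the gate for `w` (exponent `r`, modulus `π`) at the closed points of the
special fibre of the chart `t`. -/
def LocDatum (N : ℕ) [NeZero N] (A : ValuationSubring Kbar) (t : FF N) (V : Subring (FF N))
    (π : A) (w : FF N) (r : ℕ) : Prop :=
  ∀ 𝔫 : Ideal (chart N A t), 𝔫.IsMaximal →
    (maximalIdeal A).map (algebraMap A (chart N A t)) ≤ 𝔫 →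
    ∃ g ∈ h26U π V, ∃ s : chart N A t, s ∉ 𝔫 ∧
      (s : FF N) * (w * (g ^ r)⁻¹) ∈ chart N A t ∧ (s : FF N) * (g ^ r * w⁻¹) ∈ chart N A t

/-- the chart inputs of the semistable gate at the level `N`. -/
structure PiecesSSAt (ℓ N : ℕ) [NeZero N] (A : ValuationSubring Kbar) (V : Subring (FF N)) :
    Prop where
  chart₀ : H26Chart (chart N A (jB N)) V (chartVal N (jB N))
  chart₁ : H26Chart (chart N A (jB N)⁻¹) V (chartVal N (jB N)⁻¹)
  nt : ∀ m ∈ maximalIdeal A, ∀ x ∈ V, algebraMap A (FF N) m * x ≠ 1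
  fin : IfaceFinite N A (jB N)
  gen₀ : IfaceGeneric N A (jB N)
  gen₁ : IfaceGeneric N A (jB N)⁻¹
  loc : ∀ σ ∈ A.inertiaSubgroupIn ℚ, ∀ σ' ∈ A.inertiaSubgroupIn ℚ, ∀ m : ℕ, ¬ ℓ ∣ m →
    ∀ u : FF N, u ≠ 0 → (∀ v : Place Kbar (FF N), (m : ℤ) ∣ v.ord u) →
      ∃ π ∈ maximalIdeal A, π ≠ 0 ∧ ddiff N σ σ' u ∈ h26U π V ∧
        LocDatum N A (jB N) V π (ddiff N σ σ' u) m ∧
        LocDatum N A (jB N)⁻¹ V π (ddiff N σ σ' u) m

/-- **the chart inputs of the semistable gate**, at every level `N` with `ℓ ∥ N` and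
`auxLevel ℓ ∣ N`. -/
def IfacePiecesSS : Prop :=
  ∀ ℓ : ℕ, ℓ.Prime → ∀ (N : ℕ) [NeZero N], ℓ ∣ N → ¬ ℓ ^ 2 ∣ N → auxLevel ℓ ∣ N →
    ∀ A : ValuationSubring Kbar, A.LiesOverPrime ℓ →
      ∃ V : Subring (FF N), PiecesSSAt ℓ N A V

/-- divisibility of the orders is stable under the Galois action. -/
theorem h63_dvd_ord_gal (N : ℕ) (σ : GQ) (m : ℕ) (u : FF N)
    (hu : ∀ v : Place Kbar (FF N), (m : ℤ) ∣ v.ord u) (v : Place Kbar (FF N)) :
    (m : ℤ) ∣ v.ord (gal N σ • u) := by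
  have h := SemilinearAut.ord_smul (gal N σ) ((gal N σ)⁻¹ • v) u
  rw [smul_inv_smul] at h
  rw [h]
  exact hu _

theorem h63_gal_ne_zero (N : ℕ) (σ : GQ) {u : FF N} (hu : u ≠ 0) : gal N σ • u ≠ 0 := by
  rw [SemilinearAut.smul_def]
  exact (map_ne_zero_iff _ (SemilinearAut.toRingAut (gal N σ)).injective).mpr hu

/-- divisibility of the orders of the double difference. -/
theorem h63_dvd_ord_ddiff (N : ℕ) (σ σ' : GQ) (m : ℕ) (u : FF N) (hu0 : u ≠ 0)
    (hu : ∀ v : Place Kbar (FF N), (m : ℤ) ∣ v.ord u) (v : Place Kbar (FF N)) :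
    (m : ℤ) ∣ v.ord (ddiff N σ σ' u) := by
  have h1 := h63_gal_ne_zero N σ hu0
  have h1' := h63_gal_ne_zero N σ' hu0
  have h2 := h63_gal_ne_zero N σ' h1
  unfold ddiff
  rw [div_eq_mul_inv, v.ord_mul (mul_ne_zero h2 hu0) (inv_ne_zero (mul_ne_zero h1' h1)),
    v.ord_mul h2 hu0, v.ord_inv, v.ord_mul h1' h1]
  refine dvd_add (dvd_add ?_ (hu v)) (Dvd.dvd.neg_right (dvd_add ?_ ?_))
  · exact h63_dvd_ord_gal N σ' m _ (h63_dvd_ord_gal N σ m u hu) v
  · exact h63_dvd_ord_gal N σ' m u hu v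
  · exact h63_dvd_ord_gal N σ m u hu v

set_option maxHeartbeats 1600000 in
/-- **`GateSS` from the chart inputs.** -/
theorem gateSS_of_pieces (h : IfacePiecesSS) : GateSS := by
  intro ℓ hℓ N _ hℓN hℓ2 haux A hA σ hσ σ' hσ' m hm u hu0 hord
  obtain ⟨V, hP⟩ := h ℓ hℓ N hℓN hℓ2 haux A hA
  obtain ⟨π, hπ, hπ0, hwU, hloc₀, hloc₁⟩ := hP.loc σ hσ σ' hσ' m hm u hu0 hord
  have hm0 : m ≠ 0 := by
    rintro rfl
    exact hm (dvd_zero ℓ)
  have hmA : IsUnit ((m : ℕ) : A) := by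
    rw [← IsLocalRing.notMem_maximalIdeal]
    intro hmem
    have hℓmem : ((ℓ : ℕ) : A) ∈ maximalIdeal A := by
      rw [mem_maximalIdeal_iff]
      exact hA
    have hcop : IsCoprime (m : ℤ) (ℓ : ℤ) :=
      Nat.isCoprime_iff_coprime.mpr (Nat.Coprime.symm ((Nat.Prime.coprime_iff_not_dvd hℓ).2 hm))
    obtain ⟨a, b, hab⟩ := hcop
    have h1 : ((a : ℤ) : A) * ((m : ℕ) : A) + ((b : ℤ) : A) * ((ℓ : ℕ) : A) = 1 := by
      have := congrArg (Int.cast : ℤ → A) hab
      push_cast at this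
      exact this
    have h2 : (1 : A) ∈ maximalIdeal A := by
      rw [← h1]
      exact Ideal.add_mem _ (Ideal.mul_mem_left _ _ hmem) (Ideal.mul_mem_left _ _ hℓmem)
    exact (Ideal.ne_top_iff_one _).mp (IsLocalRing.maximalIdeal.isMaximal A).ne_top h2
  set w : FF N := ddiff N σ σ' u with hw
  have hw0 : w ≠ 0 := h26U_ne_zero (hP.nt π hπ) hwU
  have hrw : ∀ v : Place Kbar (FF N), (m : ℤ) ∣ v.ord w :=
    h63_dvd_ord_ddiff N σ σ' m u hu0 hord
  obtain ⟨S, hS, hfin⟩ := span_of_ifaceFinite N A (jB N) hP.fin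
  have hjV : jB N ∈ V := hP.chart₀.hBV _ (h85_jB_mem_modelFin N A)
  obtain ⟨t, ht0, ht₀, htinf⟩ := h63_gate_asm_loc (algebraMap_injective_FF N A)
    (harch_of_liesOver A hℓ hA) V hP.nt (jB N) (h85_jB_ne_zero N)
    (chart N A (jB N)) (chart N A (jB N)⁻¹) (chartMid N A)
    (h85_jB_mem_modelFin N A) (h85_jB_inv_mem_modelInf N A)
    (h85_modelFin_le_modelMid N A) (h85_modelInf_le_modelMid N A)
    (fun x hx => h85_modelMid_scale_fin N A hx) (fun x hx => h85_modelMid_scale_inf N A hx)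
    m (Nat.pos_of_ne_zero hm0) hmA
    (fun x hx => h85_modelAt_root_closed N A _ hm0 hx)
    (fun x hx => h85_modelAt_root_closed N A _ hm0 hx)
    (fun x hx => h85_modelMid_root_closed N A hm0 hx)
    (fun a ha x hx hax => h85_modelMid_qep N A V hjV (algebraMap A (FF N) a)
      (fun y hy hay => hP.chart₀.hQEP a ha y hy (by rw [Algebra.smul_def]; exact hay)) hx
      (by rw [Algebra.smul_def] at hax; exact hax))
    (chartVal N (jB N)) (chartVal N (jB N)⁻¹) hP.chart₀ hP.chart₁ hP.gen₀ hP.gen₁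
    S hS hfin w hw0 (exists_val_eq N (jB N) w hw0 m hrw) (exists_val_eq N (jB N)⁻¹ w hw0 m hrw)
    π hπ hπ0 hwU hloc₀ hloc₁
  -- `t ^ m / w` is a constant
  obtain ⟨a, -, ha⟩ := h85_modelFin_inf_modelInf N A ht₀ htinf
  have ha0 : a ≠ 0 := by
    rintro rfl
    rw [cst, map_zero] at ha
    exact mul_ne_zero (pow_ne_zero _ ht0) (inv_ne_zero hw0) ha
  obtain ⟨b, hb⟩ := IsAlgClosed.exists_pow_nat_eq a (Nat.pos_of_ne_zero hm0)
  have hb0 : b ≠ 0 := by
    rintro rfl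
    rw [zero_pow hm0] at hb
    exact ha0 hb.symm
  have hcb0 : cst N b ≠ 0 := by
    simpa only [cst, ne_eq, map_eq_zero] using hb0
  refine ⟨t * (cst N b)⁻¹, ?_⟩
  have h1 : cst N b ^ m = t ^ m * w⁻¹ := by
    rw [ha, ← hb]
    exact (map_pow _ _ _).symm
  rw [mul_pow, inv_pow, h1]
  field_simp

end Fermat.Agent.LGC
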