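import Fermat.Agent.Red.H67LocalUnifGG
import Fermat.Agent.Red.SM.Final
import Fermat.Agent.S18.ResAlgClosed

/-!
# W3-LGC, rows I9-LEVELM / R1 (helper13): the level-`M` facts of `h62l_local`

For `Λ = GG.chart M A t` (`t = j` or `t = 1/j`), `A` a valuation subring of `ℚ̄` over `ℓ`,
`ℓ ∤ M`, `auxLevel ℓ ∣ M`:

* `h13l_hded_fin`, `h13l_hded_inf` : `Λ ⧸ 𝔪_A Λ` is a Dedekind domain (from `h13_ifaceSmooth`);
* `h13l_hnf_fin`, `h13l_hnf_inf` : `Λ ⧸ 𝔪_A Λ` is not a field;
* `h13l_hres` : every maximal ideal of `Λ` containing `𝔪_A Λ` has residue field `A ⧸ 𝔪_A`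
  (any `t`, any level).

The statements are verbatim the hypotheses `hded`, `hnf`, `hres` of
`Fermat.Agent.LGC.h62l_local` (`LGC/H62TwoComp.lean`).
-/

set_option autoImplicit false
set_option linter.style.haveILetI false

open AlgebraicCurve ModularCurve IsLocalRing Polynomial

noncomputable section

namespace Fermat.Agent.LGC

open Fermat.Agent.S37 Fermat.Agent.Red.GV Fermat.Agent.S28 Fermat.Agent.Red.GG

/-! ### Abstract lemmas -/

/-- Dedekind domains are stable under ring isomorphisms. -/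
theorem h13l_isDedekindDomain_of_ringEquiv {R S : Type*} [CommRing R] [CommRing S]
    (e : R ≃+* S) [hR : IsDedekindDomain R] : IsDedekindDomain S := by
  haveI : IsDomain S := e.toMulEquiv.isDomain_iff.mp inferInstance
  haveI : IsNoetherianRing S := isNoetherianRing_of_ringEquiv R e
  haveI : Ring.DimensionLEOne S := Ring.DimensionLEOne.of_ringEquiv e.symm
  haveI : IsIntegrallyClosed S := IsIntegrallyClosed.of_equiv e
  exact { }

/-- **Residue fields of closed points of the special fibre** (abstract form): if `Λ` is integral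
over the image of `A[X]` and the residue field of `A` is algebraically closed, every maximal ideal
of `Λ` containing `𝔪_A Λ` has residue field `A / 𝔪_A`. -/
theorem h13l_res_abs {A Λ : Type*} [CommRing A] [IsLocalRing A] [CommRing Λ] [Algebra A Λ]
    [IsAlgClosed (ResidueField A)] (g : A[X] →+* Λ)
    (hgC : ∀ a, g (C a) = algebraMap A Λ a)
    (hint : ∀ x : Λ, g.IsIntegralElem x)
    (𝔰 : Ideal Λ) (h𝔰max : 𝔰.IsMaximal)
    (h𝔰 : (maximalIdeal A).map (algebraMap A Λ) ≤ 𝔰) (x : Λ) :
    ∃ a : A, x - algebraMap A Λ a ∈ 𝔰 := by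
  letI : Field (Λ ⧸ 𝔰) := Ideal.Quotient.field 𝔰
  set π := Ideal.Quotient.mk 𝔰 with hπ
  have hker : ∀ a ∈ maximalIdeal A, (π.comp (algebraMap A Λ)) a = 0 := by
    intro a ha
    rw [RingHom.comp_apply, hπ, Ideal.Quotient.eq_zero_iff_mem]
    exact h𝔰 (Ideal.mem_map_of_mem _ ha)
  let f : ResidueField A →+* Λ ⧸ 𝔰 :=
    Ideal.Quotient.lift (maximalIdeal A) (π.comp (algebraMap A Λ)) hker
  have hf : ∀ a : A, f (residue A a) = π (algebraMap A Λ a) := fun a => rfl
  set tb : Λ ⧸ 𝔰 := π (g X) with htb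
  let ψ' : (ResidueField A)[X] →+* Λ ⧸ 𝔰 := eval₂RingHom f tb
  have hψ : π.comp g = ψ'.comp (mapRingHom (residue A)) := by
    apply Polynomial.ringHom_ext
    · intro a
      simp only [RingHom.comp_apply, hgC, ψ', coe_mapRingHom, map_C, coe_eval₂RingHom, eval₂_C, hf]
    · simp only [RingHom.comp_apply, ψ', coe_mapRingHom, map_X, coe_eval₂RingHom, eval₂_X, htb]
  have hint1 : (π.comp g).IsIntegral := by
    intro y
    obtain ⟨x, rfl⟩ := Ideal.Quotient.mk_surjective y
    obtain ⟨p, hp, hpx⟩ := hint x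
    refine ⟨p, hp, ?_⟩
    rw [← Polynomial.hom_eval₂, hpx, map_zero]
  have hint2 : ψ'.IsIntegral := by
    rw [hψ] at hint1
    exact RingHom.IsIntegral.tower_top _ _ hint1
  have hninj : ¬ Function.Injective ψ' := by
    intro hinj
    letI := ψ'.toAlgebra
    haveI : Algebra.IsIntegral (ResidueField A)[X] (Λ ⧸ 𝔰) := ⟨hint2⟩
    exact Polynomial.not_isField _ (isField_of_isIntegral_of_isField hinj (Field.toIsField _))
  obtain ⟨p, hp0, hpt⟩ : ∃ p : (ResidueField A)[X], p ≠ 0 ∧ ψ' p = 0 := by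
    rw [injective_iff_map_eq_zero] at hninj
    simp only [not_forall] at hninj
    obtain ⟨p, h1, h2⟩ := hninj
    exact ⟨p, h2, h1⟩
  have hfint : f.IsIntegral := by
    letI := f.toAlgebra
    have ht : IsIntegral (ResidueField A) tb :=
      IsAlgebraic.isIntegral ⟨p, hp0, hpt⟩
    haveI : Algebra.IsIntegral (ResidueField A) (Algebra.adjoin (ResidueField A) {tb}) :=
      Algebra.IsIntegral.adjoin (fun y hy => by rw [Set.mem_singleton_iff.mp hy]; exact ht)
    intro y
    refine isIntegral_trans (A := Algebra.adjoin (ResidueField A) {tb}) y ?_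
    obtain ⟨q, hq, hqy⟩ := hint2 y
    let tS : Algebra.adjoin (ResidueField A) {tb} := ⟨tb, Algebra.subset_adjoin rfl⟩
    let ψS : (ResidueField A)[X] →+* Algebra.adjoin (ResidueField A) {tb} :=
      (aeval tS : (ResidueField A)[X] →ₐ[ResidueField A] _).toRingHom
    have hcomp : (algebraMap (Algebra.adjoin (ResidueField A) {tb}) (Λ ⧸ 𝔰)).comp ψS = ψ' := by
      apply Polynomial.ringHom_ext
      · intro a
        simp [ψS, ψ', tS]
        rfl
      · simp [ψS, ψ', tS]
    refine ⟨q.map ψS, hq.map _, ?_⟩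
    rw [Polynomial.eval₂_map, hcomp]
    exact hqy
  obtain ⟨ab, hab⟩ := (IsAlgClosed.ringHom_bijective_of_isIntegral f hfint).2 (π x)
  obtain ⟨a, rfl⟩ := residue_surjective ab
  refine ⟨a, ?_⟩
  rw [← Ideal.Quotient.eq_zero_iff_mem, map_sub, sub_eq_zero]
  exact hab.symm

/-! ### The chart as a subring and as a subalgebra -/

section Chart

variable (M : ℕ) (A : ValuationSubring Kbar) (t : FF M)

/-- the identity, as a ring isomorphism from the chart as a subring to the chart as an
`A`-subalgebra. -/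
def h13l_toChart : modelAt M A t ≃+* chart M A t :=
  RingEquiv.ofBijective (h67toChart M A t)
    ⟨fun _ _ h => Subtype.ext (congrArg Subtype.val h), h67toChart_surjective M A t⟩

theorem h13l_toChart_apply (x : modelAt M A t) :
    ((h13l_toChart M A t x : chart M A t) : FF M) = (x : FF M) := rfl

/-- `𝔪_A Λ` is the image of `maxExt`. -/
theorem h13l_map_maxExt :
    (maximalIdeal A).map (algebraMap A (chart M A t)) =
      (maxExt A (modelAt M A t)).map
        ((h13l_toChart M A t : modelAt M A t ≃+* chart M A t) : modelAt M A t →+* chart M A t) := by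
  apply le_antisymm
  · rw [Ideal.map_le_iff_le_comap]
    intro a ha
    rw [Ideal.mem_comap]
    have hnu : (a : Kbar) ∈ A.nonunits := (ValuationSubring.coe_mem_nonunits_iff (A := A)).2 ha
    have h1 : algebraMap A (chart M A t) a =
        ((h13l_toChart M A t : modelAt M A t ≃+* chart M A t) : modelAt M A t →+* chart M A t)
          ⟨cst M (a : Kbar), Fermat.Agent.Red.ModelO.h85_cst_mem_modelAt M A t a.2⟩ := Subtype.ext rfl
    rw [h1]
    apply Ideal.mem_map_of_mem
    exact Ideal.subset_span ⟨(a : Kbar), hnu, rfl⟩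
  · rw [Ideal.map_le_iff_le_comap]
    exact h67_maxExt_le_comap M A t

/-- the special fibre of the chart as a subring is the special fibre of the chart as a
subalgebra. -/
def h13l_quotEquiv :
    (modelAt M A t ⧸ maxExt A (modelAt M A t)) ≃+*
      (chart M A t ⧸ (maximalIdeal A).map (algebraMap A (chart M A t))) :=
  Ideal.quotientEquiv _ _ (h13l_toChart M A t) (h13l_map_maxExt M A t)

/-- the evaluation `A[X] → Λ`, `X ↦ t`. -/
def h13l_ev : A[X] →+* chart M A t :=
  (evalF M A t).codRestrict (chart M A t).toSubring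
    (fun Q => (integralClosure (ringAdj M A t) (FF M)).algebraMap_mem
      ⟨_, evalF_mem_ringAdj M A t Q⟩)

theorem h13l_ev_coe (Q : A[X]) : ((h13l_ev M A t Q : chart M A t) : FF M) = evalF M A t Q := rfl

/-- **`hres`**: every closed point of the special fibre of the chart has residue field
`A ⧸ 𝔪_A`. -/
theorem h13l_hres :
    ∀ 𝔰 : Ideal (chart M A t), 𝔰.IsMaximal →
      (maximalIdeal A).map (algebraMap A (chart M A t)) ≤ 𝔰 →
      ∀ x : chart M A t, ∃ a : A, x - algebraMap A (chart M A t) a ∈ 𝔰 := by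
  intro 𝔰 h𝔰max h𝔰 x
  haveI : IsAlgClosed (ResidueField A) := Fermat.Agent.S18.h72_residueField_isAlgClosed A
  refine h13l_res_abs (h13l_ev M A t) (fun a => ?_) (fun y => ?_) 𝔰 h𝔰max h𝔰 x
  · apply Subtype.ext
    rw [h13l_ev_coe, evalF_C]
    rfl
  · have hy : (ringAdj M A t).subtype.IsIntegralElem (y : FF M) := y.2
    obtain ⟨p, hp, hpy⟩ := (isIntegralElem_subtype_iff M A t _).1 hy
    refine ⟨p, hp, ?_⟩
    apply Subtype.ext
    have h2 := Polynomial.hom_eval₂ p (h13l_ev M A t) (chart M A t).toSubring.subtype y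
    have h3 : (chart M A t).toSubring.subtype.comp (h13l_ev M A t) = evalF M A t := rfl
    rw [h3] at h2
    show (chart M A t).toSubring.subtype _ = _
    rw [h2]
    exact hpy

end Chart

/-! ### The two charts at a good level -/

section Instances

variable {ℓ : ℕ} (M : ℕ) [NeZero M] (A : ValuationSubring Kbar)

/-- **`hded`** for the finite chart. -/
theorem h13l_hded_fin (hℓ : ℓ.Prime) (hM : ¬ ℓ ∣ M) (haux : auxLevel ℓ ∣ M)
    (hA : A.LiesOverPrime ℓ) :
    IsDedekindDomain
      (chart M A (jB M) ⧸ (maximalIdeal A).map (algebraMap A (chart M A (jB M)))) := by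
  haveI : IsDedekindDomain (modelAt M A (jB M) ⧸ maxExt A (modelAt M A (jB M))) :=
    (Fermat.Agent.Red.SM.h13_ifaceSmooth ℓ hℓ M hM haux A hA).1
  exact h13l_isDedekindDomain_of_ringEquiv (h13l_quotEquiv M A (jB M))

/-- **`hded`** for the chart at infinity. -/
theorem h13l_hded_inf (hℓ : ℓ.Prime) (hM : ¬ ℓ ∣ M) (haux : auxLevel ℓ ∣ M)
    (hA : A.LiesOverPrime ℓ) :
    IsDedekindDomain
      (chart M A (jB M)⁻¹ ⧸ (maximalIdeal A).map (algebraMap A (chart M A (jB M)⁻¹))) := by
  haveI : IsDedekindDomain (modelAt M A (jB M)⁻¹ ⧸ maxExt A (modelAt M A (jB M)⁻¹)) :=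
    (Fermat.Agent.Red.SM.h13_ifaceSmooth ℓ hℓ M hM haux A hA).2
  exact h13l_isDedekindDomain_of_ringEquiv (h13l_quotEquiv M A (jB M)⁻¹)

/-- **`hnf`** for the finite chart. -/
theorem h13l_hnf_fin (hℓ : ℓ.Prime) (hM : ¬ ℓ ∣ M) (hA : A.LiesOverPrime ℓ) :
    ¬ IsField
      (chart M A (jB M) ⧸ (maximalIdeal A).map (algebraMap A (chart M A (jB M)))) := by
  have hV : modelAt M A (jB M) ≤ gaussV A M := modelFin_le_gaussV A M hℓ hM hA
  have hred : gaussR A M ⟨jB M, hV (Fermat.Agent.Red.ModelO.h85_self_mem_modelAt M A (jB M))⟩ =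
      jK (IsLocalRing.ResidueField A) := gaussR_jB A M
  have h1 : ¬ IsField (modelAt M A (jB M) ⧸ maxExt A (modelAt M A (jB M))) := by
    refine h67_not_isField M A (jB M) hA hV (jK (IsLocalRing.ResidueField A))⁻¹ ?_ ?_
    · rw [hred]
      exact mul_inv_cancel₀ (jqModC_ne_zero_of_nontrivial _)
    · rw [hred]
      exact evalC_jK_injective _
  exact fun h => h1 ((h13l_quotEquiv M A (jB M)).toMulEquiv.isField h)

/-- **`hnf`** for the chart at infinity. -/
theorem h13l_hnf_inf (hℓ : ℓ.Prime) (hM : ¬ ℓ ∣ M) (hA : A.LiesOverPrime ℓ) :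
    ¬ IsField
      (chart M A (jB M)⁻¹ ⧸ (maximalIdeal A).map (algebraMap A (chart M A (jB M)⁻¹))) := by
  have hV : modelAt M A (jB M)⁻¹ ≤ gaussV A M := modelInf_le_gaussV A M hℓ hM hA
  have hred : gaussR A M ⟨(jB M)⁻¹, hV (Fermat.Agent.Red.ModelO.h85_self_mem_modelAt M A (jB M)⁻¹)⟩ =
      (jK (IsLocalRing.ResidueField A))⁻¹ := h67_gaussR_jB_inv M A _
  have h1 : ¬ IsField (modelAt M A (jB M)⁻¹ ⧸ maxExt A (modelAt M A (jB M)⁻¹)) := by
    refine h67_not_isField M A (jB M)⁻¹ hA hV (jK (IsLocalRing.ResidueField A)) ?_ ?_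
    · rw [hred]
      exact inv_mul_cancel₀ (jqModC_ne_zero_of_nontrivial _)
    · rw [hred]
      exact evalC_jK_inv_injective _
  exact fun h => h1 ((h13l_quotEquiv M A (jB M)⁻¹).toMulEquiv.isField h)

end Instances

end Fermat.Agent.LGC
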