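import Fermat.Agent.LGC.H18Sections
import Fermat.Agent.Red.SM.Unram
import Fermat.Agent.Red.Kron.Finrank
import Fermat.Agent.Red.GFFApprox

/-!
# W3-LGC, leaf (I8) of the node branch (helper18): the fibre count

`M` a good level (`auxLevel ℓ ∣ M`, `ℓ ∤ M`), `α = heckeAlphaBar Kbar M ℓ : F_M → F_{Mℓ}`.
Both levels have no elliptic points, so `F_{Mℓ} / α(F_M)` is unramified at every place which is
not a pole of `j`; by the fundamental identity there are exactly `ℓ + 1` places of `F_{Mℓ}`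
above every place of `F_M` at which `j` is regular.

* `h18l_fiber` : the fibre count in the shape consumed by `h18l_hpl_of_fiber`;
* `h18l_hpl` : the input `hpl` (I8) of `h62n_node_final` for the finite chart, `K := Kbar`.
-/

set_option autoImplicit false
set_option synthInstance.maxHeartbeats 400000

open AlgebraicCurve ModularCurve WithZero IsLocalRing

noncomputable section

namespace Fermat.Agent.LGC

open Fermat.Agent.S37 Fermat.Agent.Red Fermat.Agent.Red.GG Fermat.Agent.Red.Match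

section Fiber

attribute [local instance] Fermat.Agent.Red.HKMod.hasPrincipalDivisors_FF

variable (M ℓ : ℕ) [NeZero M] [NeZero ℓ]

/-- `α` is the degeneracy inclusion. -/
theorem h18l_alpha_eq_degen :
    heckeAlphaBar Kbar M ℓ = degen (dvd_mul_right M ℓ) := by
  apply AlgHom.ext
  intro x
  apply Subtype.ext
  rw [coe_degen]
  exact coe_heckeAlphaBar M ℓ x

/-- `α` is integral. -/
theorem h18l_alpha_integral : (heckeAlphaBar Kbar M ℓ).toRingHom.IsIntegral :=
  Fermat.Agent.Red.HKMod.heckeAlphaBarIntegral M ℓ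

/-- `F_{Mℓ} / α(F_M)` is unramified at the places which are not poles of `j`. -/
theorem h18l_unram (haux : auxLevel ℓ ∣ M) (k : Place Kbar (FF (M * ℓ)))
    (hk : jSS M ℓ ∈ k.toValuationSubring) :
    Place.ramificationIndexAlong (heckeAlphaBar Kbar M ℓ) k = 1 := by
  have hint : (degen (dvd_mul_right M ℓ)).toRingHom.IsIntegral := by
    rw [← h18l_alpha_eq_degen]
    exact h18l_alpha_integral M ℓ
  have hj : 0 ≤ k.ord (Fermat.Agent.S24.jBar (M * ℓ)) := by
    have h1 : jSS M ℓ = Fermat.Agent.S24.jBar (M * ℓ) :=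
      Fermat.Agent.Red.HKMod.heckeAlphaBar_jBar M ℓ
    rw [← h1]
    exact Fermat.Agent.S24.DiffPlace.ord_nonneg_of_mem k hk
  have h := Fermat.Agent.Red.SM.unram_good (dvd_mul_right M ℓ) hint
    (Fermat.Agent.Red.SM.nu_eq_zero_of_auxLevel_dvd haux).1
    (Fermat.Agent.Red.SM.nu_eq_zero_of_auxLevel_dvd haux).2
    (Fermat.Agent.Red.SM.nu_eq_zero_of_auxLevel_dvd (dvd_mul_of_dvd_left haux ℓ)).1
    (Fermat.Agent.Red.SM.nu_eq_zero_of_auxLevel_dvd (dvd_mul_of_dvd_left haux ℓ)).2 k hj
  rw [h18l_alpha_eq_degen]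
  exact h

/-- nonunits of a comap. -/
theorem h18l_mem_nonunits_comap {F F' : Type*} [Field F] [Field F'] (ψ : F →+* F')
    (S : ValuationSubring F') (x : F) : x ∈ (S.comap ψ).nonunits ↔ ψ x ∈ S.nonunits := by
  rcases eq_or_ne x 0 with rfl | hx
  · rw [map_zero]
    constructor
    · intro _
      rw [ValuationSubring.mem_nonunits_iff_or]
      exact Or.inl rfl
    · intro _
      rw [ValuationSubring.mem_nonunits_iff_or]
      exact Or.inl rfl
  · have hx' : ψ x ≠ 0 := (map_ne_zero ψ).mpr hx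
    rw [ValuationSubring.mem_nonunits_iff_or, ValuationSubring.mem_nonunits_iff_or,
      ValuationSubring.mem_comap, map_inv₀]
    constructor
    · rintro (h | h)
      · exact absurd h hx
      · exact Or.inr h
    · rintro (h | h)
      · exact absurd h hx'
      · exact Or.inr h

/-- a place of the fibre above `w` maps `𝔪_w` into its maximal ideal. -/
theorem h18l_lt_one_of_mem_fiber (w : Place Kbar (FF M)) (k : Place Kbar (FF (M * ℓ)))
    (hk : k ∈ Place.fiberAlong (heckeAlphaBar Kbar M ℓ) (h18l_alpha_integral M ℓ) w)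
    (f : FF M) (hf : w.adicValuation f < 1) :
    k.adicValuation (heckeAlphaBar Kbar M ℓ f) < 1 := by
  rw [Place.mem_fiberAlong] at hk
  rw [h71_adicValuation_lt_one_iff] at hf ⊢
  rw [← hk] at hf
  have h1 : (k.restrictAlong (heckeAlphaBar Kbar M ℓ) (h18l_alpha_integral M ℓ)).toValuationSubring
      = k.toValuationSubring.comap (heckeAlphaBar Kbar M ℓ).toRingHom := rfl
  rw [h1] at hf
  exact (h18l_mem_nonunits_comap _ _ _).1 hf

/-- **the fibre count**: above the place of level `M` below a place `i` of level `M ℓ` at which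
`j` is regular there are (exactly) `ℓ + 1` places. -/
theorem h18l_fiber (hℓ : ℓ.Prime) (hM : ¬ ℓ ∣ M) (haux : auxLevel ℓ ∣ M)
    (i : Place Kbar (FF (M * ℓ))) (hi : jSS M ℓ ∈ i.toValuationSubring) :
    ∃ (w : Place Kbar (FF M)) (T : Finset (Place Kbar (FF (M * ℓ)))),
      i ∈ T ∧ ℓ + 1 ≤ T.card ∧
      ∀ k ∈ T, ∀ f : FF M, w.adicValuation f < 1 →
        k.adicValuation (heckeAlphaBar Kbar M ℓ f) < 1 := by
  classical
  set α := heckeAlphaBar Kbar M ℓ with hα
  have hint := h18l_alpha_integral M ℓ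
  set w := i.restrictAlong α hint with hw
  have hlt : ∀ k ∈ Place.fiberAlong α hint w, ∀ f : FF M, w.adicValuation f < 1 →
      k.adicValuation (α f) < 1 := fun k hk f hf =>
    h18l_lt_one_of_mem_fiber M ℓ w k hk f hf
  have hiT : i ∈ Place.fiberAlong α hint w := Place.mem_fiberAlong.2 rfl
  -- `j` is regular at `w`, hence at all places of the fibre
  have hwj : jB M ∈ w.toValuationSubring :=
    h18l_mem_of_alpha_mem M ℓ w i (hlt i hiT) hi
  have hreg : ∀ k ∈ Place.fiberAlong α hint w, jSS M ℓ ∈ k.toValuationSubring :=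
    fun k hk => h18l_mem_alpha M ℓ w k (hlt k hk) hwj
  refine ⟨w, Place.fiberAlong α hint w, hiT, ?_, hlt⟩
  -- the fundamental identity
  have : FiniteDimensional (IntermediateField.adjoin Kbar {Fermat.Agent.S24.jBar (M * ℓ)})
      (FF (M * ℓ)) := Fermat.Agent.Red.HKMod.finiteDimensional_jBar (M * ℓ)
  have hsum := Fermat.Agent.Red.GFF.sum_ramificationIndexAlong_eq_finrankAlong α hint
    (Fermat.Agent.Red.HKMod.finiteAlong_heckeAlphaBar M ℓ) (Fermat.Agent.S24.jBar (M * ℓ)) w
  have hfr : finrankAlong Kbar α = ℓ + 1 :=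
    Fermat.Agent.Red.Kron.finrank_heckeAlphaBar M ℓ hℓ hM
  have hone : ∑ k ∈ Place.fiberAlong α hint w, (k.ramificationIndexAlong α : ℤ)
      = ((Place.fiberAlong α hint w).card : ℤ) := by
    rw [Finset.sum_congr rfl (fun k hk => by rw [h18l_unram M ℓ haux k (hreg k hk)])]
    simp
  rw [hone, hfr] at hsum
  have : (Place.fiberAlong α hint w).card = ℓ + 1 := by exact_mod_cast hsum
  omega

end Fiber

/-- **(I8)**: the input `hpl` of the node theorem `h62n_node_final` for the finite chart of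
level `M ℓ` (`K := Kbar`, `Λ = chart M A (jB M)`, agreement on `α(Λ)` in explicit form). -/
theorem h18l_hpl (M ℓ : ℕ) [NeZero M] [NeZero ℓ] (A : ValuationSubring Kbar)
    (hℓ : ℓ.Prime) (hM : ¬ ℓ ∣ M) (haux : auxLevel ℓ ∣ M)
    (i : ChartPlace (M * ℓ) (jSS M ℓ)) :
    ∃ (T : Finset (ChartPlace (M * ℓ) (jSS M ℓ)))
      (φ : ChartPlace (M * ℓ) (jSS M ℓ) → chart (M * ℓ) A (jSS M ℓ) →+* Kbar)
      (φ' : chart M A (jB M) →+* Kbar),
      i ∈ T ∧ ℓ + 1 ≤ T.card ∧
      (∀ k ∈ T, ∀ b : chart (M * ℓ) A (jSS M ℓ),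
        φ k b = 0 ↔ chartVal (M * ℓ) (jSS M ℓ) k (b : FF (M * ℓ)) < 1) ∧
      (∀ k ∈ T, ∀ (b : chart (M * ℓ) A (jSS M ℓ)) (x : chart M A (jB M)),
        (b : FF (M * ℓ)) = heckeAlphaBar Kbar M ℓ (x : FF M) → φ k b = φ' x) :=
  h18l_hpl_of_fiber M ℓ A (fun i hi => h18l_fiber M ℓ hℓ hM haux i hi) i

end Fermat.Agent.LGC
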