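import Fermat.Agent.Red.H67LocalUnifGG
import Fermat.Agent.Red.GGSection
import Fermat.Agent.S18.ResAlgClosed

/-!
# W3-LGC, leaf (7) of `h62l_local` (helper18): the special fibre of the chart of level `M`

For `Λ := chart M A t` (`t = j` or `t = 1/j`) and `𝔪 := 𝔪_A Λ`, in exactly the hypothesis shapes
of `Fermat.Agent.LGC.h62l_local`:

* `h18l_hded_fin/inf` : `Λ ⧸ 𝔪` is a Dedekind domain (from `S37.IfaceSmooth`);
* `h18l_hnf_fin/inf` : `Λ ⧸ 𝔪` is not a field;
* `h18l_hres` : at every maximal ideal `𝔰 ⊇ 𝔪` every element of `Λ` is congruent to a constant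
  of `A` (the residue field of `A` is algebraically closed and `Λ` is integral over `A[t]`).
-/

set_option autoImplicit false
set_option synthInstance.maxHeartbeats 400000

open AlgebraicCurve ModularCurve WithZero IsLocalRing Polynomial

noncomputable section

namespace Fermat.Agent.LGC

open Fermat.Agent.S37 Fermat.Agent.Red.GV Fermat.Agent.Red.GG

/-! ### Abstract algebra -/

/-- Dedekind domains are stable under ring isomorphisms. -/
theorem h18l_isDedekindDomain_of_equiv {R S : Type*} [CommRing R] [CommRing S] (e : R ≃+* S)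
    [h : IsDedekindDomain R] : IsDedekindDomain S := by
  have : IsDomain S := e.symm.toMulEquiv.isDomain R
  have : IsNoetherianRing S := isNoetherianRing_of_ringEquiv R e
  have : IsIntegrallyClosed S := IsIntegrallyClosed.of_equiv e
  have : Ring.DimensionLEOne S := by
    refine ⟨fun {q} hq hqp => ?_⟩
    have := hqp
    have hsurj : Function.Surjective (e : R →+* S) := e.surjective
    have hp : (q.comap (e : R →+* S)).IsPrime := Ideal.comap_isPrime _ _
    have hne : q.comap (e : R →+* S) ≠ ⊥ := by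
      intro h0
      apply hq
      rw [← Ideal.map_comap_of_surjective (e : R →+* S) hsurj q, h0, Ideal.map_bot]
    have hmax : (q.comap (e : R →+* S)).IsMaximal := Ring.DimensionLEOne.maximalOfPrime hne hp
    exact (Ideal.isMaximal_comap_iff_of_bijective (e : R →+* S) e.bijective).1 hmax
  exact { }

/-- A field `L` over an algebraically closed field `k`, integral over `k[t]` for some `t ∈ L`,
is equal to `k`. -/
theorem h18l_surj_of_integral_adjoin {k L : Type*} [Field k] [IsAlgClosed k] [Field L]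
    [Algebra k L] (t : L) (h : ∀ x : L, IsIntegral (Algebra.adjoin k {t}) x) :
    Function.Surjective (algebraMap k L) := by
  have hint : Algebra.IsIntegral (Algebra.adjoin k {t}) L := ⟨h⟩
  have hF : IsField (Algebra.adjoin k {t}) :=
    isField_of_isIntegral_of_isField (R := Algebra.adjoin k {t}) (S := L)
      Subtype.val_injective (Field.toIsField L)
  have ht : IsIntegral k t := by
    by_cases h0 : t = 0
    · rw [h0]; exact isIntegral_zero
    · have htm : t ∈ Algebra.adjoin k {t} := Algebra.self_mem_adjoin_singleton k t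
      have hne : (⟨t, htm⟩ : Algebra.adjoin k {t}) ≠ 0 := fun h1 => h0 (congrArg Subtype.val h1)
      obtain ⟨y, hy⟩ := hF.mul_inv_cancel hne
      have hy2 : (y : L) ∈ (Polynomial.aeval t : k[X] →ₐ[k] L).range := by
        rw [← Algebra.adjoin_singleton_eq_range_aeval]; exact y.2
      obtain ⟨p, hp⟩ := hy2
      have hty : t * (y : L) = 1 := congrArg Subtype.val hy
      apply IsAlgebraic.isIntegral
      refine ⟨X * p - 1, ?_, ?_⟩
      · intro hz
        have h1 := congrArg (Polynomial.eval 0) hz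
        simp at h1
      · have hp' : Polynomial.aeval t p = (y : L) := hp
        rw [map_sub, map_mul, aeval_X, map_one, hp', hty, sub_self]
  have : Algebra.IsIntegral k (Algebra.adjoin k {t}) :=
    Algebra.IsIntegral.adjoin (fun x hx => by rw [Set.mem_singleton_iff.1 hx]; exact ht)
  have : Algebra.IsIntegral k L := Algebra.IsIntegral.trans (Algebra.adjoin k {t})
  exact (IsAlgClosed.algebraMap_bijective_of_isIntegral (k := k) (K := L)).2

/-- **Residue fields at closed points of the special fibre (abstract form).** `A` local with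
algebraically closed residue field, `Λ` an `A`-algebra integral over `A[t]`: at every maximal
ideal `𝔰 ⊇ 𝔪_A Λ` every element of `Λ` is congruent to a constant of `A`. -/
theorem h18l_res_of_integral {A : Type*} [CommRing A] [IsLocalRing A]
    [IsAlgClosed (IsLocalRing.ResidueField A)] {Λ : Type*} [CommRing Λ] [Algebra A Λ] (t : Λ)
    (hint : ∀ x : Λ, ((Polynomial.aeval t : A[X] →ₐ[A] Λ) : A[X] →+* Λ).IsIntegralElem x)
    (𝔰 : Ideal Λ) (h𝔰 : 𝔰.IsMaximal)
    (hle : (maximalIdeal A).map (algebraMap A Λ) ≤ 𝔰) (x : Λ) :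
    ∃ a : A, x - algebraMap A Λ a ∈ 𝔰 := by
  classical
  letI : Field (Λ ⧸ 𝔰) := Ideal.Quotient.field 𝔰
  set f : A →+* Λ ⧸ 𝔰 := (Ideal.Quotient.mk 𝔰).comp (algebraMap A Λ) with hf
  have hf0 : ∀ a ∈ maximalIdeal A, f a = 0 := by
    intro a ha
    rw [hf, RingHom.comp_apply, Ideal.Quotient.eq_zero_iff_mem]
    exact hle (Ideal.mem_map_of_mem _ ha)
  set g : IsLocalRing.ResidueField A →+* Λ ⧸ 𝔰 :=
    Ideal.Quotient.lift (maximalIdeal A) f hf0 with hg
  have hgres : ∀ a : A, g (IsLocalRing.residue A a) = f a :=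
    fun a => Ideal.Quotient.lift_mk _ _ _
  letI : Algebra (IsLocalRing.ResidueField A) (Λ ⧸ 𝔰) := g.toAlgebra
  have halg : ∀ c : IsLocalRing.ResidueField A, algebraMap _ (Λ ⧸ 𝔰) c = g c := fun _ => rfl
  set tb : Λ ⧸ 𝔰 := Ideal.Quotient.mk 𝔰 t with htb
  have htm : tb ∈ Algebra.adjoin (IsLocalRing.ResidueField A) {tb} :=
    Algebra.self_mem_adjoin_singleton _ tb
  -- the evaluation `A[X] → k[t̄]`
  set ψ : A[X] →+* Algebra.adjoin (IsLocalRing.ResidueField A) {tb} :=
    Polynomial.eval₂RingHom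
      ((algebraMap (IsLocalRing.ResidueField A)
        (Algebra.adjoin (IsLocalRing.ResidueField A) {tb})).comp (IsLocalRing.residue A))
      ⟨tb, htm⟩ with hψ
  have hcomp : (algebraMap (Algebra.adjoin (IsLocalRing.ResidueField A) {tb}) (Λ ⧸ 𝔰)).comp ψ =
      (Ideal.Quotient.mk 𝔰).comp ((Polynomial.aeval t : A[X] →ₐ[A] Λ) : A[X] →+* Λ) := by
    apply Polynomial.ringHom_ext
    · intro a
      rw [RingHom.comp_apply, RingHom.comp_apply, hψ, Polynomial.coe_eval₂RingHom,
        Polynomial.eval₂_C, RingHom.comp_apply]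
      have h1 : algebraMap (Algebra.adjoin (IsLocalRing.ResidueField A) {tb}) (Λ ⧸ 𝔰)
          (algebraMap (IsLocalRing.ResidueField A)
            (Algebra.adjoin (IsLocalRing.ResidueField A) {tb}) (IsLocalRing.residue A a)) =
          g (IsLocalRing.residue A a) := rfl
      rw [h1, hgres]
      show f a = Ideal.Quotient.mk 𝔰 (Polynomial.aeval t (Polynomial.C a))
      rw [Polynomial.aeval_C]
      rfl
    · rw [RingHom.comp_apply, RingHom.comp_apply, hψ, Polynomial.coe_eval₂RingHom,
        Polynomial.eval₂_X]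
      show tb = Ideal.Quotient.mk 𝔰 (Polynomial.aeval t Polynomial.X)
      rw [Polynomial.aeval_X]
  have hall : ∀ y : Λ ⧸ 𝔰, IsIntegral (Algebra.adjoin (IsLocalRing.ResidueField A) {tb}) y := by
    intro y
    obtain ⟨z, rfl⟩ := Ideal.Quotient.mk_surjective y
    obtain ⟨P, hP, hPz⟩ := hint z
    refine ⟨P.map ψ, hP.map _, ?_⟩
    rw [Polynomial.eval₂_map, hcomp, ← Polynomial.hom_eval₂, hPz, map_zero]
  obtain ⟨c, hc⟩ := h18l_surj_of_integral_adjoin tb hall (Ideal.Quotient.mk 𝔰 x)
  obtain ⟨a, rfl⟩ := IsLocalRing.residue_surjective c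
  refine ⟨a, ?_⟩
  rw [halg, hgres] at hc
  rw [← Ideal.Quotient.eq_zero_iff_mem, map_sub, ← hc, hf, RingHom.comp_apply, sub_self]

/-! ### The charts -/

section Chart

variable (M : ℕ) (A : ValuationSubring Kbar) (t : FF M)

/-- the evaluation `A[X] → chart`, `X ↦ t`, followed by the inclusion into `FF M`, is `evalF`. -/
theorem h18l_val_comp_aeval :
    ((chart M A t).val : chart M A t →+* FF M).comp
      ((Polynomial.aeval (chartT M A t) : A[X] →ₐ[A] chart M A t) : A[X] →+* chart M A t) =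
      evalF M A t := by
  apply Polynomial.ringHom_ext
  · intro a
    rw [RingHom.comp_apply, evalF_C]
    show (((Polynomial.aeval (chartT M A t)) (Polynomial.C a) : chart M A t) : FF M) = _
    rw [Polynomial.aeval_C]
    rfl
  · rw [RingHom.comp_apply, evalF_X]
    show (((Polynomial.aeval (chartT M A t)) Polynomial.X : chart M A t) : FF M) = _
    rw [Polynomial.aeval_X]
    rfl

/-- the chart is integral over `A[t]`. -/
theorem h18l_chart_integral (x : chart M A t) :
    ((Polynomial.aeval (chartT M A t) : A[X] →ₐ[A] chart M A t) :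
      A[X] →+* chart M A t).IsIntegralElem x := by
  have hx : (ringAdj M A t).subtype.IsIntegralElem (x : FF M) := x.2
  obtain ⟨P, hP, hPx⟩ := (isIntegralElem_subtype_iff M A t _).1 hx
  refine ⟨P, hP, ?_⟩
  apply Subtype.ext
  have h1 := Polynomial.hom_eval₂ P
    ((Polynomial.aeval (chartT M A t) : A[X] →ₐ[A] chart M A t) : A[X] →+* chart M A t)
    ((chart M A t).val : chart M A t →+* FF M) x
  rw [h18l_val_comp_aeval] at h1
  show ((chart M A t).val : chart M A t →+* FF M) _ = _
  rw [h1]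
  exact hPx

/-- **(7c) `hres`**: at every maximal ideal `𝔰 ⊇ 𝔪_A Λ` of the chart `Λ`, every element of `Λ`
is congruent to a constant of `A`. -/
theorem h18l_hres (𝔰 : Ideal (chart M A t)) (h𝔰 : 𝔰.IsMaximal)
    (hle : (maximalIdeal A).map (algebraMap A (chart M A t)) ≤ 𝔰) (x : chart M A t) :
    ∃ a : A, x - algebraMap A (chart M A t) a ∈ 𝔰 := by
  have : IsAlgClosed (IsLocalRing.ResidueField A) :=
    Fermat.Agent.S18.h72_residueField_isAlgClosed A
  exact h18l_res_of_integral (chartT M A t) (h18l_chart_integral M A t) 𝔰 h𝔰 hle x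

/-- the identification of `modelAt` (a subring) with the chart (a subalgebra), as a ring
isomorphism. -/
def h18l_modelEquiv : modelAt M A t ≃+* chart M A t :=
  RingEquiv.ofBijective (h67toChart M A t)
    ⟨fun _ _ h => Subtype.ext (congrArg Subtype.val h), h67toChart_surjective M A t⟩

theorem h18l_map_maxExt :
    (maximalIdeal A).map (algebraMap A (chart M A t)) =
      (maxExt A (modelAt M A t)).map (h18l_modelEquiv M A t : modelAt M A t →+* chart M A t) := by
  apply le_antisymm
  · rw [Ideal.map_le_iff_le_comap]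
    intro a ha
    rw [Ideal.mem_comap]
    have haK : (a : Kbar) ∈ A.nonunits := (ValuationSubring.coe_mem_nonunits_iff (A := A)).2 ha
    have hm : cst M (a : Kbar) ∈ modelAt M A t := Fermat.Agent.Red.ModelO.h85_cst_mem_modelAt M A t a.2
    have h1 : algebraMap A (chart M A t) a =
        (h18l_modelEquiv M A t : modelAt M A t →+* chart M A t) ⟨cst M (a : Kbar), hm⟩ :=
      Subtype.ext rfl
    rw [h1]
    apply Ideal.mem_map_of_mem
    exact Ideal.subset_span ⟨(a : Kbar), haK, rfl⟩
  · rw [Ideal.map_le_iff_le_comap]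
    exact h67_maxExt_le_comap M A t

/-- the special fibres of `modelAt` and of the chart are isomorphic. -/
def h18l_quotEquiv :
    (modelAt M A t ⧸ maxExt A (modelAt M A t)) ≃+*
      (chart M A t ⧸ (maximalIdeal A).map (algebraMap A (chart M A t))) :=
  Ideal.quotientEquiv _ _ (h18l_modelEquiv M A t) (h18l_map_maxExt M A t)

end Chart

section Instances

variable {ℓ : ℕ} (M : ℕ) [NeZero M] (A : ValuationSubring Kbar)

/-- **(7a) `hded`, finite chart.** -/
theorem h18l_hded_fin (hSM : IfaceSmooth) (hℓ : ℓ.Prime) (hM : ¬ ℓ ∣ M)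
    (haux : auxLevel ℓ ∣ M) (hA : A.LiesOverPrime ℓ) :
    IsDedekindDomain
      (chart M A (jB M) ⧸ (maximalIdeal A).map (algebraMap A (chart M A (jB M)))) := by
  have : IsDedekindDomain (modelAt M A (jB M) ⧸ maxExt A (modelAt M A (jB M))) :=
    (hSM ℓ hℓ M hM haux A hA).1
  exact h18l_isDedekindDomain_of_equiv (h18l_quotEquiv M A (jB M))

/-- **(7a) `hded`, chart at infinity.** -/
theorem h18l_hded_inf (hSM : IfaceSmooth) (hℓ : ℓ.Prime) (hM : ¬ ℓ ∣ M)
    (haux : auxLevel ℓ ∣ M) (hA : A.LiesOverPrime ℓ) :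
    IsDedekindDomain
      (chart M A (jB M)⁻¹ ⧸ (maximalIdeal A).map (algebraMap A (chart M A (jB M)⁻¹))) := by
  have : IsDedekindDomain (modelAt M A (jB M)⁻¹ ⧸ maxExt A (modelAt M A (jB M)⁻¹)) :=
    (hSM ℓ hℓ M hM haux A hA).2
  exact h18l_isDedekindDomain_of_equiv (h18l_quotEquiv M A (jB M)⁻¹)

/-- **(7b) `hnf`, finite chart.** -/
theorem h18l_hnf_fin (hℓ : ℓ.Prime) (hM : ¬ ℓ ∣ M) (hA : A.LiesOverPrime ℓ) :
    ¬ IsField (chart M A (jB M) ⧸ (maximalIdeal A).map (algebraMap A (chart M A (jB M)))) := by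
  intro hF
  have hV : modelAt M A (jB M) ≤ gaussV A M := modelFin_le_gaussV A M hℓ hM hA
  have hred : gaussR A M ⟨jB M, hV (Fermat.Agent.Red.ModelO.h85_self_mem_modelAt M A (jB M))⟩ =
      jK (IsLocalRing.ResidueField A) := gaussR_jB A M
  refine h67_not_isField M A (jB M) hA hV (jK (IsLocalRing.ResidueField A))⁻¹ ?_ ?_
    (MulEquiv.isField hF (h18l_quotEquiv M A (jB M)).toMulEquiv)
  · rw [hred]
    exact mul_inv_cancel₀ (jqModC_ne_zero_of_nontrivial _)
  · rw [hred]
    exact evalC_jK_injective _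

/-- **(7b) `hnf`, chart at infinity.** -/
theorem h18l_hnf_inf (hℓ : ℓ.Prime) (hM : ¬ ℓ ∣ M) (hA : A.LiesOverPrime ℓ) :
    ¬ IsField
      (chart M A (jB M)⁻¹ ⧸ (maximalIdeal A).map (algebraMap A (chart M A (jB M)⁻¹))) := by
  intro hF
  have hV : modelAt M A (jB M)⁻¹ ≤ gaussV A M := modelInf_le_gaussV A M hℓ hM hA
  have hred : gaussR A M ⟨(jB M)⁻¹, hV (Fermat.Agent.Red.ModelO.h85_self_mem_modelAt M A (jB M)⁻¹)⟩ =
      (jK (IsLocalRing.ResidueField A))⁻¹ := h67_gaussR_jB_inv M A _
  refine h67_not_isField M A (jB M)⁻¹ hA hV (jK (IsLocalRing.ResidueField A)) ?_ ?_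
    (MulEquiv.isField hF (h18l_quotEquiv M A (jB M)⁻¹).toMulEquiv)
  · rw [hred]
    exact inv_mul_cancel₀ (jqModC_ne_zero_of_nontrivial _)
  · rw [hred]
    exact evalC_jK_inv_injective _

/-- **`hℓA`**: `ℓ ∈ 𝔪_A`. -/
theorem h18l_natCast_mem_maximalIdeal (hA : A.LiesOverPrime ℓ) :
    ((ℓ : ℕ) : A) ∈ maximalIdeal A := by
  rw [← ValuationSubring.coe_mem_nonunits_iff]
  have h1 : (((ℓ : ℕ) : A) : Kbar) = ((ℓ : ℕ) : Kbar) := by push_cast; rfl
  rw [h1]
  exact hA

omit [NeZero M] in
/-- **`hℓ0`**: `ℓ ≠ 0` in every `A`-subalgebra of `FF N`. -/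
theorem h18l_natCast_ne_zero (hℓ : ℓ.Prime) (B : Subalgebra A (FF M)) :
    ((ℓ : ℕ) : B) ≠ 0 := by
  intro h
  have h1 : ((ℓ : ℕ) : FF M) = 0 := by
    have h2 := congrArg (fun b : B => (b : FF M)) h
    simpa using h2
  have : CharZero (FF M) := charZero_of_injective_algebraMap (algebraMap Kbar (FF M)).injective
  exact hℓ.ne_zero (Nat.cast_eq_zero.1 h1)

end Instances

end Fermat.Agent.LGC
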