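import Fermat.Agent.LGC.Skeleton
import Fermat.Agent.Red.GGSection
import Fermat.Agent.Red.MatchLoc
import Fermat.Agent.Red.GGChart

/-!
# W3-LGC, leaf (I8) of the node branch (helper18): the sections at the places of a fibre

`B = chart (M * ℓ) A t` a chart of level `M * ℓ`, `Λ = chart M A t₀` a chart of level `M`,
`α = heckeAlphaBar Kbar M ℓ`.

* `h18l_val N A t k : chart N A t →+* Kbar` : the value at a chart place (level-free);
* `h18l_val_eq_zero_iff` : `φ_k b = 0 ↔ v_k(b) < 1`;
* `h18l_val_alpha` : if `𝔪_w ⊆ α⁻¹ 𝔪_k` then `φ_k (α x) = φ_w x`;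
* `h18l_hpl_of_fiber` : the input `hpl` of `h62n_node_final` (with `K := Kbar`) from the
  existence of `ℓ + 1` places above the place of level `M` below a given place.
-/

set_option autoImplicit false
set_option synthInstance.maxHeartbeats 400000

open AlgebraicCurve ModularCurve WithZero IsLocalRing

noncomputable section

namespace Fermat.Agent.LGC

open Fermat.Agent.S37 Fermat.Agent.Red Fermat.Agent.Red.GG Fermat.Agent.Red.Match

/-! ### The value at a chart place -/

section Val

variable (N : ℕ) [NeZero N] (A : ValuationSubring Kbar) (t : FF N)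

/-- elements of a chart are regular at the chart places. -/
theorem h18l_mem_place (k : ChartPlace N t) (b : chart N A t) :
    (b : FF N) ∈ k.1.toValuationSubring :=
  (GGC97_le_one_iff k.1 (b : FF N)).1 (GGC97_hB N A t (b : FF N) b.2 k)

/-- **the value at a chart place**, as a ring homomorphism `chart → Kbar`. -/
def h18l_val (k : ChartPlace N t) : chart N A t →+* Kbar where
  toFun b := (exists_valueAt k.1 (h18l_mem_place N A t k b)).choose
  map_one' := valueAt_unique (exists_valueAt k.1 (h18l_mem_place N A t k 1)).choose_spec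
    (valueAt_one k.1)
  map_zero' := valueAt_unique (exists_valueAt k.1 (h18l_mem_place N A t k 0)).choose_spec
    (valueAt_zero k.1)
  map_add' f g := valueAt_unique
    (exists_valueAt k.1 (h18l_mem_place N A t k (f + g))).choose_spec
    (valueAt_add (exists_valueAt k.1 (h18l_mem_place N A t k f)).choose_spec
      (exists_valueAt k.1 (h18l_mem_place N A t k g)).choose_spec)
  map_mul' f g := valueAt_unique
    (exists_valueAt k.1 (h18l_mem_place N A t k (f * g))).choose_spec
    (valueAt_mul (exists_valueAt k.1 (h18l_mem_place N A t k f)).choose_spec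
      (exists_valueAt k.1 (h18l_mem_place N A t k g)).choose_spec)

theorem h18l_val_spec (k : ChartPlace N t) (b : chart N A t) :
    ValueAt k.1 (b : FF N) (h18l_val N A t k b) :=
  (exists_valueAt k.1 (h18l_mem_place N A t k b)).choose_spec

theorem h18l_val_eq (k : ChartPlace N t) (b : chart N A t) {a : Kbar}
    (h : ValueAt k.1 (b : FF N) a) : h18l_val N A t k b = a :=
  valueAt_unique (h18l_val_spec N A t k b) h

/-- the kernel of the value at `k` is the set of functions vanishing at `k`. -/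
theorem h18l_val_eq_zero_iff (k : ChartPlace N t) (b : chart N A t) :
    h18l_val N A t k b = 0 ↔ chartVal N t k (b : FF N) < 1 := by
  show _ ↔ k.1.adicValuation (b : FF N) < 1
  rw [h71_adicValuation_lt_one_iff_valueAt]
  constructor
  · intro h
    have := h18l_val_spec N A t k b
    rwa [h] at this
  · intro h
    exact h18l_val_eq N A t k b h

/-- the value of a constant. -/
theorem h18l_val_cst (k : ChartPlace N t) (a : A) :
    h18l_val N A t k (algebraMap A (chart N A t) a) = (a : Kbar) :=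
  h18l_val_eq N A t k _ (valueAt_cst k.1 (a : Kbar))

end Val

/-! ### Compatibility with `α` -/

section Alpha

variable (M ℓ : ℕ) [NeZero M] [NeZero ℓ] (A : ValuationSubring Kbar)

/-- `α` maps constants to constants. -/
theorem h18l_alpha_cst (a : Kbar) :
    heckeAlphaBar Kbar M ℓ (cst M a) = cst (M * ℓ) a :=
  (heckeAlphaBar Kbar M ℓ).commutes a

/-- values are preserved by `α` along a pair of places `k` above `w`. -/
theorem h18l_valueAt_alpha (w : Place Kbar (FF M)) (k : Place Kbar (FF (M * ℓ)))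
    (hwk : ∀ f : FF M, w.adicValuation f < 1 →
      k.adicValuation (heckeAlphaBar Kbar M ℓ f) < 1)
    {f : FF M} {a : Kbar} (h : ValueAt w f a) :
    ValueAt k (heckeAlphaBar Kbar M ℓ f) a := by
  have h1 : w.adicValuation (f - cst M a) < 1 :=
    (h71_adicValuation_lt_one_iff w _).2 h
  have h2 := hwk _ h1
  rw [map_sub, h18l_alpha_cst] at h2
  exact (h71_adicValuation_lt_one_iff k _).1 h2

/-- a function regular at `w` is regular at every place `k` above `w`. -/
theorem h18l_mem_alpha (w : Place Kbar (FF M)) (k : Place Kbar (FF (M * ℓ)))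
    (hwk : ∀ f : FF M, w.adicValuation f < 1 →
      k.adicValuation (heckeAlphaBar Kbar M ℓ f) < 1)
    {f : FF M} (hf : f ∈ w.toValuationSubring) :
    heckeAlphaBar Kbar M ℓ f ∈ k.toValuationSubring := by
  obtain ⟨a, ha⟩ := exists_valueAt w hf
  exact valueAt_mem (h18l_valueAt_alpha M ℓ w k hwk ha)

/-- a function whose image is regular at `k` is regular at `w` (`k` above `w`). -/
theorem h18l_mem_of_alpha_mem (w : Place Kbar (FF M)) (k : Place Kbar (FF (M * ℓ)))
    (hwk : ∀ f : FF M, w.adicValuation f < 1 →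
      k.adicValuation (heckeAlphaBar Kbar M ℓ f) < 1)
    {f : FF M} (hf : heckeAlphaBar Kbar M ℓ f ∈ k.toValuationSubring) :
    f ∈ w.toValuationSubring := by
  by_contra hnot
  have hf0 : f ≠ 0 := by
    rintro rfl
    exact hnot (zero_mem _)
  have hinv : f⁻¹ ∈ w.toValuationSubring.nonunits := by
    rw [ValuationSubring.mem_nonunits_iff_or]
    right
    rwa [inv_inv]
  have h1 : w.adicValuation f⁻¹ < 1 := (h71_adicValuation_lt_one_iff w _).2 hinv
  have h2 := hwk _ h1
  rw [map_inv₀] at h2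
  have h3 : k.adicValuation (heckeAlphaBar Kbar M ℓ f) ≤ 1 :=
    k.adicValuation_le_one_of_mem hf
  have h4 : k.adicValuation (heckeAlphaBar Kbar M ℓ f) *
      k.adicValuation (heckeAlphaBar Kbar M ℓ f)⁻¹ = 1 := by
    rw [← map_mul, mul_inv_cancel₀ ((map_ne_zero _).2 hf0), map_one]
  have h5 : k.adicValuation (heckeAlphaBar Kbar M ℓ f) *
      k.adicValuation (heckeAlphaBar Kbar M ℓ f)⁻¹ < 1 := by
    calc k.adicValuation (heckeAlphaBar Kbar M ℓ f) *
          k.adicValuation (heckeAlphaBar Kbar M ℓ f)⁻¹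
        ≤ 1 * k.adicValuation (heckeAlphaBar Kbar M ℓ f)⁻¹ := mul_le_mul' h3 le_rfl
      _ = k.adicValuation (heckeAlphaBar Kbar M ℓ f)⁻¹ := one_mul _
      _ < 1 := h2
  rw [h4] at h5
  exact lt_irrefl _ h5

/-- **agreement on `α(Λ)`**: the value at `k` of `α x` is the value of `x` at `w`. -/
theorem h18l_val_alpha (t₀ : FF M) (t : FF (M * ℓ)) (w : ChartPlace M t₀)
    (k : ChartPlace (M * ℓ) t)
    (hwk : ∀ f : FF M, w.1.adicValuation f < 1 →
      k.1.adicValuation (heckeAlphaBar Kbar M ℓ f) < 1)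
    (b : chart (M * ℓ) A t) (x : chart M A t₀)
    (hbx : (b : FF (M * ℓ)) = heckeAlphaBar Kbar M ℓ (x : FF M)) :
    h18l_val (M * ℓ) A t k b = h18l_val M A t₀ w x := by
  apply h18l_val_eq
  rw [hbx]
  exact h18l_valueAt_alpha M ℓ w.1 k.1 hwk (h18l_val_spec M A t₀ w x)

/-- **(I8)**: the input `hpl` of the node theorem (with `K := Kbar`), from the existence of
`ℓ + 1` places above the place of level `M` below a given place. -/
theorem h18l_hpl_of_fiber
    (hfib : ∀ i : Place Kbar (FF (M * ℓ)), jSS M ℓ ∈ i.toValuationSubring →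
      ∃ (w : Place Kbar (FF M)) (T : Finset (Place Kbar (FF (M * ℓ)))),
        i ∈ T ∧ ℓ + 1 ≤ T.card ∧
        ∀ k ∈ T, ∀ f : FF M, w.adicValuation f < 1 →
          k.adicValuation (heckeAlphaBar Kbar M ℓ f) < 1)
    (i : ChartPlace (M * ℓ) (jSS M ℓ)) :
    ∃ (T : Finset (ChartPlace (M * ℓ) (jSS M ℓ)))
      (φ : ChartPlace (M * ℓ) (jSS M ℓ) → chart (M * ℓ) A (jSS M ℓ) →+* Kbar)
      (φ' : chart M A (jB M) →+* Kbar),
      i ∈ T ∧ ℓ + 1 ≤ T.card ∧
      (∀ k ∈ T, ∀ b : chart (M * ℓ) A (jSS M ℓ),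
        φ k b = 0 ↔ chartVal (M * ℓ) (jSS M ℓ) k (b : FF (M * ℓ)) < 1) ∧
      (∀ k ∈ T, ∀ (b : chart (M * ℓ) A (jSS M ℓ)) (x : chart M A (jB M)),
        (b : FF (M * ℓ)) = heckeAlphaBar Kbar M ℓ (x : FF M) → φ k b = φ' x) := by
  classical
  obtain ⟨w, T, hiT, hcard, hT⟩ := hfib i.1 i.2
  -- `j` is regular at `w`
  have hw : jB M ∈ w.toValuationSubring :=
    h18l_mem_of_alpha_mem M ℓ w i.1 (hT i.1 hiT) i.2
  -- every place of `T` is a chart place
  have hreg : ∀ k ∈ T, jSS M ℓ ∈ k.toValuationSubring := fun k hk =>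
    h18l_mem_alpha M ℓ w k (hT k hk) hw
  let T' : Finset (ChartPlace (M * ℓ) (jSS M ℓ)) :=
    Finset.subtype (fun k : Place Kbar (FF (M * ℓ)) => jSS M ℓ ∈ k.toValuationSubring) T
  have hmem : ∀ k : ChartPlace (M * ℓ) (jSS M ℓ), k ∈ T' ↔ k.1 ∈ T := fun k =>
    Finset.mem_subtype
  have hcard' : T'.card = T.card := by
    show (Finset.subtype (fun k : Place Kbar (FF (M * ℓ)) =>
      jSS M ℓ ∈ k.toValuationSubring) T).card = T.card
    rw [Finset.card_subtype, Finset.filter_true_of_mem hreg]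
  refine ⟨T', fun k => h18l_val (M * ℓ) A (jSS M ℓ) k, h18l_val M A (jB M) ⟨w, hw⟩,
    ?_, ?_, ?_, ?_⟩
  · exact (hmem i).2 hiT
  · rw [hcard']
    exact hcard
  · intro k _ b
    exact h18l_val_eq_zero_iff (M * ℓ) A (jSS M ℓ) k b
  · intro k hk b x hbx
    exact h18l_val_alpha M ℓ A (jB M) (jSS M ℓ) ⟨w, hw⟩ k (hT k.1 ((hmem k).1 hk)) b x hbx

end Alpha

end Fermat.Agent.LGC
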