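import Fermat.Agent.LGC.Res44
import Fermat.Agent.Red.GGChartAsm

/-!
# W3-LGC, leaf I7-INF (helper20): `chart_N = α(chart_M) + P_∞`, both charts

`ℓ ∤ M` prime, `auxLevel ℓ ∣ M`, `A` a valuation subring of `ℚ̄` over `ℓ`, `N = Mℓ`,
`α = heckeAlphaBar Kbar M ℓ : F_M → F_N`, `W_∞ = softV A N` with reduction `softR A N`.

For `t₀ = j` or `t₀ = 1/j`, every `b` in the chart `modelAt N A (α t₀)` of level `N` is
congruent modulo the kernel of the reduction at `∞` (the prime `P_∞ = chart ∩ 𝔪(W_∞)`) to `α x`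
for some `x` in the chart `modelAt M A t₀` of level `M`.

Proof.  `r = red_∞ b` is integral over the reduction `R̄` of the chart of level `M` (because `b`
is integral over `A[α t₀]`), it lies in the residue field of the Gauss valuation of level `M`
(K3, helper44's `h44r_residue_degree_one`), which is the fraction field of `R̄` (clearing
denominators + QEP), and `R̄ ≅ chart_M / 𝔪_A chart_M` is a Dedekind domain (`IfaceSmooth`), hence
integrally closed.

* `h20ci_mem_range_of_integral` : the abstract step (Mathlib only).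
* `h20ci_core` : the statement for a general `t₀`, from the level-`M` inputs.
* `h20ci_hsurj_fin_of`, `h20ci_hsurj_inf_of` : the two charts, from `S37.IfaceSmooth`
  (unconditional versions `h20ci_hsurj_fin`, `h20ci_hsurj_inf` in `LGC/H20CompInfFinal.lean`).
-/

set_option autoImplicit false
set_option maxHeartbeats 400000
set_option linter.style.haveILetI false
set_option linter.unusedSectionVars false
set_option synthInstance.maxHeartbeats 400000

open AlgebraicCurve ModularCurve IsLocalRing Polynomial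

noncomputable section

namespace Fermat.Agent.LGC

open Fermat.Agent.S37 Fermat.Agent.Red Fermat.Agent.Red.GG Fermat.Agent.Red.GV
  Fermat.Agent.Red.GV.Soft

/-! ### the abstract step -/

/-- an element of a field which is integral over an integrally closed domain `D` (embedded by
`φ`) and is a quotient of two elements of `D` lies in `D`. -/
theorem h20ci_mem_range_of_integral {D L : Type*} [CommRing D] [IsDomain D]
    [IsIntegrallyClosed D] [Field L] (φ : D →+* L) (hφ : Function.Injective φ) (r : L)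
    (hint : φ.IsIntegralElem r) (d₁ d₂ : D) (hd₂ : φ d₂ ≠ 0) (h : r * φ d₂ = φ d₁) :
    ∃ d, φ d = r := by
  classical
  let ψ : FractionRing D →+* L := IsFractionRing.lift hφ
  have hψ : ∀ d : D, ψ (algebraMap D (FractionRing D) d) = φ d :=
    fun d => IsFractionRing.lift_algebraMap hφ d
  set z : FractionRing D :=
    algebraMap D (FractionRing D) d₁ / algebraMap D (FractionRing D) d₂ with hz
  have hψz : ψ z = r := by
    rw [hz, map_div₀, hψ, hψ, ← h, mul_div_assoc, div_self hd₂, mul_one]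
  obtain ⟨p, hp, hpr⟩ := hint
  have hzint : IsIntegral D z := by
    refine ⟨p, hp, ?_⟩
    apply ψ.injective
    rw [map_zero, Polynomial.hom_eval₂, hψz]
    have hcomp : ψ.comp (algebraMap D (FractionRing D)) = φ := RingHom.ext hψ
    rw [hcomp]
    exact hpr
  obtain ⟨d, hd⟩ := IsIntegrallyClosed.isIntegral_iff.mp hzint
  exact ⟨d, by rw [← hψ, hd, hψz]⟩


/-! ### the reduction of a chart of level `M` -/

variable (A : ValuationSubring Kbar) (M ℓ : ℕ) [NeZero M] [NeZero ℓ]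

/-- the reduction of a chart of level `M` (restriction of the Gauss reduction). -/
def h20ci_rho (t₀ : FF M) (hle : modelAt M A t₀ ≤ softV A M) :
    ↥(modelAt M A t₀) →+* LaurentSeries (ResidueField A) :=
  (softR A M).comp (Subring.inclusion hle)

theorem h20ci_rho_apply (t₀ : FF M) (hle : modelAt M A t₀ ≤ softV A M)
    (x : modelAt M A t₀) :
    h20ci_rho A M t₀ hle x = softR A M ⟨(x : FF M), hle x.2⟩ := rfl

theorem h20ci_cst_ne_zero {c : Kbar} (hc : c ≠ 0) : cst M c ≠ 0 := by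
  rw [Ne, map_eq_zero_iff _ (algebraMap Kbar (FF M)).injective]
  exact hc

/-- `𝔪_A · chart` reduces to zero. -/
theorem h20ci_rho_eq_zero_of_mem_maxExt (t₀ : FF M) (hle : modelAt M A t₀ ≤ softV A M)
    (x : modelAt M A t₀) (hx : x ∈ maxExt A (modelAt M A t₀)) :
    h20ci_rho A M t₀ hle x = 0 := by
  have h : maxExt A (modelAt M A t₀) ≤ RingHom.ker (h20ci_rho A M t₀ hle) := by
    refine Ideal.span_le.mpr ?_
    rintro y ⟨a, ha, hya⟩
    rw [SetLike.mem_coe, RingHom.mem_ker, h20ci_rho_apply]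
    have e : (⟨(y : FF M), hle y.2⟩ : softV A M) =
        ⟨cst M a, (cst_mem_softV_iff A M a).mpr (A.nonunits_subset ha)⟩ := Subtype.ext hya
    rw [e]
    exact softR_cst_of_nonunit A M a ha _
  exact h hx

/-- the kernel of the reduction of a chart is `𝔪_A · chart` (scaling + QEP). -/
theorem h20ci_mem_maxExt_of_rho_eq_zero (hℓ : ℓ.Prime) (hA : A.LiesOverPrime ℓ) (t₀ : FF M)
    (hle : modelAt M A t₀ ≤ softV A M)
    (hQ : ∀ x ∈ softV A M, ∀ c ∈ A, c ≠ 0 → cst M c * x ∈ modelAt M A t₀ →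
      x ∈ modelAt M A t₀)
    (x : modelAt M A t₀) (hx : h20ci_rho A M t₀ hle x = 0) :
    x ∈ maxExt A (modelAt M A t₀) := by
  by_cases hx0 : (x : FF M) = 0
  · have h0 : x = 0 := Subtype.ext hx0
    rw [h0]
    exact zero_mem _
  obtain ⟨c, hc, hu, hui⟩ := exists_cst_mul_unit_soft A M hℓ hA (x : FF M) hx0
  have hcA : c ∉ A := by
    intro hcA
    have h1 : softR A M ⟨cst M c * (x : FF M), hu⟩ = 0 := by
      have e : (⟨cst M c * (x : FF M), hu⟩ : softV A M) =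
          ⟨cst M c, (cst_mem_softV_iff A M c).mpr hcA⟩ * ⟨(x : FF M), hle x.2⟩ := rfl
      rw [e, map_mul]
      rw [h20ci_rho_apply] at hx
      rw [hx, mul_zero]
    rcases (softR_eq_zero_iff A M ⟨_, hu⟩).mp h1 with h2 | h2
    · exact (mul_ne_zero (h20ci_cst_ne_zero M hc) hx0) h2
    · exact h2 hui
  have hci : c⁻¹ ∈ A := (A.mem_or_inv_mem c).resolve_left hcA
  have hcin : c⁻¹ ∈ A.nonunits := by
    have h1 : ¬ A.valuation c ≤ 1 := fun h => hcA ((A.valuation_le_one_iff c).mp h)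
    rw [ValuationSubring.mem_nonunits_iff, map_inv₀]
    exact inv_lt_one_of_one_lt₀ (not_le.mp h1)
  have hcx : cst M c⁻¹ * (cst M c * (x : FF M)) = x := by
    rw [← mul_assoc, ← map_mul, inv_mul_cancel₀ hc, map_one, one_mul]
  have humem : cst M c * (x : FF M) ∈ modelAt M A t₀ :=
    hQ _ hu c⁻¹ hci (inv_ne_zero hc) (by rw [hcx]; exact x.2)
  have hgen : (⟨cst M c⁻¹, ModelO.h85_cst_mem_modelAt M A t₀ hci⟩ : modelAt M A t₀) ∈
      maxExt A (modelAt M A t₀) :=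
    Ideal.subset_span ⟨c⁻¹, hcin, rfl⟩
  have e : x = (⟨cst M c⁻¹, ModelO.h85_cst_mem_modelAt M A t₀ hci⟩ : modelAt M A t₀) *
      ⟨cst M c * (x : FF M), humem⟩ := Subtype.ext hcx.symm
  rw [e]
  exact Ideal.mul_mem_right _ (maxExt A (modelAt M A t₀)) hgen

/-- every function of level `M` is a quotient of two elements of the chart. -/
theorem h20ci_frac (t₀ : FF M) (hC : IfaceChart M A t₀) (y : FF M) :
    ∃ b₂ ∈ modelAt M A t₀, b₂ ≠ 0 ∧ y * b₂ ∈ modelAt M A t₀ := by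
  haveI : (⊥ : Ideal (chart M A t₀)).IsPrime := Ideal.isPrime_bot
  have hvac : ∀ i, h26Centered (chart M A t₀) (chartVal M t₀) (⊥ : Ideal (chart M A t₀)) i →
      chartVal M t₀ i y ≤ 1 := by
    intro i hi
    exfalso
    obtain ⟨b, hb⟩ := H26Chart.hunif hC i
    have hb1 : chartVal M t₀ i (b : FF M) < 1 := by
      rw [hb, ← WithZero.exp_zero, WithZero.exp_lt_exp]
      norm_num
    have hb0 : b = 0 := (Submodule.mem_bot _).mp (hi b hb1)
    rw [hb0] at hb
    have h0 : chartVal M t₀ i ((0 : chart M A t₀) : FF M) = 0 := by simp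
    rw [h0] at hb
    exact WithZero.exp_ne_zero hb.symm
  obtain ⟨a, ha, s, hs, hmem⟩ :=
    h26_stepC (H26Chart.hfin hC) (H26Chart.hint hC) (H26Chart.hB hC)
      (⊥ : Ideal (chart M A t₀)) y hvac
  have hs0 : (s : FF M) ≠ 0 := by
    intro h0
    apply hs
    rw [Ideal.mem_bot]
    exact Subtype.ext h0
  refine ⟨cst M (a : Kbar) * (s : FF M), ?_, ?_, ?_⟩
  · exact mul_mem (ModelO.h85_cst_mem_modelAt M A t₀ a.2) s.2
  · exact mul_ne_zero (h20ci_cst_ne_zero M (GGC97_coe_ne_zero ha)) hs0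
  · have e : y * (cst M (a : Kbar) * (s : FF M)) = a • ((s : FF M) * y) := by
      rw [GGC97_smul_eq]
      ring
    rw [e]
    exact hmem

/-! ### the main statement -/

/-- **`chart_N = α(chart_M) + P_∞`**, general chart `t₀` of level `M`: every element of the chart
of level `Mℓ` is congruent to an element of `α(chart_M)` modulo the kernel of the reduction at
`∞`. -/
theorem h20ci_core (hℓ : ℓ.Prime) (hM : ¬ ℓ ∣ M) (hA : A.LiesOverPrime ℓ) (t₀ : FF M)
    (hle : modelAt M A t₀ ≤ softV A M)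
    (hQ : ∀ x ∈ softV A M, ∀ c ∈ A, c ≠ 0 → cst M c * x ∈ modelAt M A t₀ →
      x ∈ modelAt M A t₀)
    (hfrac : ∀ y : FF M, ∃ b₂ ∈ modelAt M A t₀, b₂ ≠ 0 ∧ y * b₂ ∈ modelAt M A t₀)
    [IsDomain (modelAt M A t₀ ⧸ maxExt A (modelAt M A t₀))]
    [IsIntegrallyClosed (modelAt M A t₀ ⧸ maxExt A (modelAt M A t₀))]
    (b : FF (M * ℓ)) (hb : b ∈ modelAt (M * ℓ) A (heckeAlphaBar Kbar M ℓ t₀)) :
    ∃ x ∈ modelAt M A t₀,
      heckeAlphaBar Kbar M ℓ x ∈ modelAt (M * ℓ) A (heckeAlphaBar Kbar M ℓ t₀) ∧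
      ∃ h : b - heckeAlphaBar Kbar M ℓ x ∈ softV A (M * ℓ),
        softR A (M * ℓ) ⟨_, h⟩ = 0 := by
  classical
  have ht₀g : t₀ ∈ gaussV A M :=
    softV_le_gaussV A M hℓ hM hA (hle (ModelO.h85_self_mem_modelAt M A t₀))
  have hbs : b ∈ softV A (M * ℓ) :=
    h44r_ssV_le_softV A M ℓ hℓ hA (h44v_modelAt_le_ssV A M ℓ hA t₀ ht₀g hb)
  have hαmem : ∀ x : modelAt M A t₀,
      ((heckeAlphaBar Kbar M ℓ).toRingHom.comp (modelAt M A t₀).subtype) x ∈
        softV A (M * ℓ) :=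
    fun x => (alpha_mem_softV_iff A ℓ (x : FF M)).mpr (hle x.2)
  let f' : ↥(modelAt M A t₀) →+* ↥(softV A (M * ℓ)) :=
    ((heckeAlphaBar Kbar M ℓ).toRingHom.comp (modelAt M A t₀).subtype).codRestrict
      (softV A (M * ℓ)) hαmem
  have hf'ρ : (softR A (M * ℓ)).comp f' = h20ci_rho A M t₀ hle := by
    refine RingHom.ext fun x => ?_
    exact softR_alpha A ℓ ⟨(x : FF M), hle x.2⟩ (hαmem x)
  -- `r` is integral over the reduction of the chart of level `M`
  have hint : (h20ci_rho A M t₀ hle).IsIntegralElem (softR A (M * ℓ) ⟨b, hbs⟩) := by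
    obtain ⟨p, hp, hpb⟩ :=
      (KR.mem_modelAt_iff_evalF A (heckeAlphaBar Kbar M ℓ t₀) b).mp hb
    let g : Polynomial A →+* ↥(modelAt M A t₀) :=
      (evalF M A t₀).codRestrict (modelAt M A t₀)
        (fun Q => Match.ringAdj_le_modelAt M A t₀ (evalF_mem_ringAdj M A t₀ Q))
    refine ⟨p.map g, hp.map g, ?_⟩
    rw [Polynomial.eval₂_map, ← hf'ρ]
    have h1 : Polynomial.eval₂ (f'.comp g) (⟨b, hbs⟩ : softV A (M * ℓ)) p = 0 := by
      apply Subtype.ext
      have h2 := Polynomial.hom_eval₂ p (f'.comp g) (softV A (M * ℓ)).subtype ⟨b, hbs⟩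
      have h3 : (softV A (M * ℓ)).subtype.comp (f'.comp g) =
          evalF (M * ℓ) A (heckeAlphaBar Kbar M ℓ t₀) := by
        rw [← KR.comp_evalF (heckeAlphaBar Kbar M ℓ) A t₀]
        rfl
      rw [h3] at h2
      exact h2.trans hpb
    have h4 := Polynomial.hom_eval₂ p (f'.comp g) (softR A (M * ℓ)) ⟨b, hbs⟩
    rw [h1, map_zero] at h4
    rw [RingHom.comp_assoc]
    exact h4.symm
  -- `r` lies in the fraction field of the reduction of the chart
  obtain ⟨y, hy, hyr⟩ := h44r_residue_degree_one A M ℓ hℓ hM hA b hbs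
  obtain ⟨b₂, hb₂, hb₂0, hb₁⟩ := hfrac y
  obtain ⟨c, hc, hu, hui⟩ := exists_cst_mul_unit_soft A M hℓ hA b₂ hb₂0
  have hcst0 : cst M c ≠ 0 := h20ci_cst_ne_zero M hc
  have huΛ : cst M c * b₂ ∈ modelAt M A t₀ ∧ cst M c * b₂ * y ∈ modelAt M A t₀ := by
    rcases A.mem_or_inv_mem c with hcA | hcA
    · refine ⟨mul_mem (ModelO.h85_cst_mem_modelAt M A t₀ hcA) hb₂, ?_⟩
      have e : cst M c * b₂ * y = cst M c * (y * b₂) := by ring
      rw [e]
      exact mul_mem (ModelO.h85_cst_mem_modelAt M A t₀ hcA) hb₁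
    · have e0 : cst M c⁻¹ * cst M c = 1 := by
        rw [← map_mul, inv_mul_cancel₀ hc, map_one]
      have e1 : cst M c⁻¹ * (cst M c * b₂) = b₂ := by
        rw [← mul_assoc, e0, one_mul]
      have e2 : cst M c⁻¹ * (cst M c * b₂ * y) = y * b₂ := by
        rw [← mul_assoc, ← mul_assoc, e0, one_mul, mul_comm]
      exact ⟨hQ _ hu c⁻¹ hcA (inv_ne_zero hc) (by rw [e1]; exact hb₂),
        hQ _ (mul_mem hu hy) c⁻¹ hcA (inv_ne_zero hc) (by rw [e2]; exact hb₁)⟩
  obtain ⟨hu1, hu2⟩ := huΛ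
  have hρd₂ : h20ci_rho A M t₀ hle ⟨_, hu1⟩ ≠ 0 := by
    rw [h20ci_rho_apply]
    exact (softR_ne_zero_iff A M ⟨_, hle hu1⟩).mpr ⟨mul_ne_zero hcst0 hb₂0, hui⟩
  have hrel : softR A (M * ℓ) ⟨b, hbs⟩ * h20ci_rho A M t₀ hle ⟨_, hu1⟩ =
      h20ci_rho A M t₀ hle ⟨_, hu2⟩ := by
    rw [← hyr, h20ci_rho_apply, h20ci_rho_apply, ← map_mul]
    congr 1
    apply Subtype.ext
    show y * (cst M c * b₂) = cst M c * b₂ * y
    ring
  -- the reduction of the chart is integrally closed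
  let φ : (modelAt M A t₀ ⧸ maxExt A (modelAt M A t₀)) →+*
      LaurentSeries (ResidueField A) :=
    Ideal.Quotient.lift (maxExt A (modelAt M A t₀)) (h20ci_rho A M t₀ hle)
      (fun a ha => h20ci_rho_eq_zero_of_mem_maxExt A M t₀ hle a ha)
  have hφmk : ∀ x : modelAt M A t₀,
      φ (Ideal.Quotient.mk (maxExt A (modelAt M A t₀)) x) = h20ci_rho A M t₀ hle x :=
    fun x => Ideal.Quotient.lift_mk _ _ _
  have hφinj : Function.Injective φ := by
    rw [injective_iff_map_eq_zero]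
    intro d hd
    obtain ⟨x, rfl⟩ := Ideal.Quotient.mk_surjective d
    rw [hφmk] at hd
    exact Ideal.Quotient.eq_zero_iff_mem.mpr
      (h20ci_mem_maxExt_of_rho_eq_zero A M ℓ hℓ hA t₀ hle hQ x hd)
  have hintφ : φ.IsIntegralElem (softR A (M * ℓ) ⟨b, hbs⟩) := by
    obtain ⟨p, hp, hpr⟩ := hint
    refine ⟨p.map (Ideal.Quotient.mk (maxExt A (modelAt M A t₀))), hp.map _, ?_⟩
    rw [Polynomial.eval₂_map]
    have hcomp : φ.comp (Ideal.Quotient.mk (maxExt A (modelAt M A t₀))) =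
        h20ci_rho A M t₀ hle := RingHom.ext hφmk
    rw [hcomp]
    exact hpr
  obtain ⟨d, hd⟩ := h20ci_mem_range_of_integral φ hφinj _ hintφ
    (Ideal.Quotient.mk _ ⟨_, hu2⟩) (Ideal.Quotient.mk _ ⟨_, hu1⟩)
    (by rw [hφmk]; exact hρd₂) (by rw [hφmk, hφmk]; exact hrel)
  obtain ⟨x₀, rfl⟩ := Ideal.Quotient.mk_surjective d
  rw [hφmk] at hd
  refine ⟨(x₀ : FF M), x₀.2, KR.map_mem_modelAt (heckeAlphaBar Kbar M ℓ) A x₀.2,
    sub_mem hbs (hαmem x₀), ?_⟩
  have e : (⟨b - heckeAlphaBar Kbar M ℓ (x₀ : FF M), sub_mem hbs (hαmem x₀)⟩ :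
      softV A (M * ℓ)) = ⟨b, hbs⟩ - f' x₀ := rfl
  rw [e, map_sub, ← hd]
  have h5 : softR A (M * ℓ) (f' x₀) = h20ci_rho A M t₀ hle x₀ := by
    rw [← hf'ρ]
    rfl
  rw [h5, sub_self]

/-! ### the two charts -/

/-- **(I7, `α`-half) finite chart**: `chart_N(j) = α(chart_M(j)) + P_∞`. -/
theorem h20ci_hsurj_fin_of (hS : Fermat.Agent.S37.IfaceSmooth) (hℓ : ℓ.Prime) (hM : ¬ ℓ ∣ M)
    (haux : auxLevel ℓ ∣ M) (hA : A.LiesOverPrime ℓ) (b : FF (M * ℓ)) (hb : b ∈ modelAt (M * ℓ) A (jSS M ℓ)) :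
    ∃ x ∈ modelAt M A (jB M),
      heckeAlphaBar Kbar M ℓ x ∈ modelAt (M * ℓ) A (jSS M ℓ) ∧
      ∃ h : b - heckeAlphaBar Kbar M ℓ x ∈ softV A (M * ℓ),
        softR A (M * ℓ) ⟨_, h⟩ = 0 := by
  have hD : IsDedekindDomain (modelAt M A (jB M) ⧸ maxExt A (modelAt M A (jB M))) :=
    (hS ℓ hℓ M hM haux A hA).1
  have hC : IfaceChart M A (jB M) := ifaceChart_fin hℓ hM hA
  exact h20ci_core A M ℓ hℓ hM hA (jB M)
    (fun x hx => gaussV_le_softV A M (modelFin_le_gaussV A M hℓ hM hA hx))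
    (fun x hx c hcA hc h =>
      mem_modelFin_of_cst_mul A M hℓ hM hA x (softV_le_gaussV A M hℓ hM hA hx) c hcA hc h)
    (h20ci_frac A M (jB M) hC) b hb

/-- **(I7-INF) chart at infinity**: `chart_N(1/j) = α(chart_M(1/j)) + P_∞`. -/
theorem h20ci_hsurj_inf_of (hS : Fermat.Agent.S37.IfaceSmooth) (hℓ : ℓ.Prime) (hM : ¬ ℓ ∣ M)
    (haux : auxLevel ℓ ∣ M) (hA : A.LiesOverPrime ℓ) (b : FF (M * ℓ)) (hb : b ∈ modelAt (M * ℓ) A (jSS M ℓ)⁻¹) :
    ∃ x ∈ modelAt M A (jB M)⁻¹,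
      heckeAlphaBar Kbar M ℓ x ∈ modelAt (M * ℓ) A (jSS M ℓ)⁻¹ ∧
      ∃ h : b - heckeAlphaBar Kbar M ℓ x ∈ softV A (M * ℓ),
        softR A (M * ℓ) ⟨_, h⟩ = 0 := by
  have hD : IsDedekindDomain (modelAt M A (jB M)⁻¹ ⧸ maxExt A (modelAt M A (jB M)⁻¹)) :=
    (hS ℓ hℓ M hM haux A hA).2
  have hC : IfaceChart M A (jB M)⁻¹ := ifaceChart_inf hℓ hM hA
  rw [h44v_jSS_inv] at hb ⊢
  exact h20ci_core A M ℓ hℓ hM hA (jB M)⁻¹
    (fun x hx => gaussV_le_softV A M (modelInf_le_gaussV A M hℓ hM hA hx))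
    (fun x hx c hcA hc h =>
      mem_modelInf_of_cst_mul A M hℓ hM hA x (softV_le_gaussV A M hℓ hM hA hx) c hcA hc h)
    (h20ci_frac A M (jB M)⁻¹ hC) b hb

end Fermat.Agent.LGC
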