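import Fermat.Agent.LGC.Perm63
import Fermat.Agent.LGC.FrickeChart
import Fermat.Agent.LGC.SS85Generic
import Fermat.Agent.Red.ModelO.Bridge85

/-!
# W3-LGC, row W4 (helper4): finiteness at the level `M * ℓ`

* `h4f_ifaceFinite_fin_of_bc`, `h4f_ifaceFinite_inf_of_bc` : at ANY level `N`, base change
  of a chart (`BCAt N A t`, `t = j` or `t = 1/j`) implies `GG.IfaceFinite N A t`
  (helper85's level-free bridge).
* `h4f_ifaceSSFinite_of_bc`, `h4f_ifaceFinite_ss_of_bc`, `h4f_ifaceFinite_ss_inv_of_bc` : the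
  same statements in the vocabulary of `LGC/Skeleton.lean` (`jSS M ℓ`).
* `h4f_alphaChart`, `h4f_betaChart` : the maps `α`, `β` (`heckeAlphaBar`, `heckeBetaBar`) as
  `A`-algebra homomorphisms from the finite chart of level `M` to the finite chart of level
  `M * ℓ`.
* `h4f_finite_of_ifaceFinite` : every ring homomorphism `chart_M → chart_{Mℓ}` which is `α` on
  the underlying functions is finite (`RingHom.Finite`), given `IfaceSSFinite`;
  `h4f_alphaChart_finite` : the instance for `h4f_alphaChart` (the hypothesis `hfin` of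
  `h62l_local`).
-/

set_option autoImplicit false
set_option linter.unusedSectionVars false
set_option linter.style.haveILetI false

open AlgebraicCurve ModularCurve WithZero IsLocalRing Polynomial

noncomputable section

namespace Fermat.Agent.LGC

open Fermat.Agent.S37 Fermat.Agent.Red Fermat.Agent.Red.GG Fermat.Agent.Red.GV
  Fermat.Agent.Red.ModelO Fermat.Agent.Red.Kron Fermat.Agent.Red.KR

/-! ### (a) base change ⇒ FINITE, any level -/

section Bridge

variable (N : ℕ) [NeZero N] (A : ValuationSubring Kbar)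

/-- **FINITE from base change**, finite chart, any level. -/
theorem h4f_ifaceFinite_fin_of_bc {p : ℕ} (hp : p.Prime) (hA : A.LiesOverPrime p)
    (hBC : BCAt N A (jB N)) : IfaceFinite N A (jB N) := by
  haveI : Fact p.Prime := ⟨hp⟩
  have h := h85_modelAt_fg_of_bridge hA (h85jQ N) (Or.inl rfl) (h85_bridge N p hp A hA)
    (by rw [h85ratEmb_jQ]; exact hBC)
  rwa [h85ratEmb_jQ] at h

/-- **FINITE from base change**, chart at infinity, any level. -/
theorem h4f_ifaceFinite_inf_of_bc {p : ℕ} (hp : p.Prime) (hA : A.LiesOverPrime p)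
    (hBC : BCAt N A (jB N)⁻¹) : IfaceFinite N A (jB N)⁻¹ := by
  haveI : Fact p.Prime := ⟨hp⟩
  have h := h85_modelAt_fg_of_bridge hA (h85jQ N)⁻¹ (Or.inr rfl) (h85_bridge N p hp A hA)
    (by rw [h85ratEmb_jQ_inv]; exact hBC)
  rwa [h85ratEmb_jQ_inv] at h

end Bridge

section Level

variable (A : ValuationSubring Kbar) (M ℓ : ℕ) [NeZero M] [NeZero ℓ]

/-- `IfaceFinite` for the finite chart of level `M * ℓ` (`t = jSS M ℓ`) from base change. -/
theorem h4f_ifaceFinite_ss_of_bc {p : ℕ} (hp : p.Prime) (hA : A.LiesOverPrime p)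
    (hBC : BCAt (M * ℓ) A (jSS M ℓ)) : IfaceFinite (M * ℓ) A (jSS M ℓ) := by
  rw [h85s_jSS_eq] at hBC ⊢
  exact h4f_ifaceFinite_fin_of_bc (M * ℓ) A hp hA hBC

/-- `IfaceFinite` for the chart at infinity of level `M * ℓ` from base change. -/
theorem h4f_ifaceFinite_ss_inv_of_bc {p : ℕ} (hp : p.Prime) (hA : A.LiesOverPrime p)
    (hBC : BCAt (M * ℓ) A (jSS M ℓ)⁻¹) : IfaceFinite (M * ℓ) A (jSS M ℓ)⁻¹ := by
  rw [h85s_jSS_eq] at hBC ⊢
  exact h4f_ifaceFinite_inf_of_bc (M * ℓ) A hp hA hBC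

/-- **`IfaceSSFinite`** from base change of the finite chart of level `M * ℓ`. -/
theorem h4f_ifaceSSFinite_of_bc {p : ℕ} (hp : p.Prime) (hA : A.LiesOverPrime p)
    (hBC : BCAt (M * ℓ) A (jSS M ℓ)) : IfaceSSFinite A M ℓ :=
  h4f_ifaceFinite_ss_of_bc A M ℓ hp hA hBC

/-! ### (b) the chart of level `M * ℓ` is finite over the chart of level `M` -/

theorem h4f_alpha_mem {x : FF M} (hx : x ∈ modelAt M A (jB M)) :
    heckeAlphaBar Kbar M ℓ x ∈ modelAt (M * ℓ) A (jSS M ℓ) :=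
  map_mem_modelAt (heckeAlphaBar Kbar M ℓ) A hx

theorem h4f_alpha_inv_mem {x : FF M} (hx : x ∈ modelAt M A (jB M)⁻¹) :
    heckeAlphaBar Kbar M ℓ x ∈ modelAt (M * ℓ) A (jSS M ℓ)⁻¹ := by
  have h := map_mem_modelAt (heckeAlphaBar Kbar M ℓ) A hx
  rwa [map_inv₀] at h

theorem h4f_beta_mem (hℓ : ℓ.Prime) (hM : ¬ ℓ ∣ M) (hA : A.LiesOverPrime ℓ) {x : FF M}
    (hx : x ∈ modelAt M A (jB M)) :
    heckeBetaBar Kbar M ℓ x ∈ modelAt (M * ℓ) A (jSS M ℓ) := by
  have h1 := map_mem_modelAt (heckeBetaBar Kbar M ℓ) A hx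
  have h2 : heckeBetaBar Kbar M ℓ (jB M) ∈ modelAt (M * ℓ) A (jB (M * ℓ)) :=
    meAlpha M ℓ hℓ hM A hA
  rw [h85s_jSS_eq]
  exact h66_modelAt_le_of_mem (M * ℓ) A h2 h1

/-- `α` as an `A`-algebra homomorphism between the finite charts. -/
def h4f_alphaChart : chart M A (jB M) →ₐ[A] chart (M * ℓ) A (jSS M ℓ) where
  toFun x := ⟨heckeAlphaBar Kbar M ℓ (x : FF M), h4f_alpha_mem A M ℓ x.2⟩
  map_one' := Subtype.ext (map_one (heckeAlphaBar Kbar M ℓ))
  map_mul' x y := Subtype.ext (map_mul (heckeAlphaBar Kbar M ℓ) (x : FF M) (y : FF M))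
  map_zero' := Subtype.ext (map_zero (heckeAlphaBar Kbar M ℓ))
  map_add' x y := Subtype.ext (map_add (heckeAlphaBar Kbar M ℓ) (x : FF M) (y : FF M))
  commutes' a := Subtype.ext ((heckeAlphaBar Kbar M ℓ).commutes (a : Kbar))

@[simp]
theorem h4f_coe_alphaChart (x : chart M A (jB M)) :
    ((h4f_alphaChart A M ℓ x : chart (M * ℓ) A (jSS M ℓ)) : FF (M * ℓ)) =
      heckeAlphaBar Kbar M ℓ (x : FF M) := rfl

/-- `α` as an `A`-algebra homomorphism between the charts at infinity. -/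
def h4f_alphaChartInf : chart M A (jB M)⁻¹ →ₐ[A] chart (M * ℓ) A (jSS M ℓ)⁻¹ where
  toFun x := ⟨heckeAlphaBar Kbar M ℓ (x : FF M), h4f_alpha_inv_mem A M ℓ x.2⟩
  map_one' := Subtype.ext (map_one (heckeAlphaBar Kbar M ℓ))
  map_mul' x y := Subtype.ext (map_mul (heckeAlphaBar Kbar M ℓ) (x : FF M) (y : FF M))
  map_zero' := Subtype.ext (map_zero (heckeAlphaBar Kbar M ℓ))
  map_add' x y := Subtype.ext (map_add (heckeAlphaBar Kbar M ℓ) (x : FF M) (y : FF M))
  commutes' a := Subtype.ext ((heckeAlphaBar Kbar M ℓ).commutes (a : Kbar))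

@[simp]
theorem h4f_coe_alphaChartInf (x : chart M A (jB M)⁻¹) :
    ((h4f_alphaChartInf A M ℓ x : chart (M * ℓ) A (jSS M ℓ)⁻¹) : FF (M * ℓ)) =
      heckeAlphaBar Kbar M ℓ (x : FF M) := rfl

/-- `β` as an `A`-algebra homomorphism between the finite charts. -/
def h4f_betaChart (hℓ : ℓ.Prime) (hM : ¬ ℓ ∣ M) (hA : A.LiesOverPrime ℓ) :
    chart M A (jB M) →ₐ[A] chart (M * ℓ) A (jSS M ℓ) where
  toFun x := ⟨heckeBetaBar Kbar M ℓ (x : FF M), h4f_beta_mem A M ℓ hℓ hM hA x.2⟩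
  map_one' := Subtype.ext (map_one (heckeBetaBar Kbar M ℓ))
  map_mul' x y := Subtype.ext (map_mul (heckeBetaBar Kbar M ℓ) (x : FF M) (y : FF M))
  map_zero' := Subtype.ext (map_zero (heckeBetaBar Kbar M ℓ))
  map_add' x y := Subtype.ext (map_add (heckeBetaBar Kbar M ℓ) (x : FF M) (y : FF M))
  commutes' a := Subtype.ext ((heckeBetaBar Kbar M ℓ).commutes (a : Kbar))

@[simp]
theorem h4f_coe_betaChart (hℓ : ℓ.Prime) (hM : ¬ ℓ ∣ M) (hA : A.LiesOverPrime ℓ)
    (x : chart M A (jB M)) :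
    ((h4f_betaChart A M ℓ hℓ hM hA x : chart (M * ℓ) A (jSS M ℓ)) : FF (M * ℓ)) =
      heckeBetaBar Kbar M ℓ (x : FF M) := rfl

/-- the value of a polynomial over `A` at `t`, inside the chart of `t`. -/
def h4f_evChart (N : ℕ) (t : FF N) (p : Polynomial A) : chart N A t :=
  p.eval₂ (algebraMap A (chart N A t)) ⟨t, h85_self_mem_modelAt N A t⟩

theorem h4f_coe_evChart (N : ℕ) (t : FF N) (p : Polynomial A) :
    ((h4f_evChart A N t p : chart N A t) : FF N) = h85ev N A t p := by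
  have h := Polynomial.hom_eval₂ p (algebraMap A (chart N A t))
    ((chart N A t).val : chart N A t →+* FF N) ⟨t, h85_self_mem_modelAt N A t⟩
  have hc : ((chart N A t).val : chart N A t →+* FF N).comp (algebraMap A (chart N A t)) =
      h85cstHom N A := RingHom.ext fun a => rfl
  rw [hc] at h
  exact h

/-- a ring homomorphism `φ : chart_M(t) → chart_{Mℓ}(α t)` which is `α` on the underlying
functions maps the value of `p` at `t` to the value of `p` at `α t`. -/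
theorem h4f_map_evChart (t : FF M)
    (φ : chart M A t →+* chart (M * ℓ) A (heckeAlphaBar Kbar M ℓ t))
    (hφ : ∀ x, ((φ x : chart (M * ℓ) A (heckeAlphaBar Kbar M ℓ t)) : FF (M * ℓ)) =
      heckeAlphaBar Kbar M ℓ (x : FF M)) (p : Polynomial A) :
    ((φ (h4f_evChart A M t p) : chart (M * ℓ) A (heckeAlphaBar Kbar M ℓ t)) : FF (M * ℓ)) =
      h85ev (M * ℓ) A (heckeAlphaBar Kbar M ℓ t) p := by
  rw [hφ, h4f_coe_evChart]
  have h := Polynomial.hom_eval₂ p (h85cstHom M A)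
    ((heckeAlphaBar Kbar M ℓ : FF M →ₐ[Kbar] FF (M * ℓ)) : FF M →+* FF (M * ℓ)) t
  have hc : ((heckeAlphaBar Kbar M ℓ : FF M →ₐ[Kbar] FF (M * ℓ)) : FF M →+* FF (M * ℓ)).comp
      (h85cstHom M A) = h85cstHom (M * ℓ) A :=
    RingHom.ext fun a => (heckeAlphaBar Kbar M ℓ).commutes (a : Kbar)
  rw [hc] at h
  exact h

/-- **abstract form of (b)**: if the chart of `α t` is generated as an `A[α t]`-module by
finitely many elements, then every ring homomorphism `chart_M(t) → chart_{Mℓ}(α t)` which is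
`α` on the underlying functions is finite. -/
theorem h4f_finite_of_fg (t : FF M)
    (hFin : IfaceFinite (M * ℓ) A (heckeAlphaBar Kbar M ℓ t))
    (φ : chart M A t →+* chart (M * ℓ) A (heckeAlphaBar Kbar M ℓ t))
    (hφ : ∀ x, ((φ x : chart (M * ℓ) A (heckeAlphaBar Kbar M ℓ t)) : FF (M * ℓ)) =
      heckeAlphaBar Kbar M ℓ (x : FF M)) : φ.Finite := by
  classical
  obtain ⟨S, hS, hgen⟩ := hFin
  letI : Algebra (chart M A t) (chart (M * ℓ) A (heckeAlphaBar Kbar M ℓ t)) := φ.toAlgebra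
  show Module.Finite (chart M A t) (chart (M * ℓ) A (heckeAlphaBar Kbar M ℓ t))
  let g : {s // s ∈ S} → chart (M * ℓ) A (heckeAlphaBar Kbar M ℓ t) :=
    fun s => ⟨s.1, hS s.1 s.2⟩
  refine ⟨⟨S.attach.image g, ?_⟩⟩
  rw [eq_top_iff]
  rintro ⟨x, hx⟩ -
  obtain ⟨c, hc⟩ := hgen x hx
  have hx' : (⟨x, hx⟩ : chart (M * ℓ) A (heckeAlphaBar Kbar M ℓ t)) =
      ∑ s ∈ S.attach, h4f_evChart A M t (c s.1) • g s := by
    apply Subtype.ext
    rw [AddSubmonoidClass.coe_finsetSum]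
    show x = _
    rw [hc, ← Finset.sum_attach S]
    refine Finset.sum_congr rfl fun s _ => ?_
    show _ = ((φ (h4f_evChart A M t (c s.1)) * g s :
      chart (M * ℓ) A (heckeAlphaBar Kbar M ℓ t)) : FF (M * ℓ))
    rw [MulMemClass.coe_mul, h4f_map_evChart A M ℓ t φ hφ]
  rw [hx']
  refine Submodule.sum_mem _ fun s _ => Submodule.smul_mem _ _ (Submodule.subset_span ?_)
  exact Finset.mem_coe.mpr (Finset.mem_image.mpr ⟨s, Finset.mem_attach _ _, rfl⟩)

/-- **(b), finite chart**: given `IfaceSSFinite`, every ring homomorphism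
`chart_M → chart_{Mℓ}` which is `α` on the underlying functions is finite. -/
theorem h4f_finite_of_ifaceFinite (hFin : IfaceSSFinite A M ℓ)
    (φ : chart M A (jB M) →+* chart (M * ℓ) A (jSS M ℓ))
    (hφ : ∀ x, ((φ x : chart (M * ℓ) A (jSS M ℓ)) : FF (M * ℓ)) =
      heckeAlphaBar Kbar M ℓ (x : FF M)) : φ.Finite :=
  h4f_finite_of_fg A M ℓ (jB M) hFin φ hφ

/-- **(b)** for `h4f_alphaChart` (the hypothesis `hfin` of `h62l_local`). -/
theorem h4f_alphaChart_finite (hFin : IfaceSSFinite A M ℓ) :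
    ((h4f_alphaChart A M ℓ : chart M A (jB M) →ₐ[A] chart (M * ℓ) A (jSS M ℓ)) :
      chart M A (jB M) →+* chart (M * ℓ) A (jSS M ℓ)).Finite :=
  h4f_finite_of_ifaceFinite A M ℓ hFin _ fun _ => rfl

/-- **(b), chart at infinity**. -/
theorem h4f_alphaChartInf_finite (hFin : IfaceFinite (M * ℓ) A (jSS M ℓ)⁻¹) :
    ((h4f_alphaChartInf A M ℓ : chart M A (jB M)⁻¹ →ₐ[A] chart (M * ℓ) A (jSS M ℓ)⁻¹) :
      chart M A (jB M)⁻¹ →+* chart (M * ℓ) A (jSS M ℓ)⁻¹).Finite := by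
  have e : heckeAlphaBar Kbar M ℓ (jB M)⁻¹ = (jSS M ℓ)⁻¹ := map_inv₀ _ _
  have key := h4f_finite_of_fg A M ℓ (jB M)⁻¹
  rw [e] at key
  exact key hFin _ fun _ => rfl

/-- **(b) from base change**: the finite chart of level `M * ℓ` is finite over the finite
chart of level `M` along `α`. -/
theorem h4f_alphaChart_finite_of_bc {p : ℕ} (hp : p.Prime) (hA : A.LiesOverPrime p)
    (hBC : BCAt (M * ℓ) A (jSS M ℓ)) :
    ((h4f_alphaChart A M ℓ : chart M A (jB M) →ₐ[A] chart (M * ℓ) A (jSS M ℓ)) :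
      chart M A (jB M) →+* chart (M * ℓ) A (jSS M ℓ)).Finite :=
  h4f_alphaChart_finite A M ℓ (h4f_ifaceSSFinite_of_bc A M ℓ hp hA hBC)

end Level

end Fermat.Agent.LGC
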