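import Fermat.Agent.LGC.Red63
import Fermat.Agent.LGC.SS85Chart
import Fermat.Agent.Red.GGInst

/-!
# W3-LGC (I2): the two components of the special fibre of a chart of level `M * ℓ` (helper85)

`F = FF (M * ℓ)`, `B = chart (M * ℓ) A t`, `w = kFricke M ℓ` the Fricke involution.

* `h85cCentre B W` : (Mathlib only) the centre on `B` of a valuation ring `W` of `F`,
  `h85c_mem_centre_iff`, `h85c_centre_isPrime`, `h85c_inv_mem_of_notMem`,
  `h85c_map_le_centre`, `h85c_inf_le`.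
* `h85cWinf = softRing A (M * ℓ)` (the Gauss valuation ring at the cusp `∞`),
  `h85cW0 = w⁻¹ (h85cWinf)` (the Gauss valuation ring at the cusp `0`), as valuation subrings;
  `h85c_mem_Winf_iff`, `h85c_mem_W0_iff`, `h85c_mem_W0_nonunits_iff`.
* `h85cPinf t`, `h85cP0 t` : the two components `P_∞ = B ∩ 𝔪(W_∞)`, `P_0 = B ∩ 𝔪(W_0)`;
  `h85c_mem_Pinf_iff`, `h85c_mem_P0_iff`, `h85c_mem_Pinf_iff_softR`, `h85c_mem_P0_iff_softR`.
* the hypotheses of `h62l_local` (LGC/H62TwoComp.lean) on `W_∞, W_0, P_∞, P_0`, verbatim: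
  `h85c_hWV`, `h85c_hBWinf`, `h85c_hBW0`, `h85c_Pinf_isPrime`, `h85c_P0_isPrime`,
  `h85c_hSF` (**REDUCED**: `P_∞ ⊓ P_0 ≤ 𝔪_A B`), `h85c_hmPinf`, `h85c_hmP0`, `h85c_hWinf`,
  `h85c_hW0`, `h85c_hℓA`, `h85c_hℓ0`.

Everything is stated for a chart `t` with `hC : IfaceSSChart A M ℓ t` (only the fields `hBV`
and `hQEP` are used); `h85s_ifaceSSChart_fin/_inf` provide `hC` for `t = jSS M ℓ, (jSS M ℓ)⁻¹`.
-/

set_option autoImplicit false
set_option linter.unusedSectionVars false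
set_option linter.style.haveILetI false

open AlgebraicCurve ModularCurve WithZero IsLocalRing

noncomputable section

namespace Fermat.Agent.LGC

open Fermat.Agent.S37 Fermat.Agent.Red Fermat.Agent.Red.GG Fermat.Agent.Red.GV
  Fermat.Agent.Red.GV.Soft Fermat.Agent.Red.Kron

/-! ### Mathlib-only part -/

section Abstract

variable {A : Type*} [CommRing A] {F : Type*} [Field F] [Algebra A F]
  (B : Subalgebra A F) (W : ValuationSubring F)

/-- the centre on `B` of the valuation ring `W`: the ideal generated by the elements of `B`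
which are non-units of `W` (if `B ⊆ W` this set is already a prime ideal). -/
def h85cCentre : Ideal B := Ideal.span {b : B | (b : F) ∈ W.nonunits}

variable {B W}

/-- the ring homomorphism `B → W` for `B ⊆ W`. -/
def h85cIncl (hBW : ∀ b : B, (b : F) ∈ W) : B →+* W :=
  (B.val : B →+* F).codRestrict W.toSubring (fun b => hBW b)

theorem h85c_coe_incl (hBW : ∀ b : B, (b : F) ∈ W) (b : B) :
    ((h85cIncl hBW b : W) : F) = (b : F) := rfl

theorem h85c_centre_eq_comap (hBW : ∀ b : B, (b : F) ∈ W) :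
    h85cCentre B W = Ideal.comap (h85cIncl hBW) (maximalIdeal W) := by
  apply le_antisymm
  · refine Ideal.span_le.mpr ?_
    intro c hc
    have hc' : ((h85cIncl hBW c : W) : F) ∈ W.nonunits := hc
    exact ValuationSubring.coe_mem_nonunits_iff.mp hc'
  · intro c hc
    refine Ideal.subset_span ?_
    have hc' : (h85cIncl hBW c : W) ∈ maximalIdeal W := hc
    exact ValuationSubring.coe_mem_nonunits_iff.mpr hc'

theorem h85c_mem_centre_iff (hBW : ∀ b : B, (b : F) ∈ W) {b : B} :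
    b ∈ h85cCentre B W ↔ (b : F) ∈ W.nonunits := by
  rw [h85c_centre_eq_comap hBW, Ideal.mem_comap]
  exact (ValuationSubring.coe_mem_nonunits_iff (a := h85cIncl hBW b)).symm

theorem h85c_centre_isPrime (hBW : ∀ b : B, (b : F) ∈ W) : (h85cCentre B W).IsPrime := by
  rw [h85c_centre_eq_comap hBW]
  infer_instance

/-- outside of the centre, the inverse is in the valuation ring. -/
theorem h85c_inv_mem_of_notMem (hBW : ∀ b : B, (b : F) ∈ W) {b : B}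
    (hb : b ∉ h85cCentre B W) : ((b : F))⁻¹ ∈ W := by
  rw [h85c_mem_centre_iff hBW, ValuationSubring.mem_nonunits_iff, not_lt] at hb
  have h1 : W.valuation (b : F) = 1 :=
    le_antisymm ((ValuationSubring.valuation_le_one_iff _ _).mpr (hBW b)) hb
  rw [← ValuationSubring.valuation_le_one_iff, map_inv₀, h1, inv_one]

/-- the converse: if the inverse is in the valuation ring, the element is outside the centre. -/
theorem h85c_notMem_of_inv_mem (hBW : ∀ b : B, (b : F) ∈ W) {b : B} (hb0 : b ≠ 0)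
    (hb : ((b : F))⁻¹ ∈ W) : b ∉ h85cCentre B W := by
  rw [h85c_mem_centre_iff hBW, ValuationSubring.mem_nonunits_iff, not_lt]
  have hb0' : (b : F) ≠ 0 := fun h => hb0 (Subtype.ext h)
  have h1 : W.valuation ((b : F))⁻¹ ≤ 1 := (ValuationSubring.valuation_le_one_iff _ _).mpr hb
  rw [map_inv₀] at h1
  have hpos : 0 < W.valuation (b : F) := zero_lt_iff.mpr ((Valuation.ne_zero_iff _).mpr hb0')
  exact (inv_le_one₀ hpos).mp h1

theorem h85c_one_notMem_centre (hBW : ∀ b : B, (b : F) ∈ W) : (1 : B) ∉ h85cCentre B W :=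
  fun h => (h85c_centre_isPrime hBW).ne_top ((Ideal.eq_top_iff_one _).mpr h)

/-- `𝔪_A B` is contained in the centre if the non-units of `A` are non-units of `W`. -/
theorem h85c_map_le_centre [IsLocalRing A] (hBW : ∀ b : B, (b : F) ∈ W)
    (hm : ∀ m ∈ maximalIdeal A, algebraMap A F m ∈ W.nonunits) :
    (maximalIdeal A).map (algebraMap A B) ≤ h85cCentre B W := by
  rw [Ideal.map_le_iff_le_comap]
  intro m hmA
  rw [Ideal.mem_comap, h85c_mem_centre_iff hBW]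
  exact hm m hmA

/-- **(REDUCED)**, abstract form: if every common non-unit of `W₁` and `W₂` is `π z` with
`π ∈ 𝔪_A` and `z ∈ V`, and `B` has the QEP property for `V`, then
`centre W₁ ⊓ centre W₂ ≤ 𝔪_A B`. -/
theorem h85c_inf_le [IsLocalRing A] {W₁ W₂ : ValuationSubring F}
    (hBW₁ : ∀ b : B, (b : F) ∈ W₁) (hBW₂ : ∀ b : B, (b : F) ∈ W₂) (V : Subring F)
    (hQEP : ∀ a : A, algebraMap A F a ≠ 0 → ∀ x ∈ V, a • x ∈ B → x ∈ B)
    (hscale : ∀ y : F, y ∈ W₁.nonunits → y ∈ W₂.nonunits →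
      ∃ π : A, π ∈ maximalIdeal A ∧ algebraMap A F π ≠ 0 ∧ ∃ z ∈ V, y = algebraMap A F π * z) :
    h85cCentre B W₁ ⊓ h85cCentre B W₂ ≤ (maximalIdeal A).map (algebraMap A B) := by
  rintro b ⟨hb1, hb2⟩
  have hb1' := (h85c_mem_centre_iff hBW₁).mp hb1
  have hb2' := (h85c_mem_centre_iff hBW₂).mp hb2
  obtain ⟨π, hπ, hπ0, z, hz, hbz⟩ := hscale (b : F) hb1' hb2'
  have hzB : z ∈ B := by
    refine hQEP π hπ0 z hz ?_
    rw [Algebra.smul_def, ← hbz]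
    exact b.2
  have e : b = algebraMap A B π * ⟨z, hzB⟩ := by
    apply Subtype.ext
    rw [hbz]
    rfl
  rw [e]
  exact Ideal.mul_mem_right _ _ (Ideal.mem_map_of_mem _ hπ)

/-- non-units of a valuation ring, through the inverse. -/
theorem h85c_mem_nonunits_iff_inv {x : F} (hx : x ≠ 0) : x ∈ W.nonunits ↔ x⁻¹ ∉ W := by
  have h0 : W.valuation x ≠ 0 := (W.valuation.ne_zero_iff).mpr hx
  rw [W.mem_nonunits_iff, ← W.valuation_le_one_iff, map_inv₀, not_le,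
    one_lt_inv₀ (zero_lt_iff.mpr h0)]

/-- the non-units of the pull-back of a valuation ring along a field homomorphism. -/
theorem h85c_mem_nonunits_comap {F' : Type*} [Field F'] (W' : ValuationSubring F')
    (f : F →+* F') (x : F) : x ∈ (W'.comap f).nonunits ↔ f x ∈ W'.nonunits := by
  rcases eq_or_ne x 0 with rfl | hx
  · rw [map_zero]
    constructor
    · intro _
      rw [ValuationSubring.mem_nonunits_iff, map_zero]
      exact zero_lt_one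
    · intro _
      rw [ValuationSubring.mem_nonunits_iff, map_zero]
      exact zero_lt_one
  · have hfx : f x ≠ 0 := (map_ne_zero f).mpr hx
    rw [h85c_mem_nonunits_iff_inv hx, h85c_mem_nonunits_iff_inv hfx, ValuationSubring.mem_comap,
      map_inv₀]

end Abstract

/-! ### The two Gauss valuation rings of level `M * ℓ` -/

section Level

variable (A : ValuationSubring Kbar) (M ℓ : ℕ) [NeZero M] [NeZero ℓ]
  (hℓ : ℓ.Prime) (hM : ¬ ℓ ∣ M) (hA : A.LiesOverPrime ℓ)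

/-- `W_∞`: the Gauss valuation ring of level `M * ℓ` at the cusp `∞`. -/
def h85cWinf : ValuationSubring (FF (M * ℓ)) := softRing A (M * ℓ) hℓ hA

/-- `W_0 = w⁻¹ (W_∞)`: the Gauss valuation ring of level `M * ℓ` at the cusp `0`. -/
def h85cW0 : ValuationSubring (FF (M * ℓ)) :=
  (softRing A (M * ℓ) hℓ hA).comap (kFricke M ℓ hℓ hM : FF (M * ℓ) →+* FF (M * ℓ))

theorem h85c_Winf_toSubring : (h85cWinf A M ℓ hℓ hA).toSubring = softV A (M * ℓ) := rfl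

theorem h85c_W0_toSubring :
    (h85cW0 A M ℓ hℓ hM hA).toSubring =
      (softV A (M * ℓ)).comap (kFricke M ℓ hℓ hM : FF (M * ℓ) →+* FF (M * ℓ)) := rfl

theorem h85c_mem_Winf_iff (x : FF (M * ℓ)) :
    x ∈ h85cWinf A M ℓ hℓ hA ↔ x ∈ softV A (M * ℓ) := Iff.rfl

theorem h85c_mem_W0_iff (x : FF (M * ℓ)) :
    x ∈ h85cW0 A M ℓ hℓ hM hA ↔ kFricke M ℓ hℓ hM x ∈ softV A (M * ℓ) := Iff.rfl

theorem h85c_mem_Winf_nonunits_iff (x : FF (M * ℓ)) :
    x ∈ (h85cWinf A M ℓ hℓ hA).nonunits ↔ x ∈ (softRing A (M * ℓ) hℓ hA).nonunits := Iff.rfl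

theorem h85c_mem_W0_nonunits_iff (x : FF (M * ℓ)) :
    x ∈ (h85cW0 A M ℓ hℓ hM hA).nonunits ↔
      kFricke M ℓ hℓ hM x ∈ (softRing A (M * ℓ) hℓ hA).nonunits :=
  h85c_mem_nonunits_comap (softRing A (M * ℓ) hℓ hA)
    (kFricke M ℓ hℓ hM : FF (M * ℓ) →+* FF (M * ℓ)) x

/-- the Fricke involution exchanges `W_∞` and `W_0`. -/
theorem h85c_kFricke_mem_W0_iff (x : FF (M * ℓ)) :
    kFricke M ℓ hℓ hM x ∈ h85cW0 A M ℓ hℓ hM hA ↔ x ∈ h85cWinf A M ℓ hℓ hA := by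
  rw [h85c_mem_W0_iff, kFricke_kFricke]
  rfl

theorem h85c_kFricke_mem_Winf_iff (x : FF (M * ℓ)) :
    kFricke M ℓ hℓ hM x ∈ h85cWinf A M ℓ hℓ hA ↔ x ∈ h85cW0 A M ℓ hℓ hM hA := Iff.rfl

/-- **hWV**: `W_∞ ∩ W_0 ⊆ ssV`. -/
theorem h85c_hWV : ∀ x : FF (M * ℓ), x ∈ (h85cWinf A M ℓ hℓ hA).toSubring →
    x ∈ (h85cW0 A M ℓ hℓ hM hA).toSubring → x ∈ ssV A M ℓ :=
  fun _ hx hwx => h63r_mem_ssV_of_soft hℓ hM hA hx hwx

theorem h85c_ssV_le_Winf {x : FF (M * ℓ)} (hx : x ∈ ssV A M ℓ) : x ∈ h85cWinf A M ℓ hℓ hA :=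
  h63r_ssV_le_soft hℓ hA hx

theorem h85c_ssV_le_W0 {x : FF (M * ℓ)} (hx : x ∈ ssV A M ℓ) : x ∈ h85cW0 A M ℓ hℓ hM hA :=
  h63r_w_ssV_le_soft hℓ hM hA hx

/-- the non-units of `A` are non-units of `W_∞`. -/
theorem h85c_cst_mem_Winf_nonunits {c : Kbar} (hc : c ∈ A.nonunits) :
    cst (M * ℓ) c ∈ (h85cWinf A M ℓ hℓ hA).nonunits := by
  have hcA : c ∈ A := A.nonunits_le hc
  have h : cst (M * ℓ) c ∈ softV A (M * ℓ) := (cst_mem_softV_iff A (M * ℓ) c).mpr hcA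
  have h0 := softR_cst_of_nonunit A (M * ℓ) c hc h
  exact (softR_eq_zero_iff_mem_nonunits A (M * ℓ) hℓ hA ⟨_, h⟩).mp h0

/-- the non-units of `A` are non-units of `W_0`. -/
theorem h85c_cst_mem_W0_nonunits {c : Kbar} (hc : c ∈ A.nonunits) :
    cst (M * ℓ) c ∈ (h85cW0 A M ℓ hℓ hM hA).nonunits := by
  rw [h85c_mem_W0_nonunits_iff]
  have e : kFricke M ℓ hℓ hM (cst (M * ℓ) c) = cst (M * ℓ) c := kFricke_cst M ℓ hℓ hM c
  rw [e]
  exact h85c_cst_mem_Winf_nonunits A M ℓ hℓ hA hc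

/-- **(REDUCED)**, elementwise: a common non-unit of `W_∞` and `W_0` is `π z` with `π ∈ 𝔪_A`
nonzero and `z ∈ ssV`. -/
theorem h85c_scale (y : FF (M * ℓ)) (hy : y ∈ (h85cWinf A M ℓ hℓ hA).nonunits)
    (hwy : y ∈ (h85cW0 A M ℓ hℓ hM hA).nonunits) :
    ∃ π : A, π ∈ maximalIdeal A ∧ algebraMap A (FF (M * ℓ)) π ≠ 0 ∧ ∃ z ∈ ssV A M ℓ,
      y = algebraMap A (FF (M * ℓ)) π * z := by
  rw [h85c_mem_W0_nonunits_iff] at hwy
  obtain ⟨π, hπ, hπ0, z, hz, hyz⟩ := h63r_scale hℓ hM hA hy hwy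
  refine ⟨π, hπ, ?_, z, hz, hyz⟩
  intro h0
  apply hπ0
  have h1 : cst (M * ℓ) (π : Kbar) = 0 := h0
  have h2 : (π : Kbar) = 0 :=
    (algebraMap Kbar (FF (M * ℓ))).injective (h1.trans (map_zero _).symm)
  exact Subtype.ext h2

/-! ### The two components -/

variable (t : FF (M * ℓ))

/-- `P_∞ = B ∩ 𝔪(W_∞)`: the component of the special fibre of the chart through the cusp
`∞`. -/
def h85cPinf : Ideal (chart (M * ℓ) A t) :=
  h85cCentre (chart (M * ℓ) A t) (h85cWinf A M ℓ hℓ hA)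

/-- `P_0 = B ∩ 𝔪(W_0)`: the component of the special fibre of the chart through the cusp
`0`. -/
def h85cP0 : Ideal (chart (M * ℓ) A t) :=
  h85cCentre (chart (M * ℓ) A t) (h85cW0 A M ℓ hℓ hM hA)

variable {t}

/-- **hBWinf**. -/
theorem h85c_hBWinf (hC : IfaceSSChart A M ℓ t) :
    ∀ b : chart (M * ℓ) A t, (b : FF (M * ℓ)) ∈ (h85cWinf A M ℓ hℓ hA).toSubring :=
  fun b => h63r_ssV_le_soft hℓ hA (hC.hBV b b.2)

/-- **hBW0**. -/
theorem h85c_hBW0 (hC : IfaceSSChart A M ℓ t) :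
    ∀ b : chart (M * ℓ) A t, (b : FF (M * ℓ)) ∈ (h85cW0 A M ℓ hℓ hM hA).toSubring :=
  fun b => h63r_w_ssV_le_soft hℓ hM hA (hC.hBV b b.2)

theorem h85c_mem_Pinf_iff (hC : IfaceSSChart A M ℓ t) {b : chart (M * ℓ) A t} :
    b ∈ h85cPinf A M ℓ hℓ hA t ↔
      (b : FF (M * ℓ)) ∈ (softRing A (M * ℓ) hℓ hA).nonunits :=
  h85c_mem_centre_iff (W := h85cWinf A M ℓ hℓ hA) (h85c_hBWinf A M ℓ hℓ hA hC)

theorem h85c_mem_P0_iff (hC : IfaceSSChart A M ℓ t) {b : chart (M * ℓ) A t} :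
    b ∈ h85cP0 A M ℓ hℓ hM hA t ↔
      kFricke M ℓ hℓ hM (b : FF (M * ℓ)) ∈ (softRing A (M * ℓ) hℓ hA).nonunits :=
  (h85c_mem_centre_iff (W := h85cW0 A M ℓ hℓ hM hA) (h85c_hBW0 A M ℓ hℓ hM hA hC)).trans
    (h85c_mem_W0_nonunits_iff A M ℓ hℓ hM hA _)

/-- `P_∞` is the kernel of the reduction `softR` on the chart. -/
theorem h85c_mem_Pinf_iff_softR (hC : IfaceSSChart A M ℓ t) (b : chart (M * ℓ) A t)
    (hb : (b : FF (M * ℓ)) ∈ softV A (M * ℓ)) :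
    b ∈ h85cPinf A M ℓ hℓ hA t ↔ softR A (M * ℓ) ⟨(b : FF (M * ℓ)), hb⟩ = 0 := by
  rw [h85c_mem_Pinf_iff A M ℓ hℓ hA hC, softR_eq_zero_iff_mem_nonunits A (M * ℓ) hℓ hA]

/-- `P_0` is the kernel of the reduction `softR ∘ w` on the chart. -/
theorem h85c_mem_P0_iff_softR (hC : IfaceSSChart A M ℓ t) (b : chart (M * ℓ) A t)
    (hb : kFricke M ℓ hℓ hM (b : FF (M * ℓ)) ∈ softV A (M * ℓ)) :
    b ∈ h85cP0 A M ℓ hℓ hM hA t ↔
      softR A (M * ℓ) ⟨kFricke M ℓ hℓ hM (b : FF (M * ℓ)), hb⟩ = 0 := by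
  rw [h85c_mem_P0_iff A M ℓ hℓ hM hA hC, softR_eq_zero_iff_mem_nonunits A (M * ℓ) hℓ hA]

theorem h85c_Pinf_isPrime (hC : IfaceSSChart A M ℓ t) : (h85cPinf A M ℓ hℓ hA t).IsPrime :=
  h85c_centre_isPrime (W := h85cWinf A M ℓ hℓ hA) (h85c_hBWinf A M ℓ hℓ hA hC)

theorem h85c_P0_isPrime (hC : IfaceSSChart A M ℓ t) : (h85cP0 A M ℓ hℓ hM hA t).IsPrime :=
  h85c_centre_isPrime (W := h85cW0 A M ℓ hℓ hM hA) (h85c_hBW0 A M ℓ hℓ hM hA hC)

/-- **hmPinf**: `𝔪_A B ≤ P_∞`. -/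
theorem h85c_hmPinf (hC : IfaceSSChart A M ℓ t) :
    (maximalIdeal A).map (algebraMap A (chart (M * ℓ) A t)) ≤ h85cPinf A M ℓ hℓ hA t :=
  h85c_map_le_centre (W := h85cWinf A M ℓ hℓ hA) (h85c_hBWinf A M ℓ hℓ hA hC)
    (fun m hm => h85c_cst_mem_Winf_nonunits A M ℓ hℓ hA
      ((GG.mem_maximalIdeal_iff A m).mp hm))

/-- **hmP0**: `𝔪_A B ≤ P_0`. -/
theorem h85c_hmP0 (hC : IfaceSSChart A M ℓ t) :
    (maximalIdeal A).map (algebraMap A (chart (M * ℓ) A t)) ≤ h85cP0 A M ℓ hℓ hM hA t :=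
  h85c_map_le_centre (W := h85cW0 A M ℓ hℓ hM hA) (h85c_hBW0 A M ℓ hℓ hM hA hC)
    (fun m hm => h85c_cst_mem_W0_nonunits A M ℓ hℓ hM hA
      ((GG.mem_maximalIdeal_iff A m).mp hm))

/-- **hWinf**: outside `P_∞` the inverse is in `W_∞`. -/
theorem h85c_hWinf (hC : IfaceSSChart A M ℓ t) :
    ∀ b : chart (M * ℓ) A t, b ∉ h85cPinf A M ℓ hℓ hA t →
      ((b : FF (M * ℓ)))⁻¹ ∈ (h85cWinf A M ℓ hℓ hA).toSubring :=
  fun _ hb => h85c_inv_mem_of_notMem (W := h85cWinf A M ℓ hℓ hA)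
    (h85c_hBWinf A M ℓ hℓ hA hC) hb

/-- **hW0**: outside `P_0` the inverse is in `W_0`. -/
theorem h85c_hW0 (hC : IfaceSSChart A M ℓ t) :
    ∀ b : chart (M * ℓ) A t, b ∉ h85cP0 A M ℓ hℓ hM hA t →
      ((b : FF (M * ℓ)))⁻¹ ∈ (h85cW0 A M ℓ hℓ hM hA).toSubring :=
  fun _ hb => h85c_inv_mem_of_notMem (W := h85cW0 A M ℓ hℓ hM hA)
    (h85c_hBW0 A M ℓ hℓ hM hA hC) hb

/-- **hSF (REDUCED)**: `P_∞ ⊓ P_0 ≤ 𝔪_A B`: the special fibre of the chart is reduced with the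
two components `P_∞`, `P_0`. -/
theorem h85c_hSF (hC : IfaceSSChart A M ℓ t) :
    h85cPinf A M ℓ hℓ hA t ⊓ h85cP0 A M ℓ hℓ hM hA t ≤
      (maximalIdeal A).map (algebraMap A (chart (M * ℓ) A t)) :=
  h85c_inf_le (W₁ := h85cWinf A M ℓ hℓ hA) (W₂ := h85cW0 A M ℓ hℓ hM hA)
    (h85c_hBWinf A M ℓ hℓ hA hC) (h85c_hBW0 A M ℓ hℓ hM hA hC) (ssV A M ℓ) hC.hQEP
    (h85c_scale A M ℓ hℓ hM hA)

/-- the special fibre is exactly `P_∞ ∩ P_0`. -/
theorem h85c_inf_eq (hC : IfaceSSChart A M ℓ t) :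
    h85cPinf A M ℓ hℓ hA t ⊓ h85cP0 A M ℓ hℓ hM hA t =
      (maximalIdeal A).map (algebraMap A (chart (M * ℓ) A t)) :=
  le_antisymm (h85c_hSF A M ℓ hℓ hM hA hC)
    (le_inf (h85c_hmPinf A M ℓ hℓ hA hC) (h85c_hmP0 A M ℓ hℓ hM hA hC))

include hA in
/-- **hℓA**: `ℓ ∈ 𝔪_A`. -/
theorem h85c_hℓA : ((ℓ : ℕ) : A) ∈ maximalIdeal A := by
  rw [GG.mem_maximalIdeal_iff]
  have h : ((ℓ : ℕ) : Kbar) ∈ A.nonunits := hA
  exact_mod_cast h

include hℓ in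
/-- **hℓ0**: `ℓ ≠ 0` in the chart. -/
theorem h85c_hℓ0 : ((ℓ : ℕ) : chart (M * ℓ) A t) ≠ 0 := by
  intro h0
  have h1 : (((ℓ : ℕ) : chart (M * ℓ) A t) : FF (M * ℓ)) = 0 := by rw [h0]; rfl
  have h2 : ((ℓ : ℕ) : FF (M * ℓ)) = 0 := by
    rw [← h1]
    norm_cast
  exact hℓ.ne_zero (by exact_mod_cast h2)

end Level

end Fermat.Agent.LGC
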