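import Fermat.Agent.LGC.H20CompInfFinal
import Fermat.Agent.LGC.H4Fin
import Fermat.Agent.LGC.SS85Comp

/-!
# W3-LGC, leaf I7-INF (helper20): chart form of `chart_N(1/j) = α(chart_M(1/j)) + P_∞`

The hypothesis `hsurj` of `h62l_smooth` / `hsurjinf` of `h62l_local` for the charts at infinity:
`Λ = chart M A (jB M)⁻¹`, `B = chart (M ℓ) A (jSS M ℓ)⁻¹`, `α = h4f_alphaChartInf` (helper4),
`P_∞ = h85cPinf` (helper85), or any ideal containing the elements of `B` with vanishing reduction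
at `∞`.
-/

set_option autoImplicit false
set_option maxHeartbeats 400000
set_option linter.unusedSectionVars false
set_option synthInstance.maxHeartbeats 400000

open AlgebraicCurve ModularCurve IsLocalRing

noncomputable section

namespace Fermat.Agent.LGC

open Fermat.Agent.S37 Fermat.Agent.Red Fermat.Agent.Red.GG Fermat.Agent.Red.GV
  Fermat.Agent.Red.GV.Soft

variable (A : ValuationSubring Kbar) (M ℓ : ℕ) [NeZero M] [NeZero ℓ]

/-- **`hsurjinf` for the charts at infinity**, for any ideal `P∞` containing the kernel of the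
reduction at `∞`. -/
theorem h20ci_hsurjinf_chartInf (hℓ : ℓ.Prime) (hM : ¬ ℓ ∣ M) (haux : auxLevel ℓ ∣ M)
    (hA : A.LiesOverPrime ℓ) (Pinf : Ideal (chart (M * ℓ) A (jSS M ℓ)⁻¹))
    (hPinf : ∀ b : chart (M * ℓ) A (jSS M ℓ)⁻¹,
      (∃ h : (b : FF (M * ℓ)) ∈ softV A (M * ℓ),
        softR A (M * ℓ) ⟨(b : FF (M * ℓ)), h⟩ = 0) → b ∈ Pinf) :
    ∀ b : chart (M * ℓ) A (jSS M ℓ)⁻¹, ∃ x : chart M A (jB M)⁻¹,
      b - h4f_alphaChartInf A M ℓ x ∈ Pinf := by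
  intro b
  obtain ⟨x, hxΛ, -, h, hx⟩ := h20ci_hsurj_inf A M ℓ hℓ hM haux hA (b : FF (M * ℓ)) b.2
  exact ⟨⟨x, hxΛ⟩, hPinf _ ⟨h, hx⟩⟩

/-- **`hsurjinf` for the charts at infinity**, `P∞ = h85cPinf`. -/
theorem h20ci_hsurjinf_Pinf (hℓ : ℓ.Prime) (hM : ¬ ℓ ∣ M) (haux : auxLevel ℓ ∣ M)
    (hA : A.LiesOverPrime ℓ) (hC : IfaceSSChart A M ℓ (jSS M ℓ)⁻¹) :
    ∀ b : chart (M * ℓ) A (jSS M ℓ)⁻¹, ∃ x : chart M A (jB M)⁻¹,
      b - h4f_alphaChartInf A M ℓ x ∈ h85cPinf A M ℓ hℓ hA (jSS M ℓ)⁻¹ :=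
  h20ci_hsurjinf_chartInf A M ℓ hℓ hM haux hA _ (fun b ⟨h, hb⟩ =>
    (h85c_mem_Pinf_iff_softR A M ℓ hℓ hA hC b h).mpr hb)

end Fermat.Agent.LGC
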