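import Fermat.Agent.LGC.H20CompInf
import Fermat.Agent.Red.SM.Final

/-!
# W3-LGC, leaf I7-INF (helper20): `chart_N = α(chart_M) + P_∞`, unconditional forms

`h20ci_hsurj_fin`, `h20ci_hsurj_inf` : for `t₀ = j`, `1/j`, every `b` in the chart
`modelAt (Mℓ) A (α t₀)` is congruent modulo the kernel of the reduction at `∞` to `α x` with `x`
in the chart `modelAt M A t₀` (see `LGC/H20CompInf.lean`; smoothness = `h13_ifaceSmooth`).
-/

set_option autoImplicit false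
set_option maxHeartbeats 400000
set_option linter.unusedSectionVars false
set_option synthInstance.maxHeartbeats 400000

open AlgebraicCurve ModularCurve IsLocalRing

noncomputable section

namespace Fermat.Agent.LGC

open Fermat.Agent.S37 Fermat.Agent.Red Fermat.Agent.Red.GG Fermat.Agent.Red.GV
  Fermat.Agent.Red.GV.Soft

variable (A : ValuationSubring Kbar) (M ℓ : ℕ) [NeZero M] [NeZero ℓ]

/-- **(I7, `α`-half) finite chart**: `chart_N(j) = α(chart_M(j)) + P_∞`. -/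
theorem h20ci_hsurj_fin (hℓ : ℓ.Prime) (hM : ¬ ℓ ∣ M) (haux : auxLevel ℓ ∣ M)
    (hA : A.LiesOverPrime ℓ) (b : FF (M * ℓ)) (hb : b ∈ modelAt (M * ℓ) A (jSS M ℓ)) :
    ∃ x ∈ modelAt M A (jB M),
      heckeAlphaBar Kbar M ℓ x ∈ modelAt (M * ℓ) A (jSS M ℓ) ∧
      ∃ h : b - heckeAlphaBar Kbar M ℓ x ∈ softV A (M * ℓ),
        softR A (M * ℓ) ⟨_, h⟩ = 0 :=
  h20ci_hsurj_fin_of A M ℓ Fermat.Agent.Red.SM.h13_ifaceSmooth hℓ hM haux hA b hb

/-- **(I7-INF) chart at infinity**: `chart_N(1/j) = α(chart_M(1/j)) + P_∞`. -/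
theorem h20ci_hsurj_inf (hℓ : ℓ.Prime) (hM : ¬ ℓ ∣ M) (haux : auxLevel ℓ ∣ M)
    (hA : A.LiesOverPrime ℓ) (b : FF (M * ℓ)) (hb : b ∈ modelAt (M * ℓ) A (jSS M ℓ)⁻¹) :
    ∃ x ∈ modelAt M A (jB M)⁻¹,
      heckeAlphaBar Kbar M ℓ x ∈ modelAt (M * ℓ) A (jSS M ℓ)⁻¹ ∧
      ∃ h : b - heckeAlphaBar Kbar M ℓ x ∈ softV A (M * ℓ),
        softR A (M * ℓ) ⟨_, h⟩ = 0 :=
  h20ci_hsurj_inf_of A M ℓ Fermat.Agent.Red.SM.h13_ifaceSmooth hℓ hM haux hA b hb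

end Fermat.Agent.LGC
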