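import Fermat.Agent.LGC.Skeleton
import Fermat.Agent.Red.GV.SoftGal
import Fermat.Agent.Red.Kron.Fricke
import Fermat.Agent.Red.BC.Main

/-!
# W3-LGC, row R3 (helper31): the components pull back to the special fibre of level `M`

`ℓ ∤ M` a prime, `A` a valuation subring of `ℚ̄` over `ℓ`, `α = heckeAlphaBar Kbar M ℓ`,
`β = heckeBetaBar Kbar M ℓ`, `w = kFricke M ℓ`, `W_∞ = Soft.softV A (M * ℓ)`.

Elementwise statements (no ideals): for `x` in the chart of level `M`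
(`modelFin M A` or `modelInf M A`)

* `h31c_ker_fin / _inf` : `softR x = 0 → x ∈ 𝔪_A · chart` (in the form `x = cst c * x'`,
  `c ∈ 𝔪_A`, `x'` in the chart);
* `h31c_alpha_fin / _inf` (`hαPinf`) : `softR (α x) = 0 → x ∈ 𝔪_A · chart`;
* `h31c_beta_fin / _inf` : `softR (β x) = 0 → x ∈ 𝔪_A · chart`;
* `h31c_w_alpha_fin / _inf` (`hαP0`) : `softR (w (α x)) = 0 → x ∈ 𝔪_A · chart`;
* `h31c_w_beta_fin / _inf` (`hβP0`) : `softR (w (β x)) = 0 → x ∈ 𝔪_A · chart`;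
* the same with the hypothesis in the form `y = 0 ∨ y⁻¹ ∉ W_∞` (`…_of_nonunit`);
* `h31c_mem_mExt` : the conclusion as membership in the ideal `𝔪_A · chart` of `GG.chart`;
* `h31c_ratSub`, `h31c_span_rat_fin / _inf` (`hRspan`) : the chart of level `M` is the `A`-span
  of its elements with rational `q`-expansion.
-/

set_option autoImplicit false
set_option linter.unusedSectionVars false

open AlgebraicCurve ModularCurve IsLocalRing

noncomputable section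

namespace Fermat.Agent.LGC

open Fermat.Agent.S37 Fermat.Agent.Red Fermat.Agent.Red.GG Fermat.Agent.Red.GV
  Fermat.Agent.Red.GV.Soft Fermat.Agent.Red.Kron

section Ker

variable (A : ValuationSubring Kbar) (M : ℕ) [NeZero M] {ℓ : ℕ}

/-- the conclusion `x ∈ 𝔪_A · R`, elementwise. -/
def h31c_InMax (R : Subring (FF M)) (x : FF M) : Prop :=
  ∃ (c : Kbar) (x' : FF M), c ≠ 0 ∧ c ∈ A.nonunits ∧ x' ∈ R ∧ x = cst M c * x'

/-- kernel of the reduction on the finite chart of level `M` (soft form). -/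
theorem h31c_ker_fin (hℓ : ℓ.Prime) (hM : ¬ ℓ ∣ M) (hA : A.LiesOverPrime ℓ) (x : FF M)
    (hx : x ∈ modelFin M A) (hs : x ∈ softV A M) (h0 : softR A M ⟨x, hs⟩ = 0) :
    h31c_InMax A M (modelFin M A) x := by
  have hg : x ∈ gaussV A M := modelFin_le_gaussV A M hℓ hM hA hx
  have h1 : gaussR A M ⟨x, hg⟩ = 0 := by rw [← softR_eq_gaussR A M x hs hg]; exact h0
  exact exists_eq_cst_mul_of_gaussR_eq_zero_fin A M hℓ hM hA ⟨x, hg⟩ hx h1

/-- kernel of the reduction on the chart at infinity of level `M` (soft form). -/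
theorem h31c_ker_inf (hℓ : ℓ.Prime) (hM : ¬ ℓ ∣ M) (hA : A.LiesOverPrime ℓ) (x : FF M)
    (hx : x ∈ modelInf M A) (hs : x ∈ softV A M) (h0 : softR A M ⟨x, hs⟩ = 0) :
    h31c_InMax A M (modelInf M A) x := by
  have hg : x ∈ gaussV A M := modelInf_le_gaussV A M hℓ hM hA hx
  have h1 : gaussR A M ⟨x, hg⟩ = 0 := by rw [← softR_eq_gaussR A M x hs hg]; exact h0
  exact exists_eq_cst_mul_of_gaussR_eq_zero_inf A M hℓ hM hA ⟨x, hg⟩ hx h1

theorem h31c_fin_mem_softV (hℓ : ℓ.Prime) (hM : ¬ ℓ ∣ M) (hA : A.LiesOverPrime ℓ) {x : FF M}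
    (hx : x ∈ modelFin M A) : x ∈ softV A M :=
  gaussV_le_softV A M (modelFin_le_gaussV A M hℓ hM hA hx)

theorem h31c_inf_mem_softV (hℓ : ℓ.Prime) (hM : ¬ ℓ ∣ M) (hA : A.LiesOverPrime ℓ) {x : FF M}
    (hx : x ∈ modelInf M A) : x ∈ softV A M :=
  gaussV_le_softV A M (modelInf_le_gaussV A M hℓ hM hA hx)

/-- `𝔪_A · chart`, as an ideal of `GG.chart`. -/
theorem h31c_mem_mExt (t : FF M) {x : FF M} (hx : x ∈ modelAt M A t)
    (h : h31c_InMax A M (modelAt M A t) x) :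
    (⟨x, hx⟩ : chart M A t) ∈ (maximalIdeal A).map (algebraMap A (chart M A t)) := by
  obtain ⟨c, x', -, hc, hx', hxx'⟩ := h
  have hcA : c ∈ A := ValuationSubring.nonunits_subset hc
  have h1 : (⟨x, hx⟩ : chart M A t) = algebraMap A (chart M A t) ⟨c, hcA⟩ * ⟨x', hx'⟩ :=
    Subtype.ext hxx'
  rw [h1]
  refine Ideal.mul_mem_right _ _ (Ideal.mem_map_of_mem _ ?_)
  exact (ValuationSubring.coe_mem_nonunits_iff (A := A) (a := ⟨c, hcA⟩)).1 hc

end Ker

section Level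

variable (A : ValuationSubring Kbar) (M ℓ : ℕ) [NeZero M] [NeZero ℓ]

/-- the reduction of `α x` is the reduction of `x`. -/
theorem h31c_softR_alpha_eq_zero {x : FF M} (hs : x ∈ softV A M)
    (h : heckeAlphaBar Kbar M ℓ x ∈ softV A (M * ℓ))
    (h0 : softR A (M * ℓ) ⟨heckeAlphaBar Kbar M ℓ x, h⟩ = 0) : softR A M ⟨x, hs⟩ = 0 := by
  rw [← softR_alpha A ℓ ⟨x, hs⟩ h]
  exact h0

/-- the reduction of `β x` is the reduction of `x` with `q ↦ q ^ ℓ`. -/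
theorem h31c_softR_beta_eq_zero {x : FF M} (hs : x ∈ softV A M)
    (h : heckeBetaBar Kbar M ℓ x ∈ softV A (M * ℓ))
    (h0 : softR A (M * ℓ) ⟨heckeBetaBar Kbar M ℓ x, h⟩ = 0) : softR A M ⟨x, hs⟩ = 0 := by
  have h1 := softR_beta A ℓ ⟨x, hs⟩ h
  rw [h0] at h1
  apply qExpand_injective (R := IsLocalRing.ResidueField A) (N := ℓ)
  rw [← h1, map_zero]

variable {A M ℓ}
variable (hℓ : ℓ.Prime) (hM : ¬ ℓ ∣ M) (hA : A.LiesOverPrime ℓ)
include hℓ hM hA

/-- **`hαPinf`**, finite chart: `softR (α x) = 0 → x ∈ 𝔪_A · modelFin`. -/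
theorem h31c_alpha_fin (x : FF M) (hx : x ∈ modelFin M A)
    (h : heckeAlphaBar Kbar M ℓ x ∈ softV A (M * ℓ))
    (h0 : softR A (M * ℓ) ⟨heckeAlphaBar Kbar M ℓ x, h⟩ = 0) :
    h31c_InMax A M (modelFin M A) x :=
  h31c_ker_fin A M hℓ hM hA x hx (h31c_fin_mem_softV A M hℓ hM hA hx)
    (h31c_softR_alpha_eq_zero A M ℓ _ h h0)

/-- `softR (β x) = 0 → x ∈ 𝔪_A · modelFin`. -/
theorem h31c_beta_fin (x : FF M) (hx : x ∈ modelFin M A)
    (h : heckeBetaBar Kbar M ℓ x ∈ softV A (M * ℓ))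
    (h0 : softR A (M * ℓ) ⟨heckeBetaBar Kbar M ℓ x, h⟩ = 0) :
    h31c_InMax A M (modelFin M A) x :=
  h31c_ker_fin A M hℓ hM hA x hx (h31c_fin_mem_softV A M hℓ hM hA hx)
    (h31c_softR_beta_eq_zero A M ℓ _ h h0)

/-- **`hαP0`**, finite chart: `softR (w (α x)) = 0 → x ∈ 𝔪_A · modelFin`. -/
theorem h31c_w_alpha_fin (x : FF M) (hx : x ∈ modelFin M A)
    (h : kFricke M ℓ hℓ hM (heckeAlphaBar Kbar M ℓ x) ∈ softV A (M * ℓ))
    (h0 : softR A (M * ℓ) ⟨kFricke M ℓ hℓ hM (heckeAlphaBar Kbar M ℓ x), h⟩ = 0) :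
    h31c_InMax A M (modelFin M A) x := by
  have e := kFricke_alpha M ℓ hℓ hM x
  have h' : heckeBetaBar Kbar M ℓ x ∈ softV A (M * ℓ) := by rw [← e]; exact h
  have h0' : softR A (M * ℓ) ⟨heckeBetaBar Kbar M ℓ x, h'⟩ = 0 := by
    rw [← h0]
    congr 1
    exact Subtype.ext e.symm
  exact h31c_beta_fin hℓ hM hA x hx h' h0'

/-- **`hβP0`**, finite chart: `softR (w (β x)) = 0 → x ∈ 𝔪_A · modelFin`. -/
theorem h31c_w_beta_fin (x : FF M) (hx : x ∈ modelFin M A)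
    (h : kFricke M ℓ hℓ hM (heckeBetaBar Kbar M ℓ x) ∈ softV A (M * ℓ))
    (h0 : softR A (M * ℓ) ⟨kFricke M ℓ hℓ hM (heckeBetaBar Kbar M ℓ x), h⟩ = 0) :
    h31c_InMax A M (modelFin M A) x := by
  have e := kFricke_beta M ℓ hℓ hM x
  have h' : heckeAlphaBar Kbar M ℓ x ∈ softV A (M * ℓ) := by rw [← e]; exact h
  have h0' : softR A (M * ℓ) ⟨heckeAlphaBar Kbar M ℓ x, h'⟩ = 0 := by
    rw [← h0]
    congr 1
    exact Subtype.ext e.symm
  exact h31c_alpha_fin hℓ hM hA x hx h' h0'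

/-- `hαPinf`, chart at infinity. -/
theorem h31c_alpha_inf (x : FF M) (hx : x ∈ modelInf M A)
    (h : heckeAlphaBar Kbar M ℓ x ∈ softV A (M * ℓ))
    (h0 : softR A (M * ℓ) ⟨heckeAlphaBar Kbar M ℓ x, h⟩ = 0) :
    h31c_InMax A M (modelInf M A) x :=
  h31c_ker_inf A M hℓ hM hA x hx (h31c_inf_mem_softV A M hℓ hM hA hx)
    (h31c_softR_alpha_eq_zero A M ℓ _ h h0)

/-- `softR (β x) = 0 → x ∈ 𝔪_A · modelInf`. -/
theorem h31c_beta_inf (x : FF M) (hx : x ∈ modelInf M A)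
    (h : heckeBetaBar Kbar M ℓ x ∈ softV A (M * ℓ))
    (h0 : softR A (M * ℓ) ⟨heckeBetaBar Kbar M ℓ x, h⟩ = 0) :
    h31c_InMax A M (modelInf M A) x :=
  h31c_ker_inf A M hℓ hM hA x hx (h31c_inf_mem_softV A M hℓ hM hA hx)
    (h31c_softR_beta_eq_zero A M ℓ _ h h0)

/-- `hαP0`, chart at infinity. -/
theorem h31c_w_alpha_inf (x : FF M) (hx : x ∈ modelInf M A)
    (h : kFricke M ℓ hℓ hM (heckeAlphaBar Kbar M ℓ x) ∈ softV A (M * ℓ))
    (h0 : softR A (M * ℓ) ⟨kFricke M ℓ hℓ hM (heckeAlphaBar Kbar M ℓ x), h⟩ = 0) :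
    h31c_InMax A M (modelInf M A) x := by
  have e := kFricke_alpha M ℓ hℓ hM x
  have h' : heckeBetaBar Kbar M ℓ x ∈ softV A (M * ℓ) := by rw [← e]; exact h
  have h0' : softR A (M * ℓ) ⟨heckeBetaBar Kbar M ℓ x, h'⟩ = 0 := by
    rw [← h0]
    congr 1
    exact Subtype.ext e.symm
  exact h31c_beta_inf hℓ hM hA x hx h' h0'

/-- `hβP0`, chart at infinity. -/
theorem h31c_w_beta_inf (x : FF M) (hx : x ∈ modelInf M A)
    (h : kFricke M ℓ hℓ hM (heckeBetaBar Kbar M ℓ x) ∈ softV A (M * ℓ))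
    (h0 : softR A (M * ℓ) ⟨kFricke M ℓ hℓ hM (heckeBetaBar Kbar M ℓ x), h⟩ = 0) :
    h31c_InMax A M (modelInf M A) x := by
  have e := kFricke_beta M ℓ hℓ hM x
  have h' : heckeAlphaBar Kbar M ℓ x ∈ softV A (M * ℓ) := by rw [← e]; exact h
  have h0' : softR A (M * ℓ) ⟨heckeAlphaBar Kbar M ℓ x, h'⟩ = 0 := by
    rw [← h0]
    congr 1
    exact Subtype.ext e.symm
  exact h31c_alpha_inf hℓ hM hA x hx h' h0'

/-! ### The same with the hypothesis `y = 0 ∨ y⁻¹ ∉ W_∞` (non-units of the Gauss ring) -/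

/-- elements of the chart of level `M` are mapped by `α` into `W_∞`. -/
theorem h31c_alpha_mem_softV_fin {x : FF M} (hx : x ∈ modelFin M A) :
    heckeAlphaBar Kbar M ℓ x ∈ softV A (M * ℓ) :=
  (alpha_mem_softV_iff A ℓ x).2 (h31c_fin_mem_softV A M hℓ hM hA hx)

/-- elements of the chart of level `M` are mapped by `β` into `W_∞`. -/
theorem h31c_beta_mem_softV_fin {x : FF M} (hx : x ∈ modelFin M A) :
    heckeBetaBar Kbar M ℓ x ∈ softV A (M * ℓ) :=
  beta_mem_softV A ℓ x (h31c_fin_mem_softV A M hℓ hM hA hx)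

theorem h31c_alpha_mem_softV_inf {x : FF M} (hx : x ∈ modelInf M A) :
    heckeAlphaBar Kbar M ℓ x ∈ softV A (M * ℓ) :=
  (alpha_mem_softV_iff A ℓ x).2 (h31c_inf_mem_softV A M hℓ hM hA hx)

theorem h31c_beta_mem_softV_inf {x : FF M} (hx : x ∈ modelInf M A) :
    heckeBetaBar Kbar M ℓ x ∈ softV A (M * ℓ) :=
  beta_mem_softV A ℓ x (h31c_inf_mem_softV A M hℓ hM hA hx)

/-- `hαPinf` in non-unit form: `α x` a non-unit of `W_∞` ⟹ `x ∈ 𝔪_A · modelFin`. -/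
theorem h31c_alpha_fin_of_nonunit (x : FF M) (hx : x ∈ modelFin M A)
    (h0 : heckeAlphaBar Kbar M ℓ x = 0 ∨ (heckeAlphaBar Kbar M ℓ x)⁻¹ ∉ softV A (M * ℓ)) :
    h31c_InMax A M (modelFin M A) x :=
  h31c_alpha_fin hℓ hM hA x hx (h31c_alpha_mem_softV_fin hℓ hM hA hx)
    ((softR_eq_zero_iff A (M * ℓ) ⟨_, h31c_alpha_mem_softV_fin hℓ hM hA hx⟩).2 h0)

/-- `β x` a non-unit of `W_∞` ⟹ `x ∈ 𝔪_A · modelFin`
(`hαP0`: `w (α x) = β x`, so this is "`α x` is a non-unit of `W_0 = w⁻¹ W_∞`"). -/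
theorem h31c_beta_fin_of_nonunit (x : FF M) (hx : x ∈ modelFin M A)
    (h0 : heckeBetaBar Kbar M ℓ x = 0 ∨ (heckeBetaBar Kbar M ℓ x)⁻¹ ∉ softV A (M * ℓ)) :
    h31c_InMax A M (modelFin M A) x :=
  h31c_beta_fin hℓ hM hA x hx (h31c_beta_mem_softV_fin hℓ hM hA hx)
    ((softR_eq_zero_iff A (M * ℓ) ⟨_, h31c_beta_mem_softV_fin hℓ hM hA hx⟩).2 h0)

theorem h31c_alpha_inf_of_nonunit (x : FF M) (hx : x ∈ modelInf M A)
    (h0 : heckeAlphaBar Kbar M ℓ x = 0 ∨ (heckeAlphaBar Kbar M ℓ x)⁻¹ ∉ softV A (M * ℓ)) :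
    h31c_InMax A M (modelInf M A) x :=
  h31c_alpha_inf hℓ hM hA x hx (h31c_alpha_mem_softV_inf hℓ hM hA hx)
    ((softR_eq_zero_iff A (M * ℓ) ⟨_, h31c_alpha_mem_softV_inf hℓ hM hA hx⟩).2 h0)

theorem h31c_beta_inf_of_nonunit (x : FF M) (hx : x ∈ modelInf M A)
    (h0 : heckeBetaBar Kbar M ℓ x = 0 ∨ (heckeBetaBar Kbar M ℓ x)⁻¹ ∉ softV A (M * ℓ)) :
    h31c_InMax A M (modelInf M A) x :=
  h31c_beta_inf hℓ hM hA x hx (h31c_beta_mem_softV_inf hℓ hM hA hx)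
    ((softR_eq_zero_iff A (M * ℓ) ⟨_, h31c_beta_mem_softV_inf hℓ hM hA hx⟩).2 h0)

end Level

/-! ### `hRspan`: the chart is the `A`-span of its rational elements -/

section Span

variable (A : ValuationSubring Kbar) (M : ℕ)

theorem h31c_isRat_one : IsRat (1 : FF M) := ⟨1, one_mem _, map_one _⟩

theorem h31c_isRat_zero : IsRat (0 : FF M) := ⟨0, zero_mem _, map_zero _⟩

theorem h31c_isRat_add {f g : FF M} (hf : IsRat f) (hg : IsRat g) : IsRat (f + g) := by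
  obtain ⟨y, hy, hyf⟩ := hf
  obtain ⟨z, hz, hzg⟩ := hg
  refine ⟨y + z, add_mem hy hz, ?_⟩
  rw [map_add, hyf, hzg]
  rfl

theorem h31c_isRat_mul {f g : FF M} (hf : IsRat f) (hg : IsRat g) : IsRat (f * g) := by
  obtain ⟨y, hy, hyf⟩ := hf
  obtain ⟨z, hz, hzg⟩ := hg
  refine ⟨y * z, mul_mem hy hz, ?_⟩
  rw [map_mul, hyf, hzg]
  rfl

theorem h31c_isRat_neg {f : FF M} (hf : IsRat f) : IsRat (-f) := by
  obtain ⟨y, hy, hyf⟩ := hf
  refine ⟨-y, neg_mem hy, ?_⟩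
  rw [map_neg, hyf]
  rfl

/-- the subring of the elements of a chart with rational `q`-expansion. -/
def h31c_ratSub (t : FF M) : Subring (chart M A t) where
  carrier := {u | IsRat (u : FF M)}
  mul_mem' := fun ha hb => h31c_isRat_mul M ha hb
  one_mem' := h31c_isRat_one M
  add_mem' := fun ha hb => h31c_isRat_add M ha hb
  zero_mem' := h31c_isRat_zero M
  neg_mem' := fun ha => h31c_isRat_neg M ha

theorem h31c_mem_ratSub {t : FF M} {u : chart M A t} :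
    u ∈ h31c_ratSub A M t ↔ IsRat (u : FF M) := Iff.rfl

/-- base change in span form (abstract step): if the chart lies in the ring closure of the
constants of `A` and the rational chart elements, it is the `A`-span of any subring containing
its rational elements. -/
theorem h31c_span_of_closure (t : FF M)
    (hBC : modelAt M A t ≤ Subring.closure
      ((fun a : Kbar => cst M a) '' (A : Set Kbar) ∪ {f | IsRat f ∧ f ∈ modelAt M A t}))
    (R : Subring (chart M A t)) (hR : ∀ u : chart M A t, IsRat (u : FF M) → u ∈ R)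
    (x : chart M A t) : x ∈ Submodule.span A (R : Set (chart M A t)) := by
  classical
  have hspan : Submodule.span A (R : Set (chart M A t)) =
      Subalgebra.toSubmodule (Algebra.adjoin A (R : Set (chart M A t))) := by
    rw [Algebra.adjoin_eq_span]
    congr 1
    exact (Submonoid.closure_eq R.toSubmonoid).symm ▸ rfl
  rw [hspan, Subalgebra.mem_toSubmodule]
  set T : Subring (FF M) :=
    ((Algebra.adjoin A (R : Set (chart M A t))).toSubring).map (chart M A t).val.toRingHom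
    with hT
  have hle : Subring.closure
      ((fun a : Kbar => cst M a) '' (A : Set Kbar) ∪ {f | IsRat f ∧ f ∈ modelAt M A t}) ≤ T := by
    rw [Subring.closure_le]
    rintro y (⟨a, ha, rfl⟩ | ⟨hy, hy'⟩)
    · refine ⟨algebraMap A (chart M A t) ⟨a, ha⟩, ?_, rfl⟩
      exact (Algebra.adjoin A (R : Set (chart M A t))).algebraMap_mem _
    · refine ⟨⟨y, hy'⟩, ?_, rfl⟩
      exact Algebra.subset_adjoin (hR ⟨y, hy'⟩ hy)
  obtain ⟨y, hy, hyx⟩ := hle (hBC x.2)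
  have : y = x := Subtype.ext hyx
  rw [← this]
  exact hy

variable [NeZero M] {ℓ : ℕ}

/-- **`hRspan`**, finite chart of level `M`. -/
theorem h31c_span_rat_fin (hℓ : ℓ.Prime) (hM : ¬ ℓ ∣ M) (hA : A.LiesOverPrime ℓ)
    (R : Subring (chart M A (jB M))) (hR : ∀ u : chart M A (jB M), IsRat (u : FF M) → u ∈ R)
    (x : chart M A (jB M)) : x ∈ Submodule.span A (R : Set (chart M A (jB M))) :=
  h31c_span_of_closure A M (jB M) (Fermat.Agent.Red.BC.ifaceBaseChange M ℓ hℓ hM A hA).1 R hR x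

/-- **`hRspan`**, chart at infinity of level `M`. -/
theorem h31c_span_rat_inf (hℓ : ℓ.Prime) (hM : ¬ ℓ ∣ M) (hA : A.LiesOverPrime ℓ)
    (R : Subring (chart M A (jB M)⁻¹))
    (hR : ∀ u : chart M A (jB M)⁻¹, IsRat (u : FF M) → u ∈ R)
    (x : chart M A (jB M)⁻¹) : x ∈ Submodule.span A (R : Set (chart M A (jB M)⁻¹)) :=
  h31c_span_of_closure A M (jB M)⁻¹ (Fermat.Agent.Red.BC.ifaceBaseChange M ℓ hℓ hM A hA).2 R hR x

end Span

end Fermat.Agent.LGC
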