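import Fermat.Agent.Red.GFF
import Fermat.Agent.Red.HKMod
import Fermat.Agent.Red.Kron.Finrank
import Fermat.Agent.Red.SM.Unram

/-!
# W3-LGC, (I8) counting part (helper31): the fibre of `F_{Mℓ} / F_M` over a non-cuspidal place

`M` a good level (`auxLevel ℓ ∣ M`, no elliptic points), `ℓ ∤ M` a prime,
`α = heckeAlphaBar Kbar M ℓ : F_M → F_{Mℓ}`.

* `h31f_ramificationIndex_eq_one` : a place `k` of `F_{Mℓ}` at which `j` is regular is unramified
  over `F_M`;
* `h31f_card_fiber` : over a place `w` of `F_M` at which `j` is regular there are exactly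
  `ℓ + 1` places of `F_{Mℓ}`;
* `h31_fiber` : the form consumed by the sections of (I8): for a place `i` of `F_{Mℓ}` at which
  `j` is regular, the place `w` below `i` and the set `T` of the `ℓ + 1` places over `w`.
-/

set_option autoImplicit false
set_option linter.style.haveILetI false
set_option linter.unusedSectionVars false

open AlgebraicCurve ModularCurve IntermediateField WithZero

noncomputable section

namespace Fermat.Agent.LGC

open Fermat.Agent.S24 Fermat.Agent.Red.HKMod Fermat.Agent.Red.SM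

section Place

variable {K F : Type*} [Field K] [Field F] [Algebra K F] (v : Place K F)

theorem h31f_ord_nonneg_of_mem {f : F} (hf : f ∈ v.toValuationSubring) : 0 ≤ v.ord f := by
  rcases (v.adicValuation_le_one_iff).1 (v.adicValuation_le_one_of_mem hf) with h | h
  · subst h
    simp [Place.ord]
  · exact h

theorem h31f_adic_lt_one_iff {f : F} (hf : f ≠ 0) : v.adicValuation f < 1 ↔ 0 < v.ord f := by
  rw [v.adicValuation_eq_exp_neg_ord hf, ← WithZero.exp_zero, WithZero.exp_lt_exp]
  omega

end Place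

variable (ℓ M : ℕ) [NeZero M] [NeZero ℓ]

/-- a place of `F_{Mℓ}` at which `j` is regular is unramified over `F_M` (good levels). -/
theorem h31f_ramificationIndex_eq_one (haux : Fermat.Agent.S37.auxLevel ℓ ∣ M)
    (k : Place Kbar (FF (M * ℓ)))
    (hk : heckeAlphaBar Kbar M ℓ (jBar M) ∈ k.toValuationSubring) :
    letI := algebraAlong (heckeAlphaBar Kbar M ℓ)
    haveI := isScalarTower_along (heckeAlphaBar Kbar M ℓ)
    k.ramificationIndex (FF M) = 1 := by
  letI := algebraAlong (heckeAlphaBar Kbar M ℓ)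
  haveI := isScalarTower_along (heckeAlphaBar Kbar M ℓ)
  haveI := isIntegral_along (heckeAlphaBar Kbar M ℓ) (heckeAlphaBarIntegral M ℓ)
  have hα : ∀ f : FF M, algebraMap (FF M) (FF (M * ℓ)) f = heckeAlphaBar Kbar M ℓ f :=
    fun _ => rfl
  obtain ⟨h2, h3⟩ := nu_eq_zero_of_auxLevel_dvd haux
  obtain ⟨h2', h3'⟩ := nu_eq_zero_of_auxLevel_dvd (dvd_mul_of_dvd_left haux ℓ)
  set w : Place Kbar (FF M) := k.restrict (FF M) with hw
  have hjw : jBar M ∈ w.toValuationSubring := (Place.mem_restrict_iff (w := k)).2 hk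
  obtain ⟨c, hc⟩ := glue_center M (h31_ifaceFin M) w (h31f_ord_nonneg_of_mem w hjw)
  have hM := ord_jsub_eq M h2 h3 w c hc
  have h1 := k.ord_restrict (F := FF M) (jBar M - cst M c)
  have hαj : algebraMap (FF M) (FF (M * ℓ)) (jBar M - cst M c) = jBar (M * ℓ) - cst (M * ℓ) c := by
    rw [hα, map_sub, heckeAlphaBar_jBar, AlgHom.commutes]
  rw [hαj, ← hw, hM] at h1
  set e : ℕ := k.ramificationIndex (FF M) with he
  set n : ℕ := (if c = 0 then 3 else if c = 1728 then 2 else 1 : ℕ) with hn
  have hnpos : 0 < n := by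
    rw [hn]
    split_ifs <;> norm_num
  have hepos : 0 < e := k.ramificationIndex_pos (F := FF M)
  have hpos : 0 < k.ord (jBar (M * ℓ) - cst (M * ℓ) c) := by
    rw [h1]
    positivity
  have hN := ord_jsub_eq (M * ℓ) h2' h3' k c hpos
  rw [hN, ← hn] at h1
  have h5 : (n : ℤ) * 1 = (n : ℤ) * e := by rw [mul_one, mul_comm]; exact h1
  have h6 : (1 : ℤ) = e := mul_left_cancel₀ (by exact_mod_cast hnpos.ne') h5
  exact_mod_cast h6.symm

/-- over a place of `F_M` at which `j` is regular there are exactly `ℓ + 1` places of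
`F_{Mℓ}` (good levels, `ℓ ∤ M`). -/
theorem h31f_card_fiber (hℓ : ℓ.Prime) (hM : ¬ ℓ ∣ M)
    (haux : Fermat.Agent.S37.auxLevel ℓ ∣ M) (w : Place Kbar (FF M))
    (hw : jBar M ∈ w.toValuationSubring) :
    letI := algebraAlong (heckeAlphaBar Kbar M ℓ)
    haveI := isScalarTower_along (heckeAlphaBar Kbar M ℓ)
    haveI := isIntegral_along (heckeAlphaBar Kbar M ℓ) (heckeAlphaBarIntegral M ℓ)
    haveI := hasPrincipalDivisors_FF (M * ℓ)
    (w.fiber (FF (M * ℓ))).card = ℓ + 1 := by
  letI := algebraAlong (heckeAlphaBar Kbar M ℓ)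
  haveI := isScalarTower_along (heckeAlphaBar Kbar M ℓ)
  haveI := isIntegral_along (heckeAlphaBar Kbar M ℓ) (heckeAlphaBarIntegral M ℓ)
  haveI := hasPrincipalDivisors_FF (M * ℓ)
  haveI := finiteDimensional_jBar (M * ℓ)
  haveI : Module.Finite (FF M) (FF (M * ℓ)) := finiteAlong_heckeAlphaBar M ℓ
  have hsum := Fermat.Agent.Red.GFF.sum_ramificationIndex_eq_finrank (K := Kbar) (F := FF M)
    (F' := FF (M * ℓ)) (jBar (M * ℓ)) w
  have hfin : Module.finrank (FF M) (FF (M * ℓ)) = ℓ + 1 :=
    Fermat.Agent.Red.Kron.finrank_heckeAlphaBar M ℓ hℓ hM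
  have hone : ∀ k ∈ w.fiber (FF (M * ℓ)), (k.ramificationIndex (FF M) : ℤ) = 1 := by
    intro k hk
    have hkw : k.restrict (FF M) = w := Place.mem_fiber.1 hk
    have hjk : heckeAlphaBar Kbar M ℓ (jBar M) ∈ k.toValuationSubring := by
      have : jBar M ∈ (k.restrict (FF M)).toValuationSubring := by rw [hkw]; exact hw
      exact (Place.mem_restrict_iff (w := k)).1 this
    have := h31f_ramificationIndex_eq_one ℓ M haux k hjk
    exact_mod_cast this
  rw [Finset.sum_congr rfl hone, Finset.sum_const, hfin] at hsum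
  simp only [nsmul_eq_mul, mul_one] at hsum
  exact_mod_cast hsum

/-- **(I8), counting part.**  For a place `i` of `F_{Mℓ}` at which `j` is regular: the place
`w` of `F_M` below `i` and the set `T` of the places of `F_{Mℓ}` over `w`; `T` has `ℓ + 1`
elements, and for `k ∈ T` the valuation ring (resp. the maximal ideal) of `w` is mapped by `α`
into the valuation ring (resp. the maximal ideal) of `k`. -/
theorem h31_fiber (hℓ : ℓ.Prime) (hM : ¬ ℓ ∣ M)
    (haux : Fermat.Agent.S37.auxLevel ℓ ∣ M) (i : Place Kbar (FF (M * ℓ)))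
    (hi : heckeAlphaBar Kbar M ℓ (Fermat.Agent.S37.jB M) ∈ i.toValuationSubring) :
    ∃ (w : Place Kbar (FF M)) (T : Finset (Place Kbar (FF (M * ℓ)))),
      i ∈ T ∧ ℓ + 1 ≤ T.card ∧
      ∀ k ∈ T, ∀ f : FF M,
        (f ∈ w.toValuationSubring → heckeAlphaBar Kbar M ℓ f ∈ k.toValuationSubring) ∧
        (w.adicValuation f < 1 → k.adicValuation (heckeAlphaBar Kbar M ℓ f) < 1) := by
  letI := algebraAlong (heckeAlphaBar Kbar M ℓ)
  haveI := isScalarTower_along (heckeAlphaBar Kbar M ℓ)
  haveI := isIntegral_along (heckeAlphaBar Kbar M ℓ) (heckeAlphaBarIntegral M ℓ)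
  haveI := hasPrincipalDivisors_FF (M * ℓ)
  have hα : ∀ f : FF M, algebraMap (FF M) (FF (M * ℓ)) f = heckeAlphaBar Kbar M ℓ f :=
    fun _ => rfl
  set w : Place Kbar (FF M) := i.restrict (FF M) with hw
  have hjw : jBar M ∈ w.toValuationSubring := (Place.mem_restrict_iff (w := i)).2 hi
  refine ⟨w, w.fiber (FF (M * ℓ)), Place.restrict_mem_fiber i,
    (h31f_card_fiber ℓ M hℓ hM haux w hjw).ge, ?_⟩
  intro k hk f
  have hkw : k.restrict (FF M) = w := Place.mem_fiber.1 hk
  constructor
  · intro hf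
    have : f ∈ (k.restrict (FF M)).toValuationSubring := by rw [hkw]; exact hf
    exact (Place.mem_restrict_iff (w := k)).1 this
  · intro hf
    rcases eq_or_ne f 0 with rfl | hf0
    · rw [map_zero, map_zero]
      exact zero_lt_one
    · have hαf0 : heckeAlphaBar Kbar M ℓ f ≠ 0 := by
        intro h
        apply hf0
        apply (heckeAlphaBar Kbar M ℓ).toRingHom.injective
        rw [map_zero]
        exact h
      rw [h31f_adic_lt_one_iff k hαf0]
      rw [h31f_adic_lt_one_iff w hf0] at hf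
      have h1 := k.ord_restrict (F := FF M) f
      rw [hkw, hα] at h1
      rw [h1]
      have hepos : 0 < k.ramificationIndex (FF M) := k.ramificationIndex_pos (F := FF M)
      positivity

end Fermat.Agent.LGC
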