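import Fermat.Agent.LGC.H62Final
import Fermat.Agent.LGC.H31Comp

/-!
# W3-LGC, row R3 (helper31): the leaves `H62Ker` and `H62Span` of `h62i_ifaceSSLocal_fin`

* `h31c_H62Ker : H62Ker A M hℓ hM hA` — `α` and `β` pull `P∞` back to `𝔪_A Λ`;
* `h31c_H62Span : H62Span A M` — the finite chart of level `M` is spanned over `A` by its
  functions with rational `q`-expansion.
-/

set_option autoImplicit false
set_option linter.unusedSectionVars false

open AlgebraicCurve ModularCurve WithZero IsLocalRing Polynomial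

noncomputable section

namespace Fermat.Agent.LGC

open Fermat.Agent.S37 Fermat.Agent.Red Fermat.Agent.Red.GG Fermat.Agent.Red.GV
  Fermat.Agent.Red.GV.Soft Fermat.Agent.Red.Kron

variable (A : ValuationSubring Kbar) (M : ℕ) {ℓ : ℕ} [NeZero M] [NeZero ℓ]

/-- **leaf `H62Ker`**. -/
theorem h31c_H62Ker (hℓ : ℓ.Prime) (hM : ¬ ℓ ∣ M) (hA : A.LiesOverPrime ℓ) :
    H62Ker A M hℓ hM hA := by
  constructor
  · intro x hx
    rw [h62i_mem_Pinf_iff_softR] at hx
    exact h31c_mem_mExt A M (jB M) x.2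
      (h31c_alpha_fin hℓ hM hA (x : FF M) x.2 _ hx)
  · intro x hx
    rw [h62i_mem_Pinf_iff_softR] at hx
    exact h31c_mem_mExt A M (jB M) x.2
      (h31c_beta_fin hℓ hM hA (x : FF M) x.2 _ hx)

/-- **leaf `H62Span`**. -/
theorem h31c_H62Span (hℓ : ℓ.Prime) (hM : ¬ ℓ ∣ M) (hA : A.LiesOverPrime ℓ) :
    H62Span A M := fun x =>
  h31c_span_rat_fin A M hℓ hM hA (h62i_R A M) (fun u hu => (h62i_mem_R A M u).2 hu) x

end Fermat.Agent.LGC
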