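import Fermat.Agent.LGC.H4CuspInt
import Fermat.Agent.LGC.Res44
import Fermat.Agent.LGC.SS85Comp

/-!
# W3-LGC, SS-LOCAL-INF (b), C1 (helper4): a cusp of the chart at infinity is not a node

`ℓ ∤ M` prime, `A` a valuation subring of `ℚ̄` over `ℓ`, `B' = chart (M ℓ) A (jSS M ℓ)⁻¹`,
`V = 1 / α(j) ∈ B'`, `P_∞ = h85cPinf`, `P_0 = h85cP0` the two components.

The certificate is the single element `b = β(j) / α(j)^ℓ`: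

* `h4c_b_mem` : `b ∈ B'`;
* `h4c_one_sub_b_mem_Pinf` : `1 - b ∈ P_∞` (`β(j) ≡ α(j)^ℓ` on the component `∞`);
* `h4c_cert_mem_P0` : `b^ℓ - V^(ℓ² - 1) ∈ P_0` (`α(j) ≡ β(j)^ℓ` on the component `0`);
* `h4c_cusp_not_node` : no proper ideal `𝔫 ∋ V` of `B'` contains both `P_∞` and `P_0`;
* `h4c_P0_not_le`, `h4c_Pinf_not_le` : `b ∉ 𝔫 → ¬ P_0 ≤ 𝔫`, `b ∈ 𝔫 → ¬ P_∞ ≤ 𝔫`.
-/

set_option autoImplicit false
set_option linter.style.haveILetI false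
set_option linter.unusedSectionVars false
set_option synthInstance.maxHeartbeats 400000

open AlgebraicCurve ModularCurve WithZero IsLocalRing Polynomial

noncomputable section

namespace Fermat.Agent.LGC

open Fermat.Agent.S37 Fermat.Agent.S37.GalI Fermat.Agent.Red Fermat.Agent.Red.GG
  Fermat.Agent.Red.GV Fermat.Agent.Red.GV.Soft Fermat.Agent.Red.TRK Fermat.Agent.Red.Kron
  Fermat.Agent.S28 Fermat.Agent.Red.KR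

/-- `j(q^ℓ) / j(q)^ℓ` is integral over `ℚ̄[1/j]`. -/
theorem h4c_intK (ℓ : ℕ) [NeZero ℓ] :
    (evalC (jK Kbar)⁻¹).IsIntegralElem (qExpand Kbar ℓ (jK Kbar) * (jK Kbar)⁻¹ ^ ℓ) := by
  obtain ⟨P, hP, hz⟩ := h4c_me0_inf ℓ (Nat.pos_of_ne_zero (NeZero.ne ℓ))
  have hj : jSub ℓ = qExpand ℚ ℓ jq := by
    unfold jSub
    rw [dif_neg (NeZero.ne ℓ)]
  have hcomp : (coeffEmb Kbar).comp (evalAtQ jq⁻¹) =
      (evalC (jK Kbar)⁻¹).comp (Polynomial.mapRingHom (algebraMap ℚ Kbar)) := by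
    refine RingHom.ext fun Q => ?_
    rw [RingHom.comp_apply, RingHom.comp_apply, Fermat.Agent.Red.GV.Rep.h71_coeffEmb_evalAtQ,
      map_inv₀, Fermat.Agent.Red.GV.Rep.h71_coeffEmb_jq]
    rfl
  have hx : coeffEmb Kbar (jSub ℓ * jq⁻¹ ^ ℓ) =
      qExpand Kbar ℓ (jK Kbar) * (jK Kbar)⁻¹ ^ ℓ := by
    rw [map_mul, map_pow, map_inv₀, hj, Fermat.Agent.Red.GV.Rep.h71_coeffEmb_jq,
      ← Fermat.Agent.Red.GV.Rep.h71_coeffEmb_jq Kbar]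
    congr 1
    exact ModularCurve.coeffMap_qExpand _ ℓ jq
  refine ⟨P.map (Polynomial.mapRingHom (algebraMap ℚ Kbar)), hP.map _, ?_⟩
  rw [Polynomial.eval₂_map, ← hcomp, ← hx, ← Polynomial.hom_eval₂, hz, map_zero]

section Level

variable (A : ValuationSubring Kbar) (M ℓ : ℕ) [NeZero M] [NeZero ℓ]

/-- the certificate `b = β(j) / α(j)^ℓ`. -/
def h4c_b : FF (M * ℓ) := heckeBetaBar Kbar M ℓ (jB M) * (jSS M ℓ)⁻¹ ^ ℓ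

theorem h4c_coe_jSS_inv :
    (((jSS M ℓ)⁻¹ : FF (M * ℓ)) : LaurentSeries Kbar) = (jK Kbar)⁻¹ := by
  have h : ((jSS M ℓ : FF (M * ℓ)) : LaurentSeries Kbar) = jK Kbar := by
    unfold jSS
    rw [coe_heckeAlphaBar, coe_jB]
  rw [← h]
  rfl

theorem h4c_coe_b :
    ((h4c_b M ℓ : FF (M * ℓ)) : LaurentSeries Kbar) =
      qExpand Kbar ℓ (jK Kbar) * (jK Kbar)⁻¹ ^ ℓ := by
  have h : ((h4c_b M ℓ : FF (M * ℓ)) : LaurentSeries Kbar) =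
      ((heckeBetaBar Kbar M ℓ (jB M) : FF (M * ℓ)) : LaurentSeries Kbar) *
        (((jSS M ℓ)⁻¹ : FF (M * ℓ)) : LaurentSeries Kbar) ^ ℓ := rfl
  rw [h, h4c_coe_jSS_inv, coe_heckeBetaBar, coe_jB]

variable {ℓ} in
/-- after scaling by a power of `ℓ`, `b` lies in the chart at infinity. -/
theorem h4c_b_scaled (hℓ : ℓ.Prime) (hA : A.LiesOverPrime ℓ) :
    ∃ n : ℕ, cst (M * ℓ) ((ℓ : Kbar) ^ n) * h4c_b M ℓ ∈ modelAt (M * ℓ) A (jSS M ℓ)⁻¹ := by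
  obtain ⟨n, hn⟩ := Fermat.Agent.Red.BC.h58_scaling A ℓ hℓ hA (jK Kbar)⁻¹ (h4c_intK ℓ)
  refine ⟨n, ?_⟩
  rw [mem_modelAt_iff, h4c_coe_jSS_inv]
  have h1 : ((cst (M * ℓ) ((ℓ : Kbar) ^ n) * h4c_b M ℓ : FF (M * ℓ)) : LaurentSeries Kbar) =
      ((cst (M * ℓ) ((ℓ : Kbar) ^ n) : FF (M * ℓ)) : LaurentSeries Kbar) *
        ((h4c_b M ℓ : FF (M * ℓ)) : LaurentSeries Kbar) := rfl
  rw [h1, coe_cst, h4c_coe_b]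
  exact hn

/-! ### Reductions on the two components -/

theorem h4c_jqModC_ne_zero (k : Type) [Field k] : jqModC k ≠ 0 := by
  have h := Fermat.Agent.S28.evalC_jqModC_ne_zero k X Polynomial.X_ne_zero
  have e : Fermat.Agent.S28.evalC (jqModC k) X = jqModC k := by
    show Polynomial.eval₂ _ _ X = _
    rw [Polynomial.eval₂_X]
  rwa [e] at h

/-- a unit of the soft Gauss ring: its inverse and the reduction of the inverse. -/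
theorem h4c_softR_inv (N : ℕ) (x : softV A N) (hx : softR A N x ≠ 0) :
    ∃ h : (x : FF N)⁻¹ ∈ softV A N, softR A N ⟨_, h⟩ = (softR A N x)⁻¹ := by
  have hn := (softR_ne_zero_iff A N x).mp hx
  refine ⟨hn.2, ?_⟩
  have e : (⟨_, hn.2⟩ : softV A N) * x = 1 := Subtype.ext (inv_mul_cancel₀ hn.1)
  have h1 := congrArg (softR A N) e
  rw [map_mul, map_one] at h1
  exact eq_inv_of_mul_eq_one_left h1

variable {ℓ} in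
/-- `b` and `V = 1/α(j)` on the two components: `red_∞ b = 1` and
`(red_0 b)^ℓ = (red_0 V)^(ℓ² - 1)`. -/
theorem h4c_soft (hℓ : ℓ.Prime) (hM : ¬ ℓ ∣ M) (hA : A.LiesOverPrime ℓ) :
    ∃ (hb : h4c_b M ℓ ∈ softV A (M * ℓ))
      (hwb : kFricke M ℓ hℓ hM (h4c_b M ℓ) ∈ softV A (M * ℓ))
      (hwV : kFricke M ℓ hℓ hM (jSS M ℓ)⁻¹ ∈ softV A (M * ℓ)),
      softR A (M * ℓ) ⟨_, hb⟩ = 1 ∧
      softR A (M * ℓ) ⟨_, hwb⟩ ^ ℓ = softR A (M * ℓ) ⟨_, hwV⟩ ^ (ℓ ^ 2 - 1) := by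
  haveI : Fact ℓ.Prime := ⟨hℓ⟩
  haveI : CharP (IsLocalRing.ResidueField A) ℓ :=
    Base.h80_charP A (IsLocalRing.residue A) ℓ (isResidueMap_residue A ℓ hA)
  haveI : ExpChar (IsLocalRing.ResidueField A) ℓ := ExpChar.prime hℓ
  obtain ⟨r, hr⟩ : ∃ r, r = jqModC (IsLocalRing.ResidueField A) := ⟨_, rfl⟩
  have hr0 : r ≠ 0 := by rw [hr]; exact h4c_jqModC_ne_zero _
  have hj : jB M ∈ softV A M := gaussV_le_softV A M (jB_mem_gaussV A M)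
  have hrj : softR A M ⟨jB M, hj⟩ = r := by rw [hr]; exact h44r_softR_jB A M hj
  have hpow : r ^ ℓ = qExpand _ ℓ r := by rw [hr]; exact h44r_jqModC_pow _ ℓ
  have haj : heckeAlphaBar Kbar M ℓ (jB M) ∈ softV A (M * ℓ) :=
    (alpha_mem_softV_iff A ℓ _).mpr hj
  have hbj : heckeBetaBar Kbar M ℓ (jB M) ∈ softV A (M * ℓ) := beta_mem_softV A ℓ _ hj
  have hraj : softR A (M * ℓ) ⟨_, haj⟩ = r := (softR_alpha A ℓ ⟨_, hj⟩ haj).trans hrj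
  have hrbj : softR A (M * ℓ) ⟨_, hbj⟩ = r ^ ℓ := by
    rw [softR_beta A ℓ ⟨_, hj⟩ hbj, hrj, hpow]
  obtain ⟨hai, hrai⟩ := h4c_softR_inv A (M * ℓ) ⟨_, haj⟩ (by rw [hraj]; exact hr0)
  obtain ⟨hbi, hrbi⟩ := h4c_softR_inv A (M * ℓ) ⟨_, hbj⟩ (by rw [hrbj]; exact pow_ne_zero _ hr0)
  rw [hraj] at hrai
  rw [hrbj] at hrbi
  have hb_eq : h4c_b M ℓ =
      heckeBetaBar Kbar M ℓ (jB M) * (heckeAlphaBar Kbar M ℓ (jB M))⁻¹ ^ ℓ := rfl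
  have hwb_eq : kFricke M ℓ hℓ hM (h4c_b M ℓ) =
      heckeAlphaBar Kbar M ℓ (jB M) * (heckeBetaBar Kbar M ℓ (jB M))⁻¹ ^ ℓ := by
    rw [hb_eq, map_mul, map_pow, map_inv₀, kFricke_alpha, kFricke_beta]
  have hwV_eq : kFricke M ℓ hℓ hM (jSS M ℓ)⁻¹ = (heckeBetaBar Kbar M ℓ (jB M))⁻¹ := by
    unfold jSS
    rw [map_inv₀, kFricke_alpha]
  have hb : h4c_b M ℓ ∈ softV A (M * ℓ) := by
    rw [hb_eq]
    exact mul_mem hbj (pow_mem hai ℓ)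
  have hwb : kFricke M ℓ hℓ hM (h4c_b M ℓ) ∈ softV A (M * ℓ) := by
    rw [hwb_eq]
    exact mul_mem haj (pow_mem hbi ℓ)
  have hwV : kFricke M ℓ hℓ hM (jSS M ℓ)⁻¹ ∈ softV A (M * ℓ) := by
    rw [hwV_eq]
    exact hbi
  have e1 : (⟨_, hb⟩ : softV A (M * ℓ)) = ⟨_, hbj⟩ * ⟨_, hai⟩ ^ ℓ := Subtype.ext hb_eq
  have e2 : (⟨_, hwb⟩ : softV A (M * ℓ)) = ⟨_, haj⟩ * ⟨_, hbi⟩ ^ ℓ := Subtype.ext hwb_eq
  have e3 : (⟨_, hwV⟩ : softV A (M * ℓ)) = ⟨_, hbi⟩ := Subtype.ext hwV_eq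
  refine ⟨hb, hwb, hwV, ?_, ?_⟩
  · rw [e1, map_mul, map_pow, hrbj, hrai, ← mul_pow, mul_inv_cancel₀ hr0, one_pow]
  · rw [e2, e3, map_mul, map_pow, hraj, hrbi]
    have hy0 : r ^ ℓ ≠ 0 := pow_ne_zero _ hr0
    have hl2 : ℓ ^ 2 = (ℓ ^ 2 - 1) + 1 := by
      have : 0 < ℓ ^ 2 := pow_pos hℓ.pos 2
      omega
    rw [mul_pow, ← pow_mul, ← sq]
    conv_lhs => rw [hl2, pow_succ]
    rw [← mul_assoc, mul_comm (r ^ ℓ), mul_assoc, mul_inv_cancel₀ hy0, mul_one]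

/-! ### The certificate in the chart at infinity -/

variable {ℓ}

/-- **`b` lies in the chart at infinity** of level `M ℓ`. -/
theorem h4c_b_mem (hℓ : ℓ.Prime) (hM : ¬ ℓ ∣ M) (hA : A.LiesOverPrime ℓ) :
    h4c_b M ℓ ∈ chart (M * ℓ) A (jSS M ℓ)⁻¹ := by
  obtain ⟨hb, hwb, -, -, -⟩ := h4c_soft A M hℓ hM hA
  have hss : h4c_b M ℓ ∈ ssV A M ℓ := (h44r_mem_ssV_iff A M ℓ hℓ hM hA _).2 ⟨hb, hwb⟩
  obtain ⟨n, hn⟩ := h4c_b_scaled A M hℓ hA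
  have hcoe : (((ℓ : A) ^ n : A) : Kbar) = (ℓ : Kbar) ^ n := by
    push_cast
    rfl
  have hne : ((ℓ : Kbar) ^ n) ≠ 0 :=
    pow_ne_zero _ (Nat.cast_ne_zero.mpr hℓ.ne_zero)
  refine h44v_hQEP_inf A M ℓ hℓ hM hA ((ℓ : A) ^ n) ?_ _ hss ?_
  · rw [GGC97_algebraMap_eq, hcoe]
    intro h0
    exact hne ((algebraMap Kbar (FF (M * ℓ))).injective (h0.trans (map_zero _).symm))
  · rw [GGC97_smul_eq, hcoe]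
    exact hn

/-- `b` as an element of the chart at infinity. -/
def h4c_bB (hℓ : ℓ.Prime) (hM : ¬ ℓ ∣ M) (hA : A.LiesOverPrime ℓ) :
    chart (M * ℓ) A (jSS M ℓ)⁻¹ :=
  ⟨h4c_b M ℓ, h4c_b_mem A M hℓ hM hA⟩

variable (ℓ) in
/-- `V = 1/α(j)` as an element of the chart at infinity. -/
def h4c_V : chart (M * ℓ) A (jSS M ℓ)⁻¹ :=
  ⟨(jSS M ℓ)⁻¹, Fermat.Agent.Red.ModelO.h85_self_mem_modelAt (M * ℓ) A (jSS M ℓ)⁻¹⟩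

/-- `1 - b ∈ P_∞`. -/
theorem h4c_one_sub_b_mem_Pinf (hℓ : ℓ.Prime) (hM : ¬ ℓ ∣ M) (hA : A.LiesOverPrime ℓ) :
    1 - h4c_bB A M hℓ hM hA ∈ h85cPinf A M ℓ hℓ hA (jSS M ℓ)⁻¹ := by
  have hC : IfaceSSChart A M ℓ (jSS M ℓ)⁻¹ := h85s_ifaceSSChart_inf A M ℓ hℓ hM hA
  obtain ⟨hb, -, -, h1, -⟩ := h4c_soft A M hℓ hM hA
  have hmem : ((1 - h4c_bB A M hℓ hM hA : chart (M * ℓ) A (jSS M ℓ)⁻¹) : FF (M * ℓ)) ∈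
      softV A (M * ℓ) := sub_mem (one_mem _) hb
  rw [h85c_mem_Pinf_iff_softR A M ℓ hℓ hA hC _ hmem]
  have e : (⟨_, hmem⟩ : softV A (M * ℓ)) = 1 - ⟨_, hb⟩ := rfl
  rw [e, map_sub, map_one, h1, sub_self]

/-- `b^ℓ - V^(ℓ² - 1) ∈ P_0`. -/
theorem h4c_cert_mem_P0 (hℓ : ℓ.Prime) (hM : ¬ ℓ ∣ M) (hA : A.LiesOverPrime ℓ) :
    h4c_bB A M hℓ hM hA ^ ℓ - h4c_V A M ℓ ^ (ℓ ^ 2 - 1) ∈
      h85cP0 A M ℓ hℓ hM hA (jSS M ℓ)⁻¹ := by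
  have hC : IfaceSSChart A M ℓ (jSS M ℓ)⁻¹ := h85s_ifaceSSChart_inf A M ℓ hℓ hM hA
  obtain ⟨-, hwb, hwV, -, h2⟩ := h4c_soft A M hℓ hM hA
  have hw : kFricke M ℓ hℓ hM
      ((h4c_bB A M hℓ hM hA ^ ℓ - h4c_V A M ℓ ^ (ℓ ^ 2 - 1) :
        chart (M * ℓ) A (jSS M ℓ)⁻¹) : FF (M * ℓ)) =
      kFricke M ℓ hℓ hM (h4c_b M ℓ) ^ ℓ - kFricke M ℓ hℓ hM (jSS M ℓ)⁻¹ ^ (ℓ ^ 2 - 1) := by
    show kFricke M ℓ hℓ hM (h4c_b M ℓ ^ ℓ - (jSS M ℓ)⁻¹ ^ (ℓ ^ 2 - 1)) = _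
    rw [map_sub, map_pow, map_pow]
  have hmem : kFricke M ℓ hℓ hM
      ((h4c_bB A M hℓ hM hA ^ ℓ - h4c_V A M ℓ ^ (ℓ ^ 2 - 1) :
        chart (M * ℓ) A (jSS M ℓ)⁻¹) : FF (M * ℓ)) ∈ softV A (M * ℓ) := by
    rw [hw]
    exact sub_mem (pow_mem hwb _) (pow_mem hwV _)
  rw [h85c_mem_P0_iff_softR A M ℓ hℓ hM hA hC _ hmem]
  have e : (⟨_, hmem⟩ : softV A (M * ℓ)) = ⟨_, hwb⟩ ^ ℓ - ⟨_, hwV⟩ ^ (ℓ ^ 2 - 1) :=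
    Subtype.ext hw
  rw [e, map_sub, map_pow, map_pow, h2, sub_self]

/-- **CUSP-NOT-NODE**: a proper ideal of the chart at infinity which contains `V = 1/α(j)`
does not contain both components `P_∞` and `P_0`. -/
theorem h4c_cusp_not_node (hℓ : ℓ.Prime) (hM : ¬ ℓ ∣ M) (hA : A.LiesOverPrime ℓ)
    (𝔫 : Ideal (chart (M * ℓ) A (jSS M ℓ)⁻¹)) (h𝔫 : 𝔫 ≠ ⊤) (hV : h4c_V A M ℓ ∈ 𝔫) :
    ¬ (h85cPinf A M ℓ hℓ hA (jSS M ℓ)⁻¹ ≤ 𝔫 ∧ h85cP0 A M ℓ hℓ hM hA (jSS M ℓ)⁻¹ ≤ 𝔫) := by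
  rintro ⟨h1, h2⟩
  apply h𝔫
  rw [Ideal.eq_top_iff_one]
  have hb1 := h1 (h4c_one_sub_b_mem_Pinf A M hℓ hM hA)
  have hb2 := h2 (h4c_cert_mem_P0 A M hℓ hM hA)
  have hk : ℓ ^ 2 - 1 ≠ 0 := by
    have : 2 ≤ ℓ := hℓ.two_le
    have : 4 ≤ ℓ ^ 2 := by nlinarith
    omega
  have hVk : h4c_V A M ℓ ^ (ℓ ^ 2 - 1) ∈ 𝔫 := Ideal.pow_mem_of_mem 𝔫 hV _ (Nat.pos_of_ne_zero hk)
  have hbl : h4c_bB A M hℓ hM hA ^ ℓ ∈ 𝔫 := by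
    have := 𝔫.add_mem hb2 hVk
    rwa [sub_add_cancel] at this
  have hdvd : (1 - h4c_bB A M hℓ hM hA) ∣ (1 ^ ℓ - h4c_bB A M hℓ hM hA ^ ℓ) :=
    sub_dvd_pow_sub_pow _ _ _
  have h3 : 1 ^ ℓ - h4c_bB A M hℓ hM hA ^ ℓ ∈ 𝔫 := Ideal.mem_of_dvd 𝔫 hdvd hb1
  have := 𝔫.add_mem h3 hbl
  rwa [sub_add_cancel, one_pow] at this

/-- a prime `𝔫 ∋ V` with `b ∉ 𝔫` does not contain `P_0` (it lies on the component `∞` only). -/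
theorem h4c_P0_not_le (hℓ : ℓ.Prime) (hM : ¬ ℓ ∣ M) (hA : A.LiesOverPrime ℓ)
    (𝔫 : Ideal (chart (M * ℓ) A (jSS M ℓ)⁻¹)) [𝔫.IsPrime] (hV : h4c_V A M ℓ ∈ 𝔫)
    (hb : h4c_bB A M hℓ hM hA ∉ 𝔫) : ¬ h85cP0 A M ℓ hℓ hM hA (jSS M ℓ)⁻¹ ≤ 𝔫 := by
  intro h2
  have hb2 := h2 (h4c_cert_mem_P0 A M hℓ hM hA)
  have hk : ℓ ^ 2 - 1 ≠ 0 := by
    have : 2 ≤ ℓ := hℓ.two_le
    have : 4 ≤ ℓ ^ 2 := by nlinarith
    omega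
  have hVk : h4c_V A M ℓ ^ (ℓ ^ 2 - 1) ∈ 𝔫 := Ideal.pow_mem_of_mem 𝔫 hV _ (Nat.pos_of_ne_zero hk)
  have hbl : h4c_bB A M hℓ hM hA ^ ℓ ∈ 𝔫 := by
    have := 𝔫.add_mem hb2 hVk
    rwa [sub_add_cancel] at this
  exact hb (Ideal.IsPrime.mem_of_pow_mem inferInstance _ hbl)

/-- a proper ideal `𝔫 ∋ b` does not contain `P_∞` (it lies on the component `0` only). -/
theorem h4c_Pinf_not_le (hℓ : ℓ.Prime) (hM : ¬ ℓ ∣ M) (hA : A.LiesOverPrime ℓ)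
    (𝔫 : Ideal (chart (M * ℓ) A (jSS M ℓ)⁻¹)) (h𝔫 : 𝔫 ≠ ⊤)
    (hb : h4c_bB A M hℓ hM hA ∈ 𝔫) : ¬ h85cPinf A M ℓ hℓ hA (jSS M ℓ)⁻¹ ≤ 𝔫 := by
  intro h1
  apply h𝔫
  rw [Ideal.eq_top_iff_one]
  have hb1 := h1 (h4c_one_sub_b_mem_Pinf A M hℓ hM hA)
  have := 𝔫.add_mem hb1 hb
  rwa [sub_add_cancel] at this

end Level

end Fermat.Agent.LGC
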