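import Fermat.Agent.Red.KR.MEAlpha
import Fermat.Agent.S28.Reflect

/-!
# W3-LGC, SS-LOCAL-INF (b), C1 input (helper4): `j(q^d) / j(q)^d` is integral over `ℚ̄[1/j]`

The characteristic polynomial machine of S28 (level `d`, function `τ ↦ j(dτ)`) produces a monic
polynomial `P(X) = ∑ c_k(j) X^k` with root `j(q^d)` and `deg c_{n - i} ≤ d i`.  Reflecting it
(`S28/Reflect.lean`) gives a monic polynomial in `ℚ[1/j][X]` with root `j(q^d) / j(q)^d`.

* `h4c_me0_inf` : over `ℚ`;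
* `h4c_intK` : over `ℚ̄` (`evalC (jK Kbar)⁻¹`).
-/

set_option autoImplicit false
set_option linter.style.haveILetI false

open AlgebraicCurve ModularCurve IntermediateField Polynomial

noncomputable section

namespace Fermat.Agent.LGC

open Fermat.Agent.S37 Fermat.Agent.S37.GalI Fermat.Agent.Red.GV Fermat.Agent.S28
  Fermat.Agent.Red.KR

/-- `j(q^d) / j(q)^d` is integral over `ℚ[1/j]`. -/
theorem h4c_me0_inf (d : ℕ) (hd : 0 < d) :
    (evalAtQ jq⁻¹).IsIntegralElem (jSub d * jq⁻¹ ^ d) := by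
  have : NeZero d := ⟨hd.ne'⟩
  have hb := h44_bridgeStatement d hd
  have hc := h44_cuspStatement d hd
  obtain ⟨P, hP, -, hbound, hzero⟩ := h44_charpoly_machine hb.1 d (cycRing d) (jAt d) (holo_jAt d)
    (fun γ hγ τ => jAt_smul_of_mem_Gamma0 d d dvd_rfl hd γ hγ τ) d (hc.1 d dvd_rfl)
  have hz := h52_transfer_subring one_pos _ P hb.1 (hb.2.1 d hd) hzero
  obtain ⟨l', hl'gt, hl'⟩ := Nat.exists_infinite_primes (d + 1)
  have : Fact l'.Prime := ⟨hl'⟩
  have hl'd : ¬ l' ∣ d := fun h => by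
    have := Nat.le_of_dvd hd h
    omega
  have hQ := h44ReflectPoly_eval
    ((HahnSeries.C : ℂ →+* LaurentSeries ℂ).comp (cycRing d).subtype)
    P d hbound (cEmb jq) (cEmb (jSub d)) h44_cEmb_jq_ne_zero
  have hPz : P.eval₂ (Polynomial.eval₂RingHom
      ((HahnSeries.C : ℂ →+* LaurentSeries ℂ).comp (cycRing d).subtype) (cEmb jq))
      (cEmb (jSub d)) = 0 := by
    rw [← h44_eval₂_map]; exact hz
  rw [hPz, mul_zero] at hQ
  obtain ⟨Q, hQm, hQz⟩ := h52_integral_transfer d l' hd hl'd jq⁻¹ (jSub d * jq⁻¹ ^ d)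
    (h44ReflectPoly P d) (h44ReflectPoly_monic P hP d) (by
      rw [h44_eval₂_map, map_mul, map_pow, map_inv₀]
      exact hQ)
  refine ⟨Q.map (Polynomial.mapRingHom (GaloisRep.ratLocalizedAt l').subtype), hQm.map _, ?_⟩
  rw [Polynomial.eval₂_map, h27_evalAtQ_comp_map]
  exact hQz

end Fermat.Agent.LGC
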