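import Fermat.Agent.LGC.SSInt
import Fermat.Agent.LGC.FrickeChart
import Fermat.Agent.Red.GV.SoftRat

/-!
# W3-LGC / I4: Kronecker's congruence modulo `ℓ` exactly (helper55)

`ℓ ∤ M` a prime, `A` a valuation subring of `ℚ̄` over `ℓ`, `α, β : F_M → F_{Mℓ}` the two
degeneracy maps.  For a function `u` of the finite chart of level `M` with RATIONAL
`q`-expansion, the characteristic polynomial of `β u` over `α(F_M)` is

  `(X - u ^ ℓ) (X ^ ℓ - u) + ℓ · r`,

with `r` a polynomial of degree `≤ ℓ` with coefficients in the finite chart of level `M`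
(`h55k_charpoly_eq`, `h55k_kron`).
-/

set_option autoImplicit false
set_option linter.style.haveILetI false
set_option linter.unusedSectionVars false

open ModularCurve AlgebraicCurve Polynomial

noncomputable section

namespace Fermat.Agent.LGC

open Fermat.Agent.S37 Fermat.Agent.S28 Fermat.Agent.Red.Kron Fermat.Agent.Red.TRK
  Fermat.Agent.Red.GV Fermat.Agent.Red.GV.Soft

/-! ### Twists by roots of unity of order `ℓ` and the reduction -/

section Twist

variable (A : ValuationSubring Kbar) {ℓ : ℕ}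

/-- a root of unity of order `ℓ` reduces to `1`. -/
theorem h55k_residue_root (hℓ : ℓ.Prime) (hA : A.LiesOverPrime ℓ) (u : Aˣ)
    (hu : (((u : A) : Kbar)) ^ ℓ = 1) : IsLocalRing.residue A (u : A) = 1 := by
  have h1 := Fermat.Agent.Red.ESTF.h76_root_sub_one_mem_nonunits A hℓ hA hu
  have hπ := isResidueMap_residue A ℓ hA
  have h2 : IsLocalRing.residue A ((u : A) - 1) = 0 := (hπ.ker_eq _).mpr h1
  rw [map_sub, map_one, sub_eq_zero] at h2
  exact h2

/-- twisting by a unit which reduces to `1` does not change the reduction. -/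
theorem h55k_softRedT_twist (u : Aˣ) (hu : IsLocalRing.residue A (u : A) = 1)
    (x : softOT A (IsLocalRing.residue A))
    (hx' : twistK (((u : A) : Kbar)) (x : LaurentSeries Kbar) ∈
      softOT A (IsLocalRing.residue A)) :
    softRedT A (IsLocalRing.residue A) ⟨_, hx'⟩ = softRedT A (IsLocalRing.residue A) x := by
  obtain ⟨a, b, hb, hab⟩ := x.2
  have hu0 : (((u : A) : Kbar)) ≠ 0 := by
    intro h0
    have h1 : (u : A) = 0 := Subtype.ext h0
    exact u.ne_zero h1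
  have hra : redA (IsLocalRing.residue A) (h44g_twA u a) = redA (IsLocalRing.residue A) a := by
    rw [h44g_redA_twA, hu, twistK_one_left]
  have hrb : redA (IsLocalRing.residue A) (h44g_twA u b) = redA (IsLocalRing.residue A) b := by
    rw [h44g_redA_twA, hu, twistK_one_left]
  have hb' : redA (IsLocalRing.residue A) (h44g_twA u b) ≠ 0 := by
    rw [hrb]; exact hb
  have hab' : embA A (h44g_twA u a) =
      ((⟨_, hx'⟩ : softOT A (IsLocalRing.residue A)) : LaurentSeries Kbar) *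
        embA A (h44g_twA u b) := by
    rw [h44g_embA_twA, h44g_embA_twA, hab, twistK_mul hu0]
  have h1 := softRedT_mul_eq (⟨_, hx'⟩ : softOT A (IsLocalRing.residue A)) _ _ hb' hab'
  have h2 := softRedT_mul_eq x a b hb hab
  rw [hra, hrb] at h1
  exact mul_right_cancel₀ hb (h1.trans h2.symm)

/-- twisting by a root of unity of order `ℓ` preserves `softOT` and the reduction. -/
theorem h55k_twist_root (hℓ : ℓ.Prime) (hA : A.LiesOverPrime ℓ) {ω : Kbar} (hω : ω ^ ℓ = 1)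
    (x : softOT A (IsLocalRing.residue A)) :
    ∃ h : twistK ω (x : LaurentSeries Kbar) ∈ softOT A (IsLocalRing.residue A),
      softRedT A (IsLocalRing.residue A) ⟨_, h⟩ = softRedT A (IsLocalRing.residue A) x := by
  obtain ⟨u, hu⟩ := h44g_exists_unit_of_pow_eq_one A hℓ.ne_zero hω
  subst hu
  have hmem : twistK (((u : A) : Kbar)) (x : LaurentSeries Kbar) ∈
      softOT A (IsLocalRing.residue A) := h44g_isFrac_twistK u x.2
  exact ⟨hmem, h55k_softRedT_twist A u (h55k_residue_root A hℓ hA u hω) x hmem⟩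

end Twist

/-! ### Frobenius on series over the prime field -/

section Frob

variable {k : Type} [Field k] (ℓ : ℕ) [hF : Fact ℓ.Prime]

theorem h55k_coeffMap_id {R : Type*} [CommRing R] (x : LaurentSeries R) :
    coeffMap (RingHom.id R) x = x := by
  ext n
  rw [coeffMap_coeff]
  rfl

/-- for a series with coefficients in the prime field, `x ^ ℓ = x(q ^ ℓ)`. -/
theorem h55k_pow_eq_qExpand (κ : ZMod ℓ →+* k) (r : LaurentSeries (ZMod ℓ)) :
    (coeffMap κ r) ^ ℓ = qExpand k ℓ (coeffMap κ r) := by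
  haveI : NeZero ℓ := ⟨hF.out.ne_zero⟩
  have h1 := Fermat.Agent.Red.ESTF.h76_pow_char_eq_qExpand (R := ZMod ℓ) ℓ r
  have h2 : frobenius (ZMod ℓ) ℓ = RingHom.id (ZMod ℓ) := ZMod.frobenius_zmod ℓ
  rw [h2, h55k_coeffMap_id] at h1
  rw [← map_pow, h1, ModularCurve.coeffMap_qExpand]

end Frob

/-! ### An abstract form of the congruence -/

section Abs

/-- **abstract Kronecker congruence**: in a subring `S` with a reduction map `ρ` to a ring of
characteristic `ℓ`, if `ρ (s b) = ū`, `ū ^ ℓ = ρ t` and `ρ s₀ = (ρ t) ^ ℓ`, then all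
coefficients of `(X - s₀) ∏_{b < ℓ} (X - s b) - (X - t ^ ℓ) (X ^ ℓ - t)` lie in `S` and reduce
to `0`. -/
theorem h55k_abs {R R' : Type*} [CommRing R] [CommRing R'] (S : Subring R) (ρ : S →+* R')
    (ℓ : ℕ) [Fact ℓ.Prime] [CharP R' ℓ] (s₀ t : R) (s : ℕ → R) (hs₀ : s₀ ∈ S) (ht : t ∈ S)
    (hs : ∀ b, s b ∈ S) (ubar : R') (hsb : ∀ b, ρ ⟨s b, hs b⟩ = ubar)
    (hfrob : ubar ^ ℓ = ρ ⟨t, ht⟩) (h₀ : ρ ⟨s₀, hs₀⟩ = (ρ ⟨t, ht⟩) ^ ℓ) (m : ℕ) :
    ∃ h : (((X - C s₀) * ∏ b ∈ Finset.range ℓ, (X - C (s b))) -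
        (X - C (t ^ ℓ)) * (X ^ ℓ - C t) : R[X]).coeff m ∈ S, ρ ⟨_, h⟩ = 0 := by
  haveI : CharP R'[X] ℓ :=
    charP_of_injective_ringHom (f := (C : R' →+* R'[X])) Polynomial.C_injective ℓ
  set QS : S[X] := (X - C ⟨s₀, hs₀⟩) * ∏ b ∈ Finset.range ℓ, (X - C ⟨s b, hs b⟩) with hQS
  set PS : S[X] := (X - C (⟨t, ht⟩ ^ ℓ)) * (X ^ ℓ - C ⟨t, ht⟩) with hPS
  have hmapQ : QS.map S.subtype = (X - C s₀) * ∏ b ∈ Finset.range ℓ, (X - C (s b)) := by
    rw [hQS, Polynomial.map_mul, Polynomial.map_prod, Polynomial.map_sub,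
      Polynomial.map_X, Polynomial.map_C]
    congr 1
    refine Finset.prod_congr rfl fun b _ => ?_
    rw [Polynomial.map_sub, Polynomial.map_X, Polynomial.map_C]
    rfl
  have hmapP : PS.map S.subtype = (X - C (t ^ ℓ)) * (X ^ ℓ - C t) := by
    rw [hPS, Polynomial.map_mul, Polynomial.map_sub, Polynomial.map_sub,
      Polynomial.map_pow, Polynomial.map_X, Polynomial.map_C, Polynomial.map_C, map_pow]
    rfl
  have hρQ : QS.map ρ = PS.map ρ := by
    rw [hQS, hPS, Polynomial.map_mul, Polynomial.map_prod, Polynomial.map_sub,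
      Polynomial.map_X, Polynomial.map_C, Polynomial.map_mul, Polynomial.map_sub,
      Polynomial.map_sub, Polynomial.map_pow, Polynomial.map_X, Polynomial.map_C,
      Polynomial.map_C, map_pow, h₀]
    have h1 : ∏ b ∈ Finset.range ℓ, ((X - C (⟨s b, hs b⟩ : S)).map ρ) = (X - C ubar) ^ ℓ := by
      have h2 : ∀ b ∈ Finset.range ℓ, (X - C (⟨s b, hs b⟩ : S)).map ρ = X - C ubar := by
        intro b _
        rw [Polynomial.map_sub, Polynomial.map_X, Polynomial.map_C, hsb b]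
      rw [Finset.prod_congr rfl h2, Finset.prod_const, Finset.card_range]
    rw [h1, sub_pow_char, ← C_pow, hfrob]
  have hzero : (QS - PS).map ρ = 0 := by
    rw [Polynomial.map_sub, hρQ, sub_self]
  have hcoe : (((X - C s₀) * ∏ b ∈ Finset.range ℓ, (X - C (s b))) -
        (X - C (t ^ ℓ)) * (X ^ ℓ - C t) : R[X]).coeff m =
      (((QS - PS).coeff m : S) : R) := by
    rw [← hmapQ, ← hmapP, ← Polynomial.map_sub, Polynomial.coeff_map]
    rfl
  have hmem : (((X - C s₀) * ∏ b ∈ Finset.range ℓ, (X - C (s b))) -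
        (X - C (t ^ ℓ)) * (X ^ ℓ - C t) : R[X]).coeff m ∈ S := by
    rw [hcoe]
    exact ((QS - PS).coeff m).2
  refine ⟨hmem, ?_⟩
  have h2 : ρ ((QS - PS).coeff m) = 0 := by
    rw [← Polynomial.coeff_map, hzero, Polynomial.coeff_zero]
  rw [← h2]
  congr 1
  exact Subtype.ext hcoe

end Abs

/-! ### The Kronecker polynomial in the variable `t = q^{1/ℓ}` -/

section Poly

variable (A : ValuationSubring Kbar) (ℓ : ℕ) [NeZero ℓ]

/-- `(X - s(t^{ℓ²})) · ∏_{b < ℓ} (X - s(ζ^b t))`. -/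
def h55k_Q (ζ : Kbar) (s : LaurentSeries Kbar) : (LaurentSeries Kbar)[X] :=
  (X - C (qExpand Kbar (ℓ * ℓ) s)) * ∏ b ∈ Finset.range ℓ, (X - C (twistK (ζ ^ b) s))

/-- `(X - s(t^ℓ)^ℓ) · (X^ℓ - s(t^ℓ))`. -/
def h55k_P (s : LaurentSeries Kbar) : (LaurentSeries Kbar)[X] :=
  (X - C ((qExpand Kbar ℓ s) ^ ℓ)) * (X ^ ℓ - C (qExpand Kbar ℓ s))

variable {ℓ}

/-- **Kronecker's congruence for series**: if the reduction of `x` has coefficients in the
prime field, the coefficients of `Q - P` are Gauss-integral fractions with reduction `0`. -/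
theorem h55k_coeff_red (hℓ : ℓ.Prime) (hA : A.LiesOverPrime ℓ) {ζ : Kbar} (hζ : ζ ^ ℓ = 1)
    (x : softOT A (IsLocalRing.residue A)) (κ : ZMod ℓ →+* IsLocalRing.ResidueField A)
    (r : LaurentSeries (ZMod ℓ)) (hr : softRedT A (IsLocalRing.residue A) x = coeffMap κ r)
    (m : ℕ) :
    ∃ h : (h55k_Q ℓ ζ (x : LaurentSeries Kbar) - h55k_P ℓ (x : LaurentSeries Kbar)).coeff m ∈
        softOT A (IsLocalRing.residue A),
      softRedT A (IsLocalRing.residue A) ⟨_, h⟩ = 0 := by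
  haveI : Fact ℓ.Prime := ⟨hℓ⟩
  have hπ := isResidueMap_residue A ℓ hA
  haveI : CharP (IsLocalRing.ResidueField A) ℓ := Base.h80_charP A _ ℓ hπ
  haveI : CharP (LaurentSeries (IsLocalRing.ResidueField A)) ℓ :=
    charP_of_injective_ringHom
      (f := (HahnSeries.C : IsLocalRing.ResidueField A →+*
        LaurentSeries (IsLocalRing.ResidueField A)))
      HahnSeries.C_injective ℓ
  have hroot : ∀ b : ℕ, (ζ ^ b) ^ ℓ = 1 := fun b => by
    rw [← pow_mul, mul_comm, pow_mul, hζ, one_pow]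
  have h0mem : qExpand Kbar (ℓ * ℓ) (x : LaurentSeries Kbar) ∈
      softOT A (IsLocalRing.residue A) := mem_softOT_qExpand A _ (ℓ * ℓ) x.2
  have h1mem : qExpand Kbar ℓ (x : LaurentSeries Kbar) ∈ softOT A (IsLocalRing.residue A) :=
    mem_softOT_qExpand A _ ℓ x.2
  have htw : ∀ b : ℕ, ∃ h : twistK (ζ ^ b) (x : LaurentSeries Kbar) ∈
      softOT A (IsLocalRing.residue A),
      softRedT A (IsLocalRing.residue A) ⟨_, h⟩ = softRedT A (IsLocalRing.residue A) x :=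
    fun b => h55k_twist_root A hℓ hA (hroot b) x
  choose hbmem hbred using htw
  have hρ0 : softRedT A (IsLocalRing.residue A) ⟨_, h0mem⟩ =
      qExpand _ (ℓ * ℓ) (softRedT A (IsLocalRing.residue A) x) :=
    softRedT_qExpand A _ (ℓ * ℓ) x h0mem
  have hρ1 : softRedT A (IsLocalRing.residue A) ⟨_, h1mem⟩ =
      qExpand _ ℓ (softRedT A (IsLocalRing.residue A) x) :=
    softRedT_qExpand A _ ℓ x h1mem
  have hfrob : (softRedT A (IsLocalRing.residue A) x) ^ ℓ =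
      qExpand _ ℓ (softRedT A (IsLocalRing.residue A) x) := by
    rw [hr]
    exact h55k_pow_eq_qExpand ℓ κ r
  exact h55k_abs (softOT A (IsLocalRing.residue A)) (softRedT A (IsLocalRing.residue A)) ℓ
    _ _ (fun b => twistK (ζ ^ b) (x : LaurentSeries Kbar)) h0mem h1mem hbmem
    (softRedT A (IsLocalRing.residue A) x) hbred (by rw [hfrob, hρ1])
    (by rw [hρ0, hρ1, ← qExpand_qExpand, ← map_pow, hfrob]) m

end Poly

/-! ### The characteristic polynomial of `β u` over `α(F_M)` -/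

section Main

variable (M ℓ : ℕ) [NeZero M] [NeZero ℓ] (A : ValuationSubring Kbar)

/-- the characteristic polynomial of `β u` over `α(F_M)`. -/
def h55k_Psi (u : FF M) : (FF M)[X] :=
  charpolyAlong (heckeAlphaBar Kbar M ℓ)
    (Fermat.Agent.Red.HKMod.finiteAlong_heckeAlphaBar M ℓ) (heckeBetaBar Kbar M ℓ u)

/-- the polynomial `(X - u ^ ℓ) (X ^ ℓ - u)`. -/
def h55k_P0 (u : FF M) : (FF M)[X] :=
  (X - C (u ^ ℓ)) * (X ^ ℓ - C u)

theorem h55k_map_Psi (hℓ : ℓ.Prime) (hM : ¬ ℓ ∣ M) (ζ : Kbar) (hζ : IsPrimitiveRoot ζ ℓ)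
    (u : FF M) :
    (h55k_Psi M ℓ u).map (kIotaK M ℓ) = h55k_Q ℓ ζ (u : LaurentSeries Kbar) :=
  charpolyAlong_alpha_beta M ℓ hℓ hM ζ hζ _ u

theorem h55k_map_P0 (u : FF M) :
    (h55k_P0 M ℓ u).map (kIotaK M ℓ) = h55k_P ℓ (u : LaurentSeries Kbar) := by
  rw [h55k_P0, h55k_P, Polynomial.map_mul, Polynomial.map_sub, Polynomial.map_sub,
    Polynomial.map_pow, Polynomial.map_X, Polynomial.map_C, Polynomial.map_C, map_pow,
    kIotaK_apply]

theorem h55k_kIotaK_coeff (hℓ : ℓ.Prime) (hM : ¬ ℓ ∣ M) (ζ : Kbar) (hζ : IsPrimitiveRoot ζ ℓ)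
    (u : FF M) (m : ℕ) :
    qExpand Kbar ℓ (((h55k_Psi M ℓ u - h55k_P0 M ℓ u).coeff m : FF M) : LaurentSeries Kbar) =
      (h55k_Q ℓ ζ (u : LaurentSeries Kbar) - h55k_P ℓ (u : LaurentSeries Kbar)).coeff m := by
  rw [← h55k_map_Psi M ℓ hℓ hM ζ hζ u, ← h55k_map_P0 M ℓ u, ← Polynomial.map_sub,
    Polynomial.coeff_map, kIotaK_apply]

/-- the coefficients of `Ψ - P₀` are rational if `u` is. -/
theorem h55k_isRat_coeff (hℓ : ℓ.Prime) (hM : ¬ ℓ ∣ M) (u : FF M) (hrat : IsRat u) (m : ℕ) :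
    IsRat ((h55k_Psi M ℓ u - h55k_P0 M ℓ u).coeff m) := by
  haveI : NeZero ((ℓ : ℕ) : Kbar) := ⟨by exact_mod_cast NeZero.ne ℓ⟩
  obtain ⟨ζ, hζ⟩ := HasEnoughRootsOfUnity.exists_primitiveRoot Kbar ℓ
  rw [isRat_iff_gal_fixed]
  intro σ
  apply Subtype.ext
  rw [coe_gal_smul]
  apply qExpand_injective (R := Kbar) ℓ
  rw [← ModularCurve.coeffMap_qExpand]
  have hζ' : IsPrimitiveRoot ((σ : Kbar →+* Kbar) ζ) ℓ :=
    hζ.map_of_injective (σ : Kbar →+* Kbar).injective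
  have e1 := h55k_kIotaK_coeff M ℓ hℓ hM ζ hζ u m
  have e2 := h55k_kIotaK_coeff M ℓ hℓ hM _ hζ' u m
  have hu : coeffMap (σ : Kbar →+* Kbar) (u : LaurentSeries Kbar) = (u : LaurentSeries Kbar) := by
    have h1 := congrArg (fun y : FF M => (y : LaurentSeries Kbar))
      (GalI.gal_smul_of_isRat σ hrat)
    simpa only [coe_gal_smul] using h1
  have hQ : (h55k_Q ℓ ζ (u : LaurentSeries Kbar)).map (coeffMap (σ : Kbar →+* Kbar)) =
      h55k_Q ℓ ((σ : Kbar →+* Kbar) ζ) (u : LaurentSeries Kbar) := by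
    rw [h55k_Q, h55k_Q, Polynomial.map_mul, Polynomial.map_prod, Polynomial.map_sub,
      Polynomial.map_X, Polynomial.map_C, ModularCurve.coeffMap_qExpand, hu]
    congr 1
    refine Finset.prod_congr rfl fun b _ => ?_
    rw [Polynomial.map_sub, Polynomial.map_X, Polynomial.map_C, coeffMap_twistK, hu, map_pow]
  have hP : (h55k_P ℓ (u : LaurentSeries Kbar)).map (coeffMap (σ : Kbar →+* Kbar)) =
      h55k_P ℓ (u : LaurentSeries Kbar) := by
    rw [h55k_P, Polynomial.map_mul, Polynomial.map_sub, Polynomial.map_sub,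
      Polynomial.map_pow, Polynomial.map_X, Polynomial.map_C, Polynomial.map_C, map_pow,
      ModularCurve.coeffMap_qExpand, hu]
  rw [e1, ← Polynomial.coeff_map, Polynomial.map_sub, hQ, hP, ← e2, e1]

/-- the coefficients of `Ψ - P₀` are Gauss-integral with reduction `0`. -/
theorem h55k_coeff_softR (hℓ : ℓ.Prime) (hM : ¬ ℓ ∣ M) (hA : A.LiesOverPrime ℓ) (u : FF M)
    (hu : u ∈ softV A M) (hrat : IsRat u) (m : ℕ) :
    ∃ h : (h55k_Psi M ℓ u - h55k_P0 M ℓ u).coeff m ∈ softV A M, softR A M ⟨_, h⟩ = 0 := by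
  haveI : Fact ℓ.Prime := ⟨hℓ⟩
  have hπ := isResidueMap_residue A ℓ hA
  haveI : CharP (IsLocalRing.ResidueField A) ℓ := Base.h80_charP A _ ℓ hπ
  set κ : ZMod ℓ →+* IsLocalRing.ResidueField A := ZMod.castHom (dvd_refl ℓ) _ with hκ
  obtain ⟨r, hr, -⟩ := softR_of_isRat A M hℓ hA κ u hrat hu
  haveI : NeZero ((ℓ : ℕ) : Kbar) := ⟨by exact_mod_cast NeZero.ne ℓ⟩
  obtain ⟨ζ, hζ⟩ := HasEnoughRootsOfUnity.exists_primitiveRoot Kbar ℓ
  obtain ⟨hmem, hred⟩ := h55k_coeff_red A hℓ hA hζ.pow_eq_one (softIncl A M ⟨u, hu⟩) κ r hr m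
  have e := h55k_kIotaK_coeff M ℓ hℓ hM ζ hζ u m
  set d : FF M := (h55k_Psi M ℓ u - h55k_P0 M ℓ u).coeff m with hd
  have hmem' : qExpand Kbar ℓ (d : LaurentSeries Kbar) ∈ softOT A (IsLocalRing.residue A) := by
    rw [e]
    exact hmem
  have hred' : softRedT A (IsLocalRing.residue A) ⟨_, hmem'⟩ = 0 := by
    rw [← hred]
    congr 1
    exact Subtype.ext e
  have hdG : d ∈ gaussV A M := by
    obtain ⟨a, b, hb, hab⟩ := hmem'
    exact h44g_mem_gaussSubring_of_frac_qExpand A (IsLocalRing.residue A) M ℓ hπ hM ℓ d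
      ⟨a, b, hb, hab⟩
  have hdS : d ∈ softV A M := gaussV_le_softV A M hdG
  refine ⟨hdS, ?_⟩
  have h1 : softRedT A (IsLocalRing.residue A) ⟨qExpand Kbar ℓ (d : LaurentSeries Kbar), hmem'⟩ =
      qExpand (IsLocalRing.ResidueField A) ℓ (softR A M ⟨d, hdS⟩) :=
    softRedT_qExpand A (IsLocalRing.residue A) ℓ (softIncl A M ⟨d, hdS⟩) hmem'
  rw [hred'] at h1
  apply qExpand_injective (R := IsLocalRing.ResidueField A) ℓ
  rw [map_zero]
  exact h1.symm

/-- the coefficients of `Ψ - P₀` are divisible by `ℓ` in the Gauss ring. -/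
theorem h55k_coeff_div (hℓ : ℓ.Prime) (hM : ¬ ℓ ∣ M) (hA : A.LiesOverPrime ℓ) (u : FF M)
    (hu : u ∈ softV A M) (hrat : IsRat u) (m : ℕ) :
    cst M (((ℓ : ℕ) : Kbar))⁻¹ * (h55k_Psi M ℓ u - h55k_P0 M ℓ u).coeff m ∈ gaussV A M := by
  haveI : Fact ℓ.Prime := ⟨hℓ⟩
  have hπ := isResidueMap_residue A ℓ hA
  haveI : CharP (IsLocalRing.ResidueField A) ℓ := Base.h80_charP A _ ℓ hπ
  set κ : ZMod ℓ →+* IsLocalRing.ResidueField A := ZMod.castHom (dvd_refl ℓ) _ with hκ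
  obtain ⟨hd, hred⟩ := h55k_coeff_softR M ℓ A hℓ hM hA u hu hrat m
  obtain ⟨r', hr', hdiv⟩ := softR_of_isRat A M hℓ hA κ _
    (h55k_isRat_coeff M ℓ hℓ hM u hrat m) hd
  have h0 : r' = 0 := by
    apply soft_coeffMap_injective κ
    rw [← hr', hred, map_zero]
  exact softV_le_gaussV A M hℓ hM hA (hdiv h0)

/-- `β` maps the finite chart of level `M` into the finite chart of level `M ℓ`. -/
theorem h55k_beta_mem (hℓ : ℓ.Prime) (hM : ¬ ℓ ∣ M) (hA : A.LiesOverPrime ℓ) (u : FF M)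
    (hu : u ∈ modelFin M A) : heckeBetaBar Kbar M ℓ u ∈ modelFin (M * ℓ) A := by
  have h1 : heckeAlphaBar Kbar M ℓ u ∈ modelAt (M * ℓ) A (heckeAlphaBar Kbar M ℓ (jB M)) :=
    Fermat.Agent.Red.KR.map_mem_modelAt (heckeAlphaBar Kbar M ℓ) A hu
  rw [Fermat.Agent.Red.HKMod.heckeAlphaBar_jBar] at h1
  have h2 := h44g_kFricke_mem_modelFin M ℓ hℓ hM A hA h1
  rwa [kFricke_alpha] at h2

theorem h55k_Psi_coeff_mem (hℓ : ℓ.Prime) (hM : ¬ ℓ ∣ M) (hA : A.LiesOverPrime ℓ) (u : FF M)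
    (hu : u ∈ modelFin M A) (m : ℕ) : (h55k_Psi M ℓ u).coeff m ∈ modelFin M A := by
  have hb : heckeBetaBar Kbar M ℓ u ∈
      modelAt (M * ℓ) A (heckeAlphaBar Kbar M ℓ (jB M)) := by
    rw [Fermat.Agent.Red.HKMod.heckeAlphaBar_jBar]
    exact h55k_beta_mem M ℓ A hℓ hM hA u hu
  exact h87_coeff_mem_modelAt (heckeAlphaBar Kbar M ℓ)
    (Fermat.Agent.Red.HKMod.finiteAlong_heckeAlphaBar M ℓ) A (jB M) hb m

theorem h55k_P0_coeff_mem (u : FF M) (hu : u ∈ modelFin M A) (m : ℕ) :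
    (h55k_P0 M ℓ u).coeff m ∈ modelFin M A := by
  set S := modelFin M A
  set PS : S[X] := (X - C (⟨u, hu⟩ ^ ℓ)) * (X ^ ℓ - C ⟨u, hu⟩) with hPS
  have hmap : PS.map S.subtype = h55k_P0 M ℓ u := by
    rw [hPS, h55k_P0, Polynomial.map_mul, Polynomial.map_sub, Polynomial.map_sub,
      Polynomial.map_pow, Polynomial.map_X, Polynomial.map_C, Polynomial.map_C, map_pow]
    rfl
  rw [← hmap, Polynomial.coeff_map]
  exact (PS.coeff m).2

theorem h55k_natDegree_charpolyAlong {K F F' : Type*} [Field K] [Field F] [Field F']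
    [Algebra K F] [Algebra K F'] (φ : F →ₐ[K] F') (hfin : FiniteAlong K φ) (g : F') :
    (charpolyAlong φ hfin g).natDegree = (letI := algebraAlong φ; Module.finrank F F') := by
  letI := algebraAlong φ
  haveI : Module.Finite F F' := hfin
  exact LinearMap.charpoly_natDegree _

theorem h55k_natDegree_Psi (hℓ : ℓ.Prime) (hM : ¬ ℓ ∣ M) (u : FF M) :
    (h55k_Psi M ℓ u).natDegree = ℓ + 1 := by
  rw [h55k_Psi, h55k_natDegree_charpolyAlong]
  exact finrank_heckeAlphaBar M ℓ hℓ hM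

theorem h55k_monic_P0 (u : FF M) : (h55k_P0 M ℓ u).Monic :=
  (monic_X_sub_C _).mul (monic_X_pow_sub_C _ (NeZero.ne ℓ))

theorem h55k_natDegree_P0 (u : FF M) : (h55k_P0 M ℓ u).natDegree = ℓ + 1 := by
  rw [h55k_P0, (monic_X_sub_C _).natDegree_mul (monic_X_pow_sub_C _ (NeZero.ne ℓ)),
    natDegree_X_sub_C, natDegree_X_pow_sub_C, add_comm]

theorem h55k_natDegree_sub (hℓ : ℓ.Prime) (hM : ¬ ℓ ∣ M) (u : FF M) :
    (h55k_Psi M ℓ u - h55k_P0 M ℓ u).natDegree ≤ ℓ := by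
  have hΨ : (h55k_Psi M ℓ u).Monic := charpolyAlong_monic _ _ _
  have hP : (h55k_P0 M ℓ u).Monic := h55k_monic_P0 M ℓ u
  have hΨd := h55k_natDegree_Psi M ℓ hℓ hM u
  have hPd := h55k_natDegree_P0 M ℓ u
  rw [natDegree_le_iff_coeff_eq_zero]
  intro N hN
  rw [coeff_sub]
  rcases Nat.lt_or_ge (ℓ + 1) N with h | h
  · rw [coeff_eq_zero_of_natDegree_lt (by rw [hΨd]; exact h),
      coeff_eq_zero_of_natDegree_lt (by rw [hPd]; exact h), sub_zero]
  · have hN' : N = ℓ + 1 := le_antisymm h hN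
    have h1 : (h55k_Psi M ℓ u).coeff N = 1 := by
      rw [hN', ← hΨd]
      exact hΨ.coeff_natDegree
    have h2 : (h55k_P0 M ℓ u).coeff N = 1 := by
      rw [hN', ← hPd]
      exact hP.coeff_natDegree
    rw [h1, h2, sub_self]

/-- **I4, Kronecker modulo `ℓ` exactly (characteristic polynomial form).**  For `u` in the
finite chart of level `M` with rational `q`-expansion, the characteristic polynomial of `β u`
over `α(F_M)` is `(X - u ^ ℓ)(X ^ ℓ - u) + ℓ · r` with `r` of degree `≤ ℓ` with coefficients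
in the finite chart of level `M`. -/
theorem h55k_charpoly_eq (hℓ : ℓ.Prime) (hM : ¬ ℓ ∣ M) (hA : A.LiesOverPrime ℓ) (u : FF M)
    (hu : u ∈ modelFin M A) (hrat : IsRat u) :
    ∃ r : (FF M)[X], (∀ n, r.coeff n ∈ modelFin M A) ∧ r.natDegree ≤ ℓ ∧
      h55k_Psi M ℓ u = (X - C (u ^ ℓ)) * (X ^ ℓ - C u) + C ((ℓ : ℕ) : FF M) * r := by
  have hℓ0 : ((ℓ : ℕ) : Kbar) ≠ 0 := Nat.cast_ne_zero.mpr hℓ.ne_zero
  have huS : u ∈ softV A M :=
    gaussV_le_softV A M (modelFin_le_gaussV A M hℓ hM hA hu)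
  refine ⟨C (cst M (((ℓ : ℕ) : Kbar))⁻¹) * (h55k_Psi M ℓ u - h55k_P0 M ℓ u), ?_, ?_, ?_⟩
  · intro n
    rw [coeff_C_mul]
    refine mem_modelFin_of_cst_mul A M hℓ hM hA _ (h55k_coeff_div M ℓ A hℓ hM hA u huS hrat n)
      ((ℓ : ℕ) : Kbar) (natCast_mem A ℓ) hℓ0 ?_
    rw [← mul_assoc, ← map_mul, mul_inv_cancel₀ hℓ0, map_one, one_mul, coeff_sub]
    exact sub_mem (h55k_Psi_coeff_mem M ℓ A hℓ hM hA u hu n) (h55k_P0_coeff_mem M ℓ A u hu n)
  · exact (natDegree_C_mul_le _ _).trans (h55k_natDegree_sub M ℓ hℓ hM u)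
  · have h1 : ((ℓ : ℕ) : FF M) = cst M ((ℓ : ℕ) : Kbar) := (map_natCast _ ℓ).symm
    rw [← mul_assoc, ← C_mul, h1, ← map_mul, mul_inv_cancel₀ hℓ0, map_one, C_1, one_mul]
    show h55k_Psi M ℓ u = h55k_P0 M ℓ u + (h55k_Psi M ℓ u - h55k_P0 M ℓ u)
    ring

/-- **I4, Kronecker modulo `ℓ` exactly.**  For `u` in the finite chart of level `M` with
rational `q`-expansion, `β u` is a root of `(X - u ^ ℓ)(X ^ ℓ - u) + ℓ · r` (coefficients
mapped by `α`), with `r` of degree `≤ ℓ` with coefficients in the finite chart of level `M`. -/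
theorem h55k_kron (hℓ : ℓ.Prime) (hM : ¬ ℓ ∣ M) (hA : A.LiesOverPrime ℓ) (u : FF M)
    (hu : u ∈ modelFin M A) (hrat : IsRat u) :
    ∃ r : (FF M)[X], (∀ n, r.coeff n ∈ modelFin M A) ∧ r.natDegree ≤ ℓ ∧
      ((X - C (u ^ ℓ)) * (X ^ ℓ - C u) + C ((ℓ : ℕ) : FF M) * r).eval₂
        (heckeAlphaBar Kbar M ℓ).toRingHom (heckeBetaBar Kbar M ℓ u) = 0 := by
  obtain ⟨r, hr, hdeg, heq⟩ := h55k_charpoly_eq M ℓ A hℓ hM hA u hu hrat
  refine ⟨r, hr, hdeg, ?_⟩
  rw [← heq]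
  exact h44g_eval₂_charpolyAlong (heckeAlphaBar Kbar M ℓ) _ _

end Main

end Fermat.Agent.LGC
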