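import Mathlib

/-!
# W3-LGC, theorem (A), algebraic core (helper62): the different at a node (Mathlib only)

Situation (level `N = M ℓ`, `ℓ ∤ M`): `Λ` is (the image of) the chart of level `M`, `B` the chart
of level `N`, `P∞`, `P₀` the two primes of `B` cut out by the two Gauss valuations, and `Y ∈ B`
is a root of a polynomial `f = (T - a) (T ^ ℓ - c) + ℓ r` over `Λ`
(Kronecker's congruence `f ≡ (T - a) (T ^ ℓ - c)` modulo `ℓ`, *exactly* modulo `ℓ`).
Put `z = f'(Y)`.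

* `h62n_key` : the identity `(Y - a) z = ℓ S` with an explicit `S ∈ B`, together with
  `S ∉ P₀`, `z ∈ P₀`, `z ∉ P∞`, `z ≡ a ^ ℓ - c` modulo `P∞`.  In particular the `P₀`-adic
  valuation of `z` is exactly that of `ℓ`.
* `h62n_core` : if `B` is a domain in which principal ideals are unmixed (`h62n_Unmixed`, true
  for noetherian integrally closed domains), `ℓ B = P∞ ∩ P₀` and `z` divides a power of `ℓ`
  (generic unramifiedness), then `P₀ = z B`, `P∞ = (ℓ / z) B`: the node is a regular point with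
  local equation `x y = ℓ`.
-/

set_option autoImplicit false

open Polynomial

namespace Fermat.Agent.LGC

/-- Unmixedness of principal ideals (true in every noetherian integrally closed domain):
divisibility by `z` can be tested at the primes of height `≤ 1` containing `z`. -/
def h62n_Unmixed (B : Type*) [CommRing B] : Prop :=
  ∀ z w : B, z ≠ 0 →
    (∀ P : Ideal B, P.IsPrime → z ∈ P →
      (∀ Q : Ideal B, Q.IsPrime → Q ≠ ⊥ → Q ≤ P → Q = P) → ∃ s : B, s ∉ P ∧ z ∣ s * w) →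
    z ∣ w

section core

variable {Λ B : Type*} [CommRing Λ] [CommRing B] [Algebra Λ B]

/-- the polynomial `f = (T - a)(T^ℓ - c) + ℓ r`. -/
noncomputable def h62n_poly (ℓ : ℕ) (a c : Λ) (r : Λ[X]) : Λ[X] :=
  (X - C a) * (X ^ ℓ - C c) + C (ℓ : Λ) * r

theorem h62n_derivative_poly (ℓ : ℕ) (a c : Λ) (r : Λ[X]) :
    derivative (h62n_poly ℓ a c r) =
      (X ^ ℓ - C c) + (X - C a) * (C (ℓ : Λ) * X ^ (ℓ - 1)) + C (ℓ : Λ) * derivative r := by
  unfold h62n_poly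
  simp only [derivative_add, derivative_mul, derivative_sub, derivative_X, derivative_C,
    derivative_X_pow, sub_zero, one_mul, zero_mul, zero_add]

/-- the element `z = f'(Y)`. -/
noncomputable def h62n_z (ℓ : ℕ) (a c : Λ) (r : Λ[X]) (Y : B) : B :=
  aeval Y (derivative (h62n_poly ℓ a c r))

/-- the element `S` with `(Y - a) z = ℓ S`. -/
noncomputable def h62n_S (ℓ : ℕ) (a : Λ) (r : Λ[X]) (Y : B) : B :=
  - aeval Y r + (Y - algebraMap Λ B a) ^ 2 * Y ^ (ℓ - 1)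
    + (Y - algebraMap Λ B a) * aeval Y (derivative r)

theorem h62n_z_eq (ℓ : ℕ) (a c : Λ) (r : Λ[X]) (Y : B) :
    h62n_z ℓ a c r Y = (Y ^ ℓ - algebraMap Λ B c)
      + (Y - algebraMap Λ B a) * ((ℓ : B) * Y ^ (ℓ - 1))
      + (ℓ : B) * aeval Y (derivative r) := by
  rw [h62n_z, h62n_derivative_poly]
  simp [aeval_def, eval₂_add, eval₂_mul, eval₂_sub]

/-- **the identity** `(Y - a) f'(Y) = ℓ S`. -/
theorem h62n_mul_z (ℓ : ℕ) (a c : Λ) (r : Λ[X]) (Y : B)
    (hf : aeval Y (h62n_poly ℓ a c r) = 0) :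
    (Y - algebraMap Λ B a) * h62n_z ℓ a c r Y = (ℓ : B) * h62n_S ℓ a r Y := by
  have hfY : (Y - algebraMap Λ B a) * (Y ^ ℓ - algebraMap Λ B c) + (ℓ : B) * aeval Y r = 0 := by
    have := hf
    unfold h62n_poly at this
    simpa [aeval_def, eval₂_add, eval₂_mul, eval₂_sub] using this
  rw [h62n_z_eq, h62n_S]
  linear_combination hfY

/-- exact division by `T - a` of `δ r - r(a) (T^ℓ - c)`, `δ = a^ℓ - c`. -/
theorem h62n_exists_quot [Nontrivial Λ] (ℓ : ℕ) (a c : Λ) (r : Λ[X]) (hr : r.natDegree ≤ ℓ) :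
    ∃ H : Λ[X], C (a ^ ℓ - c) * r - C (r.eval a) * (X ^ ℓ - C c) = (X - C a) * H ∧
      H.coeff ℓ = 0 ∧ (ℓ ≠ 0 → H.natDegree < ℓ) := by
  set p : Λ[X] := C (a ^ ℓ - c) * r - C (r.eval a) * (X ^ ℓ - C c) with hp
  have hroot : p.IsRoot a := by
    simp only [hp, IsRoot.def, eval_sub, eval_mul, eval_C, eval_pow, eval_X]
    ring
  obtain ⟨H, hH⟩ := (dvd_iff_isRoot.mpr hroot)
  have hpdeg : p.natDegree ≤ ℓ := by
    rw [hp]
    refine (natDegree_sub_le _ _).trans (max_le ?_ ?_)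
    · exact (natDegree_C_mul_le _ _).trans hr
    · refine (natDegree_C_mul_le _ _).trans ?_
      exact (natDegree_sub_le _ _).trans (max_le (natDegree_X_pow_le _) (by simp))
  have hHdeg : H = 0 ∨ H.natDegree + 1 ≤ ℓ := by
    by_cases hH0 : H = 0
    · exact Or.inl hH0
    · right
      have hmon : (X - C a : Λ[X]).Monic := monic_X_sub_C a
      have h1 : p.natDegree = (X - C a : Λ[X]).natDegree + H.natDegree := by
        rw [hH]
        exact hmon.natDegree_mul' hH0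
      rw [natDegree_X_sub_C] at h1
      omega
  refine ⟨H, hH, ?_, ?_⟩
  · rcases hHdeg with h | h
    · simp [h]
    · exact coeff_eq_zero_of_natDegree_lt (by omega)
  · intro hℓ
    rcases hHdeg with h | h
    · simp [h]; omega
    · omega

/-- **Key computation.**  `S ∉ P₀`, `z ∈ P₀`, `z ≡ a ^ ℓ - c` modulo `P∞`. -/
theorem h62n_key [Nontrivial Λ]
    (ℓ : ℕ) (hℓne : ℓ ≠ 0) (Pinf P0 : Ideal B) [hP0 : P0.IsPrime]
    (hℓPinf : (ℓ : B) ∈ Pinf) (hℓP0 : (ℓ : B) ∈ P0)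
    (Y : B) (a c : Λ) (r : Λ[X]) (hr : r.natDegree ≤ ℓ)
    (hY1 : Y - algebraMap Λ B a ∈ Pinf)
    (hY2 : Y ^ ℓ - algebraMap Λ B c ∈ P0)
    (hYa : Y - algebraMap Λ B a ∉ P0)
    (hδ : algebraMap Λ B (a ^ ℓ - c) ∉ P0)
    (hLI : ∀ g : Λ[X], g.natDegree < ℓ → aeval Y g ∈ P0 →
      ∀ i, algebraMap Λ B (g.coeff i) ∈ P0) :
    h62n_S ℓ a r Y ∉ P0 ∧ h62n_z ℓ a c r Y ∈ P0 ∧
      h62n_z ℓ a c r Y - algebraMap Λ B (a ^ ℓ - c) ∈ Pinf := by
  classical
  set z : B := h62n_z ℓ a c r Y with hz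
  have hz_eq := h62n_z_eq ℓ a c r Y
  set S : B := h62n_S ℓ a r Y with hS
  obtain ⟨H, hH, hHcoeff, hHdeg⟩ := h62n_exists_quot ℓ a c r hr
  have hHdeg' := hHdeg hℓne
  have E1 : algebraMap Λ B (a ^ ℓ - c) * aeval Y r
      - algebraMap Λ B (r.eval a) * (Y ^ ℓ - algebraMap Λ B c)
      = (Y - algebraMap Λ B a) * aeval Y H := by
    have := congrArg (aeval Y) hH
    simpa [aeval_def, eval₂_add, eval₂_mul, eval₂_sub] using this
  have E2 : algebraMap Λ B (a ^ ℓ - c) * aeval Y (derivative r)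
      - algebraMap Λ B (r.eval a) * ((ℓ : B) * Y ^ (ℓ - 1))
      = aeval Y H + (Y - algebraMap Λ B a) * aeval Y (derivative H) := by
    have := congrArg (fun q => aeval Y (derivative q)) hH
    simp only [derivative_sub, derivative_mul, derivative_C, zero_mul, zero_add, derivative_X_pow,
      derivative_X, sub_zero, one_mul] at this
    simpa [aeval_def, eval₂_add, eval₂_mul, eval₂_sub] using this
  set G : Λ[X] := C (a ^ ℓ - c) * X ^ (ℓ - 1) + derivative H with hG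
  have hGY : aeval Y G = algebraMap Λ B (a ^ ℓ - c) * Y ^ (ℓ - 1) + aeval Y (derivative H) := by
    rw [hG]
    simp [aeval_def, eval₂_add, eval₂_mul]
  have hGdeg : G.natDegree < ℓ := by
    rw [hG]
    have h1 : (C (a ^ ℓ - c) * X ^ (ℓ - 1) : Λ[X]).natDegree ≤ ℓ - 1 :=
      (natDegree_C_mul_le _ _).trans (natDegree_X_pow_le _)
    have h2 : (derivative H).natDegree ≤ ℓ - 1 :=
      (natDegree_derivative_le H).trans (by omega)
    have := (natDegree_add_le _ _).trans (max_le h1 h2)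
    omega
  have hGcoeff : G.coeff (ℓ - 1) = a ^ ℓ - c := by
    rw [hG, coeff_add, coeff_C_mul, coeff_X_pow, if_pos rfl, mul_one, coeff_derivative]
    have : ℓ - 1 + 1 = ℓ := by omega
    rw [this, hHcoeff]
    simp
  have hkey : algebraMap Λ B (a ^ ℓ - c) * S
      = - algebraMap Λ B (r.eval a) * (Y ^ ℓ - algebraMap Λ B c)
        + (Y - algebraMap Λ B a) ^ 2 * aeval Y G
        + (ℓ : B) * ((Y - algebraMap Λ B a) * algebraMap Λ B (r.eval a) * Y ^ (ℓ - 1)) := by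
    rw [hGY, hS, h62n_S]
    linear_combination (-1 : B) * E1 + (Y - algebraMap Λ B a) * E2
  refine ⟨?_, ?_, ?_⟩
  · intro hSmem
    have h1 : (Y - algebraMap Λ B a) ^ 2 * aeval Y G ∈ P0 := by
      have h2 : (Y - algebraMap Λ B a) ^ 2 * aeval Y G
          = algebraMap Λ B (a ^ ℓ - c) * S
            + algebraMap Λ B (r.eval a) * (Y ^ ℓ - algebraMap Λ B c)
            - (ℓ : B) * ((Y - algebraMap Λ B a) * algebraMap Λ B (r.eval a) * Y ^ (ℓ - 1)) := by
        rw [hkey]; ring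
      rw [h2]
      exact P0.sub_mem (P0.add_mem (P0.mul_mem_left _ hSmem) (P0.mul_mem_left _ hY2))
        (P0.mul_mem_right _ hℓP0)
    have h3 : aeval Y G ∈ P0 := by
      rcases hP0.mem_or_mem h1 with h | h
      · exact absurd (hP0.mem_of_pow_mem 2 h) hYa
      · exact h
    have h4 := hLI G hGdeg h3 (ℓ - 1)
    rw [hGcoeff] at h4
    exact hδ h4
  · rw [hz, hz_eq]
    exact P0.add_mem (P0.add_mem hY2 (P0.mul_mem_left _ (P0.mul_mem_right _ hℓP0)))
      (P0.mul_mem_right _ hℓP0)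
  · have h1 : Y ^ ℓ - (algebraMap Λ B a) ^ ℓ ∈ Pinf := by
      obtain ⟨d, hd'⟩ := sub_dvd_pow_sub_pow Y (algebraMap Λ B a) ℓ
      rw [hd']
      exact Pinf.mul_mem_right _ hY1
    have h2 : z - algebraMap Λ B (a ^ ℓ - c) = (Y ^ ℓ - (algebraMap Λ B a) ^ ℓ)
        + (Y - algebraMap Λ B a) * ((ℓ : B) * Y ^ (ℓ - 1))
        + (ℓ : B) * aeval Y (derivative r) := by
      rw [hz, hz_eq, map_sub, map_pow]; ring
    rw [h2]
    exact Pinf.add_mem (Pinf.add_mem h1 (Pinf.mul_mem_right _ hY1))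
      (Pinf.mul_mem_right _ hℓPinf)

/-- **Theorem (A), noetherian form.**  The node is a regular point: `P₀ = z B`,
`P∞ = (ℓ / z) B`, `z (ℓ / z) = ℓ`. -/
theorem h62n_core [IsDomain B] (hK : h62n_Unmixed B)
    (ℓ : ℕ) (Pinf P0 : Ideal B) [hPinf : Pinf.IsPrime] [hP0 : P0.IsPrime]
    (hinter : Ideal.span {(ℓ : B)} = Pinf ⊓ P0)
    (hℓ0 : (ℓ : B) ≠ 0)
    (Y : B) (a c : Λ) (r : Λ[X]) (hr : r.natDegree ≤ ℓ)
    (hf : aeval Y (h62n_poly ℓ a c r) = 0)
    (hY1 : Y - algebraMap Λ B a ∈ Pinf)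
    (hY2 : Y ^ ℓ - algebraMap Λ B c ∈ P0)
    (hYa : Y - algebraMap Λ B a ∉ P0)
    (hδ : algebraMap Λ B (a ^ ℓ - c) ∉ Pinf)
    (hcomap : ∀ x : Λ, algebraMap Λ B x ∈ P0 → algebraMap Λ B x ∈ Pinf)
    (hLI : ∀ g : Λ[X], g.natDegree < ℓ → aeval Y g ∈ P0 →
      ∀ i, algebraMap Λ B (g.coeff i) ∈ P0)
    (hd : ∃ k : ℕ, h62n_z ℓ a c r Y ∣ (ℓ : B) ^ k) :
    ∃ y : B, h62n_z ℓ a c r Y * y = (ℓ : B) ∧
      P0 = Ideal.span {h62n_z ℓ a c r Y} ∧ Pinf = Ideal.span {y} := by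
  classical
  have : Nontrivial Λ := (algebraMap Λ B).domain_nontrivial
  have hℓne : ℓ ≠ 0 := by
    rintro rfl
    exact hℓ0 (by simp)
  have hℓinf : (ℓ : B) ∈ Pinf ⊓ P0 := by
    rw [← hinter]; exact Ideal.mem_span_singleton_self _
  have hℓPinf : (ℓ : B) ∈ Pinf := hℓinf.1
  have hℓP0 : (ℓ : B) ∈ P0 := hℓinf.2
  obtain ⟨hSP0, hzP0, hzδ⟩ := h62n_key ℓ hℓne Pinf P0 hℓPinf hℓP0 Y a c r hr hY1 hY2 hYa
    (fun h => hδ (hcomap _ h)) hLI
  have hSz := h62n_mul_z ℓ a c r Y hf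
  set z : B := h62n_z ℓ a c r Y with hz
  set S : B := h62n_S ℓ a r Y with hS
  have hzPinf : z ∉ Pinf := by
    intro hmem
    apply hδ
    have := Pinf.sub_mem hmem hzδ
    simpa using this
  have hz0 : z ≠ 0 := fun h => hzPinf (h ▸ Pinf.zero_mem)
  have hPinf_ne : Pinf ≠ ⊥ := fun h => hℓ0 (by simpa [h] using hℓPinf)
  have hP0_ne : P0 ≠ ⊥ := fun h => hℓ0 (by simpa [h] using hℓP0)
  -- Krull: `z ∣ ℓ`
  have hzℓ : z ∣ (ℓ : B) := by
    apply hK z ℓ hz0
    intro P hP hzP hht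
    obtain ⟨k, hk⟩ := hd
    have hℓP : (ℓ : B) ∈ P := hP.mem_of_pow_mem k (Ideal.mem_of_dvd P hk hzP)
    have hle : Pinf ⊓ P0 ≤ P := by
      rw [← hinter, Ideal.span_singleton_le_iff_mem]; exact hℓP
    rcases hP.inf_le.mp hle with h | h
    · exact absurd ((hht Pinf hPinf hPinf_ne h) ▸ hzP) hzPinf
    · have hPeq := hht P0 hP0 hP0_ne h
      refine ⟨S, hPeq ▸ hSP0, ⟨Y - algebraMap Λ B a, ?_⟩⟩
      rw [mul_comm S, ← hSz]; ring
  obtain ⟨y, hy⟩ := hzℓ
  have hy0 : y ≠ 0 := by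
    rintro rfl
    exact hℓ0 (by simpa using hy)
  have hyPinf : y ∈ Pinf := by
    rcases hPinf.mem_or_mem (hy ▸ hℓPinf : z * y ∈ Pinf) with h | h
    · exact absurd h hzPinf
    · exact h
  refine ⟨y, hy.symm, ?_, ?_⟩
  · apply le_antisymm
    · intro w hw
      have h1 : y * w ∈ Ideal.span {(ℓ : B)} := by
        rw [hinter]; exact ⟨Pinf.mul_mem_right _ hyPinf, P0.mul_mem_left _ hw⟩
      obtain ⟨b, hb⟩ := Ideal.mem_span_singleton'.mp h1
      rw [Ideal.mem_span_singleton']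
      refine ⟨b, mul_left_cancel₀ hy0 ?_⟩
      rw [← hb, hy]; ring
    · rw [Ideal.span_singleton_le_iff_mem]; exact hzP0
  · apply le_antisymm
    · intro w hw
      have h1 : z * w ∈ Ideal.span {(ℓ : B)} := by
        rw [hinter]; exact ⟨Pinf.mul_mem_left _ hw, P0.mul_mem_right _ hzP0⟩
      obtain ⟨b, hb⟩ := Ideal.mem_span_singleton'.mp h1
      rw [Ideal.mem_span_singleton']
      refine ⟨b, mul_left_cancel₀ hz0 ?_⟩
      rw [← hb, hy]; ring
    · rw [Ideal.span_singleton_le_iff_mem]; exact hyPinf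

end core

end Fermat.Agent.LGC
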