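import Fermat.Agent.LGC.H55Kron
import Fermat.Agent.LGC.H4Fin
import Fermat.Agent.LGC.NodeRegular

/-!
# W3-LGC / I4: Kronecker's congruence modulo `ℓ`, chart form (helper55)

The statement of `LGC/H55Kron.lean` for the chart maps `h4f_alphaChart`, `h4f_betaChart`
(`chart M A (jB M) →ₐ[A] chart (M * ℓ) A (jSS M ℓ)`), in the exact shape of the hypothesis
`hKron` of `h62l_local` (`LGC/H62TwoComp.lean`).
-/

set_option autoImplicit false
set_option linter.style.haveILetI false
set_option linter.unusedSectionVars false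

open ModularCurve AlgebraicCurve Polynomial

noncomputable section

namespace Fermat.Agent.LGC

open Fermat.Agent.S37 Fermat.Agent.Red Fermat.Agent.Red.GG Fermat.Agent.Red.GV

variable (A : ValuationSubring Kbar) (M ℓ : ℕ) [NeZero M] [NeZero ℓ]

/-- **I4 (chart form).**  For `u` in the finite chart of level `M` with rational
`q`-expansion there is `r` of degree `≤ ℓ` over the chart such that `β u` is a root of
`(X - u ^ ℓ)(X ^ ℓ - u) + ℓ · r` (coefficients mapped by `α`). -/
theorem h55k_kron_chart (hℓ : ℓ.Prime) (hM : ¬ ℓ ∣ M) (hA : A.LiesOverPrime ℓ)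
    (u : chart M A (jB M)) (hrat : IsRat (u : FF M)) :
    ∃ r : (chart M A (jB M))[X], r.natDegree ≤ ℓ ∧
      (h62n_poly ℓ (u ^ ℓ) u r).eval₂
        ((h4f_alphaChart A M ℓ : chart M A (jB M) →ₐ[A] chart (M * ℓ) A (jSS M ℓ)) :
          chart M A (jB M) →+* chart (M * ℓ) A (jSS M ℓ))
        (h4f_betaChart A M ℓ hℓ hM hA u) = 0 := by
  obtain ⟨r₀, hr₀, hdeg, hroot⟩ := h55k_kron M ℓ A hℓ hM hA (u : FF M) u.2 hrat
  have hιinj : Function.Injective
      ((chart M A (jB M)).val : chart M A (jB M) →+* FF M) := Subtype.val_injective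
  have hlift : r₀ ∈ Polynomial.lifts
      ((chart M A (jB M)).val : chart M A (jB M) →+* FF M) := by
    rw [Polynomial.lifts_iff_coeff_lifts]
    intro n
    exact ⟨⟨r₀.coeff n, hr₀ n⟩, rfl⟩
  obtain ⟨r, hr⟩ := hlift
  have hr' : r.map ((chart M A (jB M)).val : chart M A (jB M) →+* FF M) = r₀ := hr
  refine ⟨r, ?_, ?_⟩
  · rw [← Polynomial.natDegree_map_eq_of_injective hιinj r, hr']
    exact hdeg
  · apply Subtype.val_injective
    have h1 := Polynomial.hom_eval₂ (h62n_poly ℓ (u ^ ℓ) u r)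
      ((h4f_alphaChart A M ℓ : chart M A (jB M) →ₐ[A] chart (M * ℓ) A (jSS M ℓ)) :
        chart M A (jB M) →+* chart (M * ℓ) A (jSS M ℓ))
      ((chart (M * ℓ) A (jSS M ℓ)).val : chart (M * ℓ) A (jSS M ℓ) →+* FF (M * ℓ))
      (h4f_betaChart A M ℓ hℓ hM hA u)
    have hcomp : ((chart (M * ℓ) A (jSS M ℓ)).val :
          chart (M * ℓ) A (jSS M ℓ) →+* FF (M * ℓ)).comp
        ((h4f_alphaChart A M ℓ : chart M A (jB M) →ₐ[A] chart (M * ℓ) A (jSS M ℓ)) :
          chart M A (jB M) →+* chart (M * ℓ) A (jSS M ℓ)) =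
        ((heckeAlphaBar Kbar M ℓ).toRingHom).comp
          ((chart M A (jB M)).val : chart M A (jB M) →+* FF M) := rfl
    have hmap : (h62n_poly ℓ (u ^ ℓ) u r).map
          ((chart M A (jB M)).val : chart M A (jB M) →+* FF M) =
        (X - C ((u : FF M) ^ ℓ)) * (X ^ ℓ - C (u : FF M)) + C ((ℓ : ℕ) : FF M) * r₀ := by
      rw [h62n_poly, Polynomial.map_add, Polynomial.map_mul, Polynomial.map_mul,
        Polynomial.map_sub, Polynomial.map_sub, Polynomial.map_pow, Polynomial.map_X,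
        Polynomial.map_C, Polynomial.map_C, Polynomial.map_C, hr', map_pow, map_natCast]
      rfl
    have h2 : ((chart (M * ℓ) A (jSS M ℓ)).val :
          chart (M * ℓ) A (jSS M ℓ) →+* FF (M * ℓ))
        ((h62n_poly ℓ (u ^ ℓ) u r).eval₂
          ((h4f_alphaChart A M ℓ : chart M A (jB M) →ₐ[A] chart (M * ℓ) A (jSS M ℓ)) :
            chart M A (jB M) →+* chart (M * ℓ) A (jSS M ℓ))
          (h4f_betaChart A M ℓ hℓ hM hA u)) = 0 := by
      rw [h1, hcomp, ← Polynomial.eval₂_map, hmap]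
      exact hroot
    exact h2

end Fermat.Agent.LGC
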