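import Mathlib
import Fermat.Agent.S54.FrobValuation
import Fermat.Prelude.Def_FLTPrelim_Ramification

/-!
# W3-LGC (I6), part 1 (helper57): inertia-fixed representatives of the residues

Let `A` be a valuation subring of an algebraically closed field `L` of characteristic `0`,
algebraic over `ℚ`, lying over the prime `ℓ`.

* `h57_teich` : every element of `A` is either in the maximal ideal or congruent modulo the
  maximal ideal to a root of unity of order prime to `ℓ`.
* `h57_inertia_fix_root` : the inertia group of `A` fixes the roots of unity of order prime to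
  `ℓ`.
* `h57_exists_inertia_fixed` : every `a ∈ A` is congruent modulo the maximal ideal to an
  element `a' ∈ A` fixed by the inertia group (the residue field of the inertia field is the
  whole residue field).
* `h57_hsep`, `h57_hperf` : the hypotheses `hsep`, `hperf` of `h62l_local`
  (`LGC/H62TwoComp.lean`) for a valuation subring of an algebraically closed field algebraic
  over `ℚ`: every element of `A` is a simple root modulo `𝔪_A` of an integer polynomial, and
  the residue field is perfect.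
-/

set_option autoImplicit false

namespace Fermat.Agent.LGC

section Valuation

variable {L : Type*} [Field L]

/-- If `ξ ≡ 1` modulo the maximal ideal of a valuation subring `A`, `ξ ^ p = 1` and `ξ ≠ 1`,
then `p` lies in the maximal ideal of `A`. -/
theorem h57_natCast_mem_nonunits_of_sub_one_mem (A : ValuationSubring L) {p : ℕ} {ξ : L}
    (hξ : ξ ^ p = 1) (hξ1 : ξ ≠ 1) (h : ξ - 1 ∈ A.nonunits) : (p : L) ∈ A.nonunits := by
  have hξA : ξ ∈ A := by
    have h1 : ξ = (ξ - 1) + 1 := by ring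
    rw [h1]
    exact A.add_mem _ _ (A.nonunits_le h) A.one_mem
  have hgeom : ∑ i ∈ Finset.range p, ξ ^ i = 0 := by
    have h1 : (∑ i ∈ Finset.range p, ξ ^ i) * (ξ - 1) = 0 := by
      rw [geom_sum_mul, hξ, sub_self]
    rcases mul_eq_zero.mp h1 with h2 | h2
    · exact h2
    · exact absurd (sub_eq_zero.mp h2) hξ1
  let ξA : A := ⟨ξ, hξA⟩
  have hres : IsLocalRing.residue A ξA = 1 := by
    have h2 : ξA - 1 ∈ IsLocalRing.maximalIdeal A := by
      rw [← ValuationSubring.coe_mem_nonunits_iff]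
      exact h
    have h3 := (IsLocalRing.residue_eq_zero_iff (ξA - 1)).mpr h2
    rwa [map_sub, map_one, sub_eq_zero] at h3
  have hsumA : ∑ i ∈ Finset.range p, ξA ^ i = 0 := by
    apply Subtype.ext
    have : ((∑ i ∈ Finset.range p, ξA ^ i : A) : L) = ∑ i ∈ Finset.range p, ξ ^ i := by
      push_cast
      rfl
    rw [this, hgeom]
    rfl
  have hp0 : IsLocalRing.residue A (p : A) = 0 := by
    have h4 := congrArg (IsLocalRing.residue A) hsumA
    rw [map_sum, map_zero] at h4
    simp only [map_pow, hres, one_pow, Finset.sum_const, Finset.card_range, nsmul_eq_mul,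
      mul_one] at h4
    rw [map_natCast]
    exact h4
  have hp1 : (p : A) ∈ IsLocalRing.maximalIdeal A := (IsLocalRing.residue_eq_zero_iff _).mp hp0
  have hp2 : (((p : A) : A) : L) ∈ A.nonunits :=
    (ValuationSubring.coe_mem_nonunits_iff).mpr hp1
  simpa using hp2

/-- Distinct `m`-th roots of unity, `m` prime to `ℓ`, stay distinct modulo the maximal ideal of a
valuation subring lying over `ℓ`. -/
theorem h57_eq_of_sub_mem_nonunits_of_not_dvd (A : ValuationSubring L) {m ℓ : ℕ}
    (hm : 0 < m) (hℓ : ℓ.Prime) (hnd : ¬ ℓ ∣ m) (hA : (ℓ : L) ∈ A.nonunits) {x y : L}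
    (hx : x ^ m = 1) (hy : y ^ m = 1) (h : x - y ∈ A.nonunits) : x = y := by
  by_contra hxy
  have hy0 : y ≠ 0 := by
    rintro rfl
    rw [zero_pow hm.ne'] at hy
    exact zero_ne_one hy
  have hyint : IsIntegral ℤ y⁻¹ := by
    refine ⟨Polynomial.X ^ m - 1, Polynomial.monic_X_pow_sub_C (1 : ℤ) hm.ne', ?_⟩
    simp [inv_pow, hy]
  have hyA : y⁻¹ ∈ A := Fermat.Agent.S54.mem_valuationSubring_of_isIntegral A hyint
  have hξ : (x * y⁻¹) ^ m = 1 := by rw [mul_pow, inv_pow, hx, hy, inv_one, mul_one]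
  have hξ1 : x * y⁻¹ ≠ 1 := by
    intro h1
    apply hxy
    field_simp at h1
    exact h1
  have hmem : x * y⁻¹ - 1 ∈ A.nonunits := by
    have e : x * y⁻¹ - 1 = (x - y) * y⁻¹ := by
      field_simp
    rw [e, ValuationSubring.mem_nonunits_iff] at *
    rw [map_mul]
    exact mul_lt_one_of_nonneg_of_lt_one_left zero_le h ((A.valuation_le_one_iff _).mpr hyA)
  have hpmem := h57_natCast_mem_nonunits_of_sub_one_mem A hξ hξ1 hmem
  have hnd' : ¬ (ℓ : ℤ) ∣ (m : ℤ) := by
    intro hdvd
    exact hnd (Int.natCast_dvd_natCast.mp hdvd)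
  have := Fermat.Agent.S54.intCast_not_mem_nonunits A hℓ hA hnd'
  apply this
  simpa using hpmem

/-- In a valuation subring, a product of elements of the subring lying in the maximal ideal has
a factor in the maximal ideal. -/
theorem h57_exists_mem_nonunits_of_prod_mem {ι : Type*} (A : ValuationSubring L)
    (s : Finset ι) (f : ι → L) (hf : ∀ i ∈ s, f i ∈ A) (h : ∏ i ∈ s, f i ∈ A.nonunits) :
    ∃ i ∈ s, f i ∈ A.nonunits := by
  by_contra hcon
  push Not at hcon
  have h1 : ∀ i ∈ s, A.valuation (f i) = 1 := by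
    intro i hi
    have h2 : A.valuation (f i) ≤ 1 := (A.valuation_le_one_iff _).mpr (hf i hi)
    have h3 : ¬ A.valuation (f i) < 1 := fun hlt =>
      hcon i hi ((ValuationSubring.mem_nonunits_iff A).mpr hlt)
    exact le_antisymm h2 (not_lt.mp h3)
  rw [ValuationSubring.mem_nonunits_iff, map_prod, Finset.prod_congr rfl h1,
    Finset.prod_const_one] at h
  exact lt_irrefl _ h

/-- **Teichmüller representatives.** An element of `A` integral over `ℤ` is either in
the maximal ideal or congruent to a root of unity of order prime to `q`. -/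
theorem h57_teich_integral [IsAlgClosed L] [CharZero L] (A : ValuationSubring L) {q : ℕ}
    (hq : q.Prime) (hA : (q : L) ∈ A.nonunits) {x : L} (hx : IsIntegral ℤ x) :
    x ∈ A.nonunits ∨ ∃ (y : L) (m : ℕ), 0 < m ∧ ¬ q ∣ m ∧ y ^ m = 1 ∧ x - y ∈ A.nonunits := by
  classical
  have hxA : x ∈ A := Fermat.Agent.S54.mem_valuationSubring_of_isIntegral A hx
  have hq0 : ((q : ℕ) : IsLocalRing.ResidueField A) = 0 := by
    have h1 : ((q : ℕ) : A) ∈ IsLocalRing.maximalIdeal A := by
      rw [← ValuationSubring.coe_mem_nonunits_iff]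
      simpa using hA
    have h2 := (IsLocalRing.residue_eq_zero_iff _).mpr h1
    rwa [map_natCast] at h2
  have : CharP (IsLocalRing.ResidueField A) q := (CharP.charP_iff_prime_eq_zero hq).mpr hq0
  have : Fact q.Prime := ⟨hq⟩
  let : Algebra (ZMod q) (IsLocalRing.ResidueField A) := ZMod.algebra _ q
  set xb : IsLocalRing.ResidueField A := IsLocalRing.residue A ⟨x, hxA⟩ with hxb
  have hxbint : IsIntegral (ZMod q) xb := by
    obtain ⟨P, hP, hPx⟩ := hx
    refine ⟨P.map (Int.castRingHom (ZMod q)), hP.map _, ?_⟩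
    rw [Polynomial.eval₂_map]
    have e1 : (algebraMap (ZMod q) (IsLocalRing.ResidueField A)).comp (Int.castRingHom (ZMod q)) =
        (IsLocalRing.residue A).comp (Int.castRingHom A) := RingHom.ext_int _ _
    have e3 : A.subtype.comp (Int.castRingHom A) = algebraMap ℤ L := RingHom.ext_int _ _
    have e2 : Polynomial.eval₂ (Int.castRingHom A) (⟨x, hxA⟩ : A) P = 0 := by
      apply Subtype.ext
      have h1 := Polynomial.hom_eval₂ P (Int.castRingHom A) A.subtype (⟨x, hxA⟩ : A)
      rw [e3] at h1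
      have h2 : A.subtype (⟨x, hxA⟩ : A) = x := rfl
      rw [h2, hPx] at h1
      exact h1
    rw [e1, hxb, ← Polynomial.hom_eval₂, e2, map_zero]
  by_cases hxb0 : xb = 0
  · left
    have := (IsLocalRing.residue_eq_zero_iff _).mp hxb0
    rw [← ValuationSubring.coe_mem_nonunits_iff] at this
    exact this
  right
  have : FiniteDimensional (ZMod q) (IntermediateField.adjoin (ZMod q) {xb}) :=
    IntermediateField.adjoin.finiteDimensional hxbint
  have : Finite (IntermediateField.adjoin (ZMod q) {xb}) :=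
    Module.finite_of_finite (ZMod q)
  let : Fintype (IntermediateField.adjoin (ZMod q) {xb}) := Fintype.ofFinite _
  obtain ⟨n, -, hcard⟩ := FiniteField.card (IntermediateField.adjoin (ZMod q) {xb}) q
  set a : IntermediateField.adjoin (ZMod q) {xb} :=
    ⟨xb, IntermediateField.mem_adjoin_simple_self (ZMod q) xb⟩ with ha
  have ha0 : a ≠ 0 := fun h => hxb0 (congrArg Subtype.val h)
  have hpow := FiniteField.pow_card_sub_one_eq_one a ha0
  rw [hcard] at hpow
  set m : ℕ := q ^ (n : ℕ) - 1 with hm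
  have hqn : 2 ≤ q ^ (n : ℕ) := by
    calc 2 ≤ q := hq.two_le
      _ = q ^ 1 := (pow_one q).symm
      _ ≤ q ^ (n : ℕ) := Nat.pow_le_pow_right hq.pos n.2
  have hmpos : 0 < m := by omega
  have hnd : ¬ q ∣ m := by
    intro hdvd
    have h1 : q ∣ q ^ (n : ℕ) := dvd_pow_self q n.ne_zero
    have h2 : q ∣ q ^ (n : ℕ) - m := Nat.dvd_sub h1 hdvd
    have h3 : q ^ (n : ℕ) - m = 1 := by omega
    rw [h3] at h2
    exact hq.one_lt.ne' (Nat.dvd_one.mp h2)
  have hxbpow : xb ^ m = 1 := by
    have := congrArg Subtype.val hpow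
    simpa using this
  have hmem : x ^ m - 1 ∈ A.nonunits := by
    have h1 : IsLocalRing.residue A ((⟨x, hxA⟩ : A) ^ m - 1) = 0 := by
      rw [map_sub, map_pow, map_one, ← hxb, hxbpow, sub_self]
    have h2 := (IsLocalRing.residue_eq_zero_iff _).mp h1
    rw [← ValuationSubring.coe_mem_nonunits_iff] at h2
    simpa using h2
  have : NeZero (m : L) := ⟨Nat.cast_ne_zero.mpr hmpos.ne'⟩
  obtain ⟨ζ, hζ⟩ := HasEnoughRootsOfUnity.exists_primitiveRoot L m
  have hfac := hζ.pow_sub_pow_eq_prod_sub_mul x 1 hmpos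
  rw [one_pow] at hfac
  rw [hfac] at hmem
  have hroot : ∀ y ∈ Polynomial.nthRootsFinset m (1 : L), y ^ m = 1 := fun y hy =>
    (Polynomial.mem_nthRootsFinset hmpos 1).mp hy
  obtain ⟨y, hy, hy2⟩ := h57_exists_mem_nonunits_of_prod_mem A _ (fun y => x - y * 1)
    (fun y hy => by
      have hyint : IsIntegral ℤ y :=
        ⟨Polynomial.X ^ m - 1, Polynomial.monic_X_pow_sub_C (1 : ℤ) hmpos.ne', by
          simp [hroot y hy]⟩
      rw [mul_one]
      exact sub_mem hxA (Fermat.Agent.S54.mem_valuationSubring_of_isIntegral A hyint)) hmem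
  rw [mul_one] at hy2
  exact ⟨y, m, hmpos, hnd, hroot y hy, hy2⟩

/-- An element of the inertia group acts trivially modulo the maximal ideal. -/
theorem h57_inertia_sub_mem {k : Type*} [Field k] [Algebra k L] (A : ValuationSubring L)
    {σ : L ≃ₐ[k] L} (hσ : σ ∈ A.inertiaSubgroupIn k) {z : L} (hz : z ∈ A) :
    σ z - z ∈ A.nonunits := by
  obtain ⟨τ, hτ, rfl⟩ := hσ
  have hmem : (τ : L ≃ₐ[k] L) z ∈ A := ((τ • (⟨z, hz⟩ : A) : A)).2
  have hker : MulSemiringAction.toRingAut (A.decompositionSubgroup k)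
      (IsLocalRing.ResidueField A) τ = 1 := hτ
  have h1 : τ • IsLocalRing.residue A ⟨z, hz⟩ = IsLocalRing.residue A ⟨z, hz⟩ := by
    have := congrArg (fun e : RingAut (IsLocalRing.ResidueField A) =>
      e (IsLocalRing.residue A ⟨z, hz⟩)) hker
    simpa using this
  rw [← IsLocalRing.ResidueField.residue_smul] at h1
  have h2 : IsLocalRing.residue A (τ • (⟨z, hz⟩ : A) - ⟨z, hz⟩) = 0 := by
    rw [map_sub, h1, sub_self]
  rw [IsLocalRing.residue_eq_zero_iff] at h2
  rw [ValuationSubring.mem_nonunits_iff_exists_mem_maximalIdeal]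
  exact ⟨sub_mem hmem hz, h2⟩

/-- the inertia group fixes the roots of unity of order prime to `ℓ`. -/
theorem h57_inertia_fix_root {k : Type*} [Field k] [Algebra k L] (A : ValuationSubring L)
    {m ℓ : ℕ} (hm : 0 < m) (hℓ : ℓ.Prime) (hnd : ¬ ℓ ∣ m) (hA : (ℓ : L) ∈ A.nonunits)
    {σ : L ≃ₐ[k] L} (hσ : σ ∈ A.inertiaSubgroupIn k) {y : L} (hy : y ^ m = 1) :
    σ y = y := by
  have hyint : IsIntegral ℤ y :=
    ⟨Polynomial.X ^ m - 1, Polynomial.monic_X_pow_sub_C (1 : ℤ) hm.ne', by simp [hy]⟩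
  have hyA : y ∈ A := Fermat.Agent.S54.mem_valuationSubring_of_isIntegral A hyint
  have hσy : (σ y) ^ m = 1 := by rw [← map_pow, hy, map_one]
  exact h57_eq_of_sub_mem_nonunits_of_not_dvd A hm hℓ hnd hA hσy hy
    (h57_inertia_sub_mem A hσ hyA)

/-- **Teichmüller representatives, all of `A`**: every element of `A` is either in the maximal
ideal or congruent to a root of unity of order prime to `ℓ`. -/
theorem h57_teich [IsAlgClosed L] [CharZero L] (halg : ∀ x : L, IsAlgebraic ℤ x)
    (A : ValuationSubring L) {ℓ : ℕ} (hℓ : ℓ.Prime) (hA : (ℓ : L) ∈ A.nonunits) {a : L}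
    (ha : a ∈ A) :
    a ∈ A.nonunits ∨ ∃ (y : L) (m : ℕ), 0 < m ∧ ¬ ℓ ∣ m ∧ y ^ m = 1 ∧ a - y ∈ A.nonunits := by
  by_cases ha0 : a ∈ A.nonunits
  · exact Or.inl ha0
  right
  obtain ⟨b, s, hb, hs, hsn, hxs⟩ := Fermat.Agent.S54.exists_integral_frac A hℓ hA (halg a) ha
  have hsA : s ∈ A := Fermat.Agent.S54.mem_valuationSubring_of_isIntegral A hs
  have hvs : A.valuation s = 1 := by
    have h2 : A.valuation s ≤ 1 := (A.valuation_le_one_iff _).mpr hsA
    have h3 : ¬ A.valuation s < 1 := fun hlt => hsn ((ValuationSubring.mem_nonunits_iff A).mpr hlt)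
    exact le_antisymm h2 (not_lt.mp h3)
  have hva : A.valuation a = 1 := by
    have h2 : A.valuation a ≤ 1 := (A.valuation_le_one_iff _).mpr ha
    have h3 : ¬ A.valuation a < 1 := fun hlt => ha0 ((ValuationSubring.mem_nonunits_iff A).mpr hlt)
    exact le_antisymm h2 (not_lt.mp h3)
  have hbn : b ∉ A.nonunits := by
    rw [ValuationSubring.mem_nonunits_iff, ← hxs, map_mul, hva, hvs, one_mul]
    exact lt_irrefl _
  rcases h57_teich_integral A hℓ hA hs with h | ⟨y, m, hm, hnd, hym, hsy⟩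
  · exact absurd h hsn
  rcases h57_teich_integral A hℓ hA hb with h | ⟨z, n, hn, hnd', hzn, hbz⟩
  · exact absurd h hbn
  have hy0 : y ≠ 0 := by
    rintro rfl
    rw [zero_pow hm.ne'] at hym
    exact zero_ne_one hym
  have hs0 : s ≠ 0 := by
    rintro rfl
    rw [map_zero] at hvs
    exact zero_ne_one hvs
  have hmn : 0 < m * n := Nat.mul_pos hm hn
  have hndmn : ¬ ℓ ∣ m * n := fun h => (hℓ.dvd_mul.mp h).elim hnd hnd'
  have hw : (z * y⁻¹) ^ (m * n) = 1 := by
    rw [mul_pow, inv_pow, pow_mul' z, hzn, one_pow, pow_mul y, hym, one_pow, inv_one, mul_one]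
  have hyinv : IsIntegral ℤ y⁻¹ := by
    refine ⟨Polynomial.X ^ m - 1, Polynomial.monic_X_pow_sub_C (1 : ℤ) hm.ne', ?_⟩
    simp [inv_pow, hym]
  have hyinvA : y⁻¹ ∈ A := Fermat.Agent.S54.mem_valuationSubring_of_isIntegral A hyinv
  have hzint : IsIntegral ℤ z :=
    ⟨Polynomial.X ^ n - 1, Polynomial.monic_X_pow_sub_C (1 : ℤ) hn.ne', by simp [hzn]⟩
  have hzA : z ∈ A := Fermat.Agent.S54.mem_valuationSubring_of_isIntegral A hzint
  have hsinv : A.valuation s⁻¹ = 1 := by rw [map_inv₀, hvs, inv_one]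
  refine ⟨z * y⁻¹, m * n, hmn, hndmn, hw, ?_⟩
  have e : a - z * y⁻¹ = ((b - z) - z * y⁻¹ * (s - y)) * s⁻¹ := by
    rw [← hxs]
    field_simp
    ring
  rw [e, ValuationSubring.mem_nonunits_iff, map_mul, hsinv, mul_one]
  rw [ValuationSubring.mem_nonunits_iff] at hbz hsy
  refine Valuation.map_sub_lt _ hbz ?_
  rw [map_mul]
  have h1 : A.valuation (z * y⁻¹) ≤ 1 :=
    (A.valuation_le_one_iff _).mpr (A.mul_mem _ _ hzA hyinvA)
  exact mul_lt_one_of_nonneg_of_lt_one_right h1 zero_le hsy

/-- **Inertia-fixed representatives**: every element of `A` is congruent modulo the maximal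
ideal to an element of `A` fixed by the inertia group. -/
theorem h57_exists_inertia_fixed [IsAlgClosed L] [CharZero L] {k : Type*} [Field k]
    [Algebra k L] (halg : ∀ x : L, IsAlgebraic ℤ x) (A : ValuationSubring L) {ℓ : ℕ}
    (hℓ : ℓ.Prime) (hA : (ℓ : L) ∈ A.nonunits) {a : L} (ha : a ∈ A) :
    ∃ a' : L, a' ∈ A ∧ (∀ σ ∈ A.inertiaSubgroupIn k, σ a' = a') ∧ a - a' ∈ A.nonunits := by
  rcases h57_teich halg A hℓ hA ha with h | ⟨y, m, hm, hnd, hym, hay⟩
  · exact ⟨0, A.zero_mem, fun σ _ => map_zero σ, by simpa using h⟩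
  · have hyint : IsIntegral ℤ y :=
      ⟨Polynomial.X ^ m - 1, Polynomial.monic_X_pow_sub_C (1 : ℤ) hm.ne', by simp [hym]⟩
    exact ⟨y, Fermat.Agent.S54.mem_valuationSubring_of_isIntegral A hyint,
      fun σ hσ => h57_inertia_fix_root A hm hℓ hnd hA hσ hym, hay⟩

/-- **(hsep)**: every element of `A` is a simple root modulo the maximal ideal of a polynomial
with integer coefficients (the residue field is separable algebraic over `𝔽_ℓ`). -/
theorem h57_hsep [IsAlgClosed L] [CharZero L] (halg : ∀ x : L, IsAlgebraic ℤ x)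
    (A : ValuationSubring L) {ℓ : ℕ} (hℓ : ℓ.Prime) (hA : (ℓ : L) ∈ A.nonunits) (a : A) :
    ∃ m : Polynomial ℤ, Polynomial.aeval a m ∈ IsLocalRing.maximalIdeal A ∧
      Polynomial.aeval a (Polynomial.derivative m) ∉ IsLocalRing.maximalIdeal A := by
  rcases h57_teich halg A hℓ hA a.2 with h | ⟨y, n, hn, hnd, hyn, hay⟩
  · refine ⟨Polynomial.X, ?_, ?_⟩
    · rw [Polynomial.aeval_X, ← ValuationSubring.coe_mem_nonunits_iff]
      exact h
    · rw [Polynomial.derivative_X, map_one]
      exact fun h1 => (IsLocalRing.maximalIdeal.isMaximal A).ne_top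
        ((Ideal.eq_top_iff_one _).mpr h1)
  · have hyint : IsIntegral ℤ y :=
      ⟨Polynomial.X ^ n - 1, Polynomial.monic_X_pow_sub_C (1 : ℤ) hn.ne', by simp [hyn]⟩
    have hyA : y ∈ A := Fermat.Agent.S54.mem_valuationSubring_of_isIntegral A hyint
    have hay' : a - ⟨y, hyA⟩ ∈ IsLocalRing.maximalIdeal A := by
      rw [← ValuationSubring.coe_mem_nonunits_iff]
      exact hay
    have hres : IsLocalRing.residue A a = IsLocalRing.residue A ⟨y, hyA⟩ := by
      have := (IsLocalRing.residue_eq_zero_iff _).mpr hay'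
      rwa [map_sub, sub_eq_zero] at this
    have hyn' : (⟨y, hyA⟩ : A) ^ n = 1 := Subtype.ext (by simpa using hyn)
    have hresn : IsLocalRing.residue A a ^ n = 1 := by
      rw [hres, ← map_pow, hyn', map_one]
    have hnA : (n : A) ∉ IsLocalRing.maximalIdeal A := by
      rw [← ValuationSubring.coe_mem_nonunits_iff]
      have hnd' : ¬ (ℓ : ℤ) ∣ (n : ℤ) := fun hdvd => hnd (Int.natCast_dvd_natCast.mp hdvd)
      have := Fermat.Agent.S54.intCast_not_mem_nonunits A hℓ hA hnd'
      simpa using this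
    refine ⟨Polynomial.X ^ n - 1, ?_, ?_⟩
    · rw [map_sub, map_pow, Polynomial.aeval_X, map_one, ← IsLocalRing.residue_eq_zero_iff,
        map_sub, map_pow, hresn, map_one, sub_self]
    · rw [Polynomial.derivative_sub, Polynomial.derivative_one, sub_zero,
        Polynomial.derivative_X_pow, map_mul, map_pow, Polynomial.aeval_X]
      have h1 : Polynomial.aeval a (Polynomial.C (n : ℤ)) = (n : A) := by
        rw [Polynomial.aeval_C]; simp
      rw [h1, ← IsLocalRing.residue_eq_zero_iff, map_mul, map_pow]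
      intro h0
      rcases mul_eq_zero.mp h0 with h2 | h2
      · exact hnA ((IsLocalRing.residue_eq_zero_iff _).mp h2)
      · have h3 : IsLocalRing.residue A a = 0 := by
          rcases Nat.eq_zero_or_pos (n - 1) with h4 | h4
          · rw [h4, pow_zero] at h2
            exact absurd h2 one_ne_zero
          · exact pow_eq_zero_iff (Nat.pos_iff_ne_zero.mp h4) |>.mp h2
        rw [h3, zero_pow hn.ne'] at hresn
        exact zero_ne_one hresn

/-- **(hperf)**: the residue field of `A` is perfect (in fact every element of `A` is an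
`n`-th power in `A`). -/
theorem h57_hperf [IsAlgClosed L] (A : ValuationSubring L) {n : ℕ} (hn : 0 < n) (a : A) :
    ∃ a' : A, a - a' ^ n ∈ IsLocalRing.maximalIdeal A := by
  obtain ⟨z, hz⟩ := IsAlgClosed.exists_pow_nat_eq (a : L) hn
  have hzA : z ∈ A := by
    rw [← A.valuation_le_one_iff]
    have h1 : A.valuation z ^ n ≤ 1 := by
      rw [← map_pow, hz]
      exact (A.valuation_le_one_iff _).mpr a.2
    by_contra h2
    rw [not_le] at h2
    exact absurd h1 (not_le.mpr (one_lt_pow₀ h2 hn.ne'))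
  refine ⟨⟨z, hzA⟩, ?_⟩
  have h0 : a - (⟨z, hzA⟩ : A) ^ n = 0 := by
    apply Subtype.ext
    simp [hz]
  rw [h0]
  exact Ideal.zero_mem _

end Valuation

/-! ### The case of `ℚ̄` -/

section Qbar

theorem h57_isAlgebraic_int (c : AlgebraicClosure ℚ) : IsAlgebraic ℤ c :=
  (IsFractionRing.isAlgebraic_iff ℤ ℚ (AlgebraicClosure ℚ)).mpr
    ((AlgebraicClosure.isAlgebraic ℚ).isAlgebraic c)

/-- **(hsep) for a valuation subring of `ℚ̄` over `ℓ`** (hypothesis `hsep` of `h62l_local`). -/
theorem h57_hsep_Qbar (A : ValuationSubring (AlgebraicClosure ℚ)) {ℓ : ℕ} (hℓ : ℓ.Prime)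
    (hA : A.LiesOverPrime ℓ) :
    ∀ a : A, ∃ m : Polynomial ℤ, Polynomial.aeval a m ∈ IsLocalRing.maximalIdeal A ∧
      Polynomial.aeval a (Polynomial.derivative m) ∉ IsLocalRing.maximalIdeal A :=
  fun a => h57_hsep h57_isAlgebraic_int A hℓ hA a

/-- **(hperf) for a valuation subring of `ℚ̄`** (hypothesis `hperf` of `h62l_local`). -/
theorem h57_hperf_Qbar (A : ValuationSubring (AlgebraicClosure ℚ)) {ℓ : ℕ} (hℓ : ℓ.Prime) :
    ∀ a : A, ∃ a' : A, a - a' ^ ℓ ∈ IsLocalRing.maximalIdeal A :=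
  fun a => h57_hperf A hℓ.pos a

/-- `ℓ` lies in the maximal ideal (hypothesis `hℓA` of `h62l_local`). -/
theorem h57_natCast_mem_maximalIdeal (A : ValuationSubring (AlgebraicClosure ℚ)) {ℓ : ℕ}
    (hA : A.LiesOverPrime ℓ) : (ℓ : A) ∈ IsLocalRing.maximalIdeal A := by
  rw [← ValuationSubring.coe_mem_nonunits_iff]
  have h : (ℓ : AlgebraicClosure ℚ) ∈ A.nonunits := hA
  simpa using h

end Qbar

end Fermat.Agent.LGC
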