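import Fermat.Agent.LGC.H60CompAbs
import Fermat.Agent.LGC.Red63
import Fermat.Agent.LGC.FrickeChart
import Fermat.Agent.LGC.Res44
import Fermat.Agent.Red.SM.GVPack
import Fermat.Agent.Red.SM.HAlg
import Fermat.Agent.Red.GGChart

/-!
# W3-LGC, leaf I7 (COMPONENTS), concrete half (helper60)

`A` a valuation subring of `ℚ̄` over `ℓ`, `ℓ ∤ M`, `Λ = modelFin M A`, `B = modelFin (M ℓ) A`,
`α = heckeAlphaBar`, `β = heckeBetaBar`, `w = kFricke M ℓ`, `W∞ = softV A (M ℓ)`,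
`W₀ = w⁻¹ W∞`.

* `h60c_K3 A M ℓ` : the hypothesis K3 (residue degree one of `W∞` over the Gauss ring of
  level `M`).
* `h60c_hsurj_inf` : `B = α Λ + P∞`, i.e. for `b ∈ B` there is `x ∈ Λ` with `b - α x` a non-unit
  of `W∞` (`softR (b - α x) = 0`), if `Λ ⧸ 𝔪_A Λ` is integrally closed.
* `h60c_hsurj_zero` : `B = β Λ + P₀`: for `b ∈ B` there is `x ∈ Λ` with
  `softR (w (b - β x)) = 0`.
-/

set_option autoImplicit false
set_option linter.unusedSectionVars false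
set_option linter.style.haveILetI false

open AlgebraicCurve ModularCurve

noncomputable section

namespace Fermat.Agent.LGC

open Fermat.Agent.S37 Fermat.Agent.Red Fermat.Agent.Red.GG Fermat.Agent.Red.GV
  Fermat.Agent.Red.GV.Soft Fermat.Agent.Red.Kron Fermat.Agent.Red.SM
  Fermat.Agent.Red.SM.GVPack

section Level

variable (A : ValuationSubring Kbar) (M ℓ : ℕ) [NeZero M] [NeZero ℓ]

/-- **K3** (residue degree one): the residue field of the Gauss valuation ring `W∞` of level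
`M ℓ` is the residue field of the Gauss valuation ring of level `M`. -/
def h60c_K3 : Prop :=
  ∀ x : softV A (M * ℓ), ∃ y : softV A M, softR A (M * ℓ) x = softR A M y

variable {A M ℓ}

/-- A Gauss-integral function which is integral over `ℚ̄[j]` lies in the finite chart. -/
theorem h60c_mem_modelFin_of_integral (hℓ : ℓ.Prime) (hM : ¬ ℓ ∣ M) (hA : A.LiesOverPrime ℓ)
    {x : FF M} (hx : x ∈ gaussV A M) (hint : IsIntegral (Algebra.adjoin Kbar {jB M}) x) :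
    x ∈ modelFin M A := by
  obtain ⟨a, ha, hax⟩ := GGC97_clear A (jB M) x hint
  exact mem_modelFin_of_cst_mul A M hℓ hM hA x hx (a : Kbar) a.2 ha hax

/-- Every Gauss-integral function of level `M` is a fraction `a / c` of elements of the finite
chart with `c` a Gauss unit. -/
theorem h60c_exists_frac (hℓ : ℓ.Prime) (hM : ¬ ℓ ∣ M) (hA : A.LiesOverPrime ℓ)
    {y : FF M} (hy : y ∈ gaussV A M) :
    ∃ a c : FF M, a ∈ modelFin M A ∧ c ∈ modelFin M A ∧ c ≠ 0 ∧ c ∈ gaussV A M ∧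
      c⁻¹ ∈ gaussV A M ∧ y * c = a := by
  have halg := HAlg.h81a_halg_jB M y
  obtain ⟨d₀, hd₀, hint⟩ := halg.exists_integral_multiple
  have hd₀' : ((d₀ : Algebra.adjoin Kbar {jB M}) : FF M) ≠ 0 := fun h => hd₀ (Subtype.ext h)
  obtain ⟨c, hc0, hcV, hcVinv⟩ := exists_cst_mul_unit A M hℓ hM hA (d₀ : FF M) hd₀'
  have hcst0 : cst M c ≠ 0 := by
    intro h
    apply hc0
    have := (algebraMap Kbar (FF M)).injective (h.trans (map_zero _).symm)
    exact this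
  have hd0 : cst M c * (d₀ : FF M) ≠ 0 := mul_ne_zero hcst0 hd₀'
  have hcint : IsIntegral (Algebra.adjoin Kbar {jB M}) (cst M c) := by
    have : cst M c = algebraMap (Algebra.adjoin Kbar {jB M}) (FF M)
        (algebraMap Kbar (Algebra.adjoin Kbar {jB M}) c) := rfl
    rw [this]
    exact isIntegral_algebraMap
  have hdint : IsIntegral (Algebra.adjoin Kbar {jB M}) (cst M c * (d₀ : FF M)) := by
    refine hcint.mul ?_
    have : ((d₀ : Algebra.adjoin Kbar {jB M}) : FF M) =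
        algebraMap (Algebra.adjoin Kbar {jB M}) (FF M) d₀ := rfl
    rw [this]
    exact isIntegral_algebraMap
  have hdΛ : cst M c * (d₀ : FF M) ∈ modelFin M A :=
    h60c_mem_modelFin_of_integral hℓ hM hA hcV hdint
  refine ⟨y * (cst M c * (d₀ : FF M)), cst M c * (d₀ : FF M), ?_, hdΛ, hd0, hcV, hcVinv, rfl⟩
  apply h60c_mem_modelFin_of_integral hℓ hM hA ((gaussV A M).mul_mem hy hcV)
  have h1 : y * (cst M c * (d₀ : FF M)) = cst M c * (d₀ • y) := by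
    rw [Algebra.smul_def]
    show y * (cst M c * (d₀ : FF M)) = cst M c * ((d₀ : FF M) * y)
    ring
  rw [h1]
  exact hcint.mul hint

/-- the reduction map on the finite chart of level `M`. -/
abbrev h60c_rho (hℓ : ℓ.Prime) (hM : ¬ ℓ ∣ M) (hA : A.LiesOverPrime ℓ) :
    modelFin M A →+* LaurentSeries (IsLocalRing.ResidueField A) :=
  h81g_rho A M (modelFin M A) (modelFin_le_gaussV A M hℓ hM hA)

set_option synthInstance.maxHeartbeats 400000 in
/-- the evaluation `Q ↦ Q(j)` with values in the finite chart. -/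
def h60c_evΛ (A : ValuationSubring Kbar) (M : ℕ) [NeZero M] : Polynomial A →+* modelFin M A :=
  (evalF M A (jB M)).codRestrict (modelFin M A) (fun Q =>
    (integralClosure (ringAdj M A (jB M)) (FF M)).algebraMap_mem
      ⟨evalF M A (jB M) Q, evalF_mem_ringAdj M A (jB M) Q⟩)

theorem h60c_rho_evΛ (hℓ : ℓ.Prime) (hM : ¬ ℓ ∣ M) (hA : A.LiesOverPrime ℓ) (Q : Polynomial A) :
    h60c_rho hℓ hM hA (h60c_evΛ A M Q) = redA (IsLocalRing.residue A) (OTA_jA A Q) := by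
  refine h81g_rho_of_embA A M (modelFin M A) _ _ (OTA_jA A Q) ?_
  rw [OTA_embA_jA]
  show evalA A (jK Kbar) Q = ((evalF M A (jB M) Q : FF M) : LaurentSeries Kbar)
  rw [coe_evalF, coe_jB]

/-- the evaluation `Q ↦ Q(j)` with values in the ring of Gauss-integral fractions. -/
def h60c_evS (A : ValuationSubring Kbar) :
    Polynomial A →+* softOT A (IsLocalRing.residue A) :=
  (evalA A (jK Kbar)).codRestrict (softOT A (IsLocalRing.residue A)) (fun Q => by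
    rw [← OTA_embA_jA]
    exact embA_mem_softOT A _ _)

theorem h60c_softRedT_evS (Q : Polynomial A) :
    softRedT A (IsLocalRing.residue A) (h60c_evS A Q) =
      redA (IsLocalRing.residue A) (OTA_jA A Q) :=
  softRedT_of_embA (h60c_evS A Q) (OTA_jA A Q) (OTA_embA_jA A Q)

/-- the finite chart of level `M ℓ` consists of Gauss-integral functions (at `∞`). -/
theorem h60c_modelFin_le_softV (hℓ : ℓ.Prime) (hM : ¬ ℓ ∣ M) (hA : A.LiesOverPrime ℓ)
    {b : FF (M * ℓ)} (hb : b ∈ modelFin (M * ℓ) A) : b ∈ softV A (M * ℓ) := by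
  have e3 : jB (M * ℓ) = heckeAlphaBar Kbar M ℓ (jB M) :=
    (Fermat.Agent.Red.HKMod.heckeAlphaBar_jBar M ℓ).symm
  have h1 : b ∈ modelAt (M * ℓ) A (heckeAlphaBar Kbar M ℓ (jB M)) := by
    rw [← e3]; exact hb
  exact h63r_ssV_le_soft hℓ hA
    (h44v_modelAt_le_ssV A M ℓ hA (jB M) (h44v_jB_mem_gaussV A M ℓ hℓ hM hA) h1)

/-- the residue at `∞` of an element of the finite chart of level `M ℓ` is integral over the
residues of the finite chart of level `M`. -/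
theorem h60c_integral_red (hℓ : ℓ.Prime) (hM : ¬ ℓ ∣ M) (hA : A.LiesOverPrime ℓ)
    {b : FF (M * ℓ)} (hb : b ∈ modelFin (M * ℓ) A) (hbS : b ∈ softV A (M * ℓ)) :
    ∃ P : Polynomial (modelFin M A), P.Monic ∧
      Polynomial.eval₂ (h60c_rho hℓ hM hA) (softR A (M * ℓ) ⟨b, hbS⟩) P = 0 := by
  obtain ⟨P, hP, hPb⟩ := (mem_modelFin_iff (M * ℓ) A b).mp hb
  refine ⟨P.map (h60c_evΛ A M), hP.map _, ?_⟩
  rw [Polynomial.eval₂_map]
  have hcomp : (h60c_rho hℓ hM hA).comp (h60c_evΛ A M) =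
      (softRedT A (IsLocalRing.residue A)).comp (h60c_evS A) :=
    RingHom.ext fun Q => by
      rw [RingHom.comp_apply, RingHom.comp_apply, h60c_rho_evΛ, h60c_softRedT_evS]
  rw [hcomp]
  show Polynomial.eval₂ _ (softRedT A _ (softIncl A (M * ℓ) ⟨b, hbS⟩)) P = 0
  rw [← Polynomial.hom_eval₂]
  have h0 : Polynomial.eval₂ (h60c_evS A) (softIncl A (M * ℓ) ⟨b, hbS⟩) P = 0 := by
    apply Subtype.ext
    have h1 := Polynomial.hom_eval₂ P (h60c_evS A) (softOT A (IsLocalRing.residue A)).subtype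
      (softIncl A (M * ℓ) ⟨b, hbS⟩)
    have h2 : (softOT A (IsLocalRing.residue A)).subtype.comp (h60c_evS A) =
        evalA A (jK Kbar) := rfl
    rw [h2] at h1
    exact h1.trans hPb
  rw [h0, map_zero]

/-- **hsurj at `∞`**: `B = α Λ + P∞`. -/
theorem h60c_hsurj_inf (hℓ : ℓ.Prime) (hM : ¬ ℓ ∣ M) (hA : A.LiesOverPrime ℓ)
    [hic : IsIntegrallyClosed (modelFin M A ⧸ maxExt A (modelFin M A))]
    (hK3 : h60c_K3 A M ℓ) {b : FF (M * ℓ)} (hb : b ∈ modelFin (M * ℓ) A) :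
    ∃ x : FF M, x ∈ modelFin M A ∧
      ∃ h : b - heckeAlphaBar Kbar M ℓ x ∈ softV A (M * ℓ),
        softR A (M * ℓ) ⟨b - heckeAlphaBar Kbar M ℓ x, h⟩ = 0 := by
  have hbS : b ∈ softV A (M * ℓ) := h60c_modelFin_le_softV hℓ hM hA hb
  obtain ⟨y, hy⟩ := hK3 ⟨b, hbS⟩
  have hyG : (y : FF M) ∈ gaussV A M := softV_le_gaussV A M hℓ hM hA y.2
  obtain ⟨a, c, haΛ, hcΛ, hc0, hcV, hcVinv, hyc⟩ := h60c_exists_frac hℓ hM hA hyG
  have hΛV : modelFin M A ≤ gaussV A M := modelFin_le_gaussV A M hℓ hM hA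
  have hker : RingHom.ker (h60c_rho hℓ hM hA) = maxExt A (modelFin M A) :=
    h81g_ker_eq_maxExt hA (modelFin M A) hΛV
      (fun a ha => ModelO.h85_cst_mem_modelAt M A (jB M) ha)
      (fun x hx hred => exists_eq_cst_mul_of_gaussR_eq_zero_fin A M hℓ hM hA x hx hred)
  have : IsIntegrallyClosed (modelFin M A ⧸ RingHom.ker (h60c_rho hℓ hM hA)) := by
    rw [hker]; exact hic
  have hint := h60c_integral_red hℓ hM hA hb hbS
  have hρc : h60c_rho hℓ hM hA ⟨c, hcΛ⟩ ≠ 0 := by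
    rw [h81g_rho_apply, Ne, gaussR_eq_zero_iff A M hℓ hM hA, not_or, not_not]
    exact ⟨hc0, hcVinv⟩
  have hfrac : softR A (M * ℓ) ⟨b, hbS⟩ * h60c_rho hℓ hM hA ⟨c, hcΛ⟩ =
      h60c_rho hℓ hM hA ⟨a, haΛ⟩ := by
    rw [hy, show softR A M y = softR A M ⟨(y : FF M), y.2⟩ from rfl,
      softR_eq_gaussR A M (y : FF M) y.2 hyG, h81g_rho_apply, h81g_rho_apply, ← map_mul]
    congr 1
    exact Subtype.ext hyc
  obtain ⟨x, hx⟩ := h60c_hsurj_elt (h60c_rho hℓ hM hA) _ hint ⟨⟨a, haΛ⟩, ⟨c, hcΛ⟩, hρc, hfrac⟩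
  have hxG : (x : FF M) ∈ gaussV A M := hΛV x.2
  have hxS : (x : FF M) ∈ softV A M := gaussV_le_softV A M hxG
  have hαS : heckeAlphaBar Kbar M ℓ (x : FF M) ∈ softV A (M * ℓ) :=
    (alpha_mem_softV_iff A ℓ _).mpr hxS
  refine ⟨x, x.2, (softV A (M * ℓ)).sub_mem hbS hαS, ?_⟩
  have e : (⟨b - heckeAlphaBar Kbar M ℓ (x : FF M), (softV A (M * ℓ)).sub_mem hbS hαS⟩ :
      softV A (M * ℓ)) = ⟨b, hbS⟩ - ⟨heckeAlphaBar Kbar M ℓ (x : FF M), hαS⟩ := rfl
  rw [e, map_sub, softR_alpha A ℓ ⟨(x : FF M), hxS⟩ hαS,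
    softR_eq_gaussR A M (x : FF M) hxS hxG]
  have hx' : gaussR A M ⟨(x : FF M), hxG⟩ = softR A (M * ℓ) ⟨b, hbS⟩ := by
    rw [← hx, h81g_rho_apply]
  rw [hx', sub_self]

/-- **hsurj at `0`**: `B = β Λ + P₀` (`P₀` = elements `b` with `w b` a non-unit of `W∞`). -/
theorem h60c_hsurj_zero (hℓ : ℓ.Prime) (hM : ¬ ℓ ∣ M) (hA : A.LiesOverPrime ℓ)
    [hic : IsIntegrallyClosed (modelFin M A ⧸ maxExt A (modelFin M A))]
    (hK3 : h60c_K3 A M ℓ) {b : FF (M * ℓ)} (hb : b ∈ modelFin (M * ℓ) A) :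
    ∃ x : FF M, x ∈ modelFin M A ∧
      ∃ h : kFricke M ℓ hℓ hM (b - heckeBetaBar Kbar M ℓ x) ∈ softV A (M * ℓ),
        softR A (M * ℓ) ⟨kFricke M ℓ hℓ hM (b - heckeBetaBar Kbar M ℓ x), h⟩ = 0 := by
  have hwb : kFricke M ℓ hℓ hM b ∈ modelFin (M * ℓ) A :=
    h44g_kFricke_mem_modelFin M ℓ hℓ hM A hA hb
  obtain ⟨x, hxΛ, h, hx⟩ := h60c_hsurj_inf hℓ hM hA hK3 hwb
  have e : kFricke M ℓ hℓ hM (b - heckeBetaBar Kbar M ℓ x) =
      kFricke M ℓ hℓ hM b - heckeAlphaBar Kbar M ℓ x := by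
    rw [map_sub, kFricke_beta]
  refine ⟨x, hxΛ, by rw [e]; exact h, ?_⟩
  have : (⟨kFricke M ℓ hℓ hM (b - heckeBetaBar Kbar M ℓ x), by rw [e]; exact h⟩ :
      softV A (M * ℓ)) = ⟨kFricke M ℓ hℓ hM b - heckeAlphaBar Kbar M ℓ x, h⟩ :=
    Subtype.ext e
  rw [this]
  exact hx

/-- **K3** holds (helper44, `h44r_residue_degree_one`). -/
theorem h60c_k3 (hℓ : ℓ.Prime) (hM : ¬ ℓ ∣ M) (hA : A.LiesOverPrime ℓ) : h60c_K3 A M ℓ := by
  intro x
  obtain ⟨y, hy, h⟩ := h44r_residue_degree_one A M ℓ hℓ hM hA (x : FF (M * ℓ)) x.2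
  exact ⟨⟨y, hy⟩, h.symm⟩

/-- **I7, hsurj at `∞`** from smoothness at level `M`: `B = α Λ + P∞`. -/
theorem h60c_hsurj_inf_of_smooth (hSm : IfaceSmooth) (hℓ : ℓ.Prime) (hM : ¬ ℓ ∣ M)
    (haux : auxLevel ℓ ∣ M) (hA : A.LiesOverPrime ℓ)
    {b : FF (M * ℓ)} (hb : b ∈ modelFin (M * ℓ) A) :
    ∃ x : FF M, x ∈ modelFin M A ∧
      ∃ h : b - heckeAlphaBar Kbar M ℓ x ∈ softV A (M * ℓ),
        softR A (M * ℓ) ⟨b - heckeAlphaBar Kbar M ℓ x, h⟩ = 0 := by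
  have hded : IsDedekindDomain (modelFin M A ⧸ maxExt A (modelFin M A)) :=
    (hSm ℓ hℓ M hM haux A hA).1
  exact h60c_hsurj_inf hℓ hM hA (h60c_k3 hℓ hM hA) hb

/-- **I7, hsurj at `0`** from smoothness at level `M`: `B = β Λ + P₀`. -/
theorem h60c_hsurj_zero_of_smooth (hSm : IfaceSmooth) (hℓ : ℓ.Prime) (hM : ¬ ℓ ∣ M)
    (haux : auxLevel ℓ ∣ M) (hA : A.LiesOverPrime ℓ)
    {b : FF (M * ℓ)} (hb : b ∈ modelFin (M * ℓ) A) :
    ∃ x : FF M, x ∈ modelFin M A ∧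
      ∃ h : kFricke M ℓ hℓ hM (b - heckeBetaBar Kbar M ℓ x) ∈ softV A (M * ℓ),
        softR A (M * ℓ) ⟨kFricke M ℓ hℓ hM (b - heckeBetaBar Kbar M ℓ x), h⟩ = 0 := by
  have hded : IsDedekindDomain (modelFin M A ⧸ maxExt A (modelFin M A)) :=
    (hSm ℓ hℓ M hM haux A hA).1
  exact h60c_hsurj_zero hℓ hM hA (h60c_k3 hℓ hM hA) hb

end Level

end Fermat.Agent.LGC
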