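import Mathlib

/-!
# W3-LGC, leaf I7 (COMPONENTS), abstract half (helper60; Mathlib only)

`Λ` = chart of level `M`, `B` = chart of level `N = M ℓ`, `algebraMap Λ B = α`, `β : Λ → B`.
`ρB : B → L`, `ρΛ : Λ → L` the reductions at the cusp `∞` (`L = k((q))`), `ρB ∘ α = ρΛ`,
`P∞ = ker ρB`.

* `h60c_hsurj_abs` : if `B` is integral over `Λ`, the residue of every `b : B` is a fraction of
  residues of elements of `Λ` (residue degree one, K3) and `Λ ⧸ ker ρΛ` is integrally closed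
  (smoothness at level `M`), then `B = α Λ + P∞`.
* `h60c_only_max` : if `B = α Λ + P∞ = β Λ + P₀`, `P∞ ⊓ P₀ ≤ 𝔰 B` (`𝔰 = α⁻¹ 𝔫` maximal) and
  `(β x) ^ ℓ ∈ α Λ + P₀` (Frobenius), then a maximal ideal `𝔫 ⊇ P∞, P₀` is the only maximal
  ideal of `B` containing `𝔰 B`.
* `h60c_hU_abs` : hence every `s ∉ 𝔫` is invertible modulo `𝔰 B`.
-/

set_option autoImplicit false

namespace Fermat.Agent.LGC

section Surj

variable {Λ B L : Type*} [CommRing Λ] [CommRing B] [Algebra Λ B] [Field L]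


/-- An element of a field `L ⊇ R` (`R` integrally closed) which is integral over `R` and a
fraction of elements of `R` lies in `R`. -/
theorem h60c_mem_of_integral_of_frac {R : Type*} [CommRing R] [IsDomain R]
    [IsIntegrallyClosed R] (φ : R →+* L) (hφ : Function.Injective φ) (y : L)
    (hint : ∃ P : Polynomial R, P.Monic ∧ Polynomial.eval₂ φ y P = 0)
    (a c : R) (hc : c ≠ 0) (hy : y * φ c = φ a) : ∃ x : R, φ x = y := by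
  classical
  let K := FractionRing R
  let j : K →+* L := IsFractionRing.lift (K := K) (g := φ) hφ
  have hj : ∀ r : R, j (algebraMap R K r) = φ r := fun r => IsFractionRing.lift_algebraMap hφ r
  have hjinj : Function.Injective j := j.injective
  have hcK : algebraMap R K c ≠ 0 := by
    rw [Ne, IsFractionRing.to_map_eq_zero_iff]; exact hc
  have hφc : φ c ≠ 0 := by
    rw [Ne, ← map_zero φ]; exact fun h => hc (hφ h)
  set z : K := algebraMap R K a / algebraMap R K c with hz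
  have hjz : j z = y := by
    have h1 : j z * φ c = φ a := by
      rw [← hj c, ← map_mul, hz, div_mul_cancel₀ _ hcK, hj]
    exact mul_right_cancel₀ hφc (h1.trans hy.symm)
  obtain ⟨P, hP, hPy⟩ := hint
  have hzint : IsIntegral R z := by
    refine ⟨P, hP, ?_⟩
    apply hjinj
    rw [Polynomial.hom_eval₂, map_zero, hjz]
    have : j.comp (algebraMap R K) = φ := RingHom.ext hj
    rw [this]
    exact hPy
  obtain ⟨x, hx⟩ := IsIntegrallyClosed.isIntegral_iff.mp hzint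
  exact ⟨x, by rw [← hjz, ← hx, hj]⟩

/-- **hsurj, elementwise form**: an element `r` of the residue field which is integral over
the residues of `Λ` and a fraction of such residues is the residue of an element of `Λ`,
provided `Λ ⧸ ker ρΛ` is integrally closed. -/
theorem h60c_hsurj_elt (ρΛ : Λ →+* L) [IsIntegrallyClosed (Λ ⧸ RingHom.ker ρΛ)] (r : L)
    (hint : ∃ P : Polynomial Λ, P.Monic ∧ Polynomial.eval₂ ρΛ r P = 0)
    (hfrac : ∃ a c : Λ, ρΛ c ≠ 0 ∧ r * ρΛ c = ρΛ a) : ∃ x : Λ, ρΛ x = r := by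
  set R := Λ ⧸ RingHom.ker ρΛ with hR
  let φ : R →+* L := RingHom.kerLift ρΛ
  have hφ : Function.Injective φ := RingHom.kerLift_injective ρΛ
  have : IsDomain R := by
    have : (RingHom.ker ρΛ).IsPrime := RingHom.ker_isPrime ρΛ
    exact Ideal.Quotient.isDomain _
  have hφmk : ∀ x : Λ, φ (Ideal.Quotient.mk _ x) = ρΛ x := fun x => RingHom.kerLift_mk ρΛ x
  obtain ⟨a, c, hc, hbc⟩ := hfrac
  obtain ⟨P, hP, hPb⟩ := hint
  have hint' : ∃ Q : Polynomial R, Q.Monic ∧ Polynomial.eval₂ φ r Q = 0 := by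
    refine ⟨P.map (Ideal.Quotient.mk _), hP.map _, ?_⟩
    rw [Polynomial.eval₂_map]
    have h1 : φ.comp (Ideal.Quotient.mk (RingHom.ker ρΛ)) = ρΛ := RingHom.ext hφmk
    rw [h1]
    exact hPb
  have hc' : (Ideal.Quotient.mk (RingHom.ker ρΛ) c) ≠ 0 := by
    intro h
    apply hc
    rw [← hφmk, h, map_zero]
  obtain ⟨x, hx⟩ := h60c_mem_of_integral_of_frac φ hφ r hint'
    (Ideal.Quotient.mk _ a) (Ideal.Quotient.mk _ c) hc' (by rw [hφmk, hφmk]; exact hbc)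
  obtain ⟨x', rfl⟩ := Ideal.Quotient.mk_surjective x
  exact ⟨x', by rw [← hφmk, hx]⟩

/-- **hsurj (abstract)**: `B = α Λ + ker ρB`. -/
theorem h60c_hsurj_abs (ρB : B →+* L) (ρΛ : Λ →+* L)
    (hcomp : ∀ x : Λ, ρB (algebraMap Λ B x) = ρΛ x)
    (hint : ∀ b : B, IsIntegral Λ b)
    (hfrac : ∀ b : B, ∃ a c : Λ, ρΛ c ≠ 0 ∧ ρB b * ρΛ c = ρΛ a)
    [IsIntegrallyClosed (Λ ⧸ RingHom.ker ρΛ)] :
    ∀ b : B, ∃ x : Λ, ρB (b - algebraMap Λ B x) = 0 := by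
  intro b
  obtain ⟨P, hP, hPb⟩ := hint b
  have hint' : ∃ Q : Polynomial Λ, Q.Monic ∧ Polynomial.eval₂ ρΛ (ρB b) Q = 0 := by
    refine ⟨P, hP, ?_⟩
    have h1 : ρΛ = ρB.comp (algebraMap Λ B) := RingHom.ext fun x => (hcomp x).symm
    rw [h1, ← Polynomial.hom_eval₂, hPb, map_zero]
  obtain ⟨x, hx⟩ := h60c_hsurj_elt ρΛ (ρB b) hint' (hfrac b)
  exact ⟨x, by rw [map_sub, hcomp, hx, sub_self]⟩

end Surj

section Only

variable {Λ B : Type*} [CommRing Λ] [CommRing B] [Algebra Λ B]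

/-- A maximal ideal `𝔮 ⊇ P` of `B = α Λ + P` with the same contraction to `Λ` as the ideal
`𝔫 ⊇ P` is contained in `𝔫`. -/
theorem h60c_le_of_surj (𝔫 𝔮 P : Ideal B) (hP𝔫 : P ≤ 𝔫) (hP𝔮 : P ≤ 𝔮)
    (hsurj : ∀ b : B, ∃ x : Λ, b - algebraMap Λ B x ∈ P)
    (hcomap : 𝔮.comap (algebraMap Λ B) ≤ 𝔫.comap (algebraMap Λ B)) : 𝔮 ≤ 𝔫 := by
  intro b hb
  obtain ⟨x, hx⟩ := hsurj b
  have h1 : algebraMap Λ B x ∈ 𝔮 := by
    have := 𝔮.sub_mem hb (hP𝔮 hx)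
    simpa using this
  have h2 : algebraMap Λ B x ∈ 𝔫 := hcomap h1
  have := 𝔫.add_mem (hP𝔫 hx) h2
  simpa using this

/-- The Frobenius variant: `B = β Λ + P`, `(β x) ^ ℓ ∈ α Λ + P`. -/
theorem h60c_le_of_surj_frob (β : Λ →+* B) (𝔫 𝔮 P : Ideal B) [𝔫.IsPrime] (hP𝔫 : P ≤ 𝔫)
    (hP𝔮 : P ≤ 𝔮) (hsurj : ∀ b : B, ∃ x : Λ, b - β x ∈ P) (ℓ : ℕ) (hℓ : 0 < ℓ)
    (hfrob : ∀ x : Λ, ∃ c : Λ, β x ^ ℓ - algebraMap Λ B c ∈ P)
    (hcomap : 𝔮.comap (algebraMap Λ B) ≤ 𝔫.comap (algebraMap Λ B)) : 𝔮 ≤ 𝔫 := by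
  intro b hb
  obtain ⟨x, hx⟩ := hsurj b
  have h1 : β x ∈ 𝔮 := by
    have := 𝔮.sub_mem hb (hP𝔮 hx)
    simpa using this
  obtain ⟨c, hc⟩ := hfrob x
  have h2 : algebraMap Λ B c ∈ 𝔮 := by
    have h3 : β x ^ ℓ ∈ 𝔮 := Ideal.pow_mem_of_mem 𝔮 h1 ℓ hℓ
    have := 𝔮.sub_mem h3 (hP𝔮 hc)
    simpa using this
  have h4 : algebraMap Λ B c ∈ 𝔫 := hcomap h2
  have h5 : β x ^ ℓ ∈ 𝔫 := by
    have := 𝔫.add_mem (hP𝔫 hc) h4
    simpa using this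
  have h6 : β x ∈ 𝔫 := Ideal.IsPrime.mem_of_pow_mem inferInstance ℓ h5
  have := 𝔫.add_mem (hP𝔫 hx) h6
  simpa using this

/-- **uniqueness of the node over its image**: a maximal ideal `𝔫 ⊇ P∞, P₀` is the only
maximal ideal of `B` containing `J` when `P∞ ⊓ P₀ ≤ J ≤ 𝔫` and `J` contains the extension of
the (maximal) contraction `𝔰 = α⁻¹ 𝔫`. -/
theorem h60c_only_max (β : Λ →+* B) (𝔫 Pinf P0 J : Ideal B) [h𝔫 : 𝔫.IsMaximal]
    (hPinf : Pinf ≤ 𝔫) (hP0 : P0 ≤ 𝔫) (hred : Pinf ⊓ P0 ≤ J)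
    (hJ : (𝔫.comap (algebraMap Λ B)).map (algebraMap Λ B) ≤ J)
    (h𝔰 : (𝔫.comap (algebraMap Λ B)).IsMaximal)
    (hsurj : ∀ b : B, ∃ x : Λ, b - algebraMap Λ B x ∈ Pinf)
    (hsurj0 : ∀ b : B, ∃ x : Λ, b - β x ∈ P0) (ℓ : ℕ) (hℓ : 0 < ℓ)
    (hfrob : ∀ x : Λ, ∃ c : Λ, β x ^ ℓ - algebraMap Λ B c ∈ P0)
    (𝔮 : Ideal B) (h𝔮 : 𝔮.IsMaximal) (hJ𝔮 : J ≤ 𝔮) : 𝔮 = 𝔫 := by
  have := h𝔮.isPrime
  have hcomap : 𝔮.comap (algebraMap Λ B) ≤ 𝔫.comap (algebraMap Λ B) := by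
    have h1 : 𝔫.comap (algebraMap Λ B) ≤ 𝔮.comap (algebraMap Λ B) := by
      intro x hx
      exact hJ𝔮 (hJ (Ideal.mem_map_of_mem _ hx))
    have h2 : 𝔮.comap (algebraMap Λ B) ≠ ⊤ := by
      intro h
      have : (1 : Λ) ∈ 𝔮.comap (algebraMap Λ B) := by rw [h]; trivial
      rw [Ideal.mem_comap, map_one] at this
      exact h𝔮.ne_top ((Ideal.eq_top_iff_one _).mpr this)
    exact (h𝔰.eq_of_le h2 h1).symm.le
  have hprod : Pinf * P0 ≤ 𝔮 := (Ideal.mul_le_inf.trans hred).trans hJ𝔮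
  have hle : 𝔮 ≤ 𝔫 := by
    rcases (Ideal.IsPrime.mul_le inferInstance).mp hprod with h | h
    · exact h60c_le_of_surj 𝔫 𝔮 Pinf hPinf h hsurj hcomap
    · exact h60c_le_of_surj_frob β 𝔫 𝔮 P0 hP0 h hsurj0 ℓ hℓ hfrob hcomap
  exact h𝔮.eq_of_le h𝔫.ne_top hle

/-- **hU (abstract)**: every `s ∉ 𝔫` is invertible modulo `J`. -/
theorem h60c_hU_abs (β : Λ →+* B) (𝔫 Pinf P0 J : Ideal B) [h𝔫 : 𝔫.IsMaximal]
    (hPinf : Pinf ≤ 𝔫) (hP0 : P0 ≤ 𝔫) (hred : Pinf ⊓ P0 ≤ J)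
    (hJ : (𝔫.comap (algebraMap Λ B)).map (algebraMap Λ B) ≤ J)
    (h𝔰 : (𝔫.comap (algebraMap Λ B)).IsMaximal)
    (hsurj : ∀ b : B, ∃ x : Λ, b - algebraMap Λ B x ∈ Pinf)
    (hsurj0 : ∀ b : B, ∃ x : Λ, b - β x ∈ P0) (ℓ : ℕ) (hℓ : 0 < ℓ)
    (hfrob : ∀ x : Λ, ∃ c : Λ, β x ^ ℓ - algebraMap Λ B c ∈ P0) :
    ∀ s : B, s ∉ 𝔫 → ∃ s' : B, s * s' - 1 ∈ J := by
  intro s hs
  by_contra hcon
  rw [not_exists] at hcon
  -- `J + (s)` is a proper ideal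
  have hne : J ⊔ Ideal.span {s} ≠ ⊤ := by
    intro h
    have h1 : (1 : B) ∈ J ⊔ Ideal.span {s} := by rw [h]; trivial
    obtain ⟨j, hj, t, ht, hsum⟩ := Submodule.mem_sup.mp h1
    obtain ⟨s', rfl⟩ := Ideal.mem_span_singleton'.mp ht
    apply hcon s'
    have : s * s' - 1 = -j := by rw [← hsum]; ring
    rw [this]
    exact J.neg_mem hj
  obtain ⟨𝔮, h𝔮, hle⟩ := Ideal.exists_le_maximal _ hne
  have h𝔮𝔫 := h60c_only_max β 𝔫 Pinf P0 J hPinf hP0 hred hJ h𝔰 hsurj hsurj0 ℓ hℓ hfrob 𝔮 h𝔮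
    (le_sup_left.trans hle)
  apply hs
  rw [← h𝔮𝔫]
  exact hle (Ideal.mem_sup_right (Ideal.subset_span rfl))

end Only

end Fermat.Agent.LGC
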