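import Fermat.Agent.LGC.H60Comp
import Fermat.Agent.LGC.H4Fin

/-!
# W3-LGC, leaf I7 (COMPONENTS): the hypotheses `hsurjinf`, `hsurj0` of `h62l_local` for the
concrete charts (helper60)

`Λ = chart M A (jB M)`, `B = chart (M ℓ) A (jSS M ℓ)`, `α = h4f_alphaChart`,
`β = h4f_betaChart` (helper4).  The ideals `P∞`, `P₀` of `B` are arbitrary ideals containing
the elements with vanishing reduction at `∞`, resp. at `0` (= after `w = kFricke`).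
-/

set_option autoImplicit false
set_option linter.unusedSectionVars false

open AlgebraicCurve ModularCurve

noncomputable section

namespace Fermat.Agent.LGC

open Fermat.Agent.S37 Fermat.Agent.Red Fermat.Agent.Red.GG Fermat.Agent.Red.GV
  Fermat.Agent.Red.GV.Soft Fermat.Agent.Red.Kron

variable (A : ValuationSubring Kbar) (M ℓ : ℕ) [NeZero M] [NeZero ℓ]

theorem h60c_chart_mem_modelFin (b : chart (M * ℓ) A (jSS M ℓ)) :
    (b : FF (M * ℓ)) ∈ modelFin (M * ℓ) A := by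
  have e3 : jB (M * ℓ) = heckeAlphaBar Kbar M ℓ (jB M) :=
    (Fermat.Agent.Red.HKMod.heckeAlphaBar_jBar M ℓ).symm
  have h1 : (b : FF (M * ℓ)) ∈ modelAt (M * ℓ) A (jSS M ℓ) := b.2
  show (b : FF (M * ℓ)) ∈ modelAt (M * ℓ) A (jB (M * ℓ))
  rw [e3]
  exact h1

/-- **`hsurjinf` of `h62l_local`**: `B = α Λ + P∞`. -/
theorem h60c_hsurjinf_chart (hSm : IfaceSmooth) (hℓ : ℓ.Prime)
    (hM : ¬ ℓ ∣ M) (haux : auxLevel ℓ ∣ M) (hA : A.LiesOverPrime ℓ)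
    (Pinf : Ideal (chart (M * ℓ) A (jSS M ℓ)))
    (hPinf : ∀ b : chart (M * ℓ) A (jSS M ℓ),
      (∃ h : (b : FF (M * ℓ)) ∈ softV A (M * ℓ),
        softR A (M * ℓ) ⟨(b : FF (M * ℓ)), h⟩ = 0) → b ∈ Pinf) :
    ∀ b : chart (M * ℓ) A (jSS M ℓ), ∃ x : chart M A (jB M),
      b - h4f_alphaChart A M ℓ x ∈ Pinf := by
  intro b
  obtain ⟨x, hxΛ, h, hx⟩ := h60c_hsurj_inf_of_smooth hSm hℓ hM haux hA
    (h60c_chart_mem_modelFin A M ℓ b)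
  exact ⟨⟨x, hxΛ⟩, hPinf _ ⟨h, hx⟩⟩

/-- **`hsurj0` of `h62l_local`**: `B = β Λ + P₀`. -/
theorem h60c_hsurj0_chart (hSm : IfaceSmooth) (hℓ : ℓ.Prime)
    (hM : ¬ ℓ ∣ M) (haux : auxLevel ℓ ∣ M) (hA : A.LiesOverPrime ℓ)
    (P0 : Ideal (chart (M * ℓ) A (jSS M ℓ)))
    (hP0 : ∀ b : chart (M * ℓ) A (jSS M ℓ),
      (∃ h : kFricke M ℓ hℓ hM (b : FF (M * ℓ)) ∈ softV A (M * ℓ),
        softR A (M * ℓ) ⟨kFricke M ℓ hℓ hM (b : FF (M * ℓ)), h⟩ = 0) → b ∈ P0) :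
    ∀ b : chart (M * ℓ) A (jSS M ℓ), ∃ x : chart M A (jB M),
      b - h4f_betaChart A M ℓ hℓ hM hA x ∈ P0 := by
  intro b
  obtain ⟨x, hxΛ, h, hx⟩ := h60c_hsurj_zero_of_smooth hSm hℓ hM haux hA
    (h60c_chart_mem_modelFin A M ℓ b)
  exact ⟨⟨x, hxΛ⟩, hP0 _ ⟨h, hx⟩⟩

end Fermat.Agent.LGC
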