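import Fermat.Agent.LGC.H60Comp

/-!
# W3-LGC, leaf I7 (COMPONENTS) for an arbitrary chart of level `M` (helper60)

The statement `B = α Λ + P∞` of `H60Comp.lean`, for the chart `Λ = modelAt M A t` of level `M`
attached to a coordinate `t` (`t = j`: finite chart, `t = 1 / j`: chart at infinity), in the
elementwise form

  `b ∈ W∞`, `red∞ b` integral over `red Λ`  ⟹  `∃ x ∈ Λ, red∞ (b - α x) = 0`.

* `h60i_core` : the general statement (the chart `Λ` is Gauss-integral, satisfies the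
  `q`-expansion principle and the kernel property, `Λ ⧸ 𝔪_A Λ` is integrally closed).
* `h60i_integral` : the integrality hypothesis of `h60i_core` for the elements of a chart
  `modelAt (M ℓ) A s` of level `M ℓ` whose coordinate `s` reduces into `red Λ`.
* `h60i_hsurj_inf_inf` / `h60i_hsurj_zero_inf` : the chart at infinity,
  `b ∈ modelInf (M ℓ) A ⟹ ∃ x ∈ modelInf M A, red∞ (b - α x) = 0`, resp.
  `red∞ (w b - α x) = 0`; `_of_smooth` versions from `IfaceSmooth`.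
-/

set_option autoImplicit false
set_option linter.unusedSectionVars false
set_option linter.style.haveILetI false

open AlgebraicCurve ModularCurve

noncomputable section

namespace Fermat.Agent.LGC

open Fermat.Agent.S37 Fermat.Agent.Red Fermat.Agent.Red.GG Fermat.Agent.Red.GV
  Fermat.Agent.Red.GV.Soft Fermat.Agent.Red.Kron Fermat.Agent.Red.SM
  Fermat.Agent.Red.SM.GVPack

section General

variable {A : ValuationSubring Kbar} {M ℓ : ℕ} [NeZero M] [NeZero ℓ]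

/-- A Gauss-integral function which is integral over `ℚ̄[t]` lies in the chart of `t`. -/
theorem h60i_mem_of_integral (t : FF M)
    (hqep : ∀ x ∈ gaussV A M, ∀ c : Kbar, c ∈ A → c ≠ 0 →
      cst M c * x ∈ modelAt M A t → x ∈ modelAt M A t)
    {x : FF M} (hx : x ∈ gaussV A M) (hint : IsIntegral (Algebra.adjoin Kbar {t}) x) :
    x ∈ modelAt M A t := by
  obtain ⟨a, ha, hax⟩ := GGC97_clear A t x hint
  exact hqep x hx (a : Kbar) a.2 ha hax

/-- Every Gauss-integral function of level `M` is a fraction `a / c` of elements of the chart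
with `c` a Gauss unit. -/
theorem h60i_exists_frac (hℓ : ℓ.Prime) (hM : ¬ ℓ ∣ M) (hA : A.LiesOverPrime ℓ) (t : FF M)
    (halg : ∀ y : FF M, IsAlgebraic (Algebra.adjoin Kbar {t}) y)
    (hqep : ∀ x ∈ gaussV A M, ∀ c : Kbar, c ∈ A → c ≠ 0 →
      cst M c * x ∈ modelAt M A t → x ∈ modelAt M A t)
    {y : FF M} (hy : y ∈ gaussV A M) :
    ∃ a c : FF M, a ∈ modelAt M A t ∧ c ∈ modelAt M A t ∧ c ≠ 0 ∧ c ∈ gaussV A M ∧
      c⁻¹ ∈ gaussV A M ∧ y * c = a := by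
  obtain ⟨d₀, hd₀, hint⟩ := (halg y).exists_integral_multiple
  have hd₀' : ((d₀ : Algebra.adjoin Kbar {t}) : FF M) ≠ 0 := fun h => hd₀ (Subtype.ext h)
  obtain ⟨c, hc0, hcV, hcVinv⟩ := exists_cst_mul_unit A M hℓ hM hA (d₀ : FF M) hd₀'
  have hcst0 : cst M c ≠ 0 := by
    intro h
    apply hc0
    have := (algebraMap Kbar (FF M)).injective (h.trans (map_zero _).symm)
    exact this
  have hd0 : cst M c * (d₀ : FF M) ≠ 0 := mul_ne_zero hcst0 hd₀'
  have hcint : IsIntegral (Algebra.adjoin Kbar {t}) (cst M c) := by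
    have : cst M c = algebraMap (Algebra.adjoin Kbar {t}) (FF M)
        (algebraMap Kbar (Algebra.adjoin Kbar {t}) c) := rfl
    rw [this]
    exact isIntegral_algebraMap
  have hdint : IsIntegral (Algebra.adjoin Kbar {t}) (cst M c * (d₀ : FF M)) := by
    refine hcint.mul ?_
    have : ((d₀ : Algebra.adjoin Kbar {t}) : FF M) =
        algebraMap (Algebra.adjoin Kbar {t}) (FF M) d₀ := rfl
    rw [this]
    exact isIntegral_algebraMap
  have hdΛ : cst M c * (d₀ : FF M) ∈ modelAt M A t :=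
    h60i_mem_of_integral t hqep hcV hdint
  refine ⟨y * (cst M c * (d₀ : FF M)), cst M c * (d₀ : FF M), ?_, hdΛ, hd0, hcV, hcVinv, rfl⟩
  apply h60i_mem_of_integral t hqep ((gaussV A M).mul_mem hy hcV)
  have h1 : y * (cst M c * (d₀ : FF M)) = cst M c * (d₀ • y) := by
    rw [Algebra.smul_def]
    show y * (cst M c * (d₀ : FF M)) = cst M c * ((d₀ : FF M) * y)
    ring
  rw [h1]
  exact hcint.mul hint

/-- **the core statement**: an element `b` of `W∞` (level `M ℓ`) whose residue is integral over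
the residues of the chart `Λ = modelAt M A t` is congruent to an element of `α Λ` modulo the
non-units of `W∞`. -/
theorem h60i_core (hℓ : ℓ.Prime) (hM : ¬ ℓ ∣ M) (hA : A.LiesOverPrime ℓ) (t : FF M)
    (hΛV : modelAt M A t ≤ gaussV A M)
    (halg : ∀ y : FF M, IsAlgebraic (Algebra.adjoin Kbar {t}) y)
    (hqep : ∀ x ∈ gaussV A M, ∀ c : Kbar, c ∈ A → c ≠ 0 →
      cst M c * x ∈ modelAt M A t → x ∈ modelAt M A t)
    (hkerp : h81g_KerProp A M (modelAt M A t))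
    [hic : IsIntegrallyClosed (modelAt M A t ⧸ maxExt A (modelAt M A t))]
    {b : FF (M * ℓ)} (hbS : b ∈ softV A (M * ℓ))
    (hint : ∃ P : Polynomial (modelAt M A t), P.Monic ∧
      Polynomial.eval₂ (h81g_rho A M (modelAt M A t) hΛV) (softR A (M * ℓ) ⟨b, hbS⟩) P = 0) :
    ∃ x : FF M, x ∈ modelAt M A t ∧
      ∃ h : b - heckeAlphaBar Kbar M ℓ x ∈ softV A (M * ℓ),
        softR A (M * ℓ) ⟨b - heckeAlphaBar Kbar M ℓ x, h⟩ = 0 := by
  obtain ⟨y, hy⟩ := h60c_k3 hℓ hM hA ⟨b, hbS⟩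
  have hyG : (y : FF M) ∈ gaussV A M := softV_le_gaussV A M hℓ hM hA y.2
  obtain ⟨a, c, haΛ, hcΛ, hc0, hcV, hcVinv, hyc⟩ := h60i_exists_frac hℓ hM hA t halg hqep hyG
  have hker : RingHom.ker (h81g_rho A M (modelAt M A t) hΛV) = maxExt A (modelAt M A t) :=
    h81g_ker_eq_maxExt hA (modelAt M A t) hΛV
      (fun a ha => ModelO.h85_cst_mem_modelAt M A t ha) hkerp
  have : IsIntegrallyClosed
      (modelAt M A t ⧸ RingHom.ker (h81g_rho A M (modelAt M A t) hΛV)) := by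
    rw [hker]; exact hic
  have hρc : h81g_rho A M (modelAt M A t) hΛV ⟨c, hcΛ⟩ ≠ 0 := by
    rw [h81g_rho_apply, Ne, gaussR_eq_zero_iff A M hℓ hM hA, not_or, not_not]
    exact ⟨hc0, hcVinv⟩
  have hfrac : softR A (M * ℓ) ⟨b, hbS⟩ * h81g_rho A M (modelAt M A t) hΛV ⟨c, hcΛ⟩ =
      h81g_rho A M (modelAt M A t) hΛV ⟨a, haΛ⟩ := by
    rw [hy, show softR A M y = softR A M ⟨(y : FF M), y.2⟩ from rfl,
      softR_eq_gaussR A M (y : FF M) y.2 hyG, h81g_rho_apply, h81g_rho_apply, ← map_mul]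
    congr 1
    exact Subtype.ext hyc
  obtain ⟨x, hx⟩ := h60c_hsurj_elt (h81g_rho A M (modelAt M A t) hΛV) _ hint
    ⟨⟨a, haΛ⟩, ⟨c, hcΛ⟩, hρc, hfrac⟩
  have hxG : (x : FF M) ∈ gaussV A M := hΛV x.2
  have hxS : (x : FF M) ∈ softV A M := gaussV_le_softV A M hxG
  have hαS : heckeAlphaBar Kbar M ℓ (x : FF M) ∈ softV A (M * ℓ) :=
    (alpha_mem_softV_iff A ℓ _).mpr hxS
  refine ⟨x, x.2, (softV A (M * ℓ)).sub_mem hbS hαS, ?_⟩
  have e : (⟨b - heckeAlphaBar Kbar M ℓ (x : FF M), (softV A (M * ℓ)).sub_mem hbS hαS⟩ :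
      softV A (M * ℓ)) = ⟨b, hbS⟩ - ⟨heckeAlphaBar Kbar M ℓ (x : FF M), hαS⟩ := rfl
  rw [e, map_sub, softR_alpha A ℓ ⟨(x : FF M), hxS⟩ hαS,
    softR_eq_gaussR A M (x : FF M) hxS hxG]
  have hx' : gaussR A M ⟨(x : FF M), hxG⟩ = softR A (M * ℓ) ⟨b, hbS⟩ := by
    rw [← hx, h81g_rho_apply]
  rw [hx', sub_self]

/-! ### Integrality of the residues -/

/-- the evaluation `Q ↦ Q(u)` with values in a chart of level `M` containing `u`. -/
def h60i_evΛ (A : ValuationSubring Kbar) (M : ℕ) (t : FF M) (u : modelAt M A t) :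
    Polynomial A →+* modelAt M A t :=
  (evalF M A (u : FF M)).codRestrict (modelAt M A t) (fun Q => by
    induction Q using Polynomial.induction_on with
    | C a => rw [evalF_C]; exact ModelO.h85_cst_mem_modelAt M A t a.2
    | add p q hp hq => rw [map_add]; exact add_mem hp hq
    | monomial n a h =>
      rw [pow_succ, ← mul_assoc, map_mul, evalF_X]
      exact mul_mem h u.2)

/-- the evaluation `Q ↦ Q(s)` with values in `W∞`. -/
def h60i_evS (A : ValuationSubring Kbar) (N : ℕ) (s : softV A N) :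
    Polynomial A →+* softV A N :=
  (evalF N A (s : FF N)).codRestrict (softV A N) (fun Q => by
    induction Q using Polynomial.induction_on with
    | C a => rw [evalF_C]; exact (cst_mem_softV_iff A N _).mpr a.2
    | add p q hp hq => rw [map_add]; exact add_mem hp hq
    | monomial n a h =>
      rw [pow_succ, ← mul_assoc, map_mul, evalF_X]
      exact mul_mem h s.2)

theorem h60i_red_comp (t : FF M) (hΛV : modelAt M A t ≤ gaussV A M)
    (s : softV A (M * ℓ)) (u : modelAt M A t)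
    (hsu : softR A (M * ℓ) s = h81g_rho A M (modelAt M A t) hΛV u) :
    (softR A (M * ℓ)).comp (h60i_evS A (M * ℓ) s) =
      (h81g_rho A M (modelAt M A t) hΛV).comp (h60i_evΛ A M t u) := by
  apply Polynomial.ringHom_ext
  · intro a
    rw [RingHom.comp_apply, RingHom.comp_apply]
    have h1 : h60i_evS A (M * ℓ) s (Polynomial.C a) =
        ⟨cst (M * ℓ) (a : Kbar), (cst_mem_softV_iff A (M * ℓ) _).mpr a.2⟩ :=
      Subtype.ext (evalF_C (M * ℓ) A _ a)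
    rw [h1, softR_cst A (M * ℓ) a]
    exact (h81g_rho_cst A M (modelAt M A t) hΛV (a : Kbar) a.2 _ (evalF_C M A _ a)).symm
  · rw [RingHom.comp_apply, RingHom.comp_apply]
    have h1 : h60i_evS A (M * ℓ) s Polynomial.X = s := Subtype.ext (evalF_X (M * ℓ) A _)
    have h2 : h60i_evΛ A M t u Polynomial.X = u := Subtype.ext (evalF_X M A _)
    rw [h1, h2, hsu]

/-- **integrality of the residues**: the residue at `∞` of an element of the chart of level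
`M ℓ` attached to `s` is integral over the residues of the chart `Λ` of level `M`, if the
residue of `s` is the residue of an element of `Λ`. -/
theorem h60i_integral (t : FF M) (hΛV : modelAt M A t ≤ gaussV A M)
    (s : softV A (M * ℓ)) (u : modelAt M A t)
    (hsu : softR A (M * ℓ) s = h81g_rho A M (modelAt M A t) hΛV u)
    {z : FF (M * ℓ)} (hz : z ∈ modelAt (M * ℓ) A (s : FF (M * ℓ)))
    (hzS : z ∈ softV A (M * ℓ)) :
    ∃ P : Polynomial (modelAt M A t), P.Monic ∧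
      Polynomial.eval₂ (h81g_rho A M (modelAt M A t) hΛV) (softR A (M * ℓ) ⟨z, hzS⟩) P = 0 := by
  obtain ⟨P, hP, hPz⟩ := (Fermat.Agent.Red.KR.mem_modelAt_iff_evalF A _ z).mp hz
  refine ⟨P.map (h60i_evΛ A M t u), hP.map _, ?_⟩
  rw [Polynomial.eval₂_map, ← h60i_red_comp t hΛV s u hsu, ← Polynomial.hom_eval₂]
  have h0 : Polynomial.eval₂ (h60i_evS A (M * ℓ) s) (⟨z, hzS⟩ : softV A (M * ℓ)) P = 0 := by
    apply Subtype.ext
    have h1 := Polynomial.hom_eval₂ P (h60i_evS A (M * ℓ) s) (softV A (M * ℓ)).subtype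
      (⟨z, hzS⟩ : softV A (M * ℓ))
    have h2 : (softV A (M * ℓ)).subtype.comp (h60i_evS A (M * ℓ) s) =
        evalF (M * ℓ) A (s : FF (M * ℓ)) := rfl
    rw [h2] at h1
    exact h1.trans hPz
  rw [h0, map_zero]

/-- a chart of level `N` whose coordinate lies in `W∞` is contained in `W∞`. -/
theorem h60i_modelAt_le_softV (hℓ : ℓ.Prime) (hA : A.LiesOverPrime ℓ) (N : ℕ) [NeZero N]
    (s : softV A N) {z : FF N} (hz : z ∈ modelAt N A (s : FF N)) : z ∈ softV A N :=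
  h44r_mem_softV_of_isIntegralElem A ℓ N hℓ hA (evalF N A (s : FF N))
    (fun Q => (h60i_evS A N s Q).2) z
    ((Fermat.Agent.Red.KR.mem_modelAt_iff_evalF A _ z).mp hz)

end General

/-! ## The chart at infinity -/

section Inf

variable {A : ValuationSubring Kbar} {M ℓ : ℕ} [NeZero M] [NeZero ℓ]

theorem h60i_jinv_mem_softV (hℓ : ℓ.Prime) (hM : ¬ ℓ ∣ M) (hA : A.LiesOverPrime ℓ) :
    (jB M)⁻¹ ∈ softV A M :=
  gaussV_le_softV A M (jB_inv_mem_gaussV A M hℓ hM hA)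

/-- the residue of `1 / j` is `1 / j̄`. -/
theorem h60i_softR_jinv (h : (jB M)⁻¹ ∈ softV A M) :
    softR A M ⟨(jB M)⁻¹, h⟩ = (jqModC (IsLocalRing.ResidueField A))⁻¹ := by
  have hj : jB M ∈ softV A M := gaussV_le_softV A M (jB_mem_gaussV A M)
  have h0 : jB M ≠ 0 := by
    intro h
    have h1 := Fermat.Agent.Red.GV.coe_jB M
    rw [h] at h1
    exact Fermat.Agent.Red.GV.Asm.jK_ne_zero Kbar h1.symm
  have h1 : (⟨(jB M)⁻¹, h⟩ : softV A M) * ⟨jB M, hj⟩ = 1 :=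
    Subtype.ext (inv_mul_cancel₀ h0)
  have h2 := congrArg (softR A M) h1
  rw [map_mul, map_one, h44r_softR_jB A M hj] at h2
  exact eq_inv_of_mul_eq_one_left h2

/-- **hsurj at `∞`, chart at infinity, general element**: an element `z` of the chart of
level `M ℓ` attached to a coordinate `s ∈ W∞` whose residue is the residue of an element of
`modelInf M A` is congruent to an element of `α (modelInf M A)` modulo the non-units of
`W∞`. -/
theorem h60i_hsurj_of_coord (hℓ : ℓ.Prime) (hM : ¬ ℓ ∣ M) (hA : A.LiesOverPrime ℓ)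
    [hic : IsIntegrallyClosed (modelInf M A ⧸ maxExt A (modelInf M A))]
    (s : softV A (M * ℓ)) (u : modelInf M A)
    (hsu : softR A (M * ℓ) s =
      h81g_rho A M (modelInf M A) (modelInf_le_gaussV A M hℓ hM hA) u)
    {z : FF (M * ℓ)} (hz : z ∈ modelAt (M * ℓ) A (s : FF (M * ℓ))) :
    ∃ x : FF M, x ∈ modelInf M A ∧
      ∃ h : z - heckeAlphaBar Kbar M ℓ x ∈ softV A (M * ℓ),
        softR A (M * ℓ) ⟨z - heckeAlphaBar Kbar M ℓ x, h⟩ = 0 := by
  have hzS : z ∈ softV A (M * ℓ) := h60i_modelAt_le_softV hℓ hA (M * ℓ) s hz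
  have hΛV : modelAt M A (jB M)⁻¹ ≤ gaussV A M := modelInf_le_gaussV A M hℓ hM hA
  haveI : IsIntegrallyClosed (modelAt M A (jB M)⁻¹ ⧸ maxExt A (modelAt M A (jB M)⁻¹)) := hic
  exact h60i_core hℓ hM hA (jB M)⁻¹ hΛV (HAlg.h81a_halg_jB_inv M)
    (fun x hx c hcA hc h => mem_modelInf_of_cst_mul A M hℓ hM hA x hx c hcA hc h)
    (h81g_kerProp_inf hℓ hM hA) hzS (h60i_integral (jB M)⁻¹ hΛV s u hsu hz hzS)

/-- **hsurj at `∞`, chart at infinity**: `modelInf (M ℓ) A = α (modelInf M A) + P∞`. -/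
theorem h60i_hsurj_inf_inf (hℓ : ℓ.Prime) (hM : ¬ ℓ ∣ M) (hA : A.LiesOverPrime ℓ)
    [hic : IsIntegrallyClosed (modelInf M A ⧸ maxExt A (modelInf M A))]
    {b : FF (M * ℓ)} (hb : b ∈ modelInf (M * ℓ) A) :
    ∃ x : FF M, x ∈ modelInf M A ∧
      ∃ h : b - heckeAlphaBar Kbar M ℓ x ∈ softV A (M * ℓ),
        softR A (M * ℓ) ⟨b - heckeAlphaBar Kbar M ℓ x, h⟩ = 0 := by
  have hjS : (jB M)⁻¹ ∈ softV A M := h60i_jinv_mem_softV hℓ hM hA
  have hjG : (jB M)⁻¹ ∈ gaussV A M := jB_inv_mem_gaussV A M hℓ hM hA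
  have hαS : heckeAlphaBar Kbar M ℓ (jB M)⁻¹ ∈ softV A (M * ℓ) :=
    (alpha_mem_softV_iff A ℓ _).mpr hjS
  have e3 : (jB (M * ℓ))⁻¹ = heckeAlphaBar Kbar M ℓ (jB M)⁻¹ := by
    rw [map_inv₀]
    exact congrArg (·⁻¹) (Fermat.Agent.Red.HKMod.heckeAlphaBar_jBar M ℓ).symm
  have hz : b ∈ modelAt (M * ℓ) A
      ((⟨heckeAlphaBar Kbar M ℓ (jB M)⁻¹, hαS⟩ : softV A (M * ℓ)) : FF (M * ℓ)) := by
    show b ∈ modelAt (M * ℓ) A (heckeAlphaBar Kbar M ℓ (jB M)⁻¹)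
    rw [← e3]
    exact hb
  refine h60i_hsurj_of_coord hℓ hM hA ⟨heckeAlphaBar Kbar M ℓ (jB M)⁻¹, hαS⟩
    ⟨(jB M)⁻¹, ModelO.h85_jB_inv_mem_modelInf M A⟩ ?_ hz
  rw [softR_alpha A ℓ ⟨(jB M)⁻¹, hjS⟩ hαS, h81g_rho_apply]
  exact softR_eq_gaussR A M (jB M)⁻¹ hjS hjG

/-- **hsurj at `0`, chart at infinity**: for `b ∈ modelInf (M ℓ) A` there is
`x ∈ modelInf M A` with `red∞ (w b - α x) = 0`. -/
theorem h60i_hsurj_zero_inf (hℓ : ℓ.Prime) (hM : ¬ ℓ ∣ M) (hA : A.LiesOverPrime ℓ)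
    [hic : IsIntegrallyClosed (modelInf M A ⧸ maxExt A (modelInf M A))]
    {b : FF (M * ℓ)} (hb : b ∈ modelInf (M * ℓ) A) :
    ∃ x : FF M, x ∈ modelInf M A ∧
      ∃ h : kFricke M ℓ hℓ hM b - heckeAlphaBar Kbar M ℓ x ∈ softV A (M * ℓ),
        softR A (M * ℓ) ⟨kFricke M ℓ hℓ hM b - heckeAlphaBar Kbar M ℓ x, h⟩ = 0 := by
  haveI : Fact ℓ.Prime := ⟨hℓ⟩
  haveI : CharP (IsLocalRing.ResidueField A) ℓ :=
    Base.h80_charP A (IsLocalRing.residue A) ℓ (isResidueMap_residue A ℓ hA)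
  haveI : ExpChar (IsLocalRing.ResidueField A) ℓ := ExpChar.prime hℓ
  have hjS : (jB M)⁻¹ ∈ softV A M := h60i_jinv_mem_softV hℓ hM hA
  have hjG : (jB M)⁻¹ ∈ gaussV A M := jB_inv_mem_gaussV A M hℓ hM hA
  have hβS : heckeBetaBar Kbar M ℓ (jB M)⁻¹ ∈ softV A (M * ℓ) := beta_mem_softV A ℓ _ hjS
  have e3 : (heckeBetaBar Kbar M ℓ (jB M))⁻¹ = heckeBetaBar Kbar M ℓ (jB M)⁻¹ :=
    (map_inv₀ _ _).symm
  have hz : kFricke M ℓ hℓ hM b ∈ modelAt (M * ℓ) A
      ((⟨heckeBetaBar Kbar M ℓ (jB M)⁻¹, hβS⟩ : softV A (M * ℓ)) : FF (M * ℓ)) := by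
    show kFricke M ℓ hℓ hM b ∈ modelAt (M * ℓ) A (heckeBetaBar Kbar M ℓ (jB M)⁻¹)
    rw [← e3]
    exact h44g_kFricke_mem_modelInf M ℓ hℓ hM A hb
  refine h60i_hsurj_of_coord hℓ hM hA ⟨heckeBetaBar Kbar M ℓ (jB M)⁻¹, hβS⟩
    (⟨(jB M)⁻¹, ModelO.h85_jB_inv_mem_modelInf M A⟩ ^ ℓ) ?_ hz
  rw [softR_beta A ℓ ⟨(jB M)⁻¹, hjS⟩ hβS, map_pow, h81g_rho_apply,
    ← softR_eq_gaussR A M (jB M)⁻¹ hjS hjG, h60i_softR_jinv hjS, map_inv₀, inv_pow,
    h44r_jqModC_pow]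

/-- the same, in the form `red∞ (w (b - β x)) = 0`. -/
theorem h60i_hsurj_zero_inf' (hℓ : ℓ.Prime) (hM : ¬ ℓ ∣ M) (hA : A.LiesOverPrime ℓ)
    [hic : IsIntegrallyClosed (modelInf M A ⧸ maxExt A (modelInf M A))]
    {b : FF (M * ℓ)} (hb : b ∈ modelInf (M * ℓ) A) :
    ∃ x : FF M, x ∈ modelInf M A ∧
      ∃ h : kFricke M ℓ hℓ hM (b - heckeBetaBar Kbar M ℓ x) ∈ softV A (M * ℓ),
        softR A (M * ℓ) ⟨kFricke M ℓ hℓ hM (b - heckeBetaBar Kbar M ℓ x), h⟩ = 0 := by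
  obtain ⟨x, hxΛ, h, hx⟩ := h60i_hsurj_zero_inf hℓ hM hA hb
  have e : kFricke M ℓ hℓ hM (b - heckeBetaBar Kbar M ℓ x) =
      kFricke M ℓ hℓ hM b - heckeAlphaBar Kbar M ℓ x := by
    rw [map_sub, kFricke_beta]
  refine ⟨x, hxΛ, by rw [e]; exact h, ?_⟩
  have : (⟨kFricke M ℓ hℓ hM (b - heckeBetaBar Kbar M ℓ x), by rw [e]; exact h⟩ :
      softV A (M * ℓ)) = ⟨kFricke M ℓ hℓ hM b - heckeAlphaBar Kbar M ℓ x, h⟩ :=
    Subtype.ext e
  rw [this]
  exact hx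

/-- **I7 (a′)**, chart at infinity, from smoothness at level `M`. -/
theorem h60i_hsurj_inf_inf_of_smooth (hSm : IfaceSmooth) (hℓ : ℓ.Prime) (hM : ¬ ℓ ∣ M)
    (haux : auxLevel ℓ ∣ M) (hA : A.LiesOverPrime ℓ)
    {b : FF (M * ℓ)} (hb : b ∈ modelInf (M * ℓ) A) :
    ∃ x : FF M, x ∈ modelInf M A ∧
      ∃ h : b - heckeAlphaBar Kbar M ℓ x ∈ softV A (M * ℓ),
        softR A (M * ℓ) ⟨b - heckeAlphaBar Kbar M ℓ x, h⟩ = 0 := by
  have hded : IsDedekindDomain (modelInf M A ⧸ maxExt A (modelInf M A)) :=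
    (hSm ℓ hℓ M hM haux A hA).2
  exact h60i_hsurj_inf_inf hℓ hM hA hb

/-- **I7 (b′)**, chart at infinity, from smoothness at level `M`. -/
theorem h60i_hsurj_zero_inf_of_smooth (hSm : IfaceSmooth) (hℓ : ℓ.Prime) (hM : ¬ ℓ ∣ M)
    (haux : auxLevel ℓ ∣ M) (hA : A.LiesOverPrime ℓ)
    {b : FF (M * ℓ)} (hb : b ∈ modelInf (M * ℓ) A) :
    ∃ x : FF M, x ∈ modelInf M A ∧
      ∃ h : kFricke M ℓ hℓ hM b - heckeAlphaBar Kbar M ℓ x ∈ softV A (M * ℓ),
        softR A (M * ℓ) ⟨kFricke M ℓ hℓ hM b - heckeAlphaBar Kbar M ℓ x, h⟩ = 0 := by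
  have hded : IsDedekindDomain (modelInf M A ⧸ maxExt A (modelInf M A)) :=
    (hSm ℓ hℓ M hM haux A hA).2
  exact h60i_hsurj_zero_inf hℓ hM hA hb

/-- **I7 (b′)**, in the form `red∞ (w (b - β x)) = 0`, from smoothness at level `M`. -/
theorem h60i_hsurj_zero_inf_of_smooth' (hSm : IfaceSmooth) (hℓ : ℓ.Prime) (hM : ¬ ℓ ∣ M)
    (haux : auxLevel ℓ ∣ M) (hA : A.LiesOverPrime ℓ)
    {b : FF (M * ℓ)} (hb : b ∈ modelInf (M * ℓ) A) :
    ∃ x : FF M, x ∈ modelInf M A ∧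
      ∃ h : kFricke M ℓ hℓ hM (b - heckeBetaBar Kbar M ℓ x) ∈ softV A (M * ℓ),
        softR A (M * ℓ) ⟨kFricke M ℓ hℓ hM (b - heckeBetaBar Kbar M ℓ x), h⟩ = 0 := by
  have hded : IsDedekindDomain (modelInf M A ⧸ maxExt A (modelInf M A)) :=
    (hSm ℓ hℓ M hM haux A hA).2
  exact h60i_hsurj_zero_inf' hℓ hM hA hb

end Inf

end Fermat.Agent.LGC
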