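import Mathlib
import Fermat.Agent.Red.LocalFact
import Fermat.Agent.LGC.NodeRegular

/-!
# W3-LGC, theorem (A) over a valuation ring (helper62): local equation `x y = ℓ c` at a node

Non-noetherian form of theorem (A), in the vocabulary of `Red/LocalFact.lean` (`H26Chart`):
`A` a local ring (the valuation ring of `ℚ̄`), `B ⊆ F` the chart of level `N = M ℓ`,
`V ⊇ W∞ ∩ W₀` the semistable Gauss ring, `v` the places of the generic fibre, `𝔫` a prime of `B`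
containing the two primes `P∞`, `P₀` cut out by `W∞`, `W₀` (a crossing point).

With `Y`, `f = (T - a)(T ^ ℓ - c) + ℓ r`, `z = f'(Y)`, `S` as in `NodeRegular.lean`:
if `z` is a unit at every place centered at `𝔫` (generic unramifiedness of `F_N / F_M`) and
`Y - a` is not in `𝔫 ^ 2` locally, then `S ∉ 𝔫`.  Hence

  `x := z = f'(Y)`,  `y := Y - a`,  `x * y = ℓ * S`,  `S ∉ 𝔫`,
  `x ∈ P₀`, `x ≡ a ^ ℓ - c` mod `P∞`, `y ∈ P∞`.
-/

set_option autoImplicit false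

open Polynomial WithZero IsLocalRing

namespace Fermat.Agent.LGC

open Fermat.Agent.Red

theorem h62n_node_xy
    {A : Type*} [CommRing A] [IsLocalRing A] {F : Type*} [Field F] [Algebra A F]
    {B : Subalgebra A F} {V : Subring F} {ι : Type*} {v : ι → Valuation F ℤᵐ⁰}
    (hC : H26Chart B V v)
    (Winf W0 : Subring F) (hWV : ∀ x : F, x ∈ Winf → x ∈ W0 → x ∈ V)
    (hBWinf : ∀ b : B, (b : F) ∈ Winf) (hBW0 : ∀ b : B, (b : F) ∈ W0)
    (𝔫 Pinf P0 : Ideal B) [h𝔫 : 𝔫.IsPrime] [hPinf : Pinf.IsPrime] [hP0 : P0.IsPrime]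
    (hPinf𝔫 : Pinf ≤ 𝔫)
    (hWinf : ∀ b : B, b ∉ Pinf → ((b : F))⁻¹ ∈ Winf)
    (hW0 : ∀ b : B, b ∉ P0 → ((b : F))⁻¹ ∈ W0)
    {Λ : Type*} [CommRing Λ] [Algebra Λ B]
    (ℓ : ℕ) (hℓ0 : (ℓ : B) ≠ 0) (hℓPinf : (ℓ : B) ∈ Pinf) (hℓP0 : (ℓ : B) ∈ P0)
    (Y : B) (a c : Λ) (r : Λ[X]) (hr : r.natDegree ≤ ℓ)
    (hf : aeval Y (h62n_poly ℓ a c r) = 0)
    (hY1 : Y - algebraMap Λ B a ∈ Pinf)
    (hY2 : Y ^ ℓ - algebraMap Λ B c ∈ P0)
    (hYa : Y - algebraMap Λ B a ∉ P0)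
    (hδinf : algebraMap Λ B (a ^ ℓ - c) ∉ Pinf)
    (hδ0 : algebraMap Λ B (a ^ ℓ - c) ∉ P0)
    (hLI : ∀ g : Λ[X], g.natDegree < ℓ → aeval Y g ∈ P0 →
      ∀ i, algebraMap Λ B (g.coeff i) ∈ P0)
    (hunr : ∀ i, h26Centered B v 𝔫 i → v i ((h62n_z ℓ a c r Y : B) : F) = 1)
    (hunif : ∀ s : B, s ∉ 𝔫 → s * (Y - algebraMap Λ B a) ∉ 𝔫 * 𝔫) :
    h62n_S ℓ a r Y ∉ 𝔫 ∧
      (Y - algebraMap Λ B a) * h62n_z ℓ a c r Y = (ℓ : B) * h62n_S ℓ a r Y ∧
      h62n_z ℓ a c r Y ∈ P0 ∧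
      h62n_z ℓ a c r Y - algebraMap Λ B (a ^ ℓ - c) ∈ Pinf := by
  classical
  have : Nontrivial Λ := (algebraMap Λ B).domain_nontrivial
  have hℓne : ℓ ≠ 0 := by
    rintro rfl
    exact hℓ0 (by simp)
  obtain ⟨hSP0, hzP0, hzδ⟩ := h62n_key ℓ hℓne Pinf P0 hℓPinf hℓP0 Y a c r hr hY1 hY2 hYa
    hδ0 hLI
  have hSz := h62n_mul_z ℓ a c r Y hf
  set z : B := h62n_z ℓ a c r Y with hz
  set S : B := h62n_S ℓ a r Y with hS
  refine ⟨?_, hSz, hzP0, hzδ⟩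
  have hzPinf : z ∉ Pinf := by
    intro hmem
    apply hδinf
    have := Pinf.sub_mem hmem hzδ
    simpa using this
  have hz0 : z ≠ 0 := fun h => hzPinf (h ▸ Pinf.zero_mem)
  have hS0 : S ≠ 0 := fun h => hSP0 (h ▸ P0.zero_mem)
  have hzF : (z : F) ≠ 0 := by
    intro h
    exact hz0 (Subtype.ext (by simpa using h))
  have hSF : (S : F) ≠ 0 := by
    intro h
    exact hS0 (Subtype.ext (by simpa using h))
  -- the element `y = ℓ / z` of `F`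
  set y : F := ((ℓ : B) : F) * (z : F)⁻¹ with hy
  have hSzF : ((Y - algebraMap Λ B a : B) : F) * (z : F) = ((ℓ : B) : F) * (S : F) := by
    have := congrArg (fun b : B => (b : F)) hSz
    simpa using this
  have hy' : y = ((Y - algebraMap Λ B a : B) : F) * (S : F)⁻¹ := by
    rw [hy]
    field_simp
    rw [← hSzF]; ring
  have hyWinf : y ∈ Winf := Winf.mul_mem (hBWinf _) (hWinf z hzPinf)
  have hyW0 : y ∈ W0 := by
    rw [hy']
    exact W0.mul_mem (hBW0 _) (hW0 S hSP0)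
  have hyV : y ∈ V := hWV y hyWinf hyW0
  -- regular at the centered places
  have hyv : ∀ i, h26Centered B v 𝔫 i → v i y ≤ 1 := by
    intro i hi
    rw [hy, map_mul, map_inv₀, hunr i hi, inv_one, mul_one]
    exact hC.hB _ (ℓ : B).2 i
  obtain ⟨a₀, ha₀, s, hs, hmem⟩ := h26_stepC hC.hfin hC.hint hC.hB 𝔫 y hyv
  have hsyV : (s : F) * y ∈ V := V.mul_mem (hC.hBV _ s.2) hyV
  have hsyB : (s : F) * y ∈ B := hC.hQEP a₀ ha₀ _ hsyV hmem
  set y₁ : B := ⟨(s : F) * y, hsyB⟩ with hy₁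
  have hy₁z : y₁ * z = s * (ℓ : B) := by
    apply Subtype.ext
    show (s : F) * y * (z : F) = (s : F) * ((ℓ : B) : F)
    rw [hy]
    field_simp
  have hy₁Pinf : y₁ ∈ Pinf := by
    have h1 : y₁ * z ∈ Pinf := by
      rw [hy₁z]; exact Pinf.mul_mem_left _ hℓPinf
    rcases hPinf.mem_or_mem h1 with h | h
    · exact h
    · exact absurd h hzPinf
  have hy₁S : y₁ * S = s * (Y - algebraMap Λ B a) := by
    apply mul_right_cancel₀ hz0
    calc y₁ * S * z = (y₁ * z) * S := by ring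
      _ = s * ((ℓ : B) * S) := by rw [hy₁z]; ring
      _ = s * ((Y - algebraMap Λ B a) * z) := by rw [hSz]
      _ = s * (Y - algebraMap Λ B a) * z := by ring
  intro hS𝔫
  apply hunif s hs
  rw [← hy₁S]
  exact Ideal.mul_mem_mul (hPinf𝔫 hy₁Pinf) hS𝔫

end Fermat.Agent.LGC
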