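import Mathlib
import Fermat.Agent.Red.LocalFact
import Fermat.Agent.LGC.NodeXY

/-!
# W3-LGC, theorem (A): the node datum from the modular inputs, abstract form (helper62)

`B ⊆ F` a chart of level `N = M ℓ`, `𝔫` a closed point of the special fibre lying on both
components `P∞`, `P₀`; `Λ` the chart of level `M`, `algebraMap Λ B = α`, `β : Λ → B`.

**Inputs** (all true at a crossing point of `X₀(Mℓ)` at a good level `M`):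

* `u, a₁, c ∈ Λ`, `r ∈ Λ[T]` with Kronecker's congruence *modulo `ℓ`*:
  `f(β u) = 0` for `f = (T - a₁ ^ ℓ) (T ^ ℓ - c) + ℓ r`
  (`a₁ = σ⁻¹ u`, `c = σ u` for `u` with coefficients in the inertia-fixed field);
* `β u ≡ α (a₁ ^ ℓ)` modulo `P∞`, `(β u) ^ ℓ ≡ α c` modulo `P₀`;
* `α c` is a local parameter at `𝔫` of the branch `B / P∞`, `β u` one of the branch `B / P₀`;
* the special fibre is reduced: `P∞ ⊓ P₀ ≤ 𝔪_A B`;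
* `hLI` (see `NodeLI.lean`) and `hunr` (see `NodeUnr.lean`).

**Output** (`h62n_node_datum`): `x = f'(β u)`, `y = β u - α (a₁ ^ ℓ)`, `c' ∉ 𝔫` with
`x * y = ℓ * c'` and `𝔫 = (x, y) + 𝔪_A B` locally at `𝔫`: the node branch of `IfaceSSLocal`.
-/

set_option autoImplicit false

open Polynomial WithZero IsLocalRing

namespace Fermat.Agent.LGC

open Fermat.Agent.Red

section Ring

variable {B : Type*} [CommRing B]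

/-- `(b + p) ^ n ≡ b ^ n` modulo an ideal containing `p`. -/
theorem h62n_add_pow_sub_mem (P : Ideal B) (b p : B) (hp : p ∈ P) (n : ℕ) :
    (b + p) ^ n - b ^ n ∈ P := by
  have h : (b + p) - b ∣ (b + p) ^ n - b ^ n := sub_dvd_pow_sub_pow (b + p) b n
  obtain ⟨d, hd⟩ := h
  rw [hd]
  have : (b + p) - b = p := by ring
  rw [this]
  exact P.mul_mem_right _ hp

/-- change of local parameter: if `𝔫 = (t) + P` locally, `t ∈ 𝔫`, `g ∈ 𝔫`, and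
`x ≡ g ^ ℓ - t` modulo `P` (`ℓ ≥ 2`), then `𝔫 = (x) + P` locally. -/
theorem h62n_lp_change (𝔫 P : Ideal B) [h𝔫 : 𝔫.IsPrime] (t g x : B) (ℓ : ℕ)
    (hℓ : 2 ≤ ℓ) (ht : t ∈ 𝔫) (hg : g ∈ 𝔫)
    (hx : x - (g ^ ℓ - t) ∈ P)
    (hLP : ∀ b ∈ 𝔫, ∃ s, s ∉ 𝔫 ∧ s * b ∈ Ideal.span {t} ⊔ P) :
    ∀ b ∈ 𝔫, ∃ s, s ∉ 𝔫 ∧ s * b ∈ Ideal.span {x} ⊔ P := by
  obtain ⟨s₁, hs₁, hs₁g⟩ := hLP g hg
  obtain ⟨q₁, hq₁, p₁, hp₁, hsum⟩ := Submodule.mem_sup.mp hs₁g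
  obtain ⟨b₁, rfl⟩ := Ideal.mem_span_singleton'.mp hq₁
  -- `s₁ ^ ℓ * g ^ ℓ ≡ t * (t ^ (ℓ - 1) * b₁ ^ ℓ)` mod `P`
  have h1 : (s₁ * g) ^ ℓ - (b₁ * t) ^ ℓ ∈ P := by
    rw [← hsum]
    exact h62n_add_pow_sub_mem P (b₁ * t) p₁ hp₁ ℓ
  set e : B := t ^ (ℓ - 1) * b₁ ^ ℓ - s₁ ^ ℓ with he
  have he𝔫 : e ∉ 𝔫 := by
    intro hmem
    have h2 : t ^ (ℓ - 1) * b₁ ^ ℓ ∈ 𝔫 :=
      𝔫.mul_mem_right _ (𝔫.pow_mem_of_mem ht (ℓ - 1) (by omega))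
    have h3 : s₁ ^ ℓ ∈ 𝔫 := by
      have := 𝔫.sub_mem h2 hmem
      simpa [he] using this
    exact hs₁ (h𝔫.mem_of_pow_mem _ h3)
  -- `s₁ ^ ℓ * x ≡ t * e` mod `P`
  have h4 : s₁ ^ ℓ * x - t * e ∈ P := by
    have h5 : s₁ ^ ℓ * x - t * e
        = s₁ ^ ℓ * (x - (g ^ ℓ - t)) + ((s₁ * g) ^ ℓ - (b₁ * t) ^ ℓ) := by
      have h6 : t * (t ^ (ℓ - 1) * b₁ ^ ℓ) = (b₁ * t) ^ ℓ := by
        rw [mul_pow, ← mul_assoc, ← pow_succ']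
        have : ℓ - 1 + 1 = ℓ := by omega
        rw [this]; ring
      rw [he, mul_sub, h6, mul_pow]
      ring
    rw [h5]
    exact P.add_mem (P.mul_mem_left _ hx) h1
  intro b hb
  obtain ⟨s, hs, hsb⟩ := hLP b hb
  obtain ⟨q, hq, p, hp, hsum'⟩ := Submodule.mem_sup.mp hsb
  obtain ⟨b', rfl⟩ := Ideal.mem_span_singleton'.mp hq
  refine ⟨e * s, fun h => ?_, ?_⟩
  · rcases h𝔫.mem_or_mem h with h | h
    · exact he𝔫 h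
    · exact hs h
  · have h7 : e * s * b = b' * s₁ ^ ℓ * x + (e * p - b' * (s₁ ^ ℓ * x - t * e)) := by
      have h8 : e * s * b = e * (b' * t + p) := by rw [hsum']; ring
      rw [h8]; ring
    rw [h7]
    refine Submodule.add_mem_sup ?_ ?_
    · exact Ideal.mem_span_singleton'.mpr ⟨b' * s₁ ^ ℓ, rfl⟩
    · exact P.sub_mem (P.mul_mem_left _ hp) (P.mul_mem_left _ h4)

/-- two branches: if `𝔫 = (x) + P∞` and `𝔫 = (y) + P₀` locally, `y ∈ P∞`, then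
`𝔫 = (x, y) + P∞ ⊓ P₀` locally. -/
theorem h62n_lp_both (𝔫 Pinf P0 I : Ideal B) [h𝔫 : 𝔫.IsPrime] (hPinf𝔫 : Pinf ≤ 𝔫)
    (hSF : Pinf ⊓ P0 ≤ I) (x y : B) (hy : y ∈ Pinf)
    (hLPx : ∀ b ∈ 𝔫, ∃ s, s ∉ 𝔫 ∧ s * b ∈ Ideal.span {x} ⊔ Pinf)
    (hLPy : ∀ b ∈ 𝔫, ∃ s, s ∉ 𝔫 ∧ s * b ∈ Ideal.span {y} ⊔ P0) :
    ∀ b ∈ 𝔫, ∃ s, s ∉ 𝔫 ∧ s * b ∈ Ideal.span {x, y} ⊔ I := by
  intro b hb
  obtain ⟨s, hs, hsb⟩ := hLPx b hb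
  obtain ⟨q, hq, p₁, hp₁, hsum⟩ := Submodule.mem_sup.mp hsb
  obtain ⟨b₁, rfl⟩ := Ideal.mem_span_singleton'.mp hq
  obtain ⟨s', hs', hs'p⟩ := hLPy p₁ (hPinf𝔫 hp₁)
  obtain ⟨q', hq', p₂, hp₂, hsum'⟩ := Submodule.mem_sup.mp hs'p
  obtain ⟨b₂, rfl⟩ := Ideal.mem_span_singleton'.mp hq'
  have hp₂inf : p₂ ∈ Pinf := by
    have h1 : p₂ = s' * p₁ - b₂ * y := by rw [← hsum']; ring
    rw [h1]
    exact Pinf.sub_mem (Pinf.mul_mem_left _ hp₁) (Pinf.mul_mem_left _ hy)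
  refine ⟨s' * s, fun h => ?_, ?_⟩
  · rcases h𝔫.mem_or_mem h with h | h
    · exact hs' h
    · exact hs h
  · have h2 : s' * s * b = (s' * b₁ * x + b₂ * y) + p₂ := by
      have : s' * s * b = s' * (b₁ * x + p₁) := by rw [hsum]; ring
      rw [this, mul_add, ← hsum']; ring
    rw [h2]
    refine Submodule.add_mem_sup ?_ (hSF ⟨hp₂inf, hp₂⟩)
    refine Ideal.add_mem _ ?_ ?_
    · exact Ideal.mul_mem_left _ _ (Ideal.subset_span (by simp))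
    · exact Ideal.mul_mem_left _ _ (Ideal.subset_span (by simp))

/-- a local parameter is not in `𝔫 ^ 2` locally. -/
theorem h62n_unif_of_lp (𝔫 P0 : Ideal B) [h𝔫 : 𝔫.IsPrime] [hP0 : P0.IsPrime] (hP0𝔫 : P0 ≤ 𝔫)
    (y : B) (hy𝔫 : y ∈ 𝔫) (hyP0 : y ∉ P0)
    (hLPy : ∀ b ∈ 𝔫, ∃ s, s ∉ 𝔫 ∧ s * b ∈ Ideal.span {y} ⊔ P0) :
    ∀ s : B, s ∉ 𝔫 → s * y ∉ 𝔫 * 𝔫 := by
  -- every element of `𝔫 * 𝔫` is locally in `(y ^ 2) + P₀`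
  have hsq : ∀ w ∈ 𝔫 * 𝔫, ∃ s, s ∉ 𝔫 ∧ s * w ∈ Ideal.span {y * y} ⊔ P0 := by
    intro w hw
    refine Submodule.mul_induction_on hw ?_ ?_
    · intro b hb b' hb'
      obtain ⟨s₁, hs₁, h1⟩ := hLPy b hb
      obtain ⟨s₂, hs₂, h2⟩ := hLPy b' hb'
      obtain ⟨q₁, hq₁, p₁, hp₁, hsum₁⟩ := Submodule.mem_sup.mp h1
      obtain ⟨c₁, rfl⟩ := Ideal.mem_span_singleton'.mp hq₁
      obtain ⟨q₂, hq₂, p₂, hp₂, hsum₂⟩ := Submodule.mem_sup.mp h2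
      obtain ⟨c₂, rfl⟩ := Ideal.mem_span_singleton'.mp hq₂
      refine ⟨s₁ * s₂, fun h => ?_, ?_⟩
      · rcases h𝔫.mem_or_mem h with h | h
        · exact hs₁ h
        · exact hs₂ h
      · have h3 : s₁ * s₂ * (b * b') = c₁ * c₂ * (y * y)
            + (c₁ * y * p₂ + p₁ * (c₂ * y) + p₁ * p₂) := by
          have : s₁ * s₂ * (b * b') = (s₁ * b) * (s₂ * b') := by ring
          rw [this, ← hsum₁, ← hsum₂]; ring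
        rw [h3]
        refine Submodule.add_mem_sup (Ideal.mem_span_singleton'.mpr ⟨_, rfl⟩) ?_
        exact P0.add_mem (P0.add_mem (P0.mul_mem_left _ hp₂) (P0.mul_mem_right _ hp₁))
          (P0.mul_mem_right _ hp₁)
    · rintro w w' ⟨s₁, hs₁, h1⟩ ⟨s₂, hs₂, h2⟩
      refine ⟨s₁ * s₂, fun h => ?_, ?_⟩
      · rcases h𝔫.mem_or_mem h with h | h
        · exact hs₁ h
        · exact hs₂ h
      · have h3 : s₁ * s₂ * (w + w') = s₂ * (s₁ * w) + s₁ * (s₂ * w') := by ring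
        rw [h3]
        exact Ideal.add_mem _ (Ideal.mul_mem_left _ _ h1) (Ideal.mul_mem_left _ _ h2)
  intro s hs hmem
  obtain ⟨s', hs', h1⟩ := hsq _ hmem
  obtain ⟨q, hq, p, hp, hsum⟩ := Submodule.mem_sup.mp h1
  obtain ⟨b, rfl⟩ := Ideal.mem_span_singleton'.mp hq
  have h2 : y * (s' * s - b * y) ∈ P0 := by
    have : y * (s' * s - b * y) = p := by
      have h3 : b * (y * y) + p = s' * (s * y) := hsum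
      linear_combination (-1 : B) * h3
    rw [this]; exact hp
  rcases hP0.mem_or_mem h2 with h | h
  · exact hyP0 h
  · have h4 : s' * s ∈ 𝔫 := by
      have := 𝔫.add_mem (hP0𝔫 h) (𝔫.mul_mem_left b hy𝔫)
      simpa using this
    rcases h𝔫.mem_or_mem h4 with h | h
    · exact hs' h
    · exact hs h

end Ring

/-- **Theorem (A), node datum.** -/
theorem h62n_node_datum
    {A : Type*} [CommRing A] [IsLocalRing A] {F : Type*} [Field F] [Algebra A F]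
    {B : Subalgebra A F} {V : Subring F} {ι : Type*} {v : ι → Valuation F ℤᵐ⁰}
    (hC : H26Chart B V v)
    (Winf W0 : Subring F) (hWV : ∀ x : F, x ∈ Winf → x ∈ W0 → x ∈ V)
    (hBWinf : ∀ b : B, (b : F) ∈ Winf) (hBW0 : ∀ b : B, (b : F) ∈ W0)
    (𝔫 Pinf P0 : Ideal B) [h𝔫 : 𝔫.IsPrime] [hPinf : Pinf.IsPrime] [hP0 : P0.IsPrime]
    (hPinf𝔫 : Pinf ≤ 𝔫) (hP0𝔫 : P0 ≤ 𝔫)
    (hSF : Pinf ⊓ P0 ≤ (maximalIdeal A).map (algebraMap A B))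
    (hWinf : ∀ b : B, b ∉ Pinf → ((b : F))⁻¹ ∈ Winf)
    (hW0 : ∀ b : B, b ∉ P0 → ((b : F))⁻¹ ∈ W0)
    {Λ : Type*} [CommRing Λ] [Algebra Λ B] (β : Λ →+* B)
    (ℓ : ℕ) (hℓ2 : 2 ≤ ℓ) (hℓ0 : (ℓ : B) ≠ 0) (hℓPinf : (ℓ : B) ∈ Pinf) (hℓP0 : (ℓ : B) ∈ P0)
    (u a₁ c : Λ) (r : Λ[X]) (hr : r.natDegree ≤ ℓ)
    (hf : aeval (β u) (h62n_poly ℓ (a₁ ^ ℓ) c r) = 0)
    (hu𝔫 : β u ∈ 𝔫)
    (hY1 : β u - algebraMap Λ B (a₁ ^ ℓ) ∈ Pinf)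
    (hY2 : β u ^ ℓ - algebraMap Λ B c ∈ P0)
    (hYa : β u - algebraMap Λ B (a₁ ^ ℓ) ∉ P0)
    (hδinf : algebraMap Λ B ((a₁ ^ ℓ) ^ ℓ - c) ∉ Pinf)
    (hδ0 : algebraMap Λ B ((a₁ ^ ℓ) ^ ℓ - c) ∉ P0)
    (hLI : ∀ g : Λ[X], g.natDegree < ℓ → aeval (β u) g ∈ P0 →
      ∀ i, algebraMap Λ B (g.coeff i) ∈ P0)
    (hLPinf : ∀ b ∈ 𝔫, ∃ s, s ∉ 𝔫 ∧ s * b ∈ Ideal.span {algebraMap Λ B c} ⊔ Pinf)
    (hLP0 : ∀ b ∈ 𝔫, ∃ s, s ∉ 𝔫 ∧ s * b ∈ Ideal.span {β u} ⊔ P0)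
    (hunr : ∀ i, h26Centered B v 𝔫 i →
      v i ((h62n_z ℓ (a₁ ^ ℓ) c r (β u) : B) : F) = 1) :
    ∃ x ∈ 𝔫, ∃ y ∈ 𝔫, ∃ c' : B, c' ∉ 𝔫 ∧ x * y = (ℓ : B) * c' ∧
      ∀ b ∈ 𝔫, ∃ s, s ∉ 𝔫 ∧
        s * b ∈ Ideal.span {x, y} ⊔ (maximalIdeal A).map (algebraMap A B) := by
  classical
  have : Nontrivial Λ := (algebraMap Λ B).domain_nontrivial
  have hℓne : ℓ ≠ 0 := by omega
  set Y : B := β u with hY
  set a : Λ := a₁ ^ ℓ with ha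
  set y : B := Y - algebraMap Λ B a with hy
  obtain ⟨hSP0, hzP0, hzδ⟩ := h62n_key ℓ hℓne Pinf P0 hℓPinf hℓP0 Y a c r hr hY1 hY2 hYa hδ0 hLI
  set z : B := h62n_z ℓ a c r Y with hz
  -- memberships
  have hy𝔫 : y ∈ 𝔫 := hPinf𝔫 hY1
  have ha𝔫 : algebraMap Λ B a ∈ 𝔫 := by
    have := 𝔫.sub_mem hu𝔫 hy𝔫
    simpa [hy] using this
  have ha₁𝔫 : algebraMap Λ B a₁ ∈ 𝔫 := by
    rw [ha, map_pow] at ha𝔫
    exact h𝔫.mem_of_pow_mem _ ha𝔫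
  have hc𝔫 : algebraMap Λ B c ∈ 𝔫 := by
    have h1 : Y ^ ℓ ∈ 𝔫 := 𝔫.pow_mem_of_mem hu𝔫 ℓ (by omega)
    have := 𝔫.sub_mem h1 (hP0𝔫 hY2)
    simpa using this
  -- `𝔫 = (z) + P∞` locally
  have hLPz : ∀ b ∈ 𝔫, ∃ s, s ∉ 𝔫 ∧ s * b ∈ Ideal.span {z} ⊔ Pinf := by
    refine h62n_lp_change 𝔫 Pinf (algebraMap Λ B c) (algebraMap Λ B a) z ℓ hℓ2
      hc𝔫 ha𝔫 ?_ hLPinf
    have h1 : z - (algebraMap Λ B a ^ ℓ - algebraMap Λ B c)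
        = z - algebraMap Λ B (a ^ ℓ - c) := by
      rw [map_sub (algebraMap Λ B) (a ^ ℓ) c, map_pow (algebraMap Λ B) a ℓ]
    rw [h1]
    exact hzδ
  -- `𝔫 = (y) + P₀` locally
  have hLPy : ∀ b ∈ 𝔫, ∃ s, s ∉ 𝔫 ∧ s * b ∈ Ideal.span {y} ⊔ P0 := by
    have h1 : ∀ b ∈ 𝔫, ∃ s, s ∉ 𝔫 ∧ s * b ∈ Ideal.span {-y} ⊔ P0 := by
      refine h62n_lp_change 𝔫 P0 Y (algebraMap Λ B a₁) (-y) ℓ hℓ2 hu𝔫 ha₁𝔫 ?_ hLP0
      have h2 : -y - (algebraMap Λ B a₁ ^ ℓ - Y) = 0 := by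
        rw [hy, ha, map_pow (algebraMap Λ B) a₁ ℓ]; ring
      rw [h2]
      exact P0.zero_mem
    have h3 : Ideal.span {-y} = Ideal.span {y} := Ideal.span_singleton_neg y
    rw [h3] at h1
    exact h1
  have hunif : ∀ s : B, s ∉ 𝔫 → s * (Y - algebraMap Λ B a) ∉ 𝔫 * 𝔫 :=
    h62n_unif_of_lp 𝔫 P0 hP0𝔫 y hy𝔫 hYa hLPy
  obtain ⟨hS𝔫, hmul, -, -⟩ := h62n_node_xy hC Winf W0 hWV hBWinf hBW0 𝔫 Pinf P0 hPinf𝔫 hWinf hW0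
    ℓ hℓ0 hℓPinf hℓP0 Y a c r hr hf hY1 hY2 hYa hδinf hδ0 hLI hunr hunif
  refine ⟨z, hP0𝔫 hzP0, y, hy𝔫, h62n_S ℓ a r Y, hS𝔫, ?_, ?_⟩
  · rw [mul_comm]; exact hmul
  · exact h62n_lp_both 𝔫 Pinf P0 _ hPinf𝔫 hSF z y hY1 hLPz hLPy

end Fermat.Agent.LGC
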