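import Mathlib

/-!
# W3-LGC, theorem (A), helper lemmas (S2), (S3) (helper62)

* `h62n_unr_of_distinct` (S2): hypothesis `hunr` of `h62n_node_xy`.  Let `f` be a monic
  polynomial over `Λ` with `f(Y) = 0`, and let `ev k : B → K` (`k ∈ T`) be evaluations at the
  places of `F_N` over one place of `F_M` (they agree on `Λ`).  If there are at least `deg f`
  of them and `Y` takes pairwise distinct values at them, then `f'(Y)` vanishes at none.
* `h62n_monogenic` (S3): Nakayama in `s`-form: if `B` is a finite `Λ`-module and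
  `λ B ⊆ Λ[Y] + 𝔰 B` for some `λ ∉ 𝔰` (`𝔰` a prime of `Λ`), then `μ B ⊆ Λ[Y]` for some `μ ∉ 𝔰`.
-/

set_option autoImplicit false

open Polynomial

namespace Fermat.Agent.LGC

/-- **(S2)** -/
theorem h62n_unr_of_distinct {Λ B K : Type*} [CommRing Λ] [CommRing B] [Algebra Λ B]
    [CommRing K] [IsDomain K] (f : Λ[X]) (hf : f.Monic) (Y : B) (hfY : aeval Y f = 0)
    {T : Type*} [Fintype T] (ev : T → B →+* K) (ev' : Λ →+* K)
    (hev : ∀ k x, ev k (algebraMap Λ B x) = ev' x)
    (hinj : Function.Injective fun k => ev k Y)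
    (hcard : f.natDegree ≤ Fintype.card T) (k : T) :
    ev k (aeval Y (derivative f)) ≠ 0 := by
  classical
  set g : K[X] := f.map ev' with hg
  have hgm : g.Monic := hf.map ev'
  have hg0 : g ≠ 0 := hgm.ne_zero
  have hgdeg : g.natDegree = f.natDegree := hf.natDegree_map ev'
  have hcomp : ∀ (j : T) (p : Λ[X]), ev j (aeval Y p) = (p.map ev').eval (ev j Y) := by
    intro j p
    rw [eval_map, aeval_def, hom_eval₂]
    congr 1
    ext x
    exact hev j x
  have hroot : ∀ j : T, g.IsRoot (ev j Y) := by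
    intro j
    rw [IsRoot.def, hg, ← hcomp, hfY, map_zero]
  intro hk
  have hroot' : (derivative g).IsRoot (ev k Y) := by
    rw [IsRoot.def, hg, derivative_map, ← hcomp]
    exact hk
  have hmult : 1 < g.rootMultiplicity (ev k Y) :=
    (one_lt_rootMultiplicity_iff_isRoot hg0).mpr ⟨hroot k, hroot'⟩
  -- count the roots
  set S : Finset K := Finset.univ.image (fun j => ev j Y) with hS
  have hScard : S.card = Fintype.card T := by
    rw [hS, Finset.card_image_of_injective _ hinj, Finset.card_univ]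
  have hsub : S ⊆ g.roots.toFinset := by
    intro c hc
    rw [hS, Finset.mem_image] at hc
    obtain ⟨j, -, rfl⟩ := hc
    rw [Multiset.mem_toFinset, mem_roots hg0]
    exact hroot j
  have h1 : ∑ c ∈ S, g.roots.count c ≤ Multiset.card g.roots := by
    rw [← Multiset.toFinset_sum_count_eq]
    exact Finset.sum_le_sum_of_subset hsub
  have hkS : ev k Y ∈ S := by
    rw [hS, Finset.mem_image]; exact ⟨k, Finset.mem_univ _, rfl⟩
  have h2 : S.card + 1 ≤ ∑ c ∈ S, g.roots.count c := by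
    have h3 : ∀ c ∈ S, 1 ≤ g.roots.count c := by
      intro c hc
      rw [Multiset.one_le_count_iff_mem]
      exact Multiset.mem_toFinset.mp (hsub hc)
    have h4 : ∑ c ∈ S, g.roots.count c
        = g.roots.count (ev k Y) + ∑ c ∈ S.erase (ev k Y), g.roots.count c :=
      (Finset.add_sum_erase S _ hkS).symm
    have h5 : (S.erase (ev k Y)).card ≤ ∑ c ∈ S.erase (ev k Y), g.roots.count c := by
      rw [Finset.card_eq_sum_ones]
      exact Finset.sum_le_sum fun c hc => h3 c (Finset.mem_of_mem_erase hc)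
    have h6 : (S.erase (ev k Y)).card = S.card - 1 := Finset.card_erase_of_mem hkS
    have h7 : 2 ≤ g.roots.count (ev k Y) := by
      rw [count_roots]; exact hmult
    have h8 : 0 < S.card := Finset.card_pos.mpr ⟨_, hkS⟩
    omega
  have h9 := card_roots' g
  omega

/-- **(S3)** Nakayama in `s`-form. -/
theorem h62n_monogenic {Λ B : Type*} [CommRing Λ] [CommRing B] [Algebra Λ B]
    [Module.Finite Λ B] (𝔰 : Ideal Λ) [h𝔰 : 𝔰.IsPrime] (Y : B) (lam : Λ) (hlam : lam ∉ 𝔰)
    (hgen : ∀ b : B, ∃ P : Λ[X], lam • b - aeval Y P ∈ 𝔰.map (algebraMap Λ B)) :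
    ∃ μ : Λ, μ ∉ 𝔰 ∧ ∀ b : B, ∃ P : Λ[X], μ • b = aeval Y P := by
  classical
  set N : Submodule Λ B := Subalgebra.toSubmodule (Algebra.adjoin Λ {Y}) with hN
  have hmemN : ∀ x : B, x ∈ N ↔ ∃ P : Λ[X], aeval Y P = x := by
    intro x
    rw [hN, Subalgebra.mem_toSubmodule, Algebra.adjoin_singleton_eq_range_aeval]
    rfl
  -- multiplication by `lam` on the quotient has range in `𝔰 • ⊤`
  set φ : Module.End Λ (B ⧸ N) := algebraMap Λ (Module.End Λ (B ⧸ N)) lam with hφ
  have hφapp : ∀ q : B ⧸ N, φ q = lam • q := by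
    intro q
    rw [hφ, Module.algebraMap_end_apply]
  have hrange : LinearMap.range φ ≤ 𝔰 • (⊤ : Submodule Λ (B ⧸ N)) := by
    rintro _ ⟨q, rfl⟩
    obtain ⟨b, rfl⟩ := N.mkQ_surjective q
    obtain ⟨P, hP⟩ := hgen b
    have hPN : aeval Y P ∈ N := (hmemN _).mpr ⟨P, rfl⟩
    have h1 : φ (N.mkQ b) = N.mkQ (lam • b - aeval Y P) := by
      rw [hφapp, map_sub, map_smul]
      have : N.mkQ (aeval Y P) = 0 := by
        rw [Submodule.mkQ_apply]
        exact (Submodule.Quotient.mk_eq_zero N).mpr hPN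
      rw [this, sub_zero]
    rw [h1]
    have h2 : lam • b - aeval Y P ∈ 𝔰 • (⊤ : Submodule Λ B) := by
      rw [Ideal.smul_top_eq_map]
      exact hP
    have h3 : N.mkQ (lam • b - aeval Y P) ∈ (𝔰 • (⊤ : Submodule Λ B)).map N.mkQ :=
      Submodule.mem_map_of_mem h2
    rw [Submodule.map_smul''] at h3
    exact Submodule.smul_mono le_rfl le_top h3
  obtain ⟨p, hpm, -, hpc, hp0⟩ :=
    LinearMap.exists_monic_and_natDegree_eq_and_coeff_mem_pow_and_aeval_eq_zero Λ φ 𝔰 hrange
  refine ⟨p.eval lam, ?_, ?_⟩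
  · -- `p.eval lam ≡ lam ^ m` modulo `𝔰`
    intro hmem
    have h1 : p.eval lam - lam ^ p.natDegree ∈ 𝔰 := by
      rw [eval_eq_sum_range, Finset.sum_range_succ, hpm.coeff_natDegree, one_mul,
        add_sub_cancel_right]
      refine 𝔰.sum_mem fun i hi => ?_
      have hi' : i < p.natDegree := Finset.mem_range.mp hi
      have h2 : p.coeff i ∈ 𝔰 ^ (p.natDegree - i) := hpc i
      have h3 : 𝔰 ^ (p.natDegree - i) ≤ 𝔰 := Ideal.pow_le_self (by omega)
      exact 𝔰.mul_mem_right _ (h3 h2)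
    have h4 : lam ^ p.natDegree ∈ 𝔰 := by
      have := 𝔰.sub_mem hmem h1
      simpa using this
    exact hlam (h𝔰.mem_of_pow_mem _ h4)
  · intro b
    have h1 : (aeval φ p) (N.mkQ b) = 0 := by rw [hp0]; rfl
    have h2 : aeval φ p = algebraMap Λ (Module.End Λ (B ⧸ N)) (p.eval lam) := by
      rw [hφ, aeval_algebraMap_apply]
      simp
    rw [h2, Module.algebraMap_end_apply, ← map_smul, Submodule.mkQ_apply,
      Submodule.Quotient.mk_eq_zero] at h1
    obtain ⟨P, hP⟩ := (hmemN _).mp h1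
    exact ⟨P, hP.symm⟩

end Fermat.Agent.LGC
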