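import Mathlib
import Fermat.Agent.Red.LocalFact
import Fermat.Agent.LGC.NodeRegular
import Fermat.Agent.LGC.NodeUnr

/-!
# W3-LGC, theorem (A): hypothesis `hunr` from the places (helper62)

Abstract form of "generic unramifiedness + monogenicity ⟹ `f'(Y)` is a unit at the places
centered at the node".

`B ⊆ F` the chart of level `N = M ℓ`, a finite module over `Λ` (the chart of level `M`),
`𝔫` a prime of `B`, `𝔰 = 𝔫 ∩ Λ`.

* `h62n_hgen` : if `𝔫` is the only maximal ideal of `B` over `𝔰` (hypothesis `hU`), the branch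
  `B / P∞` is a copy of the special fibre of `Λ` (`hsurj`), `P∞ ⊆ y B + 𝔰 B` locally at `𝔫`
  (`hPloc`), and `Y ^ (n₀) ∈ 𝔰 B`, then `B = Λ[Y] + 𝔰 B`.
* `h62n_hunr` : with `h62n_monogenic` and `h62n_unr_of_distinct`: if moreover every place `i`
  centered at `𝔫` belongs to a family of `deg f` places with sections which agree on `Λ`
  (the places over the place of `F_M` under `i`; unramifiedness), then `f'(Y)` is a unit at `i`.
-/

set_option autoImplicit false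

open Polynomial WithZero IsLocalRing

namespace Fermat.Agent.LGC

open Fermat.Agent.Red

section Gen

variable {Λ B : Type*} [CommRing Λ] [CommRing B] [Algebra Λ B]

/-- `B = Λ[Y] + 𝔰 B`. -/
theorem h62n_hgen (𝔰 : Ideal Λ) (𝔫 Pinf : Ideal B)
    (hU : ∀ s : B, s ∉ 𝔫 → ∃ s' : B, s * s' - 1 ∈ 𝔰.map (algebraMap Λ B))
    (hsurj : ∀ b : B, ∃ x : Λ, b - algebraMap Λ B x ∈ Pinf)
    (Y : B)
    (hPloc : ∀ p ∈ Pinf, ∃ s, s ∉ 𝔫 ∧ s * p ∈ Ideal.span {Y} ⊔ 𝔰.map (algebraMap Λ B))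
    (n₀ : ℕ) (hYpow : Y ^ n₀ ∈ 𝔰.map (algebraMap Λ B)) :
    ∀ b : B, ∃ P : Λ[X], (1 : Λ) • b - aeval Y P ∈ 𝔰.map (algebraMap Λ B) := by
  set J : Ideal B := 𝔰.map (algebraMap Λ B) with hJ
  -- `P∞ ⊆ Y B + 𝔰 B`
  have hP : ∀ p ∈ Pinf, ∃ b' : B, p - Y * b' ∈ J := by
    intro p hp
    obtain ⟨s, hs, hsp⟩ := hPloc p hp
    obtain ⟨s', hs'⟩ := hU s hs
    obtain ⟨q, hq, j, hj, hsum⟩ := Submodule.mem_sup.mp hsp
    obtain ⟨b₁, rfl⟩ := Ideal.mem_span_singleton'.mp hq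
    refine ⟨s' * b₁, ?_⟩
    have h1 : p - Y * (s' * b₁) = s' * j - (s * s' - 1) * p := by
      have h2 : s * p = b₁ * Y + j := hsum.symm
      linear_combination s' * h2
    rw [h1]
    exact J.sub_mem (J.mul_mem_left _ hj) (J.mul_mem_right _ hs')
  -- induction
  have hind : ∀ n : ℕ, ∀ b : B, ∃ (P : Λ[X]) (bn : B), b - aeval Y P - Y ^ n * bn ∈ J := by
    intro n
    induction n with
    | zero =>
      intro b
      exact ⟨0, b, by simp⟩
    | succ n ih =>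
      intro b
      obtain ⟨P, bn, hPb⟩ := ih b
      obtain ⟨x, hx⟩ := hsurj bn
      obtain ⟨b', hb'⟩ := hP _ hx
      refine ⟨P + C x * X ^ n, b', ?_⟩
      have h1 : b - aeval Y (P + C x * X ^ n) - Y ^ (n + 1) * b'
          = (b - aeval Y P - Y ^ n * bn) + Y ^ n * (bn - algebraMap Λ B x - Y * b') := by
        simp only [map_add, map_mul, aeval_C, map_pow, aeval_X]
        ring
      rw [h1]
      exact J.add_mem hPb (J.mul_mem_left _ hb')
  intro b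
  obtain ⟨P, bn, hPb⟩ := hind n₀ b
  refine ⟨P, ?_⟩
  have h1 : (1 : Λ) • b - aeval Y P = (b - aeval Y P - Y ^ n₀ * bn) + Y ^ n₀ * bn := by
    rw [one_smul]; ring
  rw [h1]
  exact J.add_mem hPb (J.mul_mem_right _ hYpow)

/-- `h62n_poly` is monic of degree `ℓ + 1`. -/
theorem h62n_poly_monic [Nontrivial Λ] (ℓ : ℕ) (hℓ : ℓ ≠ 0) (a c : Λ) (r : Λ[X])
    (hr : r.natDegree ≤ ℓ) :
    (h62n_poly ℓ a c r).Monic ∧ (h62n_poly ℓ a c r).natDegree = ℓ + 1 := by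
  have h1 : ((X - C a) * (X ^ ℓ - C c) : Λ[X]).Monic :=
    (monic_X_sub_C a).mul (monic_X_pow_sub_C c hℓ)
  have h2 : ((X - C a) * (X ^ ℓ - C c) : Λ[X]).natDegree = ℓ + 1 := by
    rw [(monic_X_sub_C a).natDegree_mul (monic_X_pow_sub_C c hℓ), natDegree_X_sub_C,
      natDegree_X_pow_sub_C]
    omega
  have h3 : (C (ℓ : Λ) * r).natDegree < ((X - C a) * (X ^ ℓ - C c) : Λ[X]).natDegree := by
    rw [h2]
    exact lt_of_le_of_lt ((natDegree_C_mul_le _ _).trans hr) (Nat.lt_succ_self ℓ)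
  have h4 : (C (ℓ : Λ) * r).degree < ((X - C a) * (X ^ ℓ - C c) : Λ[X]).degree :=
    degree_lt_degree h3
  refine ⟨h1.add_of_left h4, ?_⟩
  unfold h62n_poly
  rw [natDegree_add_eq_left_of_natDegree_lt h3, h2]

end Gen

/-- **hypothesis `hunr` of theorem (A)** from unramifiedness (a family of `ℓ + 1` places with
sections agreeing on `Λ`) and monogenicity. -/
theorem h62n_hunr
    {A : Type*} [CommRing A] [IsLocalRing A] {F : Type*} [Field F] [Algebra A F]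
    {B : Subalgebra A F} {V : Subring F} {ι : Type*} {v : ι → Valuation F ℤᵐ⁰}
    (hC : H26Chart B V v)
    {Λ : Type*} [CommRing Λ] [Algebra Λ B] [Module.Finite Λ B]
    {K : Type*} [CommRing K] [IsDomain K]
    (𝔫 Pinf : Ideal B) [h𝔫 : 𝔫.IsPrime]
    (hU : ∀ s : B, s ∉ 𝔫 → ∃ s' : B,
      s * s' - 1 ∈ (𝔫.comap (algebraMap Λ B)).map (algebraMap Λ B))
    (hsurj : ∀ b : B, ∃ x : Λ, b - algebraMap Λ B x ∈ Pinf)
    (ℓ : ℕ) (hℓ : ℓ ≠ 0)
    (hℓ𝔰 : (ℓ : B) ∈ (𝔫.comap (algebraMap Λ B)).map (algebraMap Λ B))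
    (Y : B) (a c : Λ) (r : Λ[X]) (hr : r.natDegree ≤ ℓ)
    (hf : aeval Y (h62n_poly ℓ a c r) = 0)
    (ha : algebraMap Λ B a ∈ 𝔫) (hc : algebraMap Λ B c ∈ 𝔫)
    (hPloc : ∀ p ∈ Pinf, ∃ s, s ∉ 𝔫 ∧
      s * p ∈ Ideal.span {Y} ⊔ (𝔫.comap (algebraMap Λ B)).map (algebraMap Λ B))
    (hpl : ∀ i, h26Centered B v 𝔫 i →
      ∃ (T : Finset ι) (φ : ι → B →+* K) (φ' : Λ →+* K), i ∈ T ∧ ℓ + 1 ≤ T.card ∧
        (∀ k ∈ T, ∀ b : B, φ k b = 0 ↔ v k (b : F) < 1) ∧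
        (∀ k ∈ T, ∀ x : Λ, φ k (algebraMap Λ B x) = φ' x)) :
    ∀ i, h26Centered B v 𝔫 i → v i ((h62n_z ℓ a c r Y : B) : F) = 1 := by
  classical
  have : Nontrivial Λ := (algebraMap Λ B).domain_nontrivial
  set 𝔰 : Ideal Λ := 𝔫.comap (algebraMap Λ B) with h𝔰
  have h𝔰p : 𝔰.IsPrime := Ideal.comap_isPrime _ _
  set J : Ideal B := 𝔰.map (algebraMap Λ B) with hJ
  have ha𝔰 : a ∈ 𝔰 := ha
  have hc𝔰 : c ∈ 𝔰 := hc
  -- `Y ^ (ℓ + 1) ∈ 𝔰 B`
  have hYpow : Y ^ (ℓ + 1) ∈ J := by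
    have hfY : (Y - algebraMap Λ B a) * (Y ^ ℓ - algebraMap Λ B c) + (ℓ : B) * aeval Y r = 0 := by
      have := hf
      unfold h62n_poly at this
      simpa [aeval_def, eval₂_add, eval₂_mul, eval₂_sub] using this
    have h1 : Y ^ (ℓ + 1) = algebraMap Λ B a * (Y ^ ℓ - algebraMap Λ B c)
        + algebraMap Λ B c * Y - (ℓ : B) * aeval Y r := by
      linear_combination hfY
    rw [h1]
    exact J.sub_mem (J.add_mem (J.mul_mem_right _ (Ideal.mem_map_of_mem _ ha𝔰))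
      (J.mul_mem_right _ (Ideal.mem_map_of_mem _ hc𝔰))) (J.mul_mem_right _ hℓ𝔰)
  have hgen := h62n_hgen 𝔰 𝔫 Pinf hU hsurj Y hPloc (ℓ + 1) hYpow
  have h1𝔰 : (1 : Λ) ∉ 𝔰 := fun h => h𝔰p.ne_top ((Ideal.eq_top_iff_one _).mpr h)
  obtain ⟨μ, hμ, hmono⟩ := h62n_monogenic 𝔰 Y 1 h1𝔰 hgen
  obtain ⟨hmonic, hdeg⟩ := h62n_poly_monic ℓ hℓ a c r hr
  intro i hi
  obtain ⟨T, φ, φ', hiT, hcard, hker, hagree⟩ := hpl i hi
  -- `φ' μ ≠ 0`
  have hμ0 : φ' μ ≠ 0 := by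
    intro h0
    have h2 : φ i (algebraMap Λ B μ) = 0 := by rw [hagree i hiT, h0]
    have h3 : algebraMap Λ B μ ∈ 𝔫 := hi _ ((hker i hiT _).mp h2)
    exact hμ h3
  -- evaluation of polynomials
  have hcomp : ∀ k ∈ T, ∀ P : Λ[X], φ k (aeval Y P) = (P.map φ').eval (φ k Y) := by
    intro k hk P
    rw [eval_map, aeval_def, hom_eval₂]
    congr 1
    ext x
    exact hagree k hk x
  -- `Y` separates the places of `T`
  have hinj : Function.Injective (fun k : {k // k ∈ T} => φ k.1 Y) := by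
    rintro ⟨k, hk⟩ ⟨k', hk'⟩ hkk'
    have hkk : φ k Y = φ k' Y := hkk'
    have hall : ∀ b : B, φ k b = φ k' b := by
      intro b
      obtain ⟨P, hP⟩ := hmono b
      have h4 : φ' μ * φ k b = φ' μ * φ k' b := by
        have e1 : φ k (μ • b) = φ' μ * φ k b := by
          rw [Algebra.smul_def, map_mul, hagree k hk]
        have e2 : φ k' (μ • b) = φ' μ * φ k' b := by
          rw [Algebra.smul_def, map_mul, hagree k' hk']
        rw [← e1, ← e2, hP, hcomp k hk, hcomp k' hk', hkk]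
      exact mul_left_cancel₀ hμ0 h4
    have h5 : k = k' := by
      apply hC.hinj
      intro b hb
      rw [← hker k' hk', ← hall b, hker k hk]
      exact hb
    exact Subtype.ext h5
  have hcard' : (h62n_poly ℓ a c r).natDegree ≤ Fintype.card {k // k ∈ T} := by
    rw [hdeg, Fintype.card_coe]
    exact hcard
  have hne := h62n_unr_of_distinct (h62n_poly ℓ a c r) hmonic Y hf
    (fun k : {k // k ∈ T} => φ k.1) φ' (fun k x => hagree k.1 k.2 x) hinj hcard' ⟨i, hiT⟩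
  have hz : ¬ v i ((h62n_z ℓ a c r Y : B) : F) < 1 := by
    intro hlt
    exact hne ((hker i hiT _).mpr hlt)
  exact le_antisymm (hC.hB _ (h62n_z ℓ a c r Y).2 i) (not_lt.mp hz)

end Fermat.Agent.LGC
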