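import Mathlib
import Fermat.Agent.Red.LocalFact
import Fermat.Agent.LGC.NodeDatum
import Fermat.Agent.LGC.NodeHunr

/-!
# W3-LGC, theorem (A): the node datum from modular inputs, final abstract form (helper62)

`h62n_node_final` = `h62n_node_datum` with the hypothesis `hunr` discharged by `h62n_hunr`.

Inputs at a crossing point `𝔫` of the special fibre of the chart `B` of level `N = M ℓ`
(`Λ` = chart of level `M`, `algebraMap Λ B = α`, finite; `β : Λ → B`):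

* (I1) `H26Chart B V v`;
* (I2) the two Gauss rings `W∞`, `W₀` (`W∞ ∩ W₀ ⊆ V`), their centres `P∞`, `P₀ ⊆ 𝔫` on `B`,
  reducedness `P∞ ⊓ P₀ ≤ 𝔪_A B`, and `𝔪_A B ⊆ 𝔰 B` for `𝔰 = α⁻¹ 𝔫`;
* (I4) Kronecker modulo `ℓ`: `f(β u) = 0`, `f = (T - a₁ ^ ℓ) (T ^ ℓ - c) + ℓ r`,
  `β u ≡ α (a₁ ^ ℓ)` mod `P∞`, `(β u) ^ ℓ ≡ α c` mod `P₀`, and non-vanishing;
* (I5) `hLI` (from `h62n_LI_of_derivation`);
* (I6) `α c` is a local parameter of `B / P∞` at `𝔫`, `β u` one of `B / P₀`;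
* (I7) `𝔫` is the only maximal ideal over `𝔰` (`hU`), `B = α Λ + P∞` (`hsurj`);
* (I8) every place centered at `𝔫` lies in a family of `ℓ + 1` places with sections agreeing
  on `Λ` (generic unramifiedness of `F_N / F_M`).

Output: `x, y ∈ 𝔫`, `c' ∉ 𝔫` with `x * y = ℓ * c'` and `𝔫 = (x, y) + 𝔪_A B` locally.
-/

set_option autoImplicit false

open Polynomial WithZero IsLocalRing

namespace Fermat.Agent.LGC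

open Fermat.Agent.Red

theorem h62n_node_final
    {A : Type*} [CommRing A] [IsLocalRing A] {F : Type*} [Field F] [Algebra A F]
    {B : Subalgebra A F} {V : Subring F} {ι : Type*} {v : ι → Valuation F ℤᵐ⁰}
    (hC : H26Chart B V v)
    (Winf W0 : Subring F) (hWV : ∀ x : F, x ∈ Winf → x ∈ W0 → x ∈ V)
    (hBWinf : ∀ b : B, (b : F) ∈ Winf) (hBW0 : ∀ b : B, (b : F) ∈ W0)
    (𝔫 Pinf P0 : Ideal B) [h𝔫 : 𝔫.IsPrime] [hPinf : Pinf.IsPrime] [hP0 : P0.IsPrime]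
    (hPinf𝔫 : Pinf ≤ 𝔫) (hP0𝔫 : P0 ≤ 𝔫)
    (hSF : Pinf ⊓ P0 ≤ (maximalIdeal A).map (algebraMap A B))
    (hWinf : ∀ b : B, b ∉ Pinf → ((b : F))⁻¹ ∈ Winf)
    (hW0 : ∀ b : B, b ∉ P0 → ((b : F))⁻¹ ∈ W0)
    {Λ : Type*} [CommRing Λ] [Algebra Λ B] [Module.Finite Λ B] (β : Λ →+* B)
    (hm𝔰 : (maximalIdeal A).map (algebraMap A B)
      ≤ (𝔫.comap (algebraMap Λ B)).map (algebraMap Λ B))
    (ℓ : ℕ) (hℓ2 : 2 ≤ ℓ) (hℓ0 : (ℓ : B) ≠ 0)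
    (hℓm : (ℓ : B) ∈ (maximalIdeal A).map (algebraMap A B))
    (hmPinf : (maximalIdeal A).map (algebraMap A B) ≤ Pinf)
    (hmP0 : (maximalIdeal A).map (algebraMap A B) ≤ P0)
    (u a₁ c : Λ) (r : Λ[X]) (hr : r.natDegree ≤ ℓ)
    (hf : aeval (β u) (h62n_poly ℓ (a₁ ^ ℓ) c r) = 0)
    (hu𝔫 : β u ∈ 𝔫)
    (hY1 : β u - algebraMap Λ B (a₁ ^ ℓ) ∈ Pinf)
    (hY2 : β u ^ ℓ - algebraMap Λ B c ∈ P0)
    (hYa : β u - algebraMap Λ B (a₁ ^ ℓ) ∉ P0)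
    (hδinf : algebraMap Λ B ((a₁ ^ ℓ) ^ ℓ - c) ∉ Pinf)
    (hδ0 : algebraMap Λ B ((a₁ ^ ℓ) ^ ℓ - c) ∉ P0)
    (hLI : ∀ g : Λ[X], g.natDegree < ℓ → aeval (β u) g ∈ P0 →
      ∀ i, algebraMap Λ B (g.coeff i) ∈ P0)
    (hLPinf : ∀ b ∈ 𝔫, ∃ s, s ∉ 𝔫 ∧ s * b ∈ Ideal.span {algebraMap Λ B c} ⊔ Pinf)
    (hLP0 : ∀ b ∈ 𝔫, ∃ s, s ∉ 𝔫 ∧ s * b ∈ Ideal.span {β u} ⊔ P0)
    (hU : ∀ s : B, s ∉ 𝔫 → ∃ s' : B,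
      s * s' - 1 ∈ (𝔫.comap (algebraMap Λ B)).map (algebraMap Λ B))
    (hsurj : ∀ b : B, ∃ x : Λ, b - algebraMap Λ B x ∈ Pinf)
    {K : Type*} [CommRing K] [IsDomain K]
    (hpl : ∀ i, h26Centered B v 𝔫 i →
      ∃ (T : Finset ι) (φ : ι → B →+* K) (φ' : Λ →+* K), i ∈ T ∧ ℓ + 1 ≤ T.card ∧
        (∀ k ∈ T, ∀ b : B, φ k b = 0 ↔ v k (b : F) < 1) ∧
        (∀ k ∈ T, ∀ x : Λ, φ k (algebraMap Λ B x) = φ' x)) :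
    ∃ x ∈ 𝔫, ∃ y ∈ 𝔫, ∃ c' : B, c' ∉ 𝔫 ∧ x * y = (ℓ : B) * c' ∧
      ∀ b ∈ 𝔫, ∃ s, s ∉ 𝔫 ∧
        s * b ∈ Ideal.span {x, y} ⊔ (maximalIdeal A).map (algebraMap A B) := by
  classical
  set J : Ideal B := (𝔫.comap (algebraMap Λ B)).map (algebraMap Λ B) with hJ
  have hℓPinf : (ℓ : B) ∈ Pinf := hmPinf hℓm
  have hℓP0 : (ℓ : B) ∈ P0 := hmP0 hℓm
  have hy𝔫 : β u - algebraMap Λ B (a₁ ^ ℓ) ∈ 𝔫 := hPinf𝔫 hY1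
  have ha𝔫 : algebraMap Λ B (a₁ ^ ℓ) ∈ 𝔫 := by
    have := 𝔫.sub_mem hu𝔫 hy𝔫
    simpa using this
  have ha₁𝔫 : algebraMap Λ B a₁ ∈ 𝔫 := by
    rw [map_pow] at ha𝔫
    exact h𝔫.mem_of_pow_mem _ ha𝔫
  have hc𝔫 : algebraMap Λ B c ∈ 𝔫 := by
    have h1 : β u ^ ℓ ∈ 𝔫 := 𝔫.pow_mem_of_mem hu𝔫 ℓ (by omega)
    have := 𝔫.sub_mem h1 (hP0𝔫 hY2)
    simpa using this
  have haJ : algebraMap Λ B (a₁ ^ ℓ) ∈ J := Ideal.mem_map_of_mem _ ha𝔫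
  -- `𝔫 = (y) + P₀` locally, `y = β u - α a`
  have hLPy : ∀ b ∈ 𝔫, ∃ s, s ∉ 𝔫 ∧
      s * b ∈ Ideal.span {β u - algebraMap Λ B (a₁ ^ ℓ)} ⊔ P0 := by
    have h1 : ∀ b ∈ 𝔫, ∃ s, s ∉ 𝔫 ∧
        s * b ∈ Ideal.span {-(β u - algebraMap Λ B (a₁ ^ ℓ))} ⊔ P0 := by
      refine h62n_lp_change 𝔫 P0 (β u) (algebraMap Λ B a₁)
        (-(β u - algebraMap Λ B (a₁ ^ ℓ))) ℓ hℓ2 hu𝔫 ha₁𝔫 ?_ hLP0
      have h2 : -(β u - algebraMap Λ B (a₁ ^ ℓ)) - (algebraMap Λ B a₁ ^ ℓ - β u) = 0 := by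
        rw [map_pow (algebraMap Λ B) a₁ ℓ]; ring
      rw [h2]
      exact P0.zero_mem
    rw [Ideal.span_singleton_neg] at h1
    exact h1
  -- `P∞ ⊆ Y B + 𝔰 B` locally
  have hPloc : ∀ p ∈ Pinf, ∃ s, s ∉ 𝔫 ∧ s * p ∈ Ideal.span {β u} ⊔ J := by
    intro p hp
    obtain ⟨s, hs, hsp⟩ := hLPy p (hPinf𝔫 hp)
    obtain ⟨q, hq, p₂, hp₂, hsum⟩ := Submodule.mem_sup.mp hsp
    obtain ⟨b', rfl⟩ := Ideal.mem_span_singleton'.mp hq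
    have hp₂inf : p₂ ∈ Pinf := by
      have h1 : p₂ = s * p - b' * (β u - algebraMap Λ B (a₁ ^ ℓ)) := by rw [← hsum]; ring
      rw [h1]
      exact Pinf.sub_mem (Pinf.mul_mem_left _ hp) (Pinf.mul_mem_left _ hY1)
    have hp₂J : p₂ ∈ J := hm𝔰 (hSF ⟨hp₂inf, hp₂⟩)
    refine ⟨s, hs, ?_⟩
    have h2 : s * p = b' * β u + (p₂ - b' * algebraMap Λ B (a₁ ^ ℓ)) := by
      rw [← hsum]; ring
    rw [h2]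
    exact Submodule.add_mem_sup (Ideal.mem_span_singleton'.mpr ⟨b', rfl⟩)
      (J.sub_mem hp₂J (J.mul_mem_left _ haJ))
  have hunr := h62n_hunr hC (K := K) 𝔫 Pinf hU hsurj ℓ (by omega) (hm𝔰 hℓm) (β u) (a₁ ^ ℓ) c r hr
    hf ha𝔫 hc𝔫 hPloc hpl
  exact h62n_node_datum hC Winf W0 hWV hBWinf hBW0 𝔫 Pinf P0 hPinf𝔫 hP0𝔫 hSF hWinf hW0 β ℓ hℓ2
    hℓ0 hℓPinf hℓP0 u a₁ c r hr hf hu𝔫 hY1 hY2 hYa hδinf hδ0 hLI hLPinf hLP0 hunr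

end Fermat.Agent.LGC
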