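import Mathlib
import Fermat.Agent.Red.LocalFact
import Fermat.Agent.LGC.NodeFinal

/-!
# W3-LGC / S35 G-TOR: the node datum with branch information, abstract form (helper62)

Same hypotheses as `h62n_node_datum` / `h62n_node_final`; the conclusion is explicit:
`x = f'(β u) ∈ P₀ \ P∞`, `y = β u - α (a₁ ^ ℓ) ∈ P∞ \ P₀`, `x y = ℓ S`, `S ∉ 𝔫`,
`𝔫 = (x) + P∞ = (y) + P₀ = (x, y) + 𝔪_A B` locally (`H62bNodeDatum`).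
-/

set_option autoImplicit false

open Polynomial WithZero IsLocalRing

namespace Fermat.Agent.LGC

open Fermat.Agent.Red

/-- the node datum with branch information: `x ∈ P₀ \ P∞`, `y ∈ P∞ \ P₀`, `x y = ℓ c'`,
`c' ∉ 𝔫`, and `𝔫 = (x) + P∞ = (y) + P₀ = (x, y) + 𝔪` locally at `𝔫`. -/
structure H62bNodeDatum {B : Type*} [CommRing B] (𝔪 𝔫 Pinf P0 : Ideal B) (ℓ x y c' : B) :
    Prop where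
  hc : c' ∉ 𝔫
  hxy : x * y = ℓ * c'
  hxP0 : x ∈ P0
  hxPinf : x ∉ Pinf
  hyPinf : y ∈ Pinf
  hyP0 : y ∉ P0
  hLPx : ∀ b ∈ 𝔫, ∃ s, s ∉ 𝔫 ∧ s * b ∈ Ideal.span {x} ⊔ Pinf
  hLPy : ∀ b ∈ 𝔫, ∃ s, s ∉ 𝔫 ∧ s * b ∈ Ideal.span {y} ⊔ P0
  hgen : ∀ b ∈ 𝔫, ∃ s, s ∉ 𝔫 ∧ s * b ∈ Ideal.span {x, y} ⊔ 𝔪

/-- **Theorem (A), node datum with branch information** (explicit `x = f'(β u)`,
`y = β u - α (a₁ ^ ℓ)`). -/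
theorem h62b_node_datum
    {A : Type*} [CommRing A] [IsLocalRing A] {F : Type*} [Field F] [Algebra A F]
    {B : Subalgebra A F} {V : Subring F} {ι : Type*} {v : ι → Valuation F ℤᵐ⁰}
    (hC : H26Chart B V v)
    (Winf W0 : Subring F) (hWV : ∀ x : F, x ∈ Winf → x ∈ W0 → x ∈ V)
    (hBWinf : ∀ b : B, (b : F) ∈ Winf) (hBW0 : ∀ b : B, (b : F) ∈ W0)
    (𝔫 Pinf P0 : Ideal B) [h𝔫 : 𝔫.IsPrime] [hPinf : Pinf.IsPrime] [hP0 : P0.IsPrime]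
    (hPinf𝔫 : Pinf ≤ 𝔫) (hP0𝔫 : P0 ≤ 𝔫)
    (hSF : Pinf ⊓ P0 ≤ (maximalIdeal A).map (algebraMap A B))
    (hWinf : ∀ b : B, b ∉ Pinf → ((b : F))⁻¹ ∈ Winf)
    (hW0 : ∀ b : B, b ∉ P0 → ((b : F))⁻¹ ∈ W0)
    {Λ : Type*} [CommRing Λ] [Algebra Λ B] (β : Λ →+* B)
    (ℓ : ℕ) (hℓ2 : 2 ≤ ℓ) (hℓ0 : (ℓ : B) ≠ 0) (hℓPinf : (ℓ : B) ∈ Pinf) (hℓP0 : (ℓ : B) ∈ P0)
    (u a₁ c : Λ) (r : Λ[X]) (hr : r.natDegree ≤ ℓ)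
    (hf : aeval (β u) (h62n_poly ℓ (a₁ ^ ℓ) c r) = 0)
    (hu𝔫 : β u ∈ 𝔫)
    (hY1 : β u - algebraMap Λ B (a₁ ^ ℓ) ∈ Pinf)
    (hY2 : β u ^ ℓ - algebraMap Λ B c ∈ P0)
    (hYa : β u - algebraMap Λ B (a₁ ^ ℓ) ∉ P0)
    (hδinf : algebraMap Λ B ((a₁ ^ ℓ) ^ ℓ - c) ∉ Pinf)
    (hδ0 : algebraMap Λ B ((a₁ ^ ℓ) ^ ℓ - c) ∉ P0)
    (hLI : ∀ g : Λ[X], g.natDegree < ℓ → aeval (β u) g ∈ P0 →
      ∀ i, algebraMap Λ B (g.coeff i) ∈ P0)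
    (hLPinf : ∀ b ∈ 𝔫, ∃ s, s ∉ 𝔫 ∧ s * b ∈ Ideal.span {algebraMap Λ B c} ⊔ Pinf)
    (hLP0 : ∀ b ∈ 𝔫, ∃ s, s ∉ 𝔫 ∧ s * b ∈ Ideal.span {β u} ⊔ P0)
    (hunr : ∀ i, h26Centered B v 𝔫 i →
      v i ((h62n_z ℓ (a₁ ^ ℓ) c r (β u) : B) : F) = 1) :
    H62bNodeDatum ((maximalIdeal A).map (algebraMap A B)) 𝔫 Pinf P0 (ℓ : B)
      (h62n_z ℓ (a₁ ^ ℓ) c r (β u)) (β u - algebraMap Λ B (a₁ ^ ℓ))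
      (h62n_S ℓ (a₁ ^ ℓ) r (β u)) := by
  classical
  have : Nontrivial Λ := (algebraMap Λ B).domain_nontrivial
  have hℓne : ℓ ≠ 0 := by omega
  set Y : B := β u with hY
  set a : Λ := a₁ ^ ℓ with ha
  set y : B := Y - algebraMap Λ B a with hy
  obtain ⟨hSP0, hzP0, hzδ⟩ := h62n_key ℓ hℓne Pinf P0 hℓPinf hℓP0 Y a c r hr hY1 hY2 hYa hδ0 hLI
  set z : B := h62n_z ℓ a c r Y with hz
  -- memberships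
  have hy𝔫 : y ∈ 𝔫 := hPinf𝔫 hY1
  have ha𝔫 : algebraMap Λ B a ∈ 𝔫 := by
    have := 𝔫.sub_mem hu𝔫 hy𝔫
    simpa [hy] using this
  have ha₁𝔫 : algebraMap Λ B a₁ ∈ 𝔫 := by
    rw [ha, map_pow] at ha𝔫
    exact h𝔫.mem_of_pow_mem _ ha𝔫
  have hc𝔫 : algebraMap Λ B c ∈ 𝔫 := by
    have h1 : Y ^ ℓ ∈ 𝔫 := 𝔫.pow_mem_of_mem hu𝔫 ℓ (by omega)
    have := 𝔫.sub_mem h1 (hP0𝔫 hY2)
    simpa using this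
  -- `𝔫 = (z) + P∞` locally
  have hLPz : ∀ b ∈ 𝔫, ∃ s, s ∉ 𝔫 ∧ s * b ∈ Ideal.span {z} ⊔ Pinf := by
    refine h62n_lp_change 𝔫 Pinf (algebraMap Λ B c) (algebraMap Λ B a) z ℓ hℓ2
      hc𝔫 ha𝔫 ?_ hLPinf
    have h1 : z - (algebraMap Λ B a ^ ℓ - algebraMap Λ B c)
        = z - algebraMap Λ B (a ^ ℓ - c) := by
      rw [map_sub (algebraMap Λ B) (a ^ ℓ) c, map_pow (algebraMap Λ B) a ℓ]
    rw [h1]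
    exact hzδ
  -- `𝔫 = (y) + P₀` locally
  have hLPy : ∀ b ∈ 𝔫, ∃ s, s ∉ 𝔫 ∧ s * b ∈ Ideal.span {y} ⊔ P0 := by
    have h1 : ∀ b ∈ 𝔫, ∃ s, s ∉ 𝔫 ∧ s * b ∈ Ideal.span {-y} ⊔ P0 := by
      refine h62n_lp_change 𝔫 P0 Y (algebraMap Λ B a₁) (-y) ℓ hℓ2 hu𝔫 ha₁𝔫 ?_ hLP0
      have h2 : -y - (algebraMap Λ B a₁ ^ ℓ - Y) = 0 := by
        rw [hy, ha, map_pow (algebraMap Λ B) a₁ ℓ]; ring
      rw [h2]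
      exact P0.zero_mem
    have h3 : Ideal.span {-y} = Ideal.span {y} := Ideal.span_singleton_neg y
    rw [h3] at h1
    exact h1
  have hunif : ∀ s : B, s ∉ 𝔫 → s * (Y - algebraMap Λ B a) ∉ 𝔫 * 𝔫 :=
    h62n_unif_of_lp 𝔫 P0 hP0𝔫 y hy𝔫 hYa hLPy
  obtain ⟨hS𝔫, hmul, -, -⟩ := h62n_node_xy hC Winf W0 hWV hBWinf hBW0 𝔫 Pinf P0 hPinf𝔫 hWinf hW0
    ℓ hℓ0 hℓPinf hℓP0 Y a c r hr hf hY1 hY2 hYa hδinf hδ0 hLI hunr hunif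
  have hzPinf : z ∉ Pinf := by
    intro hmem
    apply hδinf
    have := Pinf.sub_mem hmem hzδ
    simpa using this
  exact
    { hc := hS𝔫
      hxy := by rw [mul_comm]; exact hmul
      hxP0 := hzP0
      hxPinf := hzPinf
      hyPinf := hY1
      hyP0 := hYa
      hLPx := hLPz
      hLPy := hLPy
      hgen := h62n_lp_both 𝔫 Pinf P0 _ hPinf𝔫 hSF z y hY1 hLPz hLPy }


/-- **Theorem (A), final abstract form, with branch information.** -/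
theorem h62b_node_final
    {A : Type*} [CommRing A] [IsLocalRing A] {F : Type*} [Field F] [Algebra A F]
    {B : Subalgebra A F} {V : Subring F} {ι : Type*} {v : ι → Valuation F ℤᵐ⁰}
    (hC : H26Chart B V v)
    (Winf W0 : Subring F) (hWV : ∀ x : F, x ∈ Winf → x ∈ W0 → x ∈ V)
    (hBWinf : ∀ b : B, (b : F) ∈ Winf) (hBW0 : ∀ b : B, (b : F) ∈ W0)
    (𝔫 Pinf P0 : Ideal B) [h𝔫 : 𝔫.IsPrime] [hPinf : Pinf.IsPrime] [hP0 : P0.IsPrime]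
    (hPinf𝔫 : Pinf ≤ 𝔫) (hP0𝔫 : P0 ≤ 𝔫)
    (hSF : Pinf ⊓ P0 ≤ (maximalIdeal A).map (algebraMap A B))
    (hWinf : ∀ b : B, b ∉ Pinf → ((b : F))⁻¹ ∈ Winf)
    (hW0 : ∀ b : B, b ∉ P0 → ((b : F))⁻¹ ∈ W0)
    {Λ : Type*} [CommRing Λ] [Algebra Λ B] [Module.Finite Λ B] (β : Λ →+* B)
    (hm𝔰 : (maximalIdeal A).map (algebraMap A B)
      ≤ (𝔫.comap (algebraMap Λ B)).map (algebraMap Λ B))
    (ℓ : ℕ) (hℓ2 : 2 ≤ ℓ) (hℓ0 : (ℓ : B) ≠ 0)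
    (hℓm : (ℓ : B) ∈ (maximalIdeal A).map (algebraMap A B))
    (hmPinf : (maximalIdeal A).map (algebraMap A B) ≤ Pinf)
    (hmP0 : (maximalIdeal A).map (algebraMap A B) ≤ P0)
    (u a₁ c : Λ) (r : Λ[X]) (hr : r.natDegree ≤ ℓ)
    (hf : aeval (β u) (h62n_poly ℓ (a₁ ^ ℓ) c r) = 0)
    (hu𝔫 : β u ∈ 𝔫)
    (hY1 : β u - algebraMap Λ B (a₁ ^ ℓ) ∈ Pinf)
    (hY2 : β u ^ ℓ - algebraMap Λ B c ∈ P0)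
    (hYa : β u - algebraMap Λ B (a₁ ^ ℓ) ∉ P0)
    (hδinf : algebraMap Λ B ((a₁ ^ ℓ) ^ ℓ - c) ∉ Pinf)
    (hδ0 : algebraMap Λ B ((a₁ ^ ℓ) ^ ℓ - c) ∉ P0)
    (hLI : ∀ g : Λ[X], g.natDegree < ℓ → aeval (β u) g ∈ P0 →
      ∀ i, algebraMap Λ B (g.coeff i) ∈ P0)
    (hLPinf : ∀ b ∈ 𝔫, ∃ s, s ∉ 𝔫 ∧ s * b ∈ Ideal.span {algebraMap Λ B c} ⊔ Pinf)
    (hLP0 : ∀ b ∈ 𝔫, ∃ s, s ∉ 𝔫 ∧ s * b ∈ Ideal.span {β u} ⊔ P0)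
    (hU : ∀ s : B, s ∉ 𝔫 → ∃ s' : B,
      s * s' - 1 ∈ (𝔫.comap (algebraMap Λ B)).map (algebraMap Λ B))
    (hsurj : ∀ b : B, ∃ x : Λ, b - algebraMap Λ B x ∈ Pinf)
    {K : Type*} [CommRing K] [IsDomain K]
    (hpl : ∀ i, h26Centered B v 𝔫 i →
      ∃ (T : Finset ι) (φ : ι → B →+* K) (φ' : Λ →+* K), i ∈ T ∧ ℓ + 1 ≤ T.card ∧
        (∀ k ∈ T, ∀ b : B, φ k b = 0 ↔ v k (b : F) < 1) ∧
        (∀ k ∈ T, ∀ x : Λ, φ k (algebraMap Λ B x) = φ' x)) :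
    H62bNodeDatum ((maximalIdeal A).map (algebraMap A B)) 𝔫 Pinf P0 (ℓ : B)
      (h62n_z ℓ (a₁ ^ ℓ) c r (β u)) (β u - algebraMap Λ B (a₁ ^ ℓ))
      (h62n_S ℓ (a₁ ^ ℓ) r (β u)) := by
  classical
  set J : Ideal B := (𝔫.comap (algebraMap Λ B)).map (algebraMap Λ B) with hJ
  have hℓPinf : (ℓ : B) ∈ Pinf := hmPinf hℓm
  have hℓP0 : (ℓ : B) ∈ P0 := hmP0 hℓm
  have hy𝔫 : β u - algebraMap Λ B (a₁ ^ ℓ) ∈ 𝔫 := hPinf𝔫 hY1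
  have ha𝔫 : algebraMap Λ B (a₁ ^ ℓ) ∈ 𝔫 := by
    have := 𝔫.sub_mem hu𝔫 hy𝔫
    simpa using this
  have ha₁𝔫 : algebraMap Λ B a₁ ∈ 𝔫 := by
    rw [map_pow] at ha𝔫
    exact h𝔫.mem_of_pow_mem _ ha𝔫
  have hc𝔫 : algebraMap Λ B c ∈ 𝔫 := by
    have h1 : β u ^ ℓ ∈ 𝔫 := 𝔫.pow_mem_of_mem hu𝔫 ℓ (by omega)
    have := 𝔫.sub_mem h1 (hP0𝔫 hY2)
    simpa using this
  have haJ : algebraMap Λ B (a₁ ^ ℓ) ∈ J := Ideal.mem_map_of_mem _ ha𝔫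
  -- `𝔫 = (y) + P₀` locally, `y = β u - α a`
  have hLPy : ∀ b ∈ 𝔫, ∃ s, s ∉ 𝔫 ∧
      s * b ∈ Ideal.span {β u - algebraMap Λ B (a₁ ^ ℓ)} ⊔ P0 := by
    have h1 : ∀ b ∈ 𝔫, ∃ s, s ∉ 𝔫 ∧
        s * b ∈ Ideal.span {-(β u - algebraMap Λ B (a₁ ^ ℓ))} ⊔ P0 := by
      refine h62n_lp_change 𝔫 P0 (β u) (algebraMap Λ B a₁)
        (-(β u - algebraMap Λ B (a₁ ^ ℓ))) ℓ hℓ2 hu𝔫 ha₁𝔫 ?_ hLP0
      have h2 : -(β u - algebraMap Λ B (a₁ ^ ℓ)) - (algebraMap Λ B a₁ ^ ℓ - β u) = 0 := by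
        rw [map_pow (algebraMap Λ B) a₁ ℓ]; ring
      rw [h2]
      exact P0.zero_mem
    rw [Ideal.span_singleton_neg] at h1
    exact h1
  -- `P∞ ⊆ Y B + 𝔰 B` locally
  have hPloc : ∀ p ∈ Pinf, ∃ s, s ∉ 𝔫 ∧ s * p ∈ Ideal.span {β u} ⊔ J := by
    intro p hp
    obtain ⟨s, hs, hsp⟩ := hLPy p (hPinf𝔫 hp)
    obtain ⟨q, hq, p₂, hp₂, hsum⟩ := Submodule.mem_sup.mp hsp
    obtain ⟨b', rfl⟩ := Ideal.mem_span_singleton'.mp hq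
    have hp₂inf : p₂ ∈ Pinf := by
      have h1 : p₂ = s * p - b' * (β u - algebraMap Λ B (a₁ ^ ℓ)) := by rw [← hsum]; ring
      rw [h1]
      exact Pinf.sub_mem (Pinf.mul_mem_left _ hp) (Pinf.mul_mem_left _ hY1)
    have hp₂J : p₂ ∈ J := hm𝔰 (hSF ⟨hp₂inf, hp₂⟩)
    refine ⟨s, hs, ?_⟩
    have h2 : s * p = b' * β u + (p₂ - b' * algebraMap Λ B (a₁ ^ ℓ)) := by
      rw [← hsum]; ring
    rw [h2]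
    exact Submodule.add_mem_sup (Ideal.mem_span_singleton'.mpr ⟨b', rfl⟩)
      (J.sub_mem hp₂J (J.mul_mem_left _ haJ))
  have hunr := h62n_hunr hC (K := K) 𝔫 Pinf hU hsurj ℓ (by omega) (hm𝔰 hℓm) (β u) (a₁ ^ ℓ) c r hr
    hf ha𝔫 hc𝔫 hPloc hpl
  exact h62b_node_datum hC Winf W0 hWV hBWinf hBW0 𝔫 Pinf P0 hPinf𝔫 hP0𝔫 hSF hWinf hW0 β ℓ hℓ2
    hℓ0 hℓPinf hℓP0 u a₁ c r hr hf hu𝔫 hY1 hY2 hYa hδinf hδ0 hLI hLPinf hLP0 hunr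


end Fermat.Agent.LGC
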