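import Mathlib

/-!
# W3-LGC: local parameters modulo an ideal (helper62)

`Λ` a commutative ring, `𝔪` a prime ideal (the special fibre `𝔪_A Λ`), `𝔰 ⊇ 𝔪` a prime ideal
(a closed point of the special fibre).

* `h62l_LP 𝔪 𝔰 t` : `t ∈ 𝔰` and `𝔰 = (t) + 𝔪` locally at `𝔰`.
* `h62l_sq 𝔪 𝔰` : the symbolic square `{y | ∃ s ∉ 𝔰, s y ∈ 𝔰² + 𝔪}`.
* `h62l_LP_of_not_mem_sq`, `h62l_not_mem_sq_of_LP` : for `t ∈ 𝔰` (and `𝔰 ≠ 𝔪`, one local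
  parameter given): `t` is a local parameter iff `t ∉ h62l_sq 𝔪 𝔰`.
* `h62l_exists_LP_mem` : if `Λ` is spanned over `A` by a subring `R`, the residue field of `𝔰` is
  that of `A`, and every element of `A` is a simple root modulo `𝔪_A` of an integer polynomial,
  then there is a local parameter in `R`.
* `h62l_exists_LP_both` : a common local parameter in `R` at two points `𝔰`, `𝔰'` with
  `R ∩ 𝔰 = R ∩ 𝔰'`.
-/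

set_option autoImplicit false

open Polynomial IsLocalRing

namespace Fermat.Agent.LGC

section LP

variable {Λ : Type*} [CommRing Λ]

/-- `t` is a local parameter at `𝔰` modulo `𝔪`: `t ∈ 𝔰` and `𝔰 = (t) + 𝔪` locally at `𝔰`. -/
def h62l_LP (𝔪 𝔰 : Ideal Λ) (t : Λ) : Prop :=
  t ∈ 𝔰 ∧ ∀ y ∈ 𝔰, ∃ s, s ∉ 𝔰 ∧ s * y ∈ Ideal.span {t} ⊔ 𝔪

/-- the symbolic square of `𝔰` modulo `𝔪`. -/
def h62l_sq (𝔪 𝔰 : Ideal Λ) [h𝔰 : 𝔰.IsPrime] : Ideal Λ where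
  carrier := {y | ∃ s, s ∉ 𝔰 ∧ s * y ∈ 𝔰 * 𝔰 ⊔ 𝔪}
  zero_mem' := ⟨1, (Ideal.ne_top_iff_one 𝔰).mp h𝔰.ne_top, by simp⟩
  add_mem' := by
    rintro a b ⟨s, hs, hsa⟩ ⟨s', hs', hsb⟩
    refine ⟨s * s', fun h => (h𝔰.mem_or_mem h).elim hs hs', ?_⟩
    have h1 : s * s' * (a + b) = s' * (s * a) + s * (s' * b) := by ring
    rw [h1]
    exact Ideal.add_mem _ (Ideal.mul_mem_left _ _ hsa) (Ideal.mul_mem_left _ _ hsb)
  smul_mem' := by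
    rintro c a ⟨s, hs, hsa⟩
    refine ⟨s, hs, ?_⟩
    have h1 : s * (c • a) = c * (s * a) := by rw [smul_eq_mul]; ring
    rw [h1]
    exact Ideal.mul_mem_left _ _ hsa

theorem h62l_mem_sq_iff (𝔪 𝔰 : Ideal Λ) [𝔰.IsPrime] (y : Λ) :
    y ∈ h62l_sq 𝔪 𝔰 ↔ ∃ s, s ∉ 𝔰 ∧ s * y ∈ 𝔰 * 𝔰 ⊔ 𝔪 := Iff.rfl

theorem h62l_le_sq (𝔪 𝔰 : Ideal Λ) [h𝔰 : 𝔰.IsPrime] : 𝔪 ≤ h62l_sq 𝔪 𝔰 := fun y hy =>
  ⟨1, (Ideal.ne_top_iff_one 𝔰).mp h𝔰.ne_top, by rw [one_mul]; exact Ideal.mem_sup_right hy⟩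

theorem h62l_mul_mem_sq (𝔪 𝔰 : Ideal Λ) [h𝔰 : 𝔰.IsPrime] {a b : Λ} (ha : a ∈ 𝔰) (hb : b ∈ 𝔰) :
    a * b ∈ h62l_sq 𝔪 𝔰 :=
  ⟨1, (Ideal.ne_top_iff_one 𝔰).mp h𝔰.ne_top, by
    rw [one_mul]; exact Ideal.mem_sup_left (Ideal.mul_mem_mul ha hb)⟩

theorem h62l_mem_sq_of_mul (𝔪 𝔰 : Ideal Λ) [h𝔰 : 𝔰.IsPrime] {d y : Λ} (hd : d ∉ 𝔰)
    (h : d * y ∈ h62l_sq 𝔪 𝔰) : y ∈ h62l_sq 𝔪 𝔰 := by
  obtain ⟨s, hs, hsy⟩ := h
  refine ⟨s * d, fun h => (h𝔰.mem_or_mem h).elim hs hd, ?_⟩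
  rw [mul_assoc]
  exact hsy

/-- elements of `𝔰 * 𝔰` are locally multiples of a local parameter `t` by elements of `𝔰`. -/
theorem h62l_sq_aux (𝔪 𝔰 : Ideal Λ) [h𝔰 : 𝔰.IsPrime] {t : Λ} (ht : h62l_LP 𝔪 𝔰 t) (q : Λ)
    (hq : q ∈ 𝔰 * 𝔰) : ∃ S, S ∉ 𝔰 ∧ ∃ c ∈ 𝔰, S * q - c * t ∈ 𝔪 := by
  induction hq using Submodule.mul_induction_on' with
  | mem_mul_mem a ha b hb =>
    obtain ⟨s, hs, hsa⟩ := ht.2 a ha
    obtain ⟨x, hx, m, hm, hsum⟩ := Submodule.mem_sup.mp hsa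
    obtain ⟨e, rfl⟩ := Ideal.mem_span_singleton'.mp hx
    refine ⟨s, hs, e * b, 𝔰.mul_mem_left _ hb, ?_⟩
    have h1 : s * (a * b) - e * b * t = m * b := by
      rw [← mul_assoc, ← hsum]; ring
    rw [h1]
    exact 𝔪.mul_mem_right _ hm
  | add x hx y hy ihx ihy =>
    obtain ⟨S₁, hS₁, c₁, hc₁, h₁⟩ := ihx
    obtain ⟨S₂, hS₂, c₂, hc₂, h₂⟩ := ihy
    refine ⟨S₁ * S₂, fun h => (h𝔰.mem_or_mem h).elim hS₁ hS₂, S₂ * c₁ + S₁ * c₂,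
      𝔰.add_mem (𝔰.mul_mem_left _ hc₁) (𝔰.mul_mem_left _ hc₂), ?_⟩
    have h1 : S₁ * S₂ * (x + y) - (S₂ * c₁ + S₁ * c₂) * t
        = S₂ * (S₁ * x - c₁ * t) + S₁ * (S₂ * y - c₂ * t) := by ring
    rw [h1]
    exact 𝔪.add_mem (𝔪.mul_mem_left _ h₁) (𝔪.mul_mem_left _ h₂)

/-- a local parameter is not in the symbolic square (if `𝔰 ≠ 𝔪`, `𝔪` prime). -/
theorem h62l_not_mem_sq_of_LP (𝔪 𝔰 : Ideal Λ) [h𝔪 : 𝔪.IsPrime] [h𝔰 : 𝔰.IsPrime] (h𝔪𝔰 : 𝔪 ≤ 𝔰)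
    (hne : ¬ 𝔰 ≤ 𝔪) {t : Λ} (ht : h62l_LP 𝔪 𝔰 t) : t ∉ h62l_sq 𝔪 𝔰 := by
  rintro ⟨s, hs, hst⟩
  obtain ⟨q, hq, m, hm, hsum⟩ := Submodule.mem_sup.mp hst
  obtain ⟨S, hS, c, hc, hSq⟩ := h62l_sq_aux 𝔪 𝔰 ht q hq
  -- `(S s - c) t ∈ 𝔪`
  have h1 : (S * s - c) * t ∈ 𝔪 := by
    have h2 : (S * s - c) * t = (S * q - c * t) + S * m := by
      have : s * t = q + m := hsum.symm
      calc (S * s - c) * t = S * (s * t) - c * t := by ring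
        _ = S * (q + m) - c * t := by rw [this]
        _ = (S * q - c * t) + S * m := by ring
    rw [h2]
    exact 𝔪.add_mem hSq (𝔪.mul_mem_left _ hm)
  have h3 : S * s - c ∉ 𝔰 := by
    intro h
    have h4 : S * s ∈ 𝔰 := by
      have := 𝔰.add_mem h hc
      simpa using this
    exact (h𝔰.mem_or_mem h4).elim hS hs
  have ht𝔪 : t ∈ 𝔪 := (h𝔪.mem_or_mem h1).resolve_left (fun h => h3 (h𝔪𝔰 h))
  apply hne
  intro y hy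
  obtain ⟨s', hs', hs'y⟩ := ht.2 y hy
  have h5 : Ideal.span {t} ⊔ 𝔪 ≤ 𝔪 :=
    sup_le ((Ideal.span_singleton_le_iff_mem 𝔪).mpr ht𝔪) le_rfl
  exact (h𝔪.mem_or_mem (h5 hs'y)).resolve_left (fun h => hs' (h𝔪𝔰 h))

/-- an element of `𝔰` outside the symbolic square is a local parameter (if there is one). -/
theorem h62l_LP_of_not_mem_sq (𝔪 𝔰 : Ideal Λ) [h𝔰 : 𝔰.IsPrime] {t₁ : Λ}
    (ht₁ : h62l_LP 𝔪 𝔰 t₁) {t : Λ} (ht : t ∈ 𝔰) (hsq : t ∉ h62l_sq 𝔪 𝔰) : h62l_LP 𝔪 𝔰 t := by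
  refine ⟨ht, ?_⟩
  obtain ⟨s, hs, hst⟩ := ht₁.2 t ht
  obtain ⟨x, hx, m, hm, hsum⟩ := Submodule.mem_sup.mp hst
  obtain ⟨e, rfl⟩ := Ideal.mem_span_singleton'.mp hx
  have he : e ∉ 𝔰 := by
    intro he
    apply hsq
    refine ⟨s, hs, ?_⟩
    rw [← hsum]
    exact Ideal.add_mem _ (Ideal.mem_sup_left (Ideal.mul_mem_mul he ht₁.1))
      (Ideal.mem_sup_right hm)
  intro y hy
  obtain ⟨s₁, hs₁, hs₁y⟩ := ht₁.2 y hy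
  obtain ⟨x₁, hx₁, m₁, hm₁, hsum₁⟩ := Submodule.mem_sup.mp hs₁y
  obtain ⟨e₁, rfl⟩ := Ideal.mem_span_singleton'.mp hx₁
  refine ⟨e * s₁, fun h => (h𝔰.mem_or_mem h).elim he hs₁, ?_⟩
  have h1 : e * s₁ * y = (e₁ * s) * t + (e * m₁ - e₁ * m) := by
    have h2 : s₁ * y = e₁ * t₁ + m₁ := hsum₁.symm
    have h3 : s * t = e * t₁ + m := hsum.symm
    calc e * s₁ * y = e * (s₁ * y) := by ring
      _ = e * (e₁ * t₁ + m₁) := by rw [h2]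
      _ = e₁ * (e * t₁ + m) + (e * m₁ - e₁ * m) := by ring
      _ = e₁ * (s * t) + (e * m₁ - e₁ * m) := by rw [h3]
      _ = (e₁ * s) * t + (e * m₁ - e₁ * m) := by ring
  rw [h1]
  exact Ideal.add_mem _ (Ideal.mem_sup_left (Ideal.mem_span_singleton'.mpr ⟨_, rfl⟩))
    (Ideal.mem_sup_right (𝔪.sub_mem (𝔪.mul_mem_left _ hm₁) (𝔪.mul_mem_left _ hm)))

end LP

section Rational

variable {A : Type*} [CommRing A] [IsLocalRing A] {Λ : Type*} [CommRing Λ] [Algebra A Λ]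

/-- a constant lying in a proper ideal containing nothing but non-units is in `𝔪_A`. -/
theorem h62l_const_mem (𝔰 : Ideal Λ) (h𝔰 : 𝔰 ≠ ⊤) (a : A) (ha : algebraMap A Λ a ∈ 𝔰) :
    a ∈ maximalIdeal A := by
  by_contra h
  have hu : IsUnit a := by
    by_contra h'
    exact h ((IsLocalRing.mem_maximalIdeal a).mpr h')
  exact h𝔰 (Ideal.eq_top_of_isUnit_mem _ ha (hu.map (algebraMap A Λ)))

/-- the value of an integer polynomial at an element of a subring lies in the subring. -/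
theorem h62l_aeval_mem (R : Subring Λ) {r : Λ} (hr : r ∈ R) (m : ℤ[X]) : aeval r m ∈ R := by
  have h := Polynomial.aeval_algHom_apply ((R.subtype : R →+* Λ).toIntAlgHom) ⟨r, hr⟩ m
  have h1 : ((R.subtype : R →+* Λ).toIntAlgHom) ⟨r, hr⟩ = r := rfl
  rw [h1] at h
  rw [h]
  exact (aeval (⟨r, hr⟩ : R) m).2

omit [IsLocalRing A] in
/-- Taylor expansion of an integer polynomial at a constant. -/
theorem h62l_taylor (a₀ : A) (r : Λ) (m : ℤ[X]) :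
    ∃ k : Λ, aeval r m = algebraMap A Λ (aeval a₀ m)
      + algebraMap A Λ (aeval a₀ (derivative m)) * (r - algebraMap A Λ a₀)
      + k * (r - algebraMap A Λ a₀) ^ 2 := by
  obtain ⟨k, hk⟩ := Polynomial.binomExpansion (m.map (algebraMap ℤ Λ)) (algebraMap A Λ a₀)
    (r - algebraMap A Λ a₀)
  refine ⟨k, ?_⟩
  have h1 : algebraMap A Λ a₀ + (r - algebraMap A Λ a₀) = r := by ring
  rw [h1, Polynomial.eval_map_algebraMap, Polynomial.eval_map_algebraMap,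
    Polynomial.derivative_map, Polynomial.eval_map_algebraMap,
    Polynomial.aeval_algebraMap_apply, Polynomial.aeval_algebraMap_apply] at hk
  exact hk

/-- **a local parameter in the subring `R`.** -/
theorem h62l_exists_LP_mem (𝔪 𝔰 : Ideal Λ) [h𝔪 : 𝔪.IsPrime] [h𝔰 : 𝔰.IsPrime] (h𝔪𝔰 : 𝔪 ≤ 𝔰)
    (hne : ¬ 𝔰 ≤ 𝔪) (h𝔪A : ∀ a ∈ maximalIdeal A, algebraMap A Λ a ∈ 𝔪)
    (R : Subring Λ) (hRspan : ∀ x : Λ, x ∈ Submodule.span A (R : Set Λ))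
    (hres : ∀ x : Λ, ∃ a : A, x - algebraMap A Λ a ∈ 𝔰)
    (hsep : ∀ a : A, ∃ m : ℤ[X], aeval a m ∈ maximalIdeal A ∧
      aeval a (derivative m) ∉ maximalIdeal A)
    {t₁ : Λ} (ht₁ : h62l_LP 𝔪 𝔰 t₁) : ∃ u ∈ R, h62l_LP 𝔪 𝔰 u := by
  have key : ∀ x : Λ, x ∈ Submodule.span A (R : Set Λ) → ∀ a₀ : A,
      x - algebraMap A Λ a₀ ∈ 𝔰 → x - algebraMap A Λ a₀ ∉ h62l_sq 𝔪 𝔰 →
      ∃ u ∈ R, u ∈ 𝔰 ∧ u ∉ h62l_sq 𝔪 𝔰 := by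
    intro x hx
    induction hx using Submodule.span_induction with
    | mem r hr =>
      intro a₀ hy hysq
      obtain ⟨m, hm1, hm2⟩ := hsep a₀
      obtain ⟨k, hk⟩ := h62l_taylor a₀ r m
      have hd : algebraMap A Λ (aeval a₀ (derivative m)) ∉ 𝔰 := fun h =>
        hm2 (h62l_const_mem 𝔰 h𝔰.ne_top _ h)
      refine ⟨aeval r m, h62l_aeval_mem R hr m, ?_, ?_⟩
      · rw [hk]
        refine 𝔰.add_mem (𝔰.add_mem (h𝔪𝔰 (h𝔪A _ hm1)) (𝔰.mul_mem_left _ hy)) ?_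
        exact 𝔰.mul_mem_left _ (𝔰.pow_mem_of_mem hy 2 (by norm_num))
      · intro hu
        apply hysq
        apply h62l_mem_sq_of_mul 𝔪 𝔰 hd
        have h1 : algebraMap A Λ (aeval a₀ (derivative m)) * (r - algebraMap A Λ a₀)
            = aeval r m - algebraMap A Λ (aeval a₀ m)
              - k * ((r - algebraMap A Λ a₀) * (r - algebraMap A Λ a₀)) := by
          rw [hk]; ring
        rw [h1]
        exact Ideal.sub_mem _ (Ideal.sub_mem _ hu (h62l_le_sq 𝔪 𝔰 (h𝔪A _ hm1)))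
          (Ideal.mul_mem_left _ _ (h62l_mul_mem_sq 𝔪 𝔰 hy hy))
    | zero =>
      intro a₀ hy hysq
      exfalso
      apply hysq
      have h1 : algebraMap A Λ a₀ ∈ 𝔰 := by
        have := 𝔰.neg_mem hy
        simpa using this
      have h2 := h𝔪A _ (h62l_const_mem 𝔰 h𝔰.ne_top a₀ h1)
      have h3 : (0 : Λ) - algebraMap A Λ a₀ ∈ 𝔪 := by
        rw [zero_sub]; exact 𝔪.neg_mem h2
      exact h62l_le_sq 𝔪 𝔰 h3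
    | add x y _ _ ihx ihy =>
      intro a₀ hxy hxysq
      obtain ⟨a₁, ha₁⟩ := hres x
      have h2 : y - algebraMap A Λ (a₀ - a₁) ∈ 𝔰 := by
        have h3 : y - algebraMap A Λ (a₀ - a₁)
            = (x + y - algebraMap A Λ a₀) - (x - algebraMap A Λ a₁) := by
          rw [map_sub]; ring
        rw [h3]
        exact 𝔰.sub_mem hxy ha₁
      by_cases hx1 : x - algebraMap A Λ a₁ ∈ h62l_sq 𝔪 𝔰
      · by_cases hy1 : y - algebraMap A Λ (a₀ - a₁) ∈ h62l_sq 𝔪 𝔰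
        · exfalso
          apply hxysq
          have h3 : x + y - algebraMap A Λ a₀
              = (x - algebraMap A Λ a₁) + (y - algebraMap A Λ (a₀ - a₁)) := by
            rw [map_sub]; ring
          rw [h3]
          exact Ideal.add_mem _ hx1 hy1
        · exact ihy _ h2 hy1
      · exact ihx _ ha₁ hx1
    | smul a x _ ih =>
      intro a₀ hy hysq
      obtain ⟨e, he⟩ := hres x
      have h1 : algebraMap A Λ (a * e - a₀) ∈ 𝔰 := by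
        have h2 : algebraMap A Λ (a * e - a₀)
            = (a • x - algebraMap A Λ a₀) - algebraMap A Λ a * (x - algebraMap A Λ e) := by
          rw [map_sub, map_mul, Algebra.smul_def]; ring
        rw [h2]
        exact 𝔰.sub_mem hy (𝔰.mul_mem_left _ he)
      have h3 := h𝔪A _ (h62l_const_mem 𝔰 h𝔰.ne_top _ h1)
      apply ih e he
      intro hsq
      apply hysq
      have h4 : a • x - algebraMap A Λ a₀
          = algebraMap A Λ a * (x - algebraMap A Λ e) + algebraMap A Λ (a * e - a₀) := by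
        rw [map_sub, map_mul, Algebra.smul_def]; ring
      rw [h4]
      exact Ideal.add_mem _ (Ideal.mul_mem_left _ _ hsq) (h62l_le_sq 𝔪 𝔰 h3)
  have ht₁sq := h62l_not_mem_sq_of_LP 𝔪 𝔰 h𝔪𝔰 hne ht₁
  obtain ⟨u, huR, hu𝔰, husq⟩ := key t₁ (hRspan t₁) 0 (by simpa using ht₁.1)
    (by simpa using ht₁sq)
  exact ⟨u, huR, h62l_LP_of_not_mem_sq 𝔪 𝔰 ht₁ hu𝔰 husq⟩

/-- **a common local parameter in `R` at two points** with `R ∩ 𝔰 = R ∩ 𝔰'`. -/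
theorem h62l_exists_LP_both (𝔪 𝔰 𝔰' : Ideal Λ) [h𝔪 : 𝔪.IsPrime] [h𝔰 : 𝔰.IsPrime]
    [h𝔰' : 𝔰'.IsPrime] (h𝔪𝔰 : 𝔪 ≤ 𝔰) (h𝔪𝔰' : 𝔪 ≤ 𝔰') (hne : ¬ 𝔰 ≤ 𝔪) (hne' : ¬ 𝔰' ≤ 𝔪)
    (h𝔪A : ∀ a ∈ maximalIdeal A, algebraMap A Λ a ∈ 𝔪)
    (R : Subring Λ) (hRspan : ∀ x : Λ, x ∈ Submodule.span A (R : Set Λ))
    (hres : ∀ x : Λ, ∃ a : A, x - algebraMap A Λ a ∈ 𝔰)
    (hres' : ∀ x : Λ, ∃ a : A, x - algebraMap A Λ a ∈ 𝔰')
    (hsep : ∀ a : A, ∃ m : ℤ[X], aeval a m ∈ maximalIdeal A ∧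
      aeval a (derivative m) ∉ maximalIdeal A)
    (hR𝔰 : ∀ x ∈ R, x ∈ 𝔰 ↔ x ∈ 𝔰')
    {t₁ t₁' : Λ} (ht₁ : h62l_LP 𝔪 𝔰 t₁) (ht₁' : h62l_LP 𝔪 𝔰' t₁') :
    ∃ u ∈ R, h62l_LP 𝔪 𝔰 u ∧ h62l_LP 𝔪 𝔰' u := by
  obtain ⟨u, huR, hu⟩ := h62l_exists_LP_mem 𝔪 𝔰 h𝔪𝔰 hne h𝔪A R hRspan hres hsep ht₁
  obtain ⟨u', hu'R, hu'⟩ := h62l_exists_LP_mem 𝔪 𝔰' h𝔪𝔰' hne' h𝔪A R hRspan hres' hsep ht₁'
  have hu𝔰' : u ∈ 𝔰' := (hR𝔰 u huR).mp hu.1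
  have hu'𝔰 : u' ∈ 𝔰 := (hR𝔰 u' hu'R).mpr hu'.1
  by_cases h1 : u ∈ h62l_sq 𝔪 𝔰'
  · by_cases h2 : u' ∈ h62l_sq 𝔪 𝔰
    · refine ⟨u + u', R.add_mem huR hu'R, ?_, ?_⟩
      · apply h62l_LP_of_not_mem_sq 𝔪 𝔰 hu (𝔰.add_mem hu.1 hu'𝔰)
        intro h
        apply h62l_not_mem_sq_of_LP 𝔪 𝔰 h𝔪𝔰 hne hu
        have := Ideal.sub_mem _ h h2
        simpa using this
      · apply h62l_LP_of_not_mem_sq 𝔪 𝔰' hu' (𝔰'.add_mem hu𝔰' hu'.1)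
        intro h
        apply h62l_not_mem_sq_of_LP 𝔪 𝔰' h𝔪𝔰' hne' hu'
        have := Ideal.sub_mem _ h h1
        simpa using this
    · exact ⟨u', hu'R, h62l_LP_of_not_mem_sq 𝔪 𝔰 hu hu'𝔰 h2, hu'⟩
  · exact ⟨u, huR, hu, h62l_LP_of_not_mem_sq 𝔪 𝔰' hu' hu𝔰' h1⟩

end Rational

end Fermat.Agent.LGC
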