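import Mathlib
import Fermat.Agent.LGC.H62LP

/-!
# W3-LGC: linear independence of `1, u, …, u ^ (ℓ - 1)` over the `ℓ`-th powers (helper62)

`Λ ⧸ 𝔪` a Dedekind domain, `𝔰 ⊇ 𝔪` a maximal ideal, `𝔰 ≠ 𝔪`, `u ∈ 𝔰` not in the symbolic
square of `𝔰` (e.g. a local parameter).  Then `∑_{i < ℓ} g_i ^ ℓ u ^ i ∈ 𝔪` implies `g_i ∈ 𝔪` for
all `i < ℓ` (`h62l_LI_of_dedekind`): the `𝔰`-adic valuations of the nonzero terms are pairwise
distinct modulo `ℓ`.
-/

set_option autoImplicit false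

open Polynomial IsLocalRing WithZero

namespace Fermat.Agent.LGC

/-- a finite sum of elements whose valuations are pairwise distinct (on the nonzero terms)
vanishes only if all terms vanish. -/
theorem h62l_sum_eq_zero {D : Type*} [CommRing D] (ν : Valuation D ℤᵐ⁰) (s : Finset ℕ)
    (T : ℕ → D) (hsum : ∑ i ∈ s, T i = 0)
    (hdist : ∀ i ∈ s, ∀ j ∈ s, i ≠ j → ν (T i) ≠ 0 → ν (T i) ≠ ν (T j)) :
    ∀ i ∈ s, ν (T i) = 0 := by
  classical
  by_contra hcon
  push Not at hcon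
  obtain ⟨i₀, hi₀, hi₀ne⟩ := hcon
  obtain ⟨j, hj, hjmax⟩ := Finset.exists_max_image s (fun i => ν (T i)) ⟨i₀, hi₀⟩
  have hjne : ν (T j) ≠ 0 := by
    intro h
    have := hjmax i₀ hi₀
    rw [h] at this
    exact hi₀ne (le_antisymm this zero_le)
  have h1 : ν (∑ i ∈ s, T i) = ν (T j) := by
    apply Valuation.map_sum_eq_of_lt ν hj
    intro i hi
    rw [Finset.mem_sdiff, Finset.mem_singleton] at hi
    refine lt_of_le_of_ne (hjmax i hi.1) ?_
    intro heq
    exact hdist j hj i hi.1 (fun h => hi.2 h.symm) hjne heq.symm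
  rw [hsum, map_zero] at h1
  exact hjne h1.symm

theorem h62l_LI_of_dedekind {Λ : Type*} [CommRing Λ] (𝔪 𝔰 : Ideal Λ)
    [IsDedekindDomain (Λ ⧸ 𝔪)] [h𝔰 : 𝔰.IsMaximal] (h𝔪𝔰 : 𝔪 ≤ 𝔰) (hne : ¬ 𝔰 ≤ 𝔪)
    (u : Λ) (hu : u ∈ 𝔰) (husq : u ∉ h62l_sq 𝔪 𝔰) (ℓ : ℕ) (g : ℕ → Λ)
    (h : ∑ i ∈ Finset.range ℓ, g i ^ ℓ * u ^ i ∈ 𝔪) : ∀ i < ℓ, g i ∈ 𝔪 := by
  classical
  rcases Nat.eq_zero_or_pos ℓ with hℓ | hℓ
  · intro i hi
    omega
  set π := Ideal.Quotient.mk 𝔪 with hπ
  have hπs : Function.Surjective π := Ideal.Quotient.mk_surjective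
  set P : Ideal (Λ ⧸ 𝔪) := 𝔰.map π with hP
  have hmem_iff : ∀ x : Λ, π x ∈ P ↔ x ∈ 𝔰 := by
    intro x
    rw [hP, Ideal.mem_map_iff_of_surjective π hπs]
    constructor
    · rintro ⟨y, hy, hxy⟩
      have h1 : x - y ∈ 𝔪 := by
        rw [← Ideal.Quotient.eq_zero_iff_mem, map_sub, ← hπ, hxy, sub_self]
      have := 𝔰.add_mem (h𝔪𝔰 h1) hy
      simpa using this
    · intro hx
      exact ⟨x, hx, rfl⟩
  have hPmax : P.IsMaximal := by
    rcases Ideal.map_eq_top_or_isMaximal_of_surjective π hπs h𝔰 with h1 | h1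
    · exfalso
      have h2 : π 1 ∈ P := by rw [hP, h1]; trivial
      exact h𝔰.ne_top ((Ideal.eq_top_iff_one _).mpr ((hmem_iff 1).mp h2))
    · exact h1
  have hP0 : P ≠ ⊥ := by
    intro h0
    apply hne
    intro y hy
    have h1 : π y ∈ P := (hmem_iff y).mpr hy
    rw [h0, Ideal.mem_bot] at h1
    exact Ideal.Quotient.eq_zero_iff_mem.mp h1
  let v : IsDedekindDomain.HeightOneSpectrum (Λ ⧸ 𝔪) := ⟨P, hPmax.isPrime, hP0⟩
  set ν := v.intValuation with hν
  -- `ν (π u) = exp (-1)`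
  have hνu : ν (π u) = exp (-1 : ℤ) := by
    have h1 : ν (π u) ≤ exp (-((1 : ℕ) : ℤ)) := by
      rw [hν, IsDedekindDomain.HeightOneSpectrum.intValuation_le_pow_iff_mem, pow_one]
      exact (hmem_iff u).mpr hu
    have h2 : ¬ ν (π u) ≤ exp (-((2 : ℕ) : ℤ)) := by
      rw [hν, IsDedekindDomain.HeightOneSpectrum.intValuation_le_pow_iff_mem]
      intro h3
      have h4 : π u ∈ (𝔰 ^ 2).map π := by
        rw [Ideal.map_pow]
        exact h3
      obtain ⟨q, hq, hqu⟩ := (Ideal.mem_map_iff_of_surjective π hπs).mp h4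
      apply husq
      refine ⟨1, (Ideal.ne_top_iff_one 𝔰).mp h𝔰.ne_top, ?_⟩
      rw [one_mul]
      have h5 : u - q ∈ 𝔪 := by
        rw [← Ideal.Quotient.eq_zero_iff_mem, map_sub, ← hπ, hqu, sub_self]
      have h6 : u = q + (u - q) := by ring
      rw [h6]
      rw [pow_two] at hq
      exact Ideal.add_mem _ (Ideal.mem_sup_left hq) (Ideal.mem_sup_right h5)
    have hx0 : ν (π u) ≠ 0 := by
      intro h0
      apply h2
      rw [h0]
      exact zero_le
    have h3 : log (ν (π u)) ≤ -1 := by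
      have : exp (log (ν (π u))) ≤ exp (-((1 : ℕ) : ℤ)) := by rwa [exp_log hx0]
      have := exp_le_exp.mp this
      simpa using this
    have h4 : -2 < log (ν (π u)) := by
      have : ¬ exp (log (ν (π u))) ≤ exp (-((2 : ℕ) : ℤ)) := by rwa [exp_log hx0]
      rw [exp_le_exp] at this
      push Not at this
      simpa using this
    have h5 : log (ν (π u)) = -1 := by omega
    rw [← exp_log hx0, h5]
  -- the terms
  set T : ℕ → Λ ⧸ 𝔪 := fun i => π (g i) ^ ℓ * π u ^ i with hT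
  have hsum : ∑ i ∈ Finset.range ℓ, T i = 0 := by
    have h1 : π (∑ i ∈ Finset.range ℓ, g i ^ ℓ * u ^ i) = 0 :=
      Ideal.Quotient.eq_zero_iff_mem.mpr h
    rw [map_sum] at h1
    rw [← h1]
    apply Finset.sum_congr rfl
    intro i _
    rw [hT, map_mul, map_pow, map_pow]
  have hval : ∀ i, ν (T i) ≠ 0 → ν (T i) = exp ((ℓ : ℤ) * log (ν (π (g i))) - i) := by
    intro i hi
    have h1 : ν (T i) = ν (π (g i)) ^ ℓ * exp (-1 : ℤ) ^ i := by
      rw [hT]
      simp only [map_mul, map_pow, hνu]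
    have h2 : ν (π (g i)) ≠ 0 := by
      intro h0
      apply hi
      rw [h1, h0, zero_pow hℓ.ne', zero_mul]
    rw [h1]
    conv_lhs => rw [← exp_log h2]
    rw [← exp_nsmul, ← exp_nsmul, ← exp_add]
    congr 1
    simp only [nsmul_eq_mul]
    ring
  have hall := h62l_sum_eq_zero ν (Finset.range ℓ) T hsum (by
    intro i hi j hj hij hine heq
    have hjne : ν (T j) ≠ 0 := by rw [← heq]; exact hine
    rw [hval i hine, hval j hjne] at heq
    have h1 := exp_injective heq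
    rw [Finset.mem_range] at hi hj
    have h2 : (ℓ : ℤ) ∣ (i : ℤ) - j := by
      refine ⟨log (ν (π (g i))) - log (ν (π (g j))), ?_⟩
      linarith
    have h3 : ((i : ℤ) - j) = 0 := by
      apply Int.eq_zero_of_abs_lt_dvd h2
      rw [abs_lt]
      constructor <;> omega
    apply hij
    omega)
  intro i hi
  have h1 := hall i (Finset.mem_range.mpr hi)
  have h2 : T i = 0 := by
    by_contra h3
    exact (IsDedekindDomain.HeightOneSpectrum.intValuation_ne_zero v _ h3) h1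
  rw [hT] at h2
  simp only at h2
  have hu0 : π u ≠ 0 := by
    intro h0
    rw [h0, map_zero] at hνu
    exact exp_ne_zero hνu.symm
  have h3 : π (g i) ^ ℓ = 0 := by
    rcases mul_eq_zero.mp h2 with h4 | h4
    · exact h4
    · exact absurd h4 (pow_ne_zero i hu0)
  exact Ideal.Quotient.eq_zero_iff_mem.mp ((pow_eq_zero_iff hℓ.ne').mp h3)

end Fermat.Agent.LGC
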