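import Mathlib
import Fermat.Agent.Red.LocalFact
import Fermat.Agent.Red.H3LocalUnif
import Fermat.Agent.LGC.NodeFinal
import Fermat.Agent.LGC.H62LP
import Fermat.Agent.LGC.H62LIDed

/-!
# W3-LGC: the local structure of a two-component special fibre, abstract form (helper62)

`A` a local ring (valuation ring of `ℚ̄` over `ℓ`), `B ⊆ F` the chart of level `M ℓ`,
`Λ` the chart of level `M`, `α β : Λ →ₐ[A] B` the two degeneracy maps, `P∞`, `P₀` the two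
components of the special fibre of `B`, `R ⊆ Λ` the subring of functions with rational
`q`-expansion.

`h62l_local` : from
* `H26Chart B V v`, the two Gauss rings `W∞ ∩ W₀ ⊆ V`, reducedness `P∞ ⊓ P₀ ≤ 𝔪_A B`;
* `α⁻¹ P∞ = α⁻¹ P₀ = β⁻¹ P₀ = 𝔪_A Λ`, `B = α Λ + P∞ = β Λ + P₀`;
* `Λ = A · R`; for `u ∈ R`: `β u ≡ (α u) ^ ℓ` mod `P∞`, `α u ≡ (β u) ^ ℓ` mod `P₀` and
  Kronecker's congruence modulo `ℓ` for the characteristic polynomial of `β u` over `α Λ`;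
* `Λ ⧸ 𝔪_A Λ` is a Dedekind domain, not a field, with residue fields `A ⧸ 𝔪_A`, which is perfect
  and algebraic over `𝔽_ℓ`;
* `F_{Mℓ} / F_M` is unramified at the places centered at the crossing points (`hpl`),

every closed point of the special fibre of `B` is smooth or a node `x y = ℓ c` (the statement
`IfaceSSLocal` of `LGC/Skeleton.lean`).
-/

set_option autoImplicit false
set_option linter.style.haveILetI false

open Polynomial WithZero IsLocalRing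

namespace Fermat.Agent.LGC

open Fermat.Agent.Red

section Frob

variable {A : Type*} [CommRing A] [IsLocalRing A] {B : Type*} [CommRing B] [Algebra A B]
  {Λ : Type*} [CommRing Λ] [Algebra A Λ] (α β : Λ →ₐ[A] B)

/-- `α x ≡ (β x'') ^ ℓ` modulo `P₀`: every element of `α Λ` is an `ℓ`-th power of an element
of `β Λ` modulo `P₀`. -/
theorem h62l_frob (P0 : Ideal B) [hP0 : P0.IsPrime]
    (hmP0 : (maximalIdeal A).map (algebraMap A B) ≤ P0)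
    (R : Subring Λ) (hRspan : ∀ x : Λ, x ∈ Submodule.span A (R : Set Λ))
    (ℓ : ℕ) (hℓ : ℓ.Prime) (hℓP0 : (ℓ : B) ∈ P0)
    (hRβ : ∀ u ∈ R, α u - (β u) ^ ℓ ∈ P0)
    (hperf : ∀ a : A, ∃ a' : A, a - a' ^ ℓ ∈ maximalIdeal A) (x : Λ) :
    ∃ x' : Λ, α x - (β x') ^ ℓ ∈ P0 := by
  have : Fact ℓ.Prime := ⟨hℓ⟩
  have : Nontrivial (B ⧸ P0) := Ideal.Quotient.nontrivial_iff.mpr hP0.ne_top
  have : CharP (B ⧸ P0) ℓ := by
    rw [CharP.charP_iff_prime_eq_zero hℓ]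
    have := Ideal.Quotient.eq_zero_iff_mem.mpr hℓP0
    simpa using this
  set π := Ideal.Quotient.mk P0 with hπ
  have key : ∀ x : Λ, x ∈ Submodule.span A (R : Set Λ) → ∃ x' : Λ, π (α x) = π (β x') ^ ℓ := by
    intro x hx
    induction hx using Submodule.span_induction with
    | mem u hu =>
      refine ⟨u, ?_⟩
      have := Ideal.Quotient.eq_zero_iff_mem.mpr (hRβ u hu)
      rw [map_sub, sub_eq_zero, map_pow] at this
      exact this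
    | zero => exact ⟨0, by simp [zero_pow hℓ.ne_zero]⟩
    | add x y _ _ ihx ihy =>
      obtain ⟨x', hx'⟩ := ihx
      obtain ⟨y', hy'⟩ := ihy
      refine ⟨x' + y', ?_⟩
      rw [map_add, map_add, hx', hy', map_add, map_add, add_pow_char]
    | smul a x _ ih =>
      obtain ⟨x', hx'⟩ := ih
      obtain ⟨a', ha'⟩ := hperf a
      refine ⟨a' • x', ?_⟩
      have h1 : π (algebraMap A B a) = π (algebraMap A B a') ^ ℓ := by
        have h2 : algebraMap A B a - algebraMap A B a' ^ ℓ ∈ P0 := by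
          rw [← map_pow, ← map_sub]
          exact hmP0 (Ideal.mem_map_of_mem _ ha')
        have := Ideal.Quotient.eq_zero_iff_mem.mpr h2
        rw [map_sub, sub_eq_zero, map_pow] at this
        exact this
      have h3 : α (a • x) = algebraMap A B a * α x := by
        rw [map_smul, Algebra.smul_def]
      have h4 : β (a' • x') = algebraMap A B a' * β x' := by
        rw [map_smul, Algebra.smul_def]
      rw [h3, h4, map_mul, map_mul, hx', h1, mul_pow]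
  obtain ⟨x', hx'⟩ := key x (hRspan x)
  refine ⟨x', ?_⟩
  rw [← Ideal.Quotient.eq_zero_iff_mem, map_sub, map_pow, sub_eq_zero]
  exact hx'

omit [IsLocalRing A] in
/-- `(β y) ^ ℓ ≡ α x` modulo `P₀` for some `x`. -/
theorem h62l_frob' (P0 : Ideal B) [hP0 : P0.IsPrime]
    (R : Subring Λ) (hRspan : ∀ x : Λ, x ∈ Submodule.span A (R : Set Λ))
    (ℓ : ℕ) (hℓ : ℓ.Prime) (hℓP0 : (ℓ : B) ∈ P0)
    (hRβ : ∀ u ∈ R, α u - (β u) ^ ℓ ∈ P0) (y : Λ) :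
    ∃ x : Λ, α x - (β y) ^ ℓ ∈ P0 := by
  have : Fact ℓ.Prime := ⟨hℓ⟩
  have : Nontrivial (B ⧸ P0) := Ideal.Quotient.nontrivial_iff.mpr hP0.ne_top
  have : CharP (B ⧸ P0) ℓ := by
    rw [CharP.charP_iff_prime_eq_zero hℓ]
    have := Ideal.Quotient.eq_zero_iff_mem.mpr hℓP0
    simpa using this
  set π := Ideal.Quotient.mk P0 with hπ
  have key : ∀ y : Λ, y ∈ Submodule.span A (R : Set Λ) → ∃ x : Λ, π (α x) = π (β y) ^ ℓ := by
    intro y hy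
    induction hy using Submodule.span_induction with
    | mem u hu =>
      refine ⟨u, ?_⟩
      have := Ideal.Quotient.eq_zero_iff_mem.mpr (hRβ u hu)
      rw [map_sub, sub_eq_zero, map_pow] at this
      exact this
    | zero => exact ⟨0, by simp [zero_pow hℓ.ne_zero]⟩
    | add x y _ _ ihx ihy =>
      obtain ⟨x', hx'⟩ := ihx
      obtain ⟨y', hy'⟩ := ihy
      refine ⟨x' + y', ?_⟩
      rw [map_add, map_add, hx', hy', map_add, map_add, add_pow_char]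
    | smul a y _ ih =>
      obtain ⟨x, hx⟩ := ih
      refine ⟨a ^ ℓ • x, ?_⟩
      have h3 : α (a ^ ℓ • x) = algebraMap A B a ^ ℓ * α x := by
        rw [map_smul, Algebra.smul_def, map_pow]
      have h4 : β (a • y) = algebraMap A B a * β y := by
        rw [map_smul, Algebra.smul_def]
      rw [h3, h4, map_mul, map_mul, hx, mul_pow, map_pow]
  obtain ⟨x, hx⟩ := key y (hRspan y)
  refine ⟨x, ?_⟩
  rw [← Ideal.Quotient.eq_zero_iff_mem, map_sub, map_pow, sub_eq_zero]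
  exact hx

end Frob

section Pieces

variable {A : Type*} [CommRing A] [IsLocalRing A] {B : Type*} [CommRing B] [Algebra A B]
  {Λ : Type*} [CommRing Λ] [Algebra A Λ]

omit [IsLocalRing A] [Algebra A B] [Algebra A Λ] in
/-- the contraction of a maximal ideal along a map which is surjective modulo a smaller ideal is
maximal. -/
theorem h62l_comap_isMaximal (φ : Λ →+* B) (𝔫 P : Ideal B) [h𝔫 : 𝔫.IsMaximal] (hP : P ≤ 𝔫)
    (hsurj : ∀ b : B, ∃ x : Λ, b - φ x ∈ P) : (𝔫.comap φ).IsMaximal := by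
  rw [Ideal.isMaximal_iff]
  refine ⟨fun h => ?_, fun J x hle hx hxJ => ?_⟩
  · rw [Ideal.mem_comap, map_one] at h
    exact h𝔫.ne_top ((Ideal.eq_top_iff_one _).mpr h)
  · have hφx : φ x ∉ 𝔫 := fun h => hx (Ideal.mem_comap.mpr h)
    obtain ⟨b, c, hc, hbc⟩ := h𝔫.exists_inv hφx
    obtain ⟨y, hy⟩ := hsurj b
    have h1 : 1 - y * x ∈ 𝔫.comap φ := by
      rw [Ideal.mem_comap, map_sub, map_one, map_mul]
      have h2 : 1 - φ y * φ x = (b - φ y) * φ x + c := by rw [← hbc]; ring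
      rw [h2]
      exact 𝔫.add_mem (𝔫.mul_mem_right _ (hP hy)) hc
    have h3 : (1 : Λ) = (1 - y * x) + y * x := by ring
    rw [h3]
    exact J.add_mem (hle h1) (J.mul_mem_left _ hxJ)

omit [IsLocalRing A] in
/-- the image of `𝔪_A Λ` lies in `𝔪_A B`. -/
theorem h62l_map_mem (I : Ideal A) (φ : Λ →ₐ[A] B) {m : Λ}
    (hm : m ∈ I.map (algebraMap A Λ)) : φ m ∈ I.map (algebraMap A B) := by
  have h1 : φ m ∈ (I.map (algebraMap A Λ)).map (φ : Λ →+* B) := Ideal.mem_map_of_mem _ hm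
  rw [Ideal.map_map] at h1
  have h2 : (φ : Λ →+* B).comp (algebraMap A Λ) = algebraMap A B := φ.comp_algebraMap
  rw [h2] at h1
  exact h1

/-- **the smooth branch**: a closed point lying on one component only. -/
theorem h62l_smooth (φ : Λ →ₐ[A] B) (𝔫 P P' : Ideal B) [h𝔫 : 𝔫.IsPrime] (hP' : ¬ P' ≤ 𝔫)
    (hSF : P ⊓ P' ≤ (maximalIdeal A).map (algebraMap A B))
    (hsurj : ∀ b : B, ∃ x : Λ, b - φ x ∈ P) (hP𝔫 : P ≤ 𝔫) (t₁ : Λ)
    (hLP : h62l_LP ((maximalIdeal A).map (algebraMap A Λ)) (𝔫.comap (φ : Λ →+* B)) t₁) :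
    ∃ t' ∈ 𝔫, ∀ z ∈ 𝔫, ∃ s, s ∉ 𝔫 ∧
      s * z ∈ Ideal.span {t'} ⊔ (maximalIdeal A).map (algebraMap A B) := by
  obtain ⟨e, heP', he𝔫⟩ := SetLike.not_le_iff_exists.mp hP'
  refine ⟨φ t₁, hLP.1, ?_⟩
  intro z hz
  obtain ⟨x, hx⟩ := hsurj z
  have hx𝔰 : x ∈ 𝔫.comap (φ : Λ →+* B) := by
    rw [Ideal.mem_comap]
    have h1 : φ x = z - (z - φ x) := by ring
    show φ x ∈ 𝔫
    rw [h1]
    exact 𝔫.sub_mem hz (hP𝔫 hx)
  obtain ⟨s₀, hs₀, hs₀x⟩ := hLP.2 x hx𝔰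
  obtain ⟨q, hq, m, hm, hsum⟩ := Submodule.mem_sup.mp hs₀x
  obtain ⟨c, rfl⟩ := Ideal.mem_span_singleton'.mp hq
  refine ⟨φ s₀ * e, fun h => (h𝔫.mem_or_mem h).elim hs₀ he𝔫, ?_⟩
  have h1 : φ s₀ * e * z = (e * φ c) * φ t₁ + (e * φ m + φ s₀ * (e * (z - φ x))) := by
    have h2 : φ (s₀ * x) = φ (c * t₁ + m) := by rw [hsum]
    rw [map_mul, map_add, map_mul] at h2
    have h3 : φ s₀ * e * z = e * (φ s₀ * φ x) + φ s₀ * (e * (z - φ x)) := by ring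
    rw [h3, h2]
    ring
  rw [h1]
  refine Ideal.add_mem _ (Ideal.mem_sup_left (Ideal.mem_span_singleton'.mpr ⟨_, rfl⟩))
    (Ideal.mem_sup_right ?_)
  refine Ideal.add_mem _ (Ideal.mul_mem_left _ _ (h62l_map_mem _ φ hm)) (Ideal.mul_mem_left _ _ ?_)
  exact hSF ⟨P.mul_mem_left _ hx, P'.mul_mem_right _ heP'⟩

omit [IsLocalRing A] [Algebra A B] [Algebra A Λ] in
/-- **`𝔫` is the only maximal ideal over `α⁻¹ 𝔫`** at a crossing point. -/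
theorem h62l_hU (α β : Λ →+* B) (𝔫 Pinf P0 : Ideal B) [h𝔫 : 𝔫.IsMaximal]
    (hPinf𝔫 : Pinf ≤ 𝔫) (hP0𝔫 : P0 ≤ 𝔫)
    (hJ : Pinf ⊓ P0 ≤ (𝔫.comap α).map α)
    (hsurjinf : ∀ b : B, ∃ x : Λ, b - α x ∈ Pinf)
    (hsurj0 : ∀ b : B, ∃ x : Λ, b - β x ∈ P0)
    (ℓ : ℕ) (hℓ : 0 < ℓ) (hfrob' : ∀ y : Λ, ∃ x : Λ, α x - (β y) ^ ℓ ∈ P0) :
    ∀ s : B, s ∉ 𝔫 → ∃ s' : B, s * s' - 1 ∈ (𝔫.comap α).map α := by
  intro s hs
  set J : Ideal B := (𝔫.comap α).map α with hJdef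
  by_cases htop : Ideal.span {s} ⊔ J = ⊤
  · have h1 : (1 : B) ∈ Ideal.span {s} ⊔ J := by rw [htop]; trivial
    obtain ⟨q, hq, j, hj, hsum⟩ := Submodule.mem_sup.mp h1
    obtain ⟨a, rfl⟩ := Ideal.mem_span_singleton'.mp hq
    refine ⟨a, ?_⟩
    have h2 : s * a - 1 = -j := by rw [← hsum]; ring
    rw [h2]
    exact J.neg_mem hj
  · exfalso
    obtain ⟨𝔫', h𝔫', hle⟩ := Ideal.exists_le_maximal _ htop
    have hs𝔫' : s ∈ 𝔫' := hle (Ideal.mem_sup_left (Ideal.mem_span_singleton_self s))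
    have hJ𝔫' : J ≤ 𝔫' := le_trans le_sup_right hle
    have hα𝔫' : ∀ x : Λ, α x ∈ 𝔫 → α x ∈ 𝔫' := fun x hx =>
      hJ𝔫' (Ideal.mem_map_of_mem α (Ideal.mem_comap.mpr hx))
    have hcase : Pinf ≤ 𝔫' ∨ P0 ≤ 𝔫' := (Ideal.IsPrime.inf_le h𝔫'.isPrime).mp (le_trans hJ hJ𝔫')
    have h𝔫𝔫' : 𝔫 ≤ 𝔫' := by
      rcases hcase with hc | hc
      · intro b hb
        obtain ⟨x, hx⟩ := hsurjinf b
        have h1 : α x ∈ 𝔫 := by
          have h2 : α x = b - (b - α x) := by ring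
          rw [h2]
          exact 𝔫.sub_mem hb (hPinf𝔫 hx)
        have h3 : b = α x + (b - α x) := by ring
        rw [h3]
        exact 𝔫'.add_mem (hα𝔫' x h1) (hc hx)
      · intro b hb
        obtain ⟨y, hy⟩ := hsurj0 b
        have h1 : β y ∈ 𝔫 := by
          have h2 : β y = b - (b - β y) := by ring
          rw [h2]
          exact 𝔫.sub_mem hb (hP0𝔫 hy)
        obtain ⟨x, hx⟩ := hfrob' y
        have hℓ0 := hℓ
        · have h4 : α x ∈ 𝔫 := by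
            have h5 : α x = (α x - β y ^ ℓ) + β y ^ ℓ := by ring
            rw [h5]
            exact 𝔫.add_mem (hP0𝔫 hx) (𝔫.pow_mem_of_mem h1 ℓ hℓ0)
          have h6 : β y ^ ℓ ∈ 𝔫' := by
            have h7 : β y ^ ℓ = α x - (α x - β y ^ ℓ) := by ring
            rw [h7]
            exact 𝔫'.sub_mem (hα𝔫' x h4) (hc hx)
          have h8 : β y ∈ 𝔫' := h𝔫'.isPrime.mem_of_pow_mem _ h6
          have h9 : b = β y + (b - β y) := by ring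
          rw [h9]
          exact 𝔫'.add_mem h8 (hc hy)
    have heq : 𝔫 = 𝔫' := h𝔫.eq_of_le h𝔫'.ne_top h𝔫𝔫'
    exact hs (heq ▸ hs𝔫')

omit [IsLocalRing A] in
/-- transport of a local parameter of `Λ` to the branch `B / P` along `φ`. -/
theorem h62l_LP_transport (I : Ideal A) (φ : Λ →ₐ[A] B) (𝔫 P : Ideal B)
    (hmP : I.map (algebraMap A B) ≤ P) (hP𝔫 : P ≤ 𝔫)
    (hsurj : ∀ b : B, ∃ x : Λ, b - φ x ∈ P) (u : Λ)
    (hLP : h62l_LP (I.map (algebraMap A Λ)) (𝔫.comap (φ : Λ →+* B)) u) :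
    ∀ b ∈ 𝔫, ∃ s, s ∉ 𝔫 ∧ s * b ∈ Ideal.span {φ u} ⊔ P := by
  intro b hb
  obtain ⟨x, hx⟩ := hsurj b
  have hx𝔰 : x ∈ 𝔫.comap (φ : Λ →+* B) := by
    rw [Ideal.mem_comap]
    have h1 : φ x = b - (b - φ x) := by ring
    show φ x ∈ 𝔫
    rw [h1]
    exact 𝔫.sub_mem hb (hP𝔫 hx)
  obtain ⟨s₀, hs₀, hs₀x⟩ := hLP.2 x hx𝔰
  obtain ⟨q, hq, m, hm, hsum⟩ := Submodule.mem_sup.mp hs₀x
  obtain ⟨c, rfl⟩ := Ideal.mem_span_singleton'.mp hq
  refine ⟨φ s₀, hs₀, ?_⟩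
  have h1 : φ s₀ * b = φ c * φ u + (φ m + φ s₀ * (b - φ x)) := by
    have h2 : φ (s₀ * x) = φ (c * u + m) := by rw [hsum]
    rw [map_mul, map_add, map_mul] at h2
    have h3 : φ s₀ * b = φ s₀ * φ x + φ s₀ * (b - φ x) := by ring
    rw [h3, h2]
    ring
  rw [h1]
  exact Ideal.add_mem _ (Ideal.mem_sup_left (Ideal.mem_span_singleton'.mpr ⟨_, rfl⟩))
    (Ideal.mem_sup_right (P.add_mem (hmP (h62l_map_mem _ φ hm)) (P.mul_mem_left _ hx)))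

end Pieces

section Main

/-- **The local structure of the special fibre of a two-component chart**: every closed point
is smooth or a node `x y = ℓ c`. -/
theorem h62l_local
    {A : Type*} [CommRing A] [IsLocalRing A] {F : Type*} [Field F] [Algebra A F]
    {B : Subalgebra A F} {V : Subring F} {ι : Type*} {v : ι → Valuation F ℤᵐ⁰}
    (hC : H26Chart B V v)
    (Winf W0 : Subring F) (hWV : ∀ x : F, x ∈ Winf → x ∈ W0 → x ∈ V)
    (hBWinf : ∀ b : B, (b : F) ∈ Winf) (hBW0 : ∀ b : B, (b : F) ∈ W0)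
    (Pinf P0 : Ideal B) [hPinf : Pinf.IsPrime] [hP0 : P0.IsPrime]
    (hSF : Pinf ⊓ P0 ≤ (maximalIdeal A).map (algebraMap A B))
    (hmPinf : (maximalIdeal A).map (algebraMap A B) ≤ Pinf)
    (hmP0 : (maximalIdeal A).map (algebraMap A B) ≤ P0)
    (hWinf : ∀ b : B, b ∉ Pinf → ((b : F))⁻¹ ∈ Winf)
    (hW0 : ∀ b : B, b ∉ P0 → ((b : F))⁻¹ ∈ W0)
    {Λ : Type*} [CommRing Λ] [Algebra A Λ] (α β : Λ →ₐ[A] B)
    (hfin : (α : Λ →+* B).Finite)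
    [hded : IsDedekindDomain (Λ ⧸ (maximalIdeal A).map (algebraMap A Λ))]
    (hnf : ¬ IsField (Λ ⧸ (maximalIdeal A).map (algebraMap A Λ)))
    (hres : ∀ 𝔰 : Ideal Λ, 𝔰.IsMaximal → (maximalIdeal A).map (algebraMap A Λ) ≤ 𝔰 →
      ∀ x : Λ, ∃ a : A, x - algebraMap A Λ a ∈ 𝔰)
    (hαPinf : ∀ x : Λ, α x ∈ Pinf → x ∈ (maximalIdeal A).map (algebraMap A Λ))
    (hαP0 : ∀ x : Λ, α x ∈ P0 → x ∈ (maximalIdeal A).map (algebraMap A Λ))
    (hβP0 : ∀ x : Λ, β x ∈ P0 → x ∈ (maximalIdeal A).map (algebraMap A Λ))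
    (hsurjinf : ∀ b : B, ∃ x : Λ, b - α x ∈ Pinf)
    (hsurj0 : ∀ b : B, ∃ x : Λ, b - β x ∈ P0)
    (R : Subring Λ) (hRspan : ∀ x : Λ, x ∈ Submodule.span A (R : Set Λ))
    (ℓ : ℕ) (hℓ : ℓ.Prime) (hℓA : (ℓ : A) ∈ maximalIdeal A) (hℓ0 : (ℓ : B) ≠ 0)
    (hRα : ∀ u ∈ R, β u - (α u) ^ ℓ ∈ Pinf)
    (hRβ : ∀ u ∈ R, α u - (β u) ^ ℓ ∈ P0)
    (hKron : ∀ u ∈ R, ∃ r : Λ[X], r.natDegree ≤ ℓ ∧
      (h62n_poly ℓ (u ^ ℓ) u r).eval₂ (α : Λ →+* B) (β u) = 0)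
    (hperf : ∀ a : A, ∃ a' : A, a - a' ^ ℓ ∈ maximalIdeal A)
    (hsep : ∀ a : A, ∃ m : ℤ[X], aeval a m ∈ maximalIdeal A ∧
      aeval a (derivative m) ∉ maximalIdeal A)
    {K : Type*} [CommRing K] [IsDomain K]
    (hpl : ∀ 𝔫 : Ideal B, 𝔫.IsMaximal → Pinf ≤ 𝔫 → P0 ≤ 𝔫 → ∀ i, h26Centered B v 𝔫 i →
      ∃ (T : Finset ι) (φ : ι → B →+* K) (φ' : Λ →+* K), i ∈ T ∧ ℓ + 1 ≤ T.card ∧
        (∀ k ∈ T, ∀ b : B, φ k b = 0 ↔ v k (b : F) < 1) ∧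
        (∀ k ∈ T, ∀ x : Λ, φ k (α x) = φ' x)) :
    ∀ 𝔫 : Ideal B, 𝔫.IsMaximal → (maximalIdeal A).map (algebraMap A B) ≤ 𝔫 →
      (∃ t' ∈ 𝔫, ∀ z ∈ 𝔫, ∃ s, s ∉ 𝔫 ∧
        s * z ∈ Ideal.span {t'} ⊔ (maximalIdeal A).map (algebraMap A B)) ∨
      (∃ x ∈ 𝔫, ∃ y ∈ 𝔫, ∃ c, c ∉ 𝔫 ∧ ∃ a : A, a ≠ 0 ∧
        x * y = algebraMap A B a * c ∧
        ∀ z ∈ 𝔫, ∃ s, s ∉ 𝔫 ∧
          s * z ∈ Ideal.span {x, y} ⊔ (maximalIdeal A).map (algebraMap A B)) := by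
  classical
  intro 𝔫 h𝔫 hm𝔫
  haveI h𝔫p : 𝔫.IsPrime := h𝔫.isPrime
  set 𝔪 : Ideal Λ := (maximalIdeal A).map (algebraMap A Λ) with h𝔪def
  haveI h𝔪prime : 𝔪.IsPrime := (Ideal.Quotient.isDomain_iff_prime 𝔪).mp inferInstance
  have hdich : Pinf ≤ 𝔫 ∨ P0 ≤ 𝔫 := (Ideal.IsPrime.inf_le h𝔫p).mp (le_trans hSF hm𝔫)
  have hLPex : ∀ 𝔰 : Ideal Λ, 𝔰.IsMaximal → 𝔪 ≤ 𝔰 → ∃ t, h62l_LP 𝔪 𝔰 t := by
    intro 𝔰 h𝔰 hle
    obtain ⟨t, ht, -, s, hs, hall⟩ := h3_exists_local_uniformizer 𝔪 hnf 𝔰 hle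
    exact ⟨t, ht, fun y hy => ⟨s, hs, hall y hy⟩⟩
  have hne_of_max : ∀ 𝔰 : Ideal Λ, 𝔰.IsMaximal → 𝔪 ≤ 𝔰 → ¬ 𝔰 ≤ 𝔪 := by
    intro 𝔰 h𝔰 hle hle'
    have h1 : 𝔪 = 𝔰 := le_antisymm hle hle'
    apply hnf
    have h2 : 𝔪.IsMaximal := h1 ▸ h𝔰
    exact (Ideal.Quotient.maximal_ideal_iff_isField_quotient 𝔪).mp h2
  have hcomap𝔪 : ∀ φ : Λ →ₐ[A] B, 𝔪 ≤ 𝔫.comap (φ : Λ →+* B) := fun φ x hx =>
    Ideal.mem_comap.mpr (hm𝔫 (h62l_map_mem _ φ hx))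
  by_cases hP0𝔫 : P0 ≤ 𝔫
  · by_cases hPinf𝔫 : Pinf ≤ 𝔫
    · right
      have h𝔰max : (𝔫.comap (α : Λ →+* B)).IsMaximal :=
        h62l_comap_isMaximal (α : Λ →+* B) 𝔫 Pinf hPinf𝔫 hsurjinf
      have h𝔰'max : (𝔫.comap (β : Λ →+* B)).IsMaximal :=
        h62l_comap_isMaximal (β : Λ →+* B) 𝔫 P0 hP0𝔫 hsurj0
      haveI h𝔰p : (𝔫.comap (α : Λ →+* B)).IsPrime := h𝔰max.isPrime
      haveI h𝔰'p : (𝔫.comap (β : Λ →+* B)).IsPrime := h𝔰'max.isPrime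
      obtain ⟨t₁, ht₁⟩ := hLPex _ h𝔰max (hcomap𝔪 α)
      obtain ⟨t₁', ht₁'⟩ := hLPex _ h𝔰'max (hcomap𝔪 β)
      have h𝔪A : ∀ a ∈ maximalIdeal A, algebraMap A Λ a ∈ 𝔪 := fun a ha =>
        Ideal.mem_map_of_mem _ ha
      have hR𝔰 : ∀ x ∈ R, x ∈ 𝔫.comap (α : Λ →+* B) ↔ x ∈ 𝔫.comap (β : Λ →+* B) := by
        intro x hx
        rw [Ideal.mem_comap, Ideal.mem_comap]
        show α x ∈ 𝔫 ↔ β x ∈ 𝔫
        constructor
        · intro h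
          have h1 : β x = (β x - α x ^ ℓ) + α x ^ ℓ := by ring
          rw [h1]
          exact 𝔫.add_mem (hPinf𝔫 (hRα x hx)) (𝔫.pow_mem_of_mem h ℓ hℓ.pos)
        · intro h
          have h1 : α x ^ ℓ = β x - (β x - α x ^ ℓ) := by ring
          have h2 : α x ^ ℓ ∈ 𝔫 := by
            rw [h1]
            exact 𝔫.sub_mem h (hPinf𝔫 (hRα x hx))
          exact h𝔫p.mem_of_pow_mem _ h2
      obtain ⟨u, huR, hu𝔰, hu𝔰'⟩ := h62l_exists_LP_both 𝔪 (𝔫.comap (α : Λ →+* B))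
        (𝔫.comap (β : Λ →+* B)) (hcomap𝔪 α) (hcomap𝔪 β)
        (hne_of_max _ h𝔰max (hcomap𝔪 α)) (hne_of_max _ h𝔰'max (hcomap𝔪 β)) h𝔪A R hRspan
        (hres _ h𝔰max (hcomap𝔪 α)) (hres _ h𝔰'max (hcomap𝔪 β)) hsep hR𝔰 ht₁ ht₁'
      obtain ⟨r, hr, hf⟩ := hKron u huR
      have husq := h62l_not_mem_sq_of_LP 𝔪 (𝔫.comap (α : Λ →+* B)) (hcomap𝔪 α)
        (hne_of_max _ h𝔰max (hcomap𝔪 α)) hu𝔰
      have husq' := h62l_not_mem_sq_of_LP 𝔪 (𝔫.comap (β : Λ →+* B)) (hcomap𝔪 β)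
        (hne_of_max _ h𝔰'max (hcomap𝔪 β)) hu𝔰'
      have hu𝔪 : u ∉ 𝔪 := fun h => husq (h62l_le_sq 𝔪 _ h)
      have hαu𝔫 : α u ∈ 𝔫 := hu𝔰.1
      have hβu𝔫 : β u ∈ 𝔫 := hu𝔰'.1
      have hδ : (u ^ ℓ) ^ ℓ - u ∉ 𝔪 := by
        intro h
        have h2 : 1 ≤ ℓ * ℓ := Nat.mul_pos hℓ.pos hℓ.pos
        have h1 : (u ^ ℓ) ^ ℓ - u = u * (u ^ (ℓ * ℓ - 1) - 1) := by
          have h3 : (u ^ ℓ) ^ ℓ = u * u ^ (ℓ * ℓ - 1) := by
            rw [← pow_mul, ← pow_succ', Nat.sub_add_cancel h2]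
          rw [h3]; ring
        rw [h1] at h
        rcases h𝔪prime.mem_or_mem h with h4 | h4
        · exact hu𝔪 h4
        · have h5 : u ^ (ℓ * ℓ - 1) - 1 ∈ 𝔫.comap (α : Λ →+* B) := hcomap𝔪 α h4
          have h6 : 0 < ℓ * ℓ - 1 := by
            have := hℓ.two_le
            have h7 : 2 * 2 ≤ ℓ * ℓ := Nat.mul_le_mul this this
            omega
          have h8 : u ^ (ℓ * ℓ - 1) ∈ 𝔫.comap (α : Λ →+* B) :=
            Ideal.pow_mem_of_mem _ hu𝔰.1 _ h6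
          have h9 : (1 : Λ) ∈ 𝔫.comap (α : Λ →+* B) := by
            have := Ideal.sub_mem _ h8 h5
            simpa using this
          exact h𝔰max.ne_top ((Ideal.eq_top_iff_one _).mpr h9)
      have hℓm : (ℓ : B) ∈ (maximalIdeal A).map (algebraMap A B) := by
        have h1 : (ℓ : B) = algebraMap A B (ℓ : A) := (map_natCast (algebraMap A B) ℓ).symm
        rw [h1]
        exact Ideal.mem_map_of_mem _ hℓA
      have hℓP0 : (ℓ : B) ∈ P0 := hmP0 hℓm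
      have hfrob := h62l_frob α β P0 hmP0 R hRspan ℓ hℓ hℓP0 hRβ hperf
      have hfrob' := h62l_frob' α β P0 R hRspan ℓ hℓ hℓP0 hRβ
      letI : Algebra Λ B := (α : Λ →+* B).toAlgebra
      haveI : Module.Finite Λ B := hfin
      have halg : ∀ x : Λ, algebraMap Λ B x = α x := fun _ => rfl
      have hm𝔰 : (maximalIdeal A).map (algebraMap A B)
          ≤ (𝔫.comap (algebraMap Λ B)).map (algebraMap Λ B) := by
        rw [Ideal.map_le_iff_le_comap]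
        intro a ha
        rw [Ideal.mem_comap]
        have h1 : algebraMap A B a = algebraMap Λ B (algebraMap A Λ a) := by
          rw [halg, AlgHom.commutes]
        rw [h1]
        refine Ideal.mem_map_of_mem _ ?_
        exact hcomap𝔪 α (h𝔪A a ha)
      have hf' : aeval (β u) (h62n_poly ℓ (u ^ ℓ) u r) = 0 := by
        rw [Polynomial.aeval_def]
        exact hf
      have hY1 : β u - algebraMap Λ B (u ^ ℓ) ∈ Pinf := by
        rw [halg, map_pow]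
        exact hRα u huR
      have hY2 : β u ^ ℓ - algebraMap Λ B u ∈ P0 := by
        rw [halg]
        have h1 : β u ^ ℓ - α u = -(α u - β u ^ ℓ) := by ring
        rw [h1]
        exact P0.neg_mem (hRβ u huR)
      have hYa : β u - algebraMap Λ B (u ^ ℓ) ∉ P0 := by
        rw [halg, map_pow]
        intro h
        apply hδ
        have h1 : α u ^ ℓ - (β u ^ ℓ) ^ ℓ ∈ P0 := by
          obtain ⟨d, hd⟩ := sub_dvd_pow_sub_pow (α u) (β u ^ ℓ) ℓ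
          rw [hd]
          exact P0.mul_mem_right _ (hRβ u huR)
        have h2 : β ((u ^ ℓ) ^ ℓ - u) ∈ P0 := by
          rw [map_sub, map_pow, map_pow]
          have h3 : (β u ^ ℓ) ^ ℓ - β u = -((β u - α u ^ ℓ) + (α u ^ ℓ - (β u ^ ℓ) ^ ℓ)) := by
            ring
          rw [h3]
          exact P0.neg_mem (P0.add_mem h h1)
        exact hβP0 _ h2
      have hδinf : algebraMap Λ B ((u ^ ℓ) ^ ℓ - u) ∉ Pinf := fun h => hδ (hαPinf _ h)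
      have hδ0 : algebraMap Λ B ((u ^ ℓ) ^ ℓ - u) ∉ P0 := fun h => hδ (hαP0 _ h)
      have hLI : ∀ g : Λ[X], g.natDegree < ℓ → aeval (β u) g ∈ P0 →
          ∀ i, algebraMap Λ B (g.coeff i) ∈ P0 := by
        intro g hg hgP0 i
        choose g' hg' using fun i => hfrob (g.coeff i)
        have h1 : β (∑ i ∈ Finset.range ℓ, g' i ^ ℓ * u ^ i) ∈ P0 := by
          rw [Polynomial.aeval_eq_sum_range' hg] at hgP0
          have h2 : β (∑ i ∈ Finset.range ℓ, g' i ^ ℓ * u ^ i)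
              = ∑ i ∈ Finset.range ℓ, g.coeff i • β u ^ i
                - ∑ i ∈ Finset.range ℓ, (α (g.coeff i) - β (g' i) ^ ℓ) * β u ^ i := by
            rw [map_sum, ← Finset.sum_sub_distrib]
            apply Finset.sum_congr rfl
            intro k _
            rw [map_mul, map_pow, map_pow, Algebra.smul_def, halg]
            ring
          rw [h2]
          refine P0.sub_mem hgP0 (P0.sum_mem fun k _ => P0.mul_mem_right _ (hg' k))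
        have h3 := h62l_LI_of_dedekind 𝔪 (𝔫.comap (β : Λ →+* B)) (hcomap𝔪 β)
          (hne_of_max _ h𝔰'max (hcomap𝔪 β)) u hu𝔰'.1 husq' ℓ g' (hβP0 _ h1)
        by_cases hi : i < ℓ
        · have h4 : β (g' i) ^ ℓ ∈ P0 :=
            P0.pow_mem_of_mem (hmP0 (h62l_map_mem _ β (h3 i hi))) ℓ hℓ.pos
          have h5 : algebraMap Λ B (g.coeff i) = (α (g.coeff i) - β (g' i) ^ ℓ) + β (g' i) ^ ℓ := by
            rw [halg]; ring
          rw [h5]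
          exact P0.add_mem (hg' i) h4
        · have h4 : g.coeff i = 0 :=
            Polynomial.coeff_eq_zero_of_natDegree_lt (lt_of_lt_of_le hg (not_lt.mp hi))
          rw [h4, map_zero]
          exact P0.zero_mem
      have hLPinf : ∀ b ∈ 𝔫, ∃ s, s ∉ 𝔫 ∧ s * b ∈ Ideal.span {algebraMap Λ B u} ⊔ Pinf :=
        h62l_LP_transport (maximalIdeal A) α 𝔫 Pinf hmPinf hPinf𝔫 hsurjinf u hu𝔰
      have hLP0 : ∀ b ∈ 𝔫, ∃ s, s ∉ 𝔫 ∧ s * b ∈ Ideal.span {β u} ⊔ P0 :=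
        h62l_LP_transport (maximalIdeal A) β 𝔫 P0 hmP0 hP0𝔫 hsurj0 u hu𝔰'
      have hU : ∀ s : B, s ∉ 𝔫 → ∃ s' : B,
          s * s' - 1 ∈ (𝔫.comap (algebraMap Λ B)).map (algebraMap Λ B) :=
        h62l_hU (α : Λ →+* B) (β : Λ →+* B) 𝔫 Pinf P0 hPinf𝔫 hP0𝔫 (le_trans hSF hm𝔰)
          hsurjinf hsurj0 ℓ hℓ.pos hfrob'
      obtain ⟨x, hx, y, hy, c', hc', hxy, hgen⟩ := h62n_node_final hC Winf W0 hWV hBWinf hBW0
        𝔫 Pinf P0 hPinf𝔫 hP0𝔫 hSF hWinf hW0 (β : Λ →+* B) hm𝔰 ℓ hℓ.two_le hℓ0 hℓm hmPinf hmP0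
        u u u r hr hf' hβu𝔫 hY1 hY2 hYa hδinf hδ0 hLI hLPinf hLP0 hU hsurjinf (K := K)
        (hpl 𝔫 h𝔫 hPinf𝔫 hP0𝔫)
      refine ⟨x, hx, y, hy, c', hc', (ℓ : A), ?_, ?_, hgen⟩
      · intro h0
        apply hℓ0
        have h1 : (ℓ : B) = algebraMap A B (ℓ : A) := (map_natCast (algebraMap A B) ℓ).symm
        rw [h1, h0, map_zero]
      · rw [map_natCast]
        exact hxy
    · left
      have h𝔰'max : (𝔫.comap (β : Λ →+* B)).IsMaximal :=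
        h62l_comap_isMaximal (β : Λ →+* B) 𝔫 P0 hP0𝔫 hsurj0
      obtain ⟨t₁, ht₁⟩ := hLPex _ h𝔰'max (hcomap𝔪 β)
      exact h62l_smooth β 𝔫 P0 Pinf hPinf𝔫 (by rwa [inf_comm]) hsurj0 hP0𝔫 t₁ ht₁
  · left
    have hPinf𝔫 : Pinf ≤ 𝔫 := hdich.resolve_right hP0𝔫
    have h𝔰max : (𝔫.comap (α : Λ →+* B)).IsMaximal :=
      h62l_comap_isMaximal (α : Λ →+* B) 𝔫 Pinf hPinf𝔫 hsurjinf
    obtain ⟨t₁, ht₁⟩ := hLPex _ h𝔰max (hcomap𝔪 α)
    exact h62l_smooth α 𝔫 Pinf P0 hP0𝔫 hSF hsurjinf hPinf𝔫 t₁ ht₁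

end Main

end Fermat.Agent.LGC
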