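import Mathlib
import Fermat.Agent.LGC.H62TwoComp
import Fermat.Agent.LGC.H62Branch

/-!
# W3-LGC / S35 G-TOR: the local structure at a crossing point, with branch information (helper62)

`h62b_local_node` : under the hypotheses of `h62l_local` (with a side condition `Q u r` carried
through Kronecker's congruence, e.g. "the coefficients of `r` are rational"), at every maximal
ideal `𝔫 ⊇ P∞ + P₀` there are `u ∈ R` and `r` with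

* `u` a local parameter of `Λ` at `α⁻¹ 𝔫` and at `β⁻¹ 𝔫`,
* `𝔫` the only maximal ideal over `α⁻¹ 𝔫`,
* `x = f'(β u) ∈ P₀ \ P∞`, `y = β u - (α u) ^ ℓ ∈ P∞ \ P₀`, `x y = ℓ c'`, `c' ∉ 𝔫`,
  `𝔫 = (x) + P∞ = (y) + P₀ = (x, y) + 𝔪_A B` locally.

`h62b_local_smooth` : at a maximal ideal on one component only, `𝔫 = (φ u) + P` locally with
`u ∈ R`.
-/

set_option autoImplicit false
set_option linter.style.haveILetI false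

open Polynomial WithZero IsLocalRing

namespace Fermat.Agent.LGC

open Fermat.Agent.Red

/-- **the node datum with branch information** at a crossing point of a two-component
chart. -/
theorem h62b_local_node
    {A : Type*} [CommRing A] [IsLocalRing A] {F : Type*} [Field F] [Algebra A F]
    {B : Subalgebra A F} {V : Subring F} {ι : Type*} {v : ι → Valuation F ℤᵐ⁰}
    (hC : H26Chart B V v)
    (Winf W0 : Subring F) (hWV : ∀ x : F, x ∈ Winf → x ∈ W0 → x ∈ V)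
    (hBWinf : ∀ b : B, (b : F) ∈ Winf) (hBW0 : ∀ b : B, (b : F) ∈ W0)
    (Pinf P0 : Ideal B) [hPinf : Pinf.IsPrime] [hP0 : P0.IsPrime]
    (hSF : Pinf ⊓ P0 ≤ (maximalIdeal A).map (algebraMap A B))
    (hmPinf : (maximalIdeal A).map (algebraMap A B) ≤ Pinf)
    (hmP0 : (maximalIdeal A).map (algebraMap A B) ≤ P0)
    (hWinf : ∀ b : B, b ∉ Pinf → ((b : F))⁻¹ ∈ Winf)
    (hW0 : ∀ b : B, b ∉ P0 → ((b : F))⁻¹ ∈ W0)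
    {Λ : Type*} [CommRing Λ] [Algebra A Λ] (α β : Λ →ₐ[A] B)
    (hfin : (α : Λ →+* B).Finite)
    [hded : IsDedekindDomain (Λ ⧸ (maximalIdeal A).map (algebraMap A Λ))]
    (hnf : ¬ IsField (Λ ⧸ (maximalIdeal A).map (algebraMap A Λ)))
    (hres : ∀ 𝔰 : Ideal Λ, 𝔰.IsMaximal → (maximalIdeal A).map (algebraMap A Λ) ≤ 𝔰 →
      ∀ x : Λ, ∃ a : A, x - algebraMap A Λ a ∈ 𝔰)
    (hαPinf : ∀ x : Λ, α x ∈ Pinf → x ∈ (maximalIdeal A).map (algebraMap A Λ))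
    (hαP0 : ∀ x : Λ, α x ∈ P0 → x ∈ (maximalIdeal A).map (algebraMap A Λ))
    (hβP0 : ∀ x : Λ, β x ∈ P0 → x ∈ (maximalIdeal A).map (algebraMap A Λ))
    (hsurjinf : ∀ b : B, ∃ x : Λ, b - α x ∈ Pinf)
    (hsurj0 : ∀ b : B, ∃ x : Λ, b - β x ∈ P0)
    (R : Subring Λ) (hRspan : ∀ x : Λ, x ∈ Submodule.span A (R : Set Λ))
    (ℓ : ℕ) (hℓ : ℓ.Prime) (hℓA : (ℓ : A) ∈ maximalIdeal A) (hℓ0 : (ℓ : B) ≠ 0)
    (hRα : ∀ u ∈ R, β u - (α u) ^ ℓ ∈ Pinf)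
    (hRβ : ∀ u ∈ R, α u - (β u) ^ ℓ ∈ P0)
    (Q : Λ → Λ[X] → Prop)
    (hKron : ∀ u ∈ R, ∃ r : Λ[X], Q u r ∧ r.natDegree ≤ ℓ ∧
      (h62n_poly ℓ (u ^ ℓ) u r).eval₂ (α : Λ →+* B) (β u) = 0)
    (hperf : ∀ a : A, ∃ a' : A, a - a' ^ ℓ ∈ maximalIdeal A)
    (hsep : ∀ a : A, ∃ m : ℤ[X], aeval a m ∈ maximalIdeal A ∧
      aeval a (derivative m) ∉ maximalIdeal A)
    {K : Type*} [CommRing K] [IsDomain K]
    (hpl : ∀ 𝔫 : Ideal B, 𝔫.IsMaximal → Pinf ≤ 𝔫 → P0 ≤ 𝔫 → ∀ i, h26Centered B v 𝔫 i →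
      ∃ (T : Finset ι) (φ : ι → B →+* K) (φ' : Λ →+* K), i ∈ T ∧ ℓ + 1 ≤ T.card ∧
        (∀ k ∈ T, ∀ b : B, φ k b = 0 ↔ v k (b : F) < 1) ∧
        (∀ k ∈ T, ∀ x : Λ, φ k (α x) = φ' x)) 
    (𝔫 : Ideal B) (h𝔫 : 𝔫.IsMaximal) (hPinf𝔫 : Pinf ≤ 𝔫) (hP0𝔫 : P0 ≤ 𝔫) :
    ∃ u ∈ R, ∃ r : Λ[X], Q u r ∧ r.natDegree ≤ ℓ ∧
      (h62n_poly ℓ (u ^ ℓ) u r).eval₂ (α : Λ →+* B) (β u) = 0 ∧
      h62l_LP ((maximalIdeal A).map (algebraMap A Λ)) (𝔫.comap (α : Λ →+* B)) u ∧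
      h62l_LP ((maximalIdeal A).map (algebraMap A Λ)) (𝔫.comap (β : Λ →+* B)) u ∧
      (∀ s : B, s ∉ 𝔫 → ∃ s' : B,
        s * s' - 1 ∈ (𝔫.comap (α : Λ →+* B)).map (α : Λ →+* B)) ∧
      H62bNodeDatum ((maximalIdeal A).map (algebraMap A B)) 𝔫 Pinf P0 (ℓ : B)
        ((derivative (h62n_poly ℓ (u ^ ℓ) u r)).eval₂ (α : Λ →+* B) (β u))
        (β u - (α u) ^ ℓ)
        (- r.eval₂ (α : Λ →+* B) (β u) + (β u - (α u) ^ ℓ) ^ 2 * (β u) ^ (ℓ - 1)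
          + (β u - (α u) ^ ℓ) * (derivative r).eval₂ (α : Λ →+* B) (β u)) := by
  classical
  have hm𝔫 : (maximalIdeal A).map (algebraMap A B) ≤ 𝔫 := le_trans hmPinf hPinf𝔫
  haveI h𝔫p : 𝔫.IsPrime := h𝔫.isPrime
  set 𝔪 : Ideal Λ := (maximalIdeal A).map (algebraMap A Λ) with h𝔪def
  haveI h𝔪prime : 𝔪.IsPrime := (Ideal.Quotient.isDomain_iff_prime 𝔪).mp inferInstance
  have hLPex : ∀ 𝔰 : Ideal Λ, 𝔰.IsMaximal → 𝔪 ≤ 𝔰 → ∃ t, h62l_LP 𝔪 𝔰 t := by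
    intro 𝔰 h𝔰 hle
    obtain ⟨t, ht, -, s, hs, hall⟩ := h3_exists_local_uniformizer 𝔪 hnf 𝔰 hle
    exact ⟨t, ht, fun y hy => ⟨s, hs, hall y hy⟩⟩
  have hne_of_max : ∀ 𝔰 : Ideal Λ, 𝔰.IsMaximal → 𝔪 ≤ 𝔰 → ¬ 𝔰 ≤ 𝔪 := by
    intro 𝔰 h𝔰 hle hle'
    have h1 : 𝔪 = 𝔰 := le_antisymm hle hle'
    apply hnf
    have h2 : 𝔪.IsMaximal := h1 ▸ h𝔰
    exact (Ideal.Quotient.maximal_ideal_iff_isField_quotient 𝔪).mp h2
  have hcomap𝔪 : ∀ φ : Λ →ₐ[A] B, 𝔪 ≤ 𝔫.comap (φ : Λ →+* B) := fun φ x hx =>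
    Ideal.mem_comap.mpr (hm𝔫 (h62l_map_mem _ φ hx))
  have h𝔰max : (𝔫.comap (α : Λ →+* B)).IsMaximal :=
    h62l_comap_isMaximal (α : Λ →+* B) 𝔫 Pinf hPinf𝔫 hsurjinf
  have h𝔰'max : (𝔫.comap (β : Λ →+* B)).IsMaximal :=
    h62l_comap_isMaximal (β : Λ →+* B) 𝔫 P0 hP0𝔫 hsurj0
  haveI h𝔰p : (𝔫.comap (α : Λ →+* B)).IsPrime := h𝔰max.isPrime
  haveI h𝔰'p : (𝔫.comap (β : Λ →+* B)).IsPrime := h𝔰'max.isPrime
  obtain ⟨t₁, ht₁⟩ := hLPex _ h𝔰max (hcomap𝔪 α)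
  obtain ⟨t₁', ht₁'⟩ := hLPex _ h𝔰'max (hcomap𝔪 β)
  have h𝔪A : ∀ a ∈ maximalIdeal A, algebraMap A Λ a ∈ 𝔪 := fun a ha =>
    Ideal.mem_map_of_mem _ ha
  have hR𝔰 : ∀ x ∈ R, x ∈ 𝔫.comap (α : Λ →+* B) ↔ x ∈ 𝔫.comap (β : Λ →+* B) := by
    intro x hx
    rw [Ideal.mem_comap, Ideal.mem_comap]
    show α x ∈ 𝔫 ↔ β x ∈ 𝔫
    constructor
    · intro h
      have h1 : β x = (β x - α x ^ ℓ) + α x ^ ℓ := by ring
      rw [h1]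
      exact 𝔫.add_mem (hPinf𝔫 (hRα x hx)) (𝔫.pow_mem_of_mem h ℓ hℓ.pos)
    · intro h
      have h1 : α x ^ ℓ = β x - (β x - α x ^ ℓ) := by ring
      have h2 : α x ^ ℓ ∈ 𝔫 := by
        rw [h1]
        exact 𝔫.sub_mem h (hPinf𝔫 (hRα x hx))
      exact h𝔫p.mem_of_pow_mem _ h2
  obtain ⟨u, huR, hu𝔰, hu𝔰'⟩ := h62l_exists_LP_both 𝔪 (𝔫.comap (α : Λ →+* B))
    (𝔫.comap (β : Λ →+* B)) (hcomap𝔪 α) (hcomap𝔪 β)
    (hne_of_max _ h𝔰max (hcomap𝔪 α)) (hne_of_max _ h𝔰'max (hcomap𝔪 β)) h𝔪A R hRspan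
    (hres _ h𝔰max (hcomap𝔪 α)) (hres _ h𝔰'max (hcomap𝔪 β)) hsep hR𝔰 ht₁ ht₁'
  obtain ⟨r, hQ, hr, hf⟩ := hKron u huR
  have husq := h62l_not_mem_sq_of_LP 𝔪 (𝔫.comap (α : Λ →+* B)) (hcomap𝔪 α)
    (hne_of_max _ h𝔰max (hcomap𝔪 α)) hu𝔰
  have husq' := h62l_not_mem_sq_of_LP 𝔪 (𝔫.comap (β : Λ →+* B)) (hcomap𝔪 β)
    (hne_of_max _ h𝔰'max (hcomap𝔪 β)) hu𝔰'
  have hu𝔪 : u ∉ 𝔪 := fun h => husq (h62l_le_sq 𝔪 _ h)
  have hαu𝔫 : α u ∈ 𝔫 := hu𝔰.1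
  have hβu𝔫 : β u ∈ 𝔫 := hu𝔰'.1
  have hδ : (u ^ ℓ) ^ ℓ - u ∉ 𝔪 := by
    intro h
    have h2 : 1 ≤ ℓ * ℓ := Nat.mul_pos hℓ.pos hℓ.pos
    have h1 : (u ^ ℓ) ^ ℓ - u = u * (u ^ (ℓ * ℓ - 1) - 1) := by
      have h3 : (u ^ ℓ) ^ ℓ = u * u ^ (ℓ * ℓ - 1) := by
        rw [← pow_mul, ← pow_succ', Nat.sub_add_cancel h2]
      rw [h3]; ring
    rw [h1] at h
    rcases h𝔪prime.mem_or_mem h with h4 | h4
    · exact hu𝔪 h4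
    · have h5 : u ^ (ℓ * ℓ - 1) - 1 ∈ 𝔫.comap (α : Λ →+* B) := hcomap𝔪 α h4
      have h6 : 0 < ℓ * ℓ - 1 := by
        have := hℓ.two_le
        have h7 : 2 * 2 ≤ ℓ * ℓ := Nat.mul_le_mul this this
        omega
      have h8 : u ^ (ℓ * ℓ - 1) ∈ 𝔫.comap (α : Λ →+* B) :=
        Ideal.pow_mem_of_mem _ hu𝔰.1 _ h6
      have h9 : (1 : Λ) ∈ 𝔫.comap (α : Λ →+* B) := by
        have := Ideal.sub_mem _ h8 h5
        simpa using this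
      exact h𝔰max.ne_top ((Ideal.eq_top_iff_one _).mpr h9)
  have hℓm : (ℓ : B) ∈ (maximalIdeal A).map (algebraMap A B) := by
    have h1 : (ℓ : B) = algebraMap A B (ℓ : A) := (map_natCast (algebraMap A B) ℓ).symm
    rw [h1]
    exact Ideal.mem_map_of_mem _ hℓA
  have hℓP0 : (ℓ : B) ∈ P0 := hmP0 hℓm
  have hfrob := h62l_frob α β P0 hmP0 R hRspan ℓ hℓ hℓP0 hRβ hperf
  have hfrob' := h62l_frob' α β P0 R hRspan ℓ hℓ hℓP0 hRβ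
  letI : Algebra Λ B := (α : Λ →+* B).toAlgebra
  haveI : Module.Finite Λ B := hfin
  have halg : ∀ x : Λ, algebraMap Λ B x = α x := fun _ => rfl
  have hm𝔰 : (maximalIdeal A).map (algebraMap A B)
      ≤ (𝔫.comap (algebraMap Λ B)).map (algebraMap Λ B) := by
    rw [Ideal.map_le_iff_le_comap]
    intro a ha
    rw [Ideal.mem_comap]
    have h1 : algebraMap A B a = algebraMap Λ B (algebraMap A Λ a) := by
      rw [halg, AlgHom.commutes]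
    rw [h1]
    refine Ideal.mem_map_of_mem _ ?_
    exact hcomap𝔪 α (h𝔪A a ha)
  have hf' : aeval (β u) (h62n_poly ℓ (u ^ ℓ) u r) = 0 := by
    rw [Polynomial.aeval_def]
    exact hf
  have hY1 : β u - algebraMap Λ B (u ^ ℓ) ∈ Pinf := by
    rw [halg, map_pow]
    exact hRα u huR
  have hY2 : β u ^ ℓ - algebraMap Λ B u ∈ P0 := by
    rw [halg]
    have h1 : β u ^ ℓ - α u = -(α u - β u ^ ℓ) := by ring
    rw [h1]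
    exact P0.neg_mem (hRβ u huR)
  have hYa : β u - algebraMap Λ B (u ^ ℓ) ∉ P0 := by
    rw [halg, map_pow]
    intro h
    apply hδ
    have h1 : α u ^ ℓ - (β u ^ ℓ) ^ ℓ ∈ P0 := by
      obtain ⟨d, hd⟩ := sub_dvd_pow_sub_pow (α u) (β u ^ ℓ) ℓ
      rw [hd]
      exact P0.mul_mem_right _ (hRβ u huR)
    have h2 : β ((u ^ ℓ) ^ ℓ - u) ∈ P0 := by
      rw [map_sub, map_pow, map_pow]
      have h3 : (β u ^ ℓ) ^ ℓ - β u = -((β u - α u ^ ℓ) + (α u ^ ℓ - (β u ^ ℓ) ^ ℓ)) := by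
        ring
      rw [h3]
      exact P0.neg_mem (P0.add_mem h h1)
    exact hβP0 _ h2
  have hδinf : algebraMap Λ B ((u ^ ℓ) ^ ℓ - u) ∉ Pinf := fun h => hδ (hαPinf _ h)
  have hδ0 : algebraMap Λ B ((u ^ ℓ) ^ ℓ - u) ∉ P0 := fun h => hδ (hαP0 _ h)
  have hLI : ∀ g : Λ[X], g.natDegree < ℓ → aeval (β u) g ∈ P0 →
      ∀ i, algebraMap Λ B (g.coeff i) ∈ P0 := by
    intro g hg hgP0 i
    choose g' hg' using fun i => hfrob (g.coeff i)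
    have h1 : β (∑ i ∈ Finset.range ℓ, g' i ^ ℓ * u ^ i) ∈ P0 := by
      rw [Polynomial.aeval_eq_sum_range' hg] at hgP0
      have h2 : β (∑ i ∈ Finset.range ℓ, g' i ^ ℓ * u ^ i)
          = ∑ i ∈ Finset.range ℓ, g.coeff i • β u ^ i
            - ∑ i ∈ Finset.range ℓ, (α (g.coeff i) - β (g' i) ^ ℓ) * β u ^ i := by
        rw [map_sum, ← Finset.sum_sub_distrib]
        apply Finset.sum_congr rfl
        intro k _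
        rw [map_mul, map_pow, map_pow, Algebra.smul_def, halg]
        ring
      rw [h2]
      refine P0.sub_mem hgP0 (P0.sum_mem fun k _ => P0.mul_mem_right _ (hg' k))
    have h3 := h62l_LI_of_dedekind 𝔪 (𝔫.comap (β : Λ →+* B)) (hcomap𝔪 β)
      (hne_of_max _ h𝔰'max (hcomap𝔪 β)) u hu𝔰'.1 husq' ℓ g' (hβP0 _ h1)
    by_cases hi : i < ℓ
    · have h4 : β (g' i) ^ ℓ ∈ P0 :=
        P0.pow_mem_of_mem (hmP0 (h62l_map_mem _ β (h3 i hi))) ℓ hℓ.pos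
      have h5 : algebraMap Λ B (g.coeff i) = (α (g.coeff i) - β (g' i) ^ ℓ) + β (g' i) ^ ℓ := by
        rw [halg]; ring
      rw [h5]
      exact P0.add_mem (hg' i) h4
    · have h4 : g.coeff i = 0 :=
        Polynomial.coeff_eq_zero_of_natDegree_lt (lt_of_lt_of_le hg (not_lt.mp hi))
      rw [h4, map_zero]
      exact P0.zero_mem
  have hLPinf : ∀ b ∈ 𝔫, ∃ s, s ∉ 𝔫 ∧ s * b ∈ Ideal.span {algebraMap Λ B u} ⊔ Pinf :=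
    h62l_LP_transport (maximalIdeal A) α 𝔫 Pinf hmPinf hPinf𝔫 hsurjinf u hu𝔰
  have hLP0 : ∀ b ∈ 𝔫, ∃ s, s ∉ 𝔫 ∧ s * b ∈ Ideal.span {β u} ⊔ P0 :=
    h62l_LP_transport (maximalIdeal A) β 𝔫 P0 hmP0 hP0𝔫 hsurj0 u hu𝔰'
  have hU : ∀ s : B, s ∉ 𝔫 → ∃ s' : B,
      s * s' - 1 ∈ (𝔫.comap (algebraMap Λ B)).map (algebraMap Λ B) :=
    h62l_hU (α : Λ →+* B) (β : Λ →+* B) 𝔫 Pinf P0 hPinf𝔫 hP0𝔫 (le_trans hSF hm𝔰)
      hsurjinf hsurj0 ℓ hℓ.pos hfrob'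
  have hD := h62b_node_final hC Winf W0 hWV hBWinf hBW0
    𝔫 Pinf P0 hPinf𝔫 hP0𝔫 hSF hWinf hW0 (β : Λ →+* B) hm𝔰 ℓ hℓ.two_le hℓ0 hℓm hmPinf hmP0
    u u u r hr hf' hβu𝔫 hY1 hY2 hYa hδinf hδ0 hLI hLPinf hLP0 hU hsurjinf (K := K)
    (hpl 𝔫 h𝔫 hPinf𝔫 hP0𝔫)
  refine ⟨u, huR, r, hQ, hr, hf, hu𝔰, hu𝔰', hU, ?_⟩
  have ex : h62n_z ℓ (u ^ ℓ) u r ((β : Λ →+* B) u)
      = (derivative (h62n_poly ℓ (u ^ ℓ) u r)).eval₂ (α : Λ →+* B) (β u) := rfl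
  have ey : (β : Λ →+* B) u - algebraMap Λ B (u ^ ℓ) = β u - (α u) ^ ℓ := by
    rw [halg, map_pow]
    rfl
  have ec : h62n_S ℓ (u ^ ℓ) r ((β : Λ →+* B) u)
      = - r.eval₂ (α : Λ →+* B) (β u) + (β u - (α u) ^ ℓ) ^ 2 * (β u) ^ (ℓ - 1)
          + (β u - (α u) ^ ℓ) * (derivative r).eval₂ (α : Λ →+* B) (β u) := by
    unfold h62n_S
    rw [ey]
    rfl
  rw [ex, ey, ec] at hD
  exact hD

/-- **the smooth branch with branch information**: at a closed point lying on the component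
`P` only, a function `u ∈ R` with `𝔫 = (φ u) + P = (φ u) + 𝔪_A B` locally. -/
theorem h62b_local_smooth
    {A : Type*} [CommRing A] [IsLocalRing A] {B : Type*} [CommRing B] [Algebra A B]
    {Λ : Type*} [CommRing Λ] [Algebra A Λ] (φ : Λ →ₐ[A] B)
    (𝔫 P P' : Ideal B) (h𝔫 : 𝔫.IsMaximal) (hP' : ¬ P' ≤ 𝔫)
    (hSF : P ⊓ P' ≤ (maximalIdeal A).map (algebraMap A B))
    (hmP : (maximalIdeal A).map (algebraMap A B) ≤ P)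
    (hsurj : ∀ b : B, ∃ x : Λ, b - φ x ∈ P) (hP𝔫 : P ≤ 𝔫)
    [hded : IsDedekindDomain (Λ ⧸ (maximalIdeal A).map (algebraMap A Λ))]
    (hnf : ¬ IsField (Λ ⧸ (maximalIdeal A).map (algebraMap A Λ)))
    (hres : ∀ 𝔰 : Ideal Λ, 𝔰.IsMaximal → (maximalIdeal A).map (algebraMap A Λ) ≤ 𝔰 →
      ∀ x : Λ, ∃ a : A, x - algebraMap A Λ a ∈ 𝔰)
    (R : Subring Λ) (hRspan : ∀ x : Λ, x ∈ Submodule.span A (R : Set Λ))
    (hsep : ∀ a : A, ∃ m : ℤ[X], aeval a m ∈ maximalIdeal A ∧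
      aeval a (derivative m) ∉ maximalIdeal A) :
    ∃ u ∈ R, h62l_LP ((maximalIdeal A).map (algebraMap A Λ)) (𝔫.comap (φ : Λ →+* B)) u ∧
      (∀ z ∈ 𝔫, ∃ s, s ∉ 𝔫 ∧ s * z ∈ Ideal.span {φ u} ⊔ P) ∧
      (∀ z ∈ 𝔫, ∃ s, s ∉ 𝔫 ∧
        s * z ∈ Ideal.span {φ u} ⊔ (maximalIdeal A).map (algebraMap A B)) := by
  classical
  haveI h𝔫p : 𝔫.IsPrime := h𝔫.isPrime
  set 𝔪 : Ideal Λ := (maximalIdeal A).map (algebraMap A Λ) with h𝔪def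
  haveI h𝔪prime : 𝔪.IsPrime := (Ideal.Quotient.isDomain_iff_prime 𝔪).mp inferInstance
  have hm𝔫 : (maximalIdeal A).map (algebraMap A B) ≤ 𝔫 := le_trans hmP hP𝔫
  have h𝔰max : (𝔫.comap (φ : Λ →+* B)).IsMaximal :=
    h62l_comap_isMaximal (φ : Λ →+* B) 𝔫 P hP𝔫 hsurj
  haveI h𝔰p : (𝔫.comap (φ : Λ →+* B)).IsPrime := h𝔰max.isPrime
  have hcomap𝔪 : 𝔪 ≤ 𝔫.comap (φ : Λ →+* B) := fun x hx =>
    Ideal.mem_comap.mpr (hm𝔫 (h62l_map_mem _ φ hx))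
  have hne : ¬ 𝔫.comap (φ : Λ →+* B) ≤ 𝔪 := by
    intro hle'
    have h1 : 𝔪 = 𝔫.comap (φ : Λ →+* B) := le_antisymm hcomap𝔪 hle'
    apply hnf
    have h2 : 𝔪.IsMaximal := h1 ▸ h𝔰max
    exact (Ideal.Quotient.maximal_ideal_iff_isField_quotient 𝔪).mp h2
  obtain ⟨t₁, ht₁⟩ : ∃ t, h62l_LP 𝔪 (𝔫.comap (φ : Λ →+* B)) t := by
    obtain ⟨t, ht, -, s, hs, hall⟩ := h3_exists_local_uniformizer 𝔪 hnf
      (𝔫.comap (φ : Λ →+* B)) hcomap𝔪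
    exact ⟨t, ht, fun y hy => ⟨s, hs, hall y hy⟩⟩
  have h𝔪A : ∀ a ∈ maximalIdeal A, algebraMap A Λ a ∈ 𝔪 := fun a ha =>
    Ideal.mem_map_of_mem _ ha
  obtain ⟨u, huR, hu⟩ := h62l_exists_LP_mem 𝔪 (𝔫.comap (φ : Λ →+* B)) hcomap𝔪 hne h𝔪A R hRspan
    (hres _ h𝔰max hcomap𝔪) hsep ht₁
  have hLPP : ∀ z ∈ 𝔫, ∃ s, s ∉ 𝔫 ∧ s * z ∈ Ideal.span {φ u} ⊔ P :=
    h62l_LP_transport (maximalIdeal A) φ 𝔫 P hmP hP𝔫 hsurj u hu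
  refine ⟨u, huR, hu, hLPP, ?_⟩
  obtain ⟨e, heP', he𝔫⟩ := SetLike.not_le_iff_exists.mp hP'
  intro z hz
  obtain ⟨s, hs, hsz⟩ := hLPP z hz
  obtain ⟨q, hq, p, hp, hsum⟩ := Submodule.mem_sup.mp hsz
  refine ⟨e * s, fun h => (h𝔫p.mem_or_mem h).elim he𝔫 hs, ?_⟩
  have h1 : e * s * z = e * q + e * p := by
    rw [mul_assoc, ← hsum]; ring
  rw [h1]
  refine Ideal.add_mem _ (Ideal.mem_sup_left (Ideal.mul_mem_left _ _ hq))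
    (Ideal.mem_sup_right ?_)
  exact hSF ⟨P.mul_mem_left _ hp, P'.mul_mem_right _ heP'⟩

end Fermat.Agent.LGC
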