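import Fermat.Agent.LGC.H62Final

/-!
# W3-LGC, SS-LOCAL leaf (I2): `P∞ ∩ P₀ ⊆ 𝔪_A B` (helper62)

`h62c_comp : H62Comp A M hℓ hM hA` : an element of the finite chart of level `M ℓ` which is a
non-unit of both Gauss valuation rings is `π z` with `π ∈ 𝔪_A` and `z` in the chart
(`h63r_scale` + QEP for the chart).
-/

set_option autoImplicit false
set_option linter.unusedSectionVars false

open AlgebraicCurve ModularCurve WithZero IsLocalRing Polynomial

noncomputable section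

namespace Fermat.Agent.LGC

open Fermat.Agent.S37 Fermat.Agent.Red Fermat.Agent.Red.GG Fermat.Agent.Red.GV
  Fermat.Agent.Red.GV.Soft Fermat.Agent.Red.Kron Fermat.Agent.Red.KR Fermat.Agent.Red.ModelO

variable (A : ValuationSubring Kbar) (M : ℕ) {ℓ : ℕ} [NeZero M] [NeZero ℓ]

/-- **leaf (I2)**: `P∞ ∩ P₀ ⊆ 𝔪_A B` on the finite chart. -/
theorem h62c_comp (hℓ : ℓ.Prime) (hM : ¬ ℓ ∣ M) (hA : A.LiesOverPrime ℓ) :
    H62Comp A M hℓ hM hA := by
  intro b hb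
  obtain ⟨hb1, hb2⟩ := hb
  have h1 : (b : FF (M * ℓ)) ∈ (softRing A (M * ℓ) hℓ hA).nonunits :=
    (h62i_mem_Pinf A M hℓ hM hA b).mp hb1
  have h2 : kFricke M ℓ hℓ hM (b : FF (M * ℓ)) ∈ (softRing A (M * ℓ) hℓ hA).nonunits :=
    (h62i_mem_P0 A M hℓ hM hA b).mp hb2
  obtain ⟨π, hπ, hπ0, z, hz, hbz⟩ := h63r_scale hℓ hM hA h1 h2
  have hC : IfaceSSChart A M ℓ (jSS M ℓ) := h85s_ifaceSSChart_fin A M ℓ hℓ hM hA
  have hπF : algebraMap A (FF (M * ℓ)) π ≠ 0 := by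
    intro h0
    apply hπ0
    have h3 : algebraMap Kbar (FF (M * ℓ)) (π : Kbar) = 0 := h0
    have h4 : (π : Kbar) = 0 :=
      (algebraMap Kbar (FF (M * ℓ))).injective (h3.trans (map_zero _).symm)
    exact Subtype.ext h4
  have hzB : z ∈ chart (M * ℓ) A (jSS M ℓ) := by
    refine hC.hQEP π hπF z hz ?_
    rw [Algebra.smul_def, ← hbz]
    exact b.2
  have e : b = algebraMap A (chart (M * ℓ) A (jSS M ℓ)) π * ⟨z, hzB⟩ :=
    Subtype.ext hbz
  rw [e]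
  exact Ideal.mul_mem_right _ _ (Ideal.mem_map_of_mem _ hπ)

end Fermat.Agent.LGC
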