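import Fermat.Agent.LGC.Fin71Scale
import Fermat.Agent.Red.GV.SoftRat
import Fermat.Agent.Red.ESTF.FrobSeries
import Fermat.Agent.Red.Kron.Fricke

/-!
# W3-LGC / R2 (helper71): the Frobenius congruences for rational functions

`ℓ` a prime, `A` a valuation subring of `ℚ̄` over `ℓ`, `M` any level, `α, β : F_M → F_{Mℓ}` the
two degeneracy maps (`α` the inclusion, `β u = u(q^ℓ)`), `w` the Fricke involution.

For a RATIONAL function `u ∈ softV A M` (e.g. a rational element of the chart `modelFin M A`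
at a good level):

* `h71r_frob_alpha` : `β u - (α u) ^ ℓ ∈ softV A (M ℓ)` and `softR (β u - (α u) ^ ℓ) = 0`
  (the hypothesis `hRα` of `h62l_local`: `β u ≡ (α u) ^ ℓ mod P_∞`);
* `h71r_frob_beta` : `w (α u - (β u) ^ ℓ) ∈ softV A (M ℓ)` and
  `softR (w (α u - (β u) ^ ℓ)) = 0` (the hypothesis `hRβ`: `α u ≡ (β u) ^ ℓ mod P_0`).

Proof: the reduction `r` of `u` has coefficients in `𝔽_ℓ` (`Soft.softR_of_isRat`), hence
`r(q^ℓ) = r ^ ℓ` (freshman's dream, `ESTF.h76_pow_char_eq_qExpand`).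
-/

set_option autoImplicit false
set_option linter.unusedSectionVars false
set_option linter.style.haveILetI false

open AlgebraicCurve ModularCurve IsLocalRing

noncomputable section

namespace Fermat.Agent.LGC

open Fermat.Agent.S37 Fermat.Agent.Red Fermat.Agent.Red.GV Fermat.Agent.Red.GV.Soft
  Fermat.Agent.Red.Kron

section Frob

variable {k : Type} [Field k] (ℓ : ℕ) [Fact ℓ.Prime] [CharP k ℓ] (κ : ZMod ℓ →+* k)

/-- **freshman's dream for series with coefficients in the prime field.** -/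
theorem h71r_qExpand_eq_pow (r : LaurentSeries (ZMod ℓ)) :
    qExpand k ℓ (coeffMap κ r) = (coeffMap κ r) ^ ℓ := by
  haveI : NeZero ℓ := ⟨(Fact.out : ℓ.Prime).ne_zero⟩
  haveI : ExpChar k ℓ := ExpChar.prime (Fact.out : ℓ.Prime)
  rw [Fermat.Agent.Red.ESTF.h76_pow_char_eq_qExpand ℓ (coeffMap κ r)]
  congr 1
  ext n
  rw [coeffMap_coeff, coeffMap_coeff, frobenius_def, coeffMap_coeff, ← map_pow, ZMod.pow_card]

end Frob

section Main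

variable (A : ValuationSubring Kbar) (M ℓ : ℕ) [NeZero M] [NeZero ℓ]

/-- **R2, `hRα`**: for a rational `u ∈ softV A M`, `β u ≡ (α u) ^ ℓ` modulo the maximal ideal
of `W_∞`. -/
theorem h71r_frob_alpha (hℓ : ℓ.Prime) (hA : A.LiesOverPrime ℓ) (u : FF M) (hrat : IsRat u)
    (hu : u ∈ softV A M) :
    ∃ h : heckeBetaBar Kbar M ℓ u - (heckeAlphaBar Kbar M ℓ u) ^ ℓ ∈ softV A (M * ℓ),
      softR A (M * ℓ) ⟨heckeBetaBar Kbar M ℓ u - (heckeAlphaBar Kbar M ℓ u) ^ ℓ, h⟩ = 0 := by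
  haveI : Fact ℓ.Prime := ⟨hℓ⟩
  have hπ := isResidueMap_residue A ℓ hA
  haveI : CharP (ResidueField A) ℓ := Base.h80_charP A (residue A) ℓ hπ
  set κ := h71s_kappa A (residue A) ℓ hπ with hκ
  obtain ⟨r, hr, -⟩ := softR_of_isRat A M hℓ hA κ u hrat hu
  have hα : heckeAlphaBar Kbar M ℓ u ∈ softV A (M * ℓ) := (alpha_mem_softV_iff A ℓ u).mpr hu
  have hβ : heckeBetaBar Kbar M ℓ u ∈ softV A (M * ℓ) := beta_mem_softV A ℓ u hu
  have hαr := softR_alpha A ℓ ⟨u, hu⟩ hα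
  have hβr := softR_beta A ℓ ⟨u, hu⟩ hβ
  have hmem : heckeBetaBar Kbar M ℓ u - (heckeAlphaBar Kbar M ℓ u) ^ ℓ ∈ softV A (M * ℓ) :=
    sub_mem hβ (pow_mem hα ℓ)
  refine ⟨hmem, ?_⟩
  have e : (⟨heckeBetaBar Kbar M ℓ u - (heckeAlphaBar Kbar M ℓ u) ^ ℓ, hmem⟩ :
      softV A (M * ℓ)) = ⟨heckeBetaBar Kbar M ℓ u, hβ⟩ - ⟨heckeAlphaBar Kbar M ℓ u, hα⟩ ^ ℓ :=
    rfl
  rw [e, map_sub, map_pow, hαr, hβr, hr, h71r_qExpand_eq_pow ℓ κ r, sub_self]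

/-- **R2, `hRβ`**: for a rational `u ∈ softV A M`, `α u ≡ (β u) ^ ℓ` modulo the maximal ideal
of `W_0 = w⁻¹ W_∞`. -/
theorem h71r_frob_beta (hℓ : ℓ.Prime) (hM : ¬ ℓ ∣ M) (hA : A.LiesOverPrime ℓ) (u : FF M)
    (hrat : IsRat u) (hu : u ∈ softV A M) :
    ∃ h : kFricke M ℓ hℓ hM
        (heckeAlphaBar Kbar M ℓ u - (heckeBetaBar Kbar M ℓ u) ^ ℓ) ∈ softV A (M * ℓ),
      softR A (M * ℓ) ⟨kFricke M ℓ hℓ hM
        (heckeAlphaBar Kbar M ℓ u - (heckeBetaBar Kbar M ℓ u) ^ ℓ), h⟩ = 0 := by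
  have e : kFricke M ℓ hℓ hM (heckeAlphaBar Kbar M ℓ u - (heckeBetaBar Kbar M ℓ u) ^ ℓ) =
      heckeBetaBar Kbar M ℓ u - (heckeAlphaBar Kbar M ℓ u) ^ ℓ := by
    rw [map_sub, map_pow, kFricke_alpha, kFricke_beta]
  obtain ⟨h, h0⟩ := h71r_frob_alpha A M ℓ hℓ hA u hrat hu
  refine ⟨by rw [e]; exact h, ?_⟩
  have e' : (⟨kFricke M ℓ hℓ hM (heckeAlphaBar Kbar M ℓ u - (heckeBetaBar Kbar M ℓ u) ^ ℓ),
      by rw [e]; exact h⟩ : softV A (M * ℓ)) =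
      ⟨heckeBetaBar Kbar M ℓ u - (heckeAlphaBar Kbar M ℓ u) ^ ℓ, h⟩ := Subtype.ext e
  rw [e', h0]

/-- `hRα` for the rational elements of the finite chart of a good level. -/
theorem h71r_frob_alpha_modelFin (hℓ : ℓ.Prime) (hM : ¬ ℓ ∣ M) (hA : A.LiesOverPrime ℓ)
    (u : FF M) (hrat : IsRat u) (hu : u ∈ modelFin M A) :
    ∃ h : heckeBetaBar Kbar M ℓ u - (heckeAlphaBar Kbar M ℓ u) ^ ℓ ∈ softV A (M * ℓ),
      softR A (M * ℓ) ⟨heckeBetaBar Kbar M ℓ u - (heckeAlphaBar Kbar M ℓ u) ^ ℓ, h⟩ = 0 :=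
  h71r_frob_alpha A M ℓ hℓ hA u hrat
    (gaussV_le_softV A M (modelFin_le_gaussV A M hℓ hM hA hu))

/-- `hRβ` for the rational elements of the finite chart of a good level. -/
theorem h71r_frob_beta_modelFin (hℓ : ℓ.Prime) (hM : ¬ ℓ ∣ M) (hA : A.LiesOverPrime ℓ)
    (u : FF M) (hrat : IsRat u) (hu : u ∈ modelFin M A) :
    ∃ h : kFricke M ℓ hℓ hM
        (heckeAlphaBar Kbar M ℓ u - (heckeBetaBar Kbar M ℓ u) ^ ℓ) ∈ softV A (M * ℓ),
      softR A (M * ℓ) ⟨kFricke M ℓ hℓ hM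
        (heckeAlphaBar Kbar M ℓ u - (heckeBetaBar Kbar M ℓ u) ^ ℓ), h⟩ = 0 :=
  h71r_frob_beta A M ℓ hℓ hM hA u hrat
    (gaussV_le_softV A M (modelFin_le_gaussV A M hℓ hM hA hu))

end Main

end Fermat.Agent.LGC
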