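import Fermat.Agent.LGC.H62Comp
import Fermat.Agent.LGC.H13LevelM
import Fermat.Agent.LGC.H31Comp
import Fermat.Agent.LGC.H60CompChart
import Fermat.Agent.LGC.H71Frob
import Fermat.Agent.LGC.H57Teich

/-!
# W3-LGC, SS-LOCAL (finite chart): UNCONDITIONAL (helper62)

`h62d_ifaceSSLocal_fin : IfaceSSLocal A M ℓ (jSS M ℓ)` at the good levels
(`ℓ` prime, `ℓ ∤ M`, `auxLevel ℓ ∣ M`, `A` over `ℓ`), from `h62i_ifaceSSLocal_fin` and the landed
leaves: `h62c_comp` (I2), `h13l_hded_fin` / `h13l_hnf_fin` / `h13l_hres` (R1, helper13),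
`h31c_alpha_fin` / `h31c_beta_fin` / `h31c_span_rat_fin` (R3, helper31),
`h60c_hsurjinf_chart` (I7, helper60), `h71r_frob_alpha_modelFin` (R2, helper71),
`h57_hsep_Qbar` (R5, helper57).
-/

set_option autoImplicit false
set_option linter.unusedSectionVars false

open AlgebraicCurve ModularCurve WithZero IsLocalRing Polynomial

noncomputable section

namespace Fermat.Agent.LGC

open Fermat.Agent.S37 Fermat.Agent.Red Fermat.Agent.Red.GG Fermat.Agent.Red.GV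
  Fermat.Agent.Red.GV.Soft Fermat.Agent.Red.Kron Fermat.Agent.Red.KR Fermat.Agent.Red.ModelO

variable (A : ValuationSubring Kbar) (M : ℕ) {ℓ : ℕ} [NeZero M] [NeZero ℓ]

theorem h62d_res : H62Res A M :=
  h13l_hres M A (jB M)

theorem h62d_ker (hℓ : ℓ.Prime) (hM : ¬ ℓ ∣ M) (hA : A.LiesOverPrime ℓ) :
    H62Ker A M hℓ hM hA := by
  constructor
  · intro x hx
    rw [h62i_mem_Pinf_iff_softR] at hx
    exact h31c_mem_mExt A M (jB M) x.2 (h31c_alpha_fin hℓ hM hA (x : FF M) x.2 _ hx)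
  · intro x hx
    rw [h62i_mem_Pinf_iff_softR] at hx
    exact h31c_mem_mExt A M (jB M) x.2 (h31c_beta_fin hℓ hM hA (x : FF M) x.2 _ hx)

theorem h62d_surj (hℓ : ℓ.Prime) (hM : ¬ ℓ ∣ M) (haux : auxLevel ℓ ∣ M)
    (hA : A.LiesOverPrime ℓ) : H62Surj A M hℓ hM hA := by
  intro b
  obtain ⟨x, hx⟩ := h60c_hsurjinf_chart (A := A) (M := M) (ℓ := ℓ)
    Fermat.Agent.Red.SM.h13_ifaceSmooth hℓ hM haux hA
    (h62i_Pinf A M hℓ hM hA)
    (fun b hb => by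
      obtain ⟨h, h0⟩ := hb
      exact (h62i_mem_Pinf_iff_softR A M hℓ hM hA b).mpr h0) b
  exact ⟨x, hx⟩

theorem h62d_span (hℓ : ℓ.Prime) (hM : ¬ ℓ ∣ M) (hA : A.LiesOverPrime ℓ) : H62Span A M :=
  h31c_span_rat_fin A M hℓ hM hA (h62i_R A M) (fun u hu => (h62i_mem_R A M u).mpr hu)

theorem h62d_frob (hℓ : ℓ.Prime) (hM : ¬ ℓ ∣ M) (hA : A.LiesOverPrime ℓ) :
    H62Frob A M hℓ hM hA := by
  intro u hu
  have hrat : IsRat (u : FF M) := (h62i_mem_R A M u).mp hu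
  obtain ⟨h, h0⟩ := h71r_frob_alpha_modelFin A M ℓ hℓ hM hA (u : FF M) hrat u.2
  exact (h62i_mem_Pinf_iff_softR A M hℓ hM hA _).mpr h0

theorem h62d_sep (hℓ : ℓ.Prime) (hA : A.LiesOverPrime ℓ) : H62Sep A :=
  h57_hsep_Qbar A hℓ hA

/-- **SS-LOCAL for the finite chart, unconditional at the good levels.** -/
theorem h62d_ifaceSSLocal_fin (hℓ : ℓ.Prime) (hM : ¬ ℓ ∣ M) (haux : auxLevel ℓ ∣ M)
    (hA : A.LiesOverPrime ℓ) : IfaceSSLocal A M ℓ (jSS M ℓ) :=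
  h62i_ifaceSSLocal_fin A M hℓ hM haux hA (h62c_comp A M hℓ hM hA)
    (h13l_hded_fin M A hℓ hM haux hA) (h13l_hnf_fin M A hℓ hM hA)
    (h62d_res A M) (h62d_ker A M hℓ hM hA) (h62d_surj A M hℓ hM haux hA)
    (h62d_span A M hℓ hM hA) (h62d_frob A M hℓ hM hA) (h62d_sep A hℓ hA)

end Fermat.Agent.LGC
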