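import Fermat.Agent.LGC.H62Inst
import Fermat.Agent.LGC.H4Fin
import Fermat.Agent.LGC.Fin71Final
import Fermat.Agent.LGC.H18Fiber
import Fermat.Agent.LGC.H55Kron
import Fermat.Agent.LGC.SS85Chart

/-!
# W3-LGC, SS-LOCAL (finite chart): the wiring (helper62)

`h62i_ifaceSSLocal_fin` : `IfaceSSLocal A M ℓ (jSS M ℓ)` from the leaf statements
`H62Comp`, `H62Ded`, `H62Res`, `H62Ker`, `H62Surj`, `H62Span`, `H62Frob`, `H62Sep`
(everything else is discharged here from landed work: SS-CHART, SS-FINITE, (I4) Kronecker,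
(I8) places, the Fricke involution).
-/

set_option autoImplicit false
set_option linter.unusedSectionVars false

open AlgebraicCurve ModularCurve WithZero IsLocalRing Polynomial

noncomputable section

namespace Fermat.Agent.LGC

open Fermat.Agent.S37 Fermat.Agent.Red Fermat.Agent.Red.GG Fermat.Agent.Red.GV
  Fermat.Agent.Red.GV.Soft Fermat.Agent.Red.Kron Fermat.Agent.Red.KR Fermat.Agent.Red.ModelO

section Leaves

variable (A : ValuationSubring Kbar) (M : ℕ) {ℓ : ℕ} [NeZero M] [NeZero ℓ]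

/-- the ideal `𝔪_A Λ` of the finite chart of level `M`. -/
abbrev h62i_mΛ : Ideal (chart M A (jB M)) :=
  (maximalIdeal A).map (algebraMap A (chart M A (jB M)))

/-- **leaf (I2)**: the special fibre of the finite chart of level `M ℓ` is the union of the two
components: `P∞ ∩ P₀ ⊆ 𝔪_A B`. -/
def H62Comp (hℓ : ℓ.Prime) (hM : ¬ ℓ ∣ M) (hA : A.LiesOverPrime ℓ) : Prop :=
  h62i_Pinf A M hℓ hM hA ⊓ h62i_P0 A M hℓ hM hA ≤ mExt A M ℓ (jSS M ℓ)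

/-- **leaf (R1)**: the closed points of the special fibre of the finite chart of level `M` are
rational over the residue field of `A`. -/
def H62Res : Prop :=
  ∀ 𝔰 : Ideal (chart M A (jB M)), 𝔰.IsMaximal → h62i_mΛ A M ≤ 𝔰 →
    ∀ x : chart M A (jB M), ∃ a : A, x - algebraMap A (chart M A (jB M)) a ∈ 𝔰

/-- **leaf (R3)**: `α` and `β` pull `P∞` back to `𝔪_A Λ`. -/
def H62Ker (hℓ : ℓ.Prime) (hM : ¬ ℓ ∣ M) (hA : A.LiesOverPrime ℓ) : Prop :=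
  (∀ x : chart M A (jB M), h62i_α A M ℓ x ∈ h62i_Pinf A M hℓ hM hA → x ∈ h62i_mΛ A M) ∧
  (∀ x : chart M A (jB M), h62i_β A M hℓ hM hA x ∈ h62i_Pinf A M hℓ hM hA → x ∈ h62i_mΛ A M)

/-- **leaf (I7)**: `B = α(Λ) + P∞`. -/
def H62Surj (hℓ : ℓ.Prime) (hM : ¬ ℓ ∣ M) (hA : A.LiesOverPrime ℓ) : Prop :=
  ∀ b : chart (M * ℓ) A (jSS M ℓ), ∃ x : chart M A (jB M),
    b - h62i_α A M ℓ x ∈ h62i_Pinf A M hℓ hM hA

/-- **leaf (R3)**: the finite chart of level `M` is spanned over `A` by its functions with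
rational `q`-expansion. -/
def H62Span : Prop :=
  ∀ x : chart M A (jB M), x ∈ Submodule.span A (h62i_R A M : Set (chart M A (jB M)))

/-- **leaf (R2)**: Frobenius congruence on `C∞` for the rational functions:
`β u ≡ (α u) ^ ℓ` modulo `P∞`. -/
def H62Frob (hℓ : ℓ.Prime) (hM : ¬ ℓ ∣ M) (hA : A.LiesOverPrime ℓ) : Prop :=
  ∀ u ∈ h62i_R A M, h62i_β A M hℓ hM hA u - (h62i_α A M ℓ u) ^ ℓ ∈ h62i_Pinf A M hℓ hM hA

/-- **leaf (R5)**: the residue field of `A` is separable algebraic over the prime field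
(and perfect: `h62i_perf` below is unconditional). -/
def H62Sep : Prop :=
  ∀ a : A, ∃ m : ℤ[X], aeval a m ∈ maximalIdeal A ∧ aeval a (derivative m) ∉ maximalIdeal A

end Leaves

section Wiring

variable (A : ValuationSubring Kbar) (M : ℕ) {ℓ : ℕ} [NeZero M] [NeZero ℓ]

theorem h62i_mem_Pinf_iff_softR (hℓ : ℓ.Prime) (hM : ¬ ℓ ∣ M) (hA : A.LiesOverPrime ℓ)
    (b : chart (M * ℓ) A (jSS M ℓ)) :
    b ∈ h62i_Pinf A M hℓ hM hA ↔
      softR A (M * ℓ) ⟨(b : FF (M * ℓ)), h62i_mem_soft A M hℓ hM hA b⟩ = 0 := by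
  rw [h62i_mem_Pinf]
  exact (softR_eq_zero_iff_mem_nonunits A (M * ℓ) hℓ hA
    ⟨(b : FF (M * ℓ)), h62i_mem_soft A M hℓ hM hA b⟩).symm

theorem h62i_mem_P0_iff_softR (hℓ : ℓ.Prime) (hM : ¬ ℓ ∣ M) (hA : A.LiesOverPrime ℓ)
    (b : chart (M * ℓ) A (jSS M ℓ)) :
    b ∈ h62i_P0 A M hℓ hM hA ↔
      softR A (M * ℓ) ⟨kFricke M ℓ hℓ hM (b : FF (M * ℓ)),
        h62i_mem_soft A M hℓ hM hA (h62i_w A M hℓ hM hA b)⟩ = 0 := by
  rw [h62i_mem_P0]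
  exact (softR_eq_zero_iff_mem_nonunits A (M * ℓ) hℓ hA
    ⟨kFricke M ℓ hℓ hM (b : FF (M * ℓ)),
      h62i_mem_soft A M hℓ hM hA (h62i_w A M hℓ hM hA b)⟩).symm

theorem h62i_mem_P0_iff_w (hℓ : ℓ.Prime) (hM : ¬ ℓ ∣ M) (hA : A.LiesOverPrime ℓ)
    (b : chart (M * ℓ) A (jSS M ℓ)) :
    b ∈ h62i_P0 A M hℓ hM hA ↔ h62i_w A M hℓ hM hA b ∈ h62i_Pinf A M hℓ hM hA :=
  Iff.rfl

theorem h62i_w_mem_P0_iff (hℓ : ℓ.Prime) (hM : ¬ ℓ ∣ M) (hA : A.LiesOverPrime ℓ)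
    (b : chart (M * ℓ) A (jSS M ℓ)) :
    h62i_w A M hℓ hM hA b ∈ h62i_P0 A M hℓ hM hA ↔ b ∈ h62i_Pinf A M hℓ hM hA := by
  rw [h62i_mem_P0_iff_w, h62i_w_w]

theorem h62i_w_algebraMap (hℓ : ℓ.Prime) (hM : ¬ ℓ ∣ M) (hA : A.LiesOverPrime ℓ) (a : A) :
    h62i_w A M hℓ hM hA (algebraMap A (chart (M * ℓ) A (jSS M ℓ)) a) =
      algebraMap A (chart (M * ℓ) A (jSS M ℓ)) a :=
  Subtype.ext ((kFricke M ℓ hℓ hM).commutes (a : Kbar))

theorem h62i_m_le_Pinf (hℓ : ℓ.Prime) (hM : ¬ ℓ ∣ M) (hA : A.LiesOverPrime ℓ) :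
    mExt A M ℓ (jSS M ℓ) ≤ h62i_Pinf A M hℓ hM hA := by
  rw [Ideal.map_le_iff_le_comap]
  intro a ha
  rw [Ideal.mem_comap, h62i_mem_Pinf_iff_softR]
  have hc : ((a : A) : Kbar) ∈ A.nonunits := (ValuationSubring.coe_mem_nonunits_iff).mpr ha
  exact softR_cst_of_nonunit A (M * ℓ) (a : Kbar) hc _

theorem h62i_m_le_P0 (hℓ : ℓ.Prime) (hM : ¬ ℓ ∣ M) (hA : A.LiesOverPrime ℓ) :
    mExt A M ℓ (jSS M ℓ) ≤ h62i_P0 A M hℓ hM hA := by
  rw [Ideal.map_le_iff_le_comap]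
  intro a ha
  rw [Ideal.mem_comap, h62i_mem_P0_iff_w, h62i_w_algebraMap]
  exact h62i_m_le_Pinf A M hℓ hM hA (Ideal.mem_map_of_mem _ ha)

theorem h62i_inv_mem_soft (hℓ : ℓ.Prime) (hM : ¬ ℓ ∣ M) (hA : A.LiesOverPrime ℓ)
    (b : chart (M * ℓ) A (jSS M ℓ)) (hb : b ∉ h62i_Pinf A M hℓ hM hA) :
    ((b : FF (M * ℓ)))⁻¹ ∈ softV A (M * ℓ) := by
  rw [h62i_mem_Pinf] at hb
  by_contra h
  apply hb
  by_cases hb0 : (b : FF (M * ℓ)) = 0
  · rw [hb0]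
    exact GalI.zero_mem_nonunits _
  · exact (GalI.mem_nonunits_iff_inv _ hb0).mpr h

/-- the residue field of `A` is perfect. -/
theorem h62i_perf (ℓ : ℕ) [NeZero ℓ] (a : A) : ∃ a' : A, a - a' ^ ℓ ∈ maximalIdeal A := by
  obtain ⟨b, hb⟩ := IsAlgClosed.exists_pow_nat_eq (a : Kbar) (Nat.pos_of_ne_zero (NeZero.ne ℓ))
  have hbA : b ∈ A := by
    by_contra hnot
    have h1 : 1 < A.valuation b := by
      rw [← not_le, A.valuation_le_one_iff]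
      exact hnot
    have h2 : A.valuation (b ^ ℓ) ≤ 1 := by
      rw [hb, A.valuation_le_one_iff]
      exact a.2
    rw [map_pow] at h2
    exact absurd h2 (not_le.mpr (one_lt_pow₀ h1 (NeZero.ne ℓ)))
  refine ⟨⟨b, hbA⟩, ?_⟩
  have e : a - (⟨b, hbA⟩ : A) ^ ℓ = 0 := by
    apply Subtype.ext
    show (a : Kbar) - b ^ ℓ = 0
    rw [hb, sub_self]
  rw [e]
  exact zero_mem _

theorem h62i_natCast_mem (hA : A.LiesOverPrime ℓ) : ((ℓ : ℕ) : A) ∈ maximalIdeal A := by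
  rw [← ValuationSubring.coe_mem_nonunits_iff]
  exact hA

theorem h62i_natCast_ne_zero : ((ℓ : ℕ) : chart (M * ℓ) A (jSS M ℓ)) ≠ 0 := by
  intro h
  have h1 : (((ℓ : ℕ) : chart (M * ℓ) A (jSS M ℓ)) : FF (M * ℓ)) = 0 := by rw [h]; rfl
  have h2 : ((ℓ : ℕ) : FF (M * ℓ)) = 0 := h1
  have h3 : algebraMap Kbar (FF (M * ℓ)) ((ℓ : ℕ) : Kbar) = 0 := by
    rw [map_natCast]
    exact h2
  have h4 : ((ℓ : ℕ) : Kbar) = 0 :=
    (algebraMap Kbar (FF (M * ℓ))).injective (h3.trans (map_zero _).symm)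
  exact NeZero.ne ℓ (Nat.cast_eq_zero.mp h4)

/-- (I4) in the chart vocabulary, from helper55's `h55k_kron`. -/
theorem h62i_kron (hℓ : ℓ.Prime) (hM : ¬ ℓ ∣ M) (hA : A.LiesOverPrime ℓ)
    (u : chart M A (jB M)) (hu : u ∈ h62i_R A M) :
    ∃ r : (chart M A (jB M))[X], r.natDegree ≤ ℓ ∧
      (h62n_poly ℓ (u ^ ℓ) u r).eval₂
        ((h62i_α A M ℓ : chart M A (jB M) →ₐ[A] chart (M * ℓ) A (jSS M ℓ)) :
          chart M A (jB M) →+* chart (M * ℓ) A (jSS M ℓ))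
        (h62i_β A M hℓ hM hA u) = 0 := by
  have hrat : IsRat (u : FF M) := (h62i_mem_R A M u).mp hu
  obtain ⟨r, hr, hdeg, heq⟩ := h55k_kron M ℓ A hℓ hM hA (u : FF M) u.2 hrat
  set ι : chart M A (jB M) →+* FF M := (chart M A (jB M)).val.toRingHom with hι
  have hιinj : Function.Injective ι := Subtype.val_injective
  have hlift : r ∈ Polynomial.lifts ι := by
    rw [Polynomial.lifts_iff_coeff_lifts]
    intro n
    exact ⟨⟨r.coeff n, hr n⟩, rfl⟩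
  rw [Polynomial.mem_lifts] at hlift
  obtain ⟨r', hr'⟩ := hlift
  refine ⟨r', ?_, ?_⟩
  · rw [← Polynomial.natDegree_map_eq_of_injective hιinj r', hr']
    exact hdeg
  · apply Subtype.ext
    set κ : chart (M * ℓ) A (jSS M ℓ) →+* FF (M * ℓ) :=
      (chart (M * ℓ) A (jSS M ℓ)).val.toRingHom with hκ
    show κ (eval₂ _ _ _) = 0
    rw [Polynomial.hom_eval₂]
    have hcomp : κ.comp ((h62i_α A M ℓ : chart M A (jB M) →ₐ[A] chart (M * ℓ) A (jSS M ℓ)) :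
          chart M A (jB M) →+* chart (M * ℓ) A (jSS M ℓ)) =
        ((heckeAlphaBar Kbar M ℓ).toRingHom).comp ι := rfl
    rw [hcomp, ← Polynomial.eval₂_map]
    have hmap : (h62n_poly ℓ (u ^ ℓ) u r').map ι =
        (X - C ((u : FF M) ^ ℓ)) * (X ^ ℓ - C (u : FF M)) + C ((ℓ : ℕ) : FF M) * r := by
      unfold h62n_poly
      simp only [Polynomial.map_add, Polynomial.map_mul, Polynomial.map_sub, Polynomial.map_X,
        Polynomial.map_pow, Polynomial.map_C, hr', map_natCast, map_pow,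
        Polynomial.map_natCast]
      rfl
    rw [hmap]
    exact heq

/-- **SS-LOCAL, finite chart**: `IfaceSSLocal A M ℓ (jSS M ℓ)` from the leaves. -/
theorem h62i_ifaceSSLocal_fin (hℓ : ℓ.Prime) (hM : ¬ ℓ ∣ M) (haux : auxLevel ℓ ∣ M)
    (hA : A.LiesOverPrime ℓ)
    (hComp : H62Comp A M hℓ hM hA)
    (hded : IsDedekindDomain (chart M A (jB M) ⧸ h62i_mΛ A M))
    (hnf : ¬ IsField (chart M A (jB M) ⧸ h62i_mΛ A M))
    (hRes : H62Res A M) (hKer : H62Ker A M hℓ hM hA) (hSurj : H62Surj A M hℓ hM hA)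
    (hSpan : H62Span A M) (hFrob : H62Frob A M hℓ hM hA) (hSep : H62Sep A) :
    IfaceSSLocal A M ℓ (jSS M ℓ) := by
  have _ := hded
  have hC : IfaceSSChart A M ℓ (jSS M ℓ) := h85s_ifaceSSChart_fin A M ℓ hℓ hM hA
  refine h62l_local (A := A) (F := FF (M * ℓ)) (B := chart (M * ℓ) A (jSS M ℓ))
    (V := ssV A M ℓ) (v := chartVal (M * ℓ) (jSS M ℓ)) hC
    (softV A (M * ℓ))
    ((softV A (M * ℓ)).comap (kFricke M ℓ hℓ hM : FF (M * ℓ) →+* FF (M * ℓ)))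
    (fun x hx hwx => h63r_mem_ssV_of_soft hℓ hM hA hx hwx)
    (fun b => h62i_mem_soft A M hℓ hM hA b)
    (fun b => h62i_mem_soft A M hℓ hM hA (h62i_w A M hℓ hM hA b))
    (h62i_Pinf A M hℓ hM hA) (h62i_P0 A M hℓ hM hA)
    hComp (h62i_m_le_Pinf A M hℓ hM hA) (h62i_m_le_P0 A M hℓ hM hA)
    (fun b hb => h62i_inv_mem_soft A M hℓ hM hA b hb)
    (fun b hb => ?_)
    (h62i_α A M ℓ) (h62i_β A M hℓ hM hA)
    (h4f_finite_of_ifaceFinite A M ℓ (h71_ssFinite hℓ hM hA) _ (fun _ => rfl))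
    hnf hRes hKer.1 (fun x hx => ?_) (fun x hx => ?_)
    hSurj (fun b => ?_)
    (h62i_R A M) hSpan ℓ hℓ (h62i_natCast_mem A hA) (h62i_natCast_ne_zero A M)
    hFrob (fun u hu => ?_)
    (fun u hu => h62i_kron A M hℓ hM hA u hu)
    (h62i_perf A ℓ) hSep
    (K := Kbar)
    (fun 𝔫 _ _ _ i _ => ?_)
  · -- hW0
    have h1 : h62i_w A M hℓ hM hA b ∉ h62i_Pinf A M hℓ hM hA := hb
    have h2 := h62i_inv_mem_soft A M hℓ hM hA _ h1
    show kFricke M ℓ hℓ hM ((b : FF (M * ℓ)))⁻¹ ∈ softV A (M * ℓ)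
    rw [map_inv₀]
    exact h2
  · -- hαP0
    apply hKer.2 x
    have h1 : h62i_w A M hℓ hM hA (h62i_α A M ℓ x) ∈ h62i_Pinf A M hℓ hM hA := hx
    rwa [h62i_w_α] at h1
  · -- hβP0
    apply hKer.1 x
    have h1 : h62i_w A M hℓ hM hA (h62i_β A M hℓ hM hA x) ∈ h62i_Pinf A M hℓ hM hA := hx
    rwa [h62i_w_β] at h1
  · -- hsurj0
    obtain ⟨x, hx⟩ := hSurj (h62i_w A M hℓ hM hA b)
    refine ⟨x, ?_⟩
    rw [h62i_mem_P0_iff_w, map_sub, h62i_w_β]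
    exact hx
  · -- hRβ
    rw [h62i_mem_P0_iff_w, map_sub, map_pow, h62i_w_α, h62i_w_β]
    exact hFrob u hu
  · -- hpl
    obtain ⟨T, φ, φ', hiT, hcard, hzero, hag⟩ := h18l_hpl M ℓ A hℓ hM haux i
    exact ⟨T, φ, φ', hiT, hcard, hzero, fun k hk x => hag k hk (h62i_α A M ℓ x) x rfl⟩

end Wiring

end Fermat.Agent.LGC
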