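import Fermat.Agent.LGC.H62TwoComp
import Fermat.Agent.LGC.Skeleton
import Fermat.Agent.LGC.Red63
import Fermat.Agent.LGC.FrickeChart
import Fermat.Agent.LGC.SSV44
import Fermat.Agent.LGC.SS85Generic
import Fermat.Agent.Red.KR.NormFin
import Fermat.Agent.Red.ModelO.RatDefs

/-!
# W3-LGC, SS-LOCAL (finite chart): the concrete objects and the leaf statements (helper62)

`Λ = chart M A (jB M)`, `B = chart (M * ℓ) A (jSS M ℓ)`.

* `h62i_α`, `h62i_β : Λ →ₐ[A] B` : the two degeneracy maps on the finite charts;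
* `h62i_w : B →+* B` : the Fricke involution on the finite chart;
* `h62i_Pinf`, `h62i_P0 : Ideal B` : the two components of the special fibre
  (`b ∈ P∞ ↔ b` is a non-unit of the Gauss valuation ring `W∞ = softRing A (M ℓ)`,
  `b ∈ P₀ ↔ w b ∈ P∞`);
* `h62i_R : Subring Λ` : the functions of the chart with rational `q`-expansion.

Leaf statements (each a `def … : Prop`; nothing is assumed):
`H62Surj` (I7), `H62Fin` (I7 / SS-FINITE), `H62Kron` (I4), `H62Places` (I8), `H62Res`, `H62Sep`.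
-/

set_option autoImplicit false
set_option linter.unusedSectionVars false

open AlgebraicCurve ModularCurve WithZero IsLocalRing Polynomial

noncomputable section

namespace Fermat.Agent.LGC

open Fermat.Agent.S37 Fermat.Agent.Red Fermat.Agent.Red.GG Fermat.Agent.Red.GV
  Fermat.Agent.Red.GV.Soft Fermat.Agent.Red.Kron Fermat.Agent.Red.KR Fermat.Agent.Red.ModelO

section Defs

variable (A : ValuationSubring Kbar) (M ℓ : ℕ) [NeZero M] [NeZero ℓ]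

/-- `α` on the finite charts. -/
def h62i_α : chart M A (jB M) →ₐ[A] chart (M * ℓ) A (jSS M ℓ) where
  toFun x := ⟨heckeAlphaBar Kbar M ℓ (x : FF M),
    map_mem_modelAt (heckeAlphaBar Kbar M ℓ) A x.2⟩
  map_one' := Subtype.ext (map_one _)
  map_mul' _ _ := Subtype.ext (map_mul _ _ _)
  map_zero' := Subtype.ext (map_zero _)
  map_add' _ _ := Subtype.ext (map_add _ _ _)
  commutes' a := Subtype.ext ((heckeAlphaBar Kbar M ℓ).commutes (a : Kbar))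

@[simp]
theorem h62i_coe_α (x : chart M A (jB M)) :
    ((h62i_α A M ℓ x : chart (M * ℓ) A (jSS M ℓ)) : FF (M * ℓ)) =
      heckeAlphaBar Kbar M ℓ (x : FF M) := rfl

variable {ℓ}

theorem h62i_beta_mem (hℓ : ℓ.Prime) (hM : ¬ ℓ ∣ M) (hA : A.LiesOverPrime ℓ)
    (x : chart M A (jB M)) :
    heckeBetaBar Kbar M ℓ (x : FF M) ∈ chart (M * ℓ) A (jSS M ℓ) := by
  rw [h85s_jSS_eq]
  exact h66_modelAt_le_of_mem (M * ℓ) A (meAlpha M ℓ hℓ hM A hA)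
    (map_mem_modelAt (heckeBetaBar Kbar M ℓ) A x.2)

/-- `β` on the finite charts. -/
def h62i_β (hℓ : ℓ.Prime) (hM : ¬ ℓ ∣ M) (hA : A.LiesOverPrime ℓ) :
    chart M A (jB M) →ₐ[A] chart (M * ℓ) A (jSS M ℓ) where
  toFun x := ⟨heckeBetaBar Kbar M ℓ (x : FF M), h62i_beta_mem A M hℓ hM hA x⟩
  map_one' := Subtype.ext (map_one _)
  map_mul' _ _ := Subtype.ext (map_mul _ _ _)
  map_zero' := Subtype.ext (map_zero _)
  map_add' _ _ := Subtype.ext (map_add _ _ _)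
  commutes' a := Subtype.ext ((heckeBetaBar Kbar M ℓ).commutes (a : Kbar))

@[simp]
theorem h62i_coe_β (hℓ : ℓ.Prime) (hM : ¬ ℓ ∣ M) (hA : A.LiesOverPrime ℓ)
    (x : chart M A (jB M)) :
    ((h62i_β A M hℓ hM hA x : chart (M * ℓ) A (jSS M ℓ)) : FF (M * ℓ)) =
      heckeBetaBar Kbar M ℓ (x : FF M) := rfl

theorem h62i_mem_chart_iff (y : FF (M * ℓ)) :
    y ∈ chart (M * ℓ) A (jSS M ℓ) ↔ y ∈ modelFin (M * ℓ) A := by
  rw [h85s_jSS_eq]
  rfl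

theorem h62i_w_mem (hℓ : ℓ.Prime) (hM : ¬ ℓ ∣ M) (hA : A.LiesOverPrime ℓ)
    (b : chart (M * ℓ) A (jSS M ℓ)) :
    kFricke M ℓ hℓ hM (b : FF (M * ℓ)) ∈ chart (M * ℓ) A (jSS M ℓ) := by
  have hb : (b : FF (M * ℓ)) ∈ modelFin (M * ℓ) A := (h62i_mem_chart_iff A M _).mp b.2
  exact (h62i_mem_chart_iff A M _).mpr (h44g_kFricke_mem_modelFin M ℓ hℓ hM A hA hb)

/-- the Fricke involution on the finite chart. -/
def h62i_w (hℓ : ℓ.Prime) (hM : ¬ ℓ ∣ M) (hA : A.LiesOverPrime ℓ) :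
    chart (M * ℓ) A (jSS M ℓ) →+* chart (M * ℓ) A (jSS M ℓ) where
  toFun b := ⟨kFricke M ℓ hℓ hM (b : FF (M * ℓ)), h62i_w_mem A M hℓ hM hA b⟩
  map_one' := Subtype.ext (map_one _)
  map_mul' _ _ := Subtype.ext (map_mul _ _ _)
  map_zero' := Subtype.ext (map_zero _)
  map_add' _ _ := Subtype.ext (map_add _ _ _)

@[simp]
theorem h62i_coe_w (hℓ : ℓ.Prime) (hM : ¬ ℓ ∣ M) (hA : A.LiesOverPrime ℓ)
    (b : chart (M * ℓ) A (jSS M ℓ)) :
    ((h62i_w A M hℓ hM hA b : chart (M * ℓ) A (jSS M ℓ)) : FF (M * ℓ)) =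
      kFricke M ℓ hℓ hM (b : FF (M * ℓ)) := rfl

theorem h62i_w_w (hℓ : ℓ.Prime) (hM : ¬ ℓ ∣ M) (hA : A.LiesOverPrime ℓ)
    (b : chart (M * ℓ) A (jSS M ℓ)) :
    h62i_w A M hℓ hM hA (h62i_w A M hℓ hM hA b) = b :=
  Subtype.ext (kFricke_kFricke M ℓ hℓ hM _)

theorem h62i_w_α (hℓ : ℓ.Prime) (hM : ¬ ℓ ∣ M) (hA : A.LiesOverPrime ℓ)
    (x : chart M A (jB M)) :
    h62i_w A M hℓ hM hA (h62i_α A M ℓ x) = h62i_β A M hℓ hM hA x :=
  Subtype.ext (kFricke_alpha M ℓ hℓ hM _)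

theorem h62i_w_β (hℓ : ℓ.Prime) (hM : ¬ ℓ ∣ M) (hA : A.LiesOverPrime ℓ)
    (x : chart M A (jB M)) :
    h62i_w A M hℓ hM hA (h62i_β A M hℓ hM hA x) = h62i_α A M ℓ x :=
  Subtype.ext (kFricke_beta M ℓ hℓ hM _)

theorem h62i_mem_soft (hℓ : ℓ.Prime) (hM : ¬ ℓ ∣ M) (hA : A.LiesOverPrime ℓ)
    (b : chart (M * ℓ) A (jSS M ℓ)) : (b : FF (M * ℓ)) ∈ softV A (M * ℓ) :=
  h63r_ssV_le_soft hℓ hA (h44v_hBV_fin A M ℓ hℓ hM hA b b.2)

/-- the inclusion of the finite chart into the Gauss valuation ring `W∞`. -/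
def h62i_incl (hℓ : ℓ.Prime) (hM : ¬ ℓ ∣ M) (hA : A.LiesOverPrime ℓ) :
    chart (M * ℓ) A (jSS M ℓ) →+* softRing A (M * ℓ) hℓ hA where
  toFun b := ⟨(b : FF (M * ℓ)), h62i_mem_soft A M hℓ hM hA b⟩
  map_one' := rfl
  map_mul' _ _ := rfl
  map_zero' := rfl
  map_add' _ _ := rfl

/-- the component `P∞` of the special fibre of the finite chart. -/
def h62i_Pinf (hℓ : ℓ.Prime) (hM : ¬ ℓ ∣ M) (hA : A.LiesOverPrime ℓ) :
    Ideal (chart (M * ℓ) A (jSS M ℓ)) :=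
  (maximalIdeal (softRing A (M * ℓ) hℓ hA)).comap (h62i_incl A M hℓ hM hA)

/-- the component `P₀ = w⁻¹ P∞` of the special fibre of the finite chart. -/
def h62i_P0 (hℓ : ℓ.Prime) (hM : ¬ ℓ ∣ M) (hA : A.LiesOverPrime ℓ) :
    Ideal (chart (M * ℓ) A (jSS M ℓ)) :=
  (h62i_Pinf A M hℓ hM hA).comap (h62i_w A M hℓ hM hA)

instance h62i_Pinf_isPrime (hℓ : ℓ.Prime) (hM : ¬ ℓ ∣ M) (hA : A.LiesOverPrime ℓ) :
    (h62i_Pinf A M hℓ hM hA).IsPrime :=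
  Ideal.comap_isPrime _ _

instance h62i_P0_isPrime (hℓ : ℓ.Prime) (hM : ¬ ℓ ∣ M) (hA : A.LiesOverPrime ℓ) :
    (h62i_P0 A M hℓ hM hA).IsPrime :=
  Ideal.comap_isPrime _ _

theorem h62i_mem_Pinf (hℓ : ℓ.Prime) (hM : ¬ ℓ ∣ M) (hA : A.LiesOverPrime ℓ)
    (b : chart (M * ℓ) A (jSS M ℓ)) :
    b ∈ h62i_Pinf A M hℓ hM hA ↔ (b : FF (M * ℓ)) ∈ (softRing A (M * ℓ) hℓ hA).nonunits := by
  rw [h62i_Pinf, Ideal.mem_comap, ← ValuationSubring.coe_mem_nonunits_iff]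
  rfl

theorem h62i_mem_P0 (hℓ : ℓ.Prime) (hM : ¬ ℓ ∣ M) (hA : A.LiesOverPrime ℓ)
    (b : chart (M * ℓ) A (jSS M ℓ)) :
    b ∈ h62i_P0 A M hℓ hM hA ↔
      kFricke M ℓ hℓ hM (b : FF (M * ℓ)) ∈ (softRing A (M * ℓ) hℓ hA).nonunits := by
  rw [h62i_P0, Ideal.mem_comap, h62i_mem_Pinf]
  rfl

/-- the functions of the finite chart of level `M` with rational `q`-expansion. -/
def h62i_R : Subring (chart M A (jB M)) :=
  (h85ratEmb M).range.comap (chart M A (jB M)).val.toRingHom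

theorem h62i_mem_R (x : chart M A (jB M)) : x ∈ h62i_R A M ↔ IsRat (x : FF M) := by
  constructor
  · rintro ⟨y, hy⟩
    have h1 : h85ratEmb M y = (x : FF M) := hy
    rw [← h1]
    exact h85_isRat_ratEmb M y
  · intro h
    obtain ⟨y, hy⟩ := h85_exists_ratEmb_of_isRat h
    exact ⟨y, hy⟩

end Defs

end Fermat.Agent.LGC
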