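import Mathlib
import Fermat.Agent.LGC.H62TwoComp

/-!
# S35 / G-TOR input (helper62): the crossing points are `𝔽_{ℓ²}`-rational, abstract form

`α β : Λ →ₐ[A] B`, `𝔫 ⊇ P∞ + P₀` a maximal ideal of `B` which is the only maximal ideal over
`𝔰 = α⁻¹ 𝔫`; `R ⊆ Λ` a subring with `Λ = A · R`, `β u ≡ (α u) ^ ℓ` mod `P∞` and
`α u ≡ (β u) ^ ℓ` mod `P₀` for `u ∈ R`.  Let `g` be an automorphism of `(A, Λ, B)` compatible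
with `α`, fixing `R`, and inducing the Frobenius `a ↦ a ^ ℓ` on `A ⧸ 𝔪_A`.  Then

* `h62b_values` : `u ^ (ℓ ^ 2) - u ∈ 𝔰` for `u ∈ R` (the values of the rational functions at the
  crossing point lie in `𝔽_{ℓ²}`);
* `h62b_comap_fixed` : `g² x ∈ 𝔰 ↔ x ∈ 𝔰`;
* `h62b_node_fixed` : `g² b ∈ 𝔫 ↔ b ∈ 𝔫`.
-/

set_option autoImplicit false
set_option linter.style.haveILetI false

open Polynomial IsLocalRing

namespace Fermat.Agent.LGC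

section

variable {A : Type*} [CommRing A] [IsLocalRing A] {B : Type*} [CommRing B] [Algebra A B]
  {Λ : Type*} [CommRing Λ] [Algebra A Λ] (α β : Λ →ₐ[A] B)

omit [IsLocalRing A] in
/-- the values of the functions of `R` at a crossing point lie in `𝔽_{ℓ²}`. -/
theorem h62b_values (𝔫 Pinf P0 : Ideal B) [h𝔫 : 𝔫.IsPrime] (hPinf𝔫 : Pinf ≤ 𝔫)
    (hP0𝔫 : P0 ≤ 𝔫) (R : Subring Λ) (ℓ : ℕ)
    (hRα : ∀ u ∈ R, β u - (α u) ^ ℓ ∈ Pinf)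
    (hRβ : ∀ u ∈ R, α u - (β u) ^ ℓ ∈ P0) (u : Λ) (hu : u ∈ R) :
    u ^ (ℓ ^ 2) - u ∈ 𝔫.comap (α : Λ →+* B) := by
  rw [Ideal.mem_comap]
  show α (u ^ (ℓ ^ 2) - u) ∈ 𝔫
  rw [map_sub, map_pow]
  have h1 : (α u ^ ℓ) ^ ℓ - (β u) ^ ℓ ∈ 𝔫 := by
    obtain ⟨d, hd⟩ := sub_dvd_pow_sub_pow (α u ^ ℓ) (β u) ℓ
    rw [hd]
    have h2 : α u ^ ℓ - β u = -(β u - α u ^ ℓ) := by ring
    rw [h2]
    exact 𝔫.mul_mem_right _ (𝔫.neg_mem (hPinf𝔫 (hRα u hu)))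
  have h3 : α u ^ (ℓ ^ 2) - α u = ((α u ^ ℓ) ^ ℓ - (β u) ^ ℓ) - (α u - (β u) ^ ℓ) := by
    rw [pow_two, pow_mul]; ring
  rw [h3]
  exact 𝔫.sub_mem h1 (hP0𝔫 (hRβ u hu))

/-- `g²` maps `𝔰 = α⁻¹ 𝔫` into itself. -/
theorem h62b_comap_le (𝔰 : Ideal Λ) [h𝔰 : 𝔰.IsPrime]
    (hm𝔰 : (maximalIdeal A).map (algebraMap A Λ) ≤ 𝔰)
    (R : Subring Λ) (hRspan : ∀ x : Λ, x ∈ Submodule.span A (R : Set Λ))
    (ℓ : ℕ) (hℓ : ℓ.Prime) (hℓA : (ℓ : A) ∈ maximalIdeal A)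
    (hval : ∀ u ∈ R, u ^ (ℓ ^ 2) - u ∈ 𝔰)
    (gA : A →+* A) (gΛ : Λ →+* Λ)
    (hgA : ∀ a, gΛ (algebraMap A Λ a) = algebraMap A Λ (gA a))
    (hgR : ∀ u ∈ R, gΛ u = u)
    (hfrobA : ∀ a, gA a - a ^ ℓ ∈ maximalIdeal A) (x : Λ) (hx : x ∈ 𝔰) :
    gΛ (gΛ x) ∈ 𝔰 := by
  have : Fact ℓ.Prime := ⟨hℓ⟩
  have : Nontrivial (Λ ⧸ 𝔰) := Ideal.Quotient.nontrivial_iff.mpr h𝔰.ne_top
  have hℓ𝔰 : (ℓ : Λ) ∈ 𝔰 := by
    have h1 : (ℓ : Λ) = algebraMap A Λ (ℓ : A) := (map_natCast (algebraMap A Λ) ℓ).symm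
    rw [h1]
    exact hm𝔰 (Ideal.mem_map_of_mem _ hℓA)
  have : CharP (Λ ⧸ 𝔰) ℓ := by
    rw [CharP.charP_iff_prime_eq_zero hℓ]
    have := Ideal.Quotient.eq_zero_iff_mem.mpr hℓ𝔰
    simpa using this
  set π := Ideal.Quotient.mk 𝔰 with hπ
  set f₁ : Λ →+* Λ ⧸ 𝔰 := π.comp (gΛ.comp gΛ) with hf₁
  set f₂ : Λ →+* Λ ⧸ 𝔰 := ((frobenius (Λ ⧸ 𝔰) ℓ).comp (frobenius (Λ ⧸ 𝔰) ℓ)).comp π with hf₂
  have hf₂x : ∀ y, f₂ y = π y ^ (ℓ ^ 2) := by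
    intro y
    show frobenius (Λ ⧸ 𝔰) ℓ (frobenius (Λ ⧸ 𝔰) ℓ (π y)) = _
    rw [frobenius_def, frobenius_def, ← pow_mul, pow_two]
  have hA2 : ∀ a : A, gA (gA a) - a ^ (ℓ ^ 2) ∈ maximalIdeal A := by
    intro a
    have h1 := hfrobA (gA a)
    have h2 : (gA a) ^ ℓ - (a ^ ℓ) ^ ℓ ∈ maximalIdeal A := by
      obtain ⟨d, hd⟩ := sub_dvd_pow_sub_pow (gA a) (a ^ ℓ) ℓ
      rw [hd]
      exact Ideal.mul_mem_right _ _ (hfrobA a)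
    have h3 : gA (gA a) - a ^ (ℓ ^ 2) = (gA (gA a) - gA a ^ ℓ) + (gA a ^ ℓ - (a ^ ℓ) ^ ℓ) := by
      rw [pow_two, pow_mul]; ring
    rw [h3]
    exact Ideal.add_mem _ h1 h2
  have hfA : ∀ a : A, f₁ (algebraMap A Λ a) = f₂ (algebraMap A Λ a) := by
    intro a
    rw [hf₂x]
    show π (gΛ (gΛ (algebraMap A Λ a))) = _
    rw [hgA, hgA, ← map_pow, ← map_pow, Ideal.Quotient.eq, ← map_sub]
    exact hm𝔰 (Ideal.mem_map_of_mem _ (hA2 a))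
  have hfR : ∀ u ∈ R, f₁ u = f₂ u := by
    intro u hu
    rw [hf₂x]
    show π (gΛ (gΛ u)) = _
    rw [hgR u hu, hgR u hu, ← map_pow, Ideal.Quotient.eq]
    have h1 : u - u ^ (ℓ ^ 2) = -(u ^ (ℓ ^ 2) - u) := by ring
    rw [h1]
    exact 𝔰.neg_mem (hval u hu)
  have key : ∀ y : Λ, y ∈ Submodule.span A (R : Set Λ) → f₁ y = f₂ y := by
    intro y hy
    induction hy using Submodule.span_induction with
    | mem r hr => exact hfR r hr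
    | zero => rw [map_zero, map_zero]
    | add a b _ _ ha hb => rw [map_add, map_add, ha, hb]
    | smul c a _ ha =>
      rw [Algebra.smul_def, map_mul, map_mul, ha, hfA]
  have h1 := key x (hRspan x)
  rw [hf₂x, Ideal.Quotient.eq_zero_iff_mem.mpr hx, zero_pow (pow_ne_zero 2 hℓ.ne_zero)] at h1
  exact Ideal.Quotient.eq_zero_iff_mem.mp h1

/-- `g² x ∈ 𝔰 ↔ x ∈ 𝔰`. -/
theorem h62b_comap_fixed (𝔰 : Ideal Λ) [h𝔰 : 𝔰.IsMaximal]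
    (hm𝔰 : (maximalIdeal A).map (algebraMap A Λ) ≤ 𝔰)
    (R : Subring Λ) (hRspan : ∀ x : Λ, x ∈ Submodule.span A (R : Set Λ))
    (ℓ : ℕ) (hℓ : ℓ.Prime) (hℓA : (ℓ : A) ∈ maximalIdeal A)
    (hval : ∀ u ∈ R, u ^ (ℓ ^ 2) - u ∈ 𝔰)
    (gA : A →+* A) (gΛ : Λ →+* Λ)
    (hgA : ∀ a, gΛ (algebraMap A Λ a) = algebraMap A Λ (gA a))
    (hgR : ∀ u ∈ R, gΛ u = u)
    (hfrobA : ∀ a, gA a - a ^ ℓ ∈ maximalIdeal A) (x : Λ) :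
    gΛ (gΛ x) ∈ 𝔰 ↔ x ∈ 𝔰 := by
  haveI : 𝔰.IsPrime := h𝔰.isPrime
  have hle : 𝔰 ≤ 𝔰.comap (gΛ.comp gΛ) := fun y hy =>
    Ideal.mem_comap.mpr (h62b_comap_le 𝔰 hm𝔰 R hRspan ℓ hℓ hℓA hval gA gΛ hgA hgR hfrobA y hy)
  have hne : 𝔰.comap (gΛ.comp gΛ) ≠ ⊤ := (Ideal.comap_isPrime (gΛ.comp gΛ) 𝔰).ne_top
  have heq : 𝔰 = 𝔰.comap (gΛ.comp gΛ) := h𝔰.eq_of_le hne hle
  constructor
  · intro h
    rw [heq]
    exact Ideal.mem_comap.mpr h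
  · intro h
    exact hle h

/-- **the crossing points are `𝔽_{ℓ²}`-rational**: `g² b ∈ 𝔫 ↔ b ∈ 𝔫`. -/
theorem h62b_node_fixed (𝔫 Pinf P0 : Ideal B) [h𝔫 : 𝔫.IsMaximal] (hPinf𝔫 : Pinf ≤ 𝔫)
    (hP0𝔫 : P0 ≤ 𝔫) (hm𝔫 : (maximalIdeal A).map (algebraMap A B) ≤ 𝔫)
    (h𝔰max : (𝔫.comap (α : Λ →+* B)).IsMaximal)
    (R : Subring Λ) (hRspan : ∀ x : Λ, x ∈ Submodule.span A (R : Set Λ))
    (ℓ : ℕ) (hℓ : ℓ.Prime) (hℓA : (ℓ : A) ∈ maximalIdeal A)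
    (hRα : ∀ u ∈ R, β u - (α u) ^ ℓ ∈ Pinf)
    (hRβ : ∀ u ∈ R, α u - (β u) ^ ℓ ∈ P0)
    (hU : ∀ s : B, s ∉ 𝔫 → ∃ s' : B,
      s * s' - 1 ∈ (𝔫.comap (α : Λ →+* B)).map (α : Λ →+* B))
    (gA : A →+* A) (gΛ : Λ ≃+* Λ) (gB : B ≃+* B)
    (hgα : ∀ x, gB (α x) = α (gΛ x))
    (hgA : ∀ a, gΛ (algebraMap A Λ a) = algebraMap A Λ (gA a))
    (hgR : ∀ u ∈ R, gΛ u = u)
    (hfrobA : ∀ a, gA a - a ^ ℓ ∈ maximalIdeal A) (b : B) :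
    gB (gB b) ∈ 𝔫 ↔ b ∈ 𝔫 := by
  haveI h𝔫p : 𝔫.IsPrime := h𝔫.isPrime
  set 𝔰 : Ideal Λ := 𝔫.comap (α : Λ →+* B) with h𝔰
  have hm𝔰 : (maximalIdeal A).map (algebraMap A Λ) ≤ 𝔰 := fun x hx =>
    Ideal.mem_comap.mpr (hm𝔫 (h62l_map_mem _ α hx))
  have hval : ∀ u ∈ R, u ^ (ℓ ^ 2) - u ∈ 𝔰 :=
    h62b_values α β 𝔫 Pinf P0 hPinf𝔫 hP0𝔫 R ℓ hRα hRβ
  have hfix : ∀ x : Λ, gΛ (gΛ x) ∈ 𝔰 ↔ x ∈ 𝔰 := fun x =>
    h62b_comap_fixed (h𝔰 := h𝔰max) 𝔰 hm𝔰 R hRspan ℓ hℓ hℓA hval gA (gΛ : Λ →+* Λ) hgA hgR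
      hfrobA x
  set J : Ideal B := 𝔰.map (α : Λ →+* B) with hJ
  have hJ𝔫 : J ≤ 𝔫 := Ideal.map_le_iff_le_comap.mpr le_rfl
  -- `g²` and its inverse preserve `J`
  have hJg : ∀ y ∈ J, gB (gB y) ∈ J := by
    have h1 : J ≤ J.comap ((gB : B →+* B).comp (gB : B →+* B)) := by
      rw [hJ, Ideal.map_le_iff_le_comap]
      intro x hx
      rw [Ideal.mem_comap, Ideal.mem_comap]
      show gB (gB (α x)) ∈ J
      rw [hgα, hgα]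
      exact Ideal.mem_map_of_mem _ ((hfix x).mpr hx)
    intro y hy
    exact h1 hy
  have hJg' : ∀ y ∈ J, gB.symm (gB.symm y) ∈ J := by
    have h1 : J ≤ J.comap ((gB.symm : B →+* B).comp (gB.symm : B →+* B)) := by
      rw [hJ, Ideal.map_le_iff_le_comap]
      intro x hx
      rw [Ideal.mem_comap, Ideal.mem_comap]
      show gB.symm (gB.symm (α x)) ∈ J
      have e : gB.symm (gB.symm (α x)) = α (gΛ.symm (gΛ.symm x)) := by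
        apply gB.injective
        apply gB.injective
        rw [RingEquiv.apply_symm_apply, RingEquiv.apply_symm_apply, hgα, hgα,
          RingEquiv.apply_symm_apply, RingEquiv.apply_symm_apply]
      rw [e]
      refine Ideal.mem_map_of_mem _ ?_
      rw [← hfix, RingEquiv.apply_symm_apply, RingEquiv.apply_symm_apply]
      exact hx
    intro y hy
    exact h1 hy
  constructor
  · intro h
    by_contra hb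
    obtain ⟨s', hs'⟩ := hU b hb
    have h1 := hJg _ hs'
    rw [map_sub, map_sub, map_mul, map_mul, map_one, map_one] at h1
    have h2 : (1 : B) ∈ 𝔫 := by
      have h3 : (1 : B) = gB (gB b) * gB (gB s') - (gB (gB b) * gB (gB s') - 1) := by ring
      rw [h3]
      exact 𝔫.sub_mem (𝔫.mul_mem_right _ h) (hJ𝔫 h1)
    exact h𝔫.ne_top ((Ideal.eq_top_iff_one _).mpr h2)
  · intro h
    by_contra hb
    obtain ⟨s', hs'⟩ := hU _ hb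
    have h1 := hJg' _ hs'
    rw [map_sub, map_sub, map_mul, map_mul, map_one, map_one, RingEquiv.symm_apply_apply,
      RingEquiv.symm_apply_apply] at h1
    have h2 : (1 : B) ∈ 𝔫 := by
      have h3 : (1 : B) = b * gB.symm (gB.symm s') - (b * gB.symm (gB.symm s') - 1) := by ring
      rw [h3]
      exact 𝔫.sub_mem (𝔫.mul_mem_right _ h) (hJ𝔫 h1)
    exact h𝔫.ne_top ((Ideal.eq_top_iff_one _).mpr h2)

end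

end Fermat.Agent.LGC
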