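import Fermat.Agent.LGC.Skeleton
import Fermat.Agent.LGC.GateSSOf
import Fermat.Agent.Red.HKMod
import Fermat.Agent.Red.ModelO.Hinj85

/-!
# W3-LGC (helper63): integration of the frozen skeleton

The chain from the frozen interfaces of `LGC/Skeleton.lean` (helper92) to IN-MONO:

* `h63_gateAsmOfLocal : GateAsmOfLocalStatement` (unconditional; the second half of the proof
  of `h26_gate_asm`);
* `ifacePiecesSS_of : LocalAllDDStatement → IfaceSSPieces → IfacePiecesSS`;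
* `gateSS_of_ssPieces : LocalAllDDStatement → IfaceSSPieces → GateSS`;
* `unipGateGood_of_gateSS`, `unipGateMul_of_gateSS`, `unipGate_of_gateSS`;
* `inertiaUnipotentTorsion_of_ssPieces` : the socket `S34.InertiaUnipotentTorsion N p` for all
  `N`, `p`.
-/

set_option autoImplicit false
set_option linter.unusedSectionVars false

open AlgebraicCurve ModularCurve WithZero IsLocalRing

noncomputable section

namespace Fermat.Agent.LGC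

open Fermat.Agent.S37 Fermat.Agent.Red Fermat.Agent.Red.GG Fermat.Agent.Red.GV
  Fermat.Agent.Red.ModelO

/-! ## The abstract assembly -/

universe u v w

/-- **the abstract assembly of the gate from local data** (frozen in `LGC/Skeleton.lean`). -/
theorem h63_gateAsmOfLocal : GateAsmOfLocalStatement.{u, v, w} := by
  intro A _ _ _ F _ _ hAF harch V hVnt j hj B₀ Binf Bm hj₀ hjinf h0m hinfm hm0 hminf r hr hrA
    hroot₀ hrootinf hrootm hqepm ι₀ ι₁ v₀ v₁ hC₀ hC₁ S hS hfin w hw0 π hπ hπ0 hwU hL₀ hL₁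
  classical
  have hAV : ∀ a : A, algebraMap A F a ∈ V := fun a => hC₀.hBV _ (B₀.algebraMap_mem a)
  have hπF : algebraMap A F π ≠ 0 := fun h => hπ0 (hAF (by rw [h, map_zero]))
  have hVπ : algebraMap A F π ∈ V := hAV π
  have hVinv : ∀ x ∈ V, (1 + algebraMap A F π * x)⁻¹ ∈ V := hC₀.hVunit π hπ
  have hVntπ : ∀ x ∈ V, algebraMap A F π * x ≠ 1 := hVnt π hπ
  have hmVstable : ∀ (B : Subalgebra A F), (∀ x ∈ B, x ∈ V) →
      ∀ b ∈ B, ∀ x ∈ h26mV π V, b * x ∈ h26mV π V := by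
    rintro B hBV b hb _ ⟨y, hy, rfl⟩
    exact ⟨b * y, mul_mem (hBV b hb) hy, by ring⟩
  obtain ⟨e₀, he₀, he₀m⟩ := h26_exists_e B₀ w r hr hroot₀ (h26mV π V)
    (hmVstable B₀ hC₀.hBV) (fun 𝔫 h𝔫 => h26_local_for_e harch π hπ0 w r hr hL₀ 𝔫 h𝔫)
  obtain ⟨einf, heinf, heinfm⟩ := h26_exists_e Binf w r hr hrootinf (h26mV π V)
    (hmVstable Binf hC₁.hBV) (fun 𝔫 h𝔫 => h26_local_for_e harch π hπ0 w r hr hL₁ 𝔫 h𝔫)
  have he₀U : e₀ ∈ h26U π V := by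
    obtain ⟨y, hy, h⟩ := he₀m
    exact ⟨y, hy, by rw [← h]; ring⟩
  have heinfU : einf ∈ h26U π V := by
    obtain ⟨y, hy, h⟩ := heinfm
    exact ⟨y, hy, by rw [← h]; ring⟩
  obtain ⟨T, hT, hgen⟩ := h26_L_gen_of_local B₀ j w hw0 r hr hroot₀ S hS hfin
    (fun 𝔫 h𝔫 => h26_local_for_L π w r hr hL₀ 𝔫 h𝔫)
  obtain ⟨G, hG, hGle⟩ := h26_H1_fg (h26L B₀ w r hr hroot₀) (h26L Binf w r hr hrootinf)
    (h26L Bm w r hr hrootm) j hj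
    (fun f hf => h26_mul_mem_L hj₀ hf) (fun f hf => h26_mul_mem_L hjinf hf) (h26_L_mono h0m)
    (fun f hf => h26_L_exists_pow j hj₀ hm0 hf)
    (fun f hf => h26_L_exists_pow j⁻¹ hjinf hminf hf) T hT hgen
  obtain ⟨k, hk⟩ := h26_pow_torsion_bound π hπ0 (harch π hπ hπ0)
    (h26L B₀ w r hr hroot₀ ⊔ h26L Binf w r hr hrootinf) G hG
  refine h26_gate_core π r hr hrA V hVπ hVinv hVntπ B₀ Binf Bm h0m hinfm hC₀.hBV hC₁.hBV
    hroot₀ hrootinf hrootm ?_ ?_ ?_ w hwU ⟨k, fun f hf hn => hk f (hGle hf) hn⟩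
    e₀ he₀ he₀U einf heinf heinfU
  · intro x hx h
    exact hC₀.hQEP π hπF x hx (by rw [Algebra.smul_def]; exact h)
  · intro x hx h
    exact hC₁.hQEP π hπF x hx (by rw [Algebra.smul_def]; exact h)
  · intro x hx h
    exact hqepm π hπF x hx (by rw [Algebra.smul_def]; exact h)

/-! ## Dictionary between the two vocabularies -/

theorem h63_jSS_eq (M ℓ : ℕ) [NeZero M] [NeZero ℓ] : jSS M ℓ = jB (M * ℓ) :=
  Fermat.Agent.Red.HKMod.heckeAlphaBar_jBar M ℓ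

theorem h63_dd_eq_ddiff (N : ℕ) (σ τ : GQ) (u : FF N) : dd N σ τ u = ddiff N σ τ u := by
  unfold dd ddiff
  rw [mul_comm (gal N σ • u) (gal N τ • u)]

theorem unipGateGood_of_gateSS (h : GateSS) : UnipGateGood := by
  intro ℓ hℓ N _ hℓN hℓ2 haux A hA σ hσ τ hτ m hm u hu hord
  obtain ⟨f, hf⟩ := h ℓ hℓ N hℓN hℓ2 haux A hA σ hσ τ hτ m hm u hu hord
  exact ⟨f, by rw [hf, h63_dd_eq_ddiff]⟩

theorem gateSS_of_unipGateGood (h : UnipGateGood) : GateSS := by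
  intro ℓ hℓ N _ hℓN hℓ2 haux A hA σ hσ τ hτ m hm u hu hord
  obtain ⟨f, hf⟩ := h ℓ hℓ N hℓN hℓ2 haux A hA σ hσ τ hτ m hm u hu hord
  exact ⟨f, by rw [hf, h63_dd_eq_ddiff]⟩

/-! ## The pieces -/

section Pieces

variable (A : ValuationSubring Kbar) (M ℓ : ℕ) [NeZero M] [NeZero ℓ]

/-- three nonzero elements of the maximal ideal have a nonzero common divisor in it. -/
theorem h63_common_divisor3 (a b c : A) (ha : a ∈ maximalIdeal A) (ha0 : a ≠ 0)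
    (hb : b ∈ maximalIdeal A) (hc : c ∈ maximalIdeal A) :
    ∃ d ∈ maximalIdeal A, d ≠ 0 ∧ d ∣ a ∧ d ∣ b ∧ d ∣ c := by
  classical
  obtain ⟨d, hd, hd0, hda, hdT⟩ := h26_common_divisor (Finset.univ : Finset (Fin 2))
    (fun i => if i = 0 then b else c) (fun i _ => by split_ifs <;> assumption) a ha ha0
  refine ⟨d, hd, hd0, hda, ?_, ?_⟩
  · simpa using hdT 0 (Finset.mem_univ _)
  · simpa using hdT 1 (Finset.mem_univ _)

/-- the local datum for the double difference on one chart, from the abstract soft theorem. -/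
theorem h63_locDatum_of (hLoc : LocalAllDDStatement.{0, 0, 0}) {ℓ' : ℕ} (hℓ' : ℓ'.Prime)
    (hA : A.LiesOverPrime ℓ') (t : FF (M * ℓ))
    (hC : IfaceSSChart A M ℓ t) (hNt : IfaceSSNt A M ℓ) (hGal : IfaceSSGal A M ℓ)
    (hPerm : IfaceSSPerm A M ℓ t) (hLP : IfaceSSLP A M ℓ t)
    (hGen : IfaceGeneric (M * ℓ) A t)
    (σ : GQ) (hσ : σ ∈ A.inertiaSubgroupIn ℚ) (τ : GQ) (hτ : τ ∈ A.inertiaSubgroupIn ℚ)
    (m : ℕ) (u : FF (M * ℓ)) (hu0 : u ≠ 0)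
    (hord : ∀ v : Place Kbar (FF (M * ℓ)), (m : ℤ) ∣ v.ord u) :
    ∃ π₀ ∈ maximalIdeal A, π₀ ≠ 0 ∧ ∀ π ∈ maximalIdeal A, π ∣ π₀ →
      LocDatum (M * ℓ) A t (ssV A M ℓ) π (ddiff (M * ℓ) σ τ u) m := by
  have hw0 : ddiff (M * ℓ) σ τ u ≠ 0 := by
    unfold ddiff
    exact div_ne_zero (mul_ne_zero (h63_gal_ne_zero _ τ (h63_gal_ne_zero _ σ hu0)) hu0)
      (mul_ne_zero (h63_gal_ne_zero _ τ hu0) (h63_gal_ne_zero _ σ hu0))
  obtain ⟨π₀, hπ₀, hπ₀0, hloc⟩ := hLoc (A := A) (F := FF (M * ℓ)) (B := chart (M * ℓ) A t)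
    (V := ssV A M ℓ) (val := chartVal (M * ℓ) t) hC
    (algebraMap_injective_FF (M * ℓ) A) (harch_of_liesOver A hℓ' hA) hNt
    (SemilinearAut.toRingAut (gal (M * ℓ) σ)) (SemilinearAut.toRingAut (gal (M * ℓ) τ))
    (fun 𝔫 h𝔫 hle x hx k hk => ⟨hPerm σ hσ 𝔫 h𝔫 hle x hx k hk, hPerm τ hτ 𝔫 h𝔫 hle x hx k hk⟩)
    (fun h hh => by
      obtain ⟨π, hπ, hπ0, hmem⟩ := hGal σ hσ τ hτ h hh
      exact ⟨π, hπ, hπ0, hmem⟩)
    hLP hGen u hu0 m (exists_val_eq (M * ℓ) t u hu0 m hord)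
    (by
      have h1 := exists_val_eq (M * ℓ) t (ddiff (M * ℓ) σ τ u) hw0 m
        (h63_dvd_ord_ddiff (M * ℓ) σ τ m u hu0 hord)
      rw [← h63_dd_eq_ddiff] at h1
      exact h1)
  refine ⟨π₀, hπ₀, hπ₀0, fun π hπ hππ₀ 𝔫 h𝔫 hle => ?_⟩
  obtain ⟨g, -, hgU, s, hs, h1, h2⟩ := hloc π hπ hππ₀ 𝔫 h𝔫
  refine ⟨g, hgU hle, s, hs, ?_, ?_⟩
  · rw [← h63_dd_eq_ddiff]; exact h1
  · rw [← h63_dd_eq_ddiff]; exact h2

/-- `IfaceFinite` at level `M * ℓ` from the instance-free form of the skeleton. -/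
theorem h63_ifaceFinite_of (h : IfaceSSFinite A M ℓ) : IfaceFinite (M * ℓ) A (jB (M * ℓ)) := by
  rw [← h63_jSS_eq]
  exact h

/-- **the chart inputs at level `M * ℓ`** in the form consumed by `gateSS_of_pieces`. -/
theorem h63_piecesSSAt_of (hLoc : LocalAllDDStatement.{0, 0, 0}) {ℓ' : ℕ} (hℓ' : ℓ'.Prime)
    (hA : A.LiesOverPrime ℓ')
    (hC₀ : IfaceSSChart A M ℓ (jSS M ℓ)) (hC₁ : IfaceSSChart A M ℓ (jSS M ℓ)⁻¹)
    (hNt : IfaceSSNt A M ℓ) (hFin : IfaceSSFinite A M ℓ) (hGal : IfaceSSGal A M ℓ)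
    (hPerm₀ : IfaceSSPerm A M ℓ (jSS M ℓ)) (hPerm₁ : IfaceSSPerm A M ℓ (jSS M ℓ)⁻¹)
    (hLP₀ : IfaceSSLP A M ℓ (jSS M ℓ)) (hLP₁ : IfaceSSLP A M ℓ (jSS M ℓ)⁻¹) :
    PiecesSSAt ℓ' (M * ℓ) A (ssV A M ℓ) := by
  have hj := h63_jSS_eq M ℓ
  rw [hj] at hC₀ hC₁ hPerm₀ hPerm₁ hLP₀ hLP₁
  have hgen₀ : IfaceGeneric (M * ℓ) A (jB (M * ℓ)) := h85_ifaceGeneric_fin (M * ℓ) hℓ' A hA
  have hgen₁ : IfaceGeneric (M * ℓ) A (jB (M * ℓ))⁻¹ := h85_ifaceGeneric_inf (M * ℓ) hℓ' A hA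
  refine ⟨hC₀, hC₁, hNt, h63_ifaceFinite_of A M ℓ hFin, hgen₀, hgen₁, ?_⟩
  intro σ hσ τ hτ m _ u hu0 hord
  obtain ⟨π₁, hπ₁, hπ₁0, hwU⟩ := hGal σ hσ τ hτ u hu0
  rw [h63_dd_eq_ddiff] at hwU
  obtain ⟨π₀, hπ₀, hπ₀0, hloc₀⟩ := h63_locDatum_of A M ℓ hLoc hℓ' hA (jB (M * ℓ)) hC₀ hNt hGal
    hPerm₀ hLP₀ hgen₀ σ hσ τ hτ m u hu0 hord
  obtain ⟨π₀', hπ₀', hπ₀'0, hloc₁⟩ := h63_locDatum_of A M ℓ hLoc hℓ' hA (jB (M * ℓ))⁻¹ hC₁ hNt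
    hGal hPerm₁ hLP₁ hgen₁ σ hσ τ hτ m u hu0 hord
  obtain ⟨π, hπ, hπ0, h1, h2, h3⟩ := h63_common_divisor3 A π₁ π₀ π₀' hπ₁ hπ₁0 hπ₀ hπ₀'
  refine ⟨π, hπ, hπ0, ?_, hloc₀ π hπ h2, hloc₁ π hπ h3⟩
  have hAV : ∀ a : A, algebraMap A (FF (M * ℓ)) a ∈ ssV A M ℓ := fun a =>
    hC₀.hBV _ ((chart (M * ℓ) A (jB (M * ℓ))).algebraMap_mem a)
  obtain ⟨a, rfl⟩ := h1
  obtain ⟨x, hx, hxe⟩ := hwU
  exact ⟨algebraMap A (FF (M * ℓ)) a * x, mul_mem (hAV a) hx, by rw [hxe, map_mul]; ring⟩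

end Pieces

/-- **the chart inputs of `LGC/GateSSOf.lean` from the frozen skeleton.** -/
theorem ifacePiecesSS_of (hLoc : LocalAllDDStatement.{0, 0, 0}) (hP : IfaceSSPieces) :
    IfacePiecesSS := by
  intro ℓ hℓ N _ hℓN hℓ2 haux A hA
  obtain ⟨M, hM⟩ := hℓN
  have hN : N = M * ℓ := by rw [hM, mul_comm]
  subst hN
  have hM0 : M ≠ 0 := by
    rintro rfl
    exact NeZero.ne (0 * ℓ) (zero_mul ℓ)
  have : NeZero M := ⟨hM0⟩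
  have : NeZero ℓ := ⟨hℓ.ne_zero⟩
  have hℓM : ¬ ℓ ∣ M := by
    rintro ⟨c, rfl⟩
    apply hℓ2
    exact ⟨c, by ring⟩
  have hauxM : auxLevel ℓ ∣ M := by
    have hcop : Nat.Coprime (auxLevel ℓ) ℓ :=
      Nat.Coprime.symm ((Nat.Prime.coprime_iff_not_dvd hℓ).2 (not_dvd_auxLevel hℓ))
    exact hcop.dvd_of_dvd_mul_right haux
  obtain ⟨⟨hC₀, hC₁⟩, hNt, hFin, -, hGal, ⟨hPerm₀, hPerm₁⟩, ⟨hLP₀, hLP₁⟩⟩ :=
    hP ℓ hℓ M hℓM hauxM A hA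
  exact ⟨ssV A M ℓ, h63_piecesSSAt_of A M ℓ hLoc hℓ hA hC₀ hC₁ hNt hFin hGal hPerm₀ hPerm₁
    hLP₀ hLP₁⟩

/-- **the semistable gate from the frozen skeleton.** -/
theorem gateSS_of_ssPieces (hLoc : LocalAllDDStatement.{0, 0, 0}) (hP : IfaceSSPieces) :
    GateSS :=
  gateSS_of_pieces (ifacePiecesSS_of hLoc hP)

/-- **IN-MONO from the frozen skeleton.** -/
theorem inertiaUnipotentTorsion_of_ssPieces (hLoc : LocalAllDDStatement.{0, 0, 0})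
    (hP : IfaceSSPieces) (N p : ℕ) [NeZero N] (hp : p.Prime) :
    Fermat.Agent.S34.InertiaUnipotentTorsion N p :=
  inertiaUnipotentTorsion_of_gateSS (gateSS_of_ssPieces hLoc hP) N p hp

end Fermat.Agent.LGC
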