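import Mathlib

/-!
# W3-LGC, leaf (I4) (helper51): algebra for the Kronecker congruence modulo `ℓ`

* `h51k_exists_C_mul` : a polynomial of degree `≤ n` with coefficients divisible by `a` is
  `C a * r` with `natDegree r ≤ n`.
* `h51k_shift` : if `Ψ = (X - J^ℓ)(X^ℓ - J) + ℓ R` then
  `Ψ(X + t^ℓ) = (X - (J - t)^ℓ)(X^ℓ - (J - t^(ℓ²))) + ℓ r`, with degree bounds.
* `h51k_rat_div_mem` : a rational number in the maximal ideal of a valuation ring over `ℓ`
  is divisible by `ℓ` in the valuation ring.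
-/

set_option autoImplicit false

open Polynomial

namespace Fermat.Agent.LGC

/-- a polynomial of degree `≤ n` all of whose coefficients are multiples of `a` is
`C a * r` with `natDegree r ≤ n`. -/
theorem h51k_exists_C_mul {S : Type*} [CommRing S] (a : S) (n : ℕ) (Δ : S[X])
    (hdeg : Δ.natDegree ≤ n) (hdiv : ∀ m, ∃ b, Δ.coeff m = a * b) :
    ∃ r : S[X], r.natDegree ≤ n ∧ Δ = C a * r := by
  classical
  choose b hb using hdiv
  refine ⟨∑ m ∈ Finset.range (n + 1), C (b m) * X ^ m, ?_, ?_⟩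
  · refine Polynomial.natDegree_sum_le_of_forall_le _ _ fun m hm => ?_
    refine (Polynomial.natDegree_C_mul_X_pow_le (b m) m).trans ?_
    have := Finset.mem_range.1 hm
    omega
  · ext m
    rw [Polynomial.coeff_C_mul, Polynomial.finset_sum_coeff]
    simp only [Polynomial.coeff_C_mul, Polynomial.coeff_X_pow]
    by_cases hm : m < n + 1
    · rw [Finset.sum_eq_single m]
      · simp [hb m]
      · intro k _ hk
        rw [if_neg (fun h => hk h.symm), mul_zero]
      · intro h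
        exact absurd (Finset.mem_range.2 hm) h
    · rw [Polynomial.coeff_eq_zero_of_natDegree_lt (by omega), Finset.sum_eq_zero, mul_zero]
      intro k hk
      have := Finset.mem_range.1 hk
      rw [if_neg (by omega), mul_zero]

/-- the monic part of the Kronecker polynomial. -/
theorem h51k_natDegree_main_sub {S : Type*} [CommRing S] (ℓ : ℕ) (hℓ : 1 ≤ ℓ) (a c : S) :
    ((X - C a) * (X ^ ℓ - C c) - X ^ (ℓ + 1) : S[X]).natDegree ≤ ℓ := by
  have h : ((X - C a) * (X ^ ℓ - C c) - X ^ (ℓ + 1) : S[X]) =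
      C (-a) * X ^ ℓ + C (-c) * X + C (a * c) := by
    simp only [map_neg, map_mul]
    ring
  rw [h]
  compute_degree!

/-- `(X + C s)^(n+1) - X^(n+1)` has degree `≤ n`. -/
theorem h51k_natDegree_shift_pow {S : Type*} [CommRing S] (n : ℕ) (s : S) :
    ((X + C s) ^ (n + 1) - X ^ (n + 1) : S[X]).natDegree ≤ n := by
  rw [Polynomial.natDegree_le_iff_coeff_eq_zero]
  intro m hm
  rw [Polynomial.coeff_sub, Polynomial.coeff_X_add_C_pow, Polynomial.coeff_X_pow]
  rcases Nat.lt_or_ge (n + 1) m with h | h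
  · rw [Nat.choose_eq_zero_of_lt h, if_neg (by omega)]
    simp
  · have hmn : m = n + 1 := by omega
    subst hmn
    simp

/-- **the shift lemma.** -/
theorem h51k_shift {S : Type*} [CommRing S] {ℓ : ℕ} (hℓ : ℓ.Prime) (J t : S) (R : S[X])
    (hR : R.natDegree ≤ ℓ) :
    ∃ r : S[X], r.natDegree ≤ ℓ ∧
      ((X - C (J ^ ℓ)) * (X ^ ℓ - C J) + C (ℓ : S) * R).comp (X + C (t ^ ℓ)) =
        (X - C ((J - t) ^ ℓ)) * (X ^ ℓ - C (J - t ^ (ℓ * ℓ))) + C (ℓ : S) * r := by
  have h1 : 1 ≤ ℓ := hℓ.one_lt.le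
  set Ψ' : S[X] := ((X - C (J ^ ℓ)) * (X ^ ℓ - C J) + C (ℓ : S) * R).comp (X + C (t ^ ℓ))
    with hΨ'
  set M : S[X] := (X - C ((J - t) ^ ℓ)) * (X ^ ℓ - C (J - t ^ (ℓ * ℓ))) with hM
  -- the degree of the difference
  have hdeg : (Ψ' - M).natDegree ≤ ℓ := by
    have e : Ψ' - M = ((X + C (t ^ ℓ)) ^ (ℓ + 1) - X ^ (ℓ + 1)) +
        (((X - C (J ^ ℓ)) * (X ^ ℓ - C J) - X ^ (ℓ + 1)).comp (X + C (t ^ ℓ))) +
        (C (ℓ : S) * R).comp (X + C (t ^ ℓ)) - (M - X ^ (ℓ + 1)) := by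
      rw [hΨ']
      simp only [Polynomial.add_comp, Polynomial.sub_comp, Polynomial.mul_comp,
        Polynomial.pow_comp, Polynomial.X_comp, Polynomial.C_comp]
      ring
    rw [e]
    have hc : ∀ p : S[X], p.natDegree ≤ ℓ → (p.comp (X + C (t ^ ℓ))).natDegree ≤ ℓ := by
      intro p hp
      refine Polynomial.natDegree_comp_le.trans ?_
      calc p.natDegree * (X + C (t ^ ℓ)).natDegree ≤ p.natDegree * 1 :=
            Nat.mul_le_mul_left _ (by compute_degree)
        _ ≤ ℓ := by rw [mul_one]; exact hp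
    refine (Polynomial.natDegree_sub_le _ _).trans (max_le ?_ ?_)
    · refine (Polynomial.natDegree_add_le _ _).trans (max_le ?_ ?_)
      · refine (Polynomial.natDegree_add_le _ _).trans (max_le ?_ ?_)
        · exact h51k_natDegree_shift_pow ℓ _
        · exact hc _ (h51k_natDegree_main_sub ℓ h1 _ _)
      · exact hc _ ((Polynomial.natDegree_C_mul_le _ _).trans hR)
    · exact h51k_natDegree_main_sub ℓ h1 _ _
  -- divisibility
  obtain ⟨e₁, he₁⟩ := exists_add_pow_prime_eq hℓ (J - t) t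
  obtain ⟨E₂, hE₂⟩ := exists_add_pow_prime_eq hℓ (X : S[X]) (C (t ^ ℓ))
  have ha : (J - t) ^ ℓ = J ^ ℓ - t ^ ℓ - (ℓ : S) * ((J - t) * t * e₁) := by
    have : J ^ ℓ = (J - t) ^ ℓ + t ^ ℓ + ↑ℓ * (J - t) * t * e₁ := by
      rw [← he₁]; ring
    rw [this]; ring
  have hpow : (t ^ ℓ) ^ ℓ = t ^ (ℓ * ℓ) := by rw [← pow_mul]
  have hdiv : ∃ Q : S[X], Ψ' - M = C (ℓ : S) * Q := by
    refine ⟨(X - C ((J - t) ^ ℓ)) * (X * C (t ^ ℓ) * E₂) -
      C ((J - t) * t * e₁) * (X ^ ℓ - C (J - t ^ (ℓ * ℓ))) -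
      C (ℓ : S) * C ((J - t) * t * e₁) * (X * C (t ^ ℓ) * E₂) +
      R.comp (X + C (t ^ ℓ)), ?_⟩
    rw [hΨ', hM]
    simp only [Polynomial.add_comp, Polynomial.sub_comp, Polynomial.mul_comp,
      Polynomial.pow_comp, Polynomial.X_comp, Polynomial.C_comp]
    rw [hE₂]
    have hC : (C (J ^ ℓ) : S[X]) = C ((J - t) ^ ℓ) + C (t ^ ℓ) +
        C (ℓ : S) * C ((J - t) * t * e₁) := by
      rw [← map_mul, ← map_add, ← map_add]
      congr 1
      rw [ha]; ring
    have hC2 : (C (J - t ^ (ℓ * ℓ)) : S[X]) = C J - (C (t ^ ℓ)) ^ ℓ := by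
      rw [← map_pow, hpow, map_sub]
    have hℓC : ((ℓ : S[X])) = C (ℓ : S) := by simp
    rw [hC, hC2, hℓC]
    ring
  obtain ⟨Q, hQ⟩ := hdiv
  obtain ⟨r, hr, hΔ⟩ := h51k_exists_C_mul (ℓ : S) ℓ (Ψ' - M) hdeg (fun m => by
    rw [hQ, Polynomial.coeff_C_mul]
    exact ⟨_, rfl⟩)
  refine ⟨r, hr, ?_⟩
  rw [← hΔ]
  ring

/-- an integer prime to `ℓ` is a unit of a valuation ring over `ℓ`. -/
theorem h51k_int_valuation_eq_one {K : Type*} [Field K] (A : ValuationSubring K) {ℓ : ℕ}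
    (hℓ : ℓ.Prime) (hA : (ℓ : K) ∈ A.nonunits) (z : ℤ) (hz : ¬ (ℓ : ℤ) ∣ z) :
    A.valuation (z : K) = 1 := by
  have hcop : IsCoprime z (ℓ : ℤ) := by
    rw [isCoprime_comm]
    exact (Nat.prime_iff_prime_int.1 hℓ).coprime_iff_not_dvd.2 hz
  obtain ⟨s, t, hst⟩ := hcop
  have h1 : (s : K) * (z : K) + (t : K) * (ℓ : K) = 1 := by
    have := congrArg (fun x : ℤ => (x : K)) hst
    push_cast at this
    exact this
  have hzle : A.valuation (z : K) ≤ 1 := (A.valuation_le_one_iff _).2 (intCast_mem A z)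
  have hsle : A.valuation (s : K) ≤ 1 := (A.valuation_le_one_iff _).2 (intCast_mem A s)
  have htle : A.valuation (t : K) ≤ 1 := (A.valuation_le_one_iff _).2 (intCast_mem A t)
  have hℓlt : A.valuation (ℓ : K) < 1 := A.mem_nonunits_iff.1 hA
  have htℓ : A.valuation ((t : K) * (ℓ : K)) < 1 := by
    rw [map_mul]
    exact mul_lt_one_of_nonneg_of_lt_one_right htle zero_le' hℓlt
  by_contra hne
  have hzlt : A.valuation (z : K) < 1 := lt_of_le_of_ne hzle hne
  have hsz : A.valuation ((s : K) * (z : K)) < 1 := by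
    rw [map_mul]
    exact mul_lt_one_of_nonneg_of_lt_one_right hsle zero_le' hzlt
  have h2 : A.valuation (1 : K) < 1 := by
    rw [← h1]
    exact lt_of_le_of_lt (A.valuation.map_add _ _) (max_lt hsz htℓ)
  rw [map_one] at h2
  exact lt_irrefl _ h2

/-- **a rational number in the maximal ideal of a valuation ring over `ℓ` is divisible by
`ℓ` in the valuation ring.** -/
theorem h51k_rat_div_mem {K : Type*} [Field K] [CharZero K] (A : ValuationSubring K) {ℓ : ℕ}
    (hℓ : ℓ.Prime) (hA : (ℓ : K) ∈ A.nonunits) (r : ℚ) (hr : (r : K) ∈ A.nonunits) :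
    (r : K) / (ℓ : K) ∈ A := by
  have hrlt : A.valuation (r : K) < 1 := A.mem_nonunits_iff.1 hr
  have hd0 : (r.den : K) ≠ 0 := by exact_mod_cast r.den_ne_zero
  have hrK : (r : K) = (r.num : K) / (r.den : K) := by
    conv_lhs => rw [← Rat.num_div_den r]
    push_cast
    rfl
  have hdle : A.valuation (r.den : K) ≤ 1 := (A.valuation_le_one_iff _).2 (natCast_mem A _)
  -- `ℓ` divides the numerator
  have hnum : (ℓ : ℤ) ∣ r.num := by
    by_contra hcon
    have h1 := h51k_int_valuation_eq_one A hℓ hA r.num hcon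
    rw [hrK, map_div₀, h1] at hrlt
    have hdpos : 0 < A.valuation (r.den : K) := by
      rw [Valuation.pos_iff]; exact hd0
    have : 1 < A.valuation (r.den : K) := by
      by_contra hle
      push_neg at hle
      have h2 : (1 : A.ValueGroup) ≤ 1 / A.valuation (r.den : K) := by
        rw [le_div_iff₀ hdpos, one_mul]; exact hle
      exact absurd hrlt (not_lt.2 h2)
    exact absurd hdle (not_le.2 this)
  -- `ℓ` does not divide the denominator
  have hden : ¬ (ℓ : ℤ) ∣ (r.den : ℤ) := by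
    intro h
    have h1 : (ℓ : ℤ) ∣ Int.gcd r.num (r.den : ℤ) := Int.dvd_coe_gcd hnum h
    have h2 : Int.gcd r.num (r.den : ℤ) = 1 := by
      have := r.reduced
      rw [Nat.Coprime] at this
      rw [Int.gcd_def]
      simpa using this
    rw [h2] at h1
    have : (ℓ : ℤ) ∣ 1 := by exact_mod_cast h1
    have h3 := Int.eq_one_of_dvd_one (by positivity) this
    have : ℓ = 1 := by exact_mod_cast h3
    exact hℓ.one_lt.ne' this
  have hdv : A.valuation ((r.den : ℤ) : K) = 1 := h51k_int_valuation_eq_one A hℓ hA _ hden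
  obtain ⟨k, hk⟩ := hnum
  have hℓ0 : (ℓ : K) ≠ 0 := by exact_mod_cast hℓ.ne_zero
  have e : (r : K) / (ℓ : K) = (k : K) / ((r.den : ℤ) : K) := by
    rw [hrK, hk]
    push_cast
    field_simp
  rw [e, ← A.valuation_le_one_iff, map_div₀, hdv, div_one]
  exact (A.valuation_le_one_iff _).2 (intCast_mem A k)

end Fermat.Agent.LGC
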