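import Fermat.Agent.LGC.Kron51Alg
import Fermat.Agent.Red.KR.MEAlpha
import Fermat.Agent.Red.Kron51.PolyFF
import Fermat.Agent.S37.Inertia
import Fermat.Agent.S54.Frobenius
import Fermat.Agent.Red.ModelO.ValCrit

/-!
# W3-LGC, leaf (I4) (helper51): the Kronecker congruence modulo `ℓ` for `j`

`Ψ = h69m_Psi N ℓ` is the characteristic polynomial of `β(j) = j(q^ℓ)` over `α(F_N)`.

* `h51k_Psi_fixed` : the `q`-expansions of the coefficients of `Ψ` are fixed by `Gal(ℚ̄/ℚ)`.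
* `h51k_kronecker_j` : `Ψ = (X - j^ℓ)(X^ℓ - j) + ℓ R` with `R` of degree `≤ ℓ` with
  coefficients in the finite chart `modelFin N A` (`A` any valuation ring over `ℓ`).
* `h51k_kronecker_shift` : the shifted form for `u = j - t^ℓ`, `a₁ = j - t`,
  `c = j - t^(ℓ²)`, `t ∈ A`.
-/

set_option autoImplicit false

open ModularCurve AlgebraicCurve Polynomial

noncomputable section

namespace Fermat.Agent.LGC

open Fermat.Agent.S28 Fermat.Agent.Red.GV Fermat.Agent.Red.GV.Asm Fermat.Agent.S37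
open Fermat.Agent.Red.Kron Fermat.Agent.Red.TRK Fermat.Agent.Red.KR Fermat.Agent.Red.Kron51

/-! ### Galois invariance of the product formula -/

/-- `coeffMap σ` and `twistK`. -/
theorem h51k_coeffMap_twistK (σ : Kbar →+* Kbar) (ω : Kbar) (s : LaurentSeries Kbar) :
    coeffMap σ (twistK ω s) = twistK (σ ω) (coeffMap σ s) := by
  ext n
  rw [coeffMap_coeff, coeff_twistK, coeff_twistK, coeffMap_coeff, map_mul, map_zpow₀]

/-- the `j`-series is rational. -/
theorem h51k_coeffMap_jK (σ : Kbar →+* Kbar) : coeffMap σ (jK Kbar) = jK Kbar :=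
  coeffMap_jqModC σ

variable (N ℓ : ℕ) [NeZero N] [NeZero ℓ]

/-- the `q`-expansions of the coefficients of `Ψ` are Galois-invariant. -/
theorem h51k_Psi_fixed (hℓ : ℓ.Prime) (hN : ¬ ℓ ∣ N) (σ : GQ) (m : ℕ) :
    coeffMap (σ : Kbar →+* Kbar) (((h69m_Psi N ℓ).coeff m : FF N) : LaurentSeries Kbar) =
      (((h69m_Psi N ℓ).coeff m : FF N) : LaurentSeries Kbar) := by
  haveI : NeZero ((ℓ : ℕ) : Kbar) := ⟨by exact_mod_cast NeZero.ne ℓ⟩
  obtain ⟨ζ, hζ⟩ := HasEnoughRootsOfUnity.exists_primitiveRoot Kbar ℓ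
  have hζ' : IsPrimitiveRoot (σ ζ) ℓ := hζ.map_of_injective σ.injective
  have h1 := charpolyAlong_alpha_beta N ℓ hℓ hN ζ hζ
    (Fermat.Agent.Red.HKMod.finiteAlong_heckeAlphaBar N ℓ) (jB N)
  have h2 := charpolyAlong_alpha_beta N ℓ hℓ hN (σ ζ) hζ'
    (Fermat.Agent.Red.HKMod.finiteAlong_heckeAlphaBar N ℓ) (jB N)
  rw [coe_jB] at h1 h2
  have h3 : ((h69m_Psi N ℓ).map (kIotaK N ℓ)).map (coeffMap (σ : Kbar →+* Kbar)) =
      (h69m_Psi N ℓ).map (kIotaK N ℓ) := by
    have h5 : (h69m_Psi N ℓ).map (kIotaK N ℓ) = _ := h1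
    have h6 : (h69m_Psi N ℓ).map (kIotaK N ℓ) = _ := h2
    conv_lhs => rw [h5]
    rw [h6]
    simp only [Polynomial.map_mul, Polynomial.map_sub, Polynomial.map_X, Polynomial.map_C,
      Polynomial.map_prod]
    rw [ModularCurve.coeffMap_qExpand, h51k_coeffMap_jK]
    congr 1
    refine Finset.prod_congr rfl fun b _ => ?_
    rw [h51k_coeffMap_twistK, h51k_coeffMap_jK, map_pow]
    rfl
  have h4 := congrArg (fun p : Polynomial (LaurentSeries Kbar) => p.coeff m) h3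
  simp only [Polynomial.coeff_map] at h4
  rw [kIotaK_apply, ModularCurve.coeffMap_qExpand] at h4
  exact qExpand_injective (R := Kbar) ℓ h4

/-! ### The main part -/

/-- `j` as an element of the finite chart. -/
def h51k_jS (A : ValuationSubring Kbar) : modelFin N A := ⟨jB N, Fermat.Agent.Red.ModelO.h85_jB_mem_modelFin N A⟩

/-- the main part `(X - j^ℓ)(X^ℓ - j)` of the Kronecker polynomial, over the finite chart. -/
def h51k_mainS (A : ValuationSubring Kbar) : Polynomial (modelFin N A) :=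
  (X - C (h51k_jS N A ^ ℓ)) * (X ^ ℓ - C (h51k_jS N A))

/-- the main part over `F_N`. -/
def h51k_main : Polynomial (FF N) := (X - C (jB N ^ ℓ)) * (X ^ ℓ - C (jB N))

theorem h51k_mainS_map (A : ValuationSubring Kbar) :
    (h51k_mainS N ℓ A).map (modelFin N A).subtype = h51k_main N ℓ := by
  unfold h51k_mainS h51k_main
  simp only [Polynomial.map_mul, Polynomial.map_sub, Polynomial.map_X, Polynomial.map_pow,
    Polynomial.map_C, map_pow]
  rfl

/-- the main part over `A((q))`. -/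
def h51k_mainA (A : ValuationSubring Kbar) : Polynomial (LaurentSeries A) :=
  (X - C (jqModC A ^ ℓ)) * (X ^ ℓ - C (jqModC A))

theorem h51k_main_map :
    (h51k_main N ℓ).map (algebraMap (FF N) (LaurentSeries Kbar)) =
      (X - C (jK Kbar ^ ℓ)) * (X ^ ℓ - C (jK Kbar)) := by
  unfold h51k_main
  simp only [Polynomial.map_mul, Polynomial.map_sub, Polynomial.map_X, Polynomial.map_pow,
    Polynomial.map_C, map_pow]
  have : algebraMap (FF N) (LaurentSeries Kbar) (jB N) = jK Kbar := coe_jB N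
  rw [this]

theorem h51k_mainA_map (A : ValuationSubring Kbar) :
    (h51k_mainA ℓ A).map (embA A) = (X - C (jK Kbar ^ ℓ)) * (X ^ ℓ - C (jK Kbar)) := by
  unfold h51k_mainA
  simp only [Polynomial.map_mul, Polynomial.map_sub, Polynomial.map_X, Polynomial.map_pow,
    Polynomial.map_C, map_pow]
  rw [embA_jqModC A]

theorem h51k_main_fixed (σ : GQ) (m : ℕ) :
    coeffMap (σ : Kbar →+* Kbar) (((h51k_main N ℓ).coeff m : FF N) : LaurentSeries Kbar) =
      (((h51k_main N ℓ).coeff m : FF N) : LaurentSeries Kbar) := by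
  have h1 : ((h51k_main N ℓ).map (algebraMap (FF N) (LaurentSeries Kbar))).map
      (coeffMap (σ : Kbar →+* Kbar)) =
      (h51k_main N ℓ).map (algebraMap (FF N) (LaurentSeries Kbar)) := by
    rw [h51k_main_map]
    simp only [Polynomial.map_mul, Polynomial.map_sub, Polynomial.map_X, Polynomial.map_pow,
      Polynomial.map_C, map_pow]
    rw [h51k_coeffMap_jK]
  have h2 := congrArg (fun p : Polynomial (LaurentSeries Kbar) => p.coeff m) h1
  simp only [Polynomial.coeff_map] at h2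
  exact h2

theorem h51k_main_embA (A : ValuationSubring Kbar) (m : ℕ) :
    embA A ((h51k_mainA ℓ A).coeff m) =
      (((h51k_main N ℓ).coeff m : FF N) : LaurentSeries Kbar) := by
  have h1 := congrArg (fun p : Polynomial (LaurentSeries Kbar) => p.coeff m)
    ((h51k_mainA_map ℓ A).trans (h51k_main_map N ℓ).symm)
  simp only [Polynomial.coeff_map] at h1
  exact h1

theorem h51k_main_mem (A : ValuationSubring Kbar) (m : ℕ) :
    (h51k_main N ℓ).coeff m ∈ modelFin N A := by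
  rw [← h51k_mainS_map N ℓ A, Polynomial.coeff_map]
  exact ((h51k_mainS N ℓ A).coeff m).2

/-! ### The congruence modulo `ℓ` -/

/-- the difference `Ψ - (X - j^ℓ)(X^ℓ - j)` has `q`-coefficients in `ℓ A`. -/
theorem h51k_diff_coeff (hℓ : ℓ.Prime) (hN : ¬ ℓ ∣ N) (A : ValuationSubring Kbar)
    (hA : A.LiesOverPrime ℓ) (m : ℕ) (n : ℤ) :
    ((((h69m_Psi N ℓ).coeff m - (h51k_main N ℓ).coeff m : FF N) :
      LaurentSeries Kbar).coeff n) / (ℓ : Kbar) ∈ A := by
  haveI hchar : CharP (IsLocalRing.ResidueField A) ℓ := h51_charP_residue A hℓ hA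
  haveI : ExpChar (IsLocalRing.ResidueField A) ℓ := ExpChar.prime hℓ
  obtain ⟨σ, hσ⟩ := Fermat.Agent.S54.exists_isFrobeniusAt_of_liesOverPrime hℓ A hA
  set d : FF N := (h69m_Psi N ℓ).coeff m - (h51k_main N ℓ).coeff m with hd
  -- the congruence modulo the Gauss valuation
  have hjmem : jB N ∈ gaussV A N :=
    mem_gaussSubring_of_embA A _ N (jB N) (jqModC A) (by rw [embA_jqModC, coe_jB])
  obtain ⟨hmem, hred⟩ := h51_charpoly_cong N hℓ hN A hA σ hσ
    (Fermat.Agent.Red.HKMod.finiteAlong_heckeBetaBar N ℓ) (jB N) hjmem m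
  have hEq : (charpolyAlong (heckeBetaBar Kbar N ℓ)
      (Fermat.Agent.Red.HKMod.finiteAlong_heckeBetaBar N ℓ)
      (heckeAlphaBar Kbar N ℓ (jB N))).coeff m -
      ((X - C ((gal N σ⁻¹ • jB N) ^ ℓ)) * (X ^ ℓ - C (gal N σ • jB N)) :
        Polynomial (FF N)).coeff m = d := by
    rw [charpolyAlong_beta_alpha_eq_alpha_beta N ℓ hℓ hN
      (Fermat.Agent.Red.HKMod.finiteAlong_heckeAlphaBar N ℓ)
      (Fermat.Agent.Red.HKMod.finiteAlong_heckeBetaBar N ℓ) (jB N),
      Fermat.Agent.S37.GalI.gal_smul_jB, Fermat.Agent.S37.GalI.gal_smul_jB]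
    rfl
  have key : ∀ (x : FF N) (hx : x ∈ gaussV A N), x = d → gaussR A N ⟨x, hx⟩ = 0 →
      ∃ h : d ∈ gaussV A N, gaussR A N ⟨d, h⟩ = 0 := by
    rintro x hx rfl h
    exact ⟨hx, h⟩
  obtain ⟨hdmem, hdred⟩ := key _ hmem hEq hred
  -- the `q`-expansion of `d` is `A`-integral with reduction zero
  obtain ⟨y₁, hy₁⟩ := h69m_coeff_embA N hℓ hN A m
  set y : LaurentSeries A := y₁ - (h51k_mainA ℓ A).coeff m with hy
  have hyd : embA A y = ((d : FF N) : LaurentSeries Kbar) := by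
    rw [hy, map_sub, hy₁, h51k_main_embA N ℓ A m]
    rfl
  have hyred : redA (IsLocalRing.residue A) y = 0 := by
    rw [← gaussRed_of_embA A _ N ⟨d, hdmem⟩ y hyd]
    exact hdred
  have hcoef : ((y.coeff n : A) : Kbar) ∈ A.nonunits := by
    have h1 := congrArg (fun z : LaurentSeries (IsLocalRing.ResidueField A) => z.coeff n) hyred
    simp only [redA, coeffMap_coeff, HahnSeries.coeff_zero] at h1
    rw [ValuationSubring.coe_mem_nonunits_iff]
    exact (IsLocalRing.residue_eq_zero_iff _).1 h1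
  have hx : ((d : FF N) : LaurentSeries Kbar).coeff n = ((y.coeff n : A) : Kbar) := by
    rw [← hyd, h36_embA_coeff]
  -- rationality
  have hfix : ∀ τ : GQ, τ (((d : FF N) : LaurentSeries Kbar).coeff n) =
      ((d : FF N) : LaurentSeries Kbar).coeff n := by
    intro τ
    have h1 : coeffMap (τ : Kbar →+* Kbar) ((d : FF N) : LaurentSeries Kbar) =
        ((d : FF N) : LaurentSeries Kbar) := by
      have e : ((d : FF N) : LaurentSeries Kbar) =
          (((h69m_Psi N ℓ).coeff m : FF N) : LaurentSeries Kbar) -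
            (((h51k_main N ℓ).coeff m : FF N) : LaurentSeries Kbar) := rfl
      rw [e, map_sub, h51k_Psi_fixed N ℓ hℓ hN τ m, h51k_main_fixed N ℓ τ m]
    have h2 := congrArg (fun z : LaurentSeries Kbar => z.coeff n) h1
    simp only [coeffMap_coeff] at h2
    exact h2
  haveI hGal : IsGalois ℚ Kbar := Fermat.Agent.S54.isGalois_Qbar
  obtain ⟨r, hr⟩ := (InfiniteGalois.mem_range_algebraMap_iff_fixed (k := ℚ) (K := Kbar) _).2 hfix
  have hr' : (r : Kbar) = ((d : FF N) : LaurentSeries Kbar).coeff n := by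
    rw [← hr, eq_ratCast]
  rw [← hr']
  apply h51k_rat_div_mem A hℓ hA r
  rw [hr', hx]
  exact hcoef

/-- the quotient by `ℓ` of the coefficients of the difference lies in the finite chart. -/
theorem h51k_diff_mem (hℓ : ℓ.Prime) (hN : ¬ ℓ ∣ N) (A : ValuationSubring Kbar)
    (hA : A.LiesOverPrime ℓ) (m : ℕ) :
    cst N ((ℓ : Kbar)⁻¹) * ((h69m_Psi N ℓ).coeff m - (h51k_main N ℓ).coeff m) ∈
      modelFin N A := by
  set d : FF N := (h69m_Psi N ℓ).coeff m - (h51k_main N ℓ).coeff m with hd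
  have hℓ0 : (ℓ : Kbar) ≠ 0 := by exact_mod_cast hℓ.ne_zero
  have hcoe : ((cst N ((ℓ : Kbar)⁻¹) * d : FF N) : LaurentSeries Kbar) =
      HahnSeries.C ((ℓ : Kbar)⁻¹) * ((d : FF N) : LaurentSeries Kbar) := by
    have h1 : ((cst N ((ℓ : Kbar)⁻¹) * d : FF N) : LaurentSeries Kbar) =
        ((cst N ((ℓ : Kbar)⁻¹) : FF N) : LaurentSeries Kbar) *
          ((d : FF N) : LaurentSeries Kbar) := rfl
    rw [h1, coe_cst]
  obtain ⟨y, hy⟩ : ∃ y : LaurentSeries A,
      embA A y = ((cst N ((ℓ : Kbar)⁻¹) * d : FF N) : LaurentSeries Kbar) := by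
    rw [exists_embA_eq_iff]
    intro n
    rw [hcoe, HahnSeries.C_mul_eq_smul, HahnSeries.coeff_smul, smul_eq_mul, mul_comm,
      ← div_eq_mul_inv]
    exact h51k_diff_coeff N ℓ hℓ hN A hA m n
  have hG : cst N ((ℓ : Kbar)⁻¹) * d ∈ gaussV A N :=
    mem_gaussSubring_of_embA A _ N _ y hy
  refine mem_modelFin_of_cst_mul A N hℓ hN hA _ hG (ℓ : Kbar) (natCast_mem A ℓ) hℓ0 ?_
  have e : cst N (ℓ : Kbar) * (cst N ((ℓ : Kbar)⁻¹) * d) = d := by
    rw [← mul_assoc, ← map_mul, mul_inv_cancel₀ hℓ0, map_one, one_mul]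
  rw [e, hd]
  exact (modelFin N A).sub_mem (h69m_coeff_mem N hℓ hN A hA m) (h51k_main_mem N ℓ A m)

/-- `Ψ` has degree `ℓ + 1`. -/
theorem h51k_Psi_natDegree (hℓ : ℓ.Prime) (hN : ¬ ℓ ∣ N) :
    (h69m_Psi N ℓ).natDegree = ℓ + 1 := by
  haveI : NeZero ((ℓ : ℕ) : Kbar) := ⟨by exact_mod_cast NeZero.ne ℓ⟩
  obtain ⟨ζ, hζ⟩ := HasEnoughRootsOfUnity.exists_primitiveRoot Kbar ℓ
  have h1 : (h69m_Psi N ℓ).map (kIotaK N ℓ) = _ := charpolyAlong_alpha_beta N ℓ hℓ hN ζ hζ
    (Fermat.Agent.Red.HKMod.finiteAlong_heckeAlphaBar N ℓ) (jB N)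
  have h2 := congrArg Polynomial.natDegree h1
  rw [Polynomial.natDegree_map_eq_of_injective (kIotaK N ℓ).injective] at h2
  rw [h2, Polynomial.natDegree_mul (Polynomial.X_sub_C_ne_zero _)
    (Finset.prod_ne_zero_iff.2 fun b _ => Polynomial.X_sub_C_ne_zero _),
    Polynomial.natDegree_X_sub_C, Polynomial.natDegree_prod _ _
      (fun b _ => Polynomial.X_sub_C_ne_zero _)]
  simp only [Polynomial.natDegree_X_sub_C, Finset.sum_const, Finset.card_range, smul_eq_mul,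
    mul_one]
  omega

/-- the difference has degree `≤ ℓ`. -/
theorem h51k_diff_natDegree (hℓ : ℓ.Prime) (hN : ¬ ℓ ∣ N) :
    (h69m_Psi N ℓ - h51k_main N ℓ).natDegree ≤ ℓ := by
  have hmon : (h69m_Psi N ℓ).Monic := charpolyAlong_monic _ _ _
  have h1 : (h69m_Psi N ℓ - X ^ (ℓ + 1)).natDegree ≤ ℓ := by
    rw [Polynomial.natDegree_le_iff_coeff_eq_zero]
    intro k hk
    rw [Polynomial.coeff_sub, Polynomial.coeff_X_pow]
    rcases Nat.lt_or_ge (ℓ + 1) k with h | h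
    · rw [Polynomial.coeff_eq_zero_of_natDegree_lt (by rw [h51k_Psi_natDegree N ℓ hℓ hN]; exact h),
        if_neg (by omega), sub_zero]
    · have hk' : k = ℓ + 1 := by omega
      subst hk'
      have := hmon.coeff_natDegree
      rw [h51k_Psi_natDegree N ℓ hℓ hN] at this
      rw [this, if_pos rfl, sub_self]
  have h2 : (h51k_main N ℓ - X ^ (ℓ + 1)).natDegree ≤ ℓ :=
    h51k_natDegree_main_sub ℓ hℓ.one_lt.le _ _
  have e : h69m_Psi N ℓ - h51k_main N ℓ =
      (h69m_Psi N ℓ - X ^ (ℓ + 1)) - (h51k_main N ℓ - X ^ (ℓ + 1)) := by ring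
  rw [e]
  exact (Polynomial.natDegree_sub_le _ _).trans (max_le h1 h2)

/-- **(I4) the Kronecker congruence modulo `ℓ` for `j`**: the characteristic polynomial `Ψ`
of `β(j) = j(q^ℓ)` over `α(F_N)` is `(X - j^ℓ)(X^ℓ - j) + ℓ R`, where `R` has degree `≤ ℓ`
and coefficients in the finite chart. -/
theorem h51k_kronecker_j (hℓ : ℓ.Prime) (hN : ¬ ℓ ∣ N) (A : ValuationSubring Kbar)
    (hA : A.LiesOverPrime ℓ) :
    ∃ R : Polynomial (modelFin N A), R.natDegree ≤ ℓ ∧
      (h51k_mainS N ℓ A + C (ℓ : modelFin N A) * R).map (modelFin N A).subtype =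
        h69m_Psi N ℓ := by
  -- the difference over the chart
  have hlift : h69m_Psi N ℓ - h51k_main N ℓ ∈ Polynomial.lifts (modelFin N A).subtype := by
    rw [Polynomial.lifts_iff_coeff_lifts]
    intro m
    rw [Polynomial.coeff_sub]
    exact ⟨⟨_, (modelFin N A).sub_mem (h69m_coeff_mem N hℓ hN A hA m)
      (h51k_main_mem N ℓ A m)⟩, rfl⟩
  obtain ⟨Δ, hΔ⟩ := (Polynomial.mem_lifts _).1 hlift
  have hinj : Function.Injective (modelFin N A).subtype := Subtype.val_injective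
  have hdeg : Δ.natDegree ≤ ℓ := by
    rw [← Polynomial.natDegree_map_eq_of_injective hinj, hΔ]
    exact h51k_diff_natDegree N ℓ hℓ hN
  have hℓ0 : (ℓ : Kbar) ≠ 0 := by exact_mod_cast hℓ.ne_zero
  obtain ⟨R, hR, hΔR⟩ := h51k_exists_C_mul (ℓ : modelFin N A) ℓ Δ hdeg (fun m => by
    refine ⟨⟨_, h51k_diff_mem N ℓ hℓ hN A hA m⟩, ?_⟩
    apply hinj
    have h1 : (modelFin N A).subtype (Δ.coeff m) =
        (h69m_Psi N ℓ).coeff m - (h51k_main N ℓ).coeff m := by
      rw [← Polynomial.coeff_map, hΔ, Polynomial.coeff_sub]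
    rw [h1, map_mul, map_natCast]
    show _ = (ℓ : FF N) * (cst N ((ℓ : Kbar)⁻¹) * _)
    have h2 : (ℓ : FF N) = cst N (ℓ : Kbar) := (map_natCast (algebraMap Kbar (FF N)) ℓ).symm
    rw [h2, ← mul_assoc, ← map_mul, mul_inv_cancel₀ hℓ0, map_one, one_mul])
  refine ⟨R, hR, ?_⟩
  rw [← hΔR, Polynomial.map_add, hΔ, h51k_mainS_map]
  ring

/-! ### The shifted form -/

/-- a constant of `A` as an element of the finite chart. -/
def h51k_cS (A : ValuationSubring Kbar) (t : A) : modelFin N A :=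
  ⟨cst N (t : Kbar), Fermat.Agent.Red.ModelO.h85_cst_mem_modelAt N A _ t.2⟩

/-- the inclusion of the finite chart of level `N` into `F_{Nℓ}` along `α`. -/
def h51k_alphaS (A : ValuationSubring Kbar) : modelFin N A →+* FF (N * ℓ) :=
  ((heckeAlphaBar Kbar N ℓ : FF N →ₐ[Kbar] FF (N * ℓ)) : FF N →+* FF (N * ℓ)).comp
    (modelFin N A).subtype

theorem h51k_alphaS_apply (A : ValuationSubring Kbar) (x : modelFin N A) :
    h51k_alphaS N ℓ A x = heckeAlphaBar Kbar N ℓ (x : FF N) := rfl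

/-- **(I4), root form**: `β(j)` is a root of `(X - j^ℓ)(X^ℓ - j) + ℓ R`. -/
theorem h51k_kronecker_root (hℓ : ℓ.Prime) (hN : ¬ ℓ ∣ N) (A : ValuationSubring Kbar)
    (hA : A.LiesOverPrime ℓ) :
    ∃ R : Polynomial (modelFin N A), R.natDegree ≤ ℓ ∧
      Polynomial.eval₂ (h51k_alphaS N ℓ A) (heckeBetaBar Kbar N ℓ (jB N))
        (h51k_mainS N ℓ A + C (ℓ : modelFin N A) * R) = 0 := by
  obtain ⟨R, hR, hΨ⟩ := h51k_kronecker_j N ℓ hℓ hN A hA
  refine ⟨R, hR, ?_⟩
  unfold h51k_alphaS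
  rw [← Polynomial.eval₂_map, hΨ]
  exact h69m_eval₂_charpolyAlong (heckeAlphaBar Kbar N ℓ)
    (Fermat.Agent.Red.HKMod.finiteAlong_heckeAlphaBar N ℓ) (heckeBetaBar Kbar N ℓ (jB N))

/-- **(I4), shifted form**: for `t ∈ A` put `u = j - t^ℓ`, `a₁ = j - t`, `c = j - t^(ℓ²)`;
then `β(u)` is a root of `(X - a₁^ℓ)(X^ℓ - c) + ℓ r` with `r` of degree `≤ ℓ` over the
finite chart. -/
theorem h51k_kronecker_shift (hℓ : ℓ.Prime) (hN : ¬ ℓ ∣ N) (A : ValuationSubring Kbar)
    (hA : A.LiesOverPrime ℓ) (t : A) :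
    ∃ r : Polynomial (modelFin N A), r.natDegree ≤ ℓ ∧
      Polynomial.eval₂ (h51k_alphaS N ℓ A)
        (heckeBetaBar Kbar N ℓ (jB N - cst N ((t : Kbar) ^ ℓ)))
        ((X - C ((h51k_jS N A - h51k_cS N A t) ^ ℓ)) *
          (X ^ ℓ - C (h51k_jS N A - h51k_cS N A t ^ (ℓ * ℓ))) +
            C (ℓ : modelFin N A) * r) = 0 := by
  obtain ⟨R, hR, hroot⟩ := h51k_kronecker_root N ℓ hℓ hN A hA
  obtain ⟨r, hr, hshift⟩ := h51k_shift hℓ (h51k_jS N A) (h51k_cS N A t) R hR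
  refine ⟨r, hr, ?_⟩
  rw [← hshift, Polynomial.eval₂_comp]
  have h1 : Polynomial.eval₂ (h51k_alphaS N ℓ A)
      (heckeBetaBar Kbar N ℓ (jB N - cst N ((t : Kbar) ^ ℓ)))
      (X + C (h51k_cS N A t ^ ℓ)) = heckeBetaBar Kbar N ℓ (jB N) := by
    rw [Polynomial.eval₂_add, Polynomial.eval₂_X, Polynomial.eval₂_C, h51k_alphaS_apply,
      map_sub]
    have h2 : ((h51k_cS N A t ^ ℓ : modelFin N A) : FF N) = cst N ((t : Kbar) ^ ℓ) := by
      have e1 : ((h51k_cS N A t ^ ℓ : modelFin N A) : FF N) = (cst N (t : Kbar)) ^ ℓ :=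
        map_pow (modelFin N A).subtype (h51k_cS N A t) ℓ
      rw [e1]
      exact (map_pow (algebraMap Kbar (FF N)) (t : Kbar) ℓ).symm
    rw [h2]
    have h3 : heckeAlphaBar Kbar N ℓ (cst N ((t : Kbar) ^ ℓ)) = cst (N * ℓ) ((t : Kbar) ^ ℓ) :=
      (heckeAlphaBar Kbar N ℓ).commutes _
    have h4 : heckeBetaBar Kbar N ℓ (cst N ((t : Kbar) ^ ℓ)) = cst (N * ℓ) ((t : Kbar) ^ ℓ) :=
      (heckeBetaBar Kbar N ℓ).commutes _
    rw [h3, h4]
    ring
  rw [h1]
  exact hroot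

end Fermat.Agent.LGC
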