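import Fermat.Agent.LGC.Res44
import Fermat.Agent.Red.Kron51.Core

/-!
# W3-LGC (helper44): the characteristic polynomial over `α(F_M)` modulo `𝔪`

`ℓ ∤ M` prime, `A` a valuation subring of `ℚ̄` over `ℓ`, `k` its residue field, `N = Mℓ`,
`w` the Fricke involution, `red_∞ = softR`, `red_0 = softR ∘ w`.

* `h44k_charpoly_red` : for `x ∈ ssV = W_∞ ∩ W_0` the characteristic polynomial `P` of `x` over
  `α(F_M)` has Gauss-integral coefficients and, in the variable `t = q^{1/ℓ}`,

    `red P = (X - (red_∞ x)(t^ℓ)) · (X^ℓ - (red_0 x)(t)^ℓ)`.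

  (the special fibre of `X_0(Mℓ) → X_0(M)` has two components, of degrees `1` and `ℓ`, the
  second one purely inseparable).
-/

set_option autoImplicit false
set_option linter.style.haveILetI false
set_option linter.unusedSectionVars false
set_option synthInstance.maxHeartbeats 400000

open AlgebraicCurve ModularCurve IsLocalRing Polynomial

noncomputable section

namespace Fermat.Agent.LGC

open Fermat.Agent.S37 Fermat.Agent.Red Fermat.Agent.Red.GV Fermat.Agent.Red.GV.Soft
  Fermat.Agent.Red.TRK Fermat.Agent.Red.Kron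

section Series

variable {K : Type} [Field K] {A : ValuationSubring K} {k : Type} [Field k] {π : A →+* k}

/-- the reduction commutes with the twist by a unit of `A`. -/
theorem h44k_softRedT_twistK (u : Aˣ) (x : softOT A π)
    (h' : twistK (((u : A) : K)) (x : LaurentSeries K) ∈ softOT A π) :
    softRedT A π ⟨_, h'⟩ = twistK (π (u : A)) (softRedT A π x) := by
  obtain ⟨a, b, h⟩ := x.2
  have hπu : π (u : A) ≠ 0 := (u.map π.toMonoidHom).ne_zero
  have h2 : IsWit A π ((⟨_, h'⟩ : softOT A π) : LaurentSeries K) (h44g_twA u a) (h44g_twA u b) :=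
    h44r_isWit_twistK u h
  rw [softRedT_apply _ h2, softRedT_apply x h, h44g_redA_twA, h44g_redA_twA]
  exact (map_div₀ (twistHom (π (u : A)) hπu) _ _).symm

end Series

variable (A : ValuationSubring Kbar) (M ℓ : ℕ) [NeZero M] [NeZero ℓ]

/-- `y ↦ y(t^ℓ)`, from the Gauss ring of level `M` to the ring of fractions of series. -/
def h44k_e : ↥(softV A M) →+* ↥(softOT A (IsLocalRing.residue A)) :=
  ((qExpand Kbar ℓ).comp ((modularFunctionFieldBar M).val.toRingHom.comp
    (softV A M).subtype)).codRestrict (softOT A (IsLocalRing.residue A))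
    (fun y => mem_softOT_qExpand A _ ℓ y.2)

theorem h44k_coe_e (y : softV A M) :
    ((h44k_e A M ℓ y : softOT A (IsLocalRing.residue A)) : LaurentSeries Kbar) =
      qExpand Kbar ℓ ((y : FF M) : LaurentSeries Kbar) := rfl

theorem h44k_softRedT_e (y : softV A M) :
    softRedT A (IsLocalRing.residue A) (h44k_e A M ℓ y) =
      qExpand (IsLocalRing.ResidueField A) ℓ (softR A M y) :=
  softRedT_qExpand A (IsLocalRing.residue A) ℓ (softIncl A M y) _

theorem h44k_softRedT_comp_e :
    (softRedT A (IsLocalRing.residue A)).comp (h44k_e A M ℓ) =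
      (qExpand (IsLocalRing.ResidueField A) ℓ).comp (softR A M) :=
  RingHom.ext (h44k_softRedT_e A M ℓ)

/-- **the characteristic polynomial over `α(F_M)` modulo `𝔪`.** -/
theorem h44k_charpoly_red (hℓ : ℓ.Prime) (hM : ¬ ℓ ∣ M) (hA : A.LiesOverPrime ℓ)
    (x : FF (M * ℓ)) (hx : x ∈ softV A (M * ℓ))
    (hwx : kFricke M ℓ hℓ hM x ∈ softV A (M * ℓ))
    (P' : Polynomial ↥(softV A M))
    (hP' : P'.map (softV A M).subtype = charpolyAlong (heckeAlphaBar Kbar M ℓ)
      (Fermat.Agent.Red.HKMod.finiteAlong_heckeAlphaBar M ℓ) x) :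
    (P'.map (softR A M)).map (qExpand (IsLocalRing.ResidueField A) ℓ) =
      (X - C (qExpand (IsLocalRing.ResidueField A) ℓ (softR A (M * ℓ) ⟨x, hx⟩))) *
        (X ^ ℓ - C ((softR A (M * ℓ) ⟨_, hwx⟩) ^ ℓ)) := by
  haveI : Fact ℓ.Prime := ⟨hℓ⟩
  haveI : NeZero ((ℓ : ℕ) : Kbar) := ⟨by exact_mod_cast NeZero.ne ℓ⟩
  haveI : CharP (IsLocalRing.ResidueField A) ℓ :=
    Base.h80_charP A (IsLocalRing.residue A) ℓ (isResidueMap_residue A ℓ hA)
  haveI : CharP (LaurentSeries (IsLocalRing.ResidueField A)) ℓ :=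
    charP_of_injective_algebraMap
      (algebraMap (IsLocalRing.ResidueField A)
        (LaurentSeries (IsLocalRing.ResidueField A))).injective ℓ
  obtain ⟨ζ, hζ⟩ := HasEnoughRootsOfUnity.exists_primitiveRoot Kbar ℓ
  obtain ⟨u, hu⟩ := h44g_exists_unit_of_pow_eq_one A (NeZero.ne ℓ) hζ.pow_eq_one
  have hπu : IsLocalRing.residue A (u : A) = 1 := by
    obtain ⟨h, h1⟩ := Fermat.Agent.Red.Kron51.h51_root_mem A (IsLocalRing.residue A) hℓ
      hζ.pow_eq_one
    have e : (⟨ζ, h⟩ : A) = (u : A) := Subtype.ext hu.symm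
    rw [← e]
    exact h1
  have hζb : ∀ b : ℕ, ζ ^ b = ((((u ^ b : Aˣ) : A)) : Kbar) := by
    intro b
    rw [Units.val_pow_eq_pow_val, ← hu]
    rfl
  have hS : qExpand Kbar ℓ (x : LaurentSeries Kbar) ∈ softOT A (IsLocalRing.residue A) :=
    mem_softOT_qExpand A _ ℓ hx
  have hT : ∀ b : ℕ, twistK (ζ ^ b)
      ((kFricke M ℓ hℓ hM x : FF (M * ℓ)) : LaurentSeries Kbar) ∈
        softOT A (IsLocalRing.residue A) := by
    intro b
    rw [hζb b]
    exact h44r_twistK_mem_softOT (u ^ b) hwx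
  have hSred : softRedT A (IsLocalRing.residue A) ⟨_, hS⟩ =
      qExpand (IsLocalRing.ResidueField A) ℓ (softR A (M * ℓ) ⟨x, hx⟩) :=
    softRedT_qExpand A (IsLocalRing.residue A) ℓ (softIncl A (M * ℓ) ⟨x, hx⟩) hS
  have hTred : ∀ b : ℕ, softRedT A (IsLocalRing.residue A) ⟨_, hT b⟩ =
      softR A (M * ℓ) ⟨_, hwx⟩ := by
    intro b
    have h1 := h44k_softRedT_twistK (u ^ b) (softIncl A (M * ℓ) ⟨_, hwx⟩)
      (by rw [coe_softIncl]; exact h44r_twistK_mem_softOT (u ^ b) hwx)
    have h2 : (⟨_, hT b⟩ : softOT A (IsLocalRing.residue A)) =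
        ⟨twistK ((((u ^ b : Aˣ) : A)) : Kbar)
          ((softIncl A (M * ℓ) ⟨_, hwx⟩ : softOT A (IsLocalRing.residue A)) :
            LaurentSeries Kbar),
          by rw [coe_softIncl]; exact h44r_twistK_mem_softOT (u ^ b) hwx⟩ := by
      apply Subtype.ext
      show twistK (ζ ^ b) _ = twistK _ _
      rw [hζb b, coe_softIncl]
    rw [h2, h1, Units.val_pow_eq_pow_val, map_pow, hπu, one_pow, twistK_one_left]
    rfl
  -- the polynomial over `softOT`
  obtain ⟨Q, hQ⟩ : ∃ Q : Polynomial ↥(softOT A (IsLocalRing.residue A)),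
      Q = (X - C ⟨_, hS⟩) * ∏ b ∈ Finset.range ℓ, (X - C ⟨_, hT b⟩) := ⟨_, rfl⟩
  have hQmap : Q.map (softOT A (IsLocalRing.residue A)).subtype =
      h44g_rhsK M ℓ hℓ hM ζ x := by
    rw [hQ, h44g_rhsK, Polynomial.map_mul, Polynomial.map_prod, Polynomial.map_sub,
      Polynomial.map_X, Polynomial.map_C]
    congr 1
    refine Finset.prod_congr rfl (fun b _ => ?_)
    rw [Polynomial.map_sub, Polynomial.map_X, Polynomial.map_C]
    rfl
  have hcomp : (softOT A (IsLocalRing.residue A)).subtype.comp (h44k_e A M ℓ) =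
      (kIotaK M ℓ).comp (softV A M).subtype := by
    ext y
    rfl
  have hPe : P'.map (h44k_e A M ℓ) = Q := by
    apply Polynomial.map_injective (softOT A (IsLocalRing.residue A)).subtype
      Subtype.val_injective
    rw [Polynomial.map_map, hcomp, ← Polynomial.map_map, hP', hQmap]
    exact h44g_charpolyAlong_alpha M ℓ hℓ hM ζ hζ _ x
  have h1 := congrArg (Polynomial.map (softRedT A (IsLocalRing.residue A))) hPe
  rw [Polynomial.map_map, h44k_softRedT_comp_e, ← Polynomial.map_map] at h1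
  rw [h1, hQ, Polynomial.map_mul, Polynomial.map_prod, Polynomial.map_sub, Polynomial.map_X,
    Polynomial.map_C, hSred]
  congr 1
  have h2 : ∀ b ∈ Finset.range ℓ,
      Polynomial.map (softRedT A (IsLocalRing.residue A)) (X - C ⟨_, hT b⟩) =
        X - C (softR A (M * ℓ) ⟨_, hwx⟩) := by
    intro b _
    rw [Polynomial.map_sub, Polynomial.map_X, Polynomial.map_C, hTred b]
  rw [Finset.prod_congr rfl h2, Finset.prod_const, Finset.card_range, sub_pow_char, ← C_pow]

end Fermat.Agent.LGC
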