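import Mathlib

/-!
# W3-LGC: Krull unmixedness for noetherian integrally closed domains (Mathlib only)

Let `R` be a noetherian integrally closed domain and `π ≠ 0`.

* `h68k_core` : if `π ∤ c` there is a prime `Q ∋ π` such that `c / π ∉ R_Q`
  (elementwise: `∀ s ∉ Q, ¬ π ∣ s * c`) and `Q R_Q` is principal
  (elementwise: `∃ t₀ ∈ Q, ∃ s₀ ∉ Q, ∀ t ∈ Q, t₀ ∣ s₀ * t`); moreover `Q.height = 1`.
* `h68k_dvd_of_height_one` : if `c / π ∈ R_P` for every height-one prime `P ∋ π`, then `π ∣ c`.
* `h68k_mem_of_height_one` : the same in the fraction field.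
-/

set_option autoImplicit false

namespace Fermat.Agent.LGC

variable {R : Type*} [CommRing R]

/-- The colon ideal `(π : d) = {t | π ∣ t * d}`. -/
def h68k_col (π d : R) : Ideal R where
  carrier := {t | π ∣ t * d}
  add_mem' := by
    intro a b ha hb
    show π ∣ (a + b) * d
    rw [add_mul]
    exact dvd_add ha hb
  zero_mem' := by simp
  smul_mem' := by
    intro r t ht
    show π ∣ (r * t) * d
    rw [mul_assoc]
    exact Dvd.dvd.mul_left ht r

theorem h68k_mem_col {π d t : R} : t ∈ h68k_col π d ↔ π ∣ t * d := Iff.rfl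

variable [IsDomain R]

/-- A prime `Q` with `t₀ ∈ Q`, `s₀ ∉ Q` and `s₀ Q ⊆ (t₀)` (i.e. `Q R_Q = t₀ R_Q`) which is nonzero
has height one (Krull's principal ideal theorem). -/
theorem h68k_height_eq_one [IsNoetherianRing R] (Q : Ideal R) [hQ : Q.IsPrime] (hQ0 : Q ≠ ⊥)
    (t₀ s₀ : R) (ht₀ : t₀ ∈ Q) (hs₀ : s₀ ∉ Q) (h : ∀ t ∈ Q, t₀ ∣ s₀ * t) : Q.height = 1 := by
  have hmin : Q ∈ (Ideal.span {t₀}).minimalPrimes := by
    refine ⟨⟨hQ, (Ideal.span_singleton_le_iff_mem Q).mpr ht₀⟩, ?_⟩
    rintro P ⟨hP, hPt⟩ hPQ t ht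
    have h1 : s₀ * t ∈ P := hPt (Ideal.mem_span_singleton.mpr (h t ht))
    rcases hP.mem_or_mem h1 with h2 | h2
    · exact absurd (hPQ h2) hs₀
    · exact h2
  have hle : Q.height ≤ 1 :=
    Ideal.height_le_one_of_isPrincipal_of_mem_minimalPrimes (Ideal.span {t₀}) Q hmin
  have hne : Q.height ≠ 0 := fun h0 => hQ0 (Ideal.height_eq_zero_iff_eq_bot.mp h0)
  have hge : 1 ≤ Q.height := Order.one_le_iff_pos.mpr (pos_iff_ne_zero.mpr hne)
  exact le_antisymm hle hge

/-- **Krull unmixedness, core.**  In a noetherian integrally closed domain, if `π ≠ 0` does not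
divide `c`, there is a prime `Q ∋ π` of height one with `c / π ∉ R_Q`; moreover `Q R_Q` is
generated by some `t₀`, and `r * c / π = s₀ / t₀` for some `r`, with `s₀ ∉ Q`. -/
theorem h68k_core [IsNoetherianRing R] [IsIntegrallyClosed R] (π c : R) (hπ : π ≠ 0)
    (hc : ¬ π ∣ c) :
    ∃ Q : Ideal R, Q.IsPrime ∧ π ∈ Q ∧ (∀ s, s ∉ Q → ¬ π ∣ s * c) ∧
      ∃ t₀ ∈ Q, ∃ s₀, s₀ ∉ Q ∧ (∀ t ∈ Q, t₀ ∣ s₀ * t) ∧ ∃ r, t₀ * (r * c) = π * s₀ := by
  classical
  -- the family of colon ideals
  let S : Set (Ideal R) := {J | ∃ r, ¬ π ∣ r * c ∧ J = h68k_col π (r * c)}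
  have hS : S.Nonempty := ⟨h68k_col π (1 * c), 1, by simpa using hc, rfl⟩
  obtain ⟨Q, ⟨r, hr, rfl⟩, hmax⟩ :=
    (set_has_maximal_iff_noetherian (R := R) (M := R)).mpr inferInstance S hS
  set d := r * c with hd
  have hQtop : h68k_col π d ≠ ⊤ := by
    intro h
    have : (1 : R) ∈ h68k_col π d := by rw [h]; trivial
    rw [h68k_mem_col, one_mul] at this
    exact hr this
  have hprime : (h68k_col π d).IsPrime := by
    rw [Ideal.isPrime_iff]
    refine ⟨hQtop, ?_⟩
    intro x y hxy
    by_cases hx : x ∈ h68k_col π d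
    · exact Or.inl hx
    · right
      have hx' : ¬ π ∣ (x * r) * c := by
        rw [mul_assoc]; exact hx
      have hle : h68k_col π d ≤ h68k_col π ((x * r) * c) := by
        intro t ht
        rw [h68k_mem_col] at ht ⊢
        have : t * (x * r * c) = x * (t * d) := by rw [hd]; ring
        rw [this]
        exact Dvd.dvd.mul_left ht x
      have hnlt := hmax (h68k_col π ((x * r) * c)) ⟨x * r, hx', rfl⟩
      have heq : h68k_col π ((x * r) * c) ≤ h68k_col π d := by
        by_contra hcon
        exact hnlt (lt_of_le_of_ne hle (fun e => hcon (e ▸ le_refl _)))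
      apply heq
      rw [h68k_mem_col] at hxy ⊢
      have : y * (x * r * c) = x * y * d := by rw [hd]; ring
      rw [this]; exact hxy
  have hπQ : π ∈ h68k_col π d := by
    rw [h68k_mem_col]; exact dvd_mul_right π d
  have hloc : ∀ s, s ∉ h68k_col π d → ¬ π ∣ s * c := by
    intro s hs hdiv
    apply hs
    rw [h68k_mem_col]
    have : s * d = r * (s * c) := by rw [hd]; ring
    rw [this]
    exact Dvd.dvd.mul_left hdiv r
  refine ⟨h68k_col π d, hprime, hπQ, hloc, ?_⟩
  -- case analysis
  by_cases hcase : ∀ t ∈ h68k_col π d, ∀ u, t * d = π * u → u ∈ h68k_col π d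
  swap
  · have hcase' : ∃ t₀ ∈ h68k_col π d, ∃ s₀, s₀ ∉ h68k_col π d ∧ t₀ * d = π * s₀ := by
      by_contra hcon
      apply hcase
      intro t ht u hu
      by_contra hu'
      exact hcon ⟨t, ht, u, hu', hu⟩
    obtain ⟨t₀, ht₀, s₀, hs₀, hts⟩ := hcase'
    refine ⟨t₀, ht₀, s₀, hs₀, ?_, r, hts⟩
    intro t ht
    obtain ⟨u, hu⟩ := (h68k_mem_col.mp ht)
    refine ⟨u, ?_⟩
    apply mul_left_cancel₀ hπ
    calc π * (s₀ * t) = t * (π * s₀) := by ring
      _ = t * (t₀ * d) := by rw [hts]
      _ = t₀ * (t * d) := by ring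
      _ = t₀ * (π * u) := by rw [hu]
      _ = π * (t₀ * u) := by ring
  · exfalso
    -- `y = d / π` stabilises the image of `Q` in the fraction field, hence is integral
    let K := FractionRing R
    let y : K := algebraMap R K d / algebraMap R K π
    have hπK : algebraMap R K π ≠ 0 := by
      simpa using (IsFractionRing.injective R K).ne hπ
    let N : Submodule R K := Submodule.map (Algebra.linearMap R K) (h68k_col π d)
    have hN0 : N ≠ ⊥ := by
      intro h
      have : algebraMap R K π ∈ N := ⟨π, hπQ, rfl⟩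
      rw [h, Submodule.mem_bot] at this
      exact hπK this
    have hNfg : N.FG := Submodule.FG.map _ (IsNoetherian.noetherian _)
    have hstab : ∀ n ∈ N, y • n ∈ N := by
      rintro n ⟨t, ht, rfl⟩
      obtain ⟨u, hu⟩ := (h68k_mem_col.mp ht)
      have huQ : u ∈ h68k_col π d := hcase t ht u hu
      refine ⟨u, huQ, ?_⟩
      have : algebraMap R K t * algebraMap R K d = algebraMap R K π * algebraMap R K u := by
        rw [← map_mul, ← map_mul, hu]
      show algebraMap R K u = (algebraMap R K d / algebraMap R K π) * algebraMap R K t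
      rw [div_mul_eq_mul_div, eq_div_iff hπK]
      linear_combination -this
    have hint : IsIntegral R y := isIntegral_of_smul_mem_submodule N hN0 hNfg y hstab
    obtain ⟨z, hz⟩ := IsIntegrallyClosed.isIntegral_iff.mp hint
    apply hr
    refine ⟨z, ?_⟩
    apply IsFractionRing.injective R K
    have e : algebraMap R K d = algebraMap R K π * algebraMap R K z := by
      rw [hz]
      show _ = algebraMap R K π * (algebraMap R K d / algebraMap R K π)
      rw [mul_div_cancel₀ _ hπK]
    rw [e, map_mul]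

/-- The prime produced by `h68k_core` has height one. -/
theorem h68k_core_height [IsNoetherianRing R] [IsIntegrallyClosed R] (π c : R) (hπ : π ≠ 0)
    (hc : ¬ π ∣ c) :
    ∃ Q : Ideal R, Q.IsPrime ∧ π ∈ Q ∧ Q.height = 1 ∧ (∀ s, s ∉ Q → ¬ π ∣ s * c) := by
  obtain ⟨Q, hQ, hπQ, hloc, t₀, ht₀, s₀, hs₀, hgen, -⟩ := h68k_core π c hπ hc
  refine ⟨Q, hQ, hπQ, ?_, hloc⟩
  have := hQ
  refine h68k_height_eq_one Q ?_ t₀ s₀ ht₀ hs₀ hgen
  intro h
  rw [h, Ideal.mem_bot] at hπQ
  exact hπ hπQ

/-- **Krull unmixedness, elementwise form.**  If `c / π` lies in `R_P` for every height-one prime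
`P` containing `π`, then `π ∣ c`. -/
theorem h68k_dvd_of_height_one [IsNoetherianRing R] [IsIntegrallyClosed R] (π c : R) (hπ : π ≠ 0)
    (h : ∀ P : Ideal R, P.IsPrime → π ∈ P → P.height = 1 → ∃ s, s ∉ P ∧ π ∣ s * c) :
    π ∣ c := by
  by_contra hc
  obtain ⟨Q, hQ, hπQ, hht, hloc⟩ := h68k_core_height π c hπ hc
  obtain ⟨s, hs, hdiv⟩ := h Q hQ hπQ hht
  exact hloc s hs hdiv

/-- **Krull unmixedness, fraction-field form.**  `x ∈ K`, `π x ∈ R`, and `x ∈ R_P` for every
height-one prime `P ∋ π` imply `x ∈ R`. -/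
theorem h68k_mem_of_height_one [IsNoetherianRing R] [IsIntegrallyClosed R]
    {K : Type*} [Field K] [Algebra R K] [IsFractionRing R K] (π : R) (hπ : π ≠ 0) (x : K)
    (hx : ∃ c : R, algebraMap R K c = algebraMap R K π * x)
    (h : ∀ P : Ideal R, P.IsPrime → π ∈ P → P.height = 1 →
      ∃ s, s ∉ P ∧ ∃ a : R, algebraMap R K a = algebraMap R K s * x) :
    ∃ z : R, algebraMap R K z = x := by
  obtain ⟨c, hc⟩ := hx
  have hπK : algebraMap R K π ≠ 0 := by
    simpa using (IsFractionRing.injective R K).ne hπ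
  have hdvd : π ∣ c := by
    apply h68k_dvd_of_height_one π c hπ
    intro P hP hπP hht
    obtain ⟨s, hs, a, ha⟩ := h P hP hπP hht
    refine ⟨s, hs, a, ?_⟩
    apply IsFractionRing.injective R K
    rw [map_mul, map_mul, hc, ha]; ring
  obtain ⟨z, rfl⟩ := hdvd
  refine ⟨z, ?_⟩
  rw [map_mul] at hc
  exact mul_left_cancel₀ hπK hc

/-! ### Localisation at a height-one prime is a discrete valuation ring -/

/-- In a noetherian integrally closed domain, the localisation at a height-one prime is a
discrete valuation ring. -/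
theorem h68k_isDVR [IsNoetherianRing R] [IsIntegrallyClosed R] (P : Ideal R) [P.IsPrime]
    (hP : P.height = 1) (A : Type*) [CommRing A] [IsDomain A] [Algebra R A]
    [IsLocalization.AtPrime A P] : IsDiscreteValuationRing A := by
  have : IsLocalRing A := IsLocalization.AtPrime.isLocalRing A P
  have : IsNoetherianRing A := IsLocalization.isNoetherianRing P.primeCompl A inferInstance
  have : IsIntegrallyClosed A :=
    isIntegrallyClosed_of_isLocalization A P.primeCompl P.primeCompl_le_nonZeroDivisors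
  have hdim : ringKrullDim A = 1 := by
    rw [IsLocalization.AtPrime.ringKrullDim_eq_height P A, hP]; rfl
  have hKD : Ring.KrullDimLE 1 A := by
    rw [Ring.krullDimLE_iff, hdim]; rfl
  have hnf : ¬ IsField A := by
    intro h
    have h0 := ringKrullDim_eq_zero_of_isField h
    rw [hdim] at h0
    exact one_ne_zero h0
  have hm : IsLocalRing.maximalIdeal A ≠ ⊥ :=
    fun h => hnf (IsLocalRing.isField_iff_maximalIdeal_eq.mpr h)
  have key : IsIntegrallyClosed A ∧ ∃! Q : Ideal A, Q ≠ ⊥ ∧ Q.IsPrime := by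
    refine ⟨inferInstance, IsLocalRing.maximalIdeal A, ⟨hm, inferInstance⟩, ?_⟩
    rintro Q ⟨hQ0, hQ⟩
    exact IsLocalRing.eq_maximalIdeal (hQ.isMaximal_of_ne_bot hQ0)
  exact ((IsDiscreteValuationRing.TFAE A hnf).out 0 3).mpr key

section Field

variable (K : Type*) [Field K] [Algebra R K] [IsFractionRing R K]

/-- The valuation subring `R_P` of the fraction field, for a height-one prime `P` of a
noetherian integrally closed domain. -/
noncomputable def h68k_valuationSubring [IsNoetherianRing R] [IsIntegrallyClosed R]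
    (P : Ideal R) [P.IsPrime] (hP : P.height = 1) : ValuationSubring K :=
  { (Localization.subalgebra.ofField K P.primeCompl P.primeCompl_le_nonZeroDivisors).toSubring with
    mem_or_inv_mem' := by
      intro x
      have : IsLocalization.AtPrime
          (Localization.subalgebra.ofField K P.primeCompl P.primeCompl_le_nonZeroDivisors) P :=
        Localization.subalgebra.isLocalization_ofField K P.primeCompl _
      have := h68k_isDVR P hP
        (Localization.subalgebra.ofField K P.primeCompl P.primeCompl_le_nonZeroDivisors)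
      rcases ValuationRing.isInteger_or_isInteger
        (Localization.subalgebra.ofField K P.primeCompl P.primeCompl_le_nonZeroDivisors) x with
        ⟨a, ha⟩ | ⟨a, ha⟩
      · left; rw [← ha]; exact a.2
      · right; rw [← ha]; exact a.2 }

variable {K}

theorem h68k_mem_valuationSubring_iff [IsNoetherianRing R] [IsIntegrallyClosed R]
    (P : Ideal R) [P.IsPrime] (hP : P.height = 1) (x : K) :
    x ∈ h68k_valuationSubring K P hP ↔
      ∃ s, s ∉ P ∧ ∃ a : R, algebraMap R K a = algebraMap R K s * x := by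
  have hne : ∀ s : R, s ∉ P → algebraMap R K s ≠ 0 := by
    intro s hs h0
    have : s = 0 := (IsFractionRing.injective R K) (by rw [h0, map_zero])
    exact hs (this ▸ P.zero_mem)
  constructor
  · rintro ⟨a, s, hs, rfl⟩
    refine ⟨s, hs, a, ?_⟩
    have := hne s hs
    field_simp
  · rintro ⟨s, hs, a, ha⟩
    refine ⟨a, s, hs, ?_⟩
    have := hne s hs
    rw [ha]
    field_simp

theorem h68k_algebraMap_mem_valuationSubring [IsNoetherianRing R] [IsIntegrallyClosed R]
    (P : Ideal R) [P.IsPrime] (hP : P.height = 1) (r : R) :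
    algebraMap R K r ∈ h68k_valuationSubring K P hP := by
  rw [h68k_mem_valuationSubring_iff]
  exact ⟨1, fun h => (Ideal.IsPrime.ne_top inferInstance) ((Ideal.eq_top_iff_one P).mpr h), r,
    by simp⟩

theorem h68k_algebraMap_mem_nonunits_iff [IsNoetherianRing R] [IsIntegrallyClosed R]
    (P : Ideal R) [hPp : P.IsPrime] (hP : P.height = 1) (r : R) :
    algebraMap R K r ∈ (h68k_valuationSubring K P hP).nonunits ↔ r ∈ P := by
  rw [ValuationSubring.mem_nonunits_iff_or]
  constructor
  · rintro (h0 | hinv)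
    · have : r = 0 := (IsFractionRing.injective R K) (by rw [h0, map_zero])
      exact this ▸ P.zero_mem
    · by_contra hr
      apply hinv
      rw [h68k_mem_valuationSubring_iff]
      refine ⟨r, hr, 1, ?_⟩
      have : algebraMap R K r ≠ 0 := by
        intro h0
        have : r = 0 := (IsFractionRing.injective R K) (by rw [h0, map_zero])
        exact hr (this ▸ P.zero_mem)
      rw [map_one, mul_inv_cancel₀ this]
  · intro hr
    by_cases h0 : algebraMap R K r = 0
    · exact Or.inl h0
    · right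
      rw [h68k_mem_valuationSubring_iff]
      rintro ⟨s, hs, a, ha⟩
      have e : algebraMap R K (a * r) = algebraMap R K s := by
        rw [map_mul, ha, mul_assoc, inv_mul_cancel₀ h0, mul_one]
      have e' : a * r = s := IsFractionRing.injective R K e
      exact hs (e' ▸ P.mul_mem_left a hr)

/-- **Domination.**  A valuation subring `V ⊇ R` of the fraction field whose centre on `R` is a
height-one prime `P` is contained in `R_P`: every `x ∈ V` is of the form `a / s` with
`s ∉ P`. -/
theorem h68k_exists_of_mem_valuationSubring [IsNoetherianRing R] [IsIntegrallyClosed R]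
    (P : Ideal R) [P.IsPrime] (hP : P.height = 1) (V : ValuationSubring K)
    (hPV : ∀ r : R, algebraMap R K r ∈ V.nonunits ↔ r ∈ P)
    (x : K) (hx : x ∈ V) : ∃ s, s ∉ P ∧ ∃ a : R, algebraMap R K a = algebraMap R K s * x := by
  rw [← h68k_mem_valuationSubring_iff P hP]
  rcases (h68k_valuationSubring K P hP).mem_or_inv_mem x with h | h
  · exact h
  · -- `x⁻¹ = a / s`, so `s = a * x⁻¹⁻¹`...
    by_cases hx0 : x = 0
    · rw [hx0]; exact (h68k_valuationSubring K P hP).zero_mem
    rw [h68k_mem_valuationSubring_iff] at h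
    obtain ⟨s, hs, a, ha⟩ := h
    -- `a * x = s`
    have e : algebraMap R K a * x = algebraMap R K s := by
      rw [ha, mul_assoc, inv_mul_cancel₀ hx0, mul_one]
    by_cases haP : a ∈ P
    · -- then `s = a * x ∈ m_V`, so `s ∈ P`
      exfalso
      apply hs
      rw [← hPV, ← e]
      have h1 : algebraMap R K a ∈ V.nonunits := (hPV a).mpr haP
      rw [ValuationSubring.mem_nonunits_iff] at h1 ⊢
      rw [map_mul]
      have h2 : V.valuation x ≤ 1 := (V.valuation_le_one_iff x).mpr hx
      calc V.valuation (algebraMap R K a) * V.valuation x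
          ≤ V.valuation (algebraMap R K a) * 1 := mul_le_mul_right h2 _
        _ = V.valuation (algebraMap R K a) := mul_one _
        _ < 1 := h1
    · -- `a ∉ P`: `x = s / a ∈ R_P`
      rw [h68k_mem_valuationSubring_iff]
      exact ⟨a, haP, s, e.symm⟩

/-- A valuation subring `V ⊇ R` whose centre is the height-one prime `P` equals `R_P`. -/
theorem h68k_valuationSubring_eq [IsNoetherianRing R] [IsIntegrallyClosed R]
    (P : Ideal R) [P.IsPrime] (hP : P.height = 1) (V : ValuationSubring K)
    (hRV : ∀ r : R, algebraMap R K r ∈ V)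
    (hPV : ∀ r : R, algebraMap R K r ∈ V.nonunits ↔ r ∈ P) :
    V = h68k_valuationSubring K P hP := by
  apply le_antisymm
  · intro x hx
    rw [h68k_mem_valuationSubring_iff]
    exact h68k_exists_of_mem_valuationSubring P hP V hPV x hx
  · intro x hx
    rw [h68k_mem_valuationSubring_iff] at hx
    obtain ⟨s, hs, a, ha⟩ := hx
    have hs0 : algebraMap R K s ≠ 0 := by
      intro h0
      have : s = 0 := (IsFractionRing.injective R K) (by rw [h0, map_zero])
      exact hs (this ▸ P.zero_mem)
    have hsV : (algebraMap R K s)⁻¹ ∈ V := by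
      by_contra hcon
      have : algebraMap R K s ∈ V.nonunits := by
        rw [ValuationSubring.mem_nonunits_iff_or]; exact Or.inr hcon
      exact hs ((hPV s).mp this)
    have hx' : x = (algebraMap R K s)⁻¹ * algebraMap R K a := by
      rw [ha, ← mul_assoc, inv_mul_cancel₀ hs0, one_mul]
    rw [hx']
    exact V.mul_mem _ _ hsV (hRV a)

/-- **hqep for a family of valuation rings.**  Let `R` be a noetherian integrally closed domain,
`π ≠ 0`, and `V i` valuation subrings of the fraction field such that every height-one prime of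
`R` containing `π` is the centre of some `V i`.  Then `x ∈ ⋂ V i` and `π x ∈ R` imply `x ∈ R`. -/
theorem h68k_hqep [IsNoetherianRing R] [IsIntegrallyClosed R] (π : R) (hπ : π ≠ 0)
    {ι : Type*} (V : ι → ValuationSubring K)
    (hall : ∀ P : Ideal R, P.IsPrime → π ∈ P → P.height = 1 →
      ∃ i, ∀ r : R, algebraMap R K r ∈ (V i).nonunits ↔ r ∈ P)
    (x : K) (hx : ∀ i, x ∈ V i) (hπx : ∃ c : R, algebraMap R K c = algebraMap R K π * x) :
    ∃ z : R, algebraMap R K z = x := by
  refine h68k_mem_of_height_one π hπ x hπx ?_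
  intro P hP hπP hht
  obtain ⟨i, hi⟩ := hall P hP hπP hht
  have := hP
  exact h68k_exists_of_mem_valuationSubring P hht (V i) hi x (hx i)

/-- Every height-one prime containing `π` is the centre of a valuation subring containing `R`
(namely `R_P`), and `π` is a non-unit there. -/
theorem h68k_exists_valuationSubring [IsNoetherianRing R] [IsIntegrallyClosed R]
    (P : Ideal R) [P.IsPrime] (hP : P.height = 1) :
    ∃ V : ValuationSubring K, (∀ r : R, algebraMap R K r ∈ V) ∧
      (∀ r : R, algebraMap R K r ∈ V.nonunits ↔ r ∈ P) ∧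
      ∀ x : K, x ∈ V ↔ ∃ s, s ∉ P ∧ ∃ a : R, algebraMap R K a = algebraMap R K s * x :=
  ⟨h68k_valuationSubring K P hP, h68k_algebraMap_mem_valuationSubring P hP,
    h68k_algebraMap_mem_nonunits_iff P hP, h68k_mem_valuationSubring_iff P hP⟩

end Field

end Fermat.Agent.LGC
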