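import Fermat.Agent.LGC.H62Final
import Fermat.Agent.LGC.H13LevelM
import Fermat.Agent.LGC.H31Comp
import Fermat.Agent.LGC.H60Comp
import Fermat.Agent.LGC.H71Frob
import Fermat.Agent.LGC.H57Teich
import Fermat.Agent.LGC.Pieces63c
import Fermat.Agent.Red.SM.Final

/-!
# W3-LGC (helper63): SS-LOCAL for the finite chart, unconditionally

The leaf statements of helper62's wiring `h62i_ifaceSSLocal_fin` (`H62Final.lean`) are
discharged from the landed leaves: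

* `H62Comp` (I2) : `h63r_scale` (`Red63.lean`) and `h44v_hQEP_fin` (helper44);
* `hded`, `hnf`, `H62Res` (R1) : helper13, `H13LevelM.lean`;
* `H62Ker` (R3), `H62Span` : helper31, `H31Comp.lean`;
* `H62Surj` (I7) : helper60, `H60Comp.lean` (with helper13's `h13_ifaceSmooth`);
* `H62Frob` (R2) : helper71, `H71Frob.lean`;
* `H62Sep` (R5) : helper57, `H57Teich.lean`.

`ifaceSSLocalFinAll : IfaceSSLocalFinAll`.
-/

set_option autoImplicit false
set_option linter.unusedSectionVars false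

open AlgebraicCurve ModularCurve WithZero IsLocalRing Polynomial

noncomputable section

namespace Fermat.Agent.LGC

open Fermat.Agent.S37 Fermat.Agent.Red Fermat.Agent.Red.GG Fermat.Agent.Red.GV
  Fermat.Agent.Red.GV.Soft Fermat.Agent.Red.Kron Fermat.Agent.Red.KR Fermat.Agent.Red.ModelO

variable (A : ValuationSubring Kbar) (M : ℕ) {ℓ : ℕ} [NeZero M] [NeZero ℓ]

set_option synthInstance.maxHeartbeats 400000 in
/-- **(I2)** the special fibre of the finite chart is reduced: `P∞ ∩ P₀ ⊆ 𝔪_A B`. -/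
theorem h63l_comp (hℓ : ℓ.Prime) (hM : ¬ ℓ ∣ M) (hA : A.LiesOverPrime ℓ) :
    H62Comp A M hℓ hM hA := by
  rintro b ⟨hb1, hb0⟩
  have h1 := (h62i_mem_Pinf A M hℓ hM hA b).mp hb1
  have h0 := (h62i_mem_P0 A M hℓ hM hA b).mp hb0
  obtain ⟨π, hπ, hπ0, z, hz, hbz⟩ := h63r_scale hℓ hM hA h1 h0
  have hπF : algebraMap A (FF (M * ℓ)) π ≠ 0 := by
    intro h
    apply hπ0
    apply Subtype.ext
    exact (algebraMap Kbar (FF (M * ℓ))).injective (h.trans (map_zero _).symm)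
  have hzB : z ∈ chart (M * ℓ) A (jSS M ℓ) := by
    apply h44v_hQEP_fin A M ℓ hℓ hM hA π hπF z hz
    rw [Algebra.smul_def, ← hbz]
    exact b.2
  have e : b = algebraMap A (chart (M * ℓ) A (jSS M ℓ)) π * ⟨z, hzB⟩ := Subtype.ext hbz
  rw [e]
  exact Ideal.mul_mem_right _ _ (Ideal.mem_map_of_mem _ hπ)

/-- **(R3)** `α` and `β` pull `P∞` back to `𝔪_A Λ`. -/
theorem h63l_ker (hℓ : ℓ.Prime) (hM : ¬ ℓ ∣ M) (hA : A.LiesOverPrime ℓ) :
    H62Ker A M hℓ hM hA := by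
  constructor
  · intro x hx
    rw [h62i_mem_Pinf_iff_softR] at hx
    exact h31c_mem_mExt A M (jB M) x.2 (h31c_alpha_fin hℓ hM hA (x : FF M) x.2 _ hx)
  · intro x hx
    rw [h62i_mem_Pinf_iff_softR] at hx
    exact h31c_mem_mExt A M (jB M) x.2 (h31c_beta_fin hℓ hM hA (x : FF M) x.2 _ hx)

/-- **(I7)** `B = α(Λ) + P∞`. -/
theorem h63l_surj (hℓ : ℓ.Prime) (hM : ¬ ℓ ∣ M) (haux : auxLevel ℓ ∣ M)
    (hA : A.LiesOverPrime ℓ) : H62Surj A M hℓ hM hA := by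
  intro b
  have hb : (b : FF (M * ℓ)) ∈ modelFin (M * ℓ) A := (h62i_mem_chart_iff A M _).mp b.2
  obtain ⟨x, hxΛ, h, hx⟩ := h60c_hsurj_inf_of_smooth Fermat.Agent.Red.SM.h13_ifaceSmooth
    hℓ hM haux hA hb
  refine ⟨⟨x, hxΛ⟩, ?_⟩
  rw [h62i_mem_Pinf_iff_softR]
  exact hx

/-- **(R3)** the finite chart of level `M` is spanned by its rational functions. -/
theorem h63l_span (hℓ : ℓ.Prime) (hM : ¬ ℓ ∣ M) (hA : A.LiesOverPrime ℓ) : H62Span A M :=
  fun x => h31c_span_rat_fin A M hℓ hM hA (h62i_R A M)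
    (fun u hu => (h62i_mem_R A M u).mpr hu) x

/-- **(R2)** the Frobenius congruence on `C∞`. -/
theorem h63l_frob (hℓ : ℓ.Prime) (hM : ¬ ℓ ∣ M) (hA : A.LiesOverPrime ℓ) :
    H62Frob A M hℓ hM hA := by
  intro u hu
  have hrat : IsRat (u : FF M) := (h62i_mem_R A M u).mp hu
  obtain ⟨h, h0⟩ := h71r_frob_alpha_modelFin A M ℓ hℓ hM hA (u : FF M) hrat u.2
  rw [h62i_mem_Pinf_iff_softR]
  exact h0

/-- **SS-LOCAL for the finite chart of level `M * ℓ`.** -/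
theorem h63l_ifaceSSLocal_fin (hℓ : ℓ.Prime) (hM : ¬ ℓ ∣ M) (haux : auxLevel ℓ ∣ M)
    (hA : A.LiesOverPrime ℓ) : IfaceSSLocal A M ℓ (jSS M ℓ) :=
  h62i_ifaceSSLocal_fin A M hℓ hM haux hA (h63l_comp A M hℓ hM hA)
    (h13l_hded_fin M A hℓ hM haux hA) (h13l_hnf_fin M A hℓ hM hA) (h13l_hres M A (jB M))
    (h63l_ker A M hℓ hM hA) (h63l_surj A M hℓ hM haux hA) (h63l_span A M hℓ hM hA)
    (h63l_frob A M hℓ hM hA) (h57_hsep_Qbar A hℓ hA)

/-- **SS-LOCAL for the finite chart at all good levels.** -/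
theorem ifaceSSLocalFinAll : IfaceSSLocalFinAll := by
  intro ℓ hℓ M _ hM haux
  have : NeZero ℓ := ⟨hℓ.ne_zero⟩
  intro A hA
  exact h63l_ifaceSSLocal_fin A M hℓ hM haux hA

end Fermat.Agent.LGC
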