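import Mathlib
import Fermat.Agent.Red.LocalAll

/-!
# W3-LGC (helper89): the soft local datum of the UNIP gate (decision D3), abstract form

Setting of `Red/LocalFact.lean` (helper26): `A` a valuation ring, `F` a field, `B ⊆ F` a chart,
`V ⊆ F` the (semistable) Gauss ring, `v : ι → Valuation F ℤᵐ⁰` the places which are finite on
the chart, with the axioms `H26Chart B V v`.  Moreover `σ, τ : F ≃+* F` are two ring
automorphisms (inertia elements) and `dd x = τσ(x) · x / (σ(x) · τ(x))` is the double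
difference.

Hypotheses:
* (PERM) `σ` and `τ` map functions without zeros and poles at the places centered at a closed
  point of the special fibre to functions with the same property;
* (G7) every double difference is `≡ 1` modulo `π V` for some nonzero `π ∈ 𝔪_A`;
* (LP) every place `i` has a function `G i` with a simple zero at `i` and no other zero or
  pole among the places with the same centre on the special fibre.

Conclusion (`h89d_local_dd`): for `u ≠ 0` all of whose orders are divisible by `r` there is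
`π₀ ∈ 𝔪_A`, `π₀ ≠ 0`, such that for every `π ∣ π₀` in `𝔪_A`: `dd u ≡ 1 mod π V` and at every
maximal ideal `𝔫 ⊇ 𝔪_A B` there is `g ≡ 1 mod π V` with `dd u / g ^ r` a unit of `B_𝔫`.

Proof: `Z` = the support of `u` (finite), `T = Z ∩ {centered at 𝔫}`,
`G_T = ∏_{i ∈ T} G_i ^ (n_i)`, `u₁ = u / G_T ^ r` has no zeros and poles centered at `𝔫`; by
(PERM) neither has `dd u₁`, which is a Gauss unit by (G7); so `dd u₁` is a unit of `B_𝔫`
(`h26_local_unit`), and `dd u = dd u₁ · (dd G_T) ^ r` with `dd G_T ≡ 1` by (G7).  The modulus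
`π₀` is a common divisor of the moduli of the finitely many `dd G_T`, `T ⊆ Z`.
-/

set_option autoImplicit false

open WithZero IsLocalRing

namespace Fermat.Agent.LGC

open Fermat.Agent.Red

section DD

variable {F : Type*} [Field F]

/-- the double difference `τσ(x) · x / (σ(x) · τ(x))` of two ring automorphisms. -/
def h89d_dd (σ τ : F ≃+* F) (x : F) : F := τ (σ x) * x / (σ x * τ x)

theorem h89d_dd_def (σ τ : F ≃+* F) (x : F) :
    h89d_dd σ τ x = τ (σ x) * x / (σ x * τ x) := rfl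

theorem h89d_dd_mul (σ τ : F ≃+* F) (x y : F) :
    h89d_dd σ τ (x * y) = h89d_dd σ τ x * h89d_dd σ τ y := by
  simp only [h89d_dd, map_mul]
  rw [div_mul_div_comm]
  congr 1 <;> ring

theorem h89d_dd_one (σ τ : F ≃+* F) : h89d_dd σ τ 1 = 1 := by
  simp [h89d_dd]

theorem h89d_dd_pow (σ τ : F ≃+* F) (x : F) (n : ℕ) :
    h89d_dd σ τ (x ^ n) = h89d_dd σ τ x ^ n := by
  induction n with
  | zero => simp [h89d_dd_one]
  | succ n ih => rw [pow_succ, h89d_dd_mul, ih, pow_succ]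

theorem h89d_dd_ne_zero (σ τ : F ≃+* F) {x : F} (hx : x ≠ 0) : h89d_dd σ τ x ≠ 0 := by
  have h1 : σ x ≠ 0 := (map_ne_zero_iff _ σ.injective).mpr hx
  have h2 : τ x ≠ 0 := (map_ne_zero_iff _ τ.injective).mpr hx
  have h3 : τ (σ x) ≠ 0 := (map_ne_zero_iff _ τ.injective).mpr h1
  exact div_ne_zero (mul_ne_zero h3 hx) (mul_ne_zero h1 h2)

end DD

section U

variable {A F : Type*} [CommRing A] [Field F] [Algebra A F] {V : Subring F}

/-- the congruence `≡ 1 mod π V` passes to the divisors of `π`. -/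
theorem h89d_U_of_dvd (hAV : ∀ a : A, algebraMap A F a ∈ V) {π π' : A} (h : π ∣ π')
    {x : F} (hx : x ∈ h26U π' V) : x ∈ h26U π V := by
  obtain ⟨a, rfl⟩ := h
  obtain ⟨y, hy, rfl⟩ := hx
  exact ⟨algebraMap A F a * y, mul_mem (hAV a) hy, by rw [map_mul]; ring⟩

end U

section Chart

variable {A : Type*} [CommRing A] [IsDomain A] [ValuationRing A]
  {F : Type*} [Field F] [Algebra A F]
  {B : Subalgebra A F} {V : Subring F} {ι : Type*} {v : ι → Valuation F ℤᵐ⁰}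

/-- the valuations of `∏_{i ∈ T} G_i ^ (n_i)` at a place `k`, if `G_i` is a uniformiser at `i`
and a unit at the other places of a set containing `T` and `k`. -/
theorem h89d_val_prod (T : Finset ι) (G : ι → F) (n : ι → ℤ) (P : ι → Prop)
    (hG : ∀ i ∈ T, v i (G i) = exp (-1 : ℤ) ∧ ∀ k, P k → k ≠ i → v k (G i) = 1)
    (k : ι) (hk : P k) :
    (k ∈ T → v k (∏ i ∈ T, G i ^ (n i)) = exp (-(n k))) ∧
    (k ∉ T → v k (∏ i ∈ T, G i ^ (n i)) = 1) := by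
  classical
  rw [map_prod]
  simp only [map_zpow₀]
  constructor
  · intro hkT
    rw [← Finset.mul_prod_erase T _ hkT]
    have h1 : ∏ i ∈ T.erase k, v k (G i) ^ (n i) = 1 := by
      refine Finset.prod_eq_one fun i hi => ?_
      rw [(hG i (Finset.mem_of_mem_erase hi)).2 k hk (Finset.ne_of_mem_erase hi).symm, one_zpow]
    rw [h1, mul_one, (hG k hkT).1, ← exp_zsmul]
    congr 1
    simp
  · intro hkT
    refine Finset.prod_eq_one fun i hi => ?_
    have hki : k ≠ i := fun h => hkT (h ▸ hi)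
    rw [(hG i hi).2 k hk hki, one_zpow]

/-- **The soft local datum of the UNIP gate** at the closed points of the special fibre of a
chart. -/
theorem h89d_local_dd (hC : H26Chart B V v)
    (hVnt : ∀ m ∈ maximalIdeal A, ∀ x ∈ V, algebraMap A F m * x ≠ 1)
    (σ τ : F ≃+* F)
    (hperm : ∀ 𝔫 : Ideal B, 𝔫.IsMaximal → (maximalIdeal A).map (algebraMap A B) ≤ 𝔫 →
      ∀ x : F, (∀ k, h26Centered B v 𝔫 k → v k x = 1) →
        ∀ k, h26Centered B v 𝔫 k → v k (σ x) = 1 ∧ v k (τ x) = 1)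
    (hgal : ∀ h : F, h ≠ 0 → ∃ π : A, π ∈ maximalIdeal A ∧ π ≠ 0 ∧
      τ (σ h) * h / (σ h * τ h) ∈ h26U π V)
    (hLP : ∀ i : ι, ∃ G : F, ∀ 𝔫 : Ideal B, 𝔫.IsMaximal →
      (maximalIdeal A).map (algebraMap A B) ≤ 𝔫 → h26Centered B v 𝔫 i →
        v i G = exp (-1 : ℤ) ∧ ∀ k, h26Centered B v 𝔫 k → k ≠ i → v k G = 1)
    (u : F) (hu0 : u ≠ 0) (r : ℕ)
    (hru : ∀ i, ∃ n : ℤ, v i u = exp (-((r : ℤ) * n))) :
    ∃ π₀ ∈ maximalIdeal A, π₀ ≠ 0 ∧ ∀ π ∈ maximalIdeal A, π ∣ π₀ →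
      τ (σ u) * u / (σ u * τ u) ∈ h26U π V ∧
      ∀ 𝔫 : Ideal B, 𝔫.IsMaximal → (maximalIdeal A).map (algebraMap A B) ≤ 𝔫 →
        ∃ g ∈ h26U π V, ∃ s : B, s ∉ 𝔫 ∧
          (s : F) * (τ (σ u) * u / (σ u * τ u) * (g ^ r)⁻¹) ∈ B ∧
          (s : F) * (g ^ r * (τ (σ u) * u / (σ u * τ u))⁻¹) ∈ B := by
  classical
  have hAV : ∀ a : A, algebraMap A F a ∈ V := fun a => hC.hBV _ (B.algebraMap_mem a)
  -- the data
  choose G hG using hLP
  choose n hn using hru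
  set Z : Finset ι := (h26_finite_support hC u hu0).toFinset with hZ
  have hZmem : ∀ i, i ∈ Z ↔ v i u ≠ 1 := by
    intro i
    rw [hZ, Set.Finite.mem_toFinset]
    rfl
  -- the modulus of `dd u`
  obtain ⟨π₁, hπ₁, hπ₁0, hπ₁U⟩ := hgal u hu0
  -- the moduli of the `dd (G_T)`
  have hex : ∀ T : Finset ι, ∃ c : A, c ∈ maximalIdeal A ∧
      ((∏ i ∈ T, G i ^ (n i)) ≠ 0 → h89d_dd σ τ (∏ i ∈ T, G i ^ (n i)) ∈ h26U c V) := by
    intro T
    by_cases h0 : (∏ i ∈ T, G i ^ (n i)) = 0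
    · exact ⟨π₁, hπ₁, fun h => (h h0).elim⟩
    · obtain ⟨c, hc, -, hcU⟩ := hgal _ h0
      exact ⟨c, hc, fun _ => hcU⟩
  choose c hcm hcU using hex
  obtain ⟨π₀, hπ₀, hπ₀0, hπ₀π₁, hπ₀c⟩ :=
    h26_common_divisor Z.powerset c (fun T _ => hcm T) π₁ hπ₁ hπ₁0
  refine ⟨π₀, hπ₀, hπ₀0, fun π hπ hππ => ⟨h89d_U_of_dvd hAV (hππ.trans hπ₀π₁) hπ₁U, ?_⟩⟩
  intro 𝔫 h𝔫 hle
  have := h𝔫.isPrime
  -- the places centered at `𝔫` in the support of `u`
  set T : Finset ι := Z.filter (fun i => h26Centered B v 𝔫 i) with hT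
  have hTc : ∀ i ∈ T, h26Centered B v 𝔫 i := fun i hi => (Finset.mem_filter.mp hi).2
  have hTZ : T ∈ Z.powerset := Finset.mem_powerset.mpr (Finset.filter_subset _ _)
  set G₀ : F := ∏ i ∈ T, G i ^ (n i) with hG₀
  have hGT : ∀ i ∈ T, v i (G i) = exp (-1 : ℤ) ∧
      ∀ k, h26Centered B v 𝔫 k → k ≠ i → v k (G i) = 1 :=
    fun i hi => hG i 𝔫 h𝔫 hle (hTc i hi)
  have hGi0 : ∀ i ∈ T, G i ≠ 0 := by
    intro i hi h0
    have h1 := (hGT i hi).1
    rw [h0, map_zero] at h1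
    exact exp_ne_zero h1.symm
  have hG₀0 : G₀ ≠ 0 := by
    rw [hG₀, Finset.prod_ne_zero_iff]
    exact fun i hi => zpow_ne_zero _ (hGi0 i hi)
  have hvG₀ : ∀ k, h26Centered B v 𝔫 k →
      (k ∈ T → v k G₀ = exp (-(n k))) ∧ (k ∉ T → v k G₀ = 1) :=
    fun k hk => h89d_val_prod T G n (fun i => h26Centered B v 𝔫 i) hGT k hk
  have hgU : h89d_dd σ τ G₀ ∈ h26U (c T) V := hcU T hG₀0
  clear_value G₀
  -- `u₁ = u / G₀ ^ r` has no zeros and poles centered at `𝔫`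
  obtain ⟨u₁, hu₁⟩ : ∃ u₁ : F, u₁ = u * (G₀ ^ r)⁻¹ := ⟨_, rfl⟩
  have hu₁0 : u₁ ≠ 0 := by
    rw [hu₁]
    exact mul_ne_zero hu0 (inv_ne_zero (pow_ne_zero _ hG₀0))
  have hu₁v : ∀ k, h26Centered B v 𝔫 k → v k u₁ = 1 := by
    intro k hk
    rw [hu₁, map_mul, map_inv₀, map_pow]
    by_cases hkT : k ∈ T
    · rw [(hvG₀ k hk).1 hkT, hn k, ← exp_nsmul, ← exp_neg, ← exp_add, ← exp_zero, exp_inj]
      simp only [nsmul_eq_mul]
      ring
    · have h1 : v k u = 1 := by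
        by_contra hne
        exact hkT (Finset.mem_filter.mpr ⟨(hZmem k).mpr hne, hk⟩)
      rw [(hvG₀ k hk).2 hkT, h1, one_pow, inv_one, mul_one]
  -- `dd u₁` has no zeros and poles centered at `𝔫`
  have hdv : ∀ k, h26Centered B v 𝔫 k → v k (h89d_dd σ τ u₁) = 1 := by
    intro k hk
    have h1 := hperm 𝔫 h𝔫 hle u₁ hu₁v
    have h2 := hperm 𝔫 h𝔫 hle (σ u₁) (fun k hk => (h1 k hk).1)
    rw [h89d_dd_def, map_div₀, map_mul, map_mul, (h2 k hk).2, hu₁v k hk, (h1 k hk).1,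
      (h1 k hk).2]
    simp
  -- `dd u₁` is a Gauss unit
  obtain ⟨π', hπ', -, hπ'U⟩ := hgal u₁ hu₁0
  have hdV : h89d_dd σ τ u₁ ∈ V := h26U_mem_V (hAV π') hπ'U
  have hdV' : (h89d_dd σ τ u₁)⁻¹ ∈ V :=
    h26U_mem_V (hAV π') (h26U_inv (hC.hVunit π' hπ') (hVnt π' hπ') hπ'U)
  obtain ⟨s, hs, h1, h2⟩ := h26_local_unit hC 𝔫 (h89d_dd σ τ u₁) hdV hdV' hdv
  -- the factorisation `dd u = dd u₁ · (dd G₀) ^ r`
  have hg0 : h89d_dd σ τ G₀ ≠ 0 := h89d_dd_ne_zero σ τ hG₀0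
  have hfac : τ (σ u) * u / (σ u * τ u) = h89d_dd σ τ u₁ * h89d_dd σ τ G₀ ^ r := by
    rw [← h89d_dd_pow, ← h89d_dd_mul, hu₁, inv_mul_cancel_right₀ (pow_ne_zero _ hG₀0)]
    rfl
  refine ⟨h89d_dd σ τ G₀, h89d_U_of_dvd hAV (hππ.trans (hπ₀c T hTZ)) hgU, s, hs,
    ?_, ?_⟩
  · rw [hfac, mul_inv_cancel_right₀ (pow_ne_zero _ hg0)]
    exact h1
  · have h3 : h89d_dd σ τ G₀ ^ r * (h89d_dd σ τ u₁ * h89d_dd σ τ G₀ ^ r)⁻¹ =
        (h89d_dd σ τ u₁)⁻¹ := by
      rw [mul_inv, mul_comm (h89d_dd σ τ u₁)⁻¹, ← mul_assoc,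
        mul_inv_cancel₀ (pow_ne_zero _ hg0), one_mul]
    rw [hfac, h3]
    exact h2

end Chart

end Fermat.Agent.LGC
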