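import Fermat.Agent.LGC.Skeleton
import Fermat.Agent.LGC.GateSSLoc
import Fermat.Agent.LGC.LocalDD89

/-!
# W3-LGC (helper89): `LocalAllDDStatement` (the D3 leaf of the skeleton)

`localAllDD : LocalAllDDStatement` is `h89d_local_dd` (the soft local datum at the closed
points of the special fibre, `LGC/LocalDD89.lean`) together with `h63_local_all_loc`
(helper63; the closed points of the generic fibre, from `h26_local_generic`).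

`h89d_local_dd_two` is the version for two charts with a common modulus, in the shape of the
hypotheses `hwU`, `hloc₀`, `hloc₁` of `h63_gate_asm_loc`.
-/

set_option autoImplicit false

open WithZero IsLocalRing

namespace Fermat.Agent.LGC

open Fermat.Agent.Red

universe u v w

/-- **the D3 leaf**: the local input of the UNIP gate at all closed points of a chart. -/
theorem localAllDD : LocalAllDDStatement.{u, v, w} := by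
  intro A _ _ _ F _ _ B V ι val hC _ harch hVnt σ τ hperm hgal hLP hgen u hu0 r hru hrw
  obtain ⟨π₀, hπ₀, hπ₀0, h⟩ := h89d_local_dd hC hVnt σ τ hperm hgal hLP u hu0 r hru
  refine ⟨π₀, hπ₀, hπ₀0, fun π hπ hππ 𝔫 h𝔫 => ?_⟩
  exact h63_local_all_loc hC harch hVnt hgen _ r hrw π hπ (h π hπ hππ).2 𝔫 h𝔫

section Two

variable {A : Type*} [CommRing A] [IsDomain A] [ValuationRing A]
  {F : Type*} [Field F] [Algebra A F]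

/-- **the soft local datum for two charts, with a common modulus**: the hypotheses `hwU`,
`hloc₀`, `hloc₁` of `h63_gate_asm_loc` for `w = τσ(u) · u / (σ(u) · τ(u))`. -/
theorem h89d_local_dd_two {B₀ Binf : Subalgebra A F} {V : Subring F}
    {ι₀ ι₁ : Type*} {v₀ : ι₀ → Valuation F ℤᵐ⁰} {v₁ : ι₁ → Valuation F ℤᵐ⁰}
    (hC₀ : H26Chart B₀ V v₀) (hC₁ : H26Chart Binf V v₁)
    (hVnt : ∀ m ∈ maximalIdeal A, ∀ x ∈ V, algebraMap A F m * x ≠ 1)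
    (σ τ : F ≃+* F)
    (hperm₀ : ∀ 𝔫 : Ideal B₀, 𝔫.IsMaximal → (maximalIdeal A).map (algebraMap A B₀) ≤ 𝔫 →
      ∀ x : F, (∀ k, h26Centered B₀ v₀ 𝔫 k → v₀ k x = 1) →
        ∀ k, h26Centered B₀ v₀ 𝔫 k → v₀ k (σ x) = 1 ∧ v₀ k (τ x) = 1)
    (hperm₁ : ∀ 𝔫 : Ideal Binf, 𝔫.IsMaximal → (maximalIdeal A).map (algebraMap A Binf) ≤ 𝔫 →
      ∀ x : F, (∀ k, h26Centered Binf v₁ 𝔫 k → v₁ k x = 1) →
        ∀ k, h26Centered Binf v₁ 𝔫 k → v₁ k (σ x) = 1 ∧ v₁ k (τ x) = 1)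
    (hgal : ∀ h : F, h ≠ 0 → ∃ π : A, π ∈ maximalIdeal A ∧ π ≠ 0 ∧
      τ (σ h) * h / (σ h * τ h) ∈ h26U π V)
    (hLP₀ : ∀ i : ι₀, ∃ G : F, ∀ 𝔫 : Ideal B₀, 𝔫.IsMaximal →
      (maximalIdeal A).map (algebraMap A B₀) ≤ 𝔫 → h26Centered B₀ v₀ 𝔫 i →
        v₀ i G = exp (-1 : ℤ) ∧ ∀ k, h26Centered B₀ v₀ 𝔫 k → k ≠ i → v₀ k G = 1)
    (hLP₁ : ∀ i : ι₁, ∃ G : F, ∀ 𝔫 : Ideal Binf, 𝔫.IsMaximal →
      (maximalIdeal A).map (algebraMap A Binf) ≤ 𝔫 → h26Centered Binf v₁ 𝔫 i →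
        v₁ i G = exp (-1 : ℤ) ∧ ∀ k, h26Centered Binf v₁ 𝔫 k → k ≠ i → v₁ k G = 1)
    (u : F) (hu0 : u ≠ 0) (r : ℕ)
    (hru₀ : ∀ i, ∃ n : ℤ, v₀ i u = exp (-((r : ℤ) * n)))
    (hru₁ : ∀ i, ∃ n : ℤ, v₁ i u = exp (-((r : ℤ) * n))) :
    ∃ π ∈ maximalIdeal A, π ≠ 0 ∧
      τ (σ u) * u / (σ u * τ u) ∈ h26U π V ∧
      (∀ 𝔫 : Ideal B₀, 𝔫.IsMaximal → (maximalIdeal A).map (algebraMap A B₀) ≤ 𝔫 →
        ∃ g ∈ h26U π V, ∃ s : B₀, s ∉ 𝔫 ∧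
          (s : F) * (τ (σ u) * u / (σ u * τ u) * (g ^ r)⁻¹) ∈ B₀ ∧
          (s : F) * (g ^ r * (τ (σ u) * u / (σ u * τ u))⁻¹) ∈ B₀) ∧
      (∀ 𝔫 : Ideal Binf, 𝔫.IsMaximal → (maximalIdeal A).map (algebraMap A Binf) ≤ 𝔫 →
        ∃ g ∈ h26U π V, ∃ s : Binf, s ∉ 𝔫 ∧
          (s : F) * (τ (σ u) * u / (σ u * τ u) * (g ^ r)⁻¹) ∈ Binf ∧
          (s : F) * (g ^ r * (τ (σ u) * u / (σ u * τ u))⁻¹) ∈ Binf) := by
  obtain ⟨π₀, hπ₀, hπ₀0, h₀⟩ := h89d_local_dd hC₀ hVnt σ τ hperm₀ hgal hLP₀ u hu0 r hru₀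
  obtain ⟨π₁, hπ₁, hπ₁0, h₁⟩ := h89d_local_dd hC₁ hVnt σ τ hperm₁ hgal hLP₁ u hu0 r hru₁
  obtain ⟨d, hd, hd0, hdπ₀, hdπ₁⟩ := h26_common_divisor ({()} : Finset Unit) (fun _ => π₁)
    (fun _ _ => hπ₁) π₀ hπ₀ hπ₀0
  have hdπ₁' : d ∣ π₁ := hdπ₁ () (Finset.mem_singleton_self _)
  exact ⟨d, hd, hd0, (h₀ d hd hdπ₀).1, (h₀ d hd hdπ₀).2, (h₁ d hd hdπ₁').2⟩

end Two

end Fermat.Agent.LGC
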