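import Mathlib
import Fermat.Agent.Red.LocalFact

/-!
# W3-LGC (helper75): local parameters at a node of a semistable chart ((LP) at nodes)

Setting (helper26's vocabulary, `Red/LocalFact.lean`): `A` a local ring, `F` a field,
`B ⊆ F` an `A`-subalgebra (a chart of the model), `v : ι → Valuation F ℤᵐ⁰` the places of the
generic fibre which are finite on the chart, `𝔫` a prime of `B` containing `𝔪_A B`.

A *node datum* at `𝔫` is `x, y ∈ 𝔫`, `c ∉ 𝔫`, `a ∈ A` with `x * y = a * c` and
`𝔫 = (x, y) + 𝔪_A B` locally at `𝔫`.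

* `h75p_ker_gen` : Step A of helper26 (`h26_local_ker_principal`) for an arbitrary set of local
  generators: if `𝔫 = (S) + 𝔪 B` locally, then the kernel of a section `φ : B → A` centered at
  `𝔫` is generated, locally at `𝔫`, by the `t - φ t`, `t ∈ S`.
* `h75p_lp_node_aux`, `h75p_lp_node` : **(LP) at a node.**  For every place `i` centered at
  `𝔫` which has a section `φ`, the function `G = x - φ x` is a uniformiser at `i`
  (`v i G = exp (-1)`) and a unit at all other places centered at `𝔫`.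
-/

set_option autoImplicit false

open WithZero IsLocalRing

namespace Fermat.Agent.LGC

open Fermat.Agent.Red

section StepA

variable {A B : Type*} [CommRing A] [CommRing B] [Algebra A B]

/-- **Step A with an arbitrary set of local generators.**  Let `𝔫` be a prime of the
`A`-algebra `B` and `S ⊆ 𝔫` such that `𝔫 = (S) + 𝔪 B` locally at `𝔫`.  Let `φ : B → A` be an
`A`-algebra hom with `φ(𝔫) ⊆ 𝔪`, `ker φ ⊆ 𝔫` and `ker φ` finitely generated.  Then `ker φ` is
generated by the `t - φ(t)`, `t ∈ S`, locally at `𝔫`. -/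
theorem h75p_ker_gen (𝔪 : Ideal A) (𝔫 : Ideal B) [𝔫.IsPrime]
    (S : Set B) (hS : S ⊆ 𝔫)
    (hprin : ∀ z ∈ 𝔫, ∃ s, s ∉ 𝔫 ∧ s * z ∈ Ideal.span S ⊔ 𝔪.map (algebraMap A B))
    (h𝔪𝔫 : 𝔪.map (algebraMap A B) ≤ 𝔫)
    (φ : B →ₐ[A] A) (hφ : ∀ z ∈ 𝔫, φ z ∈ 𝔪) (hker : RingHom.ker (φ : B →+* A) ≤ 𝔫)
    (hfg : (RingHom.ker (φ : B →+* A)).FG) :
    ∀ z ∈ RingHom.ker (φ : B →+* A),
      ∃ s, s ∉ 𝔫 ∧ s * z ∈ Ideal.span ((fun t => t - algebraMap A B (φ t)) '' S) := by
  set I : Ideal B := RingHom.ker (φ : B →+* A) with hI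
  set J : Ideal B := 𝔪.map (algebraMap A B) with hJ
  set G : Ideal B := Ideal.span ((fun t => t - algebraMap A B (φ t)) '' S) with hG
  have hφalg : ∀ a : A, φ (algebraMap A B a) = a := fun a => by
    rw [AlgHom.commutes]; rfl
  -- the projection `ψ b = b - φ b` onto `I`
  have hψI : ∀ b : B, b - algebraMap A B (φ b) ∈ I := by
    intro b
    rw [hI, RingHom.mem_ker]
    simp [hφalg]
  have hψJ : ∀ x ∈ J, x - algebraMap A B (φ x) ∈ J * I := by
    intro x hx
    rw [hJ, Ideal.map] at hx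
    refine Submodule.span_induction (p := fun x _ => x - algebraMap A B (φ x) ∈ J * I)
      ?_ ?_ ?_ ?_ hx
    · rintro _ ⟨a, -, rfl⟩
      rw [hφalg, sub_self]
      exact zero_mem _
    · simp
    · intro x y _ _ hx hy
      have h1 : x + y - algebraMap A B (φ (x + y)) =
          (x - algebraMap A B (φ x)) + (y - algebraMap A B (φ y)) := by
        rw [map_add, map_add]; ring
      rw [h1]
      exact add_mem hx hy
    · intro b x hx' hx
      have hxJ : x ∈ J := hx'
      have hφx : φ x ∈ 𝔪 := hφ x (h𝔪𝔫 hxJ)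
      have h1 : b • x - algebraMap A B (φ (b • x)) =
          b * (x - algebraMap A B (φ x)) +
            algebraMap A B (φ x) * (b - algebraMap A B (φ b)) := by
        rw [smul_eq_mul, map_mul, map_mul]; ring
      rw [h1]
      refine add_mem (Ideal.mul_mem_left _ _ hx) ?_
      exact Ideal.mul_mem_mul (Ideal.mem_map_of_mem _ hφx) (hψI b)
  have hψS : ∀ x ∈ Ideal.span S, x - algebraMap A B (φ x) ∈ G ⊔ J * I := by
    intro x hx
    refine Submodule.span_induction (p := fun x _ => x - algebraMap A B (φ x) ∈ G ⊔ J * I)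
      ?_ ?_ ?_ ?_ hx
    · intro t ht
      exact Ideal.mem_sup_left (Ideal.subset_span ⟨t, ht, rfl⟩)
    · simp
    · intro x y _ _ hx hy
      have h1 : x + y - algebraMap A B (φ (x + y)) =
          (x - algebraMap A B (φ x)) + (y - algebraMap A B (φ y)) := by
        rw [map_add, map_add]; ring
      rw [h1]
      exact add_mem hx hy
    · intro b x hx' hx
      have hx𝔫 : x ∈ 𝔫 := (Ideal.span_le.mpr hS) hx'
      have hφx : φ x ∈ 𝔪 := hφ x hx𝔫
      have h1 : b • x - algebraMap A B (φ (b • x)) =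
          b * (x - algebraMap A B (φ x)) +
            algebraMap A B (φ x) * (b - algebraMap A B (φ b)) := by
        rw [smul_eq_mul, map_mul, map_mul]; ring
      rw [h1]
      refine add_mem (Ideal.mul_mem_left _ _ hx) (Ideal.mem_sup_right ?_)
      exact Ideal.mul_mem_mul (Ideal.mem_map_of_mem _ hφx) (hψI b)
  have key : I ≤ h26Sat 𝔫 (G ⊔ J * I) := by
    intro z hz
    obtain ⟨s, hs, hsz⟩ := hprin z (hker hz)
    refine ⟨s, hs, ?_⟩
    obtain ⟨u, hu, m, hm, hum⟩ := Submodule.mem_sup.mp hsz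
    have hφsz : φ (s * z) = 0 := by
      have : φ z = 0 := hz
      rw [map_mul, this, mul_zero]
    have h1 : s * z = (u - algebraMap A B (φ u)) + (m - algebraMap A B (φ m)) := by
      have h2 : algebraMap A B (φ u + φ m) = 0 := by
        rw [← map_add, hum, hφsz, map_zero]
      rw [map_add] at h2
      rw [← hum]
      linear_combination h2
    rw [h1]
    exact add_mem (hψS u hu) (Ideal.mem_sup_right (hψJ m hm))
  exact h26_nak_fg 𝔫 J h𝔪𝔫 I _ hfg key

end StepA

section LP

variable {A : Type*} [CommRing A] [IsLocalRing A] {F : Type*} [Field F] [Algebra A F]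
variable {B : Subalgebra A F} {V : Subring F} {ι : Type*} {v : ι → Valuation F ℤᵐ⁰}

/-- **(LP) at a node**, in terms of the three relevant axioms of `H26Chart`. -/
theorem h75p_lp_node_aux
    (hB : ∀ b ∈ B, ∀ i, v i b ≤ 1)
    (hunif : ∀ i, ∃ b : B, v i (b : F) = exp (-1 : ℤ))
    (hinj : ∀ i k, (∀ b : B, v i (b : F) < 1 → v k (b : F) < 1) → i = k)
    (𝔫 : Ideal B) [h𝔫 : 𝔫.IsPrime] (h𝔪𝔫 : (maximalIdeal A).map (algebraMap A B) ≤ 𝔫)
    (x y c : B) (hx : x ∈ 𝔫) (hy : y ∈ 𝔫) (hc : c ∉ 𝔫) (a : A)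
    (hxy : x * y = algebraMap A B a * c)
    (hconst : ∀ k, h26Centered B v 𝔫 k → v k (algebraMap A F a) = 1)
    (hprin : ∀ z ∈ 𝔫, ∃ s, s ∉ 𝔫 ∧
      s * z ∈ Ideal.span {x, y} ⊔ (maximalIdeal A).map (algebraMap A B))
    (i : ι) (hi : h26Centered B v 𝔫 i) (φ : B →ₐ[A] A)
    (hφker : ∀ b : B, φ b = 0 ↔ v i (b : F) < 1)
    (hφfg : (RingHom.ker (φ : B →+* A)).FG) :
    v i ((x : F) - algebraMap A F (φ x)) = exp (-1 : ℤ) ∧
      ∀ k, h26Centered B v 𝔫 k → k ≠ i → v k ((x : F) - algebraMap A F (φ x)) = 1 := by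
  classical
  have hkerle : RingHom.ker (φ : B →+* A) ≤ 𝔫 := fun b hb => hi b ((hφker b).mp hb)
  have hφ𝔫 : ∀ z ∈ 𝔫, φ z ∈ maximalIdeal A := h26_section_local 𝔫 φ hkerle
  have hφalg : ∀ a : A, φ (algebraMap A B a) = a := fun a => by
    rw [AlgHom.commutes]; rfl
  set X : B := x - algebraMap A B (φ x) with hX
  set Y : B := y - algebraMap A B (φ y) with hY
  have hXF : ((X : B) : F) = (x : F) - algebraMap A F (φ x) := rfl
  have hgen : ∀ z ∈ RingHom.ker (φ : B →+* A), ∃ s, s ∉ 𝔫 ∧ s * z ∈ Ideal.span {X, Y} := by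
    have h1 := h75p_ker_gen (maximalIdeal A) 𝔫 {x, y}
      (by rintro _ (rfl | rfl) <;> assumption) hprin h𝔪𝔫 φ hφ𝔫 hkerle hφfg
    rwa [Set.image_pair] at h1
  -- a unit of `B_𝔫` has valuation one at centered places
  have hsval : ∀ k, h26Centered B v 𝔫 k → ∀ s : B, s ∉ 𝔫 → v k (s : F) = 1 := by
    intro k hk s hs
    exact le_antisymm (hB _ s.2 k) (not_lt.mp fun hlt => hs (hk s hlt))
  -- `x` is a unit at the centered places
  have hxval : ∀ k, h26Centered B v 𝔫 k → v k (x : F) = 1 := by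
    intro k hk
    have h1 : v k (x : F) * v k (y : F) = 1 := by
      have h2 : ((x * y : B) : F) = ((algebraMap A B a * c : B) : F) := by rw [hxy]
      have h3 : (x : F) * (y : F) = algebraMap A F a * (c : F) := h2
      have h4 := congrArg (v k) h3
      rw [map_mul, map_mul, hconst k hk, hsval k hk c hc, one_mul] at h4
      exact h4
    refine le_antisymm (hB _ x.2 k) ?_
    calc (1 : ℤᵐ⁰) = v k (x : F) * v k (y : F) := h1.symm
      _ ≤ v k (x : F) * 1 := by gcongr; exact hB _ y.2 k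
      _ = v k (x : F) := mul_one _
  -- `c - φ c` is in the kernel
  have hcker : c - algebraMap A B (φ c) ∈ RingHom.ker (φ : B →+* A) := by
    rw [RingHom.mem_ker]
    simp [hφalg]
  obtain ⟨s₀, hs₀, hs₀c⟩ := hgen _ hcker
  obtain ⟨α, β, hαβ⟩ := Ideal.mem_span_pair.mp hs₀c
  -- the relation between the values
  have hA : φ x * φ y = a * φ c := by
    have h1 := congrArg φ hxy
    rw [map_mul, map_mul, hφalg] at h1
    exact h1
  have hid : algebraMap A B (φ y) * X + x * Y =
      algebraMap A B a * (c - algebraMap A B (φ c)) := by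
    have h2 : algebraMap A B (φ x) * algebraMap A B (φ y) =
        algebraMap A B a * algebraMap A B (φ c) := by
      rw [← map_mul (algebraMap A B), ← map_mul (algebraMap A B), hA]
    rw [hX, hY]
    linear_combination hxy - h2
  set D : B := s₀ * x - algebraMap A B a * β with hD
  set E : B := algebraMap A B a * α - s₀ * algebraMap A B (φ y) with hE
  have hDE : D * Y = E * X := by
    rw [hD, hE]
    linear_combination s₀ * hid - algebraMap A B a * hαβ
  have hDc : D * c = x * (s₀ * c - y * β) := by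
    rw [hD]
    linear_combination β * hxy
  have hDval : ∀ k, h26Centered B v 𝔫 k → v k (D : F) = 1 := by
    intro k hk
    have h1 : s₀ * c - y * β ∉ 𝔫 := by
      intro h
      have h2 : s₀ * c ∈ 𝔫 := by
        have := 𝔫.add_mem h (𝔫.mul_mem_right β hy)
        simpa using this
      exact (h𝔫.mem_or_mem h2).elim hs₀ hc
    have h3 : ((D * c : B) : F) = ((x * (s₀ * c - y * β) : B) : F) := by rw [hDc]
    have h4 : (D : F) * (c : F) = (x : F) * ((s₀ * c - y * β : B) : F) := h3
    have h5 := congrArg (v k) h4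
    rw [map_mul, map_mul, hsval k hk c hc, hxval k hk, hsval k hk _ h1, mul_one, mul_one] at h5
    exact h5
  have hYX : ∀ k, h26Centered B v 𝔫 k → v k (Y : F) ≤ v k (X : F) := by
    intro k hk
    have h3 : ((D * Y : B) : F) = ((E * X : B) : F) := by rw [hDE]
    have h4 : (D : F) * (Y : F) = (E : F) * (X : F) := h3
    have h5 := congrArg (v k) h4
    rw [map_mul, map_mul, hDval k hk, one_mul] at h5
    rw [h5]
    exact mul_le_of_le_one_left' (hB _ E.2 k)
  -- the valuation of a combination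
  have hcomb : ∀ k, h26Centered B v 𝔫 k → ∀ b ∈ RingHom.ker (φ : B →+* A),
      v k (b : F) ≤ v k (X : F) := by
    intro k hk b hb
    obtain ⟨s, hs, hsb⟩ := hgen b hb
    obtain ⟨α', β', hαβ'⟩ := Ideal.mem_span_pair.mp hsb
    have h3 : ((α' * X + β' * Y : B) : F) = ((s * b : B) : F) := by rw [hαβ']
    have h4 : (α' : F) * (X : F) + (β' : F) * (Y : F) = (s : F) * (b : F) := h3
    have h5 : v k ((s : F) * (b : F)) = v k (b : F) := by
      rw [map_mul, hsval k hk s hs, one_mul]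
    rw [← h5, ← h4]
    refine (Valuation.map_add _ _ _).trans (max_le ?_ ?_)
    · rw [map_mul]
      exact mul_le_of_le_one_left' (hB _ α'.2 k)
    · rw [map_mul]
      exact (mul_le_of_le_one_left' (hB _ β'.2 k)).trans (hYX k hk)
  have hXker : X ∈ RingHom.ker (φ : B →+* A) := by
    rw [RingHom.mem_ker]
    simp [hX, hφalg]
  refine ⟨?_, ?_⟩
  · -- (a) `X` is a uniformiser at `i`
    rw [← hXF]
    have hlt : v i (X : F) < 1 := (hφker X).mp hXker
    refine h26_eq_exp_neg_one ?_ hlt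
    obtain ⟨b₀, hb₀⟩ := hunif i
    have hb₀ker : b₀ ∈ RingHom.ker (φ : B →+* A) := by
      rw [RingHom.mem_ker]
      refine (hφker b₀).mpr ?_
      rw [hb₀]
      exact exp_lt_exp.mpr (by norm_num)
    rw [← hb₀]
    exact hcomb i hi b₀ hb₀ker
  · -- (b) `X` is a unit at the other centered places
    intro k hk hki
    rw [← hXF]
    refine le_antisymm (hB _ X.2 k) (not_lt.mp fun hlt => hki ?_)
    refine (hinj i k ?_).symm
    intro b hb
    have hbker : b ∈ RingHom.ker (φ : B →+* A) := (hφker b).mpr hb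
    exact lt_of_le_of_lt (hcomb k hk b hbker) hlt

/-- **(LP) at a node.**  Let `𝔫 ⊇ 𝔪_A B` be a prime of the chart `B` with a node datum
`x * y = a * c`, `x, y ∈ 𝔫`, `c ∉ 𝔫`, `𝔫 = (x, y) + 𝔪_A B` locally.  For a place `i` centered at
`𝔫` with a section `φ`, the function `x - φ x` is a uniformiser at `i` and a unit at all other
places centered at `𝔫`. -/
theorem h75p_lp_node (hC : H26Chart B V v)
    (𝔫 : Ideal B) [h𝔫 : 𝔫.IsPrime] (h𝔪𝔫 : (maximalIdeal A).map (algebraMap A B) ≤ 𝔫)
    (x y c : B) (hx : x ∈ 𝔫) (hy : y ∈ 𝔫) (hc : c ∉ 𝔫) (a : A)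
    (hxy : x * y = algebraMap A B a * c)
    (hconst : ∀ k, h26Centered B v 𝔫 k → v k (algebraMap A F a) = 1)
    (hprin : ∀ z ∈ 𝔫, ∃ s, s ∉ 𝔫 ∧
      s * z ∈ Ideal.span {x, y} ⊔ (maximalIdeal A).map (algebraMap A B))
    (i : ι) (hi : h26Centered B v 𝔫 i) (φ : B →ₐ[A] A)
    (hφker : ∀ b : B, φ b = 0 ↔ v i (b : F) < 1)
    (hφfg : (RingHom.ker (φ : B →+* A)).FG) :
    v i ((x : F) - algebraMap A F (φ x)) = exp (-1 : ℤ) ∧
      ∀ k, h26Centered B v 𝔫 k → k ≠ i → v k ((x : F) - algebraMap A F (φ x)) = 1 :=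
  h75p_lp_node_aux hC.hB hC.hunif hC.hinj 𝔫 h𝔪𝔫 x y c hx hy hc a hxy hconst hprin i hi φ
    hφker hφfg

omit [IsLocalRing A] in
/-- constants have trivial valuation at a place which has a section. -/
theorem h75p_const_of_section (hB : ∀ b ∈ B, ∀ i, v i b ≤ 1) (k : ι) (φ : B →ₐ[A] A)
    (hφker : ∀ b : B, φ b = 0 ↔ v k (b : F) < 1) (a : A) (ha : a ≠ 0) :
    v k (algebraMap A F a) = 1 := by
  have h1 : v k ((algebraMap A B a : B) : F) ≤ 1 := hB _ (algebraMap A B a).2 k
  have h2 : ¬ v k ((algebraMap A B a : B) : F) < 1 := by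
    intro h
    have h3 := (hφker (algebraMap A B a)).mpr h
    rw [AlgHom.commutes] at h3
    exact ha h3
  exact le_antisymm h1 (not_lt.mp h2)

end LP

end Fermat.Agent.LGC
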