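import Mathlib
import Fermat.Agent.Red.LocalAll
import Fermat.Agent.LGC.NodeLP

/-!
# W3-LGC (helper75): the soft node datum

Setting (helper26's vocabulary): `A` a valuation ring, `F` a field over `A`, `B ⊆ F` a chart,
`V ⊆ F` the (semi-local) Gauss ring, `v : ι → Valuation F ℤᵐ⁰` the places finite on the chart.
`dd : F →*₀ F` is a multiplicative map (in the application the double difference
`h ↦ σ'(σ h) * h / (σ h * σ' h)` of two inertia elements).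

* `h75s_node_one` : at a prime `𝔫` of `B`, given functions `G i` (`i ∈ T`) with
  `v i (G i) = exp (-1)` and `v k (G i) = 1` at the other places `k` centered at `𝔫` (the
  property (LP)), and `u` with `v i u = exp (-(r * n i))` for `i ∈ T` and no other zero or pole
  centered at `𝔫`: if `dd` takes values in the units of `V` and preserves "no zero or pole
  centered at `𝔫`", then `dd u / (dd G₀) ^ r` is a unit of `B_𝔫`, `G₀ = ∏ G i ^ n i`.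
* `h75s_node_datum` : the node datum for all exceptional closed points at once, in the exact
  shape of the hypotheses `hnode₀`, `hnode₁` of `h63_gate_asm_ss` (`LGC/GateSSAbs.lean`), from
  (LP) at the exceptional points and `dd h ≡ 1 mod π V` for some `π` (depending on `h`).
* `h75s_center_unique` : the centre of a place which has a section is unique among the maximal
  ideals.
* `h75s_LP_of_nodes` : (LP) at all exceptional points from node data `x * y = a * c` there and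
  sections at the centered places (`h75p_lp_node`).
* `h75s_node_datum_of_xy` : the combination.
-/

set_option autoImplicit false
set_option linter.unusedSectionVars false

open WithZero IsLocalRing

namespace Fermat.Agent.LGC

open Fermat.Agent.Red

section One

variable {A : Type*} [CommRing A] [IsLocalRing A] {F : Type*} [Field F] [Algebra A F]
variable {B : Subalgebra A F} {V : Subring F} {ι : Type*} {v : ι → Valuation F ℤᵐ⁰}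

/-- a function without zeros or poles centered at `𝔫` whose image under `dd` is a Gauss unit
without zeros or poles centered at `𝔫`: the image is a unit of `B_𝔫`. -/
theorem h75s_unit_aux (hfin : ∀ f : F, f ≠ 0 → {i | 1 < v i f}.Finite)
    (hint : ∀ f : F, (∀ i, v i f ≤ 1) → ∃ a : A, algebraMap A F a ≠ 0 ∧ a • f ∈ B)
    (hB : ∀ b ∈ B, ∀ i, v i b ≤ 1) (hBV : ∀ x ∈ B, x ∈ V)
    (hQEP : ∀ a : A, algebraMap A F a ≠ 0 → ∀ x ∈ V, a • x ∈ B → x ∈ B)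
    (𝔫 : Ideal B) [h𝔫 : 𝔫.IsPrime]
    (w : F) (hwV : w ∈ V) (hwV' : w⁻¹ ∈ V)
    (hw1 : ∀ k, h26Centered B v 𝔫 k → v k w = 1) :
    ∃ s : B, s ∉ 𝔫 ∧ (s : F) * w ∈ B ∧ (s : F) * w⁻¹ ∈ B := by
  obtain ⟨a₁, ha₁, s₁, hs₁, h1⟩ := h26_stepC hfin hint hB 𝔫 w (fun k hk => (hw1 k hk).le)
  obtain ⟨a₂, ha₂, s₂, hs₂, h2⟩ := h26_stepC hfin hint hB 𝔫 w⁻¹
    (fun k hk => by rw [map_inv₀, hw1 k hk, inv_one])
  have h1' : (s₁ : F) * w ∈ B := hQEP a₁ ha₁ _ (mul_mem (hBV _ s₁.2) hwV) h1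
  have h2' : (s₂ : F) * w⁻¹ ∈ B := hQEP a₂ ha₂ _ (mul_mem (hBV _ s₂.2) hwV') h2
  refine ⟨s₁ * s₂, fun h => (h𝔫.mem_or_mem h).elim hs₁ hs₂, ?_, ?_⟩
  · have : ((s₁ * s₂ : B) : F) * w = (s₂ : F) * ((s₁ : F) * w) := by
      push_cast; ring
    rw [this]
    exact mul_mem s₂.2 h1'
  · have : ((s₁ * s₂ : B) : F) * w⁻¹ = (s₁ : F) * ((s₂ : F) * w⁻¹) := by
      push_cast; ring
    rw [this]
    exact mul_mem s₁.2 h2'

/-- the valuations of `u / G₀ ^ r` at the places centered at `𝔫`. -/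
theorem h75s_val_one (𝔫 : Ideal B) (T : Finset ι) (G : ι → F)
    (hG1 : ∀ i ∈ T, v i (G i) = exp (-1 : ℤ))
    (hG2 : ∀ i ∈ T, ∀ k, h26Centered B v 𝔫 k → k ≠ i → v k (G i) = 1)
    (u : F) (r : ℕ) (n : ι → ℤ) (hn : ∀ i ∈ T, v i u = exp (-((r : ℤ) * n i)))
    (hu1 : ∀ k, h26Centered B v 𝔫 k → k ∉ T → v k u = 1)
    (k : ι) (hk : h26Centered B v 𝔫 k) :
    v k (u * ((∏ i ∈ T, G i ^ n i) ^ r)⁻¹) = 1 := by
  classical
  have hG0 : v k (∏ i ∈ T, G i ^ n i) = if k ∈ T then exp (-(n k)) else 1 := by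
    rw [map_prod]
    simp only [map_zpow₀]
    by_cases hkT : k ∈ T
    · rw [if_pos hkT, ← Finset.mul_prod_erase T _ hkT]
      have h1 : ∏ i ∈ T.erase k, v k (G i) ^ n i = 1 := by
        refine Finset.prod_eq_one fun i hi => ?_
        rw [hG2 i (Finset.mem_of_mem_erase hi) k hk (Finset.ne_of_mem_erase hi).symm, one_zpow]
      rw [h1, mul_one, hG1 k hkT, ← exp_zsmul]
      simp
    · rw [if_neg hkT]
      refine Finset.prod_eq_one fun i hi => ?_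
      have hki : k ≠ i := fun h => hkT (h ▸ hi)
      rw [hG2 i hi k hk hki, one_zpow]
  rw [map_mul, map_inv₀, map_pow, hG0]
  by_cases hkT : k ∈ T
  · rw [if_pos hkT, hn k hkT, ← exp_nsmul, ← exp_neg, ← exp_add, ← exp_zero, exp_inj]
    simp only [nsmul_eq_mul]
    ring
  · rw [if_neg hkT, hu1 k hk hkT]
    simp

/-- **The soft node datum at one closed point.** -/
theorem h75s_node_one (hC : H26Chart B V v) (𝔫 : Ideal B) [h𝔫 : 𝔫.IsPrime]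
    (dd : F →*₀ F)
    (hG6 : ∀ h : F, h ≠ 0 → dd h ∈ V ∧ (dd h)⁻¹ ∈ V)
    (hperm : ∀ h : F, (∀ k, h26Centered B v 𝔫 k → v k h = 1) →
      ∀ k, h26Centered B v 𝔫 k → v k (dd h) = 1)
    (T : Finset ι) (G : ι → F)
    (hG1 : ∀ i ∈ T, v i (G i) = exp (-1 : ℤ))
    (hG2 : ∀ i ∈ T, ∀ k, h26Centered B v 𝔫 k → k ≠ i → v k (G i) = 1)
    (u : F) (hu : u ≠ 0) (r : ℕ) (n : ι → ℤ)
    (hn : ∀ i ∈ T, v i u = exp (-((r : ℤ) * n i)))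
    (hu1 : ∀ k, h26Centered B v 𝔫 k → k ∉ T → v k u = 1) :
    ∃ s : B, s ∉ 𝔫 ∧
      (s : F) * (dd u * ((dd (∏ i ∈ T, G i ^ n i)) ^ r)⁻¹) ∈ B ∧
      (s : F) * ((dd (∏ i ∈ T, G i ^ n i)) ^ r * (dd u)⁻¹) ∈ B := by
  classical
  set G₀ : F := ∏ i ∈ T, G i ^ n i with hG₀
  have hGi0 : ∀ i ∈ T, G i ≠ 0 := by
    intro i hi h0
    have h1 := hG1 i hi
    rw [h0, map_zero] at h1
    exact exp_ne_zero h1.symm
  have hG₀0 : G₀ ≠ 0 := by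
    rw [hG₀]
    exact Finset.prod_ne_zero_iff.mpr fun i hi => zpow_ne_zero _ (hGi0 i hi)
  set u₁ : F := u * (G₀ ^ r)⁻¹ with hu₁
  have hu₁0 : u₁ ≠ 0 := mul_ne_zero hu (inv_ne_zero (pow_ne_zero _ hG₀0))
  have hval : ∀ k, h26Centered B v 𝔫 k → v k u₁ = 1 := fun k hk =>
    h75s_val_one 𝔫 T G hG1 hG2 u r n hn hu1 k hk
  have hdd : dd u₁ = dd u * ((dd G₀) ^ r)⁻¹ := by
    rw [hu₁, map_mul, map_inv₀, map_pow]
  obtain ⟨s, hs, h1, h2⟩ := h75s_unit_aux hC.hfin hC.hint hC.hB hC.hBV hC.hQEP 𝔫 (dd u₁)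
    (hG6 u₁ hu₁0).1 (hG6 u₁ hu₁0).2 (hperm u₁ hval)
  refine ⟨s, hs, ?_, ?_⟩
  · rw [← hdd]; exact h1
  · have h3 : (dd G₀) ^ r * (dd u)⁻¹ = (dd u₁)⁻¹ := by
      rw [hdd, mul_inv, inv_inv, mul_comm]
    rw [h3]; exact h2

end One

section All

variable {A : Type*} [CommRing A] [IsDomain A] [ValuationRing A]
  {F : Type*} [Field F] [Algebra A F]
  {B : Subalgebra A F} {V : Subring F} {ι : Type*} {v : ι → Valuation F ℤᵐ⁰}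

/-- `1 + π' V ⊆ 1 + π V` if `π ∣ π'`. -/
theorem h75s_U_of_dvd (hAV : ∀ a : A, algebraMap A F a ∈ V) {π π' : A} (h : π ∣ π')
    {x : F} (hx : x ∈ h26U π' V) : x ∈ h26U π V := by
  obtain ⟨a, rfl⟩ := h
  obtain ⟨y, hy, rfl⟩ := hx
  exact ⟨algebraMap A F a * y, mul_mem (hAV a) hy, by rw [map_mul]; ring⟩

/-- **The soft node datum**, in the shape of the hypotheses `hnode₀`, `hnode₁` of
`h63_gate_asm_ss`, for `w = dd u`. -/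
theorem h75s_node_datum (hC : H26Chart B V v)
    (hAF : Function.Injective (algebraMap A F))
    (Nd : Set (Ideal B))
    (dd : F →*₀ F)
    (hG6 : ∀ h : F, h ≠ 0 → dd h ∈ V ∧ (dd h)⁻¹ ∈ V)
    (hG7 : ∀ h : F, h ≠ 0 → ∃ π ∈ maximalIdeal A, π ≠ 0 ∧ dd h ∈ h26U π V)
    (hperm : ∀ 𝔫 : Ideal B, 𝔫.IsMaximal → (maximalIdeal A).map (algebraMap A B) ≤ 𝔫 →
      𝔫 ∈ Nd → ∀ h : F, (∀ k, h26Centered B v 𝔫 k → v k h = 1) →
      ∀ k, h26Centered B v 𝔫 k → v k (dd h) = 1)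
    (G : ι → F)
    (hLP : ∀ 𝔫 : Ideal B, 𝔫.IsMaximal → (maximalIdeal A).map (algebraMap A B) ≤ 𝔫 →
      𝔫 ∈ Nd → ∀ i, h26Centered B v 𝔫 i →
      v i (G i) = exp (-1 : ℤ) ∧ ∀ k, h26Centered B v 𝔫 k → k ≠ i → v k (G i) = 1)
    (u : F) (hu : u ≠ 0) (r : ℕ) (hru : ∀ i, ∃ n : ℤ, v i u = exp (-((r : ℤ) * n)))
    (π₁ : A) (hπ₁ : π₁ ∈ maximalIdeal A) (hπ₁0 : π₁ ≠ 0) :
    ∃ π₂ ∈ maximalIdeal A, π₂ ≠ 0 ∧ π₂ ∣ π₁ ∧ ∀ π ∈ maximalIdeal A, π ∣ π₂ →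
      ∀ 𝔫 : Ideal B, 𝔫.IsMaximal → (maximalIdeal A).map (algebraMap A B) ≤ 𝔫 → 𝔫 ∈ Nd →
      ∃ g ∈ h26U π V, ∃ s : B, s ∉ 𝔫 ∧
        (s : F) * (dd u * (g ^ r)⁻¹) ∈ B ∧ (s : F) * (g ^ r * (dd u)⁻¹) ∈ B := by
  classical
  have hAV : ∀ a : A, algebraMap A F a ∈ V := fun a => hC.hBV _ (B.algebraMap_mem a)
  choose n hn using hru
  set Z : Finset ι := (h26_finite_support hC u hu).toFinset with hZ
  -- the moduli of the `dd (G i)`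
  have hex : ∀ i : ι, ∃ π ∈ maximalIdeal A, π ≠ 0 ∧ (G i ≠ 0 → dd (G i) ∈ h26U π V) := by
    intro i
    by_cases h0 : G i = 0
    · exact ⟨π₁, hπ₁, hπ₁0, fun h => (h h0).elim⟩
    · obtain ⟨π, hπ, hπ0, hπU⟩ := hG7 (G i) h0
      exact ⟨π, hπ, hπ0, fun _ => hπU⟩
  choose c hc hc0 hcU using hex
  obtain ⟨π₂, hπ₂, hπ₂0, hπ₂π₁, hπ₂c⟩ := h26_common_divisor Z c (fun i _ => hc i) π₁ hπ₁ hπ₁0
  refine ⟨π₂, hπ₂, hπ₂0, hπ₂π₁, fun π hπ hππ₂ 𝔫 h𝔫 hle hNd => ?_⟩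
  have := h𝔫.isPrime
  have hπ0 : π ≠ 0 := by
    rintro rfl
    exact hπ₂0 (zero_dvd_iff.mp hππ₂)
  have hπF : algebraMap A F π ≠ 0 := fun h => hπ0 (hAF (by rw [h, map_zero]))
  have hVπ : algebraMap A F π ∈ V := hAV π
  have hVinv : ∀ x ∈ V, (1 + algebraMap A F π * x)⁻¹ ∈ V := hC.hVunit π hπ
  have hVnt : ∀ x ∈ V, algebraMap A F π * x ≠ 1 := h26_chart_nt hC 𝔫 hle π hπ hπF
  set T : Finset ι := Z.filter (fun i => h26Centered B v 𝔫 i) with hT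
  have hTc : ∀ i ∈ T, h26Centered B v 𝔫 i := fun i hi => (Finset.mem_filter.mp hi).2
  have hG1 : ∀ i ∈ T, v i (G i) = exp (-1 : ℤ) := fun i hi =>
    (hLP 𝔫 h𝔫 hle hNd i (hTc i hi)).1
  have hG2 : ∀ i ∈ T, ∀ k, h26Centered B v 𝔫 k → k ≠ i → v k (G i) = 1 := fun i hi =>
    (hLP 𝔫 h𝔫 hle hNd i (hTc i hi)).2
  have hGi0 : ∀ i ∈ T, G i ≠ 0 := by
    intro i hi h0
    have h1 := hG1 i hi
    rw [h0, map_zero] at h1
    exact exp_ne_zero h1.symm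
  have hu1 : ∀ k, h26Centered B v 𝔫 k → k ∉ T → v k u = 1 := by
    intro k hk hkT
    by_contra hne
    apply hkT
    rw [hT, Finset.mem_filter, hZ, Set.Finite.mem_toFinset]
    exact ⟨hne, hk⟩
  obtain ⟨s, hs, h1, h2⟩ := h75s_node_one hC 𝔫 dd hG6 (hperm 𝔫 h𝔫 hle hNd) T G hG1 hG2 u hu r n
    (fun i _ => hn i) hu1
  refine ⟨dd (∏ i ∈ T, G i ^ n i), ?_, s, hs, h1, h2⟩
  rw [map_prod]
  refine h26U_prod hVπ T _ fun i hi => ?_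
  rw [map_zpow₀]
  refine h26U_zpow hVπ hVinv hVnt ?_ _
  exact h75s_U_of_dvd hAV (hππ₂.trans (hπ₂c i (Finset.mem_filter.mp hi).1))
    (hcU i (hGi0 i hi))

/-- the centre of a place with a section is unique among the maximal ideals. -/
theorem h75s_center_unique (𝔫 𝔫' : Ideal B) (h𝔫 : 𝔫.IsMaximal) (h𝔫' : 𝔫'.IsMaximal)
    (i : ι) (hi : h26Centered B v 𝔫 i) (hi' : h26Centered B v 𝔫' i) (φ : B →ₐ[A] A)
    (hφker : ∀ b : B, φ b = 0 ↔ v i (b : F) < 1) : 𝔫 = 𝔫' := by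
  have := h𝔫.isPrime
  have := h𝔫'.isPrime
  have h2 : (maximalIdeal A).comap (φ : B →+* A) ≠ ⊤ := by
    rw [Ne, Ideal.eq_top_iff_one, Ideal.mem_comap, map_one]
    exact fun h => (Ideal.ne_top_iff_one _).mp (IsLocalRing.maximalIdeal.isMaximal A).ne_top h
  have key : ∀ 𝔮 : Ideal B, 𝔮.IsMaximal → h26Centered B v 𝔮 i →
      𝔮 = (maximalIdeal A).comap (φ : B →+* A) := by
    intro 𝔮 h𝔮 hc
    have := h𝔮.isPrime
    have hkerle : RingHom.ker (φ : B →+* A) ≤ 𝔮 := fun b hb => hc b ((hφker b).mp hb)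
    have h1 : 𝔮 ≤ (maximalIdeal A).comap (φ : B →+* A) := fun y hy =>
      h26_section_local 𝔮 φ hkerle y hy
    exact h𝔮.eq_of_le h2 h1
  rw [key 𝔫 h𝔫 hi, key 𝔫' h𝔫' hi']

/-- **(LP) at all exceptional points**, from node data `x * y = a * c` and sections. -/
theorem h75s_LP_of_nodes (hC : H26Chart B V v) (Nd : Set (Ideal B))
    (hxy : ∀ 𝔫 : Ideal B, 𝔫.IsMaximal → (maximalIdeal A).map (algebraMap A B) ≤ 𝔫 →
      𝔫 ∈ Nd → ∃ x y c : B, ∃ a : A, x ∈ 𝔫 ∧ y ∈ 𝔫 ∧ c ∉ 𝔫 ∧ a ≠ 0 ∧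
        x * y = algebraMap A B a * c ∧ ∀ z ∈ 𝔫, ∃ s, s ∉ 𝔫 ∧
          s * z ∈ Ideal.span {x, y} ⊔ (maximalIdeal A).map (algebraMap A B))
    (hsec : ∀ (i : ι) (𝔫 : Ideal B), 𝔫.IsMaximal →
      (maximalIdeal A).map (algebraMap A B) ≤ 𝔫 → h26Centered B v 𝔫 i →
      ∃ φ : B →ₐ[A] A, (∀ b : B, φ b = 0 ↔ v i (b : F) < 1) ∧
        (RingHom.ker (φ : B →+* A)).FG) :
    ∃ G : ι → F, ∀ 𝔫 : Ideal B, 𝔫.IsMaximal → (maximalIdeal A).map (algebraMap A B) ≤ 𝔫 →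
      𝔫 ∈ Nd → ∀ i, h26Centered B v 𝔫 i →
      v i (G i) = exp (-1 : ℤ) ∧ ∀ k, h26Centered B v 𝔫 k → k ≠ i → v k (G i) = 1 := by
  classical
  have hex : ∀ i : ι, ∃ g : F, ∀ 𝔫 : Ideal B, 𝔫.IsMaximal →
      (maximalIdeal A).map (algebraMap A B) ≤ 𝔫 → 𝔫 ∈ Nd → h26Centered B v 𝔫 i →
      v i g = exp (-1 : ℤ) ∧ ∀ k, h26Centered B v 𝔫 k → k ≠ i → v k g = 1 := by
    intro i
    by_cases h : ∃ 𝔫 : Ideal B, 𝔫.IsMaximal ∧ (maximalIdeal A).map (algebraMap A B) ≤ 𝔫 ∧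
        𝔫 ∈ Nd ∧ h26Centered B v 𝔫 i
    · obtain ⟨𝔫, h𝔫, hle, hNd, hi⟩ := h
      have := h𝔫.isPrime
      obtain ⟨x, y, c, a, hx, hy, hc, ha, hxyac, hprin⟩ := hxy 𝔫 h𝔫 hle hNd
      obtain ⟨φ, hφker, hφfg⟩ := hsec i 𝔫 h𝔫 hle hi
      have hconst : ∀ k, h26Centered B v 𝔫 k → v k (algebraMap A F a) = 1 := by
        intro k hk
        obtain ⟨ψ, hψker, -⟩ := hsec k 𝔫 h𝔫 hle hk
        exact h75p_const_of_section hC.hB k ψ hψker a ha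
      have hlp := h75p_lp_node hC 𝔫 hle x y c hx hy hc a hxyac hconst hprin i hi φ hφker hφfg
      refine ⟨(x : F) - algebraMap A F (φ x), fun 𝔫' h𝔫' _ _ hi' => ?_⟩
      have h𝔫𝔫' : 𝔫 = 𝔫' := h75s_center_unique 𝔫 𝔫' h𝔫 h𝔫' i hi hi' φ hφker
      subst h𝔫𝔫'
      exact hlp
    · exact ⟨1, fun 𝔫 h𝔫 hle hNd hi => (h ⟨𝔫, h𝔫, hle, hNd, hi⟩).elim⟩
  choose G hG using hex
  exact ⟨G, fun 𝔫 h𝔫 hle hNd i hi => hG i 𝔫 h𝔫 hle hNd hi⟩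

/-- **The soft node datum from node data** `x * y = a * c`: the hypotheses `hnode₀`, `hnode₁`
of `h63_gate_asm_ss` for `w = dd u`. -/
theorem h75s_node_datum_of_xy (hC : H26Chart B V v)
    (hAF : Function.Injective (algebraMap A F))
    (Nd : Set (Ideal B))
    (dd : F →*₀ F)
    (hG6 : ∀ h : F, h ≠ 0 → dd h ∈ V ∧ (dd h)⁻¹ ∈ V)
    (hG7 : ∀ h : F, h ≠ 0 → ∃ π ∈ maximalIdeal A, π ≠ 0 ∧ dd h ∈ h26U π V)
    (hperm : ∀ 𝔫 : Ideal B, 𝔫.IsMaximal → (maximalIdeal A).map (algebraMap A B) ≤ 𝔫 →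
      𝔫 ∈ Nd → ∀ h : F, (∀ k, h26Centered B v 𝔫 k → v k h = 1) →
      ∀ k, h26Centered B v 𝔫 k → v k (dd h) = 1)
    (hxy : ∀ 𝔫 : Ideal B, 𝔫.IsMaximal → (maximalIdeal A).map (algebraMap A B) ≤ 𝔫 →
      𝔫 ∈ Nd → ∃ x y c : B, ∃ a : A, x ∈ 𝔫 ∧ y ∈ 𝔫 ∧ c ∉ 𝔫 ∧ a ≠ 0 ∧
        x * y = algebraMap A B a * c ∧ ∀ z ∈ 𝔫, ∃ s, s ∉ 𝔫 ∧
          s * z ∈ Ideal.span {x, y} ⊔ (maximalIdeal A).map (algebraMap A B))
    (hsec : ∀ (i : ι) (𝔫 : Ideal B), 𝔫.IsMaximal →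
      (maximalIdeal A).map (algebraMap A B) ≤ 𝔫 → h26Centered B v 𝔫 i →
      ∃ φ : B →ₐ[A] A, (∀ b : B, φ b = 0 ↔ v i (b : F) < 1) ∧
        (RingHom.ker (φ : B →+* A)).FG)
    (u : F) (hu : u ≠ 0) (r : ℕ) (hru : ∀ i, ∃ n : ℤ, v i u = exp (-((r : ℤ) * n)))
    (π₁ : A) (hπ₁ : π₁ ∈ maximalIdeal A) (hπ₁0 : π₁ ≠ 0) :
    ∃ π₂ ∈ maximalIdeal A, π₂ ≠ 0 ∧ π₂ ∣ π₁ ∧ ∀ π ∈ maximalIdeal A, π ∣ π₂ →
      ∀ 𝔫 : Ideal B, 𝔫.IsMaximal → (maximalIdeal A).map (algebraMap A B) ≤ 𝔫 → 𝔫 ∈ Nd →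
      ∃ g ∈ h26U π V, ∃ s : B, s ∉ 𝔫 ∧
        (s : F) * (dd u * (g ^ r)⁻¹) ∈ B ∧ (s : F) * (g ^ r * (dd u)⁻¹) ∈ B := by
  obtain ⟨G, hLP⟩ := h75s_LP_of_nodes hC Nd hxy hsec
  exact h75s_node_datum hC hAF Nd dd hG6 hG7 hperm G hLP u hu r hru π₁ hπ₁ hπ₁0

end All

end Fermat.Agent.LGC
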