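import Fermat.Agent.LGC.Skeleton
import Fermat.Agent.LGC.NodeSoft
import Fermat.Agent.LGC.GateSSLoc

/-!
# W3-LGC (helper75): the abstract statements of the local half

Proofs of the abstract statements frozen in `LGC/Skeleton.lean`:

* `h75l_lpSmooth : LPSmoothStatement` (local principality at a smooth point),
* `h75l_lpNode : LPNodeStatement` (local principality at a node, `h75p_lp_node`),
* `h75l_localAllDD : LocalAllDDStatement` (the local input of the UNIP gate at all closed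
  points of a chart, from the soft node datum `h75s_node_datum`),
(`GateAsmOfLocalStatement` is `h63_gateAsmOfLocal` in `LGC/Integrate63.lean`), and the formal
bridge

* `h75l_LP_of_local`, `h75l_ifaceSSLP : IfaceSSChart → IfaceSSLocal → IfaceSSSection →
  IfaceSSLP` (local principality from the local structure "smooth or node" and the sections).
-/

set_option autoImplicit false
set_option linter.unusedSectionVars false

open WithZero IsLocalRing

namespace Fermat.Agent.LGC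

open Fermat.Agent.Red

universe u v w

section Smooth

variable {A : Type*} [CommRing A] [IsLocalRing A] {F : Type*} [Field F] [Algebra A F]
variable {B : Subalgebra A F} {V : Subring F} {ι : Type*} {val : ι → Valuation F ℤᵐ⁰}

/-- **(LP) at a smooth point.** -/
theorem h75l_lp_smooth
    (hB : ∀ b ∈ B, ∀ i, val i b ≤ 1)
    (hunif : ∀ i, ∃ b : B, val i (b : F) = exp (-1 : ℤ))
    (hinj : ∀ i k, (∀ b : B, val i (b : F) < 1 → val k (b : F) < 1) → i = k)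
    (𝔫 : Ideal B) [h𝔫 : 𝔫.IsPrime] (h𝔪𝔫 : (maximalIdeal A).map (algebraMap A B) ≤ 𝔫)
    (t : B) (ht : t ∈ 𝔫)
    (hprin : ∀ z ∈ 𝔫, ∃ s, s ∉ 𝔫 ∧
      s * z ∈ Ideal.span {t} ⊔ (maximalIdeal A).map (algebraMap A B))
    (i : ι) (hi : h26Centered B val 𝔫 i) (φ : B →ₐ[A] A)
    (hφker : ∀ b : B, φ b = 0 ↔ val i (b : F) < 1)
    (hφfg : (RingHom.ker (φ : B →+* A)).FG) :
    val i ((t : F) - algebraMap A F (φ t)) = exp (-1 : ℤ) ∧
      ∀ k, h26Centered B val 𝔫 k → k ≠ i → val k ((t : F) - algebraMap A F (φ t)) = 1 := by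
  classical
  have hkerle : RingHom.ker (φ : B →+* A) ≤ 𝔫 := fun b hb => hi b ((hφker b).mp hb)
  have hφ𝔫 : ∀ z ∈ 𝔫, φ z ∈ maximalIdeal A := h26_section_local 𝔫 φ hkerle
  have hφalg : ∀ a : A, φ (algebraMap A B a) = a := fun a => by
    rw [AlgHom.commutes]; rfl
  set X : B := t - algebraMap A B (φ t) with hX
  have hXF : ((X : B) : F) = (t : F) - algebraMap A F (φ t) := rfl
  have hgen : ∀ z ∈ RingHom.ker (φ : B →+* A), ∃ s, s ∉ 𝔫 ∧ s * z ∈ Ideal.span {X} :=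
    h26_local_ker_principal (maximalIdeal A) 𝔫 t ht hprin h𝔪𝔫 φ hφ𝔫 hkerle hφfg
  have hsval : ∀ k, h26Centered B val 𝔫 k → ∀ s : B, s ∉ 𝔫 → val k (s : F) = 1 := by
    intro k hk s hs
    exact le_antisymm (hB _ s.2 k) (not_lt.mp fun hlt => hs (hk s hlt))
  have hcomb : ∀ k, h26Centered B val 𝔫 k → ∀ b ∈ RingHom.ker (φ : B →+* A),
      val k (b : F) ≤ val k (X : F) := by
    intro k hk b hb
    obtain ⟨s, hs, hsb⟩ := hgen b hb
    obtain ⟨c, hc⟩ := Ideal.mem_span_singleton'.mp hsb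
    have h3 : ((c * X : B) : F) = ((s * b : B) : F) := by rw [hc]
    have h4 : (c : F) * (X : F) = (s : F) * (b : F) := h3
    have h5 : val k ((s : F) * (b : F)) = val k (b : F) := by
      rw [map_mul, hsval k hk s hs, one_mul]
    rw [← h5, ← h4, map_mul]
    exact mul_le_of_le_one_left' (hB _ c.2 k)
  have hXker : X ∈ RingHom.ker (φ : B →+* A) := by
    rw [RingHom.mem_ker]
    simp [hX, hφalg]
  refine ⟨?_, ?_⟩
  · rw [← hXF]
    have hlt : val i (X : F) < 1 := (hφker X).mp hXker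
    refine h26_eq_exp_neg_one ?_ hlt
    obtain ⟨b₀, hb₀⟩ := hunif i
    have hb₀ker : b₀ ∈ RingHom.ker (φ : B →+* A) := by
      rw [RingHom.mem_ker]
      refine (hφker b₀).mpr ?_
      rw [hb₀]
      exact exp_lt_exp.mpr (by norm_num)
    rw [← hb₀]
    exact hcomb i hi b₀ hb₀ker
  · intro k hk hki
    rw [← hXF]
    refine le_antisymm (hB _ X.2 k) (not_lt.mp fun hlt => hki ?_)
    refine (hinj i k ?_).symm
    intro b hb
    have hbker : b ∈ RingHom.ker (φ : B →+* A) := (hφker b).mpr hb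
    exact lt_of_le_of_lt (hcomb k hk b hbker) hlt

end Smooth

/-- **LP at a smooth point** (the frozen statement of `LGC/Skeleton.lean`). -/
theorem h75l_lpSmooth : LPSmoothStatement.{u, v, w} := by
  intro A _ _ F _ _ B V ι val hC 𝔫 h𝔫 h𝔪𝔫 t ht hprin i φ hφker hφfg hi
  have := h𝔫
  exact h75l_lp_smooth hC.hB hC.hunif hC.hinj 𝔫 h𝔪𝔫 t ht hprin i hi φ hφker hφfg

/-- **LP at a node** (the frozen statement of `LGC/Skeleton.lean`). -/
theorem h75l_lpNode : LPNodeStatement.{u, v, w} := by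
  intro A _ _ F _ _ B V ι val hC hconst 𝔫 h𝔫 h𝔪𝔫 x hx y hy c hc a ha hxy hprin i φ hφker
    hφfg hi
  have := h𝔫
  exact h75p_lp_node hC 𝔫 h𝔪𝔫 x y c hx hy hc a hxy (fun k _ => hconst k a ha) hprin i hi φ
    hφker hφfg

section DD

variable {F : Type*} [Field F]

/-- the double difference of two ring automorphisms, as a multiplicative map. -/
def h75l_dd (σ τ : F ≃+* F) : F →*₀ F where
  toFun h := τ (σ h) * h / (σ h * τ h)
  map_zero' := by simp
  map_one' := by simp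
  map_mul' x y := by
    simp only [map_mul]
    rw [div_mul_div_comm]
    congr 1 <;> ring

theorem h75l_dd_apply (σ τ : F ≃+* F) (h : F) :
    h75l_dd σ τ h = τ (σ h) * h / (σ h * τ h) := rfl

end DD

/-- **The local input of the UNIP gate at all closed points of a chart** (the frozen statement
of `LGC/Skeleton.lean`). -/
theorem h75l_localAllDD : LocalAllDDStatement.{u, v, w} := by
  intro A _ _ _ F _ _ B V ι val hC hAF harch hVnt σ τ hστ hG7 hLP hgen u hu r hru hrw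
  classical
  have hAV : ∀ a : A, algebraMap A F a ∈ V := fun a => hC.hBV _ (B.algebraMap_mem a)
  -- (G7) and (G6) for the multiplicative map `dd`
  have hG7' : ∀ h : F, h ≠ 0 → ∃ π ∈ maximalIdeal A, π ≠ 0 ∧ h75l_dd σ τ h ∈ h26U π V := by
    intro h hh
    obtain ⟨π, hπ, hπ0, hU⟩ := hG7 h hh
    exact ⟨π, hπ, hπ0, hU⟩
  have hG6 : ∀ h : F, h ≠ 0 → h75l_dd σ τ h ∈ V ∧ (h75l_dd σ τ h)⁻¹ ∈ V := by
    intro h hh
    obtain ⟨π, hπ, hπ0, hU⟩ := hG7' h hh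
    exact ⟨h26U_mem_V (hAV π) hU,
      h26U_mem_V (hAV π) (h26U_inv (hC.hVunit π hπ) (hVnt π hπ) hU)⟩
  -- (PERM)
  have hperm : ∀ 𝔫 : Ideal B, 𝔫.IsMaximal → (maximalIdeal A).map (algebraMap A B) ≤ 𝔫 →
      𝔫 ∈ (Set.univ : Set (Ideal B)) → ∀ h : F, (∀ k, h26Centered B val 𝔫 k → val k h = 1) →
      ∀ k, h26Centered B val 𝔫 k → val k (h75l_dd σ τ h) = 1 := by
    intro 𝔫 h𝔫 hle _ h hh k hk
    have h1 : ∀ k, h26Centered B val 𝔫 k → val k (σ h) = 1 := fun k hk =>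
      (hστ 𝔫 h𝔫 hle h hh k hk).1
    have h2 : val k (τ h) = 1 := (hστ 𝔫 h𝔫 hle h hh k hk).2
    have h3 : val k (τ (σ h)) = 1 := (hστ 𝔫 h𝔫 hle (σ h) h1 k hk).2
    rw [h75l_dd_apply, map_div₀, map_mul, map_mul, h3, hh k hk, h1 k hk, h2]
    simp
  -- (LP)
  choose G hG using hLP
  have hLP' : ∀ 𝔫 : Ideal B, 𝔫.IsMaximal → (maximalIdeal A).map (algebraMap A B) ≤ 𝔫 →
      𝔫 ∈ (Set.univ : Set (Ideal B)) → ∀ i, h26Centered B val 𝔫 i →
      val i (G i) = exp (-1 : ℤ) ∧ ∀ k, h26Centered B val 𝔫 k → k ≠ i → val k (G i) = 1 :=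
    fun 𝔫 h𝔫 hle _ i hi => hG i 𝔫 h𝔫 hle hi
  -- a nonzero element of `𝔪_A`
  obtain ⟨π₁, hπ₁, hπ₁0, -⟩ := hG7' u hu
  obtain ⟨π₂, hπ₂, hπ₂0, -, hdatum⟩ := h75s_node_datum hC hAF Set.univ (h75l_dd σ τ) hG6 hG7'
    hperm G hLP' u hu r hru π₁ hπ₁ hπ₁0
  refine ⟨π₂, hπ₂, hπ₂0, fun π hπ hππ₂ 𝔫 h𝔫 => ?_⟩
  exact h63_local_all_loc hC harch hVnt hgen (τ (σ u) * u / (σ u * τ u)) r hrw π hπ
    (fun 𝔫 h𝔫 hle => hdatum π hπ hππ₂ 𝔫 h𝔫 hle (Set.mem_univ _)) 𝔫 h𝔫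

section Bridge

variable {A : Type*} [CommRing A] [IsDomain A] [ValuationRing A]
  {F : Type*} [Field F] [Algebra A F]
  {B : Subalgebra A F} {V : Subring F} {ι : Type*} {val : ι → Valuation F ℤᵐ⁰}

/-- **(LP) from the local structure**: if every closed point of the special fibre is smooth or
a node, and the centered places have sections, then every place has a function with a simple
zero at it and no other zero or pole among the places with the same centre. -/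
theorem h75l_LP_of_local (hC : H26Chart B V val)
    (hloc : ∀ 𝔫 : Ideal B, 𝔫.IsMaximal → (maximalIdeal A).map (algebraMap A B) ≤ 𝔫 →
      (∃ t' ∈ 𝔫, ∀ z ∈ 𝔫, ∃ s, s ∉ 𝔫 ∧
        s * z ∈ Ideal.span {t'} ⊔ (maximalIdeal A).map (algebraMap A B)) ∨
      (∃ x ∈ 𝔫, ∃ y ∈ 𝔫, ∃ c, c ∉ 𝔫 ∧ ∃ a : A, a ≠ 0 ∧
        x * y = algebraMap A B a * c ∧
        ∀ z ∈ 𝔫, ∃ s, s ∉ 𝔫 ∧
          s * z ∈ Ideal.span {x, y} ⊔ (maximalIdeal A).map (algebraMap A B)))
    (hsec : ∀ (i : ι) (𝔫 : Ideal B), 𝔫.IsMaximal →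
      (maximalIdeal A).map (algebraMap A B) ≤ 𝔫 → h26Centered B val 𝔫 i →
      ∃ φ : B →ₐ[A] A, (∀ b : B, φ b = 0 ↔ val i (b : F) < 1) ∧
        (RingHom.ker (φ : B →+* A)).FG) :
    ∀ i : ι, ∃ G : F, ∀ 𝔫 : Ideal B, 𝔫.IsMaximal →
      (maximalIdeal A).map (algebraMap A B) ≤ 𝔫 → h26Centered B val 𝔫 i →
        val i G = exp (-1 : ℤ) ∧ ∀ k, h26Centered B val 𝔫 k → k ≠ i → val k G = 1 := by
  classical
  intro i
  by_cases h : ∃ 𝔫 : Ideal B, 𝔫.IsMaximal ∧ (maximalIdeal A).map (algebraMap A B) ≤ 𝔫 ∧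
      h26Centered B val 𝔫 i
  swap
  · exact ⟨1, fun 𝔫 h𝔫 hle hi => (h ⟨𝔫, h𝔫, hle, hi⟩).elim⟩
  obtain ⟨𝔫, h𝔫, hle, hi⟩ := h
  have := h𝔫.isPrime
  obtain ⟨φ, hφker, hφfg⟩ := hsec i 𝔫 h𝔫 hle hi
  have key : ∃ G : F, val i G = exp (-1 : ℤ) ∧
      ∀ k, h26Centered B val 𝔫 k → k ≠ i → val k G = 1 := by
    rcases hloc 𝔫 h𝔫 hle with ⟨t', ht', hprin⟩ | ⟨x, hx, y, hy, c, hc, a, ha, hxy, hprin⟩
    · exact ⟨_, h75l_lp_smooth hC.hB hC.hunif hC.hinj 𝔫 hle t' ht' hprin i hi φ hφker hφfg⟩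
    · have hconst : ∀ k, h26Centered B val 𝔫 k → val k (algebraMap A F a) = 1 := by
        intro k hk
        obtain ⟨ψ, hψker, -⟩ := hsec k 𝔫 h𝔫 hle hk
        exact h75p_const_of_section hC.hB k ψ hψker a ha
      exact ⟨_, h75p_lp_node hC 𝔫 hle x y c hx hy hc a hxy hconst hprin i hi φ hφker hφfg⟩
  obtain ⟨G, hG⟩ := key
  refine ⟨G, fun 𝔫' h𝔫' _ hi' => ?_⟩
  have h𝔫𝔫' : 𝔫 = 𝔫' := h75s_center_unique 𝔫 𝔫' h𝔫 h𝔫' i hi hi' φ hφker
  subst h𝔫𝔫'
  exact hG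

end Bridge

open AlgebraicCurve ModularCurve Fermat.Agent.S37 Fermat.Agent.Red.GG in
/-- **SS-LP from SS-CHART, SS-LOCAL and SS-SECTION.** -/
theorem h75l_ifaceSSLP (A : ValuationSubring Kbar) (M ℓ : ℕ) [NeZero M] [NeZero ℓ]
    (t : FF (M * ℓ)) (hC : IfaceSSChart A M ℓ t) (hloc : IfaceSSLocal A M ℓ t)
    (hsec : IfaceSSSection A M ℓ t) : IfaceSSLP A M ℓ t :=
  h75l_LP_of_local hC hloc hsec

end Fermat.Agent.LGC
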