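import Mathlib

/-!
# W3-LGC, local half in algebraic form: deformation of a node and units near a node

Mathlib only.  Author: helper75.

The local ring `R` of the normal model at a crossing point `𝔫` of the two components of the
special fibre is studied **without completions**.

* `h75n_deform` (**D**, algebraic deformation lemma): from coordinates `x₀, y₀` with
  `𝔫 = (x₀, y₀, π)`, `x₀ y₀ ∈ (π)` and an a priori bound on the exponents `K` with
  `π ^ K ∣ x y` (`x ≡ x₀`, `y ≡ y₀` modulo `π`), one gets `x ≡ x₀`, `y ≡ y₀` and a unit `z`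
  with `x y = π ^ e z`, `1 ≤ e`.
* `h75n_le_of_unit` (**T**): the a priori bound comes from one function `Y` which is a unit on
  the generic fibre near the node (a modular unit).
* `h75n_units` (**U**): every unit of the generic fibre near the node is
  `ε · c · x ^ b`, `ε ∈ Rˣ`, `c` a constant, `b ∈ ℤ`.
-/

set_option autoImplicit false

namespace Fermat.Agent.LGC

/-! ## (D) the algebraic deformation lemma -/

section Deform

variable {R : Type*} [CommRing R]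

/-- one step of the iteration: if `x y = π ^ K z` with `z = x A + y B + π C` then
`(x - π ^ K B) (y - π ^ K A) = π ^ (K + 1) (C + π ^ (K - 1) A B)`. -/
theorem h75n_step (π x y z A B C : R) (K : ℕ) (hK : 1 ≤ K) (hxy : x * y = π ^ K * z)
    (hz : z = x * A + y * B + π * C) :
    (x - π ^ K * B) * (y - π ^ K * A) = π ^ (K + 1) * (C + π ^ (K - 1) * A * B) := by
  obtain ⟨k, rfl⟩ : ∃ k, K = k + 1 := ⟨K - 1, by omega⟩
  have h1 : (x - π ^ (k + 1) * B) * (y - π ^ (k + 1) * A)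
      = x * y - π ^ (k + 1) * (x * A + y * B) + π ^ (k + 1) * π ^ (k + 1) * A * B := by ring
  rw [h1, hxy]
  have h2 : x * A + y * B = z - π * C := by rw [hz]; ring
  rw [h2]
  simp only [Nat.add_sub_cancel]
  ring

/-- the next approximation: from `x y = π ^ K z` with `z ∈ (x₀, y₀, π)` to
`x' y' = π ^ (K + 1) z'`. -/
theorem h75n_next (π x₀ y₀ x y z : R) (K : ℕ) (hK : 1 ≤ K)
    (hx : x - x₀ ∈ Ideal.span {π}) (hy : y - y₀ ∈ Ideal.span {π})
    (hxy : x * y = π ^ K * z) (hz : z ∈ Ideal.span {x₀, y₀, π}) :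
    ∃ x' y' z' : R, x' - x₀ ∈ Ideal.span {π} ∧ y' - y₀ ∈ Ideal.span {π} ∧
      x' * y' = π ^ (K + 1) * z' := by
  rw [Ideal.mem_span_insert] at hz
  obtain ⟨A, w, hw, hzw⟩ := hz
  rw [Ideal.mem_span_insert] at hw
  obtain ⟨B, w', hw', hww'⟩ := hw
  rw [Ideal.mem_span_singleton'] at hw' hx hy
  obtain ⟨C, hC⟩ := hw'
  obtain ⟨s, hs⟩ := hx
  obtain ⟨t, ht⟩ := hy
  have hzz : z = x * A + y * B + π * (C - s * A - t * B) := by
    have hx0 : x₀ = x - s * π := by rw [hs]; ring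
    have hy0 : y₀ = y - t * π := by rw [ht]; ring
    rw [hzw, hww', ← hC, hx0, hy0]; ring
  have hstep := h75n_step π x y z A B (C - s * A - t * B) K hK hxy hzz
  obtain ⟨k, rfl⟩ : ∃ k, K = k + 1 := ⟨K - 1, by omega⟩
  refine ⟨x - π ^ (k + 1) * B, y - π ^ (k + 1) * A, _, ?_, ?_, hstep⟩
  · rw [Ideal.mem_span_singleton']
    exact ⟨s - π ^ k * B, by linear_combination hs⟩
  · rw [Ideal.mem_span_singleton']
    exact ⟨t - π ^ k * A, by linear_combination ht⟩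

/-- **(D) algebraic deformation lemma.**  `R` a local ring with maximal ideal `𝔫` (every
element outside `𝔫` is a unit), `𝔫 ≤ (x₀, y₀, π)`, `x₀ y₀ ∈ (π)`, and the exponents `K` with
`x y ∈ π ^ K R` for `x ≡ x₀`, `y ≡ y₀` modulo `π` are bounded.  Then there are `x ≡ x₀`,
`y ≡ y₀` modulo `π` with `x y = π ^ e z`, `z` a unit, `1 ≤ e`. -/
theorem h75n_deform (𝔫 : Ideal R) (hloc : ∀ r : R, r ∉ 𝔫 → IsUnit r) (π x₀ y₀ : R)
    (h𝔫 : 𝔫 ≤ Ideal.span {x₀, y₀, π}) (h0 : x₀ * y₀ ∈ Ideal.span {π}) (N : ℕ)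
    (hN : ∀ (K : ℕ) (x y z : R), x - x₀ ∈ Ideal.span {π} → y - y₀ ∈ Ideal.span {π} →
      x * y = π ^ K * z → K ≤ N) :
    ∃ (e : ℕ) (x y z : R), 1 ≤ e ∧ IsUnit z ∧ x - x₀ ∈ Ideal.span {π} ∧
      y - y₀ ∈ Ideal.span {π} ∧ x * y = π ^ e * z := by
  -- induction on `N - K`
  have key : ∀ (d K : ℕ) (x y z : R), K + d = N → 1 ≤ K → x - x₀ ∈ Ideal.span {π} →
      y - y₀ ∈ Ideal.span {π} → x * y = π ^ K * z →
      ∃ (e : ℕ) (x y z : R), 1 ≤ e ∧ IsUnit z ∧ x - x₀ ∈ Ideal.span {π} ∧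
        y - y₀ ∈ Ideal.span {π} ∧ x * y = π ^ e * z := by
    intro d
    induction d with
    | zero =>
      intro K x y z hKN hK hx hy hxy
      by_cases hz : z ∈ 𝔫
      · exfalso
        obtain ⟨x', y', z', hx', hy', hxy'⟩ := h75n_next π x₀ y₀ x y z K hK hx hy hxy (h𝔫 hz)
        have := hN (K + 1) x' y' z' hx' hy' hxy'
        omega
      · exact ⟨K, x, y, z, hK, hloc z hz, hx, hy, hxy⟩
    | succ d ih =>
      intro K x y z hKN hK hx hy hxy
      by_cases hz : z ∈ 𝔫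
      · obtain ⟨x', y', z', hx', hy', hxy'⟩ := h75n_next π x₀ y₀ x y z K hK hx hy hxy (h𝔫 hz)
        exact ih (K + 1) x' y' z' (by omega) (by omega) hx' hy' hxy'
      · exact ⟨K, x, y, z, hK, hloc z hz, hx, hy, hxy⟩
  obtain ⟨z₀, hz₀⟩ := Ideal.mem_span_singleton'.mp h0
  have h1N : 1 ≤ N := hN 1 x₀ y₀ z₀ (by simp) (by simp) (by rw [pow_one, ← hz₀]; ring)
  exact key (N - 1) 1 x₀ y₀ z₀ (by omega) le_rfl (by simp) (by simp)
    (by rw [pow_one, ← hz₀]; ring)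

end Deform

/-! ## The setting at a node -/

section Node

variable {F : Type*} [Field F]

/-- **The data at a crossing point.**  `R ⊆ F` is the local ring of the model at the crossing
point, `𝔫` its maximal ideal, `V₁`, `V₂` the valuation rings of the two components of the
special fibre through the point, `C` the group of nonzero constants.

* `sat` : an element of `R · C` which is integral at both components lies in `R`
  (the special fibre is reduced);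
* `cen₁`, `cen₂` : both components pass through the point. -/
structure h75n_Node (R : Subring F) (𝔫 : Ideal R) (V₁ V₂ : ValuationSubring F)
    (C : Subgroup Fˣ) : Prop where
  loc : ∀ r : R, r ∉ 𝔫 → IsUnit r
  one_notMem : (1 : R) ∉ 𝔫
  le₁ : ∀ r : F, r ∈ R → r ∈ V₁
  le₂ : ∀ r : F, r ∈ R → r ∈ V₂
  sat : ∀ f : F, f ∈ V₁ → f ∈ V₂ → (∃ c : Fˣ, c ∈ C ∧ (c : F) * f ∈ R) → f ∈ R
  cen₁ : ∀ r : R, V₁.valuation (r : F) < 1 → r ∈ 𝔫
  cen₂ : ∀ r : R, V₂.valuation (r : F) < 1 → r ∈ 𝔫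

variable {R : Subring F} {𝔫 : Ideal R} {V₁ V₂ : ValuationSubring F} {C : Subgroup Fˣ}

/-- an element of `R` whose inverse lies in `R` is not in `𝔫`. -/
theorem h75n_Node.notMem_of_inv (h : h75n_Node R 𝔫 V₁ V₂ C) {u : F} (hu : u ∈ R)
    (hu' : u⁻¹ ∈ R) (hu0 : u ≠ 0) : (⟨u, hu⟩ : R) ∉ 𝔫 := by
  intro hmem
  apply h.one_notMem
  have h1 : (⟨u⁻¹, hu'⟩ : R) * ⟨u, hu⟩ = 1 := by
    apply Subtype.ext
    simp [hu0]
  rw [← h1]
  exact 𝔫.mul_mem_left _ hmem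

/-- an element of `R` outside `𝔫` has its inverse in `R`. -/
theorem h75n_Node.inv_mem (h : h75n_Node R 𝔫 V₁ V₂ C) {g : F} (hg : g ∈ R)
    (hn : (⟨g, hg⟩ : R) ∉ 𝔫) : g⁻¹ ∈ R := by
  obtain ⟨⟨a, b, hab, hba⟩, hu⟩ := h.loc _ hn
  have ha : a = ⟨g, hg⟩ := hu
  have h1 : (g : F) * (b : F) = 1 := by
    have := congrArg Subtype.val hab
    rw [ha] at this
    simpa using this
  have : g⁻¹ = (b : F) := by
    have hg0 : g ≠ 0 := by
      rintro rfl
      simp at h1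
    field_simp
    exact h1.symm
  rw [this]
  exact b.2

/-- if `r, s ∈ R`, `r ∈ 𝔫` and `1 - r s ∈ 𝔫` then we have a contradiction. -/
theorem h75n_Node.false_of (h : h75n_Node R 𝔫 V₁ V₂ C) {r s : R} (hr : r ∈ 𝔫)
    (h1 : 1 - r * s ∈ 𝔫) : False := by
  apply h.one_notMem
  have : (1 : R) = (1 - r * s) + r * s := by ring
  rw [this]
  exact 𝔫.add_mem h1 (𝔫.mul_mem_right _ hr)

/-- **(T)**: a unit `Y` of the generic fibre near the node which is `≡ u x ^ b` on the first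
branch satisfies `|Y|₂ ≤ |x ^ b|₂`. -/
theorem h75n_le_of_unit (h : h75n_Node R 𝔫 V₁ V₂ C) {Y Y' : F} (hY : Y ∈ R) (hY' : Y' ∈ R)
    {a : Fˣ} (ha : a ∈ C) (hYY : Y * Y' = a) (hY₁ : V₁.valuation Y = 1)
    {x u : F} (hx : x ∈ R) (hx₁ : V₁.valuation x = 1) (hu : u ∈ R) (b : ℕ)
    (hbr : V₁.valuation (Y - u * x ^ b) < 1) :
    V₂.valuation Y ≤ V₂.valuation (x ^ b) := by
  by_contra hcon
  rw [not_le] at hcon
  have hY0 : Y ≠ 0 := by
    rintro rfl
    simp at hY₁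
  have hx0 : x ≠ 0 := by
    rintro rfl
    simp at hx₁
  set hh : F := x ^ b * Y⁻¹ with hhdef
  have hh₂ : V₂.valuation hh < 1 := by
    rw [hhdef, map_mul, map_inv₀]
    have hpos : 0 < V₂.valuation Y := lt_of_le_of_lt zero_le hcon
    rw [← div_eq_mul_inv, div_lt_one₀ hpos]
    exact hcon
  have hh₁ : V₁.valuation hh = 1 := by
    rw [hhdef, map_mul, map_inv₀, map_pow, hx₁, hY₁]
    simp
  have hhV₁ : hh ∈ V₁ := by
    rw [← ValuationSubring.valuation_le_one_iff]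
    exact hh₁.le
  have hhV₂ : hh ∈ V₂ := by
    rw [← ValuationSubring.valuation_le_one_iff]
    exact hh₂.le
  have hhR : hh ∈ R := by
    refine h.sat hh hhV₁ hhV₂ ⟨a, ha, ?_⟩
    have : (a : F) * hh = x ^ b * Y' := by
      rw [hhdef, ← hYY]
      field_simp
    rw [this]
    exact R.mul_mem (R.pow_mem hx b) hY'
  have hh𝔫 : (⟨hh, hhR⟩ : R) ∈ 𝔫 := h.cen₂ _ hh₂
  have h1 : (1 : R) - ⟨hh, hhR⟩ * ⟨u, hu⟩ ∈ 𝔫 := by
    apply h.cen₁
    have : (((1 : R) - ⟨hh, hhR⟩ * ⟨u, hu⟩ : R) : F) = (Y - u * x ^ b) * Y⁻¹ := by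
      push_cast
      rw [hhdef]
      field_simp
    rw [this, map_mul, map_inv₀, hY₁]
    simpa using hbr
  exact h.false_of hh𝔫 h1

/-- **(U), normalised form.**  `x ∈ R` with `x y = a` a constant, `x` a unit at the first
component, and every element of `R` which is a unit at the first component is
`≡ u x ^ b` on the first branch.  Then every unit `f` of the generic fibre near the node
which is a unit at the first component and integral at the second is `ε x ^ b`,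
`ε` a unit of `R`. -/
theorem h75n_units_aux (h : h75n_Node R 𝔫 V₁ V₂ C) {x y : F} (hx : x ∈ R) (hy : y ∈ R)
    {a : Fˣ} (ha : a ∈ C) (hxy : x * y = a) (hx₁ : V₁.valuation x = 1)
    (hbr : ∀ r : F, r ∈ R → V₁.valuation r = 1 →
      ∃ (b : ℕ) (u : F), u ∈ R ∧ u⁻¹ ∈ R ∧ V₁.valuation (r - u * x ^ b) < 1)
    {f : F} (hf₁ : V₁.valuation f = 1) (hf₂ : f ∈ V₂)
    (hfC : ∃ c : Fˣ, c ∈ C ∧ (c : F) * f ∈ R) (hfC' : ∃ c : Fˣ, c ∈ C ∧ (c : F) * f⁻¹ ∈ R) :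
    ∃ (ε : F) (b : ℕ), ε ∈ R ∧ ε⁻¹ ∈ R ∧ f = ε * x ^ b := by
  have hf0 : f ≠ 0 := by
    rintro rfl
    simp at hf₁
  have hx0 : x ≠ 0 := by
    rintro rfl
    simp at hx₁
  have hfV₁ : f ∈ V₁ := by
    rw [← ValuationSubring.valuation_le_one_iff]; exact hf₁.le
  have hfR : f ∈ R := h.sat f hfV₁ hf₂ hfC
  obtain ⟨b, u, hu, hu', hbu⟩ := hbr f hfR hf₁
  have hu0 : u ≠ 0 := by
    rintro rfl
    rw [zero_mul, sub_zero, hf₁] at hbu
    exact lt_irrefl _ hbu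
  have hxb0 : x ^ b ≠ 0 := pow_ne_zero _ hx0
  set g : F := f * (x ^ b)⁻¹ with hgdef
  have hg0 : g ≠ 0 := mul_ne_zero hf0 (inv_ne_zero hxb0)
  have hg₁ : V₁.valuation g = 1 := by
    rw [hgdef, map_mul, map_inv₀, map_pow, hx₁, hf₁]; simp
  have hgu : V₁.valuation (g - u) < 1 := by
    have : g - u = (f - u * x ^ b) * (x ^ b)⁻¹ := by
      rw [hgdef]; field_simp
    rw [this, map_mul, map_inv₀, map_pow, hx₁]
    simpa using hbu
  have hgV₁ : g ∈ V₁ := by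
    rw [← ValuationSubring.valuation_le_one_iff]; exact hg₁.le
  have hginvV₁ : g⁻¹ ∈ V₁ := by
    rw [← ValuationSubring.valuation_le_one_iff, map_inv₀, hg₁]; simp
  -- `g ∈ R · C`
  have hgC : ∃ c : Fˣ, c ∈ C ∧ (c : F) * g ∈ R := by
    refine ⟨a ^ b, C.pow_mem ha b, ?_⟩
    have : ((a ^ b : Fˣ) : F) * g = f * y ^ b := by
      rw [hgdef, Units.val_pow_eq_pow_val, ← hxy, mul_pow]
      field_simp
    rw [this]
    exact R.mul_mem hfR (R.pow_mem hy b)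
  have hgC' : ∃ c : Fˣ, c ∈ C ∧ (c : F) * g⁻¹ ∈ R := by
    obtain ⟨c, hc, hcf⟩ := hfC'
    refine ⟨c, hc, ?_⟩
    have : (c : F) * g⁻¹ = x ^ b * ((c : F) * f⁻¹) := by
      rw [hgdef]; field_simp
    rw [this]
    exact R.mul_mem (R.pow_mem hx b) hcf
  rcases V₂.mem_or_inv_mem g with hg₂ | hg₂
  · -- `g ∈ R` and `g ≡ u` modulo `𝔫`
    have hgR : g ∈ R := h.sat g hgV₁ hg₂ hgC
    have hgu𝔫 : (⟨g, hgR⟩ : R) - ⟨u, hu⟩ ∈ 𝔫 := by
      apply h.cen₁
      simpa using hgu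
    have hgn : (⟨g, hgR⟩ : R) ∉ 𝔫 := by
      intro hmem
      apply h.notMem_of_inv hu hu' hu0
      have : (⟨u, hu⟩ : R) = ⟨g, hgR⟩ - (⟨g, hgR⟩ - ⟨u, hu⟩) := by ring
      rw [this]
      exact 𝔫.sub_mem hmem hgu𝔫
    refine ⟨g, b, hgR, h.inv_mem hgR hgn, ?_⟩
    rw [hgdef]; field_simp
  · -- `g⁻¹ ∈ R`; then `g⁻¹` is a unit, so `g ∈ R`
    have hgiR : g⁻¹ ∈ R := h.sat g⁻¹ hginvV₁ hg₂ hgC'
    have h1 : (1 : R) - ⟨g⁻¹, hgiR⟩ * ⟨u, hu⟩ ∈ 𝔫 := by
      apply h.cen₁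
      have : (((1 : R) - ⟨g⁻¹, hgiR⟩ * ⟨u, hu⟩ : R) : F) = g⁻¹ * (g - u) := by
        push_cast
        field_simp
      rw [this, map_mul, map_inv₀, hg₁]
      simpa using hgu
    have hgin : (⟨g⁻¹, hgiR⟩ : R) ∉ 𝔫 := fun hmem => h.false_of hmem h1
    have hgR : g ∈ R := by
      have := h.inv_mem hgiR hgin
      rwa [inv_inv] at this
    refine ⟨g, b, hgR, hgiR, ?_⟩
    rw [hgdef]; field_simp

/-- **(U) units near a node.**  Every unit `f` of the generic fibre near the node is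
`ε · c · x ^ b` with `ε` a unit of `R`, `c` a constant and `b ∈ ℤ`. -/
theorem h75n_units (h : h75n_Node R 𝔫 V₁ V₂ C)
    (hval : ∀ f : F, f ≠ 0 → ∃ c : Fˣ, c ∈ C ∧ V₁.valuation ((c : F) * f) = 1)
    {x y : F} (hx : x ∈ R) (hy : y ∈ R)
    {a : Fˣ} (ha : a ∈ C) (hxy : x * y = a) (hx₁ : V₁.valuation x = 1)
    (hbr : ∀ r : F, r ∈ R → V₁.valuation r = 1 →
      ∃ (b : ℕ) (u : F), u ∈ R ∧ u⁻¹ ∈ R ∧ V₁.valuation (r - u * x ^ b) < 1)
    {f : F} (hf0 : f ≠ 0)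
    (hfC : ∃ c : Fˣ, c ∈ C ∧ (c : F) * f ∈ R) (hfC' : ∃ c : Fˣ, c ∈ C ∧ (c : F) * f⁻¹ ∈ R) :
    ∃ (ε : F) (c : Fˣ) (b : ℤ), ε ∈ R ∧ ε⁻¹ ∈ R ∧ c ∈ C ∧ f = ε * c * x ^ b := by
  have hx0 : x ≠ 0 := by
    rintro rfl
    simp at hx₁
  obtain ⟨c, hc, hcf⟩ := hval f hf0
  set f₁ : F := (c : F) * f with hf₁def
  have hf₁0 : f₁ ≠ 0 := mul_ne_zero c.ne_zero hf0
  have hf₁C : ∃ c' : Fˣ, c' ∈ C ∧ (c' : F) * f₁ ∈ R := by
    obtain ⟨c₀, hc₀, hc₀f⟩ := hfC
    refine ⟨c₀ * c⁻¹, C.mul_mem hc₀ (C.inv_mem hc), ?_⟩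
    have : ((c₀ * c⁻¹ : Fˣ) : F) * f₁ = (c₀ : F) * f := by
      rw [hf₁def]; push_cast; field_simp
    rw [this]; exact hc₀f
  have hf₁C' : ∃ c' : Fˣ, c' ∈ C ∧ (c' : F) * f₁⁻¹ ∈ R := by
    obtain ⟨c₀, hc₀, hc₀f⟩ := hfC'
    refine ⟨c₀ * c, C.mul_mem hc₀ hc, ?_⟩
    have : ((c₀ * c : Fˣ) : F) * f₁⁻¹ = (c₀ : F) * f⁻¹ := by
      rw [hf₁def]; push_cast; field_simp
    rw [this]; exact hc₀f
  rcases V₂.mem_or_inv_mem f₁ with h₂ | h₂
  · obtain ⟨ε, b, hε, hε', hfε⟩ := h75n_units_aux h hx hy ha hxy hx₁ hbr hcf h₂ hf₁C hf₁C'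
    refine ⟨ε, c⁻¹, (b : ℤ), hε, hε', C.inv_mem hc, ?_⟩
    have : f = (c : F)⁻¹ * f₁ := by rw [hf₁def]; field_simp
    rw [this, hfε, zpow_natCast]; push_cast; ring
  · have hcf' : V₁.valuation f₁⁻¹ = 1 := by rw [map_inv₀, hcf]; simp
    have hC'' : ∃ c' : Fˣ, c' ∈ C ∧ (c' : F) * f₁⁻¹⁻¹ ∈ R := by simpa using hf₁C
    obtain ⟨ε, b, hε, hε', hfε⟩ :=
      h75n_units_aux h hx hy ha hxy hx₁ hbr hcf' h₂ hf₁C' hC''
    have hε0 : ε ≠ 0 := by
      rintro rfl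
      rw [zero_mul] at hfε
      exact inv_ne_zero hf₁0 hfε
    refine ⟨ε⁻¹, c⁻¹, -(b : ℤ), hε', by rwa [inv_inv], C.inv_mem hc, ?_⟩
    have h1 : f₁ = ε⁻¹ * (x ^ b)⁻¹ := by
      have := congrArg (·⁻¹) hfε
      simp only [inv_inv, mul_inv] at this
      exact this
    have : f = (c : F)⁻¹ * f₁ := by rw [hf₁def]; field_simp
    rw [this, h1, zpow_neg, zpow_natCast]; push_cast; ring

/-- **(D) + (T): good coordinates at a node.**  `x₀, y₀` generate `𝔫` together with the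
constant `π`, `x₀ y₀ ∈ π R`, `x₀` is a unit at the first component and `y₀` at the second,
and `Y ∈ 𝔫` is a unit of the generic fibre near the node, a unit at the first component,
`≡ u x₀ ^ b` on the first branch (`1 ≤ b`), with `|π|₂ ^ N < |Y|₂`.  Then there are
`x ≡ x₀`, `y z ≡ y₀` modulo `π` (`z` a unit of `R`) with `x y = π ^ e` **exactly**,
`1 ≤ e`. -/
theorem h75n_coords (h : h75n_Node R 𝔫 V₁ V₂ C) (π : F) (hπR : π ∈ R)
    (hπ₁ : V₁.valuation π < 1) (hπ₂ : V₂.valuation π < 1)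
    {x₀ y₀ : F} (hx₀ : x₀ ∈ R) (hy₀ : y₀ ∈ R)
    (h𝔫 : 𝔫 ≤ Ideal.span {(⟨x₀, hx₀⟩ : R), ⟨y₀, hy₀⟩, ⟨π, hπR⟩})
    (h0 : ∃ z : F, z ∈ R ∧ x₀ * y₀ = π * z)
    (hx₀₁ : V₁.valuation x₀ = 1) (hy₀₂ : V₂.valuation y₀ = 1)
    {Y Y' : F} (hY : Y ∈ R) (hY' : Y' ∈ R) {a : Fˣ} (ha : a ∈ C) (hYY : Y * Y' = a)
    (hY₁ : V₁.valuation Y = 1) {u : F} (hu : u ∈ R) (b : ℕ) (hb : 1 ≤ b)
    (hbr : V₁.valuation (Y - u * x₀ ^ b) < 1) (N : ℕ)
    (hN : V₂.valuation π ^ N < V₂.valuation Y) :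
    ∃ (e : ℕ) (x y : F), 1 ≤ e ∧ x ∈ R ∧ y ∈ R ∧ (∃ t : F, t ∈ R ∧ x - x₀ = π * t) ∧
      (∃ z t : F, z ∈ R ∧ z⁻¹ ∈ R ∧ t ∈ R ∧ y * z - y₀ = π * t) ∧ x * y = π ^ e := by
  have hbound : ∀ (K : ℕ) (x y z : R), x - ⟨x₀, hx₀⟩ ∈ Ideal.span {(⟨π, hπR⟩ : R)} →
      y - ⟨y₀, hy₀⟩ ∈ Ideal.span {(⟨π, hπR⟩ : R)} → x * y = ⟨π, hπR⟩ ^ K * z → K ≤ N := by
    intro K x y z hx hy hxy
    rw [Ideal.mem_span_singleton'] at hx hy
    obtain ⟨s, hs⟩ := hx
    obtain ⟨t, ht⟩ := hy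
    have hsF : (x : F) = x₀ + (s : F) * π := by
      have := congrArg Subtype.val hs
      push_cast at this
      linear_combination -this
    have htF : (y : F) = y₀ + (t : F) * π := by
      have := congrArg Subtype.val ht
      push_cast at this
      linear_combination -this
    have hxyF : (x : F) * y = π ^ K * z := by
      have := congrArg Subtype.val hxy
      push_cast at this
      exact this
    have hsπ₁ : V₁.valuation ((s : F) * π) < 1 := by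
      rw [map_mul]
      have : V₁.valuation (s : F) ≤ 1 :=
        (ValuationSubring.valuation_le_one_iff _ _).mpr (h.le₁ _ s.2)
      calc V₁.valuation (s : F) * V₁.valuation π ≤ 1 * V₁.valuation π := by gcongr
        _ < 1 := by rw [one_mul]; exact hπ₁
    have htπ₂ : V₂.valuation ((t : F) * π) < 1 := by
      rw [map_mul]
      have : V₂.valuation (t : F) ≤ 1 :=
        (ValuationSubring.valuation_le_one_iff _ _).mpr (h.le₂ _ t.2)
      calc V₂.valuation (t : F) * V₂.valuation π ≤ 1 * V₂.valuation π := by gcongr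
        _ < 1 := by rw [one_mul]; exact hπ₂
    have hx₁ : V₁.valuation (x : F) = 1 := by
      rw [hsF, Valuation.map_add_eq_of_lt_left _ (by rw [hx₀₁]; exact hsπ₁), hx₀₁]
    have hy₂ : V₂.valuation (y : F) = 1 := by
      rw [htF, Valuation.map_add_eq_of_lt_left _ (by rw [hy₀₂]; exact htπ₂), hy₀₂]
    -- `Y ≡ u x ^ b` on the first branch
    have hdvd : (x - ⟨x₀, hx₀⟩ : R) ∣ x ^ b - ⟨x₀, hx₀⟩ ^ b := sub_dvd_pow_sub_pow _ _ b
    obtain ⟨q, hq⟩ := hdvd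
    have hqF : (x : F) ^ b - x₀ ^ b = (s : F) * π * q := by
      have := congrArg Subtype.val hq
      rw [← hs] at this
      push_cast at this
      exact this
    have hbr' : V₁.valuation (Y - u * (x : F) ^ b) < 1 := by
      have e1 : Y - u * (x : F) ^ b = (Y - u * x₀ ^ b) - u * ((s : F) * π * q) := by
        rw [← hqF]; ring
      rw [e1]
      apply Valuation.map_sub_lt _ hbr
      rw [map_mul, map_mul]
      have hu1 : V₁.valuation u ≤ 1 :=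
        (ValuationSubring.valuation_le_one_iff _ _).mpr (h.le₁ _ hu)
      have hq1 : V₁.valuation (q : F) ≤ 1 :=
        (ValuationSubring.valuation_le_one_iff _ _).mpr (h.le₁ _ q.2)
      calc V₁.valuation u * (V₁.valuation ((s : F) * π) * V₁.valuation (q : F))
          ≤ 1 * (V₁.valuation ((s : F) * π) * 1) := by gcongr
        _ < 1 := by rw [one_mul, mul_one]; exact hsπ₁
    have hT := h75n_le_of_unit h hY hY' ha hYY hY₁ x.2 hx₁ hu b hbr'
    -- `|x|₂ ≤ |π|₂ ^ K`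
    have hz₂ : V₂.valuation (z : F) ≤ 1 :=
      (ValuationSubring.valuation_le_one_iff _ _).mpr (h.le₂ _ z.2)
    have hx₂ : V₂.valuation (x : F) ≤ V₂.valuation π ^ K := by
      have := congrArg V₂.valuation hxyF
      rw [map_mul, hy₂, mul_one, map_mul, map_pow] at this
      rw [this]
      calc V₂.valuation π ^ K * V₂.valuation (z : F) ≤ V₂.valuation π ^ K * 1 := by gcongr
        _ = _ := mul_one _
    have hx₂' : V₂.valuation (x : F) ≤ 1 :=
      (ValuationSubring.valuation_le_one_iff _ _).mpr (h.le₂ _ x.2)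
    have hxb : V₂.valuation ((x : F) ^ b) ≤ V₂.valuation (x : F) := by
      rw [map_pow]
      obtain ⟨b', rfl⟩ : ∃ b', b = b' + 1 := ⟨b - 1, by omega⟩
      rw [pow_succ]
      calc V₂.valuation (x : F) ^ b' * V₂.valuation (x : F)
          ≤ 1 * V₂.valuation (x : F) := by
            gcongr
            exact pow_le_one' hx₂' b'
        _ = _ := one_mul _
    by_contra hKN
    rw [not_le] at hKN
    have h1 : V₂.valuation π ^ K ≤ V₂.valuation π ^ N :=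
      pow_le_pow_right_of_le_one' hπ₂.le hKN.le
    exact absurd (lt_of_le_of_lt (hT.trans (hxb.trans (hx₂.trans h1))) hN) (lt_irrefl _)
  have h0' : (⟨x₀, hx₀⟩ : R) * ⟨y₀, hy₀⟩ ∈ Ideal.span {(⟨π, hπR⟩ : R)} := by
    obtain ⟨z, hz, hxyz⟩ := h0
    rw [Ideal.mem_span_singleton']
    refine ⟨⟨z, hz⟩, ?_⟩
    apply Subtype.ext
    push_cast
    rw [hxyz]; ring
  obtain ⟨e, x, y, z, he, hz, hx, hy, hxy⟩ :=
    h75n_deform 𝔫 h.loc ⟨π, hπR⟩ ⟨x₀, hx₀⟩ ⟨y₀, hy₀⟩ h𝔫 h0' N hbound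
  rw [Ideal.mem_span_singleton'] at hx hy
  obtain ⟨s, hs⟩ := hx
  obtain ⟨t, ht⟩ := hy
  obtain ⟨⟨z₁, z₂, hz12, hz21⟩, hzu⟩ := hz
  have hz₁ : z₁ = z := hzu
  have hzF : (z : F) * (z₂ : F) = 1 := by
    have := congrArg Subtype.val hz12
    rw [hz₁] at this
    simpa using this
  have hz0 : (z : F) ≠ 0 := by
    intro h0
    rw [h0, zero_mul] at hzF
    exact zero_ne_one hzF
  have hzinv : (z : F)⁻¹ = z₂ := by
    field_simp
    exact hzF.symm
  refine ⟨e, x, (y : F) * (z : F)⁻¹, he, x.2, ?_, ⟨s, s.2, ?_⟩,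
    ⟨z, t, z.2, ?_, t.2, ?_⟩, ?_⟩
  · rw [hzinv]; exact R.mul_mem y.2 z₂.2
  · have := congrArg Subtype.val hs
    push_cast at this
    linear_combination -this
  · rw [hzinv]; exact z₂.2
  · have := congrArg Subtype.val ht
    push_cast at this
    field_simp
    linear_combination -this
  · have := congrArg Subtype.val hxy
    push_cast at this
    field_simp
    linear_combination this

end Node

end Fermat.Agent.LGC
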