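import Mathlib

/-!
# W3-LGC, local lemma L1: the node criterion (Mathlib only)

Let `R` be a commutative ring with two surjections `f₁ : R → D₁`, `f₂ : R → D₂` onto discrete
valuation rings (the two branches through a crossing point of a reduced curve), and let
`X, Y : R` be such that `f₁ X` is a uniformizer of `D₁`, `f₂ X ∈ m₂ ^ 2`, `f₁ Y ∈ m₁ ^ 2` and
`f₂ Y` is a uniformizer of `D₂`.  Then the two branches cross transversally:

* `h40n_exists_left`  : some element of `ker f₂` maps to a uniformizer of `D₁`;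
* `h40n_lift_left`    : every `a ∈ m₁` is `f₁ r` with `f₂ r = 0`;
* `h40n_node`         : the image of `R` in `D₁ × D₂` is the full fibre product over the residue
  field: `(a, b)` is in the image as soon as it is congruent to the image of some `r₀` modulo
  `m₁ × m₂`.

No noetherian, locality or injectivity hypothesis on `R` is needed.
-/

set_option autoImplicit false

namespace Fermat.Agent.LGC

open IsLocalRing

section DVR

variable {D : Type*} [CommRing D] [IsDomain D] [IsDiscreteValuationRing D]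

/-- In a discrete valuation ring, a uniformizer minus an element of `m ^ 2` is a uniformizer. -/
theorem h40n_irreducible_sub {ϖ e : D} (hϖ : Irreducible ϖ) (he : e ∈ maximalIdeal D ^ 2) :
    Irreducible (ϖ - e) := by
  rw [hϖ.maximalIdeal_eq, Ideal.span_singleton_pow, Ideal.mem_span_singleton] at he
  obtain ⟨c, rfl⟩ := he
  have hmem : ϖ * c ∈ maximalIdeal D := by
    rw [hϖ.maximalIdeal_eq, Ideal.mem_span_singleton]
    exact dvd_mul_right ϖ c
  have hu : IsUnit (1 - ϖ * c) := by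
    by_contra h
    have h1 : (1 - ϖ * c) ∈ maximalIdeal D := (mem_maximalIdeal _).mpr h
    have h2 : (1 : D) ∈ maximalIdeal D := by
      have h3 := Ideal.add_mem _ h1 hmem
      rwa [sub_add_cancel] at h3
    exact (Ideal.ne_top_iff_one _).mp (maximalIdeal.isMaximal D).ne_top h2
  have hEq : ϖ - ϖ ^ 2 * c = ϖ * (1 - ϖ * c) := by ring
  rw [hEq]
  exact (irreducible_mul_isUnit hu).mpr hϖ

/-- In a discrete valuation ring, every element of `m ^ 2` is a multiple of the square of any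
uniformizer. -/
theorem h40n_exists_eq_mul_sq {ϖ e : D} (hϖ : Irreducible ϖ) (he : e ∈ maximalIdeal D ^ 2) :
    ∃ c : D, e = c * ϖ ^ 2 := by
  rw [hϖ.maximalIdeal_eq, Ideal.span_singleton_pow, Ideal.mem_span_singleton] at he
  obtain ⟨c, rfl⟩ := he
  exact ⟨c, mul_comm _ _⟩

/-- In a discrete valuation ring, every element of `m` is a multiple of any uniformizer. -/
theorem h40n_exists_eq_mul {ϖ a : D} (hϖ : Irreducible ϖ) (ha : a ∈ maximalIdeal D) :
    ∃ c : D, a = c * ϖ := by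
  rw [hϖ.maximalIdeal_eq, Ideal.mem_span_singleton] at ha
  obtain ⟨c, rfl⟩ := ha
  exact ⟨c, mul_comm _ _⟩

end DVR

variable {R D₁ D₂ : Type*} [CommRing R]
  [CommRing D₁] [IsDomain D₁] [IsDiscreteValuationRing D₁]
  [CommRing D₂] [IsDomain D₂] [IsDiscreteValuationRing D₂]

/-- **L1, key step.**  Some element of `ker f₂` maps to a uniformizer of `D₁`. -/
theorem h40n_exists_left (f₁ : R →+* D₁) (f₂ : R →+* D₂) (hf₂ : Function.Surjective f₂)
    (X Y : R) (hX₁ : Irreducible (f₁ X)) (hX₂ : f₂ X ∈ maximalIdeal D₂ ^ 2)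
    (hY₁ : f₁ Y ∈ maximalIdeal D₁) (hY₂ : Irreducible (f₂ Y)) :
    ∃ r : R, f₂ r = 0 ∧ Irreducible (f₁ r) := by
  obtain ⟨c, hc⟩ := h40n_exists_eq_mul_sq hY₂ hX₂
  obtain ⟨s, rfl⟩ := hf₂ c
  refine ⟨X - s * Y ^ 2, ?_, ?_⟩
  · rw [map_sub, map_mul, map_pow, hc, sub_self]
  · rw [map_sub, map_mul, map_pow]
    refine h40n_irreducible_sub hX₁ ?_
    exact Ideal.mul_mem_left _ _ (Ideal.pow_mem_pow hY₁ 2)

/-- **L1, left lifting.**  Every element of `m₁` is the image of an element of `ker f₂`. -/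
theorem h40n_lift_left (f₁ : R →+* D₁) (f₂ : R →+* D₂) (hf₁ : Function.Surjective f₁)
    (hf₂ : Function.Surjective f₂)
    (X Y : R) (hX₁ : Irreducible (f₁ X)) (hX₂ : f₂ X ∈ maximalIdeal D₂ ^ 2)
    (hY₁ : f₁ Y ∈ maximalIdeal D₁) (hY₂ : Irreducible (f₂ Y))
    {a : D₁} (ha : a ∈ maximalIdeal D₁) :
    ∃ r : R, f₁ r = a ∧ f₂ r = 0 := by
  obtain ⟨r, hr₂, hr₁⟩ := h40n_exists_left f₁ f₂ hf₂ X Y hX₁ hX₂ hY₁ hY₂
  obtain ⟨c, hc⟩ := h40n_exists_eq_mul hr₁ ha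
  obtain ⟨s, rfl⟩ := hf₁ c
  exact ⟨s * r, by rw [map_mul, hc], by rw [map_mul, hr₂, mul_zero]⟩

/-- **L1, right lifting.**  Every element of `m₂` is the image of an element of `ker f₁`. -/
theorem h40n_lift_right (f₁ : R →+* D₁) (f₂ : R →+* D₂) (hf₁ : Function.Surjective f₁)
    (hf₂ : Function.Surjective f₂)
    (X Y : R) (hX₁ : Irreducible (f₁ X)) (hX₂ : f₂ X ∈ maximalIdeal D₂)
    (hY₁ : f₁ Y ∈ maximalIdeal D₁ ^ 2) (hY₂ : Irreducible (f₂ Y))
    {b : D₂} (hb : b ∈ maximalIdeal D₂) :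
    ∃ r : R, f₁ r = 0 ∧ f₂ r = b := by
  obtain ⟨r, h1, h2⟩ := h40n_lift_left f₂ f₁ hf₂ hf₁ Y X hY₂ hY₁ hX₂ hX₁ hb
  exact ⟨r, h2, h1⟩

/-- **L1 (node criterion).**  The image of `R` in `D₁ × D₂` is the whole fibre product of `D₁`
and `D₂` over the common residue field. -/
theorem h40n_node (f₁ : R →+* D₁) (f₂ : R →+* D₂) (hf₁ : Function.Surjective f₁)
    (hf₂ : Function.Surjective f₂)
    (X Y : R) (hX₁ : Irreducible (f₁ X)) (hX₂ : f₂ X ∈ maximalIdeal D₂ ^ 2)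
    (hY₁ : f₁ Y ∈ maximalIdeal D₁ ^ 2) (hY₂ : Irreducible (f₂ Y))
    (a : D₁) (b : D₂)
    (hab : ∃ r₀ : R, a - f₁ r₀ ∈ maximalIdeal D₁ ∧ b - f₂ r₀ ∈ maximalIdeal D₂) :
    ∃ r : R, f₁ r = a ∧ f₂ r = b := by
  obtain ⟨r₀, h1, h2⟩ := hab
  have hY₁' : f₁ Y ∈ maximalIdeal D₁ := Ideal.pow_le_self two_ne_zero hY₁
  have hX₂' : f₂ X ∈ maximalIdeal D₂ := Ideal.pow_le_self two_ne_zero hX₂
  obtain ⟨r₁, h11, h12⟩ := h40n_lift_left f₁ f₂ hf₁ hf₂ X Y hX₁ hX₂ hY₁' hY₂ h1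
  obtain ⟨r₂, h21, h22⟩ := h40n_lift_right f₁ f₂ hf₁ hf₂ X Y hX₁ hX₂' hY₁ hY₂ h2
  refine ⟨r₀ + r₁ + r₂, ?_, ?_⟩
  · rw [map_add, map_add, h11, h21]; ring
  · rw [map_add, map_add, h12, h22]; ring

/-- **L1, ideal form.**  `f₁ (ker f₂) = m₁`. -/
theorem h40n_map_ker_eq (f₁ : R →+* D₁) (f₂ : R →+* D₂) (hf₁ : Function.Surjective f₁)
    (hf₂ : Function.Surjective f₂)
    (X Y : R) (hX₁ : Irreducible (f₁ X)) (hX₂ : f₂ X ∈ maximalIdeal D₂ ^ 2)
    (hY₁ : f₁ Y ∈ maximalIdeal D₁) (hY₂ : Irreducible (f₂ Y))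
    (hker : ∀ r : R, f₂ r = 0 → f₁ r ∈ maximalIdeal D₁) :
    Ideal.map f₁ (RingHom.ker f₂) = maximalIdeal D₁ := by
  apply le_antisymm
  · rw [Ideal.map_le_iff_le_comap]
    intro r hr
    exact hker r ((RingHom.mem_ker).mp hr)
  · intro a ha
    obtain ⟨r, h1, h2⟩ := h40n_lift_left f₁ f₂ hf₁ hf₂ X Y hX₁ hX₂ hY₁ hY₂ ha
    rw [← h1]
    exact Ideal.mem_map_of_mem f₁ ((RingHom.mem_ker).mpr h2)

end Fermat.Agent.LGC
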