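import Mathlib

/-!
# W3-LGC, leaf L1: the node criterion (Mathlib only)

Let `D₁`, `D₂` be discrete valuation rings with residue maps `res_i : D_i → k` onto a common
field, and let `R` be a ring with surjections `f_i : R → D_i` compatible with the residue maps
(for instance `R ⊆ D₁ × D₂` the local ring of the special fibre at a crossing point of two
smooth components).  If there are `X, Y ∈ R` with

* `f₁ X` a uniformizer of `D₁`,
* `f₁ Y ∈ 𝔪₁ ^ 2`  and  `f₂ Y` a uniformizer of `D₂`, `f₂ X ∈ 𝔪₂`,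

then the image of `R` in `D₁ × D₂` is the whole fibre product `D₁ ×_k D₂`
(`= {(a, b) | res₁ a = res₂ b}`): the crossing point is an ordinary double point (a node).

No noetherian / local hypothesis on `R` is needed.
-/

set_option autoImplicit false

open IsLocalRing

namespace Fermat.Agent.LGC

section

variable {k D₁ D₂ R : Type*} [Field k]
  [CommRing D₁] [IsDomain D₁] [IsDiscreteValuationRing D₁]
  [CommRing D₂] [IsDomain D₂] [IsDiscreteValuationRing D₂]
  [CommRing R]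

/-- the kernel of a surjection of a local ring onto a field is the maximal ideal. -/
theorem h73_mem_maximalIdeal_of_res_eq_zero {D : Type*} [CommRing D] [IsLocalRing D]
    (res : D →+* k) {c : D} (hc : res c = 0) : c ∈ maximalIdeal D := by
  rw [mem_maximalIdeal, mem_nonunits_iff]
  intro hu
  have := hu.map res
  rw [hc] at this
  exact not_isUnit_zero this

/-- in a discrete valuation ring, a uniformizer plus an element of `𝔪 ^ 2` is a uniformizer. -/
theorem h73_irreducible_sub_of_mem_sq {D : Type*} [CommRing D] [IsDomain D]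
    [IsDiscreteValuationRing D] {ϖ c : D} (hϖ : Irreducible ϖ) (hc : c ∈ maximalIdeal D ^ 2) :
    Irreducible (ϖ - c) := by
  have hm : maximalIdeal D = Ideal.span {ϖ} := hϖ.maximalIdeal_eq
  rw [hm, Ideal.span_singleton_pow, Ideal.mem_span_singleton] at hc
  obtain ⟨d, rfl⟩ := hc
  have hu : IsUnit (1 - ϖ * d) := by
    have h1 : ϖ * d ∈ maximalIdeal D := by
      rw [hm]
      exact Ideal.mul_mem_right _ _ (Ideal.mem_span_singleton_self ϖ)
    by_contra hnu
    have h2 : (1 - ϖ * d) ∈ maximalIdeal D := by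
      rw [mem_maximalIdeal, mem_nonunits_iff]
      exact hnu
    have h3 : (1 : D) ∈ maximalIdeal D := by
      have h4 := Ideal.add_mem _ h2 h1
      rwa [sub_add_cancel] at h4
    exact (Ideal.ne_top_iff_one _).mp (maximalIdeal.isMaximal D).ne_top h3
  have he : ϖ - ϖ ^ 2 * d = ϖ * (1 - ϖ * d) := by ring
  rw [he]
  exact (irreducible_mul_isUnit hu).mpr hϖ

/-- **L1, core**: there is an element of `R` vanishing on the first branch and a uniformizer on
the second. -/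
theorem h73_exists_branch_uniformizer
    (f₁ : R →+* D₁) (f₂ : R →+* D₂) (hf₁ : Function.Surjective f₁)
    (X Y : R) (hX₁ : Irreducible (f₁ X)) (hX₂ : f₂ X ∈ maximalIdeal D₂)
    (hY₁ : f₁ Y ∈ maximalIdeal D₁ ^ 2) (hY₂ : Irreducible (f₂ Y)) :
    ∃ r : R, f₁ r = 0 ∧ Irreducible (f₂ r) := by
  have hm : maximalIdeal D₁ = Ideal.span {f₁ X} := hX₁.maximalIdeal_eq
  rw [hm, Ideal.span_singleton_pow, Ideal.mem_span_singleton] at hY₁
  obtain ⟨d, hd⟩ := hY₁
  obtain ⟨s, rfl⟩ := hf₁ d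
  refine ⟨Y - X ^ 2 * s, ?_, ?_⟩
  · rw [map_sub, map_mul, map_pow, hd, sub_self]
  · rw [map_sub, map_mul, map_pow]
    refine h73_irreducible_sub_of_mem_sq hY₂ ?_
    exact Ideal.mul_mem_right _ _ (Ideal.pow_mem_pow hX₂ 2)

/-- **L1 (node criterion).**  Under the hypotheses above every compatible pair `(a, b)` is in the
image of `R`. -/
theorem h73_node_criterion
    (res₁ : D₁ →+* k) (res₂ : D₂ →+* k)
    (f₁ : R →+* D₁) (f₂ : R →+* D₂)
    (hf₁ : Function.Surjective f₁) (hf₂ : Function.Surjective f₂)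
    (hcomp : ∀ r : R, res₁ (f₁ r) = res₂ (f₂ r))
    (X Y : R) (hX₁ : Irreducible (f₁ X)) (hX₂ : f₂ X ∈ maximalIdeal D₂)
    (hY₁ : f₁ Y ∈ maximalIdeal D₁ ^ 2) (hY₂ : Irreducible (f₂ Y))
    (a : D₁) (b : D₂) (hab : res₁ a = res₂ b) :
    ∃ r : R, f₁ r = a ∧ f₂ r = b := by
  obtain ⟨z, hz₁, hz₂⟩ := h73_exists_branch_uniformizer f₁ f₂ hf₁ X Y hX₁ hX₂ hY₁ hY₂
  obtain ⟨r₀, rfl⟩ := hf₁ a
  have hc : b - f₂ r₀ ∈ maximalIdeal D₂ := by
    refine h73_mem_maximalIdeal_of_res_eq_zero res₂ ?_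
    rw [map_sub, ← hab, hcomp, sub_self]
  rw [hz₂.maximalIdeal_eq, Ideal.mem_span_singleton] at hc
  obtain ⟨e, he⟩ := hc
  obtain ⟨t, rfl⟩ := hf₂ e
  refine ⟨r₀ + z * t, ?_, ?_⟩
  · rw [map_add, map_mul, hz₁, zero_mul, add_zero]
  · rw [map_add, map_mul, ← he]
    ring

/-- **L1, image form.**  The image of `R` in `D₁ × D₂` is the fibre product over `k`. -/
theorem h73_node_range
    (res₁ : D₁ →+* k) (res₂ : D₂ →+* k)
    (f₁ : R →+* D₁) (f₂ : R →+* D₂)
    (hf₁ : Function.Surjective f₁) (hf₂ : Function.Surjective f₂)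
    (hcomp : ∀ r : R, res₁ (f₁ r) = res₂ (f₂ r))
    (X Y : R) (hX₁ : Irreducible (f₁ X)) (hX₂ : f₂ X ∈ maximalIdeal D₂)
    (hY₁ : f₁ Y ∈ maximalIdeal D₁ ^ 2) (hY₂ : Irreducible (f₂ Y)) :
    Set.range (f₁.prod f₂) = {p : D₁ × D₂ | res₁ p.1 = res₂ p.2} := by
  ext ⟨a, b⟩
  constructor
  · rintro ⟨r, hr⟩
    have h1 : f₁ r = a := congrArg Prod.fst hr
    have h2 : f₂ r = b := congrArg Prod.snd hr
    change res₁ a = res₂ b
    rw [← h1, ← h2]
    exact hcomp r
  · intro hab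
    obtain ⟨r, h1, h2⟩ := h73_node_criterion res₁ res₂ f₁ f₂ hf₁ hf₂ hcomp X Y hX₁ hX₂ hY₁ hY₂
      a b hab
    exact ⟨r, Prod.ext h1 h2⟩

/-- **L1, kernel form.**  The kernel of `R → D₁ × D₂` aside, `R` is the fibre product: the
kernel of `f₁` maps onto the maximal ideal of `D₂`. -/
theorem h73_node_ker_map
    (f₁ : R →+* D₁) (f₂ : R →+* D₂)
    (hf₁ : Function.Surjective f₁) (hf₂ : Function.Surjective f₂)
    (X Y : R) (hX₁ : Irreducible (f₁ X)) (hX₂ : f₂ X ∈ maximalIdeal D₂)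
    (hY₁ : f₁ Y ∈ maximalIdeal D₁ ^ 2) (hY₂ : Irreducible (f₂ Y))
    (c : D₂) (hc : c ∈ maximalIdeal D₂) :
    ∃ r : R, f₁ r = 0 ∧ f₂ r = c := by
  obtain ⟨z, hz₁, hz₂⟩ := h73_exists_branch_uniformizer f₁ f₂ hf₁ X Y hX₁ hX₂ hY₁ hY₂
  rw [hz₂.maximalIdeal_eq, Ideal.mem_span_singleton] at hc
  obtain ⟨e, rfl⟩ := hc
  obtain ⟨t, rfl⟩ := hf₂ e
  exact ⟨z * t, by rw [map_mul, hz₁, zero_mul], by rw [map_mul]⟩

end

end Fermat.Agent.LGC
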