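import Mathlib

/-!
# W3-LGC, theorem (A), helper lemma (S1) (helper62): linear independence from a derivation

Hypothesis `hLI` of `h62n_key` / `h62n_node_xy`: the powers `1, Y, …, Y ^ (ℓ - 1)` are linearly
independent modulo `P₀` over the image of `Λ`.  It follows from the existence of a derivation
`d` on a domain `D ⊇ B / P₀` of characteristic `ℓ` which kills the image of `Λ` but not the
image of `Y` (for the modular curve: `D = k((q))`, `d = d/dq`, the image of `Λ` consists of
series in `q ^ ℓ`).
-/

set_option autoImplicit false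

open Polynomial

namespace Fermat.Agent.LGC

section

variable {D : Type*} [CommRing D]

theorem h62n_d_one (d : D →+ D) (hd : ∀ x y, d (x * y) = x * d y + y * d x) : d 1 = 0 := by
  have h := hd 1 1
  simp only [mul_one, one_mul] at h
  have h2 : d 1 + 0 = d 1 + d 1 := by rw [add_zero]; exact h
  exact (add_left_cancel h2).symm

theorem h62n_d_pow (d : D →+ D) (hd : ∀ x y, d (x * y) = x * d y + y * d x) (y : D) (n : ℕ) :
    d (y ^ n) = (n : D) * y ^ (n - 1) * d y := by
  induction n with
  | zero => simp [h62n_d_one d hd]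
  | succ n ih =>
    rw [pow_succ, hd, ih]
    rcases n with _ | n
    · simp
    · simp only [Nat.add_sub_cancel, Nat.cast_add, Nat.cast_one]
      ring

/-- for a polynomial `G` with `d`-constant coefficients, `d (G(y)) = G'(y) d y`. -/
theorem h62n_d_eval (d : D →+ D) (hd : ∀ x y, d (x * y) = x * d y + y * d x) (y : D)
    (G : D[X]) (hG : ∀ i, d (G.coeff i) = 0) :
    d (G.eval y) = (derivative G).eval y * d y := by
  rw [eval_eq_sum, Polynomial.sum_def, map_sum, derivative_apply, Polynomial.sum_def,
    eval_finsetSum, Finset.sum_mul]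
  apply Finset.sum_congr rfl
  intro i _
  rw [hd, hG i, mul_zero, add_zero, h62n_d_pow d hd]
  simp only [eval_mul, eval_C, eval_pow, eval_X]
  ring

variable [IsDomain D]

/-- a polynomial of degree `< ℓ` with `d`-constant coefficients which vanishes at a point `y`
with `d y ≠ 0` is zero. -/
theorem h62n_eq_zero_of_d (ℓ : ℕ) [CharP D ℓ]
    (d : D →+ D) (hd : ∀ x y, d (x * y) = x * d y + y * d x) (y : D) (hy : d y ≠ 0) :
    ∀ (n : ℕ) (G : D[X]), G.natDegree ≤ n → n < ℓ → (∀ i, d (G.coeff i) = 0) →
      G.eval y = 0 → G = 0 := by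
  intro n
  induction n with
  | zero =>
    intro G hdeg _ _ hev
    have hG : G = C (G.coeff 0) := eq_C_of_natDegree_le_zero hdeg
    rw [hG, eval_C] at hev
    rw [hG, hev, C_0]
  | succ n ih =>
    intro G hdeg hn hG hev
    have h1 : (derivative G).eval y * d y = 0 := by
      rw [← h62n_d_eval d hd y G hG, hev, map_zero]
    have h2 : (derivative G).eval y = 0 := by
      rcases mul_eq_zero.mp h1 with h | h
      · exact h
      · exact absurd h hy
    have h3 : (derivative G).natDegree ≤ n := by
      have := natDegree_derivative_le G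
      omega
    have h4 : ∀ i, d ((derivative G).coeff i) = 0 := by
      intro i
      rw [coeff_derivative, hd, hG]
      have : d ((i : D) + 1) = 0 := by
        have h5 : ((i : D) + 1) = ((i + 1 : ℕ) : D) := by push_cast; ring
        rw [h5]
        have h6 : ∀ m : ℕ, d (m : D) = 0 := by
          intro m
          induction m with
          | zero => simp
          | succ m ihm => rw [Nat.cast_succ, map_add, ihm, h62n_d_one d hd, add_zero]
        exact h6 _
      rw [this]; ring
    have h5 : derivative G = 0 := ih (derivative G) h3 (by omega) h4 h2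
    -- all coefficients of positive index vanish
    have h6 : ∀ i, G.coeff (i + 1) = 0 := by
      intro i
      by_cases hi : i + 1 ≤ n + 1
      · have h7 : (derivative G).coeff i = 0 := by rw [h5, coeff_zero]
        rw [coeff_derivative] at h7
        have h8 : ((i : D) + 1) ≠ 0 := by
          have h9 : ((i : D) + 1) = ((i + 1 : ℕ) : D) := by push_cast; ring
          rw [h9]
          intro h10
          have h11 : ℓ ∣ i + 1 := (CharP.cast_eq_zero_iff D ℓ (i + 1)).mp h10
          have := Nat.le_of_dvd (by omega) h11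
          omega
        rcases mul_eq_zero.mp h7 with h | h
        · exact h
        · exact absurd h h8
      · exact coeff_eq_zero_of_natDegree_lt (by omega)
    have h7 : G = C (G.coeff 0) := by
      ext i
      rcases i with _ | i
      · simp
      · rw [h6 i, coeff_C]
        simp
    rw [h7, eval_C] at hev
    rw [h7, hev, C_0]

end

/-- **(S1)**: hypothesis `hLI` of theorem (A) from a derivation. -/
theorem h62n_LI_of_derivation {Λ B D : Type*} [CommRing Λ] [CommRing B] [Algebra Λ B]
    [CommRing D] [IsDomain D] (ℓ : ℕ) [CharP D ℓ]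
    (P0 : Ideal B) (ρ : B →+* D) (hρ : ∀ b : B, ρ b = 0 ↔ b ∈ P0)
    (d : D →+ D) (hd : ∀ x y, d (x * y) = x * d y + y * d x)
    (hdΛ : ∀ x : Λ, d (ρ (algebraMap Λ B x)) = 0)
    (Y : B) (hdY : d (ρ Y) ≠ 0) :
    ∀ g : Λ[X], g.natDegree < ℓ → aeval Y g ∈ P0 → ∀ i, algebraMap Λ B (g.coeff i) ∈ P0 := by
  intro g hg hgY i
  set φ : Λ →+* D := ρ.comp (algebraMap Λ B) with hφ
  have hev : (g.map φ).eval (ρ Y) = 0 := by
    have h1 : ρ (aeval Y g) = 0 := (hρ _).mpr hgY
    rw [eval_map, ← h1, aeval_def, hom_eval₂]
  have hzero : g.map φ = 0 := by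
    refine h62n_eq_zero_of_d ℓ d hd (ρ Y) hdY (g.map φ).natDegree (g.map φ) le_rfl ?_ ?_ hev
    · exact lt_of_le_of_lt (natDegree_map_le) hg
    · intro j
      rw [coeff_map]
      exact hdΛ _
  have h2 : φ (g.coeff i) = 0 := by
    rw [← coeff_map, hzero, coeff_zero]
  exact (hρ _).mp h2

end Fermat.Agent.LGC
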