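import Fermat.Agent.LGC.Skeleton
import Fermat.Agent.LGC.SS85Generic
import Fermat.Agent.Red.GGSection

/-!
# W3-LGC: the interface `IfaceSSSection` at level `M * ℓ` from FINITE (helper85)

`GG.ifaceSection_of` (helper71, `Red/GGSection.lean`) is level-free: the evaluation at a place
centered on the special fibre is an `A`-algebra homomorphism `chart → A` with finitely generated
kernel as soon as the chart is a finitely generated `A[t]`-module.

* `h85s_ifaceSSSection_of` : `GG.IfaceFinite (M * ℓ) A t → IfaceSSSection A M ℓ t`.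
* `h85s_ifaceSSSection_fin` : `IfaceSSFinite A M ℓ → IfaceSSSection A M ℓ (jSS M ℓ)`.
-/

set_option autoImplicit false
set_option linter.unusedSectionVars false

open AlgebraicCurve ModularCurve WithZero IsLocalRing

noncomputable section

namespace Fermat.Agent.LGC

open Fermat.Agent.S37 Fermat.Agent.Red Fermat.Agent.Red.GG Fermat.Agent.Red.GV

variable (A : ValuationSubring Kbar) (M ℓ : ℕ) [NeZero M] [NeZero ℓ]

/-- **`IfaceSSSection`** from FINITE for the chart with coordinate `t`. -/
theorem h85s_ifaceSSSection_of (t : FF (M * ℓ)) (h : IfaceFinite (M * ℓ) A t) :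
    IfaceSSSection A M ℓ t :=
  ifaceSection_of (M * ℓ) A t h

/-- `IfaceSSFinite` is `GG.IfaceFinite` at level `M * ℓ`. -/
theorem h85s_ifaceSSFinite_iff : IfaceSSFinite A M ℓ ↔ IfaceFinite (M * ℓ) A (jSS M ℓ) :=
  Iff.rfl

/-- **`IfaceSSSection`** for the finite chart from `IfaceSSFinite`. -/
theorem h85s_ifaceSSSection_fin (h : IfaceSSFinite A M ℓ) :
    IfaceSSSection A M ℓ (jSS M ℓ) :=
  h85s_ifaceSSSection_of A M ℓ (jSS M ℓ) h

end Fermat.Agent.LGC
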