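import Fermat.Agent.LGC.Integrate63
import Fermat.Agent.LGC.Red63
import Fermat.Agent.LGC.LocalHalf
import Fermat.Agent.LGC.SS85Chart
import Fermat.Agent.LGC.SS85Section

/-!
# W3-LGC (helper63): assembly of `IfaceSSPieces` and of IN-MONO from the remaining modular
inputs

`IfaceSSCore` : the three modular inputs which are not formal:

* FINITE at the level `M * ℓ` for the two charts (`GG.IfaceFinite`),
* SS-GAL (`IfaceSSGal`),
* SS-LOCAL for the two charts (`IfaceSSLocal`).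

`ifaceSSPieces_of_core : IfaceSSCore → IfaceSSPieces` uses
* SS-CHART, SS-NT, SS-GENERIC (helper85, `SS85Chart.lean`, `SS85Generic.lean`),
* SS-SECTION from FINITE (helper71 / helper85, `SS85Section.lean`),
* SS-PERM from SS-CHART (`Red63.lean`),
* SS-LP from SS-CHART, SS-LOCAL, SS-SECTION (helper75, `LocalHalf.lean`).

`inertiaUnipotentTorsion_of_core : IfaceSSCore → IN-MONO` (with helper75's
`h75l_localAllDD`).
-/

set_option autoImplicit false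

open AlgebraicCurve ModularCurve WithZero IsLocalRing

noncomputable section

namespace Fermat.Agent.LGC

open Fermat.Agent.S37 Fermat.Agent.Red Fermat.Agent.Red.GG Fermat.Agent.Red.GV

/-- **the remaining modular inputs of the UNIP gate at the good levels.** -/
def IfaceSSCore : Prop :=
  ∀ (ℓ : ℕ) (hℓ : ℓ.Prime) (M : ℕ) [NeZero M], ¬ ℓ ∣ M → auxLevel ℓ ∣ M →
    haveI : NeZero ℓ := ⟨hℓ.ne_zero⟩
    ∀ A : ValuationSubring Kbar, A.LiesOverPrime ℓ →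
      (IfaceFinite (M * ℓ) A (jSS M ℓ) ∧ IfaceFinite (M * ℓ) A (jSS M ℓ)⁻¹) ∧
      IfaceSSGal A M ℓ ∧
      (IfaceSSLocal A M ℓ (jSS M ℓ) ∧ IfaceSSLocal A M ℓ (jSS M ℓ)⁻¹)

/-- **`IfaceSSPieces` from the remaining modular inputs.** -/
theorem ifaceSSPieces_of_core (h : IfaceSSCore) : IfaceSSPieces := by
  intro ℓ hℓ M _ hM haux
  have : NeZero ℓ := ⟨hℓ.ne_zero⟩
  intro A hA
  obtain ⟨⟨hF₀, hF₁⟩, hGal, hL₀, hL₁⟩ := h ℓ hℓ M hM haux A hA
  have hC₀ : IfaceSSChart A M ℓ (jSS M ℓ) := h85s_ifaceSSChart_fin A M ℓ hℓ hM hA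
  have hC₁ : IfaceSSChart A M ℓ (jSS M ℓ)⁻¹ := h85s_ifaceSSChart_inf A M ℓ hℓ hM hA
  have hS₀ : IfaceSSSection A M ℓ (jSS M ℓ) := h85s_ifaceSSSection_of A M ℓ _ hF₀
  have hS₁ : IfaceSSSection A M ℓ (jSS M ℓ)⁻¹ := h85s_ifaceSSSection_of A M ℓ _ hF₁
  exact ⟨⟨hC₀, hC₁⟩, h85s_ifaceSSNt A M ℓ hℓ hM hA, hF₀,
    ⟨h85s_ifaceSSGeneric_fin A M ℓ hℓ hA, h85s_ifaceSSGeneric_inf A M ℓ hℓ hA⟩, hGal,
    ⟨ifaceSSPerm_of_chart hℓ hM hA hC₀, ifaceSSPerm_inv_of_chart hℓ hM hA hC₁⟩,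
    ⟨h75l_ifaceSSLP A M ℓ _ hC₀ hL₀ hS₀, h75l_ifaceSSLP A M ℓ _ hC₁ hL₁ hS₁⟩⟩

/-- **IN-MONO from the remaining modular inputs.** -/
theorem inertiaUnipotentTorsion_of_core (h : IfaceSSCore) (N p : ℕ) [NeZero N]
    (hp : p.Prime) : Fermat.Agent.S34.InertiaUnipotentTorsion N p :=
  inertiaUnipotentTorsion_of_ssPieces h75l_localAllDD (ifaceSSPieces_of_core h) N p hp

end Fermat.Agent.LGC
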