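import Fermat.Agent.LGC.Pieces63
import Fermat.Agent.LGC.Gal75

/-!
# W3-LGC (helper63): assembly, second step

With helper75's unconditional `h75q_ifaceSSGal`, the inputs of IN-MONO are

* FINITE at the level `M * ℓ` for the two charts (`GG.IfaceFinite`),
* SS-LOCAL for the two charts (`IfaceSSLocal`).
-/

set_option autoImplicit false

open AlgebraicCurve ModularCurve WithZero IsLocalRing

noncomputable section

namespace Fermat.Agent.LGC

open Fermat.Agent.S37 Fermat.Agent.Red Fermat.Agent.Red.GG Fermat.Agent.Red.GV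

/-- FINITE at the level `M * ℓ`, both charts, at all good levels. -/
def IfaceSSFiniteAll : Prop :=
  ∀ (ℓ : ℕ) (hℓ : ℓ.Prime) (M : ℕ) [NeZero M], ¬ ℓ ∣ M → auxLevel ℓ ∣ M →
    haveI : NeZero ℓ := ⟨hℓ.ne_zero⟩
    ∀ A : ValuationSubring Kbar, A.LiesOverPrime ℓ →
      IfaceFinite (M * ℓ) A (jSS M ℓ) ∧ IfaceFinite (M * ℓ) A (jSS M ℓ)⁻¹

/-- SS-LOCAL, both charts, at all good levels. -/
def IfaceSSLocalAll : Prop :=
  ∀ (ℓ : ℕ) (hℓ : ℓ.Prime) (M : ℕ) [NeZero M], ¬ ℓ ∣ M → auxLevel ℓ ∣ M →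
    haveI : NeZero ℓ := ⟨hℓ.ne_zero⟩
    ∀ A : ValuationSubring Kbar, A.LiesOverPrime ℓ →
      IfaceSSLocal A M ℓ (jSS M ℓ) ∧ IfaceSSLocal A M ℓ (jSS M ℓ)⁻¹

/-- the remaining inputs give `IfaceSSCore`. -/
theorem ifaceSSCore_of (hF : IfaceSSFiniteAll) (hL : IfaceSSLocalAll) : IfaceSSCore := by
  intro ℓ hℓ M _ hM haux
  have : NeZero ℓ := ⟨hℓ.ne_zero⟩
  intro A hA
  exact ⟨hF ℓ hℓ M hM haux A hA, h75q_ifaceSSGal A M ℓ hℓ hM hA, hL ℓ hℓ M hM haux A hA⟩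

/-- **IN-MONO from FINITE and SS-LOCAL at the levels `M * ℓ`.** -/
theorem inertiaUnipotentTorsion_of_finite_local (hF : IfaceSSFiniteAll) (hL : IfaceSSLocalAll)
    (N p : ℕ) [NeZero N] (hp : p.Prime) : Fermat.Agent.S34.InertiaUnipotentTorsion N p :=
  inertiaUnipotentTorsion_of_core (ifaceSSCore_of hF hL) N p hp

end Fermat.Agent.LGC
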