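import Fermat.Agent.LGC.Skeleton
import Fermat.Agent.LGC.SSInt
import Fermat.Agent.Red.TransferRed
import Fermat.Agent.Red.KR.Basic
import Fermat.Agent.Red.HKMod
import Fermat.Agent.Red.GGInst

/-!
# W3-LGC: QEP at level `M * ℓ` with respect to the semistable Gauss ring

`hQEP` of `H26Chart` for the charts of level `M * ℓ` and `V = ssV A M ℓ`:
if `x ∈ ssV`, `a ≠ 0` in `A` and `a • x ∈ chart (M * ℓ) A t` then `x ∈ chart (M * ℓ) A t`
(`t = α t₀`, `t₀ = j` or `1 / j` of level `M`).

Proof: the coefficients `c_m` of the characteristic polynomial of `x` over `F_M` are integral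
over the Gauss valuation ring of level `M`, hence in it; the coefficients of the characteristic
polynomial of `a x` are `a ^ (n - m) c_m` and lie in the chart of level `M`; by QEP at level
`M`, `c_m` is in the chart of level `M`; so `x` is integral over the chart of level `M`.
-/

set_option autoImplicit false
set_option linter.unusedSectionVars false
set_option linter.style.haveILetI false

open AlgebraicCurve ModularCurve Polynomial

noncomputable section

namespace Fermat.Agent.LGC

open Fermat.Agent.S37 Fermat.Agent.Red Fermat.Agent.Red.GG Fermat.Agent.Red.GV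
  Fermat.Agent.Red.TRK

/-! ### The characteristic polynomial of a scalar multiple (Mathlib only) -/

theorem h28q_matrix_charpoly_smul {F : Type*} [Field F] {ι : Type*} [Fintype ι] [DecidableEq ι]
    (M : Matrix ι ι F) (c : F) (hc : c ≠ 0) :
    (c • M).charpoly = C c ^ Fintype.card ι * (M.charpoly).comp (C c⁻¹ * X) := by
  have hcc : (C c : F[X]) * C c⁻¹ = 1 := by
    rw [← map_mul, mul_inv_cancel₀ hc, map_one]
  have h1 : Matrix.charmatrix (c • M) =
      C c • (Polynomial.compRingHom (C c⁻¹ * X)).mapMatrix (Matrix.charmatrix M) := by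
    refine Matrix.ext fun i j => ?_
    rw [Matrix.smul_apply, RingHom.mapMatrix_apply, Matrix.map_apply]
    by_cases hij : i = j
    · subst hij
      rw [Matrix.charmatrix_apply_eq, Matrix.charmatrix_apply_eq, Matrix.smul_apply]
      simp only [coe_compRingHom, sub_comp, X_comp, C_comp, smul_eq_mul, map_mul]
      rw [mul_sub, ← mul_assoc, hcc, one_mul]
    · rw [Matrix.charmatrix_apply_ne _ _ _ hij, Matrix.charmatrix_apply_ne _ _ _ hij,
        Matrix.smul_apply]
      simp only [coe_compRingHom, neg_comp, C_comp, smul_eq_mul, map_mul]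
      ring
  rw [Matrix.charpoly, h1, Matrix.det_smul, ← RingHom.map_det]
  rfl

theorem h28q_matrix_charpoly_smul_coeff {F : Type*} [Field F] {ι : Type*} [Fintype ι]
    [DecidableEq ι] (M : Matrix ι ι F) (c : F) (hc : c ≠ 0) (m : ℕ) :
    (c • M).charpoly.coeff m * c ^ m = c ^ Fintype.card ι * M.charpoly.coeff m := by
  rw [h28q_matrix_charpoly_smul M c hc, ← map_pow, coeff_C_mul, comp_C_mul_X_coeff, inv_pow]
  have hcm : c ^ m ≠ 0 := pow_ne_zero _ hc
  field_simp

/-- the characteristic polynomial of `c • f`: `coeff_m (c f) · c ^ m = c ^ n · coeff_m f`. -/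
theorem h28q_charpoly_smul_coeff {F : Type*} [Field F] {V : Type*} [AddCommGroup V]
    [Module F V] [Module.Finite F V] (f : Module.End F V) (c : F) (hc : c ≠ 0) (m : ℕ) :
    (c • f).charpoly.coeff m * c ^ m = c ^ Module.finrank F V * f.charpoly.coeff m := by
  classical
  rw [LinearMap.charpoly_def, LinearMap.charpoly_def, map_smul,
    h28q_matrix_charpoly_smul_coeff _ c hc m, Module.finrank_eq_card_chooseBasisIndex]

/-- subtraction form. -/
theorem h28q_charpoly_smul_coeff' {F : Type*} [Field F] {V : Type*} [AddCommGroup V]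
    [Module F V] [Module.Finite F V] (f : Module.End F V) (c : F) (hc : c ≠ 0) (m : ℕ)
    (hm : m ≤ Module.finrank F V) :
    (c • f).charpoly.coeff m = c ^ (Module.finrank F V - m) * f.charpoly.coeff m := by
  have h := h28q_charpoly_smul_coeff f c hc m
  have hcm : c ^ m ≠ 0 := pow_ne_zero _ hc
  apply mul_right_cancel₀ hcm
  rw [h, mul_assoc, mul_comm (f.charpoly.coeff m), ← mul_assoc, ← pow_add,
    Nat.sub_add_cancel hm]

/-! ### Valuation subrings are integrally closed (subring form) -/

/-- an element of a field integral over a subring `R` with `x ∈ R ∨ x⁻¹ ∈ R` for all `x`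
lies in `R`. -/
theorem h28q_mem_of_isIntegral {F : Type*} [Field F] (R : Subring F)
    (hR : ∀ x : F, x ∈ R ∨ x⁻¹ ∈ R) {x : F} (hx : IsIntegral R x) : x ∈ R := by
  let V : ValuationSubring F := { R with mem_or_inv_mem' := hR }
  have h1 : IsIntegral V x := hx
  obtain ⟨y, hy⟩ := (IsIntegrallyClosed.isIntegral_iff (R := V) (K := F)).mp h1
  rw [← hy]
  exact y.2

/-! ### Abstract lemmas on `charpolyAlong` -/

section Abstract

variable {K F F' : Type*} [Field K] [Field F] [Field F'] [Algebra K F] [Algebra K F']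
  (φ : F →ₐ[K] F') (hfin : FiniteAlong K φ)

/-- the coefficients of the characteristic polynomial of `φ c * x`. -/
theorem h28q_charpolyAlong_coeff_mul (c : F) (hc : c ≠ 0) (x : F') (m : ℕ) :
    ∃ k : ℕ, (charpolyAlong φ hfin (φ c * x)).coeff m =
      c ^ k * (charpolyAlong φ hfin x).coeff m := by
  letI := algebraAlong φ
  haveI : Module.Finite F F' := hfin
  have hmul : LinearMap.mulLeft F (φ c * x) = c • LinearMap.mulLeft F x := by
    apply LinearMap.ext
    intro z
    show φ c * x * z = φ c * (x * z)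
    rw [mul_assoc]
  by_cases hm : m ≤ Module.finrank F F'
  · refine ⟨Module.finrank F F' - m, ?_⟩
    show (LinearMap.mulLeft F (φ c * x)).charpoly.coeff m = _
    rw [hmul]
    exact h28q_charpoly_smul_coeff' _ _ hc m hm
  · refine ⟨0, ?_⟩
    have h0 : ∀ y : F', (charpolyAlong φ hfin y).coeff m = 0 := by
      intro y
      apply Polynomial.coeff_eq_zero_of_natDegree_lt
      show (LinearMap.mulLeft F y).charpoly.natDegree < m
      rw [LinearMap.charpoly_natDegree]
      exact not_le.mp hm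
    rw [h0, h0, mul_zero]

/-- the coefficients of the characteristic polynomial of an element integral over the image of
a valuation subring lie in the valuation subring. -/
theorem h28q_coeff_mem_of_isIntegral (R : Subring F) (hR : ∀ y : F, y ∈ R ∨ y⁻¹ ∈ R)
    (x : F') (hx : IsIntegral (R.map φ.toRingHom) x) (m : ℕ) :
    (charpolyAlong φ hfin x).coeff m ∈ R := by
  letI := algebraAlong φ
  haveI : Module.Finite F F' := hfin
  have h := h87_isIntegral_coeff_of_le_map (F := F) (F' := F') R (R.map φ.toRingHom) le_rfl hx m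
  exact h28q_mem_of_isIntegral R hR h

/-- a root of a monic polynomial whose coefficients are integral over `R`, mapped by `φ` into
elements integral over `R'`, is integral over `R'`. -/
theorem h28q_isIntegral_of_root (R : Subring F) (R' : Subring F')
    (hmap : ∀ y : F, IsIntegral R y → IsIntegral R' (φ y))
    (p : Polynomial F) (hp : p.Monic) (hcoeff : ∀ m, IsIntegral R (p.coeff m))
    (x : F') (hroot : p.eval₂ φ.toRingHom x = 0) : IsIntegral R' x := by
  set S := integralClosure R' F' with hS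
  have hmem : p.map φ.toRingHom ∈ Polynomial.lifts (algebraMap S F') := by
    rw [lifts_iff_coeff_lifts]
    intro m
    rw [Polynomial.coeff_map]
    exact ⟨⟨_, hmap _ (hcoeff m)⟩, rfl⟩
  obtain ⟨q, hq, -, hqm⟩ := Polynomial.lifts_and_degree_eq_and_monic hmem
    (hp.map φ.toRingHom)
  have hint : IsIntegral S x := by
    refine ⟨q, hqm, ?_⟩
    have h1 : Polynomial.eval₂ (algebraMap S F') x q =
        Polynomial.eval₂ (RingHom.id F') x (q.map (algebraMap S F')) :=
      (Polynomial.eval₂_map (algebraMap S F') (RingHom.id F') x).symm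
    rw [h1, hq, Polynomial.eval₂_map, RingHom.id_comp]
    exact hroot
  exact isIntegral_trans x hint

end Abstract

/-! ### QEP at level `M * ℓ` -/

section QEP

variable (A : ValuationSubring Kbar) (M ℓ : ℕ) [NeZero M] [NeZero ℓ]

set_option synthInstance.maxHeartbeats 400000 in
set_option maxHeartbeats 1000000 in
/-- **QEP at level `M * ℓ`, abstract form**: from the valuation-ring property of `gaussV A M`
and QEP at level `M` for the chart `t₀`. -/
theorem h28q_qep_of (t₀ : FF M)
    (hV : ∀ y : FF M, y ∈ gaussV A M ∨ y⁻¹ ∈ gaussV A M)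
    (hQ : ∀ y : FF M, y ∈ gaussV A M → ∀ c : Kbar, c ∈ A → c ≠ 0 →
      cst M c * y ∈ modelAt M A t₀ → y ∈ modelAt M A t₀)
    (a : Kbar) (haA : a ∈ A) (ha : a ≠ 0) (x : FF (M * ℓ)) (hx : x ∈ ssV A M ℓ)
    (hax : cst (M * ℓ) a * x ∈ modelAt (M * ℓ) A (heckeAlphaBar Kbar M ℓ t₀)) :
    x ∈ modelAt (M * ℓ) A (heckeAlphaBar Kbar M ℓ t₀) := by
  have hfin : FiniteAlong Kbar (heckeAlphaBar Kbar M ℓ) :=
    Fermat.Agent.Red.HKMod.finiteAlong_heckeAlphaBar M ℓ
  -- (1) the coefficients of the characteristic polynomial of `x` are Gauss-integral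
  have h1 : ∀ m, (charpolyAlong (heckeAlphaBar Kbar M ℓ) hfin x).coeff m ∈ gaussV A M :=
    fun m => h28q_coeff_mem_of_isIntegral (heckeAlphaBar Kbar M ℓ) hfin (gaussV A M) hV x hx m
  -- (2) the coefficients of the characteristic polynomial of `a x` are in the chart
  have h2 : ∀ m, (charpolyAlong (heckeAlphaBar Kbar M ℓ) hfin (cst (M * ℓ) a * x)).coeff m ∈
      modelAt M A t₀ := fun m => h87_coeff_mem_modelAt (heckeAlphaBar Kbar M ℓ) hfin A t₀ hax m
  -- (3) scaling
  have hca : cst M a ≠ 0 := by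
    rw [Ne, map_eq_zero_iff _ (algebraMap Kbar (FF M)).injective]
    exact ha
  have hcst : heckeAlphaBar Kbar M ℓ (cst M a) = cst (M * ℓ) a :=
    (heckeAlphaBar Kbar M ℓ).commutes a
  -- (4) the coefficients of the characteristic polynomial of `x` are in the chart
  have h4 : ∀ m, (charpolyAlong (heckeAlphaBar Kbar M ℓ) hfin x).coeff m ∈ modelAt M A t₀ := by
    intro m
    obtain ⟨k, hk⟩ := h28q_charpolyAlong_coeff_mul (heckeAlphaBar Kbar M ℓ) hfin (cst M a) hca x m
    have h5 := h2 m
    rw [← hcst, hk, ← map_pow] at h5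
    exact hQ _ (h1 m) _ (pow_mem haA _) (pow_ne_zero _ ha) h5
  -- (5) `x` is integral over the chart of level `M`
  exact h28q_isIntegral_of_root (heckeAlphaBar Kbar M ℓ) (ringAdj M A t₀)
    (ringAdj (M * ℓ) A (heckeAlphaBar Kbar M ℓ t₀))
    (fun y hy => Fermat.Agent.Red.KR.map_mem_modelAt (heckeAlphaBar Kbar M ℓ) A hy)
    _ (charpolyAlong_monic _ hfin x) h4 x
    (h44g_eval₂_charpolyAlong (heckeAlphaBar Kbar M ℓ) hfin x)

variable {ℓ}

set_option synthInstance.maxHeartbeats 400000 in
/-- **hQEP at level `M * ℓ`, finite chart** (the field `hQEP` of `H26Chart`, i.e. of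
`IfaceSSChart A M ℓ (jSS M ℓ)`). -/
theorem h28q_hQEP_fin (hℓ : ℓ.Prime) (hM : ¬ ℓ ∣ M) (hA : A.LiesOverPrime ℓ) :
    ∀ a : A, algebraMap A (FF (M * ℓ)) a ≠ 0 → ∀ x ∈ ssV A M ℓ,
      a • x ∈ chart (M * ℓ) A (jSS M ℓ) → x ∈ chart (M * ℓ) A (jSS M ℓ) := by
  intro a ha x hx h
  have ha0 : (a : Kbar) ≠ 0 := by
    intro h0
    apply ha
    rw [algebraMap_apply_FF, h0]
    exact map_zero _
  rw [smul_def_FF] at h
  exact h28q_qep_of A M ℓ (jB M) (mem_or_inv_mem_gaussV A M hℓ hM hA)
    (fun y hy c hcA hc hcy => mem_modelFin_of_cst_mul A M hℓ hM hA y hy c hcA hc hcy)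
    (a : Kbar) a.2 ha0 x hx h

set_option synthInstance.maxHeartbeats 400000 in
/-- **hQEP at level `M * ℓ`, chart at infinity** (the field `hQEP` of
`IfaceSSChart A M ℓ (jSS M ℓ)⁻¹`). -/
theorem h28q_hQEP_inf (hℓ : ℓ.Prime) (hM : ¬ ℓ ∣ M) (hA : A.LiesOverPrime ℓ) :
    ∀ a : A, algebraMap A (FF (M * ℓ)) a ≠ 0 → ∀ x ∈ ssV A M ℓ,
      a • x ∈ chart (M * ℓ) A (jSS M ℓ)⁻¹ → x ∈ chart (M * ℓ) A (jSS M ℓ)⁻¹ := by
  intro a ha x hx h
  have ha0 : (a : Kbar) ≠ 0 := by
    intro h0
    apply ha
    rw [algebraMap_apply_FF, h0]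
    exact map_zero _
  have hj : (jSS M ℓ)⁻¹ = heckeAlphaBar Kbar M ℓ (jB M)⁻¹ :=
    (map_inv₀ (heckeAlphaBar Kbar M ℓ) (jB M)).symm
  rw [smul_def_FF] at h
  rw [mem_chart, hj] at h ⊢
  exact h28q_qep_of A M ℓ (jB M)⁻¹ (mem_or_inv_mem_gaussV A M hℓ hM hA)
    (fun y hy c hcA hc hcy => mem_modelInf_of_cst_mul A M hℓ hM hA y hy c hcA hc hcy)
    (a : Kbar) a.2 ha0 x hx h

end QEP

end Fermat.Agent.LGC
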