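import Mathlib
import Fermat.Prelude.Def_FLTPrelim_Ramification

/-!
# W3-LGC, leaf R5 (helper92): the residue field of a valuation ring of an algebraic closure of `ℚ`

`K` an algebraic closure of `ℚ` (any algebraically closed field, algebraic over `ℚ`), `A` a
valuation subring of `K` over the prime `ℓ`.

* `h92r_hperf` : every element of `A` is an `ℓ`-th power in `A` (in particular modulo `𝔪_A`).
* `h92r_hsep` : every element of `A` is, modulo `𝔪_A`, a simple root of an integer polynomial
  (the residue field is algebraic over `𝔽_ℓ`, which is perfect).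

These are the inputs `hperf`, `hsep` of `h62l_local` (`LGC/H62TwoComp.lean`).
-/

set_option autoImplicit false

open Polynomial IsLocalRing

namespace Fermat.Agent.LGC

section

variable {K : Type*} [Field K]

/-- a valuation subring contains the roots of its elements. -/
theorem h92r_mem_of_pow_mem (A : ValuationSubring K) {n : ℕ} (hn : n ≠ 0) {b : K}
    (hb : b ^ n ∈ A) : b ∈ A := by
  rcases A.mem_or_inv_mem b with h | h
  · exact h
  · by_cases hb0 : b = 0
    · rw [hb0]; exact A.zero_mem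
    -- `b = b ^ n * (b⁻¹) ^ (n - 1)`
    have h1 : b = b ^ n * b⁻¹ ^ (n - 1) := by
      obtain ⟨m, rfl⟩ : ∃ m, n = m + 1 := Nat.exists_eq_succ_of_ne_zero hn
      rw [Nat.add_sub_cancel, pow_succ, inv_pow]
      field_simp
    rw [h1]
    exact A.mul_mem _ _ hb (pow_mem h _)

/-- **`hperf`**: every element of `A` is an `ℓ`-th power of an element of `A`. -/
theorem h92r_exists_pow_eq [IsAlgClosed K] (A : ValuationSubring K) {n : ℕ} (hn : n ≠ 0)
    (a : A) : ∃ a' : A, a' ^ n = a := by
  obtain ⟨b, hb⟩ := IsAlgClosed.exists_pow_nat_eq (a : K) (Nat.pos_of_ne_zero hn)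
  have hbA : b ∈ A := h92r_mem_of_pow_mem A hn (by rw [hb]; exact a.2)
  exact ⟨⟨b, hbA⟩, Subtype.ext (by simpa using hb)⟩

/-- **`hperf`** in the shape of `h62l_local`. -/
theorem h92r_hperf [IsAlgClosed K] (A : ValuationSubring K) {ℓ : ℕ} (hℓ : ℓ ≠ 0) :
    ∀ a : A, ∃ a' : A, a - a' ^ ℓ ∈ maximalIdeal A := by
  intro a
  obtain ⟨a', ha'⟩ := h92r_exists_pow_eq A hℓ a
  exact ⟨a', by rw [ha', sub_self]; exact Ideal.zero_mem _⟩

end

section Sep

variable {K : Type*} [Field K] [CharZero K] [Algebra.IsAlgebraic ℚ K]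

/-- every element of `K` is a root of a primitive integer polynomial. -/
theorem h92r_exists_primitive (x : K) :
    ∃ P : ℤ[X], P.IsPrimitive ∧ aeval x P = 0 := by
  have hx : IsAlgebraic ℚ x := Algebra.IsAlgebraic.isAlgebraic x
  have hx' : IsAlgebraic ℤ x := (IsFractionRing.isAlgebraic_iff ℤ ℚ K).mpr hx
  obtain ⟨P, hP0, hP⟩ := hx'
  refine ⟨P.primPart, P.isPrimitive_primPart, ?_⟩
  have h1 : P = C P.content * P.primPart := P.eq_C_content_mul_primPart
  have h2 : aeval x P = algebraMap ℤ K P.content * aeval x P.primPart := by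
    conv_lhs => rw [h1]
    rw [map_mul, aeval_C]
  rw [hP] at h2
  have h3 : algebraMap ℤ K P.content ≠ 0 := by
    rw [Ne, map_eq_zero_iff _ (algebraMap ℤ K).injective_int]
    exact content_eq_zero_iff.not.mpr hP0
  exact (mul_eq_zero.mp h2.symm).resolve_left h3

/-- a primitive integer polynomial is nonzero modulo a prime. -/
theorem h92r_map_ne_zero {ℓ : ℕ} (hℓ : ℓ.Prime) {P : ℤ[X]} (hP : P.IsPrimitive) :
    P.map (Int.castRingHom (ZMod ℓ)) ≠ 0 := by
  intro h
  have h1 : C (ℓ : ℤ) ∣ P := by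
    rw [C_dvd_iff_dvd_coeff]
    intro n
    have h2 : (P.map (Int.castRingHom (ZMod ℓ))).coeff n = 0 := by rw [h]; simp
    rw [coeff_map] at h2
    exact (ZMod.intCast_zmod_eq_zero_iff_dvd _ _).mp h2
  have h3 : IsUnit (ℓ : ℤ) := hP _ h1
  have h4 : ((ℓ : ℤ)).natAbs = 1 := Int.isUnit_iff_natAbs_eq.mp h3
  have h5 : ℓ = 1 := by simpa using h4
  exact hℓ.one_lt.ne' h5

/-- **`hsep`**: every element of `A` is, modulo `𝔪_A`, a simple root of an integer polynomial. -/
theorem h92r_hsep (A : ValuationSubring K) {ℓ : ℕ} (hℓ : ℓ.Prime) (hA : A.LiesOverPrime ℓ) :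
    ∀ a : A, ∃ m : ℤ[X], aeval a m ∈ maximalIdeal A ∧
      aeval a (derivative m) ∉ maximalIdeal A := by
  intro a
  have : Fact ℓ.Prime := ⟨hℓ⟩
  have hℓA : ((ℓ : ℕ) : A) ∈ maximalIdeal A := by
    rw [← ValuationSubring.coe_mem_nonunits_iff]
    exact hA
  have hℓk : ((ℓ : ℕ) : ResidueField A) = 0 := by
    have := (residue_eq_zero_iff ((ℓ : ℕ) : A)).mpr hℓA
    simpa using this
  have hchar : CharP (ResidueField A) ℓ := by
    obtain ⟨p, hp⟩ := CharP.exists (ResidueField A)
    have h1 : p ∣ ℓ := (CharP.cast_eq_zero_iff (ResidueField A) p ℓ).mp hℓk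
    rcases (Nat.dvd_prime hℓ).mp h1 with h | h
    · exact absurd h (CharP.char_ne_one (ResidueField A) p)
    · rw [← h]; exact hp
  let _ : Algebra (ZMod ℓ) (ResidueField A) := ZMod.algebra _ ℓ
  -- the compatibility of the two evaluations
  have hcomp : ∀ m : ℤ[X], residue A (aeval a m) =
      aeval (residue A a) (m.map (Int.castRingHom (ZMod ℓ))) := by
    intro m
    rw [aeval_def, aeval_def, hom_eval₂, eval₂_map]
    congr 1
    exact RingHom.ext_int _ _
  -- algebraicity of the residue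
  obtain ⟨P, hPprim, hP⟩ := h92r_exists_primitive ((a : A) : K)
  have hPA : aeval a P = 0 := by
    apply Subtype.ext
    have h1 : ((aeval a P : A) : K) = aeval ((a : A) : K) P := by
      rw [aeval_def, aeval_def]
      exact (hom_eval₂ P (algebraMap ℤ A) A.subtype a).trans (by congr 1)
    rw [h1, hP]; rfl
  have halg : IsAlgebraic (ZMod ℓ) (residue A a) :=
    ⟨P.map (Int.castRingHom (ZMod ℓ)), h92r_map_ne_zero hℓ hPprim, by rw [← hcomp, hPA, map_zero]⟩
  have hint : IsIntegral (ZMod ℓ) (residue A a) := halg.isIntegral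
  have hsep : (minpoly (ZMod ℓ) (residue A a)).Separable :=
    PerfectField.separable_of_irreducible (minpoly.irreducible hint)
  obtain ⟨m, hm⟩ := Polynomial.map_surjective (Int.castRingHom (ZMod ℓ))
    (ZMod.intCast_surjective) (minpoly (ZMod ℓ) (residue A a))
  refine ⟨m, ?_, ?_⟩
  · rw [← residue_eq_zero_iff, hcomp, hm, minpoly.aeval]
  · rw [← residue_eq_zero_iff, hcomp, ← derivative_map, hm]
    exact hsep.aeval_derivative_ne_zero (minpoly.aeval _ _)

end Sep

end Fermat.Agent.LGC
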