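import Fermat.Agent.LGC.SS85Comp
import Fermat.Agent.LGC.H62Final

/-!
# W3-LGC (I2): the leaf `H62Comp` of helper62's wiring `h62i_ifaceSSLocal_fin` (helper85)

helper62's components `h62i_Pinf`, `h62i_P0` of the finite chart of level `M * ℓ` are the centres
`h85cPinf`, `h85cP0` of `LGC/SS85Comp.lean` (`h85c_Pinf_eq`, `h85c_P0_eq`), hence

* `h85c_H62Comp : H62Comp A M hℓ hM hA` : **(REDUCED)** `P_∞ ⊓ P_0 ≤ 𝔪_A B`, unconditionally.
-/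

set_option autoImplicit false
set_option linter.unusedSectionVars false

open AlgebraicCurve ModularCurve WithZero IsLocalRing

noncomputable section

namespace Fermat.Agent.LGC

open Fermat.Agent.S37 Fermat.Agent.Red Fermat.Agent.Red.GG Fermat.Agent.Red.GV
  Fermat.Agent.Red.GV.Soft Fermat.Agent.Red.Kron

variable (A : ValuationSubring Kbar) (M : ℕ) {ℓ : ℕ} [NeZero M] [NeZero ℓ]
  (hℓ : ℓ.Prime) (hM : ¬ ℓ ∣ M) (hA : A.LiesOverPrime ℓ)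

theorem h85c_Pinf_eq :
    h62i_Pinf A M hℓ hM hA = h85cPinf A M ℓ hℓ hA (jSS M ℓ) := by
  ext b
  rw [h62i_mem_Pinf, h85c_mem_Pinf_iff A M ℓ hℓ hA (h85s_ifaceSSChart_fin A M ℓ hℓ hM hA)]

theorem h85c_P0_eq :
    h62i_P0 A M hℓ hM hA = h85cP0 A M ℓ hℓ hM hA (jSS M ℓ) := by
  ext b
  rw [h62i_mem_P0, h85c_mem_P0_iff A M ℓ hℓ hM hA (h85s_ifaceSSChart_fin A M ℓ hℓ hM hA)]

/-- **leaf (I2) of `h62i_ifaceSSLocal_fin`**: `P_∞ ⊓ P_0 ≤ 𝔪_A B` on the finite chart. -/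
theorem h85c_H62Comp : H62Comp A M hℓ hM hA := by
  unfold H62Comp
  rw [h85c_Pinf_eq, h85c_P0_eq]
  exact h85c_hSF A M ℓ hℓ hM hA (h85s_ifaceSSChart_fin A M ℓ hℓ hM hA)

end Fermat.Agent.LGC
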